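/-
M17 (target S17), block [DICT] (helper4): **the dictionary places of `F_ℂ = FC N` ↔ `Γ₀(N)\ℍ`**.

* `jFun_eq_of_ptPlaceC_eq` : a point place determines the `j`-value;
* `mem_orbit_of_ptPlaceC_eq` (abstract counting form) and
  `exists_mem_Gamma0_smul_eq_of_ptPlaceC_eq` : **injectivity mod `Γ₀(N)`**:
  `ptPlaceC N 1 z = ptPlaceC N 1 z' → ∃ γ ∈ Γ₀(N), γ • z = z'`;
* `exists_holH_of_forall_mem_valAt` : an element of `MerH` regular at every point is holomorphic.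

Imported by no statement.
-/
import Fermat.Agent.ES.KUM.CSurj25
import Fermat.Agent.ES.KUM.CExact5
import Fermat.Agent.X0.PlaceCount
import Fermat.Agent.X0.OrbitCount
import Fermat.Agent.X0.JInjective
import Fermat.Agent.M15.DivDlog1

set_option autoImplicit false
set_option linter.unusedSectionVars false

open UpperHalfPlane AlgebraicCurve MulAction Subgroup
open scoped Topology Manifold MatrixGroups
open CongruenceSubgroup

noncomputable section

namespace Fermat.Agent.M17.Dict4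

open Fermat.Agent.X0 Fermat.Agent.ES.KUM Fermat.Agent.X0.SurjPoint
open Fermat.Agent.X0.JOrderMain ModularCurve

variable (N : ℕ) [NeZero N]

/-! ### a point place determines the `j`-value -/

theorem jFun_eq_of_ptPlaceC_eq {g g' : SL(2, ℤ)} {z z' : ℍ}
    (h : ptPlaceC N g z = ptPlaceC N g' z') : jFun z = jFun z' := by
  by_contra hne
  set v := ptPlaceC N g z with hv
  have h1 : 0 < v.ord (jC N - algebraMap ℂ (FC N) (jFun z)) := ord_jC_sub_pos N g z
  have h2 : 0 < v.ord (jC N - algebraMap ℂ (FC N) (jFun z')) := by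
    rw [h]; exact ord_jC_sub_pos N g' z'
  have e : algebraMap ℂ (FC N) (jFun z' - jFun z) =
      (jC N - algebraMap ℂ (FC N) (jFun z)) - (jC N - algebraMap ℂ (FC N) (jFun z')) := by
    rw [map_sub]; ring
  have h3 : v.ord (algebraMap ℂ (FC N) (jFun z' - jFun z)) = 0 := FF.ord_algebraMap v _
  have hne0 : (jC N - algebraMap ℂ (FC N) (jFun z)) - (jC N - algebraMap ℂ (FC N) (jFun z')) ≠ 0 := by
    rw [← e]
    intro h0
    have := (algebraMap ℂ (FC N)).injective (h0.trans (map_zero _).symm)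
    exact hne (sub_eq_zero.mp this).symm
  have h4 := FF.ord_sub_ge v hne0
  rw [← e, h3] at h4
  have := lt_min h1 h2
  omega

/-! ### injectivity of the point places on `SL(2, ℤ) ⧸ Γ₀(N)` modulo the stabiliser -/

/-- the point places over `j = j(zs)`, indexed by the cosets. -/
def plC (zs : ℍ) (x : SL(2, ℤ) ⧸ Gamma0 N) : Place ℂ (FC N) := ptPlaceC N x.out zs

theorem plC_mk (zs : ℍ) (g : SL(2, ℤ)) : plC N zs (QuotientGroup.mk g) = ptPlaceC N g zs :=
  ptPlaceC_of_mk_eq N (QuotientGroup.out_eq' _).symm zs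

theorem ptPlaceC_zpow_mul_of_fixed (ε g : SL(2, ℤ)) (zs : ℍ) (hε : ε • zs = zs) (k : ℤ) :
    ptPlaceC N (ε ^ k * g) zs = ptPlaceC N g zs := by
  have hk : ε ^ k • zs = zs := by
    have : ε ∈ MulAction.stabilizer (SL(2, ℤ)) zs := hε
    exact (MulAction.stabilizer (SL(2, ℤ)) zs).zpow_mem this k
  exact ptPlaceC_mul_left_of_fixed N (ε ^ k) g zs hk

/-- **Abstract counting form of the injectivity**: if the ramification orders over `j(zs)` are
bounded by the orbit sizes of `⟨ε⟩` (`ε` fixing `zs`) on the cosets, then two cosets with the same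
point place are in the same `⟨ε⟩`-orbit. -/
theorem mem_orbit_of_ptPlaceC_eq (zs : ℍ) (ε : SL(2, ℤ)) (hfix : ε • zs = zs)
    (hle : ∀ x : SL(2, ℤ) ⧸ Gamma0 N,
      (plC N zs x).ord (jC N - algebraMap ℂ (FC N) (jFun zs)) ≤
        (Nat.card (orbit (zpowers ε) x) : ℤ))
    {g g' : SL(2, ℤ)} (h : ptPlaceC N g zs = ptPlaceC N g' zs) :
    (QuotientGroup.mk g' : SL(2, ℤ) ⧸ Gamma0 N) ∈
      orbit (zpowers ε) (QuotientGroup.mk g : SL(2, ℤ) ⧸ Gamma0 N) := by
  classical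
  set c : ℂ := jFun zs with hc
  set f : FC N := jC N - algebraMap ℂ (FC N) c with hf
  have hfin : {v : Place ℂ (FC N) | 0 < v.ord f}.Finite := FF.finite_fibre (isGen_jC N) c
  have hsum : ∑ᶠ (v : Place ℂ (FC N)) (_ : 0 < v.ord f), v.ord f = (dedekindPsi N : ℤ) := by
    have := FF.sum_ord_fibre (isGen_jC N) c
    rw [finrank_jC] at this
    exact this
  have hinv : ∀ (σ : zpowers ε) (a : SL(2, ℤ) ⧸ Gamma0 N), plC N zs (σ • a) = plC N zs a := by
    rintro ⟨σ, hσ⟩ a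
    obtain ⟨k, rfl⟩ := mem_zpowers_iff.mp hσ
    induction a using QuotientGroup.induction_on with
    | H g₀ =>
      show plC N zs ((ε ^ k) • (QuotientGroup.mk g₀ : SL(2, ℤ) ⧸ Gamma0 N)) = _
      rw [MulAction.Quotient.smul_mk, plC_mk, plC_mk, smul_eq_mul]
      exact ptPlaceC_zpow_mul_of_fixed N ε g₀ zs hfix k
  have hsurj : ∀ v : Place ℂ (FC N), 0 < v.ord f → ∃ a, plC N zs a = v := by
    intro v hv
    obtain ⟨g₀, rfl⟩ := CSurj25.exists_ptPlaceC_eq N zs v hv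
    exact ⟨QuotientGroup.mk g₀, plC_mk N zs g₀⟩
  have hpos : ∀ a, 0 < (plC N zs a).ord f := fun a => ord_jC_sub_pos N a.out zs
  obtain ⟨hcard, -⟩ := PlaceCount.pc_zero_count (K := ℂ) f (dedekindPsi N) hfin hsum
    (X := SL(2, ℤ) ⧸ Gamma0 N) (G := zpowers ε) (card_quot N) (plC N zs) hpos hsurj hinv hle
  -- the induced map on orbits is a surjection between finite sets of the same cardinality
  let V := {v : Place ℂ (FC N) // 0 < v.ord f}
  have : Finite V := hfin.to_subtype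
  let pbar : orbitRel.Quotient (zpowers ε) (SL(2, ℤ) ⧸ Gamma0 N) → V :=
    Quotient.lift (fun a => (⟨plC N zs a, hpos a⟩ : V)) (by
      intro a b hab
      change a ∈ orbit (zpowers ε) b at hab
      obtain ⟨σ, rfl⟩ := hab
      exact Subtype.ext (hinv σ b))
  have hpsurj : Function.Surjective pbar := by
    rintro ⟨v, hv⟩
    obtain ⟨a, rfl⟩ := hsurj v hv
    exact ⟨Quotient.mk'' a, rfl⟩
  have hbij : Function.Bijective pbar :=
    hpsurj.bijective_of_nat_card_le (le_of_eq hcard.symm)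
  have heq : pbar (Quotient.mk'' (QuotientGroup.mk g')) = pbar (Quotient.mk'' (QuotientGroup.mk g)) := by
    apply Subtype.ext
    show plC N zs (QuotientGroup.mk g') = plC N zs (QuotientGroup.mk g)
    rw [plC_mk, plC_mk, h]
  have := hbij.1 heq
  exact Quotient.exact' this

/-- unpacking the orbit. -/
theorem exists_zpow_mul_of_mem_orbit (ε : SL(2, ℤ)) {g g' : SL(2, ℤ)}
    (h : (QuotientGroup.mk g' : SL(2, ℤ) ⧸ Gamma0 N) ∈
      orbit (zpowers ε) (QuotientGroup.mk g : SL(2, ℤ) ⧸ Gamma0 N)) :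
    ∃ k : ℤ, ∃ γ ∈ Gamma0 N, g' = ε ^ k * g * γ := by
  obtain ⟨⟨σ, hσ⟩, hσg⟩ := h
  obtain ⟨k, rfl⟩ := mem_zpowers_iff.mp hσ
  have h1 : (QuotientGroup.mk (ε ^ k * g) : SL(2, ℤ) ⧸ Gamma0 N) = QuotientGroup.mk g' := hσg
  obtain ⟨γ, hγ, e⟩ := exists_mul_of_mk_eq N h1
  exact ⟨k, γ, hγ, e⟩

/-! ### the bounds `hle` -/

theorem one_le_card_orbit (ε : SL(2, ℤ)) (x : SL(2, ℤ) ⧸ Gamma0 N) :
    1 ≤ Nat.card (orbit (zpowers ε) x) := by
  have : Nonempty (orbit (zpowers ε) x) := ⟨⟨x, mem_orbit_self x⟩⟩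
  have : Finite (orbit (zpowers ε) x) := Subtype.finite
  exact Nat.card_pos

/-- generic base point. -/
theorem hle_generic (zs : ℍ) (hell : ellOrder zs = 1) (ε : SL(2, ℤ))
    (x : SL(2, ℤ) ⧸ Gamma0 N) :
    (plC N zs x).ord (jC N - algebraMap ℂ (FC N) (jFun zs)) ≤
      (Nat.card (orbit (zpowers ε) x) : ℤ) := by
  have h1 := ptIdx_mul_ord_jC_sub N x.out zs
  have h2 := ord_jC_sub_pos N x.out zs
  have h3 : (1 : ℤ) ≤ ptIdx N x.out zs := by exact_mod_cast ptIdx_pos N x.out zs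
  rw [hell] at h1
  have h4 : (plC N zs x).ord (jC N - algebraMap ℂ (FC N) (jFun zs)) ≤ 1 := by
    show (ptPlaceC N x.out zs).ord _ ≤ 1
    push_cast at h1
    nlinarith
  have h5 : (1 : ℤ) ≤ (Nat.card (orbit (zpowers ε) x) : ℤ) := by
    exact_mod_cast one_le_card_orbit N ε x
  linarith

/-- elliptic base point. -/
theorem hle_elliptic (zs : ℍ) (ε : SL(2, ℤ)) (p : ℕ) (hp : p.Prime)
    (hpow : ∀ x : SL(2, ℤ) ⧸ Gamma0 N, ε ^ p • x = x) (hell : ellOrder zs = p)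
    (hfixidx : ∀ g : SL(2, ℤ), g⁻¹ * ε * g ∈ Gamma0 N → ptIdx N g zs = p)
    (x : SL(2, ℤ) ⧸ Gamma0 N) :
    (plC N zs x).ord (jC N - algebraMap ℂ (FC N) (jFun zs)) ≤
      (Nat.card (orbit (zpowers ε) x) : ℤ) := by
  have h1 := ptIdx_mul_ord_jC_sub N x.out zs
  have h2 := ord_jC_sub_pos N x.out zs
  have h3 : (1 : ℤ) ≤ ptIdx N x.out zs := by exact_mod_cast ptIdx_pos N x.out zs
  rw [hell] at h1
  by_cases hx : ε • x = x
  · have hmem : x.out⁻¹ * ε * x.out ∈ Gamma0 N := by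
      have hx' : ε • (QuotientGroup.mk x.out : SL(2, ℤ) ⧸ Gamma0 N) = QuotientGroup.mk x.out := by
        rw [QuotientGroup.out_eq']; exact hx
      rw [MulAction.Quotient.smul_mk, QuotientGroup.eq, smul_eq_mul] at hx'
      have : x.out⁻¹ * ε * x.out = ((ε * x.out)⁻¹ * x.out)⁻¹ := by group
      rw [this]
      exact inv_mem hx'
    have h4 := hfixidx x.out hmem
    rw [h4] at h1
    have hp0 : (0 : ℤ) < p := by exact_mod_cast hp.pos
    have h5 : (plC N zs x).ord (jC N - algebraMap ℂ (FC N) (jFun zs)) = 1 := by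
      show (ptPlaceC N x.out zs).ord _ = 1
      have := mul_left_cancel₀ hp0.ne' (h1.trans (mul_one (p : ℤ)).symm)
      exact this
    rw [h5]
    exact_mod_cast one_le_card_orbit N ε x
  · have h4 : Nat.card (orbit (zpowers ε) x) = p :=
      OrbitCount.card_orbit_zpowers_of_prime hp (hpow x) hx
    rw [h4]
    show (ptPlaceC N x.out zs).ord _ ≤ (p : ℤ)
    nlinarith

/-! ### injectivity modulo `Γ₀(N)` -/

/-- the transport step. -/
theorem exists_of_mem_orbit (zs : ℍ) (ε : SL(2, ℤ)) (hfix : ε • zs = zs)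
    (hle : ∀ x : SL(2, ℤ) ⧸ Gamma0 N,
      (plC N zs x).ord (jC N - algebraMap ℂ (FC N) (jFun zs)) ≤
        (Nat.card (orbit (zpowers ε) x) : ℤ))
    (τ σ : SL(2, ℤ)) (h : ptPlaceC N 1 (τ • zs) = ptPlaceC N 1 (σ • τ • zs)) :
    ∃ γ ∈ Gamma0 N, γ • (τ • zs) = σ • τ • zs := by
  have e1 : ptPlaceC N 1 (τ • zs) = ptPlaceC N τ⁻¹ zs := by
    rw [CSurj25.ptPlaceC_eq_one N τ⁻¹ zs, inv_inv]
  have e2 : ptPlaceC N 1 (σ • τ • zs) = ptPlaceC N (σ * τ)⁻¹ zs := by
    rw [CSurj25.ptPlaceC_eq_one N (σ * τ)⁻¹ zs, inv_inv, mul_smul]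
  rw [e1, e2] at h
  obtain ⟨k, γ, hγ, e⟩ := exists_zpow_mul_of_mem_orbit N ε
    (mem_orbit_of_ptPlaceC_eq N zs ε hfix hle h)
  have hk : ε ^ (-k) • zs = zs := by
    have : ε ∈ MulAction.stabilizer (SL(2, ℤ)) zs := hfix
    exact (MulAction.stabilizer (SL(2, ℤ)) zs).zpow_mem this (-k)
  refine ⟨γ⁻¹, inv_mem hγ, ?_⟩
  have e3 : σ * τ = γ⁻¹ * τ * ε ^ (-k) := by
    have : (σ * τ)⁻¹⁻¹ = (ε ^ k * τ⁻¹ * γ)⁻¹ := by rw [e]
    rw [inv_inv] at this
    rw [this, zpow_neg]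
    group
  calc γ⁻¹ • (τ • zs) = γ⁻¹ • (τ • (ε ^ (-k) • zs)) := by rw [hk]
    _ = (γ⁻¹ * τ * ε ^ (-k)) • zs := by rw [mul_smul, mul_smul]
    _ = (σ * τ) • zs := by rw [e3]
    _ = σ • τ • zs := mul_smul _ _ _

/-- **Injectivity of the point places modulo `Γ₀(N)`.** -/
theorem exists_mem_Gamma0_smul_eq_of_ptPlaceC_eq {z z' : ℍ}
    (h : ptPlaceC N 1 z = ptPlaceC N 1 z') : ∃ γ ∈ Gamma0 N, γ • z = z' := by
  obtain ⟨σ, rfl⟩ := Fermat.Agent.X0.exists_SL2_smul_eq_of_jFun_eq (jFun_eq_of_ptPlaceC_eq N h)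
  by_cases h3 : ∃ τ : SL(2, ℤ), τ • ptRho = z
  · obtain ⟨τ, rfl⟩ := h3
    exact exists_of_mem_orbit N ptRho (ModularGroup.S * ModularGroup.T) ho_ST_smul_ptRho
      (hle_elliptic N ptRho _ 3 Nat.prime_three G1Elliptic.g1_ST_cube_smul ellOrder_ptRho
        (fun g hg => ptIdx_eq_three_of_fixed_ST N g hg)) τ σ h
  by_cases h2 : ∃ τ : SL(2, ℤ), τ • ptI = z
  · obtain ⟨τ, rfl⟩ := h2
    exact exists_of_mem_orbit N ptI ModularGroup.S ho_S_smul_ptI
      (hle_elliptic N ptI _ 2 Nat.prime_two G1Elliptic.g1_S_sq_smul ellOrder_ptI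
        (fun g hg => ptIdx_eq_two_of_fixed_S N g hg)) τ σ h
  have h1 : ellOrder z = 1 := by
    unfold ellOrder
    rw [if_neg h3, if_neg h2]
  have := exists_of_mem_orbit N z 1 (one_smul _ z) (hle_generic N z h1 1) 1 σ
    (by rw [one_smul]; exact h)
  rw [one_smul] at this
  exact this

/-- the converse (recorded for convenience). -/
theorem ptPlaceC_smul_of_mem {γ : SL(2, ℤ)} (hγ : γ ∈ Gamma0 N) (z : ℍ) :
    ptPlaceC N 1 (γ • z) = ptPlaceC N 1 z := by
  have h1 := CSurj25.ptPlaceC_eq_one N γ⁻¹ z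
  rw [inv_inv] at h1
  rw [← h1]
  have h2 := ptPlaceC_mul_of_mem N 1 γ⁻¹ (inv_mem hγ) z
  rw [one_mul] at h2
  exact h2

theorem ptPlaceC_eq_iff (z z' : ℍ) :
    ptPlaceC N 1 z = ptPlaceC N 1 z' ↔ ∃ γ ∈ Gamma0 N, γ • z = z' :=
  ⟨exists_mem_Gamma0_smul_eq_of_ptPlaceC_eq N, by
    rintro ⟨γ, hγ, rfl⟩
    exact (ptPlaceC_smul_of_mem N hγ z).symm⟩

/-! ### regular everywhere ⇒ holomorphic -/

section Hol

open Fermat.Agent.M15.DivLogMer1 Fermat.Agent.M15.DivLogPrim1 Fermat.Agent.M15.DivDlog1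

local notation "ι" => algebraMap HolH MerH

/-- cross-multiplication in `HolH`. -/
theorem mul_eq_mul_of_div_eq {a b a' b' : HolH} (hb : b ≠ 0) (hb' : b' ≠ 0)
    (h : ι a / ι b = ι a' / ι b') : a * b' = a' * b := by
  have h1 := iota_ne_zero hb
  have h2 := iota_ne_zero hb'
  apply iota_injective
  rw [map_mul, map_mul]
  field_simp at h
  rw [h, mul_comm]

/-- **An element of `MerH` which is regular at every point of `ℍ` is holomorphic.** -/
theorem exists_holH_of_forall_mem_valAt {x : MerH} (hx : ∀ z : ℍ, x ∈ valAt z) :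
    ∃ h : HolH, ι h = x := by
  choose a b hb hab using fun z => exists_rep_of_mem_valAt (hx z)
  have hb0 : ∀ z, b z ≠ 0 := fun z => ne_zero_of_apply_ne (hb z)
  -- the cross relations
  have hcross : ∀ z z' w : ℍ, ((a z : HolH) : ℍ → ℂ) w * ((b z' : HolH) : ℍ → ℂ) w =
      ((a z' : HolH) : ℍ → ℂ) w * ((b z : HolH) : ℍ → ℂ) w := by
    intro z z' w
    have h1 := mul_eq_mul_of_div_eq (hb0 z) (hb0 z') ((hab z).symm.trans (hab z'))
    exact congrFun (congrArg Subtype.val h1) w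
  let G : ℂ → ℂ := fun w => toC (a (ofComplex w)) w / toC (b (ofComplex w)) w
  have hloc : ∀ z₀ : ℍ, ∀ w : ℂ, 0 < w.im → toC (b z₀) w ≠ 0 →
      G w = toC (a z₀) w / toC (b z₀) w := by
    intro z₀ w hw hne
    set z : ℍ := ⟨w, hw⟩ with hz
    have hzw : ofComplex w = z := ofComplex_apply_of_im_pos hw
    have e1 : ∀ f : HolH, toC f w = (f : ℍ → ℂ) z := fun f => toC_apply_of_im_pos f hw
    show toC (a (ofComplex w)) w / toC (b (ofComplex w)) w = _
    rw [hzw, e1, e1, e1, e1]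
    have hbz : ((b z : HolH) : ℍ → ℂ) z ≠ 0 := hb z
    have hbz₀ : ((b z₀ : HolH) : ℍ → ℂ) z ≠ 0 := by rw [← e1]; exact hne
    rw [div_eq_div_iff hbz hbz₀]
    exact hcross z z₀ z
  have hGd : DifferentiableOn ℂ G {z : ℂ | 0 < z.im} := by
    intro w hw
    apply DifferentiableAt.differentiableWithinAt
    set z₀ : ℍ := ⟨w, hw⟩ with hz₀
    have hne : toC (b z₀) w ≠ 0 := by
      rw [toC_apply_of_im_pos _ hw]; exact hb z₀
    have hcont : ContinuousAt (toC (b z₀)) w := (differentiableAt_toC (b z₀) hw).continuousAt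
    have hev : G =ᶠ[𝓝 w] fun w' => toC (a z₀) w' / toC (b z₀) w' := by
      filter_upwards [isOpen_upperHalfPlaneSet.mem_nhds hw,
        hcont.eventually_ne hne] with w' hw' hne'
      exact hloc z₀ w' hw' hne'
    exact (((differentiableAt_toC (a z₀) hw).div (differentiableAt_toC (b z₀) hw) hne)).congr_of_eventuallyEq hev
  refine ⟨ofC G hGd, ?_⟩
  rw [hab UpperHalfPlane.I, eq_div_iff (iota_ne_zero (hb0 _)), ← map_mul]
  congr 1
  apply Subtype.ext
  funext z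
  show ((ofC G hGd : HolH) : ℍ → ℂ) z * ((b UpperHalfPlane.I : HolH) : ℍ → ℂ) z =
    ((a UpperHalfPlane.I : HolH) : ℍ → ℂ) z
  rw [ofC_apply]
  show toC (a (ofComplex (z : ℂ))) z / toC (b (ofComplex (z : ℂ))) z * _ = _
  rw [ofComplex_apply, toC_apply, toC_apply, div_mul_eq_mul_div, div_eq_iff (hb z)]
  exact hcross z UpperHalfPlane.I z

/-- the same with orders. -/
theorem exists_holH_of_forall_ordMer_nonneg {x : MerH} (hx : ∀ z : ℍ, 0 ≤ ordMer z x) :
    ∃ h : HolH, ι h = x := by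
  rcases eq_or_ne x 0 with rfl | hx0
  · exact ⟨0, map_zero _⟩
  · exact exists_holH_of_forall_mem_valAt fun z => (mem_valAt_iff z hx0).2 (hx z)

end Hol

end Fermat.Agent.M17.Dict4
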