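/-
M17 (target S17), coordinator file (helper7): **the interfaces between the blocks of blueprint 135**,
as DEFINITIONS (structures / Props, no proofs).  Imported by no statement.

Conventions (board 1115, (C1)-(C10)); `G = Gamma0 N`, `S2 = CuspForm (Gamma0 N) 2`:
* `per f γ = periodMap N f (Additive.ofMul γ) = Fp f (γ • z) - Fp f z`, `Fp = S21.PeriodPrim.Fp`
  (no `2 π i`);
* `EE N` = the DOUBLED cup product on `parabolicHoms ℤ G ℤ` (`ES/I2/EDef25`);
* `LatData` : normalised basis `w`, symplectic generators `a b`, dual basis `n m`, period matrix `Om`;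
* `AJData`  : the additive Abel-Jacobi map `iota` (injective) with its formula on point divisors;
* `RTData`  : weak Riemann theorem for one entire function `th0` (degree `g`, Abel sum `e + k`);
* `AlgData` : the arithmetic output `(ALG)` + `(FIB)` consumed by the height chapter.
-/
import Mathlib
import Fermat.Agent.S21.PeriodPrim
import Fermat.Agent.ES.I2.EDef25
import Fermat.Agent.ES.KUM.CSurj25
import Fermat.Agent.J.DESC.DescentFinal24

set_option autoImplicit false
set_option linter.unusedSectionVars false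

namespace Fermat.Agent.M17.Interfaces7

open ModularCurve ModularCurve.Period CongruenceSubgroup UpperHalfPlane AlgebraicCurve
open Fermat.Agent.ES.KUM Fermat.Agent.ES.KUM.CCusp16 Fermat.Agent.X0.SurjPoint
open Fermat.Agent.X0
open scoped MatrixGroups

variable (N : ℕ) [NeZero N]

/-- the period of `f` along `γ` (convention (C1)). -/
noncomputable def per (f : CuspForm (Gamma0 N) 2) (γ : Gamma0 N) : ℂ :=
  periodMap N f (Additive.ofMul γ)

/-! ### I-LAT : the period lattice with its principal polarisation -/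

/-- **I-LAT** (output of D4a): a normalised basis of `S2`, symplectic generators of the homology
lattice `Q G`, the dual basis of `H¹ = parabolicHoms ℤ G ℤ`, and the Riemann relations. -/
structure LatData (g : ℕ) where
  /-- normalised basis of the weight 2 cusp forms -/
  w : Module.Basis (Fin g) ℂ (CuspForm (Gamma0 N) 2)
  /-- `a`-cycles -/
  a : Fin g → Gamma0 N
  /-- `b`-cycles -/
  b : Fin g → Gamma0 N
  /-- coordinates along the `a`-cycles -/
  n : Fin g → ↥(parabolicHoms ℤ (Gamma0 N) ℤ)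
  /-- coordinates along the `b`-cycles -/
  m : Fin g → ↥(parabolicHoms ℤ (Gamma0 N) ℤ)
  n_a : ∀ j k, (n j : Additive (Gamma0 N) →+ ℤ) (Additive.ofMul (a k)) = if j = k then 1 else 0
  n_b : ∀ j k, (n j : Additive (Gamma0 N) →+ ℤ) (Additive.ofMul (b k)) = 0
  m_a : ∀ j k, (m j : Additive (Gamma0 N) →+ ℤ) (Additive.ofMul (a k)) = 0
  m_b : ∀ j k, (m j : Additive (Gamma0 N) →+ ℤ) (Additive.ofMul (b k)) = if j = k then 1 else 0
  /-- `(n, m)` spans `H¹` (so it is the basis dual to `(a, b)`). -/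
  span : ∀ φ : ↥(parabolicHoms ℤ (Gamma0 N) ℤ),
    φ = ∑ j, ((φ : Additive (Gamma0 N) →+ ℤ) (Additive.ofMul (a j))) • n j
      + ∑ j, ((φ : Additive (Gamma0 N) →+ ℤ) (Additive.ofMul (b j))) • m j
  /-- normalisation of the `a`-periods -/
  per_a : ∀ j k, per N (w k) (a j) = if j = k then 1 else 0
  /-- the period matrix is symmetric (RB1) -/
  om_symm : ∀ j k, per N (w k) (b j) = per N (w j) (b k)
  /-- its imaginary part is positive definite (RB2) -/
  om_pos : (Matrix.of fun j k => (per N (w k) (b j)).im).PosDef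
  /-- all periods in terms of the coordinates `(n, m)` -/
  per_eq : ∀ k (γ : Gamma0 N), per N (w k) γ =
    ((n k : Additive (Gamma0 N) →+ ℤ) (Additive.ofMul γ) : ℂ)
      + ∑ j, per N (w k) (b j) * ((m j : Additive (Gamma0 N) →+ ℤ) (Additive.ofMul γ) : ℂ)
  /-- **(UNI)** + symplectic sign (C5): the dual basis is symplectic for `P = EE / 2`. -/
  cup_mn : ∀ j k, Fermat.Agent.ES.I2.EDef25.EE N (m j) (n k) = if j = k then 2 else 0
  cup_nn : ∀ j k, Fermat.Agent.ES.I2.EDef25.EE N (n j) (n k) = 0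
  cup_mm : ∀ j k, Fermat.Agent.ES.I2.EDef25.EE N (m j) (m k) = 0

namespace LatData

variable {N} {g : ℕ} (L : LatData N g)

/-- the period matrix `Om j k = ∫_{b_j} w_k` (C4). -/
noncomputable def Om : Matrix (Fin g) (Fin g) ℂ := Matrix.of fun j k => per N (L.w k) (L.b j)

/-- the Abel-Jacobi integral `A τ = (∫_{i∞}^τ w_k)_k` (C1). -/
noncomputable def A (τ : ℍ) : Fin g → ℂ := fun k => Fermat.Agent.S21.PeriodPrim.Fp (⇑(L.w k)) τ

/-- the period lattice `ℤ^g + Om ℤ^g` (C4). -/
def lattice : AddSubgroup (Fin g → ℂ) where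
  carrier := {v | ∃ p q : Fin g → ℤ, v = fun k => (p k : ℂ) + ∑ j, L.Om j k * (q j : ℂ)}
  zero_mem' := ⟨0, 0, by funext k; simp⟩
  add_mem' := by
    rintro _ _ ⟨p, q, rfl⟩ ⟨p', q', rfl⟩
    refine ⟨p + p', q + q', ?_⟩
    funext k
    simp only [Pi.add_apply, Int.cast_add, mul_add, Finset.sum_add_distrib]
    ring
  neg_mem' := by
    rintro _ ⟨p, q, rfl⟩
    refine ⟨-p, -q, ?_⟩
    funext k
    simp only [Pi.neg_apply, Int.cast_neg, mul_neg, Finset.sum_neg_distrib]
    ring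

end LatData

/-! ### I-AJ : the additive Abel-Jacobi map -/

/-- the divisor `∑ m_z (z)` of `F_ℂ = FC N` attached to a finitely supported function on `ℍ`
(points are taken through `ptPlaceC N 1`). -/
noncomputable def pointDivisor (m : ℍ →₀ ℤ) : Divisor ℂ (FC N) :=
  Finsupp.mapDomain (ptPlaceC N 1) m

/-- the divisor `∑ c_δ (δ ∞)` supported on cusps (through `cuspPlaceC N`). -/
noncomputable def cuspDivisor (c : SL(2, ℤ) →₀ ℤ) : Divisor ℂ (FC N) :=
  Finsupp.mapDomain (cuspPlaceC N) c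

/-- the meromorphic function `F` on `ℍ` has order `n` (in the parameter `q_N = exp(2πiτ/N)`) at the
cusp attached to `cuspPlaceC N γ` (the expansion of `F ∘ γ⁻¹`, as in `CCuspExact16.order_cuspEmbC`):
`F = a / b` with `a b` holomorphic and `(a/b)(γ⁻¹ τ) q_N^{-n} → L ≠ 0`. -/
def CuspOrdIs (F : MerH) (γ : SL(2, ℤ)) (n : ℤ) : Prop :=
  ∃ (a b : HolH) (ℓ : ℂ), b ≠ 0 ∧ ℓ ≠ 0 ∧ F * algebraMap HolH MerH b = algebraMap HolH MerH a ∧
    Filter.Tendsto (fun τ : ℍ => (a : ℍ → ℂ) (γ⁻¹ • τ) / (b : ℍ → ℂ) (γ⁻¹ • τ) *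
      Complex.exp (-(2 * Real.pi * Complex.I * n * (τ : ℂ)) / N)) atImInfty (nhds ℓ)

/-- `Δ` is the divisor of the (automorphic) meromorphic function `F` on `Γ₀(N)\ℍ*` (C7):
orders at the points of `ℍ` through `ordMer`/`ptIdx`, at the cusps through `CuspOrdIs`/`cuspIdx`. -/
def IsAutDiv (F : MerH) (Δ : Divisor ℂ (FC N)) : Prop :=
  F ≠ 0 ∧ (∀ z : ℍ, ordMer z F = Δ (ptPlaceC N 1 z) * (ptIdx N 1 z : ℤ)) ∧
    ∀ γ : SL(2, ℤ), CuspOrdIs N F γ (Δ (cuspPlaceC N γ) * (cuspIdx N γ : ℤ))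

/-- the unitary character `χ_δ`, `δ = α + Om β` (`α β` real), of (C4)/(C6):
`γ ↦ exp(2πi ∑_j (m_j(γ) α_j - n_j(γ) β_j))`. -/
noncomputable def chiOf {g : ℕ} (L : LatData N g) (α β : Fin g → ℝ) (γ : Gamma0 N) : ℂ :=
  Complex.exp (2 * Real.pi * Complex.I *
    ∑ j, (((L.m j : Additive (Gamma0 N) →+ ℤ) (Additive.ofMul γ) : ℂ) * α j
      - ((L.n j : Additive (Gamma0 N) →+ ℤ) (Additive.ofMul γ) : ℂ) * β j))

/-- **I-AJ** (output of D4b: (RL) + transport of the multiplicative Abel-Jacobi map). -/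
structure AJData {g : ℕ} (L : LatData N g) where
  /-- the value of `A` at the cusp of `cuspPlaceC N δ`, i.e. at `δ⁻¹ ∞` (the place `cuspPlaceC N δ`
  reads the expansion of `F ∘ δ⁻¹`, as does `CuspOrdIs N F δ`) -/
  Acusp : SL(2, ℤ) → Fin g → ℂ
  Acusp_spec : ∀ δ : SL(2, ℤ),
    Filter.Tendsto (fun τ : ℍ => L.A (δ⁻¹ • τ)) atImInfty (nhds (Acusp δ))
  /-- the Abel-Jacobi map -/
  iota : Pic0 ℂ (FC N) →+ (Fin g → ℂ) ⧸ L.lattice
  iota_injective : Function.Injective iota
  /-- its value on divisors supported on points of `ℍ` and cusps (C8) -/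
  iota_mk : ∀ (m : ℍ →₀ ℤ) (c : SL(2, ℤ) →₀ ℤ)
    (h : pointDivisor N m + cuspDivisor N c ∈ Divisor.degZero (K := ℂ) (F := FC N)),
    iota (Pic0.mk ⟨_, h⟩) =
      QuotientAddGroup.mk ((m.sum fun z k => k • L.A z) + (c.sum fun δ k => k • Acusp δ))
  /-- the link with the multiplicative Abel-Jacobi map, consumer form (helper5, board 1126 (ii)):
  an automorphic function with the unitary character `χ_δ` and divisor `Δ` has `iota [Δ] = δ`.
  (If the producer's sign comes out as `-δ`, say so ONCE and this field is flipped.) -/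
  iota_of_automorphic : ∀ (F : MerH) (Δ : Divisor ℂ (FC N)) (α β : Fin g → ℝ)
    (h : Δ ∈ Divisor.degZero (K := ℂ) (F := FC N)), IsAutDiv N F Δ →
    (∀ γ : Gamma0 N, slMer (γ : SL(2, ℤ)) F =
      algebraMap HolH MerH (algebraMap ℂ HolH (chiOf N L α β γ)) * F) →
    iota (Pic0.mk ⟨Δ, h⟩) =
      QuotientAddGroup.mk (fun k => (α k : ℂ) + ∑ j, L.Om j k * (β j : ℂ))

/-! ### I-RT : the weak Riemann theorem -/

/-- **I-RT**: weak Riemann theorem for the function `th0` on `ℂ^g` (C8).  `Fe e` is the function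
`τ ↦ th0 (A τ - e)` as an element of `HolH`. -/
structure RTData {g : ℕ} (L : LatData N g) (AJ : AJData N L) (th0 : (Fin g → ℂ) → ℂ) where
  /-- Riemann's constant (with the sign of (C8)) -/
  k : Fin g → ℂ
  /-- the function `τ ↦ th0 (A τ - e)` -/
  Fe : (Fin g → ℂ) → HolH
  Fe_apply : ∀ e τ, (Fe e : ℍ → ℂ) τ = th0 (L.A τ - e)
  /-- the zero divisor (cusps included) -/
  Z : (Fin g → ℂ) → Divisor ℂ (FC N)
  Z_spec : ∀ e, Fe e ≠ 0 → IsAutDiv N (algebraMap HolH MerH (Fe e)) (Z e)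
  Z_nonneg : ∀ e v, 0 ≤ Z e v
  /-- balanced quotients are algebraic functions with the expected divisor, CUSPS INCLUDED
  (consumer form of FREE-1; this is how `Z e` is determined at the cusps). -/
  Z_ratio : ∀ (E E' : List (Fin g → ℂ)) (h : FC N), (∀ e ∈ E, Fe e ≠ 0) → (∀ e ∈ E', Fe e ≠ 0) →
    realMer N h * algebraMap HolH MerH (E'.map Fe).prod = algebraMap HolH MerH (E.map Fe).prod →
    ∀ v : Place ℂ (FC N), v.ord h = (E.map fun e => Z e v).sum - (E'.map fun e => Z e v).sum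
  /-- existence of the algebraic function for BALANCED families (FREE-1) -/
  Z_balanced : ∀ (E E' : List (Fin g → ℂ)), E.length = E'.length → E.sum = E'.sum →
    (∀ e ∈ E, Fe e ≠ 0) → (∀ e ∈ E', Fe e ≠ 0) →
    ∃ h : FC N, realMer N h * algebraMap HolH MerH (E'.map Fe).prod =
      algebraMap HolH MerH (E.map Fe).prod
  /-- **(DEG)** -/
  Z_degree : ∀ e, Fe e ≠ 0 → Divisor.degree (Z e) = g
  /-- the Abel sum -/
  Z_sum : ∀ e (_he : Fe e ≠ 0)
    (h : Z e - Finsupp.single (cuspPlaceC N 1) (g : ℤ) ∈ Divisor.degZero (K := ℂ) (F := FC N)),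
    AJ.iota (Pic0.mk ⟨_, h⟩) = QuotientAddGroup.mk (e + k)

/-! ### I-ALG : what the height chapter consumes -/

/-- the Galois group of `ℚ̄ / ℚ` -/
abbrev GQ : Type := AlgebraicClosure ℚ ≃ₐ[ℚ] AlgebraicClosure ℚ

/-- `J₀(N)(ℚ)` in the statement's literal form -/
abbrev JQ : Type := ↥(FixedPoints.addSubgroup GQ (JZero N))

/-- **I-ALG** = (ALG) + (FIB): level-4 theta coordinates of the rational points, rational over ONE
number field `K1 ⊆ ℂ`, with finite projective fibres.  `Phi z` are the COMPLEX theta coordinates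
`(θ[χ](2z))_χ` of (C6), `lift x` any lift to `ℂ^g` of `iota (extPic0C x)`. -/
structure AlgData {g : ℕ} (L : LatData N g) (AJ : AJData N L) {ι : Type} [Fintype ι]
    (Phi : (Fin g → ℂ) → ι → ℂ) where
  K1 : Type
  [field : Field K1]
  [nf : NumberField K1]
  emb : K1 →+* ℂ
  lift : JQ N → Fin g → ℂ
  lift_spec : ∀ x : JQ N, (QuotientAddGroup.mk (lift x) : (Fin g → ℂ) ⧸ L.lattice) =
    AJ.iota (Fermat.Agent.J.DESC.DescentFinal24.extPic0C N (x : JZero N))
  /-- K1-rational representatives of the projective points `[Phi (lift x)]` -/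
  rep : JQ N → ι → K1
  rep_spec : ∀ x : JQ N, ∃ c : ℂ, c ≠ 0 ∧ ∀ i, Phi (lift x) i = c * emb (rep x i)

end Fermat.Agent.M17.Interfaces7
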