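/-
M17 (target S17), block [DICT] part 2 (helper4): **the analytic divisor `IsAutDiv` of
`Interfaces7`** (points via `ordMer`/`ptIdx`, cusps via `CuspOrdIs`/`cuspIdx`).

* `CuspOrdIs` : multiplicativity, inverse, uniqueness of the order, the case of `realMer N h`;
* `IsAutDiv`  : `isAutDiv_realMer` (a), `IsAutDiv.mul`, `IsAutDiv.inv` (b).

Imported by no statement.
-/
import Fermat.Agent.M17.Dict4
import Fermat.Agent.M17.Interfaces7
import Fermat.Agent.ES.KUM.ParLim16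
import Fermat.Agent.ES.KUM.CCuspExact16

set_option autoImplicit false
set_option linter.unusedSectionVars false

open UpperHalfPlane AlgebraicCurve Filter Topology
open scoped Manifold MatrixGroups
open CongruenceSubgroup

noncomputable section

namespace Fermat.Agent.M17.AutDiv4

open Fermat.Agent.X0 Fermat.Agent.ES.KUM Fermat.Agent.X0.SurjPoint Fermat.Agent.ES.KUM.CCusp16
open Fermat.Agent.M17.Interfaces7 Fermat.Agent.M15.DivLogMer1 ModularCurve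

local notation "ι" => algebraMap HolH MerH

variable (N : ℕ) [NeZero N]

/-! ### the exponential factor -/

/-- `q_N^{-n}`. -/
def Efac (n : ℤ) (τ : ℍ) : ℂ := Complex.exp (-(2 * Real.pi * Complex.I * n * (τ : ℂ)) / N)

theorem Efac_ne_zero (n : ℤ) (τ : ℍ) : Efac N n τ ≠ 0 := Complex.exp_ne_zero _

theorem Efac_add (n n' : ℤ) (τ : ℍ) : Efac N (n + n') τ = Efac N n τ * Efac N n' τ := by
  unfold Efac
  rw [← Complex.exp_add]
  congr 1
  push_cast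
  ring

theorem Efac_neg (n : ℤ) (τ : ℍ) : Efac N (-n) τ = (Efac N n τ)⁻¹ := by
  unfold Efac
  rw [← Complex.exp_neg]
  congr 1
  push_cast
  ring

theorem Efac_zero (τ : ℍ) : Efac N 0 τ = 1 := by
  unfold Efac
  simp

theorem natCast_pos' : (0 : ℝ) < N := by exact_mod_cast Nat.pos_of_ne_zero (NeZero.ne N)

theorem norm_Efac (n : ℤ) (τ : ℍ) :
    ‖Efac N n τ‖ = Real.exp (2 * Real.pi * n * τ.im / N) := by
  unfold Efac
  rw [Complex.norm_exp]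
  congr 1
  have hN : ((N : ℝ) : ℂ) = (N : ℂ) := by push_cast; rfl
  have : (-(2 * (Real.pi : ℂ) * Complex.I * (n : ℂ) * (τ : ℂ)) / (N : ℂ)).re =
      2 * Real.pi * n * τ.im / N := by
    rw [← hN, Complex.div_ofReal_re]
    simp only [Complex.neg_re, Complex.mul_re, Complex.mul_im, Complex.ofReal_re, Complex.ofReal_im,
      Complex.I_re, Complex.I_im, Complex.re_ofNat, Complex.im_ofNat, Complex.intCast_re,
      Complex.intCast_im, UpperHalfPlane.coe_re, UpperHalfPlane.coe_im]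
    ring
  exact this

/-- `q_N^{-n}` in terms of `qh`. -/
theorem Efac_eq_qh (n : ℤ) (τ : ℍ) : Efac N n τ = qh N τ ^ (-n) := by
  unfold Efac qh Function.Periodic.qParam
  rw [← Complex.exp_int_mul]
  congr 1
  push_cast
  ring

/-! ### `CuspOrdIs` -/

theorem cuspOrdIs_iff (F : MerH) (γ : SL(2, ℤ)) (n : ℤ) :
    CuspOrdIs N F γ n ↔ ∃ (a b : HolH) (ℓ : ℂ), b ≠ 0 ∧ ℓ ≠ 0 ∧ F * ι b = ι a ∧
      Tendsto (fun τ : ℍ => (a : ℍ → ℂ) (γ⁻¹ • τ) / (b : ℍ → ℂ) (γ⁻¹ • τ) * Efac N n τ)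
        atImInfty (𝓝 ℓ) := Iff.rfl

theorem cuspOrdIs_ne_zero {F : MerH} {γ : SL(2, ℤ)} {n : ℤ} (h : CuspOrdIs N F γ n) : F ≠ 0 := by
  obtain ⟨a, b, ℓ, hb, hℓ, hab, hlim⟩ := (cuspOrdIs_iff N F γ n).1 h
  rintro rfl
  rw [zero_mul] at hab
  have ha : a = 0 := iota_injective (hab.symm.trans (map_zero _).symm)
  subst ha
  have h0 : Tendsto (fun _ : ℍ => (0 : ℂ)) atImInfty (𝓝 ℓ) := by
    refine hlim.congr (fun τ => ?_)
    show ((0 : HolH) : ℍ → ℂ) (γ⁻¹ • τ) / _ * _ = 0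
    rw [show ((0 : HolH) : ℍ → ℂ) (γ⁻¹ • τ) = 0 from rfl, zero_div, zero_mul]
  exact hℓ (tendsto_nhds_unique h0 tendsto_const_nhds)

theorem cuspOrdIs_mul {F G : MerH} {γ : SL(2, ℤ)} {n n' : ℤ} (h : CuspOrdIs N F γ n)
    (h' : CuspOrdIs N G γ n') : CuspOrdIs N (F * G) γ (n + n') := by
  obtain ⟨a, b, ℓ, hb, hℓ, hab, hlim⟩ := (cuspOrdIs_iff N F γ n).1 h
  obtain ⟨a', b', ℓ', hb', hℓ', hab', hlim'⟩ := (cuspOrdIs_iff N G γ n').1 h'
  refine (cuspOrdIs_iff N _ γ _).2 ⟨a * a', b * b', ℓ * ℓ', mul_ne_zero hb hb', mul_ne_zero hℓ hℓ',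
    ?_, ?_⟩
  · rw [map_mul, map_mul, ← hab, ← hab']
    ring
  · refine (hlim.mul hlim').congr (fun τ => ?_)
    rw [Efac_add]
    show _ = ((a : ℍ → ℂ) (γ⁻¹ • τ) * (a' : ℍ → ℂ) (γ⁻¹ • τ)) /
      ((b : ℍ → ℂ) (γ⁻¹ • τ) * (b' : ℍ → ℂ) (γ⁻¹ • τ)) * _
    rw [mul_div_mul_comm]
    ring

theorem cuspOrdIs_inv {F : MerH} {γ : SL(2, ℤ)} {n : ℤ} (h : CuspOrdIs N F γ n) :
    CuspOrdIs N F⁻¹ γ (-n) := by
  have hF := cuspOrdIs_ne_zero N h
  obtain ⟨a, b, ℓ, hb, hℓ, hab, hlim⟩ := (cuspOrdIs_iff N F γ n).1 h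
  have ha : a ≠ 0 := by
    rintro rfl
    rw [map_zero] at hab
    exact (mul_ne_zero hF (iota_ne_zero hb)) hab
  refine (cuspOrdIs_iff N _ γ _).2 ⟨b, a, ℓ⁻¹, ha, inv_ne_zero hℓ, ?_, ?_⟩
  · rw [← hab, ← mul_assoc, inv_mul_cancel₀ hF, one_mul]
  · refine (hlim.inv₀ hℓ).congr (fun τ => ?_)
    rw [Efac_neg, mul_inv, inv_div]

theorem cuspOrdIs_one (γ : SL(2, ℤ)) : CuspOrdIs N (1 : MerH) γ 0 := by
  refine (cuspOrdIs_iff N _ γ _).2 ⟨1, 1, 1, one_ne_zero, one_ne_zero, by rw [map_one, mul_one], ?_⟩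
  refine tendsto_const_nhds.congr (fun τ => ?_)
  rw [Efac_zero]
  show (1 : ℂ) = (1 : ℂ) / 1 * 1
  norm_num

/-- the norm of `q_N^{-k}` tends to `0` for `k < 0`. -/
theorem tendsto_Efac_zero {k : ℤ} (hk : k < 0) : Tendsto (fun τ : ℍ => Efac N k τ) atImInfty (𝓝 0) := by
  rw [tendsto_zero_iff_norm_tendsto_zero]
  simp_rw [norm_Efac]
  have hc : 2 * Real.pi * (k : ℝ) / N < 0 := by
    have h1 : (k : ℝ) < 0 := by exact_mod_cast hk
    have h2 := natCast_pos' N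
    have h3 : 0 < 2 * Real.pi := by positivity
    exact div_neg_of_neg_of_pos (mul_neg_of_pos_of_neg h3 h1) h2
  have h1 : Tendsto (fun τ : ℍ => 2 * Real.pi * (k : ℝ) / N * τ.im) atImInfty atBot :=
    Filter.Tendsto.const_mul_atTop_of_neg hc tendsto_comap
  refine (Real.tendsto_exp_atBot.comp h1).congr (fun τ => ?_)
  simp only [Function.comp]
  congr 1
  ring

/-- **Uniqueness of the cusp order.** -/
theorem cuspOrdIs_unique {F : MerH} {γ : SL(2, ℤ)} {n n' : ℤ} (h : CuspOrdIs N F γ n)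
    (h' : CuspOrdIs N F γ n') : n = n' := by
  -- `1 = F * F⁻¹` has orders `n - n'` and `n' - n`
  have key : ∀ k : ℤ, CuspOrdIs N (1 : MerH) γ k → ¬ k < 0 := by
    intro k hk hneg
    obtain ⟨a, b, ℓ, hb, hℓ, hab, hlim⟩ := (cuspOrdIs_iff N _ γ k).1 hk
    rw [one_mul] at hab
    have hba : b = a := iota_injective hab
    subst hba
    -- the quotient `b / b` is `1` wherever the expression is close to `ℓ ≠ 0`
    have h0 : Tendsto (fun τ : ℍ => (b : ℍ → ℂ) (γ⁻¹ • τ) / (b : ℍ → ℂ) (γ⁻¹ • τ) * Efac N k τ)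
        atImInfty (𝓝 0) := by
      have hE := tendsto_Efac_zero N hneg
      rw [tendsto_zero_iff_norm_tendsto_zero] at hE ⊢
      refine squeeze_zero (fun τ => norm_nonneg _) (fun τ => ?_) hE
      rw [norm_mul]
      by_cases hz : (b : ℍ → ℂ) (γ⁻¹ • τ) = 0
      · rw [hz, div_zero, norm_zero, zero_mul]; exact norm_nonneg _
      · rw [div_self hz, norm_one, one_mul]
    exact hℓ (tendsto_nhds_unique hlim h0)
  have h1 := key (n - n') (by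
    have := cuspOrdIs_mul N h (cuspOrdIs_inv N h')
    rwa [mul_inv_cancel₀ (cuspOrdIs_ne_zero N h), ← sub_eq_add_neg] at this)
  have h2 := key (n' - n) (by
    have := cuspOrdIs_mul N h' (cuspOrdIs_inv N h)
    rwa [mul_inv_cancel₀ (cuspOrdIs_ne_zero N h), ← sub_eq_add_neg] at this)
  omega

/-! ### the cusp orders of an algebraic function -/

theorem laurentOf_ne_zero_iff {m : ℕ} {P : PowerSeries ℂ} (h : laurentOf m P ≠ 0) : P ≠ 0 := by
  rintro rfl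
  apply h
  simp [laurentOf]

/-- the order of the `q_N`-expansion of one element of `RC N`, analytically. -/
theorem tendsto_realC (γ : SL(2, ℤ)) {u : RC N} (hu : u ≠ 0) :
    ∃ L : ℂ, L ≠ 0 ∧ Tendsto (fun τ : ℍ => ((realC N u : HolH) : ℍ → ℂ) (γ⁻¹ • τ) *
      Efac N ((cuspEmbC N γ⁻¹ (u : FC N)).order) τ) atImInfty (𝓝 L) := by
  obtain ⟨m, P, hP, hT⟩ := cuspEmbC_spec N γ⁻¹ u
  have hu' : (u : FC N) ≠ 0 := fun h0 => hu (Subtype.ext h0)
  have hT0 : cuspEmbC N γ⁻¹ (u : FC N) ≠ 0 := cuspEmbC_ne_zero N γ⁻¹ hu'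
  have hP0 : P ≠ 0 := laurentOf_ne_zero_iff (hT ▸ hT0)
  obtain ⟨L, hL, hlim⟩ := ParLim16.exists_tendsto_of_isQExp hP hP0
  refine ⟨L, hL, hlim.congr (fun τ => ?_)⟩
  rw [Efac_eq_qh, hT]
  rfl

theorem cuspOrdIs_realMer {h : FC N} (hh : h ≠ 0) (γ : SL(2, ℤ)) :
    CuspOrdIs N (realMer N h) γ ((cuspPlaceC N γ).ord h * (cuspIdx N γ : ℤ)) := by
  obtain ⟨u, s, hs, rfl⟩ := exists_divC_ne_zero N h
  have hs' : (s : FC N) ≠ 0 := fun h0 => hs (Subtype.ext h0)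
  have hu' : (u : FC N) ≠ 0 := fun h0 => hh (by rw [h0, zero_div])
  have hu : u ≠ 0 := fun h0 => hu' (by rw [h0]; rfl)
  obtain ⟨Lu, hLu, hlimu⟩ := tendsto_realC N γ hu
  obtain ⟨Ls, hLs, hlims⟩ := tendsto_realC N γ hs
  have hrs : realC N s ≠ 0 := fun h0 => hs (realC_injective N (h0.trans (map_zero _).symm))
  -- the order of the quotient
  have hord : (cuspEmbC N γ⁻¹ ((u : FC N) / (s : FC N))).order =
      (cuspEmbC N γ⁻¹ (u : FC N)).order - (cuspEmbC N γ⁻¹ (s : FC N)).order := by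
    have hq : cuspEmbC N γ⁻¹ ((u : FC N) / (s : FC N)) * cuspEmbC N γ⁻¹ (s : FC N) =
        cuspEmbC N γ⁻¹ (u : FC N) := by
      rw [← map_mul, div_mul_cancel₀ _ hs']
    have hq0 : cuspEmbC N γ⁻¹ ((u : FC N) / (s : FC N)) ≠ 0 := cuspEmbC_ne_zero N γ⁻¹ hh
    have := HahnSeries.order_mul hq0 (cuspEmbC_ne_zero N γ⁻¹ hs')
    rw [hq] at this
    rw [this]
    ring
  have hn : (cuspPlaceC N γ).ord ((u : FC N) / (s : FC N)) * (cuspIdx N γ : ℤ) =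
      (cuspEmbC N γ⁻¹ (u : FC N)).order - (cuspEmbC N γ⁻¹ (s : FC N)).order := by
    rw [← hord, order_cuspEmbC N γ hh, mul_comm]
  refine (cuspOrdIs_iff N _ γ _).2 ⟨realC N u, realC N s, Lu / Ls, hrs, div_ne_zero hLu hLs, ?_, ?_⟩
  · rw [map_div₀, realMer_coe, realMer_coe, div_mul_cancel₀ _ (iota_ne_zero hrs)]
  · refine (hlimu.div hlims hLs).congr (fun τ => ?_)
    rw [hn, sub_eq_add_neg, Efac_add, Efac_neg]
    have hE := Efac_ne_zero N ((cuspEmbC N γ⁻¹ (s : FC N)).order) τ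
    simp only [Pi.div_apply]
    rw [mul_div_mul_comm, div_eq_mul_inv (Efac N _ τ)]

/-! ### `IsAutDiv` -/

theorem isAutDiv_iff (F : MerH) (Δ : Divisor ℂ (FC N)) :
    IsAutDiv N F Δ ↔ F ≠ 0 ∧ (∀ z : ℍ, ordMer z F = Δ (ptPlaceC N 1 z) * (ptIdx N 1 z : ℤ)) ∧
      ∀ γ : SL(2, ℤ), CuspOrdIs N F γ (Δ (cuspPlaceC N γ) * (cuspIdx N γ : ℤ)) := Iff.rfl

/-- **(a)** the analytic divisor of an algebraic function is its divisor. -/
theorem isAutDiv_realMer {h : FC N} (hh : h ≠ 0) {Δ : Divisor ℂ (FC N)}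
    (hΔ : ∀ v : Place ℂ (FC N), Δ v = v.ord h) : IsAutDiv N (realMer N h) Δ := by
  refine (isAutDiv_iff N _ _).2 ⟨(map_ne_zero _).2 hh, fun z => ?_, fun γ => ?_⟩
  · rw [ordMer_realMer N z hh, hΔ, mul_comm]
  · rw [hΔ]
    exact cuspOrdIs_realMer N hh γ

/-- **(b)** multiplicativity. -/
theorem isAutDiv_mul {F G : MerH} {Δ Δ' : Divisor ℂ (FC N)} (h : IsAutDiv N F Δ)
    (h' : IsAutDiv N G Δ') : IsAutDiv N (F * G) (Δ + Δ') := by
  obtain ⟨hF, hpt, hc⟩ := (isAutDiv_iff N F Δ).1 h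
  obtain ⟨hG, hpt', hc'⟩ := (isAutDiv_iff N G Δ').1 h'
  refine (isAutDiv_iff N _ _).2 ⟨mul_ne_zero hF hG, fun z => ?_, fun γ => ?_⟩
  · rw [ordMer_mul z hF hG, hpt, hpt', Finsupp.add_apply, add_mul]
  · have := cuspOrdIs_mul N (hc γ) (hc' γ)
    rwa [← add_mul, ← Finsupp.add_apply] at this

/-- **(b)** inverse. -/
theorem isAutDiv_inv {F : MerH} {Δ : Divisor ℂ (FC N)} (h : IsAutDiv N F Δ) :
    IsAutDiv N F⁻¹ (-Δ) := by
  obtain ⟨hF, hpt, hc⟩ := (isAutDiv_iff N F Δ).1 h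
  refine (isAutDiv_iff N _ _).2 ⟨inv_ne_zero hF, fun z => ?_, fun γ => ?_⟩
  · rw [ordMer_inv, hpt, Finsupp.neg_apply, neg_mul]
  · have := cuspOrdIs_inv N (hc γ)
    rwa [← neg_mul, ← Finsupp.neg_apply] at this

theorem isAutDiv_div {F G : MerH} {Δ Δ' : Divisor ℂ (FC N)} (h : IsAutDiv N F Δ)
    (h' : IsAutDiv N G Δ') : IsAutDiv N (F / G) (Δ - Δ') := by
  rw [div_eq_mul_inv, sub_eq_add_neg]
  exact isAutDiv_mul N h (isAutDiv_inv N h')

theorem isAutDiv_one : IsAutDiv N (1 : MerH) 0 := by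
  refine (isAutDiv_iff N _ _).2 ⟨one_ne_zero, fun z => ?_, fun γ => ?_⟩
  · rw [ordMer_one, Finsupp.zero_apply, zero_mul]
  · rw [Finsupp.zero_apply, zero_mul]
    exact cuspOrdIs_one N γ

/-- the divisor is determined by the function. -/
theorem isAutDiv_unique {F : MerH} {Δ Δ' : Divisor ℂ (FC N)} (h : IsAutDiv N F Δ)
    (h' : IsAutDiv N F Δ') : Δ = Δ' := by
  obtain ⟨hF, hpt, hc⟩ := (isAutDiv_iff N F Δ).1 h
  obtain ⟨-, hpt', hc'⟩ := (isAutDiv_iff N F Δ').1 h'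
  ext v
  rcases CSurj25.place_cases N v with ⟨z, rfl⟩ | ⟨g, rfl⟩
  · have h1 := (hpt z).symm.trans (hpt' z)
    have h2 : (ptIdx N 1 z : ℤ) ≠ 0 := by exact_mod_cast (ptIdx_pos N 1 z).ne'
    exact mul_right_cancel₀ h2 h1
  · have h1 := cuspOrdIs_unique N (hc g) (hc' g)
    have h2 : (cuspIdx N g : ℤ) ≠ 0 := by exact_mod_cast (cuspIdx_pos N g).ne'
    exact mul_right_cancel₀ h2 h1

end Fermat.Agent.M17.AutDiv4
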