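/-
M17 (target S17), block [DICT] part 3 (helper4): **(c) an automorphic function with a divisor
`IsAutDiv N F Δ` which is invariant under `Γ₀(N)` is algebraic**: `F = realMer N f`, `div f = Δ`.
(Consumer form of "invariant + finitely many poles + meromorphic at the cusps ⇒ in `Θ(F_ℂ)`".)

Imported by no statement.
-/
import Fermat.Agent.M17.AutDiv4
import Fermat.Agent.ES.KUM.RatioMem15
import Fermat.Agent.ES.KUM.KummerInst17

set_option autoImplicit false
set_option linter.unusedSectionVars false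

open UpperHalfPlane AlgebraicCurve Filter Topology
open scoped Manifold MatrixGroups
open CongruenceSubgroup

noncomputable section

namespace Fermat.Agent.M17.AutAlg4

open Fermat.Agent.X0 Fermat.Agent.ES.KUM Fermat.Agent.X0.SurjPoint Fermat.Agent.ES.KUM.CCusp16
open Fermat.Agent.M17.Interfaces7 Fermat.Agent.M15.DivLogMer1 ModularCurve
open Fermat.Agent.M17.AutDiv4 Fermat.Agent.M17.Dict4 Fermat.Agent.ES.KUM.RatioAlg15
open Fermat.Agent.ES.KUM.RatioGen15 Fermat.Agent.ES.KUM.RatioMem15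

local notation "ι" => algebraMap HolH MerH

variable (N : ℕ) [NeZero N]

/-! ### growth: a limit against `q_N^{-k}` bounds the pole order at `i∞` -/

theorem exists_bdd_of_tendsto {f : ℍ → ℂ} {k : ℤ} {ℓ : ℂ}
    (h : Tendsto (fun τ : ℍ => f τ * Efac N k τ) atImInfty (𝓝 ℓ)) : ∃ m : ℕ, Bdd m f := by
  refine ⟨(-k).toNat, ?_⟩
  set m := (-k).toNat with hm
  -- the discriminant decays like `exp (-2π Im τ)`
  have hΔ := (CuspFormClass.exp_decay_atImInfty (h := 1) CuspForm.discriminant one_pos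
    one_mem_strictPeriods_SL)
  obtain ⟨c, hc⟩ := hΔ.bound
  have h1 : ∀ᶠ τ : ℍ in atImInfty, ‖f τ * Efac N k τ‖ ≤ ‖ℓ‖ + 1 := by
    have := h.norm.eventually (Iio_mem_nhds (lt_add_one ‖ℓ‖))
    filter_upwards [this] with τ hτ using le_of_lt hτ
  have h2 := hc.and h1
  rw [Filter.Eventually, atImInfty_mem] at h2
  obtain ⟨A, hA⟩ := h2
  unfold Bdd
  rw [isBoundedAtImInfty_iff]
  refine ⟨(‖ℓ‖ + 1) * (|c| ^ m), max A 0, fun τ hτ => ?_⟩
  obtain ⟨hΔτ, hfτ⟩ := hA τ (le_trans (le_max_left _ _) hτ)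
  have ht : 0 ≤ τ.im := τ.im_pos.le
  have hNpos := natCast_pos' N
  -- the two bounds
  have hE : ‖Efac N k τ‖ = Real.exp (2 * Real.pi * k * τ.im / N) := norm_Efac N k τ
  have hEpos : 0 < ‖Efac N k τ‖ := by rw [hE]; exact Real.exp_pos _
  have hf' : ‖f τ‖ ≤ (‖ℓ‖ + 1) * Real.exp (-(2 * Real.pi * k * τ.im / N)) := by
    rw [norm_mul, hE] at hfτ
    rw [Real.exp_neg]
    rw [← div_eq_mul_inv, le_div_iff₀ (Real.exp_pos _)]
    exact hfτ
  have hΔ' : ‖ModularForm.discriminant τ‖ ≤ |c| * Real.exp (-(2 * Real.pi * τ.im)) := by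
    have e1 : ‖Real.exp (-2 * Real.pi * τ.im / 1)‖ = Real.exp (-(2 * Real.pi * τ.im)) := by
      rw [Real.norm_of_nonneg (Real.exp_pos _).le]
      congr 1
      ring
    have : ‖(CuspForm.discriminant : ℍ → ℂ) τ‖ ≤ c * ‖Real.exp (-2 * Real.pi * τ.im / 1)‖ := hΔτ
    rw [e1] at this
    calc ‖ModularForm.discriminant τ‖ = ‖(CuspForm.discriminant : ℍ → ℂ) τ‖ := rfl
      _ ≤ c * Real.exp (-(2 * Real.pi * τ.im)) := this
      _ ≤ |c| * Real.exp (-(2 * Real.pi * τ.im)) :=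
        mul_le_mul_of_nonneg_right (le_abs_self c) (Real.exp_pos _).le
  have hΔm : ‖ModularForm.discriminant τ‖ ^ m ≤ |c| ^ m * Real.exp (-(2 * Real.pi * τ.im) * m) := by
    calc ‖ModularForm.discriminant τ‖ ^ m ≤ (|c| * Real.exp (-(2 * Real.pi * τ.im))) ^ m :=
        pow_le_pow_left₀ (norm_nonneg _) hΔ' m
      _ = |c| ^ m * Real.exp (-(2 * Real.pi * τ.im) * m) := by
        rw [mul_pow, ← Real.exp_nat_mul]
        congr 2
        ring
  -- the exponent is nonpositive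
  have hexp : -(2 * Real.pi * k * τ.im / N) + -(2 * Real.pi * τ.im) * m ≤ 0 := by
    have hmk : (-(k : ℝ)) ≤ (m : ℝ) := by
      have : -k ≤ (m : ℤ) := by rw [hm]; exact Int.self_le_toNat (-k)
      exact_mod_cast this
    have hm0 : (0 : ℝ) ≤ m := Nat.cast_nonneg m
    have hN1 : (1 : ℝ) ≤ N := by exact_mod_cast Nat.one_le_iff_ne_zero.mpr (NeZero.ne N)
    have hkN : -(k : ℝ) / N ≤ m := by
      rcases le_or_gt (-(k : ℝ)) 0 with h0 | h0
      · exact le_trans (div_nonpos_of_nonpos_of_nonneg h0 hNpos.le) hm0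
      · exact le_trans (div_le_self h0.le hN1) hmk
    have h2π : 0 ≤ 2 * Real.pi * τ.im := by positivity
    have : -(2 * Real.pi * k * τ.im / N) + -(2 * Real.pi * τ.im) * m =
        (2 * Real.pi * τ.im) * (-(k : ℝ) / N - m) := by
      field_simp
      ring
    rw [this]
    exact mul_nonpos_of_nonneg_of_nonpos h2π (by linarith)
  calc ‖f τ * ModularForm.discriminant τ ^ m‖ = ‖f τ‖ * ‖ModularForm.discriminant τ‖ ^ m := by
        rw [norm_mul, norm_pow]
    _ ≤ ((‖ℓ‖ + 1) * Real.exp (-(2 * Real.pi * k * τ.im / N))) *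
        (|c| ^ m * Real.exp (-(2 * Real.pi * τ.im) * m)) :=
        mul_le_mul hf' hΔm (by positivity) (by positivity)
    _ = (‖ℓ‖ + 1) * |c| ^ m *
        Real.exp (-(2 * Real.pi * k * τ.im / N) + -(2 * Real.pi * τ.im) * m) := by
        rw [Real.exp_add]; ring
    _ ≤ (‖ℓ‖ + 1) * |c| ^ m * 1 := by
        apply mul_le_mul_of_nonneg_left _ (by positivity)
        rw [← Real.exp_zero]
        exact Real.exp_le_exp.mpr hexp
    _ = (‖ℓ‖ + 1) * |c| ^ m := mul_one _

/-! ### clearing the poles in `ℍ` by a function of `j` -/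

theorem exists_clear_place (v : Place ℂ (FC N)) : ∃ w : FC N, w ≠ 0 ∧
    (∀ z, 0 ≤ (ptPlaceC N 1 z).ord w) ∧
      ∀ z, v = ptPlaceC N 1 z → 0 < (ptPlaceC N 1 z).ord w := by
  rcases CSurj25.place_cases N v with ⟨z₀, rfl⟩ | ⟨g, rfl⟩
  · refine ⟨jC N - algebraMap ℂ (FC N) (jFun z₀), jC_sub_ne_zero N _, fun z => ?_, fun z hz => ?_⟩
    · have := FF.ord_sub_ge (ptPlaceC N 1 z) (jC_sub_ne_zero N (jFun z₀))
      rw [FF.ord_algebraMap] at this
      exact le_trans (le_min (CSurj25.ptPlaceC_ord_jC_nonneg N 1 z) le_rfl) this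
    · have hj : jFun z₀ = jFun z := jFun_eq_of_ptPlaceC_eq N hz
      rw [hj]
      exact ord_jC_sub_pos N 1 z
  · refine ⟨1, one_ne_zero, fun z => by simp, fun z hz => ?_⟩
    exfalso
    have h1 := cuspPlaceC_ord_jC_neg N g
    have h2 := CSurj25.ptPlaceC_ord_jC_nonneg N 1 z
    rw [← hz] at h2
    omega

theorem exists_clear (Δ : Divisor ℂ (FC N)) : ∃ u : FC N, u ≠ 0 ∧
    ∀ z, 0 ≤ Δ (ptPlaceC N 1 z) + (ptPlaceC N 1 z).ord u := by
  induction Δ using Finsupp.induction with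
  | zero => exact ⟨1, one_ne_zero, fun z => by simp⟩
  | single_add v n Δ' hv hn ih =>
    obtain ⟨u', hu', hu⟩ := ih
    obtain ⟨w, hw, hw1, hw2⟩ := exists_clear_place N v
    refine ⟨w ^ n.natAbs * u', mul_ne_zero (pow_ne_zero _ hw) hu', fun z => ?_⟩
    rw [Place.ord_mul _ (pow_ne_zero _ hw) hu', FF.ord_pow, Finsupp.add_apply]
    have h1 := hu z
    have h2 := hw1 z
    by_cases hvz : v = ptPlaceC N 1 z
    · have h3 := hw2 z hvz
      rw [← hvz, Finsupp.single_eq_same]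
      rw [← hvz] at h1 h3
      have h4 : (n.natAbs : ℤ) ≤ n.natAbs * v.ord w :=
        le_mul_of_one_le_right (by positivity) h3
      have h5 : -(n.natAbs : ℤ) ≤ n := by omega
      linarith
    · rw [Finsupp.single_eq_of_ne (Ne.symm hvz)]
      have : (0 : ℤ) ≤ n.natAbs * (ptPlaceC N 1 z).ord w := by positivity
      linarith

/-! ### (c): invariant + automorphic divisor ⇒ algebraic -/

/-- **(c)** A `Γ₀(N)`-invariant meromorphic function on `ℍ` with an automorphic divisor `Δ`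
(finitely many zeros/poles mod `Γ₀(N)`, meromorphic at all cusps) is the realisation of an element
`f` of the function field `F_ℂ = ℂ(X₀(N))`, and `div f = Δ`. -/
theorem exists_realMer_eq_of_isAutDiv {F : MerH} {Δ : Divisor ℂ (FC N)} (h : IsAutDiv N F Δ)
    (hinv : ∀ γ ∈ Gamma0 N, slMer γ F = F) :
    ∃ f : FC N, f ≠ 0 ∧ realMer N f = F ∧ ∀ v, Δ v = v.ord f := by
  obtain ⟨u, hu, hclear⟩ := exists_clear N Δ
  obtain ⟨Δu, hΔu, -⟩ := HasPrincipalDivisors.exists_divisor (K := ℂ) u hu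
  have hG := isAutDiv_mul N h (isAutDiv_realMer N hu hΔu)
  set G := F * realMer N u with hGdef
  obtain ⟨hG0, hGord, hGcusp⟩ := (isAutDiv_iff N G _).mp hG
  -- `G` is holomorphic
  obtain ⟨A, hA⟩ := exists_holH_of_forall_ordMer_nonneg (x := G) (fun z => by
    rw [hGord z, Finsupp.add_apply, hΔu]
    exact mul_nonneg (hclear z) (by positivity))
  -- invariance
  have hAinv : ∀ γ ∈ Gamma0 N, compSL (A : ℍ → ℂ) γ = A := by
    intro γ hγ
    have h1 : slMer γ G = G := by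
      rw [hGdef, map_mul, hinv γ hγ, slMer_realMer_of_mem N γ hγ]
    rw [← hA, slMer_algebraMap] at h1
    have h2 := iota_injective h1
    have := congrArg (Subtype.val) h2
    simpa using this
  -- growth at every cusp
  have hAbdd : ∀ γ : SL(2, ℤ), ∃ M, Bdd M (compSL (A : ℍ → ℂ) γ) := by
    intro γ
    obtain ⟨a, b, ℓ, hb, hℓ, hab, hlim⟩ := (cuspOrdIs_iff N G γ⁻¹ _).mp (hGcusp γ⁻¹)
    rw [inv_inv] at hlim
    have hab' : ∀ σ : ℍ, (A : ℍ → ℂ) σ * (b : ℍ → ℂ) σ = (a : ℍ → ℂ) σ := by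
      rw [← hA, ← map_mul] at hab
      have h3 := iota_injective hab
      intro σ
      have := congrArg (fun f : HolH => (f : ℍ → ℂ) σ) h3
      simpa using this
    refine exists_bdd_of_tendsto N (ℓ := ℓ)
      (k := (Δ + Δu) (cuspPlaceC N γ⁻¹) * ↑(cuspIdx N γ⁻¹)) (hlim.congr' ?_)
    have hne := hlim.eventually_ne hℓ
    filter_upwards [hne] with τ hτ
    have hbτ : (b : ℍ → ℂ) (γ • τ) ≠ 0 := by
      intro h0
      apply hτ
      rw [h0, div_zero, zero_mul]
    rw [← hab' (γ • τ), mul_div_assoc, div_self hbτ, mul_one]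
    rfl
  obtain ⟨M, hM⟩ := exists_uniform_bdd N hAinv hAbdd
  have hAalg : A ∈ algA N := (mem_algA_iff N A).mpr ⟨hAinv, M, hM⟩
  have hGfrac : G ∈ fracA N :=
    ⟨A, 1, hAalg, (algA N).one_mem, one_ne_zero, by rw [map_one, div_one, hA]⟩
  obtain ⟨g, hg⟩ := exists_realMer_eq_of_mem_fracA N hGfrac
  have hu' : realMer N u ≠ 0 := (map_ne_zero _).mpr hu
  have hg0 : g ≠ 0 := by
    rintro rfl
    rw [map_zero] at hg
    exact hG0 hg.symm
  have hf0 : g / u ≠ 0 := div_ne_zero hg0 hu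
  have hFeq : realMer N (g / u) = F := by
    rw [map_div₀, hg, hGdef, mul_div_assoc, div_self hu', mul_one]
  refine ⟨g / u, hf0, hFeq, ?_⟩
  obtain ⟨Δf, hΔf, -⟩ := HasPrincipalDivisors.exists_divisor (K := ℂ) (g / u) hf0
  have h2 := isAutDiv_realMer N hf0 hΔf
  rw [hFeq] at h2
  have := isAutDiv_unique N h h2
  intro v
  rw [this, hΔf]

end Fermat.Agent.M17.AutAlg4
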