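/-
M17 (target S17), block [MAJ] part 1 (helper4): **from M15's `CuspLog` to `CuspOrdIs … 0`**, and the
automorphic function with unitary character of a cusp-free divisor of degree `0` in the `IsAutDiv`
vocabulary of `Interfaces7`.

* `tendsto_of_cuspOrdIs_iota` / `cuspOrdIs_iota_of_tendsto` : for holomorphic `B`, `CuspOrdIs` is the
  existence of a nonzero limit of `B(γ⁻¹τ) q_N^{-n}`;
* `cuspOrdIs_zero_of_cuspLog` : a logarithm at every cusp gives cusp order `0`;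
* `exists_autPair_of_cuspFree` : (M1) for divisors without cusps in the support.

Imported by no statement.
-/
import Fermat.Agent.M17.AutAlg4
import Fermat.Agent.M15.DivDict1

set_option autoImplicit false
set_option linter.unusedSectionVars false

open UpperHalfPlane AlgebraicCurve Filter Topology
open scoped Manifold MatrixGroups NNReal
open CongruenceSubgroup

noncomputable section

namespace Fermat.Agent.M17.CuspLog4

open Fermat.Agent.X0 Fermat.Agent.ES.KUM Fermat.Agent.X0.SurjPoint Fermat.Agent.ES.KUM.CCusp16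
open Fermat.Agent.M17.Interfaces7 Fermat.Agent.M15.DivLogMer1 ModularCurve
open Fermat.Agent.M17.AutDiv4 Fermat.Agent.M17.Dict4 Fermat.Agent.M17.AutAlg4
open Fermat.Agent.M15.DivShift1 Fermat.Agent.M15.DivAut1 Fermat.Agent.M15.DivLogPrim1
open Fermat.Agent.M15.DivDict1

local notation "ι" => algebraMap HolH MerH

variable (N : ℕ) [NeZero N]

/-! ### `CuspOrdIs` for holomorphic functions -/

theorem tendsto_of_cuspOrdIs_iota {B : HolH} {γ : SL(2, ℤ)} {n : ℤ} (h : CuspOrdIs N (ι B) γ n) :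
    ∃ ℓ : ℂ, ℓ ≠ 0 ∧
      Tendsto (fun τ : ℍ => (B : ℍ → ℂ) (γ⁻¹ • τ) * Efac N n τ) atImInfty (𝓝 ℓ) := by
  obtain ⟨a, b, ℓ, hb, hℓ, hab, hlim⟩ := (cuspOrdIs_iff N _ γ n).mp h
  refine ⟨ℓ, hℓ, hlim.congr' ?_⟩
  have hab' : ∀ σ : ℍ, (B : ℍ → ℂ) σ * (b : ℍ → ℂ) σ = (a : ℍ → ℂ) σ := by
    rw [← map_mul] at hab
    have h3 := iota_injective hab
    intro σ
    have := congrArg (fun f : HolH => (f : ℍ → ℂ) σ) h3
    simpa using this
  have hne := hlim.eventually_ne hℓ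
  filter_upwards [hne] with τ hτ
  have hbτ : (b : ℍ → ℂ) (γ⁻¹ • τ) ≠ 0 := by
    intro h0
    apply hτ
    rw [h0, div_zero, zero_mul]
  rw [← hab' (γ⁻¹ • τ), mul_div_assoc, div_self hbτ, mul_one]

theorem cuspOrdIs_iota_of_tendsto {B : HolH} {γ : SL(2, ℤ)} {n : ℤ} {ℓ : ℂ} (hℓ : ℓ ≠ 0)
    (h : Tendsto (fun τ : ℍ => (B : ℍ → ℂ) (γ⁻¹ • τ) * Efac N n τ) atImInfty (𝓝 ℓ)) :
    CuspOrdIs N (ι B) γ n := by
  refine (cuspOrdIs_iff N _ γ n).mpr ⟨B, 1, ℓ, one_ne_zero, hℓ, by rw [map_one, mul_one], ?_⟩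
  refine h.congr fun τ => ?_
  show _ = (B : ℍ → ℂ) (γ⁻¹ • τ) / (1 : ℂ) * _
  rw [div_one]

/-! ### the vertical shift and `atImInfty` -/

theorem exists_shiftPt_eq (Y : ℝ≥0) (τ : ℍ) (h : (Y : ℝ) < τ.im) :
    ∃ z : ℍ, shiftPt Y z = τ ∧ z.im = τ.im - Y := by
  have him : ((τ : ℂ) - ((Y : ℝ) : ℂ) * Complex.I).im = τ.im - Y := by simp
  refine ⟨⟨(τ : ℂ) - ((Y : ℝ) : ℂ) * Complex.I, by rw [him]; linarith⟩, ?_, him⟩
  apply UpperHalfPlane.ext
  rw [coe_shiftPt]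
  show (τ : ℂ) - ((Y : ℝ) : ℂ) * Complex.I + ((Y : ℝ) : ℂ) * Complex.I = τ
  ring

theorem tendsto_shiftPt (Y : ℝ≥0) : Tendsto (shiftPt Y) atImInfty atImInfty := by
  rw [atImInfty, tendsto_comap_iff]
  have : (im ∘ shiftPt Y) = fun z : ℍ => z.im + Y := funext (im_shiftPt Y)
  rw [this]
  exact tendsto_atTop_add_const_right _ _ tendsto_comap

theorem tendsto_of_tendsto_comp_shiftPt {f : ℍ → ℂ} {Y : ℝ≥0} {ℓ : ℂ}
    (h : Tendsto (fun z => f (shiftPt Y z)) atImInfty (𝓝 ℓ)) : Tendsto f atImInfty (𝓝 ℓ) := by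
  intro S hS
  have h1 := h hS
  rw [Filter.mem_map, atImInfty_mem] at h1 ⊢
  obtain ⟨A, hA⟩ := h1
  refine ⟨max A 0 + Y + 1, fun τ hτ => ?_⟩
  have hY : (Y : ℝ) < τ.im := by
    have := le_max_right A 0
    linarith
  obtain ⟨z, hz, hzim⟩ := exists_shiftPt_eq Y τ hY
  have hzA : A ≤ z.im := by
    have := le_max_left A 0
    rw [hzim]
    linarith
  have := hA z hzA
  rw [Set.mem_preimage, hz] at this
  exact this

/-! ### a logarithm at a cusp gives cusp order `0` -/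

/-- strengthened clearing function: also regular at all points. -/
theorem exists_clear' (Δ : Divisor ℂ (FC N)) : ∃ u : FC N, u ≠ 0 ∧
    (∀ z, 0 ≤ (ptPlaceC N 1 z).ord u) ∧
      ∀ z, 0 ≤ Δ (ptPlaceC N 1 z) + (ptPlaceC N 1 z).ord u := by
  induction Δ using Finsupp.induction with
  | zero => exact ⟨1, one_ne_zero, fun z => by simp, fun z => by simp⟩
  | single_add v n Δ' hv hn ih =>
    obtain ⟨u', hu', hu0, hu⟩ := ih
    obtain ⟨w, hw, hw1, hw2⟩ := exists_clear_place N v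
    refine ⟨w ^ n.natAbs * u', mul_ne_zero (pow_ne_zero _ hw) hu', fun z => ?_, fun z => ?_⟩
    · rw [Place.ord_mul _ (pow_ne_zero _ hw) hu', FF.ord_pow]
      have h2 := hw1 z
      have : (0 : ℤ) ≤ n.natAbs * (ptPlaceC N 1 z).ord w := by positivity
      linarith [hu0 z]
    rw [Place.ord_mul _ (pow_ne_zero _ hw) hu', FF.ord_pow, Finsupp.add_apply]
    have h1 := hu z
    have h2 := hw1 z
    by_cases hvz : v = ptPlaceC N 1 z
    · have h3 := hw2 z hvz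
      rw [← hvz, Finsupp.single_eq_same]
      rw [← hvz] at h1 h3
      have h4 : (n.natAbs : ℤ) ≤ n.natAbs * v.ord w :=
        le_mul_of_one_le_right (by positivity) h3
      have h5 : -(n.natAbs : ℤ) ≤ n := by omega
      linarith
    · rw [Finsupp.single_eq_of_ne (Ne.symm hvz)]
      have : (0 : ℤ) ≤ n.natAbs * (ptPlaceC N 1 z).ord w := by positivity
      linarith

theorem cuspOrdIs_zero_of_cuspLog {F : MerH} {Δ : Divisor ℂ (FC N)} (hF : F ≠ 0)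
    (hord : ∀ z, ordMer z F = Δ (ptPlaceC N 1 z) * ptIdx N 1 z) (hlog : CuspLog N F)
    (γ : SL(2, ℤ)) : CuspOrdIs N F γ 0 := by
  obtain ⟨u, hu, hupos, hclear⟩ := exists_clear' N Δ
  have hu' : realMer N u ≠ 0 := (map_ne_zero _).mpr hu
  -- `realMer u = ι B`
  obtain ⟨B, hB⟩ := exists_holH_of_forall_ordMer_nonneg (x := realMer N u) (fun z => by
    rw [ordMer_realMer N z hu]
    exact mul_nonneg (by positivity) (hupos z))
  -- `F * realMer u = ι A`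
  obtain ⟨A, hA⟩ := exists_holH_of_forall_ordMer_nonneg (x := F * realMer N u) (fun z => by
    rw [ordMer_mul z hF hu', hord z, ordMer_realMer N z hu]
    have h1 := hclear z
    have h2 : (0 : ℤ) ≤ ptIdx N 1 z := by positivity
    nlinarith)
  -- the cusp order of `realMer u`
  have hcu := cuspOrdIs_realMer N hu γ
  have hcu' := hcu
  rw [← hB] at hcu'
  obtain ⟨ℓu, hℓu, hlimu⟩ := tendsto_of_cuspOrdIs_iota N hcu'
  -- the logarithm at the cusp
  obtain ⟨Y, ℓ₀, hper, hbd, hℓ₀⟩ := hlog γ⁻¹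
  have key : ∀ z : ℍ, (A : ℍ → ℂ) (γ⁻¹ • shiftPt Y z) =
      Complex.exp ((ℓ₀ : ℍ → ℂ) z) * (B : ℍ → ℂ) (γ⁻¹ • shiftPt Y z) := by
    have h1 : shiftM Y (slMer γ⁻¹ (F * realMer N u)) = shiftM Y (slMer γ⁻¹ (ι A)) := by rw [hA]
    rw [map_mul, map_mul, hℓ₀, ← hB, slMer_algebraMap, slMer_algebraMap, shiftM_algebraMap,
      shiftM_algebraMap, ← map_mul] at h1
    have h2 := iota_injective h1
    intro z
    have h3 : ((expH ℓ₀ * shiftH Y (compSLHom γ⁻¹ B) : HolH) : ℍ → ℂ) z =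
        ((shiftH Y (compSLHom γ⁻¹ A) : HolH) : ℍ → ℂ) z :=
      congrArg (fun f : HolH => (f : ℍ → ℂ) z) h2
    rw [shiftH_apply] at h3
    rw [show ((expH ℓ₀ * shiftH Y (compSLHom γ⁻¹ B) : HolH) : ℍ → ℂ) z =
      ((expH ℓ₀ : HolH) : ℍ → ℂ) z * ((shiftH Y (compSLHom γ⁻¹ B) : HolH) : ℍ → ℂ) z from rfl,
      shiftH_apply, expH_apply] at h3
    exact h3.symm
  -- the limit of `ℓ₀`
  have hper' : ∀ w : ℍ, (ℓ₀ : ℍ → ℂ) ((N : ℝ) +ᵥ w) = (ℓ₀ : ℍ → ℂ) w := by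
    intro w
    have h1 := congrArg (fun f : HolH => (f : ℍ → ℂ) w) hper
    simp only [coe_compSLHom, compSL_apply] at h1
    rw [UpperHalfPlane.modular_T_zpow_smul] at h1
    simpa using h1
  obtain ⟨L, hL⟩ := Fermat.Agent.S21.MaxPrinciple7.exists_tendsto_of_periodic_of_bounded
    ℓ₀.2 (Nat.pos_of_ne_zero (NeZero.ne N)) hper' hbd
  set nu : ℤ := (cuspPlaceC N γ).ord u * ↑(cuspIdx N γ) with hnu
  have hGlim : Tendsto (fun τ : ℍ => (A : ℍ → ℂ) (γ⁻¹ • τ) * Efac N nu τ) atImInfty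
      (𝓝 (Complex.exp L * ℓu)) := by
    apply tendsto_of_tendsto_comp_shiftPt (Y := Y)
    have h1 : Tendsto (fun z : ℍ => Complex.exp ((ℓ₀ : ℍ → ℂ) z)) atImInfty (𝓝 (Complex.exp L)) :=
      (Complex.continuous_exp.tendsto L).comp hL
    have h2 : Tendsto (fun z : ℍ => (B : ℍ → ℂ) (γ⁻¹ • shiftPt Y z) * Efac N nu (shiftPt Y z))
        atImInfty (𝓝 ℓu) := hlimu.comp (tendsto_shiftPt Y)
    refine (h1.mul h2).congr fun z => ?_
    rw [key z]
    ring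
  have hG : CuspOrdIs N (ι A) γ nu :=
    cuspOrdIs_iota_of_tendsto N (mul_ne_zero (Complex.exp_ne_zero L) hℓu) hGlim
  have hFeq : F = ι A * (realMer N u)⁻¹ := by
    rw [hA, mul_assoc, mul_inv_cancel₀ hu', mul_one]
  have := cuspOrdIs_mul N hG (cuspOrdIs_inv N hcu)
  rw [← hFeq, add_neg_cancel] at this
  exact this

/-! ### (M1) for cusp-free divisors -/

theorem ptIdx_le_three (z : ℍ) : ptIdx N 1 z ≤ 3 := by
  have h1 := ptIdx_dvd_ellOrder N 1 z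
  have h2 : ellOrder z ≤ 3 := by
    unfold ellOrder
    split_ifs <;> norm_num
  have h3 : 0 < ellOrder z := by
    unfold ellOrder
    split_ifs <;> norm_num
  exact le_trans (Nat.le_of_dvd h3 h1) h2

/-- **(M1), cusp-free case**: the automorphic function with unitary character of a divisor of
degree `0` without cusps in its support, from M15's `exists_logDiff` and `exists_automorphic`. -/
theorem exists_autPair_of_cuspFree (Δ : Divisor ℂ (FC N)) (hΔ : Divisor.degree Δ = 0)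
    (hcusp : ∀ v : Place ℂ (FC N), v.ord (jC N) < 0 → Δ v = 0) :
    ∃ (F : MerH) (χ : ↥(Gamma0 N) →* ℂˣ), IsAutDiv N F Δ ∧
      (∀ γ, ‖((χ γ : ℂˣ) : ℂ)‖ = 1) ∧
      (∀ γ : ↥(Gamma0 N), trSq (γ : SL(2, ℤ)) ≤ 4 → χ γ = 1) ∧
      (∀ γ : ↥(Gamma0 N), slMer (γ : SL(2, ℤ)) F = cst ((χ γ : ℂˣ) : ℂ) * F) := by
  obtain ⟨g, hwt, hpole, hreg⟩ := exists_logDiff N Δ hΔ hcusp
  set m : ℍ → ℤ := fun z => Δ (ptPlaceC N 1 z) * (ptIdx N 1 z : ℤ) with hm
  set K : ℕ := ∑ w ∈ Δ.support, (Δ w).natAbs with hK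
  have hKv : ∀ v : Place ℂ (FC N), -(K : ℤ) ≤ Δ v := by
    intro v
    by_cases hv : v ∈ Δ.support
    · have h1 : (Δ v).natAbs ≤ K :=
        Finset.single_le_sum (f := fun w => (Δ w).natAbs) (fun _ _ => Nat.zero_le _) hv
      omega
    · rw [Finsupp.notMem_support_iff.mp hv]
      omega
  have hM : ∀ z, -((3 * K : ℕ) : ℤ) ≤ m z := by
    intro z
    have h1 := hKv (ptPlaceC N 1 z)
    have h2 : ((ptIdx N 1 z : ℕ) : ℤ) ≤ 3 := by exact_mod_cast ptIdx_le_three N z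
    have h3 : (0 : ℤ) ≤ (ptIdx N 1 z : ℤ) := by positivity
    have h4 : (0 : ℤ) ≤ (K : ℤ) := by positivity
    show -((3 * K : ℕ) : ℤ) ≤ Δ (ptPlaceC N 1 z) * (ptIdx N 1 z : ℤ)
    push_cast
    nlinarith
  have hell : ∀ γ ∈ Gamma0 N, ∀ z₀ : ℍ, γ • z₀ = z₀ → EllMult14.mult γ z₀ ^ m z₀ = 1 := by
    intro γ hγ z₀ hfix
    show EllMult14.mult γ z₀ ^ (Δ (ptPlaceC N 1 z₀) * (ptIdx N 1 z₀ : ℤ)) = 1
    rw [mul_comm, zpow_mul, zpow_natCast, EllMult14.mult_pow_ptIdx N γ hγ z₀ hfix, one_zpow]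
  obtain ⟨F, χ, hF, hnorm, htriv, heig, hFord, hlog⟩ :=
    exists_automorphic N g m (3 * K) hM hpole hwt hreg hell
  refine ⟨F, χ, (isAutDiv_iff N F Δ).mpr ⟨hF, hFord, fun γ => ?_⟩, hnorm, htriv, heig⟩
  rw [hcusp _ (cuspPlaceC_ord_jC_neg N γ), zero_mul]
  exact cuspOrdIs_zero_of_cuspLog N hF hFord hlog γ

end Fermat.Agent.M17.CuspLog4
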