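/-
M17 (target S17), block [RT], leaf (FREE-1) (helper4): **balanced quotients of the theta pull-backs
`F_e = θ(A - e)` are algebraic functions with the expected divisor, cusps included.**

`z_ratio` and `z_balanced` are literally the fields `RTData.Z_ratio` / `RTData.Z_balanced` of
`Interfaces7` for `Fe := Theta1.Fe L` and any `Z` with `hZ : ∀ e, Fe e ≠ 0 → IsAutDiv N (ι (Fe e)) (Z e)`.

Imported by no statement.
-/
import Fermat.Agent.M17.AutAlg4
import Fermat.Agent.M17.ThetaPull1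

set_option autoImplicit false
set_option linter.unusedSectionVars false

open UpperHalfPlane AlgebraicCurve Filter Topology Matrix
open scoped Manifold MatrixGroups
open CongruenceSubgroup

noncomputable section

namespace Fermat.Agent.M17.FreeOne4

open Fermat.Agent.X0 Fermat.Agent.ES.KUM Fermat.Agent.X0.SurjPoint
open Fermat.Agent.M17.Interfaces7 Fermat.Agent.M15.DivLogMer1 ModularCurve
open Fermat.Agent.M17.AutDiv4 Fermat.Agent.M17.Dict4 Fermat.Agent.M17.AutAlg4
open Fermat.Agent.M17.Theta1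

local notation "ι" => algebraMap HolH MerH

variable {N : ℕ} [NeZero N] {g : ℕ} (L : LatData N g)

/-! ### evaluation of lists of holomorphic functions -/

/-- evaluation at a point, as a ring homomorphism. -/
def evalAt (z : ℍ) : HolH →+* ℂ where
  toFun f := (f : ℍ → ℂ) z
  map_one' := rfl
  map_mul' _ _ := rfl
  map_zero' := rfl
  map_add' _ _ := rfl

theorem evalAt_apply (z : ℍ) (f : HolH) : evalAt z f = (f : ℍ → ℂ) z := rfl

theorem list_prod_apply (l : List HolH) (z : ℍ) :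
    ((l.prod : HolH) : ℍ → ℂ) z = (l.map fun f : HolH => (f : ℍ → ℂ) z).prod := by
  have := map_list_prod (evalAt z) l
  simpa [evalAt_apply] using this

theorem list_sum_apply (l : List (Divisor ℂ (FC N))) (v : Place ℂ (FC N)) :
    (l.sum : Divisor ℂ (FC N)) v = (l.map fun D => D v).sum := by
  induction l with
  | nil => simp
  | cons D l ih => simp [ih]

/-! ### the divisor of a product -/

theorem isAutDiv_list_prod (Z : (Fin g → ℂ) → Divisor ℂ (FC N))
    (hZ : ∀ e, Fe L e ≠ 0 → IsAutDiv N (ι (Fe L e)) (Z e))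
    (E : List (Fin g → ℂ)) (hE : ∀ e ∈ E, Fe L e ≠ 0) :
    IsAutDiv N (ι (E.map (Fe L)).prod) (E.map Z).sum := by
  induction E with
  | nil =>
    simp only [List.map_nil, List.prod_nil, List.sum_nil, map_one]
    exact isAutDiv_one N
  | cons e E ih =>
    simp only [List.map_cons, List.prod_cons, List.sum_cons, map_mul]
    exact isAutDiv_mul N (hZ e (hE e (List.mem_cons_self)))
      (ih fun e' he' => hE e' (List.mem_cons_of_mem _ he'))

theorem list_prod_ne_zero (E : List (Fin g → ℂ)) (hE : ∀ e ∈ E, Fe L e ≠ 0) :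
    (E.map (Fe L)).prod ≠ 0 := by
  apply List.prod_ne_zero
  intro h0
  obtain ⟨e, he, h⟩ := List.mem_map.mp h0
  exact hE e he h

/-! ### the automorphy factor of a product -/

/-- the automorphy factor of `F_e`. -/
def fac (γ : Gamma0 N) (e : Fin g → ℂ) (τ : ℍ) : ℂ :=
  Complex.exp (-(Real.pi * Complex.I *
      (siegelOfLat L).Q (Siegel.ofRealVec (intVec (mVec L γ)))) -
    2 * Real.pi * Complex.I * (Siegel.ofRealVec (intVec (mVec L γ)) ⬝ᵥ (L.A τ - e)))

theorem FeFun_smul' (e : Fin g → ℂ) (γ : Gamma0 N) (τ : ℍ) :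
    FeFun L e ((γ : SL(2, ℤ)) • τ) = fac L γ e τ * FeFun L e τ := FeFun_smul L e γ τ

theorem list_prod_fac (γ : Gamma0 N) (τ : ℍ) (E : List (Fin g → ℂ)) :
    (E.map fun e => fac L γ e τ).prod =
      Complex.exp (-((E.length : ℂ) * (Real.pi * Complex.I *
          (siegelOfLat L).Q (Siegel.ofRealVec (intVec (mVec L γ))))) -
        2 * Real.pi * Complex.I *
          (Siegel.ofRealVec (intVec (mVec L γ)) ⬝ᵥ ((E.length : ℂ) • L.A τ - E.sum))) := by
  induction E with
  | nil => simp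
  | cons e E ih =>
    simp only [List.map_cons, List.prod_cons, List.length_cons, List.sum_cons]
    rw [ih, fac, ← Complex.exp_add]
    congr 1
    have h1 : (((E.length + 1 : ℕ) : ℂ)) • L.A τ - (e + E.sum) =
        (L.A τ - e) + ((E.length : ℂ) • L.A τ - E.sum) := by
      push_cast
      rw [add_smul, one_smul]
      abel
    rw [h1, dotProduct_add]
    push_cast
    ring

theorem list_prod_smul (γ : Gamma0 N) (τ : ℍ) (E : List (Fin g → ℂ)) :
    (((E.map (Fe L)).prod : HolH) : ℍ → ℂ) ((γ : SL(2, ℤ)) • τ) =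
      (E.map fun e => fac L γ e τ).prod * (((E.map (Fe L)).prod : HolH) : ℍ → ℂ) τ := by
  rw [list_prod_apply, list_prod_apply]
  induction E with
  | nil => simp
  | cons e E ih =>
    simp only [List.map_cons, List.prod_cons]
    rw [ih]
    have : (Fe L e : ℍ → ℂ) ((γ : SL(2, ℤ)) • τ) = fac L γ e τ * (Fe L e : ℍ → ℂ) τ :=
      FeFun_smul' L e γ τ
    rw [this]
    ring

/-- balanced quotients are `Γ₀(N)`-invariant. -/
theorem slMer_quot (E E' : List (Fin g → ℂ)) (hlen : E.length = E'.length) (hsum : E.sum = E'.sum)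
    (hE' : ∀ e ∈ E', Fe L e ≠ 0) (γ : SL(2, ℤ)) (hγ : γ ∈ Gamma0 N) :
    slMer γ (ι (E.map (Fe L)).prod / ι (E'.map (Fe L)).prod) =
      ι (E.map (Fe L)).prod / ι (E'.map (Fe L)).prod := by
  have hP' : (E'.map (Fe L)).prod ≠ 0 := list_prod_ne_zero L E' hE'
  have hfac : ∀ τ : ℍ, (E.map fun e => fac L ⟨γ, hγ⟩ e τ).prod =
      (E'.map fun e => fac L ⟨γ, hγ⟩ e τ).prod := by
    intro τ
    rw [list_prod_fac, list_prod_fac, hlen, hsum]
  have hfac0 : ∀ τ : ℍ, (E'.map fun e => fac L ⟨γ, hγ⟩ e τ).prod ≠ 0 := by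
    intro τ
    rw [list_prod_fac]
    exact Complex.exp_ne_zero _
  have key : compSLHom γ (E.map (Fe L)).prod * (E'.map (Fe L)).prod =
      (E.map (Fe L)).prod * compSLHom γ (E'.map (Fe L)).prod := by
    apply Subtype.ext
    funext τ
    show (((E.map (Fe L)).prod : HolH) : ℍ → ℂ) (γ • τ) * (((E'.map (Fe L)).prod : HolH) : ℍ → ℂ) τ =
      (((E.map (Fe L)).prod : HolH) : ℍ → ℂ) τ * (((E'.map (Fe L)).prod : HolH) : ℍ → ℂ) (γ • τ)
    have h1 := list_prod_smul L ⟨γ, hγ⟩ τ E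
    have h2 := list_prod_smul L ⟨γ, hγ⟩ τ E'
    rw [show ((⟨γ, hγ⟩ : Gamma0 N) : SL(2, ℤ)) = γ from rfl] at h1 h2
    rw [h1, h2, hfac τ]
    ring
  rw [slMer_div, div_eq_div_iff (iota_ne_zero ((compSLHom_ne_zero γ hP'))) (iota_ne_zero hP'),
    ← map_mul, ← map_mul, key]

/-! ### (FREE-1) -/

/-- **`Z_ratio`** (literally the field of `Interfaces7.RTData`). -/
theorem z_ratio (Z : (Fin g → ℂ) → Divisor ℂ (FC N))
    (hZ : ∀ e, Fe L e ≠ 0 → IsAutDiv N (ι (Fe L e)) (Z e)) :
    ∀ (E E' : List (Fin g → ℂ)) (h : FC N), (∀ e ∈ E, Fe L e ≠ 0) → (∀ e ∈ E', Fe L e ≠ 0) →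
    realMer N h * algebraMap HolH MerH (E'.map (Fe L)).prod =
      algebraMap HolH MerH (E.map (Fe L)).prod →
    ∀ v : Place ℂ (FC N), v.ord h = (E.map fun e => Z e v).sum - (E'.map fun e => Z e v).sum := by
  intro E E' h hE hE' heq v
  have hP : ι (E.map (Fe L)).prod ≠ 0 := iota_ne_zero (list_prod_ne_zero L E hE)
  have hP' : ι (E'.map (Fe L)).prod ≠ 0 := iota_ne_zero (list_prod_ne_zero L E' hE')
  have hh : h ≠ 0 := by
    rintro rfl
    rw [map_zero, zero_mul] at heq
    exact hP heq.symm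
  have h1 : realMer N h = ι (E.map (Fe L)).prod / ι (E'.map (Fe L)).prod := by
    rw [eq_div_iff hP', heq]
  have h2 : IsAutDiv N (realMer N h) ((E.map Z).sum - (E'.map Z).sum) := by
    rw [h1]
    exact isAutDiv_div N (isAutDiv_list_prod L Z hZ E hE) (isAutDiv_list_prod L Z hZ E' hE')
  obtain ⟨Δh, hΔh, -⟩ := HasPrincipalDivisors.exists_divisor (K := ℂ) h hh
  have h3 := isAutDiv_unique N (isAutDiv_realMer N hh hΔh) h2
  rw [← hΔh v, h3, Finsupp.sub_apply, list_sum_apply, list_sum_apply, List.map_map, List.map_map]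
  rfl

/-- **`Z_balanced`** (literally the field of `Interfaces7.RTData`). -/
theorem z_balanced (Z : (Fin g → ℂ) → Divisor ℂ (FC N))
    (hZ : ∀ e, Fe L e ≠ 0 → IsAutDiv N (ι (Fe L e)) (Z e)) :
    ∀ (E E' : List (Fin g → ℂ)), E.length = E'.length → E.sum = E'.sum →
    (∀ e ∈ E, Fe L e ≠ 0) → (∀ e ∈ E', Fe L e ≠ 0) →
    ∃ h : FC N, realMer N h * algebraMap HolH MerH (E'.map (Fe L)).prod =
      algebraMap HolH MerH (E.map (Fe L)).prod := by
  intro E E' hlen hsum hE hE'
  have hP' : ι (E'.map (Fe L)).prod ≠ 0 := iota_ne_zero (list_prod_ne_zero L E' hE')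
  have h2 : IsAutDiv N (ι (E.map (Fe L)).prod / ι (E'.map (Fe L)).prod)
      ((E.map Z).sum - (E'.map Z).sum) :=
    isAutDiv_div N (isAutDiv_list_prod L Z hZ E hE) (isAutDiv_list_prod L Z hZ E' hE')
  obtain ⟨f, -, hf, -⟩ := exists_realMer_eq_of_isAutDiv N h2
    (fun γ hγ => slMer_quot L E E' hlen hsum hE' γ hγ)
  exact ⟨f, by rw [hf, div_mul_cancel₀ _ hP']⟩

end Fermat.Agent.M17.FreeOne4
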