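/-
Programme M17 (target S17), helper9.  Mathlib only; imported by no statement.

(INJ) = leaf 'finite fibres' of the theta package, WITHOUT Lefschetz: the level-4 theta map
`z ↦ [Φ z]` is injective modulo the period lattice, from the addition formula alone.

 * `eq_zero_or_eq_zero_of_mul_eq_zero`, `dense_ne_zero` : entire functions on a complex normed
   space form a domain / have dense non-vanishing locus (run on complex lines; one-variable
   identity theorem).
 * `exists_exp_of_midpoint` : `C` entire nowhere zero with `C u * C u' = C ((u+u')/2)^2`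
   is `C 0 * exp (linear)`.
 * `AnalyticThetaData` : the exact identity `Φ X * Φ Y = R (κ(X+Y) ⊗ κ(X−Y))` on `E`,
   `Φ_{i₀}(z) = θ(2z)`.
 * `AnalyticThetaData.quasi_period_of_proj_eq` : `Φ z' = c • Φ z` ⇒
   `θ (u + (z' − z)) = c₀ * exp (ℓ u) * θ u` for all `u`.
 * `mem_latticeSet_of_quasi_period` : such a `w` lies in `ℤ^g + Ω ℤ^g` when `θ` has the
   quasi-periodicity of a Riemann theta function (any nonzero constants, `Ω` symmetric).
 * `AnalyticThetaData.sub_mem_latticeSet` : (INJ).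
-/
import Mathlib
set_option autoImplicit false
namespace Fermat.Agent.M17.FiniteFibres9

open Complex

variable {E : Type*} [NormedAddCommGroup E] [NormedSpace ℂ E]

/-- restriction of a differentiable function to a complex line is entire. -/
theorem differentiable_line {f : E → ℂ} (hf : Differentiable ℂ f) (u v : E) :
    Differentiable ℂ fun t : ℂ => f (u + t • v) := by
  have : Differentiable ℂ fun t : ℂ => u + t • v :=
    (differentiable_const u).add (differentiable_id.smul_const v)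
  exact hf.comp this

/-- one-variable identity theorem in the form we use: an entire function vanishing near a point
vanishes identically. -/
theorem eq_zero_of_eventually_zero {a : ℂ → ℂ} (ha : Differentiable ℂ a) {t₀ : ℂ}
    (h : a =ᶠ[nhds t₀] 0) (t : ℂ) : a t = 0 := by
  have han : AnalyticOnNhd ℂ a Set.univ := ha.differentiableOn.analyticOnNhd isOpen_univ
  exact han.eqOn_zero_of_preconnected_of_eventuallyEq_zero isPreconnected_univ (Set.mem_univ t₀) h
    (Set.mem_univ t)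

/-- (U2) the ring of entire functions on `E` has no zero divisors (run on complex lines). -/
theorem eq_zero_or_eq_zero_of_mul_eq_zero {h k : E → ℂ} (hh : Differentiable ℂ h)
    (hk : Differentiable ℂ k) (hmul : ∀ u, h u * k u = 0) : (∀ u, h u = 0) ∨ (∀ u, k u = 0) := by
  by_contra hcon
  push Not at hcon
  obtain ⟨⟨u₁, h1⟩, ⟨u₂, h2⟩⟩ := hcon
  let a : ℂ → ℂ := fun t => h (u₁ + t • (u₂ - u₁))
  let b : ℂ → ℂ := fun t => k (u₁ + t • (u₂ - u₁))
  have ha : Differentiable ℂ a := differentiable_line hh _ _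
  have hb : Differentiable ℂ b := differentiable_line hk _ _
  have ha0 : a 0 ≠ 0 := by simpa [a] using h1
  have hnear : ∀ᶠ t in nhds (0 : ℂ), a t ≠ 0 := ha.continuous.continuousAt.eventually_ne ha0
  have hb0 : b =ᶠ[nhds 0] 0 := by
    filter_upwards [hnear] with t ht
    have := hmul (u₁ + t • (u₂ - u₁))
    exact (mul_eq_zero.mp this).resolve_left ht
  have := eq_zero_of_eventually_zero hb hb0 1
  apply h2
  simpa [b] using this

/-- (U1) the non-vanishing locus of a nonzero entire function on `E` is dense. -/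
theorem dense_ne_zero {θ : E → ℂ} (hθ : Differentiable ℂ θ) {u₀ : E} (h0 : θ u₀ ≠ 0) :
    Dense {u | θ u ≠ 0} := by
  intro u₁
  rw [Metric.mem_closure_iff]
  intro ε hε
  by_contra hcon
  push Not at hcon
  -- `θ` vanishes on the ball around `u₁`
  have hball : ∀ u, dist u₁ u < ε → θ u = 0 := by
    intro u hu
    by_contra hne
    exact absurd hu (not_lt.mpr (hcon u hne))
  let a : ℂ → ℂ := fun t => θ (u₁ + t • (u₀ - u₁))
  have ha : Differentiable ℂ a := differentiable_line hθ _ _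
  have hcont : Continuous fun t : ℂ => u₁ + t • (u₀ - u₁) :=
    continuous_const.add (continuous_id.smul continuous_const)
  have hnear : ∀ᶠ t in nhds (0 : ℂ), dist u₁ (u₁ + t • (u₀ - u₁)) < ε := by
    have h1 : Filter.Tendsto (fun t : ℂ => dist u₁ (u₁ + t • (u₀ - u₁))) (nhds 0)
        (nhds (dist u₁ (u₁ + (0 : ℂ) • (u₀ - u₁)))) :=
      (continuous_const.dist hcont).continuousAt
    simp only [zero_smul, add_zero, dist_self] at h1
    exact h1.eventually (gt_mem_nhds hε)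
  have ha0 : a =ᶠ[nhds 0] 0 := by
    filter_upwards [hnear] with t ht
    exact hball _ ht
  have := eq_zero_of_eventually_zero ha ha0 1
  apply h0
  simpa [a] using this

/-- (S5) a nowhere vanishing entire function with `C u * C u' = C ((u + u') / 2) ^ 2` is
`C 0 * exp (linear)`. -/
theorem exists_exp_of_midpoint {C : E → ℂ} (hC : Differentiable ℂ C) (hne : ∀ u, C u ≠ 0)
    (hmid : ∀ u u', C u * C u' = C ((2 : ℂ)⁻¹ • (u + u')) ^ 2) :
    ∃ ℓ : E →L[ℂ] ℂ, ∀ u, C u = C 0 * exp (ℓ u) := by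
  -- normalise
  let D : E → ℂ := fun u => C u / C 0
  have hD : Differentiable ℂ D := by
    have := hC.mul_const (C 0)⁻¹
    simpa only [D, div_eq_mul_inv] using this
  have hD0 : D 0 = 1 := div_self (hne 0)
  have hDmid : ∀ u u', D u * D u' = D ((2 : ℂ)⁻¹ • (u + u')) ^ 2 := by
    intro u u'
    simp only [D, div_pow, ← hmid u u']
    field_simp
  have hDhalf : ∀ u, D u = D ((2 : ℂ)⁻¹ • u) ^ 2 := by
    intro u
    have := hDmid u 0
    rwa [hD0, mul_one, add_zero] at this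
  have hDadd : ∀ u u', D (u + u') = D u * D u' := by
    intro u u'
    rw [hDmid, ← hDhalf]
  refine ⟨fderiv ℂ D 0, fun u => ?_⟩
  -- one-parameter subgroup
  let f : ℂ → ℂ := fun t => D (t • u)
  have hfadd : ∀ s t, f (s + t) = f s * f t := fun s t => by simp only [f, add_smul, hDadd]
  have hf0 : f 0 = 1 := by simp [f, hD0]
  have hfd0 : HasDerivAt f (fderiv ℂ D 0 u) 0 := by
    have h1 : HasFDerivAt D (fderiv ℂ D 0) ((0 : ℂ) • u) := by
      rw [zero_smul]; exact (hD 0).hasFDerivAt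
    have h2 : HasDerivAt (fun t : ℂ => t • u) u 0 := by
      simpa using (hasDerivAt_id (0 : ℂ)).smul_const u
    exact h1.comp_hasDerivAt 0 h2
  have hfd : ∀ t, HasDerivAt f (f t * fderiv ℂ D 0 u) t := by
    intro t
    have h1 : HasDerivAt (fun s => f (s - t)) (fderiv ℂ D 0 u) t := by
      have h0 : HasDerivAt f (fderiv ℂ D 0 u) (t - t) := by rw [sub_self]; exact hfd0
      exact h0.comp_sub_const t t
    have h2 : HasDerivAt (fun s => f t * f (s - t)) (f t * fderiv ℂ D 0 u) t := h1.const_mul _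
    refine h2.congr_of_eventuallyEq (Filter.Eventually.of_forall fun s => ?_)
    simp only
    rw [← hfadd]; congr 1; ring
  let g : ℂ → ℂ := fun t => f t * exp (-(fderiv ℂ D 0 u) * t)
  have hgd : ∀ t, HasDerivAt g 0 t := by
    intro t
    have h1 : HasDerivAt (fun t : ℂ => exp (-(fderiv ℂ D 0 u) * t))
        (exp (-(fderiv ℂ D 0 u) * t) * (-(fderiv ℂ D 0 u))) t := by
      have : HasDerivAt (fun t : ℂ => -(fderiv ℂ D 0 u) * t) (-(fderiv ℂ D 0 u)) t := by
        simpa using (hasDerivAt_id t).const_mul (-(fderiv ℂ D 0 u))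
      exact this.cexp
    have := (hfd t).mul h1
    have hz : f t * (fderiv ℂ D 0) u * exp (-(fderiv ℂ D 0) u * t) +
        f t * (exp (-(fderiv ℂ D 0) u * t) * -(fderiv ℂ D 0) u) = 0 := by ring
    rw [hz] at this
    exact this
  have hgconst : ∀ t, g t = g 0 :=
    fun t => is_const_of_deriv_eq_zero (fun t => (hgd t).differentiableAt)
      (fun t => (hgd t).deriv) t 0
  have hg1 := hgconst 1
  simp only [g, mul_one, mul_zero, exp_zero, hf0] at hg1
  have hf1 : f 1 = exp (fderiv ℂ D 0 u) := by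
    have hexp : exp (-(fderiv ℂ D 0 u)) * exp (fderiv ℂ D 0 u) = 1 := by
      rw [← exp_add]; simp
    calc f 1 = f 1 * (exp (-(fderiv ℂ D 0 u)) * exp (fderiv ℂ D 0 u)) := by rw [hexp, mul_one]
      _ = (f 1 * exp (-(fderiv ℂ D 0 u))) * exp (fderiv ℂ D 0 u) := by ring
      _ = exp (fderiv ℂ D 0 u) := by rw [hg1, one_mul]
  have : D u = exp (fderiv ℂ D 0 u) := by simpa [f] using hf1
  have hCu : C u = C 0 * D u := by simp only [D]; field_simp [hne 0]
  rw [hCu, this]

/-- **Analytic theta data** on a complex normed space `E` (think `E = ℂ^g`): level-4 coordinates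
`Φ` (`Φ_χ(z) = θ[χ](2z)`), level-2 coordinates `κ`, the EXACT identity
`Φ(X) * Φ(Y) = R (κ(X+Y) ⊗ κ(X−Y))` with a rational matrix `R` with left inverse `S`, and the
distinguished coordinate `Φ_{i₀}(z) = θ(2z)`. -/
structure AnalyticThetaData (E : Type*) [NormedAddCommGroup E] [NormedSpace ℂ E]
    (ι ν : Type*) [Fintype ι] [Fintype ν] [DecidableEq ν] where
  Φ : E → ι → ℂ
  κ : E → ν → ℂ
  κ_diff : ∀ a, Differentiable ℂ fun z => κ z a
  κ_ne_zero : ∀ z, κ z ≠ 0
  R : ι × (ν × ν) → ℚ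
  S : (ν × ν) × ι → ℚ
  SR : ∀ ab cd : ν × ν, ∑ i, S (ab, i) * R (i, cd) = if ab = cd then 1 else 0
  law : ∀ (X Y : E) (i : ι),
    Φ X i * Φ Y i = ∑ ab : ν × ν, (R (i, ab) : ℂ) * (κ (X + Y) ab.1 * κ (X - Y) ab.2)
  θ : E → ℂ
  θ_diff : Differentiable ℂ θ
  θ_ne : ∃ u, θ u ≠ 0
  i₀ : ι
  Φ_i₀ : ∀ z, Φ z i₀ = θ ((2 : ℂ) • z)

section inj

variable {ι ν : Type*} [Fintype ι] [Fintype ν] [DecidableEq ν]

/-- inverting the law with `S`. -/
theorem AnalyticThetaData.law_inv (A : AnalyticThetaData E ι ν) (X Y : E) (ab : ν × ν) :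
    ∑ i, (A.S (ab, i) : ℂ) * (A.Φ X i * A.Φ Y i) = A.κ (X + Y) ab.1 * A.κ (X - Y) ab.2 := by
  simp_rw [A.law X Y, Finset.mul_sum]
  rw [Finset.sum_comm]
  have : ∀ cd : ν × ν, ∑ i, (A.S (ab, i) : ℂ) *
      ((A.R (i, cd) : ℂ) * (A.κ (X + Y) cd.1 * A.κ (X - Y) cd.2)) =
      (if ab = cd then 1 else 0) * (A.κ (X + Y) cd.1 * A.κ (X - Y) cd.2) := fun cd => by
    have h1 := A.SR ab cd
    have h2 : (∑ i, (A.S (ab, i) : ℂ) * (A.R (i, cd) : ℂ)) = if ab = cd then 1 else 0 := by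
      have := congrArg (fun q : ℚ => (q : ℂ)) h1
      simp only [Rat.cast_sum, Rat.cast_mul] at this
      rw [this]; split_ifs <;> simp
    rw [← h2, Finset.sum_mul]
    exact Finset.sum_congr rfl fun i _ => by ring
  simp_rw [this]
  simp

/-- **(INJ), abstract part**: if the level-4 points of `z` and `z'` coincide projectively, then
`θ` is quasi-periodic for `w = z' − z` with an exponential-linear factor. -/
theorem AnalyticThetaData.quasi_period_of_proj_eq (A : AnalyticThetaData E ι ν) {z z' : E} {c : ℂ}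
    (h : A.Φ z' = c • A.Φ z) :
    ∃ (c₀ : ℂ) (ℓ : E →L[ℂ] ℂ), ∀ u, A.θ (u + (z' - z)) = c₀ * exp (ℓ u) * A.θ u := by
  classical
  set w := z' - z with hw
  -- S1: `κ (p + w) ∥ κ p`
  have hS1 : ∀ p : E, ∃ C : ℂ, C ≠ 0 ∧ A.κ (p + w) = C • A.κ p := by
    intro p
    set Y := p - z with hY
    have e1 : z' + Y = p + w := by rw [hY, hw]; abel
    have e2 : z + Y = p := by rw [hY]; abel
    have hten : ∀ a b, A.κ (p + w) a * A.κ (z' - Y) b = c * (A.κ p a * A.κ (z - Y) b) := by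
      intro a b
      have h1 := A.law_inv z' Y (a, b)
      have h2 := A.law_inv z Y (a, b)
      rw [e1] at h1
      rw [e2] at h2
      rw [← h1, ← h2, Finset.mul_sum]
      refine Finset.sum_congr rfl fun i _ => ?_
      have := congrFun h i
      simp only [Pi.smul_apply, smul_eq_mul] at this
      rw [this]; ring
    obtain ⟨b, hb⟩ := Function.ne_iff.mp (A.κ_ne_zero (z' - Y))
    refine ⟨c * A.κ (z - Y) b / A.κ (z' - Y) b, ?_, ?_⟩
    · intro h0
      obtain ⟨a, ha⟩ := Function.ne_iff.mp (A.κ_ne_zero (p + w))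
      have := hten a b
      have h0' : c * A.κ (z - Y) b = 0 := by
        rcases div_eq_zero_iff.mp h0 with h' | h'
        · exact h'
        · exact absurd h' hb
      have : A.κ (p + w) a * A.κ (z' - Y) b = 0 := by
        rw [this]; linear_combination (A.κ p a) * h0'
      exact (mul_ne_zero ha hb) this
    · funext a
      have := hten a b
      simp only [Pi.smul_apply, smul_eq_mul]
      have hb' : A.κ (z' - Y) b ≠ 0 := hb
      calc A.κ (p + w) a = (A.κ (p + w) a * A.κ (z' - Y) b) / A.κ (z' - Y) b :=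
            (mul_div_cancel_right₀ _ hb').symm
        _ = c * A.κ (z - Y) b / A.κ (z' - Y) b * A.κ p a := by rw [this]; ring
  choose C hCne hC using hS1
  -- S2: `C` is differentiable
  have hCeq : ∀ p a, A.κ p a ≠ 0 → C p = A.κ (p + w) a / A.κ p a := by
    intro p a ha
    have := congrFun (hC p) a
    simp only [Pi.smul_apply, smul_eq_mul] at this
    rw [this]; field_simp
  have hCdiff : Differentiable ℂ C := by
    intro p₀
    obtain ⟨a, ha⟩ := Function.ne_iff.mp (A.κ_ne_zero p₀)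
    have hopen : ∀ᶠ p in nhds p₀, A.κ p a ≠ 0 :=
      (A.κ_diff a).continuous.continuousAt.eventually_ne ha
    have h1 : DifferentiableAt ℂ (fun p => A.κ (p + w) a) p₀ :=
      ((A.κ_diff a).comp (differentiable_id.add_const w)) p₀
    have h2 : DifferentiableAt ℂ (fun p => (A.κ p a)⁻¹) p₀ := ((A.κ_diff a) p₀).inv ha
    have hd : DifferentiableAt ℂ (fun p => A.κ (p + w) a / A.κ p a) p₀ := by
      have := h1.fun_mul h2
      simpa only [div_eq_mul_inv] using this
    refine hd.congr_of_eventuallyEq ?_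
    filter_upwards [hopen] with p hp
    exact hCeq p a hp
  -- S3: the functional equation for `θ`
  have h2 : (2 : ℂ) ≠ 0 := two_ne_zero
  have hS3 : ∀ u u' : E, A.θ (u + w) * A.θ (u' + w) =
      C ((2 : ℂ)⁻¹ • (u + u')) * (A.θ u * A.θ u') := by
    intro u u'
    set X := (2 : ℂ)⁻¹ • u with hX
    set Y := (2 : ℂ)⁻¹ • u' with hY'
    set X' := (2 : ℂ)⁻¹ • (u + w) with hX'
    set Y' := (2 : ℂ)⁻¹ • (u' + w) with hY''
    have t1 : A.θ (u + w) = A.Φ X' A.i₀ := by
      rw [A.Φ_i₀, hX', smul_smul, mul_inv_cancel₀ h2, one_smul]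
    have t2 : A.θ (u' + w) = A.Φ Y' A.i₀ := by
      rw [A.Φ_i₀, hY'', smul_smul, mul_inv_cancel₀ h2, one_smul]
    have t3 : A.θ u = A.Φ X A.i₀ := by
      rw [A.Φ_i₀, hX, smul_smul, mul_inv_cancel₀ h2, one_smul]
    have t4 : A.θ u' = A.Φ Y A.i₀ := by
      rw [A.Φ_i₀, hY', smul_smul, mul_inv_cancel₀ h2, one_smul]
    have hw2 : (2 : ℂ)⁻¹ • w + (2 : ℂ)⁻¹ • w = w := by
      rw [← add_smul]; norm_num
    have s1 : X' + Y' = (2 : ℂ)⁻¹ • (u + u') + w := by
      rw [hX', hY'', smul_add, smul_add, smul_add]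
      calc (2 : ℂ)⁻¹ • u + (2 : ℂ)⁻¹ • w + ((2 : ℂ)⁻¹ • u' + (2 : ℂ)⁻¹ • w)
          = (2 : ℂ)⁻¹ • u + (2 : ℂ)⁻¹ • u' + ((2 : ℂ)⁻¹ • w + (2 : ℂ)⁻¹ • w) := by abel
        _ = (2 : ℂ)⁻¹ • u + (2 : ℂ)⁻¹ • u' + w := by rw [hw2]
    have s2 : X' - Y' = X - Y := by
      rw [hX', hY'', hX, hY', smul_add, smul_add]; abel
    have s3 : X + Y = (2 : ℂ)⁻¹ • (u + u') := by rw [hX, hY', smul_add]
    rw [t1, t2, t3, t4, A.law X' Y', A.law X Y, s1, s2, s3, Finset.mul_sum]
    refine Finset.sum_congr rfl fun ab _ => ?_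
    have := congrFun (hC ((2 : ℂ)⁻¹ • (u + u'))) ab.1
    simp only [Pi.smul_apply, smul_eq_mul] at this
    rw [this]; ring
  -- S4: the midpoint equation for `C`
  obtain ⟨u₀, hu₀⟩ := A.θ_ne
  have hdense := dense_ne_zero A.θ_diff hu₀
  have hsq : ∀ u, A.θ (u + w) ^ 2 = C u * A.θ u ^ 2 := by
    intro u
    have := hS3 u u
    have e : (2 : ℂ)⁻¹ • (u + u) = u := by
      rw [← two_smul ℂ u, smul_smul, inv_mul_cancel₀ h2, one_smul]
    rw [e] at this
    rw [pow_two, pow_two, this]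
  have hmid : ∀ u u', C u * C u' = C ((2 : ℂ)⁻¹ • (u + u')) ^ 2 := by
    have hcont1 : Continuous fun q : E × E => C q.1 * C q.2 :=
      (hCdiff.continuous.comp continuous_fst).mul (hCdiff.continuous.comp continuous_snd)
    have hcont2 : Continuous fun q : E × E => C ((2 : ℂ)⁻¹ • (q.1 + q.2)) ^ 2 :=
      (hCdiff.continuous.comp ((continuous_fst.add continuous_snd).const_smul _)).pow 2
    have hden : Dense ({u | A.θ u ≠ 0} ×ˢ {u | A.θ u ≠ 0} : Set (E × E)) := hdense.prod hdense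
    have := Continuous.ext_on hden hcont1 hcont2 (by
      rintro ⟨u, u'⟩ ⟨hu, hu'⟩
      simp only [Set.mem_ofPred_eq] at hu hu'
      have h3 := hS3 u u'
      have e1 := hsq u
      have e2 := hsq u'
      have h4 : (A.θ (u + w) * A.θ (u' + w)) ^ 2 =
          C ((2 : ℂ)⁻¹ • (u + u')) ^ 2 * (A.θ u ^ 2 * A.θ u' ^ 2) := by rw [h3]; ring
      have h5 : (A.θ (u + w) * A.θ (u' + w)) ^ 2 = C u * C u' * (A.θ u ^ 2 * A.θ u' ^ 2) := by
        rw [mul_pow, e1, e2]; ring
      have hne : A.θ u ^ 2 * A.θ u' ^ 2 ≠ 0 := mul_ne_zero (pow_ne_zero 2 hu) (pow_ne_zero 2 hu')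
      exact mul_right_cancel₀ hne (h5.symm.trans h4))
    intro u u'
    exact congrFun this (u, u')
  -- S5
  obtain ⟨ℓ, hℓ⟩ := exists_exp_of_midpoint hCdiff hCne hmid
  -- S6: square roots and the domain property
  obtain ⟨c₁, hc₁⟩ : ∃ c₁ : ℂ, c₁ ^ 2 = C 0 := ⟨exp (log (C 0) / 2), by
    rw [← exp_nat_mul]
    have : ((2 : ℕ) : ℂ) * (log (C 0) / 2) = log (C 0) := by push_cast; ring
    rw [this, exp_log (hCne 0)]⟩
  let ℓ' : E →L[ℂ] ℂ := (2 : ℂ)⁻¹ • ℓ
  have hℓ' : ∀ u, exp (ℓ' u) ^ 2 = exp (ℓ u) := by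
    intro u
    rw [← exp_nat_mul]
    congr 1
    simp only [ℓ', FunLike.coe_smul, Pi.smul_apply, smul_eq_mul]
    push_cast; ring
  have hexpd : Differentiable ℂ fun u => exp (ℓ' u) := ℓ'.differentiable.cexp
  let hfun : E → ℂ := fun u => A.θ (u + w) - c₁ * exp (ℓ' u) * A.θ u
  let kfun : E → ℂ := fun u => A.θ (u + w) + c₁ * exp (ℓ' u) * A.θ u
  have hθw : Differentiable ℂ fun u => A.θ (u + w) := A.θ_diff.comp (differentiable_id.add_const w)
  have hh : Differentiable ℂ hfun := hθw.sub (((differentiable_const c₁).mul hexpd).mul A.θ_diff)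
  have hk : Differentiable ℂ kfun := hθw.add (((differentiable_const c₁).mul hexpd).mul A.θ_diff)
  have hprod : ∀ u, hfun u * kfun u = 0 := by
    intro u
    have := hsq u
    rw [hℓ u, ← hc₁, ← hℓ' u] at this
    simp only [hfun, kfun]
    linear_combination this
  rcases eq_zero_or_eq_zero_of_mul_eq_zero hh hk hprod with h0 | h0
  · exact ⟨c₁, ℓ', fun u => sub_eq_zero.mp (h0 u)⟩
  · refine ⟨-c₁, ℓ', fun u => ?_⟩
    have := h0 u
    simp only [kfun] at this
    linear_combination this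

end inj

/-! ### the period lattice of a quasi-periodic function -/

section lattice

open Matrix

variable {g : ℕ}

/-- the lattice `ℤ^g + Ω ℤ^g`. -/
def latticeSet (Ω : Matrix (Fin g) (Fin g) ℂ) : Set (Fin g → ℂ) :=
  {w | ∃ m n : Fin g → ℤ, w = (fun j => (m j : ℂ)) + Ω *ᵥ fun j => (n j : ℂ)}

/-- **(INJ), concrete last step**: a nonzero function with the quasi-periodicity of a Riemann theta
function (arbitrary nonzero constants `ε₁ m`, `ε₂ n`; `Ω` symmetric) which is also quasi-periodic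
for `w` with an exponential-linear factor has `w ∈ ℤ^g + Ω ℤ^g`. -/
theorem mem_latticeSet_of_quasi_period (Ω : Matrix (Fin g) (Fin g) ℂ) (hΩ : Ωᵀ = Ω)
    (θ : (Fin g → ℂ) → ℂ) {u₀ : Fin g → ℂ} (hu₀ : θ u₀ ≠ 0)
    (ε₁ ε₂ : (Fin g → ℤ) → ℂ)
    (hP1 : ∀ (m : Fin g → ℤ) u, θ (u + fun j => (m j : ℂ)) = ε₁ m * θ u)
    (hP2 : ∀ (n : Fin g → ℤ) u, θ (u + Ω *ᵥ fun j => (n j : ℂ)) =
      ε₂ n * exp (-(2 * Real.pi * I) * ∑ j, (n j : ℂ) * u j) * θ u)
    {w : Fin g → ℂ} {c₀ : ℂ} {ℓ : (Fin g → ℂ) →L[ℂ] ℂ}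
    (hw : ∀ u, θ (u + w) = c₀ * exp (ℓ u) * θ u) : w ∈ latticeSet Ω := by
  classical
  have hc₀ : c₀ ≠ 0 := by
    rintro rfl
    have := hw (u₀ - w)
    rw [sub_add_cancel, zero_mul, zero_mul] at this
    exact hu₀ this
  have hε₁ : ∀ m, ε₁ m ≠ 0 := by
    intro m h0
    have := hP1 m (u₀ - fun j => (m j : ℂ))
    rw [sub_add_cancel, h0, zero_mul] at this
    exact hu₀ this
  have hε₂ : ∀ n, ε₂ n ≠ 0 := by
    intro n h0
    have := hP2 n (u₀ - Ω *ᵥ fun j => (n j : ℂ))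
    rw [sub_add_cancel, h0, zero_mul, zero_mul] at this
    exact hu₀ this
  -- (a) `exp (ℓ m) = 1` for integer vectors
  have ha : ∀ m : Fin g → ℤ, exp (ℓ fun j => (m j : ℂ)) = 1 := by
    intro m
    have h1 : θ (u₀ + w + fun j => (m j : ℂ)) = ε₁ m * (c₀ * exp (ℓ u₀) * θ u₀) := by
      rw [hP1, hw]
    have h2 : θ (u₀ + w + fun j => (m j : ℂ)) =
        c₀ * exp (ℓ (u₀ + fun j => (m j : ℂ))) * (ε₁ m * θ u₀) := by
      rw [add_right_comm, hw, hP1]
    rw [h1, map_add, exp_add] at h2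
    have hne : ε₁ m * c₀ * exp (ℓ u₀) * θ u₀ ≠ 0 :=
      mul_ne_zero (mul_ne_zero (mul_ne_zero (hε₁ m) hc₀) (exp_ne_zero _)) hu₀
    have : ε₁ m * c₀ * exp (ℓ u₀) * θ u₀ * (exp (ℓ fun j => (m j : ℂ)) - 1) = 0 := by
      linear_combination -h2
    exact sub_eq_zero.mp ((mul_eq_zero.mp this).resolve_left hne)
  -- (b) `exp (ℓ (Ω n) + 2πi n·w) = 1`
  have hb : ∀ n : Fin g → ℤ, exp (ℓ (Ω *ᵥ fun j => (n j : ℂ)) +
      (2 * Real.pi * I) * ∑ j, (n j : ℂ) * w j) = 1 := by
    intro n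
    set v := Ω *ᵥ fun j => (n j : ℂ) with hv
    have h1 : θ (u₀ + w + v) = ε₂ n * exp (-(2 * Real.pi * I) * ∑ j, (n j : ℂ) * (u₀ + w) j) *
        (c₀ * exp (ℓ u₀) * θ u₀) := by
      rw [hP2, hw]
    have h2 : θ (u₀ + w + v) = c₀ * exp (ℓ (u₀ + v)) *
        (ε₂ n * exp (-(2 * Real.pi * I) * ∑ j, (n j : ℂ) * u₀ j) * θ u₀) := by
      rw [add_right_comm, hw, hP2]
    rw [h1, map_add, exp_add] at h2
    have hsplit : exp (-(2 * Real.pi * I) * ∑ j, (n j : ℂ) * (u₀ + w) j) =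
        exp (-(2 * Real.pi * I) * ∑ j, (n j : ℂ) * u₀ j) *
          exp (-(2 * Real.pi * I) * ∑ j, (n j : ℂ) * w j) := by
      rw [← exp_add]
      congr 1
      simp only [Pi.add_apply, mul_add, Finset.sum_add_distrib]
    rw [hsplit] at h2
    have hne : ε₂ n * exp (-(2 * Real.pi * I) * ∑ j, (n j : ℂ) * u₀ j) * c₀ * exp (ℓ u₀) * θ u₀ ≠ 0 :=
      mul_ne_zero (mul_ne_zero (mul_ne_zero (mul_ne_zero (hε₂ n) (exp_ne_zero _)) hc₀)
        (exp_ne_zero _)) hu₀
    have h3 : exp (-(2 * Real.pi * I) * ∑ j, (n j : ℂ) * w j) = exp (ℓ v) := by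
      have : ε₂ n * exp (-(2 * Real.pi * I) * ∑ j, (n j : ℂ) * u₀ j) * c₀ * exp (ℓ u₀) * θ u₀ *
          (exp (-(2 * Real.pi * I) * ∑ j, (n j : ℂ) * w j) - exp (ℓ v)) = 0 := by
        linear_combination h2
      exact sub_eq_zero.mp ((mul_eq_zero.mp this).resolve_left hne)
    rw [exp_add, ← h3, ← exp_add]
    simp
  -- integrality
  let bv : Fin g → Fin g → ℂ := fun i j => if i = j then 1 else 0
  have ecast : ∀ i : Fin g, (fun j => (((if i = j then 1 else 0 : ℤ)) : ℂ)) = bv i := by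
    intro i; funext j; simp only [bv]; split_ifs <;> simp
  have hk : ∀ i : Fin g, ∃ k : ℤ, ℓ (bv i) = k * (2 * Real.pi * I) := by
    intro i
    have := ha (fun j => if i = j then 1 else 0)
    rw [ecast i] at this
    exact Complex.exp_eq_one_iff.mp this
  choose k hk using hk
  have hℓ : ∀ u : Fin g → ℂ, ℓ u = (2 * Real.pi * I) * ∑ i, (k i : ℂ) * u i := by
    intro u
    have := (ℓ : (Fin g → ℂ) →ₗ[ℂ] ℂ).pi_apply_eq_sum_univ u
    simp only [ContinuousLinearMap.coe_coe] at this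
    rw [this, Finset.mul_sum]
    refine Finset.sum_congr rfl fun i _ => ?_
    have hki : ℓ (fun j => if i = j then 1 else 0) = k i * (2 * Real.pi * I) := hk i
    rw [smul_eq_mul, hki]; ring
  have h2πi : (2 * Real.pi * I : ℂ) ≠ 0 := by
    simp [Real.pi_ne_zero, I_ne_zero]
  have hmv : ∀ i x : Fin g, (Ω *ᵥ bv i) x = Ω x i := by
    intro i x; simp [Matrix.mulVec, dotProduct, bv]
  have hsym : ∀ x i : Fin g, Ω x i = Ω i x := fun x i => by
    have := congrFun (congrFun hΩ i) x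
    simpa [Matrix.transpose_apply] using this
  have hm : ∀ i : Fin g, ∃ m : ℤ, (Ω *ᵥ fun j => (k j : ℂ)) i + w i = m := by
    intro i
    have := hb (fun j => if i = j then 1 else 0)
    have ecast' : ∀ j : Fin g, (((if i = j then 1 else 0 : ℤ)) : ℂ) = bv i j := fun j =>
      congrFun (ecast i) j
    simp only [ecast'] at this
    rw [show (fun j => bv i j) = bv i from rfl, hℓ] at this
    obtain ⟨m, hm⟩ := Complex.exp_eq_one_iff.mp this
    refine ⟨m, ?_⟩
    have hsum1 : ∑ j, bv i j * w j = w i := by simp [bv]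
    have hsum2 : ∑ x, (k x : ℂ) * (Ω *ᵥ bv i) x = (Ω *ᵥ fun j => (k j : ℂ)) i := by
      simp only [hmv]
      simp only [Matrix.mulVec, dotProduct]
      exact Finset.sum_congr rfl fun x _ => by rw [hsym x i]; ring
    rw [hsum1, hsum2] at hm
    have : (2 * Real.pi * I : ℂ) * ((Ω *ᵥ fun j => (k j : ℂ)) i + w i - m) = 0 := by
      linear_combination hm
    exact sub_eq_zero.mp ((mul_eq_zero.mp this).resolve_left h2πi)
  choose m hm using hm
  refine ⟨m, fun j => -k j, ?_⟩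
  funext i
  have := hm i
  simp only [Pi.add_apply, Matrix.mulVec, dotProduct, Int.cast_neg] at this ⊢
  have hneg : ∑ x, Ω i x * -(k x : ℂ) = -∑ x, Ω i x * (k x : ℂ) := by
    rw [← Finset.sum_neg_distrib]; exact Finset.sum_congr rfl fun x _ => by ring
  rw [hneg]
  linear_combination this

/-- **(INJ)**: for analytic theta data on `ℂ^g` whose distinguished coordinate `θ` has the
quasi-periodicity of a Riemann theta function for `ℤ^g + Ω ℤ^g`, the level-4 map `z ↦ [Φ z]` is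
injective modulo the lattice. -/
theorem AnalyticThetaData.sub_mem_latticeSet {ι ν : Type*} [Fintype ι] [Fintype ν] [DecidableEq ν]
    (A : AnalyticThetaData (Fin g → ℂ) ι ν) (Ω : Matrix (Fin g) (Fin g) ℂ) (hΩ : Ωᵀ = Ω)
    (ε₁ ε₂ : (Fin g → ℤ) → ℂ)
    (hP1 : ∀ (m : Fin g → ℤ) u, A.θ (u + fun j => (m j : ℂ)) = ε₁ m * A.θ u)
    (hP2 : ∀ (n : Fin g → ℤ) u, A.θ (u + Ω *ᵥ fun j => (n j : ℂ)) =
      ε₂ n * exp (-(2 * Real.pi * I) * ∑ j, (n j : ℂ) * u j) * A.θ u)
    {z z' : Fin g → ℂ} {c : ℂ} (h : A.Φ z' = c • A.Φ z) : z' - z ∈ latticeSet Ω := by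
  obtain ⟨u₀, hu₀⟩ := A.θ_ne
  obtain ⟨c₀, ℓ, hw⟩ := A.quasi_period_of_proj_eq h
  exact mem_latticeSet_of_quasi_period Ω hΩ A.θ hu₀ ε₁ ε₂ hP1 hP2 hw

end lattice

end Fermat.Agent.M17.FiniteFibres9
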