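/-
Programme M17 (target S17), helper9.  Mathlib only; imported by no statement.

Everything of route (K) for S17 that lies DOWNSTREAM of the algebraicity bridge, plus the
abstract (algebraic + Liouville) parts of the Heisenberg-rigidity step A5'.

 1. `fg_of_half_descent`            descent lemma  h y ≤ ρ h (g + 2y) + c, ρ < 1
 2. `finite_normalized_le`          projective Northcott (tuples with a coordinate 1)
 3. `ThetaData`, `.half`, `.northcott`, `.fg`, `.fg_numberField`   the height chapter (Theta6)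
 4. `CThetaData`, `.law_inv`, `.descend`, `.fg`   complex theta data (ONE identity
        Φ(x) * Φ(y) = c • R (κ(x+y) ⊗ κ(x−y)), R rational invertible) + K-rationality of [Φ]
        ⇒ theta data over K ⇒ finite generation
 5. `exists_rational_of_unique` (LA1), `RatEqOn`, `CThetaData.ratEq_kappa` (E1),
    `CThetaData.ratEq_Phi` (E2), `RatEqOn.fixed` (F)     extension generic ⇒ all points,
        Galois-equivariantly; fixed points are rational over the fixed field
 6. `CThetaData.fg_of_generic`      assembly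
 7. `rigidity` (R3), `eq_smul_of_parallel_on_dense` (R2, Liouville engine),
    `rational_matrix_of_generic` (R2 + R3): ANY basis Ψ = M Φ that is rational at generic points
        forces M rational up to a scalar.
-/
import Mathlib

set_option autoImplicit false

open Height

namespace Fermat.Agent.M17.ThetaRigidity9

/-! ### 1. descent lemma -/

theorem fg_of_half_descent {G : Type*} [AddCommGroup G] {h : G → ℝ} [Northcott h]
    {s : Set G} (hs : s.Finite) (H₁ : ∀ x : G, ∃ g ∈ s, ∃ y : G, x = g + 2 • y)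
    {ρ c : ℝ} (hρ : ρ < 1) (H₂ : ∀ g ∈ s, ∀ y : G, h y ≤ ρ * h (g + 2 • y) + c) :
    AddGroup.FG G := by
  let S : Set G := s ∪ {x : G | h x ≤ c / (1 - ρ)}
  let U := AddSubgroup.closure S
  suffices U = ⊤ from AddGroup.fg_iff.mpr ⟨S, this, hs.union <| Northcott.finite_le _⟩
  by_contra! H
  rw [← SetLike.coe_ne_coe, AddSubgroup.coe_top, ← Set.nonempty_compl] at H
  obtain ⟨x, hx₁, hx₂⟩ := Northcott.exists_min_image h (U : Set G)ᶜ H
  obtain ⟨g, hg, y, rfl⟩ := H₁ x
  have hpos : 0 < 1 - ρ := by linarith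
  have hnot : g + 2 • y ∉ S := fun hmem => hx₁ (AddSubgroup.subset_closure hmem)
  have hlarge : c / (1 - ρ) < h (g + 2 • y) := by
    by_contra hle
    exact hnot (Or.inr (not_lt.mp hle))
  have H' : h y < h (g + 2 • y) := by
    have := H₂ g hg y
    rw [div_lt_iff₀ hpos] at hlarge
    nlinarith
  by_cases hy : y ∈ U
  · exact hx₁ (U.add_mem (AddSubgroup.subset_closure (Or.inl hg)) (U.nsmul_mem hy 2))
  · exact H'.not_ge (hx₂ y hy)

/-! ### 2. projective Northcott (normalised tuples) -/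

section northcott

variable {K : Type*} [Field K] [AdmissibleAbsValues K] {ι : Type*} [Finite ι]

theorem mulHeight₁_apply_le_of_apply_eq_one {x : ι → K} {i₀ : ι} (h1 : x i₀ = 1) (i : ι) :
    mulHeight₁ (x i) ≤ mulHeight x := by
  have := mulHeight_comp_le (K := K) (![i, i₀] : Fin 2 → ι) x
  have e : x ∘ ![i, i₀] = ![x i, 1] := by
    funext j
    fin_cases j <;> simp [h1]
  rw [e, ← mulHeight₁_eq_mulHeight] at this
  exact this

theorem finite_normalized_le [Northcott (mulHeight₁ (K := K))] (B : ℝ) :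
    {x : ι → K | (∃ i, x i = 1) ∧ mulHeight x ≤ B}.Finite := by
  have hfin : (Set.pi Set.univ fun _ : ι => {t : K | mulHeight₁ t ≤ B}).Finite :=
    Set.Finite.pi fun _ => Northcott.finite_le B
  refine hfin.subset ?_
  rintro x ⟨⟨i₀, h1⟩, hB⟩ i -
  exact (mulHeight₁_apply_le_of_apply_eq_one h1 i).trans hB

end northcott

/-! ### 3. theta data -/

/-- **Theta data** on an abelian group `G` with values in a field `K`: level-4 coordinates `Φ`,
level-2 (Kummer) coordinates `κ`, and the two linear relations coming from Riemann's addition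
formula. `T` and `S` are matrices in Mathlib's uncurried form. -/
structure ThetaData (G : Type*) [AddCommGroup G] (K : Type*) [Field K]
    (ι ν : Type*) [Fintype ι] [Fintype ν] where
  Φ : G → ι → K
  κ : G → ν → K
  Φ_ne_zero : ∀ x, Φ x ≠ 0
  κ_ne_zero : ∀ x, κ x ≠ 0
  T : ι × ν → K
  S : (ν × ν) × ι → K
  sq_law : ∀ x : G, ∃ c : K, c ≠ 0 ∧ (Φ x) ^ 2 = c • fun i => ∑ a, T (i, a) * κ (2 • x) a
  add_law : ∀ x y : G, ∃ c : K, c ≠ 0 ∧
    (fun ab : ν × ν => κ (x + y) ab.1 * κ (x - y) ab.2) =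
      c • fun ab => ∑ i, S (ab, i) * (Φ x * Φ y) i

variable {G : Type*} [AddCommGroup G] {K : Type*} [Field K] [AdmissibleAbsValues K]
variable {ι ν : Type*} [Fintype ι] [Fintype ν]

/-- the level-4 naive height. -/
noncomputable def ThetaData.B (D : ThetaData G K ι ν) (x : G) : ℝ := logHeight (D.Φ x)

/-- the one inequality the descent needs: `2 B(y) ≤ B(r + 2y) + B(r) + C`. -/
theorem ThetaData.half (D : ThetaData G K ι ν) :
    ∃ C : ℝ, ∀ r y : G, 2 * D.B y ≤ D.B (r + 2 • y) + D.B r + C := by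
  refine ⟨(totalWeight K * Real.log (Nat.card ν) + logHeight D.T) +
    (totalWeight K * Real.log (Nat.card ι) + logHeight D.S), fun r y => ?_⟩
  set x := r + 2 • y with hx
  -- step 1: 2 B(y) = h(Φ(y)²) = h(T κ(2y)) ≤ C_T + h(κ(2y))
  obtain ⟨c₁, hc₁, hsq⟩ := D.sq_law y
  have h1 : 2 * D.B y ≤ totalWeight K * Real.log (Nat.card ν) +
      logHeight D.T + logHeight (D.κ (2 • y)) := by
    have := logHeight_linearMap_apply_le D.T (D.κ (2 • y))
    have e : 2 * D.B y = logHeight ((D.Φ y) ^ 2) := by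
      rw [logHeight_pow]; simp [ThetaData.B]
    rw [e, hsq, logHeight_smul_eq_logHeight _ hc₁]
    exact this
  -- step 2: h(κ(x - r)) ≤ h(κ(x+r)) + h(κ(x−r)) = h(Segre) = h(S(Φ x ∗ Φ r)) ≤ C_S + B x + B r
  obtain ⟨c₂, hc₂, hadd⟩ := D.add_law x r
  have h2 : logHeight (D.κ (x + r)) + logHeight (D.κ (x - r)) ≤
      totalWeight K * Real.log (Nat.card ι) + logHeight D.S +
        (D.B x + D.B r) := by
    rw [← logHeight_fun_mul_eq (D.κ_ne_zero (x + r)) (D.κ_ne_zero (x - r)), hadd,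
      logHeight_smul_eq_logHeight _ hc₂]
    have := logHeight_linearMap_apply_le D.S (D.Φ x * D.Φ r)
    have hm := logHeight_mul_le (D.Φ x) (D.Φ r)
    simp only [ThetaData.B]
    linarith
  have e2 : x - r = 2 • y := by rw [hx]; abel
  rw [e2] at h2
  have h0 := logHeight_nonneg (D.κ (x + r))
  linarith

/-- Northcott for `B` from finite fibres of the projective point `[Φ x]`. -/
theorem ThetaData.northcott [Northcott (mulHeight₁ (K := K))] (D : ThetaData G K ι ν)
    (hfib : ∀ x : G, {y : G | ∃ c : K, D.Φ y = c • D.Φ x}.Finite) : Northcott D.B := by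
  classical
  refine ⟨fun b => ?_⟩
  -- normalisation map
  have hex : ∀ x : G, ∃ i, D.Φ x i ≠ 0 := fun x => Function.ne_iff.mp (D.Φ_ne_zero x)
  choose i₀ hi₀ using hex
  let nrm : G → ι → K := fun x => (D.Φ x (i₀ x))⁻¹ • D.Φ x
  have hnrm1 : ∀ x, nrm x (i₀ x) = 1 := fun x => by simp [nrm, hi₀ x]
  have hnrmh : ∀ x, mulHeight (nrm x) = mulHeight (D.Φ x) := fun x =>
    mulHeight_smul_eq_mulHeight _ (inv_ne_zero (hi₀ x))
  have hfin := finite_normalized_le (K := K) (ι := ι) (Real.exp b)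
  have hsub : {x : G | D.B x ≤ b} ⊆ nrm ⁻¹' {x : ι → K | (∃ i, x i = 1) ∧ mulHeight x ≤ Real.exp b} := by
    intro x hx
    refine ⟨⟨i₀ x, hnrm1 x⟩, ?_⟩
    rw [hnrmh]
    have : Real.log (mulHeight (D.Φ x)) ≤ b := hx
    exact (Real.log_le_iff_le_exp (mulHeight_pos _)).mp this
  refine (Set.Finite.preimage' hfin fun v _ => ?_).subset hsub
  -- fibres of `nrm`
  rcases (nrm ⁻¹' {v}).eq_empty_or_nonempty with he | ⟨x, hxv⟩
  · rw [he]; exact Set.finite_empty
  · refine (hfib x).subset fun y hy => ?_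
    have hy' : nrm y = nrm x := by
      have h1 : nrm y = v := hy
      have h2 : nrm x = v := hxv
      rw [h1, h2]
    refine ⟨D.Φ y (i₀ y) * (D.Φ x (i₀ x))⁻¹, ?_⟩
    calc D.Φ y = D.Φ y (i₀ y) • nrm y := by simp [nrm, smul_smul, hi₀ y]
      _ = D.Φ y (i₀ y) • nrm x := by rw [hy']
      _ = (D.Φ y (i₀ y) * (D.Φ x (i₀ x))⁻¹) • D.Φ x := by simp [nrm, smul_smul]

/-- **The height chapter of S17**: theta data + weak Mordell-Weil + finite fibres of `[Φ]`
(over a field with the Northcott property for `mulHeight₁`, e.g. a number field) give finite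
generation. -/
theorem ThetaData.fg [Northcott (mulHeight₁ (K := K))] (D : ThetaData G K ι ν)
    (hweak : (nsmulAddMonoidHom (α := G) 2).range.FiniteIndex)
    (hfib : ∀ x : G, {y : G | ∃ c : K, D.Φ y = c • D.Φ x}.Finite) : AddGroup.FG G := by
  classical
  have := D.northcott hfib
  obtain ⟨C, hC⟩ := D.half
  let f : G →+ G := nsmulAddMonoidHom 2
  let qi : G ⧸ f.range → G := Function.surjInv QuotientAddGroup.mk_surjective
  let s : Set G := Set.range qi
  have hsfin : s.Finite := Set.finite_range qi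
  have H₁ : ∀ x : G, ∃ g ∈ s, ∃ y : G, x = g + 2 • y := by
    intro x
    refine ⟨qi (QuotientAddGroup.mk x), ⟨_, rfl⟩, ?_⟩
    have h : (QuotientAddGroup.mk (qi (QuotientAddGroup.mk x)) : G ⧸ f.range) =
        QuotientAddGroup.mk x := Function.surjInv_eq QuotientAddGroup.mk_surjective _
    have hmem : -(qi (QuotientAddGroup.mk x)) + x ∈ f.range := QuotientAddGroup.eq.mp h
    obtain ⟨y, hy⟩ := hmem
    refine ⟨y, ?_⟩
    have : (2 : ℕ) • y = -(qi (QuotientAddGroup.mk x)) + x := hy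
    rw [this]; abel
  -- the constant: max over the finite set `s` of `B g`
  obtain ⟨M, hM⟩ : ∃ M : ℝ, ∀ g ∈ s, D.B g ≤ M := by
    obtain ⟨M, hM⟩ := (hsfin.image D.B).bddAbove
    exact ⟨M, fun g hg => hM ⟨g, hg, rfl⟩⟩
  refine fg_of_half_descent (h := D.B) hsfin H₁ (ρ := 1 / 2) (c := (M + C) / 2) (by norm_num)
    fun g hg y => ?_
  have := hC g y
  have := hM g hg
  linarith

end Fermat.Agent.M17.ThetaRigidity9

namespace Fermat.Agent.M17.ThetaRigidity9

/-- number-field specialisation: every instance is found by Mathlib. -/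
theorem ThetaData.fg_numberField {G : Type*} [AddCommGroup G] {K : Type*} [Field K] [NumberField K]
    {ι ν : Type*} [Fintype ι] [Fintype ν] (D : ThetaData G K ι ν)
    (hweak : (nsmulAddMonoidHom (α := G) 2).range.FiniteIndex)
    (hfib : ∀ x : G, {y : G | ∃ c : K, D.Φ y = c • D.Φ x}.Finite) : AddGroup.FG G :=
  D.fg hweak hfib

end Fermat.Agent.M17.ThetaRigidity9


/-! ### 4. transfer from complex theta data to a number field -/

namespace Fermat.Agent.M17.ThetaRigidity9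

/-- **Complex theta data**: what the analytic side (Riemann's addition formula) gives on a group
`G` mapped to `ℂ^g/Λ`: ONE identity `Φ(x) * Φ(y) = c • R (κ(x+y) ⊗ κ(x−y))` with a RATIONAL
invertible matrix `R` (left inverse `S`). -/
structure CThetaData (G : Type*) [AddCommGroup G] (ι ν : Type*) [Fintype ι] [Fintype ν]
    [DecidableEq ν] where
  Φ : G → ι → ℂ
  κ : G → ν → ℂ
  Φ_ne_zero : ∀ x, Φ x ≠ 0
  κ_ne_zero : ∀ x, κ x ≠ 0
  R : ι × (ν × ν) → ℚ
  S : (ν × ν) × ι → ℚ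
  SR : ∀ ab cd : ν × ν, ∑ i, S (ab, i) * R (i, cd) = if ab = cd then 1 else 0
  law : ∀ x y : G, ∃ c : ℂ, c ≠ 0 ∧
    Φ x * Φ y = c • fun i => ∑ ab : ν × ν, (R (i, ab) : ℂ) * (κ (x + y) ab.1 * κ (x - y) ab.2)

variable {G : Type*} [AddCommGroup G] {ι ν : Type*} [Fintype ι] [Fintype ν] [DecidableEq ν]

/-- inverting the law with `S`. -/
theorem CThetaData.law_inv (D : CThetaData G ι ν) (x y : G) : ∃ c : ℂ, c ≠ 0 ∧
    ∀ ab : ν × ν, ∑ i, (D.S (ab, i) : ℂ) * (D.Φ x i * D.Φ y i) =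
      c * (D.κ (x + y) ab.1 * D.κ (x - y) ab.2) := by
  obtain ⟨c, hc, h⟩ := D.law x y
  refine ⟨c, hc, fun ab => ?_⟩
  have hi : ∀ i, D.Φ x i * D.Φ y i =
      c * ∑ cd : ν × ν, (D.R (i, cd) : ℂ) * (D.κ (x + y) cd.1 * D.κ (x - y) cd.2) := fun i => by
    have := congrFun h i
    simpa using this
  simp_rw [hi, Finset.mul_sum]
  rw [Finset.sum_comm]
  have : ∀ cd : ν × ν, ∑ i, (D.S (ab, i) : ℂ) *
      (c * ((D.R (i, cd) : ℂ) * (D.κ (x + y) cd.1 * D.κ (x - y) cd.2))) =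
      (if ab = cd then 1 else 0) * (c * (D.κ (x + y) cd.1 * D.κ (x - y) cd.2)) := fun cd => by
    have h1 := D.SR ab cd
    have h2 : (∑ i, (D.S (ab, i) : ℂ) * (D.R (i, cd) : ℂ)) = if ab = cd then 1 else 0 := by
      have := congrArg (fun q : ℚ => (q : ℂ)) h1
      simp only [Rat.cast_sum, Rat.cast_mul] at this
      rw [this]; split_ifs <;> simp
    rw [← h2, Finset.sum_mul]
    refine Finset.sum_congr rfl fun i _ => ?_
    ring
  simp_rw [this]
  simp

/-- proportional tuples, one of them with coordinates in the subfield and the other one too: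
the factor is in the subfield. -/
theorem exists_smul_of_map_eq {K : Type*} [Field K] (φ : K →+* ℂ) {α : Type*} {u v : α → K}
    (hu : u ≠ 0) {γ : ℂ} (h : ∀ i, φ (u i) = γ * φ (v i)) : ∃ c : K, c ≠ 0 ∧ u = c • v := by
  obtain ⟨i, hi⟩ := Function.ne_iff.mp hu
  have hφi : φ (u i) ≠ 0 := (map_ne_zero φ).mpr hi
  have hvi : v i ≠ 0 := by
    intro h0
    apply hφi
    rw [h i, h0, map_zero, mul_zero]
  have hγ : γ = φ (u i / v i) := by
    rw [map_div₀, h i, mul_div_assoc, div_self ((map_ne_zero φ).mpr hvi), mul_one]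
  refine ⟨u i / v i, div_ne_zero hi hvi, ?_⟩
  funext j
  apply φ.injective
  rw [h j, hγ]
  simp

/-- **Transfer**: complex theta data whose level-4 points are rational over a subfield `K ⊂ ℂ`
(up to a scalar, pointwise) give theta data over `K` with the same fibres. -/
theorem CThetaData.descend (D : CThetaData G ι ν) {K : Type*} [Field K] (φ : K →+* ℂ)
    (hrat : ∀ x : G, ∃ c : ℂ, c ≠ 0 ∧ ∀ i, c * D.Φ x i ∈ φ.range) :
    ∃ D' : ThetaData G K ι ν, ∀ x y : G,
      (∃ c : K, D'.Φ y = c • D'.Φ x) → ∃ c : ℂ, D.Φ y = c • D.Φ x := by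
  classical
  -- step 1: the rational level-4 coordinates
  choose lam hlam hmem using hrat
  choose Φ' hΦ' using hmem
  have hΦ'ne : ∀ x, Φ' x ≠ 0 := by
    intro x h0
    obtain ⟨i, hi⟩ := Function.ne_iff.mp (D.Φ_ne_zero x)
    have := hΦ' x i
    rw [h0] at this
    simp only [Pi.zero_apply, map_zero] at this
    exact mul_ne_zero (hlam x) hi this.symm
  -- step 2: the rational Kummer coordinates, from `κ(z) ⊗ κ(z) ∥ S (Φ z * Φ 0)`
  have hκ : ∀ z : G, ∃ (w : ν → K) (μ : ℂ), μ ≠ 0 ∧ ∀ a, φ (w a) = μ * D.κ z a := by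
    intro z
    obtain ⟨c, hc, hinv⟩ := D.law_inv z 0
    obtain ⟨b₀, hb₀⟩ := Function.ne_iff.mp (D.κ_ne_zero z)
    refine ⟨fun a => ∑ i, (D.S ((a, b₀), i) : K) * (Φ' z i * Φ' 0 i),
      lam z * lam 0 * c * D.κ z b₀, ?_, fun a => ?_⟩
    · exact mul_ne_zero (mul_ne_zero (mul_ne_zero (hlam z) (hlam 0)) hc) hb₀
    · have := hinv (a, b₀)
      simp only [add_zero, sub_zero] at this
      simp only [map_sum, map_mul, map_ratCast, hΦ']
      calc ∑ i, (D.S ((a, b₀), i) : ℂ) * (lam z * D.Φ z i * (lam 0 * D.Φ 0 i))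
          = lam z * lam 0 * ∑ i, (D.S ((a, b₀), i) : ℂ) * (D.Φ z i * D.Φ 0 i) := by
            rw [Finset.mul_sum]; exact Finset.sum_congr rfl fun i _ => by ring
        _ = lam z * lam 0 * c * D.κ z b₀ * D.κ z a := by rw [this]; ring
  choose κ' μ hμ hκ' using hκ
  have hκ'ne : ∀ x, κ' x ≠ 0 := by
    intro x h0
    obtain ⟨a, ha⟩ := Function.ne_iff.mp (D.κ_ne_zero x)
    have := hκ' x a
    rw [h0] at this
    simp only [Pi.zero_apply, map_zero] at this
    exact mul_ne_zero (hμ x) ha this.symm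
  refine ⟨{ Φ := Φ', κ := κ', Φ_ne_zero := hΦ'ne, κ_ne_zero := hκ'ne,
            T := fun ia => ∑ b, (D.R (ia.1, (ia.2, b)) : K) * κ' 0 b,
            S := fun abi => (D.S abi : K),
            sq_law := ?_, add_law := ?_ }, ?_⟩
  · -- sq_law
    intro x
    obtain ⟨c, hc, h⟩ := D.law x x
    have hpow : (Φ' x) ^ 2 ≠ 0 := pow_ne_zero 2 (hΦ'ne x)
    refine exists_smul_of_map_eq φ hpow
      (γ := (lam x) ^ 2 * c * (μ (2 • x))⁻¹ * (μ 0)⁻¹) fun i => ?_
    have hi := congrFun h i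
    simp only [Pi.mul_apply, Pi.smul_apply, smul_eq_mul] at hi
    have e1 : x + x = 2 • x := (two_nsmul x).symm
    have e2 : x - x = 0 := sub_self x
    rw [e1, e2] at hi
    simp only [Pi.pow_apply, map_pow, map_sum, map_mul, map_ratCast, hΦ', hκ']
    have hexp : (lam x * D.Φ x i) ^ 2 = lam x ^ 2 * (D.Φ x i * D.Φ x i) := by ring
    rw [hexp, hi, Fintype.sum_prod_type]
    have hm2 := hμ (2 • x)
    have hm0 := hμ 0
    simp only [Finset.mul_sum, Finset.sum_mul]
    refine Finset.sum_congr rfl fun a _ => Finset.sum_congr rfl fun b _ => ?_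
    field_simp
  · -- add_law
    intro x y
    obtain ⟨c, hc, hinv⟩ := D.law_inv x y
    have hseg : (fun ab : ν × ν => κ' (x + y) ab.1 * κ' (x - y) ab.2) ≠ 0 := by
      obtain ⟨a, ha⟩ := Function.ne_iff.mp (hκ'ne (x + y))
      obtain ⟨b, hb⟩ := Function.ne_iff.mp (hκ'ne (x - y))
      exact Function.ne_iff.mpr ⟨(a, b), mul_ne_zero ha hb⟩
    refine exists_smul_of_map_eq φ hseg
      (γ := μ (x + y) * μ (x - y) * c⁻¹ * (lam x)⁻¹ * (lam y)⁻¹) fun ab => ?_
    have := hinv ab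
    simp only [map_sum, map_mul, map_ratCast, hΦ', hκ', Pi.mul_apply]
    have hsum : ∑ i, (D.S (ab, i) : ℂ) * (lam x * D.Φ x i * (lam y * D.Φ y i)) =
        lam x * lam y * ∑ i, (D.S (ab, i) : ℂ) * (D.Φ x i * D.Φ y i) := by
      rw [Finset.mul_sum]; exact Finset.sum_congr rfl fun i _ => by ring
    rw [hsum, this]
    have hx := hlam x
    have hy := hlam y
    field_simp
  · -- fibres
    rintro x y ⟨c, hc⟩
    refine ⟨(lam y)⁻¹ * φ c * lam x, ?_⟩
    funext i
    have h1 := hΦ' y i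
    have h2 := hΦ' x i
    have h3 : Φ' y i = c * Φ' x i := by
      have := congrFun hc i
      simpa using this
    rw [h3, map_mul, h2] at h1
    simp only [Pi.smul_apply, smul_eq_mul]
    have hy := hlam y
    field_simp
    linear_combination -h1

/-- **S17 from complex theta data**: everything after the analytic/arithmetic interface. -/
theorem CThetaData.fg (D : CThetaData G ι ν) {K : Type*} [Field K] [NumberField K] (φ : K →+* ℂ)
    (hrat : ∀ x : G, ∃ c : ℂ, c ≠ 0 ∧ ∀ i, c * D.Φ x i ∈ φ.range)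
    (hfib : ∀ x : G, {y : G | ∃ c : ℂ, D.Φ y = c • D.Φ x}.Finite)
    (hweak : (nsmulAddMonoidHom (α := G) 2).range.FiniteIndex) : AddGroup.FG G := by
  obtain ⟨D', hD'⟩ := D.descend φ hrat
  exact D'.fg_numberField hweak fun x => (hfib x).subset fun y hy => hD' x y hy

end Fermat.Agent.M17.ThetaRigidity9


/-! ### 5. rigidity, abstract parts -/

namespace Fermat.Agent.M17.ThetaRigidity9


/-! ### LA1: a one-dimensional solution space of a `K`-rational linear system is spanned by a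
`K`-rational vector. -/

theorem exists_rational_of_unique {K L : Type*} [Field K] [Field L] (φ : K →+* L)
    {n : Type*} [Fintype n] (E : Set (n → K)) (v₀ : n → L) (hv₀ : v₀ ≠ 0)
    (hsol : ∀ a ∈ E, ∑ i, φ (a i) * v₀ i = 0)
    (huniq : ∀ v : n → L, (∀ a ∈ E, ∑ i, φ (a i) * v i = 0) → ∃ c : L, v = c • v₀) :
    ∃ (u : n → K) (c : L), c ≠ 0 ∧ v₀ = c • fun i => φ (u i) := by
  classical
  let _ : Algebra K L := φ.toAlgebra
  have hsmul : ∀ (k : K) (l : L), k • l = φ k * l := fun k l => rfl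
  let b := Module.Basis.ofVectorSpace K L
  -- coordinates of `v₀` in the basis
  let u : Module.Basis.ofVectorSpaceIndex K L → n → K := fun α i => b.repr (v₀ i) α
  have hu : ∀ α, ∀ a ∈ E, ∑ i, a i * u α i = 0 := by
    intro α a ha
    have h0 : ∑ i, a i • v₀ i = 0 := by simpa [hsmul] using hsol a ha
    have := congrArg (fun l => b.repr l α) h0
    simpa [map_sum, Finsupp.coe_finsetSum, Finset.sum_apply] using this
  obtain ⟨i, hi⟩ := Function.ne_iff.mp hv₀
  obtain ⟨α, hα⟩ : ∃ α, u α i ≠ 0 := by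
    by_contra hcon
    push Not at hcon
    apply hi
    have : b.repr (v₀ i) = 0 := Finsupp.ext fun α => hcon α
    simpa using this
  obtain ⟨c, hc⟩ := huniq (fun j => φ (u α j)) (fun a ha => by
    have := congrArg φ (hu α a ha)
    simpa [map_sum, map_mul] using this)
  have hcne : c ≠ 0 := by
    rintro rfl
    have := congrFun hc i
    simp only [zero_smul, Pi.zero_apply] at this
    exact hα ((map_eq_zero φ).mp this)
  refine ⟨u α, c⁻¹, inv_ne_zero hcne, ?_⟩
  rw [hc, smul_smul, inv_mul_cancel₀ hcne, one_smul]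


/-- two `L`-rational tuples whose images are `ℂ`-proportional to the same complex tuple are
`L`-proportional. -/
theorem exists_smul_of_map_prop {L : Type*} [Field L] (φ : L →+* ℂ) {α : Type*} {u v : α → L}
    {w : α → ℂ} (hw : w ≠ 0) {c₁ c₂ : ℂ} (hc₁ : c₁ ≠ 0) (hc₂ : c₂ ≠ 0)
    (h1 : ∀ i, φ (u i) = c₁ * w i) (h2 : ∀ i, φ (v i) = c₂ * w i) :
    ∃ c : L, c ≠ 0 ∧ u = c • v := by
  have hu : u ≠ 0 := by
    intro h0
    obtain ⟨i, hi⟩ := Function.ne_iff.mp hw
    have := h1 i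
    rw [h0] at this
    simp only [Pi.zero_apply, map_zero] at this
    exact mul_ne_zero hc₁ hi this.symm
  refine exists_smul_of_map_eq φ hu (γ := c₁ / c₂) fun i => ?_
  rw [h1, h2]
  field_simp

section extension

variable {J : Type*} [AddCommGroup J] {ι ν : Type*} [Fintype ι] [Fintype ν] [DecidableEq ν]
variable {Γ : Type*} [Group Γ] [DistribMulAction Γ J]
variable {L : Type*} [Field L] [MulSemiringAction Γ L]

/-- `v` is a rational, `Γ`-equivariant representative of the complex projective point `w`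
on the set `s`. -/
def RatEqOn {α : Type*} (φ : L →+* ℂ) (w : J → α → ℂ) (s : Set J) (v : J → α → L) : Prop :=
  (∀ x ∈ s, ∃ c : ℂ, c ≠ 0 ∧ ∀ i, φ (v x i) = c * w x i) ∧
  (∀ x ∈ s, ∀ σ : Γ, σ • x ∈ s) ∧
  (∀ x ∈ s, ∀ σ : Γ, ∃ c : L, c ≠ 0 ∧ v (σ • x) = c • fun i => σ • v x i)

omit [DecidableEq ν] in
theorem smul_ratCast_eq (σ : Γ) (q : ℚ) : σ • (q : L) = (q : L) := by
  have := map_ratCast (MulSemiringAction.toRingHom Γ L σ) q
  rwa [MulSemiringAction.toRingHom_apply] at this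

omit [DecidableEq ν] in
theorem smul_div_eq (σ : Γ) (a b : L) : σ • (a / b) = σ • a / σ • b := by
  have := map_div₀ (MulSemiringAction.toRingHom Γ L σ) a b
  simpa only [MulSemiringAction.toRingHom_apply] using this

/-- **Extension from generic points to all points, Kummer coordinates** (E1). -/
theorem CThetaData.ratEq_kappa (D : CThetaData J ι ν) (φ : L →+* ℂ) {U : Set J} {v : J → ι → L}
    (hv : RatEqOn (Γ := Γ) φ D.Φ U v) (hG1 : ∀ w : J, ∃ X ∈ U, w - X ∈ U) :
    ∃ vκ : J → ν → L, RatEqOn (Γ := Γ) φ D.κ Set.univ vκ := by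
  classical
  obtain ⟨hrat, hstab, heq⟩ := hv
  -- the general construction: from `X, Y ∈ U` and an index `b`, the tuple `S (Φ X * Φ Y) (·, b)`
  let T : J → J → ν → ν → L := fun X Y b a => ∑ i, (D.S ((a, b), i) : L) * (v X i * v Y i)
  have hT : ∀ X ∈ U, ∀ Y ∈ U, ∀ b, ∃ c : ℂ, c ≠ 0 ∧
      ∀ a, φ (T X Y b a) = c * D.κ (X - Y) b * D.κ (X + Y) a := by
    intro X hX Y hY b
    obtain ⟨c₁, hc₁, h1⟩ := hrat X hX
    obtain ⟨c₂, hc₂, h2⟩ := hrat Y hY
    obtain ⟨c, hc, hinv⟩ := D.law_inv X Y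
    refine ⟨c₁ * c₂ * c, mul_ne_zero (mul_ne_zero hc₁ hc₂) hc, fun a => ?_⟩
    simp only [T, map_sum, map_mul, map_ratCast, h1, h2]
    have := hinv (a, b)
    calc ∑ i, (D.S ((a, b), i) : ℂ) * (c₁ * D.Φ X i * (c₂ * D.Φ Y i))
        = c₁ * c₂ * ∑ i, (D.S ((a, b), i) : ℂ) * (D.Φ X i * D.Φ Y i) := by
          rw [Finset.mul_sum]; exact Finset.sum_congr rfl fun i _ => by ring
      _ = c₁ * c₂ * c * D.κ (X - Y) b * D.κ (X + Y) a := by rw [this]; ring
  -- choices
  choose X hXU hYU using hG1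
  have hb : ∀ w : J, ∃ b, D.κ (X w - (w - X w)) b ≠ 0 := fun w =>
    Function.ne_iff.mp (D.κ_ne_zero _)
  choose b hb using hb
  let vκ : J → ν → L := fun w => T (X w) (w - X w) (b w)
  have hsum : ∀ w : J, X w + (w - X w) = w := fun w => by abel
  have hvκ : ∀ w, ∃ c : ℂ, c ≠ 0 ∧ ∀ a, φ (vκ w a) = c * D.κ w a := by
    intro w
    obtain ⟨c, hc, h⟩ := hT (X w) (hXU w) (w - X w) (hYU w) (b w)
    refine ⟨c * D.κ (X w - (w - X w)) (b w), mul_ne_zero hc (hb w), fun a => ?_⟩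
    have := h a
    rw [hsum] at this
    exact this
  refine ⟨vκ, fun w _ => hvκ w, fun _ _ _ => Set.mem_univ _, fun w _ σ => ?_⟩
  -- equivariance
  obtain ⟨c₀, hc₀, h0⟩ := hvκ (σ • w)
  -- `σ • vκ w` is proportional to `T (σ X) (σ Y) b`
  obtain ⟨d₁, hd₁, e1⟩ := heq (X w) (hXU w) σ
  obtain ⟨d₂, hd₂, e2⟩ := heq (w - X w) (hYU w) σ
  have hσT : (fun a => σ • vκ w a) =
      (d₁ * d₂)⁻¹ • T (σ • X w) (σ • (w - X w)) (b w) := by
    funext a
    simp only [vκ, T, Pi.smul_apply, smul_eq_mul, Finset.smul_sum, smul_mul', smul_ratCast_eq,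
      Finset.mul_sum]
    refine Finset.sum_congr rfl fun i _ => ?_
    have h1 := congrFun e1 i
    have h2 := congrFun e2 i
    simp only [Pi.smul_apply, smul_eq_mul] at h1 h2
    rw [h1, h2]
    field_simp
  obtain ⟨c', hc', h'⟩ := hT (σ • X w) (hstab _ (hXU w) σ) (σ • (w - X w)) (hstab _ (hYU w) σ) (b w)
  have hsum' : σ • X w + σ • (w - X w) = σ • w := by rw [← smul_add, hsum]
  -- the factor `κ (σX − σY) b` is nonzero because `σ • vκ w ≠ 0`
  have hvκne : vκ w ≠ 0 := by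
    obtain ⟨c, hc, h⟩ := hvκ w
    intro h0'
    obtain ⟨a, ha⟩ := Function.ne_iff.mp (D.κ_ne_zero w)
    have := h a
    rw [h0'] at this
    simp only [Pi.zero_apply, map_zero] at this
    exact mul_ne_zero hc ha this.symm
  have hTne : T (σ • X w) (σ • (w - X w)) (b w) ≠ 0 := by
    intro h0'
    rw [h0', smul_zero] at hσT
    apply hvκne
    funext a
    have := congrFun hσT a
    simp only [Pi.zero_apply] at this
    exact (smul_eq_zero_iff_eq σ).mp this
  have hfac : D.κ (σ • X w - σ • (w - X w)) (b w) ≠ 0 := by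
    intro h0'
    apply hTne
    funext a
    have := h' a
    rw [h0', mul_zero, zero_mul] at this
    exact (map_eq_zero φ).mp this
  have h'' : ∀ a, φ (T (σ • X w) (σ • (w - X w)) (b w) a) =
      (c' * D.κ (σ • X w - σ • (w - X w)) (b w)) * D.κ (σ • w) a := fun a => by
    have := h' a
    rw [hsum'] at this
    exact this
  obtain ⟨e, he, hprop⟩ := exists_smul_of_map_prop φ (D.κ_ne_zero (σ • w)) hc₀
    (mul_ne_zero hc' hfac) h0 h''
  refine ⟨e * (d₁ * d₂), mul_ne_zero he (mul_ne_zero hd₁ hd₂), ?_⟩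
  rw [hσT, smul_smul, mul_assoc, mul_inv_cancel₀ (mul_ne_zero hd₁ hd₂), mul_one]
  exact hprop

/-- **Extension from generic points to all points, level-4 coordinates** (E2). -/
theorem CThetaData.ratEq_Phi (D : CThetaData J ι ν) (φ : L →+* ℂ) {U : Set J} {v : J → ι → L}
    (hv : RatEqOn (Γ := Γ) φ D.Φ U v) (hG1 : ∀ w : J, ∃ X ∈ U, w - X ∈ U)
    (hG2 : ∃ Y ∈ U, ∀ i, D.Φ Y i ≠ 0) :
    ∃ v' : J → ι → L, RatEqOn (Γ := Γ) φ D.Φ Set.univ v' := by
  classical
  obtain ⟨vκ, hκrat, -, hκeq⟩ := D.ratEq_kappa φ hv hG1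
  obtain ⟨hrat, hstab, heq⟩ := hv
  obtain ⟨Y, hYU, hYne⟩ := hG2
  -- general construction for a base point `Y' ∈ U` with nonvanishing coordinates
  let P : J → J → ι → L := fun Y' z i =>
    (∑ ab : ν × ν, (D.R (i, ab) : L) * (vκ (z + Y') ab.1 * vκ (z - Y') ab.2)) / v Y' i
  have hP : ∀ Y' ∈ U, (∀ i, D.Φ Y' i ≠ 0) → ∀ z, ∃ c : ℂ, c ≠ 0 ∧
      ∀ i, φ (P Y' z i) = c * D.Φ z i := by
    intro Y' hY' hne z
    obtain ⟨cY, hcY, hY⟩ := hrat Y' hY'
    obtain ⟨c₁, hc₁, h1⟩ := hκrat (z + Y') (Set.mem_univ _)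
    obtain ⟨c₂, hc₂, h2⟩ := hκrat (z - Y') (Set.mem_univ _)
    obtain ⟨c, hc, hlaw⟩ := D.law z Y'
    refine ⟨c₁ * c₂ * c⁻¹ * cY⁻¹, by positivity, fun i => ?_⟩
    have hi := congrFun hlaw i
    simp only [Pi.mul_apply, Pi.smul_apply, smul_eq_mul] at hi
    simp only [P, map_div₀, map_sum, map_mul, map_ratCast, h1, h2, hY]
    have hsum : ∑ ab : ν × ν, (D.R (i, ab) : ℂ) * (c₁ * D.κ (z + Y') ab.1 * (c₂ * D.κ (z - Y') ab.2))
        = c₁ * c₂ * ∑ ab : ν × ν, (D.R (i, ab) : ℂ) * (D.κ (z + Y') ab.1 * D.κ (z - Y') ab.2) := by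
      rw [Finset.mul_sum]; exact Finset.sum_congr rfl fun ab _ => by ring
    have hne' := hne i
    have hsum2 : ∑ ab : ν × ν, (D.R (i, ab) : ℂ) * (D.κ (z + Y') ab.1 * D.κ (z - Y') ab.2) =
        c⁻¹ * (D.Φ z i * D.Φ Y' i) := by
      rw [hi]; field_simp
    rw [hsum, hsum2]
    field_simp
  refine ⟨P Y, fun z _ => hP Y hYU hYne z, fun _ _ _ => Set.mem_univ _, fun z _ σ => ?_⟩
  -- equivariance
  obtain ⟨d, hd, eY⟩ := heq Y hYU σ
  have hvY : ∀ i, v Y i ≠ 0 := by
    intro i h0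
    obtain ⟨cY, hcY, hY⟩ := hrat Y hYU
    have := hY i
    rw [h0, map_zero] at this
    exact mul_ne_zero hcY (hYne i) this.symm
  have hvσY : ∀ i, v (σ • Y) i ≠ 0 := by
    intro i
    have := congrFun eY i
    simp only [Pi.smul_apply, smul_eq_mul] at this
    rw [this]
    exact mul_ne_zero hd ((smul_ne_zero_iff_ne σ).mpr (hvY i))
  have hσYne : ∀ i, D.Φ (σ • Y) i ≠ 0 := by
    intro i h0
    obtain ⟨c', hc', h'⟩ := hrat (σ • Y) (hstab Y hYU σ)
    have := h' i
    rw [h0, mul_zero] at this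
    exact hvσY i ((map_eq_zero φ).mp this)
  obtain ⟨e₁, he₁, k1⟩ := hκeq (z + Y) (Set.mem_univ _) σ
  obtain ⟨e₂, he₂, k2⟩ := hκeq (z - Y) (Set.mem_univ _) σ
  have hσP : (fun i => σ • P Y z i) = (d * (e₁ * e₂)⁻¹) • P (σ • Y) (σ • z) := by
    funext i
    have hY' := congrFun eY i
    simp only [Pi.smul_apply, smul_eq_mul] at hY'
    have hden : σ • v Y i = d⁻¹ * v (σ • Y) i := by rw [hY']; field_simp
    simp only [P, Pi.smul_apply, smul_eq_mul]
    rw [smul_div_eq, Finset.smul_sum]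
    simp only [smul_mul', smul_ratCast_eq]
    have hnum : ∀ ab : ν × ν, σ • vκ (z + Y) ab.1 * σ • vκ (z - Y) ab.2 =
        (e₁ * e₂)⁻¹ * (vκ (σ • z + σ • Y) ab.1 * vκ (σ • z - σ • Y) ab.2) := by
      intro ab
      have h1 := congrFun k1 ab.1
      have h2 := congrFun k2 ab.2
      simp only [Pi.smul_apply, smul_eq_mul, smul_add, smul_sub] at h1 h2
      rw [h1, h2]
      field_simp
    have hsum : ∑ ab : ν × ν, (D.R (i, ab) : L) * (σ • vκ (z + Y) ab.1 * σ • vκ (z - Y) ab.2) =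
        (e₁ * e₂)⁻¹ * ∑ ab : ν × ν, (D.R (i, ab) : L) *
          (vκ (σ • z + σ • Y) ab.1 * vκ (σ • z - σ • Y) ab.2) := by
      rw [Finset.mul_sum]
      exact Finset.sum_congr rfl fun ab _ => by rw [hnum ab]; ring
    rw [hsum, hden]
    have := hvσY i
    field_simp
  obtain ⟨c₀, hc₀, h0⟩ := hP Y hYU hYne (σ • z)
  obtain ⟨c', hc', h'⟩ := hP (σ • Y) (hstab Y hYU σ) hσYne (σ • z)
  obtain ⟨e, he, hprop⟩ := exists_smul_of_map_prop φ (D.Φ_ne_zero (σ • z)) hc₀ hc' h0 h'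
  have hfac : d * (e₁ * e₂)⁻¹ ≠ 0 := mul_ne_zero hd (inv_ne_zero (mul_ne_zero he₁ he₂))
  refine ⟨e * (d * (e₁ * e₂)⁻¹)⁻¹, mul_ne_zero he (inv_ne_zero hfac), ?_⟩
  rw [hσP, smul_smul, mul_assoc, inv_mul_cancel₀ hfac, mul_one]
  exact hprop

omit [Fintype ι] [Fintype ν] [DecidableEq ν] in
/-- **Fixed points are rational over the fixed field** (F). -/
theorem RatEqOn.fixed {α : Type*} {φ : L →+* ℂ} {w : J → α → ℂ} {v : J → α → L}
    (hv : RatEqOn (Γ := Γ) φ w Set.univ v) (x : J) (hx : ∀ σ : Γ, σ • x = x) (hw : w x ≠ 0) :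
    ∃ c : ℂ, c ≠ 0 ∧ ∀ i, ∃ y : L, (∀ σ : Γ, σ • y = y) ∧ φ y = c * w x i := by
  obtain ⟨hrat, -, heq⟩ := hv
  obtain ⟨c, hc, h⟩ := hrat x (Set.mem_univ _)
  obtain ⟨i₀, hi₀⟩ := Function.ne_iff.mp hw
  have hv₀ : v x i₀ ≠ 0 := by
    intro h0
    have := h i₀
    rw [h0, map_zero] at this
    exact mul_ne_zero hc hi₀ this.symm
  refine ⟨(w x i₀)⁻¹, inv_ne_zero hi₀, fun i => ⟨v x i / v x i₀, fun σ => ?_, ?_⟩⟩
  · obtain ⟨d, hd, e⟩ := heq x (Set.mem_univ _) σ
    rw [hx σ] at e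
    have h1 := congrFun e i
    have h2 := congrFun e i₀
    simp only [Pi.smul_apply, smul_eq_mul] at h1 h2
    have hσ₀ : σ • v x i₀ ≠ 0 := (smul_ne_zero_iff_ne σ).mpr hv₀
    rw [smul_div_eq, div_eq_div_iff hσ₀ hv₀]
    calc σ • v x i * v x i₀ = σ • v x i * (d * σ • v x i₀) := by rw [← h2]
      _ = (d * σ • v x i) * σ • v x i₀ := by ring
      _ = v x i * σ • v x i₀ := by rw [← h1]
  · rw [map_div₀, h i, h i₀]
    field_simp

end extension

/-! ### 6. assembly: generic rationality ⇒ finite generation -/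

section assembly

variable {J : Type*} [AddCommGroup J] {ι ν : Type*} [Fintype ι] [Fintype ν] [DecidableEq ν]
variable {Γ : Type*} [Group Γ] [DistribMulAction Γ J]
variable {L : Type*} [Field L] [MulSemiringAction Γ L]

/-- restriction of complex theta data to a subgroup. -/
def CThetaData.restrict (D : CThetaData J ι ν) (G : AddSubgroup J) : CThetaData G ι ν where
  Φ := fun x => D.Φ x
  κ := fun x => D.κ x
  Φ_ne_zero := fun x => D.Φ_ne_zero x
  κ_ne_zero := fun x => D.κ_ne_zero x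
  R := D.R
  S := D.S
  SR := D.SR
  law := fun x y => D.law x y

/-- **Everything downstream of the algebraicity bridge**: complex theta data on `J`, rational and
`Γ`-equivariant over `L` (think `L = ℚ̄ ⊂ ℂ`, `Γ = Gal(ℚ̄/K₁)`) at the points of a generic set
`U`; `K` a number field through which the `Γ`-invariants of `L` factor; `G ≤ J` a subgroup of
`Γ`-fixed points with `G/2G` finite; `[Φ]` has finite fibres. Then `G` is finitely generated. -/
theorem CThetaData.fg_of_generic (D : CThetaData J ι ν) (φ : L →+* ℂ) {U : Set J}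
    {v : J → ι → L} (hv : RatEqOn (Γ := Γ) φ D.Φ U v) (hG1 : ∀ w : J, ∃ X ∈ U, w - X ∈ U)
    (hG2 : ∃ Y ∈ U, ∀ i, D.Φ Y i ≠ 0)
    {K : Type*} [Field K] [NumberField K] (ψ : K →+* L)
    (hK : ∀ y : L, (∀ σ : Γ, σ • y = y) → y ∈ ψ.range)
    (G : AddSubgroup J) (hG : ∀ x ∈ G, ∀ σ : Γ, σ • x = x)
    (hfib : ∀ x : J, {y : J | ∃ c : ℂ, D.Φ y = c • D.Φ x}.Finite)
    (hweak : (nsmulAddMonoidHom (α := G) 2).range.FiniteIndex) : AddGroup.FG G := by
  obtain ⟨v', hv'⟩ := D.ratEq_Phi φ hv hG1 hG2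
  refine (D.restrict G).fg (φ.comp ψ) (fun x => ?_) (fun x => ?_) hweak
  · obtain ⟨c, hc, h⟩ := hv'.fixed x.1 (hG x.1 x.2) (D.Φ_ne_zero x.1)
    refine ⟨c, hc, fun i => ?_⟩
    obtain ⟨y, hy, hφ⟩ := h i
    obtain ⟨k, rfl⟩ := hK y hy
    exact ⟨k, hφ⟩
  · have := (hfib x.1).preimage (f := (Subtype.val : G → J)) Subtype.val_injective.injOn
    exact this.subset fun y hy => hy

end assembly

end Fermat.Agent.M17.ThetaRigidity9


/-! ### 7. Heisenberg rigidity (abstract algebraic part R3) and the Liouville engine (R2) -/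

namespace Fermat.Agent.M17.ThetaRigidity9

open Matrix

/-- matrix form of LA1. -/
theorem exists_rational_matrix_of_unique {L : Type*} [Field L] (φ : L →+* ℂ)
    {ι : Type*} [Fintype ι] [DecidableEq ι] (E : Set (ι × ι → L)) (V₀ : Matrix ι ι ℂ) (hV₀ : V₀ ≠ 0)
    (hsol : ∀ a ∈ E, ∑ ij : ι × ι, φ (a ij) * V₀ ij.1 ij.2 = 0)
    (huniq : ∀ V : Matrix ι ι ℂ, (∀ a ∈ E, ∑ ij : ι × ι, φ (a ij) * V ij.1 ij.2 = 0) →
      ∃ c : ℂ, V = c • V₀) :
    ∃ (W : Matrix ι ι L) (c : ℂ), c ≠ 0 ∧ V₀ = c • W.map φ := by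
  have h0 : (fun ij : ι × ι => V₀ ij.1 ij.2) ≠ 0 := by
    intro h
    apply hV₀
    ext i j
    exact congrFun h (i, j)
  obtain ⟨u, c, hc, hu⟩ := exists_rational_of_unique φ E (fun ij : ι × ι => V₀ ij.1 ij.2) h0 hsol
    (fun v hv => by
      obtain ⟨c, hc⟩ := huniq (Matrix.of fun i j => v (i, j)) (by simpa using hv)
      refine ⟨c, ?_⟩
      funext ij
      have := congrFun (congrFun hc ij.1) ij.2
      simpa using this)
  refine ⟨Matrix.of fun i j => u (i, j), c, hc, ?_⟩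
  ext i j
  have := congrFun hu (i, j)
  simpa using this

/-- **Abstract Heisenberg rigidity** (R3). `U t` are rational matrices of finite order with scalar
commutant; for every `t` the conjugate `M U_t M⁻¹` is the unique solution up to a scalar of a
rational linear system. Then `M` is rational up to a scalar. -/
theorem rigidity {L : Type*} [Field L] (φ : L →+* ℂ)
    (hroot : ∀ (c : ℂ) (k : ℕ), 0 < k → c ^ k ∈ φ.range → c ∈ φ.range)
    {ι : Type*} [Fintype ι] [DecidableEq ι] [Nonempty ι] {T : Type*} (U : T → Matrix ι ι L)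
    (k : T → ℕ) (hk : ∀ t, 0 < k t) (hUk : ∀ t, U t ^ k t = 1)
    (hcomm : ∀ N : Matrix ι ι ℂ, (∀ t, N * (U t).map φ = (U t).map φ * N) → ∃ c : ℂ, N = c • 1)
    (M : Matrix ι ι ℂ) (hM : IsUnit M)
    (E : T → Set (ι × ι → L))
    (hsol : ∀ t, ∀ a ∈ E t, ∑ ij : ι × ι, φ (a ij) * (M * (U t).map φ * M⁻¹) ij.1 ij.2 = 0)
    (huniq : ∀ t, ∀ V : Matrix ι ι ℂ, (∀ a ∈ E t, ∑ ij : ι × ι, φ (a ij) * V ij.1 ij.2 = 0) →
      ∃ c : ℂ, V = c • (M * (U t).map φ * M⁻¹)) :
    ∃ (M₀ : Matrix ι ι L) (c : ℂ), c ≠ 0 ∧ M = c • M₀.map φ := by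
  classical
  have hdet : IsUnit M.det := (Matrix.isUnit_iff_isUnit_det M).mp hM
  have hMM : M * M⁻¹ = 1 := Matrix.mul_nonsing_inv M hdet
  have hMM' : M⁻¹ * M = 1 := Matrix.nonsing_inv_mul M hdet
  -- step 1: the conjugates are rational
  have hV : ∀ t, ∃ W : Matrix ι ι L, M * (U t).map φ * M⁻¹ = W.map φ := by
    intro t
    set Vt := M * (U t).map φ * M⁻¹ with hVt
    have hpow : Vt ^ k t = 1 := by
      have : ∀ n : ℕ, Vt ^ n = M * ((U t).map φ) ^ n * M⁻¹ := by
        intro n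
        induction n with
        | zero => simp [hMM]
        | succ n ih =>
          rw [pow_succ, ih, hVt, pow_succ]
          calc M * (U t).map φ ^ n * M⁻¹ * (M * (U t).map φ * M⁻¹)
              = M * (U t).map φ ^ n * (M⁻¹ * M) * (U t).map φ * M⁻¹ := by
                simp only [Matrix.mul_assoc]
            _ = M * ((U t).map φ ^ n * (U t).map φ) * M⁻¹ := by
                rw [hMM']; simp only [Matrix.mul_assoc, Matrix.mul_one]
      rw [this, ← Matrix.map_pow, hUk t]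
      simp [hMM]
    have hne : Vt ≠ 0 := by
      intro h0
      rw [h0, zero_pow (hk t).ne'] at hpow
      exact zero_ne_one hpow
    obtain ⟨W, c, hc, hW⟩ := exists_rational_matrix_of_unique φ (E t) Vt hne (hsol t) (huniq t)
    -- `c ^ k` is rational
    have hcW : c ^ k t • (W ^ k t).map φ = 1 := by
      rw [Matrix.map_pow, ← smul_pow, ← hW, hpow]
    obtain ⟨i⟩ := ‹Nonempty ι›
    have hii := congrFun (congrFun hcW i) i
    simp only [Matrix.smul_apply, Matrix.map_apply, smul_eq_mul, Matrix.one_apply_eq] at hii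
    have hck : c ^ k t ∈ φ.range := by
      refine ⟨((W ^ k t) i i)⁻¹, ?_⟩
      rw [map_inv₀]
      have hne' : φ ((W ^ k t) i i) ≠ 0 := by
        intro h0; rw [h0, mul_zero] at hii; exact zero_ne_one hii
      field_simp
      linear_combination -hii
    obtain ⟨c', rfl⟩ := hroot c (k t) (hk t) hck
    refine ⟨c' • W, ?_⟩
    rw [hW]
    ext i j
    simp
  choose W hW using hV
  -- step 2: the system `M' U_t = W_t M'`
  let Eq : Set (ι × ι → L) := {a | ∃ (t : T) (i j : ι), a = fun p : ι × ι =>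
    (if p.1 = i then U t p.2 j else 0) - (if p.2 = j then W t i p.1 else 0)}
  have hEq : ∀ M' : Matrix ι ι ℂ, (∀ a ∈ Eq, ∑ p : ι × ι, φ (a p) * M' p.1 p.2 = 0) ↔
      ∀ t, M' * (U t).map φ = (W t).map φ * M' := by
    intro M'
    have key : ∀ (t : T) (i j : ι), ∑ p : ι × ι, φ ((if p.1 = i then U t p.2 j else 0) -
        (if p.2 = j then W t i p.1 else 0)) * M' p.1 p.2 =
        (M' * (U t).map φ) i j - ((W t).map φ * M') i j := by
      intro t i j
      simp only [map_sub, sub_mul, Finset.sum_sub_distrib, Matrix.mul_apply, Matrix.map_apply]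
      congr 1
      · rw [Fintype.sum_prod_type]
        simp only [apply_ite φ, map_zero, ite_mul, zero_mul]
        rw [Finset.sum_eq_single i]
        · simp [mul_comm]
        · intro b _ hb; simp [hb]
        · simp
      · rw [Fintype.sum_prod_type_right]
        simp only [apply_ite φ, map_zero, ite_mul, zero_mul]
        rw [Finset.sum_eq_single j]
        · simp
        · intro b _ hb; simp [hb]
        · simp
    constructor
    · intro h t
      ext i j
      have := h _ ⟨t, i, j, rfl⟩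
      rw [key] at this
      exact sub_eq_zero.mp this
    · rintro h a ⟨t, i, j, rfl⟩
      rw [key, h t, sub_self]
  have hMne : M ≠ 0 := by
    intro h0
    rw [h0, Matrix.zero_mul] at hMM
    exact zero_ne_one hMM
  have hMsol : ∀ t, M * (U t).map φ = (W t).map φ * M := by
    intro t
    rw [← hW t]
    simp only [Matrix.mul_assoc, hMM', Matrix.mul_one]
  refine exists_rational_matrix_of_unique φ Eq M hMne ((hEq M).mpr hMsol) fun M' hM' => ?_
  have hM'sol := (hEq M').mp hM'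
  obtain ⟨c, hc⟩ := hcomm (M⁻¹ * M') fun t => by
    calc M⁻¹ * M' * (U t).map φ = M⁻¹ * ((W t).map φ * M') := by rw [Matrix.mul_assoc, hM'sol t]
      _ = M⁻¹ * ((M * (U t).map φ * M⁻¹) * M') := by rw [hW t]
      _ = (M⁻¹ * M) * (U t).map φ * (M⁻¹ * M') := by simp only [Matrix.mul_assoc]
      _ = (U t).map φ * (M⁻¹ * M') := by rw [hMM', Matrix.one_mul]
  refine ⟨c, ?_⟩
  calc M' = M * (M⁻¹ * M') := by rw [← Matrix.mul_assoc, hMM, Matrix.one_mul]
    _ = c • M := by rw [hc]; simp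


/-- **Liouville engine** (R2): a matrix `V` such that `V Ψ(z)` is proportional to `A Ψ(z)` on a
dense set of `z` is a scalar multiple of `A`, for `Ψ` a nowhere vanishing holomorphic vector with
a common factor of automorphy for a cocompact group of periods and linearly independent
components. -/
theorem eq_smul_of_parallel_on_dense {E : Type*} [NormedAddCommGroup E] [NormedSpace ℂ E]
    [ProperSpace E] {ι : Type*} [Fintype ι] [DecidableEq ι]
    (Ψ : E → ι → ℂ) (hdiff : ∀ i, Differentiable ℂ fun z => Ψ z i) (hne : ∀ z, Ψ z ≠ 0)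
    (Λ : AddSubgroup E) (hper : ∀ l ∈ Λ, ∀ z, ∃ c : ℂ, Ψ (z + l) = c • Ψ z)
    (B : Set E) (hB : Bornology.IsBounded B) (hcov : ∀ z, ∃ l ∈ Λ, z + l ∈ B)
    (hspan : ∀ ℓ : ι → ℂ, (∀ z, ∑ i, ℓ i * Ψ z i = 0) → ℓ = 0)
    (A : Matrix ι ι ℂ) (hA : IsUnit A) (D : Set E) (hD : Dense D) (V : Matrix ι ι ℂ)
    (hpar : ∀ z ∈ D, ∀ i j, (V *ᵥ Ψ z) i * (A *ᵥ Ψ z) j = (V *ᵥ Ψ z) j * (A *ᵥ Ψ z) i) :
    ∃ c : ℂ, V = c • A := by
  classical
  -- continuity of the coordinate functions of `V Ψ` and `A Ψ`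
  have hdiffM : ∀ (N : Matrix ι ι ℂ) (i : ι), Differentiable ℂ fun z => (N *ᵥ Ψ z) i := by
    intro N i
    simp only [Matrix.mulVec, dotProduct]
    exact Differentiable.fun_sum fun j _ => (hdiff j).const_mul _
  -- step 1: the minors vanish everywhere
  have hpar' : ∀ z, ∀ i j, (V *ᵥ Ψ z) i * (A *ᵥ Ψ z) j = (V *ᵥ Ψ z) j * (A *ᵥ Ψ z) i := by
    intro z i j
    have hc1 : Continuous fun z => (V *ᵥ Ψ z) i * (A *ᵥ Ψ z) j :=
      ((hdiffM V i).continuous).mul ((hdiffM A j).continuous)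
    have hc2 : Continuous fun z => (V *ᵥ Ψ z) j * (A *ᵥ Ψ z) i :=
      ((hdiffM V j).continuous).mul ((hdiffM A i).continuous)
    have := Continuous.ext_on hD hc1 hc2 (fun z hz => hpar z hz i j)
    exact congrFun this z
  -- `A Ψ z ≠ 0`
  have hdet : IsUnit A.det := (Matrix.isUnit_iff_isUnit_det A).mp hA
  have hAne : ∀ z, A *ᵥ Ψ z ≠ 0 := by
    intro z h0
    apply hne z
    have := congrArg (fun w => A⁻¹ *ᵥ w) h0
    simpa [Matrix.mulVec_mulVec, Matrix.nonsing_inv_mul A hdet] using this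
  have hex : ∀ z, ∃ j, (A *ᵥ Ψ z) j ≠ 0 := fun z => Function.ne_iff.mp (hAne z)
  choose j₀ hj₀ using hex
  -- step 2: the factor `F`
  let F : E → ℂ := fun z => (V *ᵥ Ψ z) (j₀ z) / (A *ᵥ Ψ z) (j₀ z)
  have hF : ∀ z i, (V *ᵥ Ψ z) i = F z * (A *ᵥ Ψ z) i := by
    intro z i
    have := hpar' z i (j₀ z)
    simp only [F]
    field_simp [hj₀ z]
    exact this
  have hFeq : ∀ z j, (A *ᵥ Ψ z) j ≠ 0 → F z = (V *ᵥ Ψ z) j / (A *ᵥ Ψ z) j := by
    intro z j hj
    rw [hF z j]
    field_simp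
  -- step 3: `F` is differentiable
  have hFdiff : Differentiable ℂ F := by
    intro z₀
    have hopen : ∀ᶠ z in nhds z₀, (A *ᵥ Ψ z) (j₀ z₀) ≠ 0 :=
      ((hdiffM A (j₀ z₀)).continuous.continuousAt).eventually_ne (hj₀ z₀)
    have h1 : DifferentiableAt ℂ (fun z => (V *ᵥ Ψ z) (j₀ z₀)) z₀ := hdiffM V (j₀ z₀) z₀
    have h2 : DifferentiableAt ℂ (fun z => (A *ᵥ Ψ z) (j₀ z₀)) z₀ := hdiffM A (j₀ z₀) z₀
    have hd : DifferentiableAt ℂ (fun z => (V *ᵥ Ψ z) (j₀ z₀) / (A *ᵥ Ψ z) (j₀ z₀)) z₀ := by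
      have h3 : DifferentiableAt ℂ (fun z => ((A *ᵥ Ψ z) (j₀ z₀))⁻¹) z₀ := h2.inv (hj₀ z₀)
      have := h1.fun_mul h3
      simpa only [div_eq_mul_inv] using this
    refine hd.congr_of_eventuallyEq ?_
    filter_upwards [hopen] with z hz
    exact hFeq z _ hz
  -- step 4: `F` is periodic
  have hFper : ∀ l ∈ Λ, ∀ z, F (z + l) = F z := by
    intro l hl z
    obtain ⟨c, hc⟩ := hper l hl z
    have ha : c ≠ 0 := by
      intro h0
      apply hne (z + l)
      rw [hc, h0, zero_smul]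
    have h1 := hF (z + l) (j₀ z)
    rw [hc, Matrix.mulVec_smul, Matrix.mulVec_smul] at h1
    simp only [Pi.smul_apply, smul_eq_mul] at h1
    rw [hF z (j₀ z)] at h1
    have := hj₀ z
    have h2 : c * (A *ᵥ Ψ z) (j₀ z) * (F z - F (z + l)) = 0 := by linear_combination h1
    rcases mul_eq_zero.mp h2 with h3 | h3
    · exact absurd h3 (mul_ne_zero ha this)
    · exact (sub_eq_zero.mp h3).symm
  -- step 5: `F` is bounded
  have hbdd : Bornology.IsBounded (Set.range F) := by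
    have hcomp : IsCompact (closure B) := hB.isCompact_closure
    have hFB : Bornology.IsBounded (F '' closure B) :=
      (hcomp.image hFdiff.continuous).isBounded
    refine hFB.subset ?_
    rintro _ ⟨z, rfl⟩
    obtain ⟨l, hl, hzl⟩ := hcov z
    exact ⟨z + l, subset_closure hzl, hFper l hl z⟩
  -- step 6: Liouville
  have hconst : ∀ z, F z = F 0 := fun z => hFdiff.apply_eq_apply_of_bounded hbdd z 0
  -- step 7
  refine ⟨F 0, ?_⟩
  have hrow : ∀ i, (fun j => (V - F 0 • A) i j) = 0 := by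
    intro i
    apply hspan
    intro z
    have := hF z i
    rw [hconst z] at this
    simp only [Matrix.mulVec, dotProduct] at this
    simp only [Matrix.sub_apply, Matrix.smul_apply, smul_eq_mul, sub_mul, Finset.sum_sub_distrib]
    rw [this, Finset.mul_sum]
    simp [mul_assoc]
  ext i j
  have := congrFun (hrow i) j
  simp only [Matrix.sub_apply, Matrix.smul_apply, smul_eq_mul, Pi.zero_apply] at this
  simpa using sub_eq_zero.mp this


/-- the `2 × 2` minors of `(V α, β)` as a linear functional of `V`. -/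
theorem sum_minor {ι : Type*} [Fintype ι] [DecidableEq ι] (V : Matrix ι ι ℂ) (α β : ι → ℂ)
    (i j : ι) :
    ∑ p : ι × ι, ((if p.1 = i then α p.2 * β j else 0) - (if p.1 = j then α p.2 * β i else 0)) *
      V p.1 p.2 = (V *ᵥ α) i * β j - (V *ᵥ α) j * β i := by
  have h : ∀ (i₀ : ι) (b : ℂ), ∑ p : ι × ι, (if p.1 = i₀ then α p.2 * b else 0) * V p.1 p.2 =
      (V *ᵥ α) i₀ * b := by
    intro i₀ b
    rw [Fintype.sum_prod_type]
    have : ∀ x : ι, ∑ y, (if x = i₀ then α y * b else 0) * V x y =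
        if x = i₀ then ∑ y, α y * b * V x y else 0 := by
      intro x; split_ifs <;> simp
    simp only [this, Finset.sum_ite_eq', Finset.mem_univ, if_true, Matrix.mulVec, dotProduct,
      Finset.sum_mul]
    exact Finset.sum_congr rfl fun y _ => by ring
  simp only [sub_mul, Finset.sum_sub_distrib, h]

/-- **Rigidity from generic rationality** (R2 + R3 glued): if SOME basis `Ψ = M Φ` of the span of
the canonical theta coordinates `Φ` takes `L`-rational values (up to a scalar) on a set `P` of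
points that is dense together with its translates by the Heisenberg translations `τ t`, then `M`
is `L`-rational up to a scalar. -/
theorem rational_matrix_of_generic {E : Type*} [NormedAddCommGroup E] [NormedSpace ℂ E]
    [ProperSpace E] {ι : Type*} [Fintype ι] [DecidableEq ι] [Nonempty ι]
    {L : Type*} [Field L] (φ : L →+* ℂ)
    (hroot : ∀ (c : ℂ) (k : ℕ), 0 < k → c ^ k ∈ φ.range → c ∈ φ.range)
    (Φ Ψ : E → ι → ℂ) (M : Matrix ι ι ℂ) (hM : IsUnit M) (hΨΦ : ∀ z, Ψ z = M *ᵥ Φ z)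
    (hdiff : ∀ i, Differentiable ℂ fun z => Ψ z i) (hne : ∀ z, Ψ z ≠ 0)
    (Λ : AddSubgroup E) (hper : ∀ l ∈ Λ, ∀ z, ∃ c : ℂ, Ψ (z + l) = c • Ψ z)
    (B : Set E) (hB : Bornology.IsBounded B) (hcov : ∀ z, ∃ l ∈ Λ, z + l ∈ B)
    (hspan : ∀ ℓ : ι → ℂ, (∀ z, ∑ i, ℓ i * Ψ z i = 0) → ℓ = 0)
    {T : Type*} (τ : T → E) (U : T → Matrix ι ι L) (e : T → E → ℂ) (he : ∀ t z, e t z ≠ 0)
    (htrans : ∀ t z, Φ (z + τ t) = e t z • ((U t).map φ *ᵥ Φ z))
    (k : T → ℕ) (hk : ∀ t, 0 < k t) (hUk : ∀ t, U t ^ k t = 1)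
    (hcomm : ∀ N : Matrix ι ι ℂ, (∀ t, N * (U t).map φ = (U t).map φ * N) → ∃ c : ℂ, N = c • 1)
    (P : Set E) (v : E → ι → L) (hv : ∀ z ∈ P, ∃ c : ℂ, c ≠ 0 ∧ ∀ i, φ (v z i) = c * Ψ z i)
    (hdense : ∀ t, Dense {z | z ∈ P ∧ z + τ t ∈ P}) :
    ∃ (M₀ : Matrix ι ι L) (c : ℂ), c ≠ 0 ∧ M = c • M₀.map φ := by
  classical
  have hdet : IsUnit M.det := (Matrix.isUnit_iff_isUnit_det M).mp hM
  have hMM' : M⁻¹ * M = 1 := Matrix.nonsing_inv_mul M hdet
  -- the translation law for `Ψ`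
  have hΨtrans : ∀ t z, Ψ (z + τ t) = e t z • ((M * (U t).map φ * M⁻¹) *ᵥ Ψ z) := by
    intro t z
    rw [hΨΦ, htrans, hΨΦ z, Matrix.mulVec_smul, Matrix.mulVec_mulVec, Matrix.mulVec_mulVec]
    congr 2
    simp only [Matrix.mul_assoc, hMM', Matrix.mul_one]
  -- the rational equations
  let Eq : T → Set (ι × ι → L) := fun t => {a | ∃ z, z ∈ P ∧ z + τ t ∈ P ∧ ∃ i j : ι,
    a = fun p : ι × ι => (if p.1 = i then v z p.2 * v (z + τ t) j else 0) -
      (if p.1 = j then v z p.2 * v (z + τ t) i else 0)}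
  have key : ∀ (t : T) (z : E) (c c' : ℂ) (_ : ∀ i, φ (v z i) = c * Ψ z i)
      (_ : ∀ i, φ (v (z + τ t) i) = c' * Ψ (z + τ t) i) (i j : ι) (V : Matrix ι ι ℂ),
      ∑ p : ι × ι, φ ((if p.1 = i then v z p.2 * v (z + τ t) j else 0) -
        (if p.1 = j then v z p.2 * v (z + τ t) i else 0)) * V p.1 p.2 =
      c * c' * e t z * ((V *ᵥ Ψ z) i * ((M * (U t).map φ * M⁻¹) *ᵥ Ψ z) j -
        (V *ᵥ Ψ z) j * ((M * (U t).map φ * M⁻¹) *ᵥ Ψ z) i) := by
    intro t z c c' h1 h2 i j V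
    have hΨt := hΨtrans t z
    have hα : (fun y => φ (v z y)) = c • Ψ z := funext fun y => by simp [h1]
    have hβ : ∀ y, φ (v (z + τ t) y) =
        c' * (e t z * ((M * (U t).map φ * M⁻¹) *ᵥ Ψ z) y) := fun y => by
      rw [h2, hΨt]; simp
    have := sum_minor V (fun y => φ (v z y)) (fun y => φ (v (z + τ t) y)) i j
    simp only [map_sub, apply_ite φ, map_zero, map_mul]
    rw [this, hα, Matrix.mulVec_smul]
    simp only [Pi.smul_apply, smul_eq_mul, hβ]
    ring
  refine rigidity φ hroot U k hk hUk hcomm M hM Eq ?_ ?_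
  · rintro t a ⟨z, hz, hz', i, j, rfl⟩
    obtain ⟨c, -, h1⟩ := hv z hz
    obtain ⟨c', -, h2⟩ := hv _ hz'
    rw [key t z c c' h1 h2 i j]
    ring
  · intro t V hV
    have hUunit : IsUnit ((U t).map φ) := by
      have h1 : (U t).map φ ^ k t = 1 := by rw [← Matrix.map_pow, hUk t]; simp
      exact IsUnit.of_pow_eq_one h1 (hk t).ne'
    have hA : IsUnit (M * (U t).map φ * M⁻¹) :=
      (hM.mul hUunit).mul ((Matrix.isUnit_nonsing_inv_iff).mpr hM)
    refine eq_smul_of_parallel_on_dense Ψ hdiff hne Λ hper B hB hcov hspan _ hA _ (hdense t) V ?_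
    rintro z ⟨hz, hz'⟩ i j
    obtain ⟨c, hc, h1⟩ := hv z hz
    obtain ⟨c', hc', h2⟩ := hv _ hz'
    have := hV _ ⟨z, hz, hz', i, j, rfl⟩
    rw [key t z c c' h1 h2 i j] at this
    have hfac : c * c' * e t z ≠ 0 := mul_ne_zero (mul_ne_zero hc hc') (he t z)
    exact sub_eq_zero.mp ((mul_eq_zero.mp this).resolve_left hfac)

/-- variant of `rational_matrix_of_generic` for COMPLEX Heisenberg matrices with entries in the
range of `φ` (e.g. roots of unity). -/
theorem rational_matrix_of_generic' {E : Type*} [NormedAddCommGroup E] [NormedSpace ℂ E]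
    [ProperSpace E] {ι : Type*} [Fintype ι] [DecidableEq ι] [Nonempty ι]
    {L : Type*} [Field L] (φ : L →+* ℂ)
    (hroot : ∀ (c : ℂ) (k : ℕ), 0 < k → c ^ k ∈ φ.range → c ∈ φ.range)
    (Φ Ψ : E → ι → ℂ) (M : Matrix ι ι ℂ) (hM : IsUnit M) (hΨΦ : ∀ z, Ψ z = M *ᵥ Φ z)
    (hdiff : ∀ i, Differentiable ℂ fun z => Ψ z i) (hne : ∀ z, Ψ z ≠ 0)
    (Λ : AddSubgroup E) (hper : ∀ l ∈ Λ, ∀ z, ∃ c : ℂ, Ψ (z + l) = c • Ψ z)
    (B : Set E) (hB : Bornology.IsBounded B) (hcov : ∀ z, ∃ l ∈ Λ, z + l ∈ B)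
    (hspan : ∀ ℓ : ι → ℂ, (∀ z, ∑ i, ℓ i * Ψ z i = 0) → ℓ = 0)
    {T : Type*} (τ : T → E) (Uc : T → Matrix ι ι ℂ) (hUc : ∀ t i j, Uc t i j ∈ φ.range)
    (e : T → E → ℂ) (he : ∀ t z, e t z ≠ 0)
    (htrans : ∀ t z, Φ (z + τ t) = e t z • (Uc t *ᵥ Φ z))
    (k : T → ℕ) (hk : ∀ t, 0 < k t) (hUk : ∀ t, Uc t ^ k t = 1)
    (hcomm : ∀ N : Matrix ι ι ℂ, (∀ t, N * Uc t = Uc t * N) → ∃ c : ℂ, N = c • 1)
    (P : Set E) (v : E → ι → L) (hv : ∀ z ∈ P, ∃ c : ℂ, c ≠ 0 ∧ ∀ i, φ (v z i) = c * Ψ z i)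
    (hdense : ∀ t, Dense {z | z ∈ P ∧ z + τ t ∈ P}) :
    ∃ (M₀ : Matrix ι ι L) (c : ℂ), c ≠ 0 ∧ M = c • M₀.map φ := by
  choose U₀ hU₀ using hUc
  let U : T → Matrix ι ι L := fun t => Matrix.of fun i j => U₀ t i j
  have hU : ∀ t, (U t).map φ = Uc t := by
    intro t; ext i j; simp [U, hU₀]
  have hUk' : ∀ t, U t ^ k t = 1 := by
    intro t
    apply Matrix.map_injective φ.injective
    show (U t ^ k t).map φ = (1 : Matrix ι ι L).map φ
    rw [Matrix.map_pow, hU, hUk, Matrix.map_one φ (map_zero φ) (map_one φ)]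
  refine rational_matrix_of_generic φ hroot Φ Ψ M hM hΨΦ hdiff hne Λ hper B hB hcov hspan τ U e he
    (fun t z => by rw [hU]; exact htrans t z) k hk hUk' (fun N hN => hcomm N fun t => by
      have := hN t; rwa [hU] at this) P v hv hdense

end Fermat.Agent.M17.ThetaRigidity9

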