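/-
Programme M17 (target S17), helper9.  Imports only Mathlib + my two M17 files; imported by no
statement.

Glue between the analytic theta package on `E = ℂ^g` (`FiniteFibres9.AnalyticThetaData`) and the
group-level data consumed by the height chapter (`ThetaRigidity9.CThetaData`):

 * `CThetaData.ofAnalytic` : analytic theta data + a lift `J → E` of a homomorphism `J → E/Λ`
   (+ the automorphy of `Φ`, `κ` under `Λ`) give complex theta data on the abstract group `J`.
 * `finite_fibres_ofAnalytic` : (FIB) from (INJ) and finiteness of the kernel of `J → E/Λ`.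
 * `scalar_of_commute_monomial` : commutant lemma for (R1): a family of matrices containing, for
   any two indices, a diagonal matrix separating them and a monomial matrix moving one to the
   other has scalar commutant.
 * `dense_torsionSet`, `dense_torsionSet_diff` : (DENS) points of finite order modulo a lattice
   spanning `V` over `ℝ` are dense, also outside a closed set with empty interior.
 * `RatEqOn.of_rational_matrix`, `RatEqOn.comap` : moving rationality + equivariance along a
   rational change of basis fixed by `Γ`, and along a subgroup.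
-/
import Fermat.Agent.M17.ThetaRigidity9
import Fermat.Agent.M17.FiniteFibres9

set_option autoImplicit false

namespace Fermat.Agent.M17.ThetaGlue9

open Fermat.Agent.M17.ThetaRigidity9 Fermat.Agent.M17.FiniteFibres9

variable {E : Type*} [NormedAddCommGroup E] [NormedSpace ℂ E]
variable {ι ν : Type*} [Fintype ι] [Fintype ν] [DecidableEq ν]

/-- **From analytic to group-level theta data.**  `lift : J → E` lifts an additive map to `E/Λ`
(only `lift (x + y) ≡ lift x + lift y` and `lift (x - y) ≡ lift x - lift y` mod `Λ` are used);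
`κ` has a factor of automorphy under `Λ` (as a projective point it is `Λ`-periodic). -/
noncomputable def ofAnalytic (A : AnalyticThetaData E ι ν) (hΦ : ∀ z, A.Φ z ≠ 0)
    (Λ : AddSubgroup E) (hκΛ : ∀ l ∈ Λ, ∀ z, ∃ c : ℂ, c ≠ 0 ∧ A.κ (z + l) = c • A.κ z)
    {J : Type*} [AddCommGroup J] (lift : J → E)
    (hadd : ∀ x y : J, lift (x + y) - (lift x + lift y) ∈ Λ)
    (hsub : ∀ x y : J, lift (x - y) - (lift x - lift y) ∈ Λ) : CThetaData J ι ν where
  Φ := fun x => A.Φ (lift x)
  κ := fun x => A.κ (lift x)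
  Φ_ne_zero := fun x => hΦ _
  κ_ne_zero := fun x => A.κ_ne_zero _
  R := A.R
  S := A.S
  SR := A.SR
  law := by
    intro x y
    obtain ⟨c₁, hc₁, h1⟩ := hκΛ _ (hadd x y) (lift x + lift y)
    obtain ⟨c₂, hc₂, h2⟩ := hκΛ _ (hsub x y) (lift x - lift y)
    rw [add_sub_cancel] at h1 h2
    refine ⟨(c₁ * c₂)⁻¹, inv_ne_zero (mul_ne_zero hc₁ hc₂), ?_⟩
    funext i
    simp only [Pi.mul_apply, Pi.smul_apply, smul_eq_mul]
    rw [A.law (lift x) (lift y) i, Finset.mul_sum]
    refine Finset.sum_congr rfl fun ab _ => ?_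
    rw [h1, h2]
    simp only [Pi.smul_apply, smul_eq_mul]
    field_simp

/-- **(FIB) from (INJ)**: if `[Φ z'] = [Φ z]` forces `z' − z ∈ Λ` and `lift` has finite fibres
modulo `Λ`, the group-level level-4 map has finite fibres. -/
theorem finite_fibres_ofAnalytic (A : AnalyticThetaData E ι ν) (hΦ : ∀ z, A.Φ z ≠ 0)
    (Λ : AddSubgroup E) (hκΛ : ∀ l ∈ Λ, ∀ z, ∃ c : ℂ, c ≠ 0 ∧ A.κ (z + l) = c • A.κ z)
    {J : Type*} [AddCommGroup J] (lift : J → E)
    (hadd : ∀ x y : J, lift (x + y) - (lift x + lift y) ∈ Λ)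
    (hsub : ∀ x y : J, lift (x - y) - (lift x - lift y) ∈ Λ)
    (hINJ : ∀ (z z' : E) (c : ℂ), A.Φ z' = c • A.Φ z → z' - z ∈ Λ)
    (hfin : ∀ x : J, {y : J | lift y - lift x ∈ Λ}.Finite) (x : J) :
    {y : J | ∃ c : ℂ, (ofAnalytic A hΦ Λ hκΛ lift hadd hsub).Φ y =
      c • (ofAnalytic A hΦ Λ hκΛ lift hadd hsub).Φ x}.Finite :=
  (hfin x).subset fun _ ⟨c, hc⟩ => hINJ _ _ c hc

/-! ### the commutant lemma for (R1) -/

section commutant

open Matrix

variable {n : Type*} [Fintype n] [DecidableEq n]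

/-- A family of matrices which contains, for any two distinct indices, a diagonal matrix
separating them, and for any two indices a monomial matrix moving the first to the second, has
scalar commutant. -/
theorem scalar_of_commute_monomial {T : Type*} (U : T → Matrix n n ℂ)
    (hdiag : ∀ i j : n, i ≠ j → ∃ (t : T) (d : n → ℂ), U t = Matrix.diagonal d ∧ d i ≠ d j)
    (hperm : ∀ i j : n, ∃ (t : T) (σ : Equiv.Perm n) (d : n → ℂ), d i ≠ 0 ∧
      (∀ x y, U t x y = if y = σ x then d x else 0) ∧ σ i = j)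
    (N : Matrix n n ℂ) (hN : ∀ t, N * U t = U t * N) : ∃ c : ℂ, N = c • (1 : Matrix n n ℂ) := by
  classical
  -- step 1: `N` is diagonal
  have hoff : ∀ i j : n, i ≠ j → N i j = 0 := by
    intro i j hij
    obtain ⟨t, d, hU, hd⟩ := hdiag i j hij
    have := congrFun (congrFun (hN t) i) j
    rw [hU, Matrix.mul_diagonal, Matrix.diagonal_mul] at this
    have h0 : N i j * (d j - d i) = 0 := by linear_combination this
    rcases mul_eq_zero.mp h0 with h | h
    · exact h
    · exact absurd (sub_eq_zero.mp h).symm hd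
  -- step 2: the diagonal entries agree
  have hdiageq : ∀ i j : n, N i i = N j j := by
    intro i j
    obtain ⟨t, σ, d, hdi, hU, hσ⟩ := hperm i j
    have := congrFun (congrFun (hN t) i) j
    simp only [Matrix.mul_apply] at this
    rw [Finset.sum_eq_single i (fun y _ hy => by rw [hoff i y (Ne.symm hy), zero_mul])
      (by simp),
      Finset.sum_eq_single j (fun y _ hy => by rw [hoff y j hy, mul_zero]) (by simp)] at this
    rw [hU i j, if_pos hσ.symm] at this
    exact mul_right_cancel₀ hdi (by linear_combination this)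
  rcases isEmpty_or_nonempty n with he | ⟨⟨i₀⟩⟩
  · exact ⟨0, by ext i; exact (he.false i).elim⟩
  · refine ⟨N i₀ i₀, ?_⟩
    ext i j
    by_cases hij : i = j
    · subst hij; simp [hdiageq i i₀]
    · simp [hoff i j hij, Matrix.one_apply_ne hij]

end commutant

/-! ### (DENS): density of torsion points -/

section dens

variable {V : Type*} [NormedAddCommGroup V] [NormedSpace ℝ V]

/-- the points of finite order modulo `Λ`. -/
def torsionSet (Λ : AddSubgroup V) : Set V := {z | ∃ N : ℕ, 0 < N ∧ N • z ∈ Λ}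

/-- If `Λ` contains a finite family spanning `V` over `ℝ`, the points of finite order modulo `Λ`
are dense. -/
theorem dense_torsionSet (Λ : AddSubgroup V) {m : ℕ} (b : Fin m → V) (hb : ∀ i, b i ∈ Λ)
    (hspan : ∀ z : V, ∃ x : Fin m → ℝ, z = ∑ i, x i • b i) : Dense (torsionSet Λ) := by
  intro z
  rw [Metric.mem_closure_iff]
  intro ε hε
  obtain ⟨x, rfl⟩ := hspan z
  set M : ℝ := ∑ i, ‖b i‖ with hM
  have hM0 : 0 ≤ M := Finset.sum_nonneg fun i _ => norm_nonneg _
  obtain ⟨N, hN⟩ := exists_nat_gt ((M + 1) / ε)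
  have hNpos : (0 : ℝ) < N := lt_of_le_of_lt (by positivity) hN
  have hN0 : 0 < N := by exact_mod_cast hNpos
  refine ⟨∑ i, (((⌊(N : ℝ) * x i⌋ : ℤ) : ℝ) / (N : ℝ)) • b i, ⟨N, hN0, ?_⟩, ?_⟩
  · -- `N • z' = ∑ ⌊N x_i⌋ • b_i ∈ Λ`
    have : N • ∑ i, (((⌊(N : ℝ) * x i⌋ : ℤ) : ℝ) / (N : ℝ)) • b i =
        ∑ i, (⌊(N : ℝ) * x i⌋ : ℤ) • b i := by
      rw [Finset.smul_sum]
      refine Finset.sum_congr rfl fun i _ => ?_
      rw [← Nat.cast_smul_eq_nsmul ℝ, smul_smul, mul_div_cancel₀ _ hNpos.ne',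
        Int.cast_smul_eq_zsmul]
    rw [this]
    exact Λ.sum_mem fun i _ => Λ.zsmul_mem (hb i) _
  · rw [dist_eq_norm, ← Finset.sum_sub_distrib]
    calc ‖∑ i, (x i • b i - (((⌊(N : ℝ) * x i⌋ : ℤ) : ℝ) / (N : ℝ)) • b i)‖
        ≤ ∑ i, ‖x i • b i - (((⌊(N : ℝ) * x i⌋ : ℤ) : ℝ) / (N : ℝ)) • b i‖ := norm_sum_le _ _
      _ ≤ ∑ i, (1 / (N : ℝ)) * ‖b i‖ := by
          refine Finset.sum_le_sum fun i _ => ?_
          rw [← sub_smul, norm_smul]
          refine mul_le_mul_of_nonneg_right ?_ (norm_nonneg _)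
          have h1 : x i - ((⌊(N : ℝ) * x i⌋ : ℤ) : ℝ) / (N : ℝ) =
              ((N : ℝ) * x i - ((⌊(N : ℝ) * x i⌋ : ℤ) : ℝ)) / (N : ℝ) := by
            field_simp
          rw [h1, Real.norm_eq_abs, abs_div, abs_of_pos hNpos]
          refine div_le_div_of_nonneg_right ?_ hNpos.le
          rw [abs_le]
          constructor
          · linarith [Int.floor_le ((N : ℝ) * x i)]
          · linarith [Int.lt_floor_add_one ((N : ℝ) * x i)]
      _ = M / N := by rw [← Finset.mul_sum]; ring
      _ < ε := by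
          rw [div_lt_iff₀ hNpos]
          rw [div_lt_iff₀ hε] at hN
          linarith

/-- generic torsion points: torsion points outside a closed set with empty interior are dense. -/
theorem dense_torsionSet_diff (Λ : AddSubgroup V) {m : ℕ} (b : Fin m → V) (hb : ∀ i, b i ∈ Λ)
    (hspan : ∀ z : V, ∃ x : Fin m → ℝ, z = ∑ i, x i • b i) {W : Set V} (hW : IsClosed W)
    (hW0 : interior W = ∅) : Dense (torsionSet Λ \ W) := by
  have h1 : Dense Wᶜ := interior_eq_empty_iff_dense_compl.mp hW0
  have := (dense_torsionSet Λ b hb hspan).inter_of_isOpen_right h1 hW.isOpen_compl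
  exact this

end dens

/-! ### moving `RatEqOn` along a rational change of basis and along a subgroup -/

section ratEq

open Matrix

variable {J : Type*} [AddCommGroup J] {Γ : Type*} [Group Γ] [DistribMulAction Γ J]
variable {L : Type*} [Field L] [MulSemiringAction Γ L]
variable {n : Type*} [Fintype n]

/-- **Change of basis**: if `w' x = c • (N₀.map φ) *ᵥ w x` with a rational matrix `N₀` whose
entries are fixed by `Γ`, rationality + equivariance pass from `w` to `w'`. -/
theorem RatEqOn.of_rational_matrix {φ : L →+* ℂ} {w w' : J → n → ℂ} {s : Set J} {v : J → n → L}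
    (hv : RatEqOn (Γ := Γ) φ w s v) (N₀ : Matrix n n L) (hfix : ∀ (σ : Γ) i j, σ • N₀ i j = N₀ i j)
    {c : ℂ} (hc : c ≠ 0) (hw' : ∀ x, w' x = c • ((N₀.map φ) *ᵥ w x)) :
    RatEqOn (Γ := Γ) φ w' s (fun x => N₀ *ᵥ v x) := by
  obtain ⟨hrat, hstab, heq⟩ := hv
  refine ⟨fun x hx => ?_, hstab, fun x hx σ => ?_⟩
  · obtain ⟨d, hd, h⟩ := hrat x hx
    refine ⟨d * c⁻¹, mul_ne_zero hd (inv_ne_zero hc), fun i => ?_⟩
    rw [hw' x]
    simp only [Matrix.mulVec, dotProduct, map_sum, map_mul, h, Pi.smul_apply, smul_eq_mul,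
      Matrix.map_apply]
    rw [Finset.mul_sum, Finset.mul_sum]
    refine Finset.sum_congr rfl fun j _ => ?_
    field_simp
  · obtain ⟨d, hd, h⟩ := heq x hx σ
    refine ⟨d, hd, ?_⟩
    funext i
    simp only [Matrix.mulVec, dotProduct, Pi.smul_apply, smul_eq_mul, Finset.smul_sum,
      smul_mul', hfix, h, Finset.mul_sum]
    exact Finset.sum_congr rfl fun j _ => by ring

/-- **Restriction to a subgroup** (or along any compatible group homomorphism). -/
theorem RatEqOn.comap {Γ' : Type*} [Group Γ'] [DistribMulAction Γ' J] [MulSemiringAction Γ' L]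
    (f : Γ' →* Γ) (hJ : ∀ (σ : Γ') (x : J), σ • x = f σ • x)
    (hL : ∀ (σ : Γ') (y : L), σ • y = f σ • y) {α : Type*} {φ : L →+* ℂ} {w : J → α → ℂ}
    {s : Set J} {v : J → α → L} (hv : RatEqOn (Γ := Γ) φ w s v) : RatEqOn (Γ := Γ') φ w s v := by
  obtain ⟨hrat, hstab, heq⟩ := hv
  refine ⟨hrat, fun x hx σ => by rw [hJ]; exact hstab x hx _, fun x hx σ => ?_⟩
  obtain ⟨d, hd, h⟩ := heq x hx (f σ)
  refine ⟨d, hd, ?_⟩
  rw [hJ, h]
  funext i
  simp only [Pi.smul_apply, hL]

end ratEq

end Fermat.Agent.M17.ThetaGlue9
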