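/-
M17 (sandbox, helper1): the Riemann theta function in `g` variables with a real characteristic.
`ThetaDef1`: Siegel half space, the general term, its norm, coercivity of `Im Ω`.
-/
import Mathlib

set_option autoImplicit false

namespace Fermat.Agent.M17.Theta1

open Complex Real Matrix

/-- The Siegel upper half space of degree `g`: symmetric complex matrices with positive definite
imaginary part (positivity stated on real vectors). -/
structure Siegel (g : ℕ) where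
  Ω : Matrix (Fin g) (Fin g) ℂ
  symm : Ω.IsSymm
  pos : ∀ v : Fin g → ℝ, v ≠ 0 → 0 < v ⬝ᵥ ((Ω.map Complex.im) *ᵥ v)

variable {g : ℕ}

namespace Siegel

/-- the imaginary part `Y = Im Ω`. -/
def Y (τ : Siegel g) : Matrix (Fin g) (Fin g) ℝ := τ.Ω.map Complex.im

/-- the real part `X = Re Ω`. -/
def X (τ : Siegel g) : Matrix (Fin g) (Fin g) ℝ := τ.Ω.map Complex.re

/-- the real quadratic form of `Y`. -/
def qY (τ : Siegel g) (v : Fin g → ℝ) : ℝ := v ⬝ᵥ (τ.Y *ᵥ v)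

/-- the real quadratic form of `X`. -/
def qX (τ : Siegel g) (v : Fin g → ℝ) : ℝ := v ⬝ᵥ (τ.X *ᵥ v)

/-- the complex quadratic form `w ↦ wᵀ Ω w`. -/
def Q (τ : Siegel g) (w : Fin g → ℂ) : ℂ := w ⬝ᵥ (τ.Ω *ᵥ w)

/-- the complex bilinear form `(w, w') ↦ wᵀ Ω w'`. -/
def B (τ : Siegel g) (w w' : Fin g → ℂ) : ℂ := w ⬝ᵥ (τ.Ω *ᵥ w')

theorem B_symm (τ : Siegel g) (w w' : Fin g → ℂ) : τ.B w w' = τ.B w' w := by
  unfold B
  rw [dotProduct_mulVec, dotProduct_comm, ← mulVec_transpose, τ.symm.eq]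

theorem Q_eq_B (τ : Siegel g) (w : Fin g → ℂ) : τ.Q w = τ.B w w := rfl

theorem B_add_left (τ : Siegel g) (w₁ w₂ w' : Fin g → ℂ) :
    τ.B (w₁ + w₂) w' = τ.B w₁ w' + τ.B w₂ w' := by
  unfold B; rw [add_dotProduct]

theorem B_add_right (τ : Siegel g) (w w₁ w₂ : Fin g → ℂ) :
    τ.B w (w₁ + w₂) = τ.B w w₁ + τ.B w w₂ := by
  unfold B; rw [mulVec_add, dotProduct_add]

theorem B_smul_left (τ : Siegel g) (c : ℂ) (w w' : Fin g → ℂ) : τ.B (c • w) w' = c * τ.B w w' := by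
  unfold B; rw [smul_dotProduct, smul_eq_mul]

theorem B_smul_right (τ : Siegel g) (c : ℂ) (w w' : Fin g → ℂ) : τ.B w (c • w') = c * τ.B w w' := by
  unfold B; rw [mulVec_smul, dotProduct_smul, smul_eq_mul]

theorem Q_add (τ : Siegel g) (w w' : Fin g → ℂ) :
    τ.Q (w + w') = τ.Q w + 2 * τ.B w w' + τ.Q w' := by
  rw [Q_eq_B, B_add_left, B_add_right, B_add_right, τ.B_symm w' w, Q_eq_B, Q_eq_B]; ring

theorem Q_smul (τ : Siegel g) (c : ℂ) (w : Fin g → ℂ) : τ.Q (c • w) = c ^ 2 * τ.Q w := by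
  rw [Q_eq_B, B_smul_left, B_smul_right, Q_eq_B]; ring

/-- real vectors as complex vectors -/
def ofRealVec (v : Fin g → ℝ) : Fin g → ℂ := fun i => (v i : ℂ)

theorem Q_ofReal_im (τ : Siegel g) (v : Fin g → ℝ) : (τ.Q (ofRealVec v)).im = τ.qY v := by
  simp only [Q, qY, Y, dotProduct, mulVec, ofRealVec, Complex.im_sum, Matrix.map_apply]
  refine Finset.sum_congr rfl fun i _ => ?_
  rw [Complex.im_ofReal_mul, Complex.im_sum]
  congr 1
  refine Finset.sum_congr rfl fun j _ => ?_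
  rw [Complex.im_mul_ofReal]

theorem Q_ofReal_re (τ : Siegel g) (v : Fin g → ℝ) : (τ.Q (ofRealVec v)).re = τ.qX v := by
  simp only [Q, qX, X, dotProduct, mulVec, ofRealVec, Complex.re_sum, Matrix.map_apply]
  refine Finset.sum_congr rfl fun i _ => ?_
  rw [Complex.re_ofReal_mul, Complex.re_sum]
  congr 1
  refine Finset.sum_congr rfl fun j _ => ?_
  rw [Complex.re_mul_ofReal]

theorem qY_pos (τ : Siegel g) {v : Fin g → ℝ} (hv : v ≠ 0) : 0 < τ.qY v := τ.pos v hv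

theorem qY_smul (τ : Siegel g) (c : ℝ) (v : Fin g → ℝ) : τ.qY (c • v) = c ^ 2 * τ.qY v := by
  unfold qY; rw [mulVec_smul, smul_dotProduct, dotProduct_smul, smul_eq_mul, smul_eq_mul]; ring

theorem continuous_qY (τ : Siegel g) : Continuous τ.qY := by
  unfold qY
  exact Continuous.dotProduct continuous_id (Continuous.matrix_mulVec continuous_const continuous_id)

/-- **coercivity**: `c ‖v‖² ≤ vᵀ Y v` for some `c > 0` (`‖·‖` = sup norm). -/
theorem exists_coercive (τ : Siegel g) : ∃ c : ℝ, 0 < c ∧ ∀ v : Fin g → ℝ, c * ‖v‖ ^ 2 ≤ τ.qY v := by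
  rcases Nat.eq_zero_or_pos g with hg | hg
  · subst hg
    refine ⟨1, one_pos, fun v => ?_⟩
    have : v = 0 := Subsingleton.elim _ _
    subst this
    simp [qY]
  · haveI : Nonempty (Fin g) := ⟨⟨0, hg⟩⟩
    have hne : (Metric.sphere (0 : Fin g → ℝ) 1).Nonempty := by
      refine ⟨fun _ => 1, ?_⟩
      simp [Pi.norm_def, Finset.sup_const Finset.univ_nonempty]
    obtain ⟨v₀, hv₀, hmin⟩ := (isCompact_sphere (0 : Fin g → ℝ) 1).exists_isMinOn hne
      τ.continuous_qY.continuousOn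
    have hv₀ne : v₀ ≠ 0 := by
      intro h; subst h; simp at hv₀
    refine ⟨τ.qY v₀, τ.qY_pos hv₀ne, fun v => ?_⟩
    rcases eq_or_ne v 0 with rfl | hv
    · simp [qY]
    · have hn : 0 < ‖v‖ := norm_pos_iff.mpr hv
      have hmem : (‖v‖⁻¹ • v) ∈ Metric.sphere (0 : Fin g → ℝ) 1 := by
        simp [norm_smul, hn.ne']
      have h1 := hmin hmem
      simp only [isMinOn_iff] at hmin
      have h2 : τ.qY v₀ ≤ τ.qY (‖v‖⁻¹ • v) := hmin _ hmem
      rw [qY_smul] at h2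
      have : τ.qY v = ‖v‖ ^ 2 * ((‖v‖⁻¹) ^ 2 * τ.qY v) := by
        field_simp
      rw [this]
      calc τ.qY v₀ * ‖v‖ ^ 2 = ‖v‖ ^ 2 * τ.qY v₀ := by ring
        _ ≤ ‖v‖ ^ 2 * ((‖v‖⁻¹) ^ 2 * τ.qY v) := by
            exact mul_le_mul_of_nonneg_left h2 (by positivity)

end Siegel

end Fermat.Agent.M17.Theta1
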