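/-
M17 (sandbox, helper1): the general term of the `g`-variable theta series, its norm, a uniform
summable bound, and the definition of `thetaA`.
-/
import Mathlib
import Fermat.Agent.M17.ThetaDef1

set_option autoImplicit false

namespace Fermat.Agent.M17.Theta1

open Complex Real Matrix

variable {g : ℕ}

/-- the real vector `n + a`. -/
def shiftVec (a : Fin g → ℝ) (n : Fin g → ℤ) : Fin g → ℝ := fun i => (n i : ℝ) + a i

/-- the imaginary part of a complex vector. -/
def imVec (z : Fin g → ℂ) : Fin g → ℝ := fun i => (z i).im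

open Siegel in
/-- the general term `exp(π i (n+a)ᵀ Ω (n+a) + 2 π i (n+a)ᵀ z)`. -/
noncomputable def term (τ : Siegel g) (a : Fin g → ℝ) (z : Fin g → ℂ) (n : Fin g → ℤ) : ℂ :=
  cexp (π * I * τ.Q (ofRealVec (shiftVec a n)) + 2 * π * I * (ofRealVec (shiftVec a n) ⬝ᵥ z))

theorem ofRealVec_dotProduct_im (w : Fin g → ℝ) (z : Fin g → ℂ) :
    (Siegel.ofRealVec w ⬝ᵥ z).im = w ⬝ᵥ imVec z := by
  simp only [dotProduct, Siegel.ofRealVec, imVec, Complex.im_sum, Complex.im_ofReal_mul]

theorem norm_term (τ : Siegel g) (a : Fin g → ℝ) (z : Fin g → ℂ) (n : Fin g → ℤ) :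
    ‖term τ a z n‖ =
      rexp (-π * τ.qY (shiftVec a n) - 2 * π * (shiftVec a n ⬝ᵥ imVec z)) := by
  unfold term
  rw [Complex.norm_exp]
  congr 1
  have h1 : (π * I * τ.Q (Siegel.ofRealVec (shiftVec a n))).re = -π * τ.qY (shiftVec a n) := by
    rw [← Siegel.Q_ofReal_im]
    simp [Complex.mul_re, Complex.mul_im]
  have h2 : (2 * π * I * (Siegel.ofRealVec (shiftVec a n) ⬝ᵥ z)).re =
      -(2 * π * (shiftVec a n ⬝ᵥ imVec z)) := by
    rw [← ofRealVec_dotProduct_im]
    simp [Complex.mul_re, Complex.mul_im]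
  rw [Complex.add_re, h1, h2]; ring

/-- summability of products over `Fin g → ℤ`. -/
theorem summable_pi_prod : ∀ (g : ℕ) (φ : Fin g → ℤ → ℝ), (∀ i n, 0 ≤ φ i n) →
    (∀ i, Summable (φ i)) → Summable (fun n : Fin g → ℤ => ∏ i, φ i (n i))
  | 0, φ, _, _ => by
      exact Summable.of_finite
  | (g + 1), φ, h0, hs => by
      have ih := summable_pi_prod g (fun i => φ i.succ) (fun i n => h0 _ n) (fun i => hs _)
      have hprod : Summable (fun x : ℤ × (Fin g → ℤ) => φ 0 x.1 * ∏ i, φ i.succ (x.2 i)) :=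
        Summable.mul_of_nonneg (hs 0) ih (fun n => h0 0 n)
          (fun n => Finset.prod_nonneg fun i _ => h0 _ _)
      rw [← (Fin.consEquiv (fun _ : Fin (g + 1) => ℤ)).summable_iff]
      refine hprod.congr fun x => ?_
      simp [Fin.prod_univ_succ, Fin.consEquiv]

end Fermat.Agent.M17.Theta1
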