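/-
M17 (sandbox, helper1): uniform summable bound for the theta series; definition of `thetaA`.
-/
import Mathlib
import Fermat.Agent.M17.ThetaSum1

set_option autoImplicit false

namespace Fermat.Agent.M17.Theta1

open Complex Real Matrix

variable {g : ℕ}

/-- the one-variable Gaussian bound. -/
noncomputable def bound1 (c R a : ℝ) (n : ℤ) : ℝ :=
  rexp (-π * c * ((n : ℝ) + a) ^ 2 + 2 * π * R * |(n : ℝ) + a|)

theorem bound1_nonneg (c R a : ℝ) (n : ℤ) : 0 ≤ bound1 c R a n := (Real.exp_pos _).le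

theorem summable_bound1 {c : ℝ} (hc : 0 < c) {R : ℝ} (hR : 0 ≤ R) (a : ℝ) :
    Summable (bound1 c R a) := by
  have hM := summable_pow_mul_jacobiTheta₂_term_bound R (T := c / 2) (by positivity) 0
  have hM' : Summable (fun n : ℤ => rexp (π * c * a ^ 2 + 2 * π * R * |a|) *
      ((|n| ^ 0 : ℝ) * Real.exp (-π * (c / 2 * n ^ 2 - 2 * R * |n|)))) := hM.mul_left _
  refine Summable.of_nonneg_of_le (bound1_nonneg c R a) (fun n => ?_) hM'
  unfold bound1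
  rw [pow_zero, one_mul, ← Real.exp_add]
  apply Real.exp_le_exp.mpr
  have h1 : ((n : ℝ) + a) ^ 2 ≥ (n : ℝ) ^ 2 / 2 - a ^ 2 := by
    nlinarith [sq_nonneg ((n : ℝ) + 2 * a)]
  have h2 : |(n : ℝ) + a| ≤ |(n : ℝ)| + |a| := abs_add_le _ _
  have h3 : ((|n| : ℤ) : ℝ) = |(n : ℝ)| := by push_cast; rfl
  rw [h3]
  have hpc : 0 < π * c := by positivity
  have hpr : 0 ≤ 2 * π * R := by positivity
  nlinarith [mul_le_mul_of_nonneg_left h2 hpr, mul_le_mul_of_nonneg_left h1 hpc.le]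

/-- the `g`-variable bound. -/
noncomputable def boundG (c R : ℝ) (a : Fin g → ℝ) (n : Fin g → ℤ) : ℝ :=
  ∏ i, bound1 c R (a i) (n i)

theorem summable_boundG {c : ℝ} (hc : 0 < c) {R : ℝ} (hR : 0 ≤ R) (a : Fin g → ℝ) :
    Summable (boundG c R a) :=
  summable_pi_prod g (fun i => bound1 c R (a i)) (fun i n => bound1_nonneg _ _ _ _)
    (fun i => summable_bound1 hc hR (a i))

theorem sum_sq_le_norm_sq (w : Fin g → ℝ) : ∑ i, w i ^ 2 ≤ ((g : ℝ) + 1) * ‖w‖ ^ 2 := by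
  have h : ∀ i, w i ^ 2 ≤ ‖w‖ ^ 2 := fun i => by
    have := norm_le_pi_norm w i
    rw [Real.norm_eq_abs] at this
    calc w i ^ 2 = |w i| ^ 2 := (sq_abs _).symm
      _ ≤ ‖w‖ ^ 2 := pow_le_pow_left₀ (abs_nonneg _) this 2
  calc ∑ i, w i ^ 2 ≤ ∑ _i : Fin g, ‖w‖ ^ 2 := Finset.sum_le_sum fun i _ => h i
    _ = (g : ℝ) * ‖w‖ ^ 2 := by simp
    _ ≤ ((g : ℝ) + 1) * ‖w‖ ^ 2 := by nlinarith [sq_nonneg ‖w‖]

theorem neg_dotProduct_le (w y : Fin g → ℝ) {R : ℝ} (hy : ‖y‖ ≤ R) :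
    -(w ⬝ᵥ y) ≤ R * ∑ i, |w i| := by
  have hR : 0 ≤ R := le_trans (norm_nonneg _) hy
  rw [Finset.mul_sum, dotProduct, ← Finset.sum_neg_distrib]
  refine Finset.sum_le_sum fun i _ => ?_
  have h1 : |y i| ≤ R := le_trans (by simpa [Real.norm_eq_abs] using norm_le_pi_norm y i) hy
  calc -(w i * y i) ≤ |w i * y i| := neg_le_abs _
    _ = |w i| * |y i| := abs_mul _ _
    _ ≤ |w i| * R := mul_le_mul_of_nonneg_left h1 (abs_nonneg _)
    _ = R * |w i| := mul_comm _ _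

/-- **the uniform bound**. -/
theorem norm_term_le (τ : Siegel g) {c : ℝ} (hc : 0 < c)
    (hcoer : ∀ v : Fin g → ℝ, c * ‖v‖ ^ 2 ≤ τ.qY v) (a : Fin g → ℝ) {R : ℝ}
    {z : Fin g → ℂ} (hz : ‖imVec z‖ ≤ R) (n : Fin g → ℤ) :
    ‖term τ a z n‖ ≤ boundG (c / ((g : ℝ) + 1)) R a n := by
  rw [norm_term, boundG]
  unfold bound1
  rw [← Real.exp_sum]
  apply Real.exp_le_exp.mpr
  set w := shiftVec a n with hw
  have hg : (0 : ℝ) < (g : ℝ) + 1 := by positivity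
  have h1 : c / ((g : ℝ) + 1) * ∑ i, w i ^ 2 ≤ τ.qY w := by
    calc c / ((g : ℝ) + 1) * ∑ i, w i ^ 2 ≤ c / ((g : ℝ) + 1) * (((g : ℝ) + 1) * ‖w‖ ^ 2) :=
          mul_le_mul_of_nonneg_left (sum_sq_le_norm_sq w) (by positivity)
      _ = c * ‖w‖ ^ 2 := by field_simp
      _ ≤ τ.qY w := hcoer w
  have h2 := neg_dotProduct_le w (imVec z) hz
  have hsum : ∑ i, (-π * (c / ((g : ℝ) + 1)) * ((n i : ℝ) + a i) ^ 2 +
      2 * π * R * |(n i : ℝ) + a i|) =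
      -π * (c / ((g : ℝ) + 1) * ∑ i, w i ^ 2) + 2 * π * (R * ∑ i, |w i|) := by
    simp only [hw, shiftVec, Finset.sum_add_distrib, Finset.mul_sum]
    congr 1 <;> refine Finset.sum_congr rfl fun i _ => by ring
  rw [hsum]
  have hpi : 0 < π := Real.pi_pos
  nlinarith [mul_le_mul_of_nonneg_left h1 hpi.le, mul_le_mul_of_nonneg_left h2 hpi.le]

/-- a uniform summable bound on `{‖Im z‖ ≤ R}`. -/
theorem exists_summable_bound (τ : Siegel g) (a : Fin g → ℝ) {R : ℝ} (hR : 0 ≤ R) :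
    ∃ u : (Fin g → ℤ) → ℝ, Summable u ∧
      ∀ z : Fin g → ℂ, ‖imVec z‖ ≤ R → ∀ n, ‖term τ a z n‖ ≤ u n := by
  obtain ⟨c, hc, hcoer⟩ := τ.exists_coercive
  exact ⟨boundG (c / ((g : ℝ) + 1)) R a, summable_boundG (by positivity) hR a,
    fun z hz n => norm_term_le τ hc hcoer a hz n⟩

theorem summable_norm_term (τ : Siegel g) (a : Fin g → ℝ) (z : Fin g → ℂ) :
    Summable (fun n => ‖term τ a z n‖) := by
  obtain ⟨u, hu, hle⟩ := exists_summable_bound τ a (norm_nonneg (imVec z))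
  exact Summable.of_nonneg_of_le (fun n => norm_nonneg _) (fun n => hle z le_rfl n) hu

theorem summable_term (τ : Siegel g) (a : Fin g → ℝ) (z : Fin g → ℂ) :
    Summable (term τ a z) := (summable_norm_term τ a z).of_norm

/-- **the theta function with real characteristic `a`**:
`θ_a(z) = ∑_{n ∈ ℤ^g} exp(π i (n+a)ᵀ Ω (n+a) + 2 π i (n+a)ᵀ z)`. -/
noncomputable def thetaA (τ : Siegel g) (a : Fin g → ℝ) (z : Fin g → ℂ) : ℂ :=
  ∑' n : Fin g → ℤ, term τ a z n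

theorem hasSum_thetaA (τ : Siegel g) (a : Fin g → ℝ) (z : Fin g → ℂ) :
    HasSum (term τ a z) (thetaA τ a z) := (summable_term τ a z).hasSum

end Fermat.Agent.M17.Theta1
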