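/-
M17 (sandbox, helper1): **the product (addition) formula** for theta functions with real
characteristics:

  θ_a(u) θ_b(v) = ∑_{e ∈ {0,1}^g} θ^{2Ω}_{(a+b)/2 + e/2}(u+v) · θ^{2Ω}_{(a-b)/2 + e/2}(u-v).

Pure re-indexing of an absolutely convergent double series: `(n, m) = (p + q + e, p - q)`.
-/
import Mathlib
import Fermat.Agent.M17.ThetaBound1

set_option autoImplicit false

namespace Fermat.Agent.M17.Theta1

open Complex Real Matrix

variable {g : ℕ}

namespace Siegel

/-- `2Ω`. -/
def double (τ : Siegel g) : Siegel g where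
  Ω := (2 : ℂ) • τ.Ω
  symm := by
    have := τ.symm
    unfold Matrix.IsSymm at *
    rw [transpose_smul, this]
  pos := by
    intro v hv
    have h := τ.pos v hv
    have : ((2 : ℂ) • τ.Ω).map Complex.im = (2 : ℝ) • τ.Ω.map Complex.im := by
      ext i j; simp [Complex.mul_im]
    rw [this, smul_mulVec, dotProduct_smul, smul_eq_mul]
    positivity

theorem double_Q (τ : Siegel g) (w : Fin g → ℂ) : τ.double.Q w = 2 * τ.Q w := by
  unfold Q double
  simp only
  rw [smul_mulVec, dotProduct_smul, smul_eq_mul]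

end Siegel

/-- the re-indexing map `(e, p, q) ↦ (p + q + e, p - q)`. -/
def reidx (w : (Fin g → Fin 2) × ((Fin g → ℤ) × (Fin g → ℤ))) : (Fin g → ℤ) × (Fin g → ℤ) :=
  (fun i => w.2.1 i + w.2.2 i + ((w.1 i : ℕ) : ℤ), fun i => w.2.1 i - w.2.2 i)

theorem reidx_bijective : Function.Bijective (reidx (g := g)) := by
  constructor
  · rintro ⟨e, p, q⟩ ⟨e', p', q'⟩ h
    simp only [reidx, Prod.mk.injEq] at h
    obtain ⟨h1, h2⟩ := h
    have key : ∀ i, e i = e' i ∧ p i = p' i ∧ q i = q' i := by
      intro i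
      have a1 : p i + q i + ((e i : ℕ) : ℤ) = p' i + q' i + ((e' i : ℕ) : ℤ) := congrFun h1 i
      have a2 : p i - q i = p' i - q' i := congrFun h2 i
      have b1 : ((e i : ℕ) : ℤ) < 2 := by exact_mod_cast (e i).isLt
      have b2 : ((e' i : ℕ) : ℤ) < 2 := by exact_mod_cast (e' i).isLt
      have b3 : (0 : ℤ) ≤ ((e i : ℕ) : ℤ) := Int.natCast_nonneg _
      have b4 : (0 : ℤ) ≤ ((e' i : ℕ) : ℤ) := Int.natCast_nonneg _
      have he : ((e i : ℕ) : ℤ) = ((e' i : ℕ) : ℤ) := by omega
      refine ⟨?_, by omega, by omega⟩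
      exact Fin.ext (by exact_mod_cast he)
    have he : e = e' := funext fun i => (key i).1
    have hp : p = p' := funext fun i => (key i).2.1
    have hq : q = q' := funext fun i => (key i).2.2
    rw [he, hp, hq]
  · rintro ⟨n, m⟩
    refine ⟨(fun i => ⟨((n i - m i) % 2).toNat, by omega⟩,
      (fun i => m i + (n i - m i) / 2, fun i => (n i - m i) / 2)), ?_⟩
    simp only [reidx, Prod.mk.injEq]
    constructor
    · funext i
      show m i + (n i - m i) / 2 + (n i - m i) / 2 + (((n i - m i) % 2).toNat : ℤ) = n i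
      have : (((n i - m i) % 2).toNat : ℤ) = (n i - m i) % 2 :=
        Int.toNat_of_nonneg (Int.emod_nonneg _ (by norm_num))
      rw [this]
      omega
    · funext i
      show m i + (n i - m i) / 2 - (n i - m i) / 2 = m i
      omega

/-- the re-indexing equivalence. -/
noncomputable def reidxEquiv :
    (Fin g → Fin 2) × ((Fin g → ℤ) × (Fin g → ℤ)) ≃ (Fin g → ℤ) × (Fin g → ℤ) :=
  Equiv.ofBijective reidx reidx_bijective

/-- the characteristic `(a ± b)/2 + e/2`. -/
noncomputable def halfChar (a : Fin g → ℝ) (e : Fin g → Fin 2) : Fin g → ℝ :=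
  fun i => a i / 2 + ((e i : ℕ) : ℝ) / 2

/-- the termwise identity. -/
theorem term_mul_term (τ : Siegel g) (a b : Fin g → ℝ) (u v : Fin g → ℂ)
    (e : Fin g → Fin 2) (p q : Fin g → ℤ) :
    term τ a u (reidx (e, (p, q))).1 * term τ b v (reidx (e, (p, q))).2 =
      term τ.double (halfChar (a + b) e) (u + v) p * term τ.double (halfChar (a - b) e) (u - v) q := by
  unfold term
  rw [← Complex.exp_add, ← Complex.exp_add]
  congr 1
  set P : Fin g → ℂ := Siegel.ofRealVec (shiftVec (halfChar (a + b) e) p) with hP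
  set Qv : Fin g → ℂ := Siegel.ofRealVec (shiftVec (halfChar (a - b) e) q) with hQ
  have h1 : Siegel.ofRealVec (shiftVec a (reidx (e, (p, q))).1) = P + Qv := by
    funext i
    simp only [hP, hQ, Siegel.ofRealVec, shiftVec, halfChar, reidx, Pi.add_apply, Pi.sub_apply]
    push_cast
    ring
  have h2 : Siegel.ofRealVec (shiftVec b (reidx (e, (p, q))).2) = P - Qv := by
    funext i
    simp only [hP, hQ, Siegel.ofRealVec, shiftVec, halfChar, reidx, Pi.add_apply, Pi.sub_apply]
    push_cast
    ring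
  rw [h1, h2, Siegel.double_Q, Siegel.double_Q]
  have h3 : τ.Q (P + Qv) + τ.Q (P - Qv) = 2 * τ.Q P + 2 * τ.Q Qv := by
    have hneg : P - Qv = P + (-1 : ℂ) • Qv := by simp [sub_eq_add_neg]
    rw [hneg, Siegel.Q_add, Siegel.Q_add, Siegel.B_smul_right, Siegel.Q_smul]
    ring
  have h4 : (P + Qv) ⬝ᵥ u + (P - Qv) ⬝ᵥ v = P ⬝ᵥ (u + v) + Qv ⬝ᵥ (u - v) := by
    rw [add_dotProduct, sub_dotProduct, dotProduct_add, dotProduct_sub]; ring
  linear_combination (π * I) * h3 + (2 * π * I) * h4

/-- the double family on the left. -/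
noncomputable def famL (τ : Siegel g) (a b : Fin g → ℝ) (u v : Fin g → ℂ)
    (z : (Fin g → ℤ) × (Fin g → ℤ)) : ℂ := term τ a u z.1 * term τ b v z.2

/-- the triple family on the right. -/
noncomputable def famR (τ : Siegel g) (a b : Fin g → ℝ) (u v : Fin g → ℂ)
    (w : (Fin g → Fin 2) × ((Fin g → ℤ) × (Fin g → ℤ))) : ℂ :=
  term τ.double (halfChar (a + b) w.1) (u + v) w.2.1 *
    term τ.double (halfChar (a - b) w.1) (u - v) w.2.2

theorem famL_reidx (τ : Siegel g) (a b : Fin g → ℝ) (u v : Fin g → ℂ)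
    (w : (Fin g → Fin 2) × ((Fin g → ℤ) × (Fin g → ℤ))) :
    famL τ a b u v (reidxEquiv w) = famR τ a b u v w := by
  obtain ⟨e, p, q⟩ := w
  exact term_mul_term τ a b u v e p q

theorem summable_famL (τ : Siegel g) (a b : Fin g → ℝ) (u v : Fin g → ℂ) :
    Summable (famL τ a b u v) :=
  summable_mul_of_summable_norm (summable_norm_term τ a u) (summable_norm_term τ b v)

theorem summable_famR (τ : Siegel g) (a b : Fin g → ℝ) (u v : Fin g → ℂ) :
    Summable (famR τ a b u v) := by
  have h := (reidxEquiv (g := g)).summable_iff.mpr (summable_famL τ a b u v)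
  exact h.congr fun w => famL_reidx τ a b u v w

theorem thetaA_mul_eq_tsum_famL (τ : Siegel g) (a b : Fin g → ℝ) (u v : Fin g → ℂ) :
    thetaA τ a u * thetaA τ b v = ∑' z, famL τ a b u v z :=
  tsum_mul_tsum_of_summable_norm (summable_norm_term τ a u) (summable_norm_term τ b v)

theorem tsum_famL_eq_tsum_famR (τ : Siegel g) (a b : Fin g → ℝ) (u v : Fin g → ℂ) :
    ∑' z, famL τ a b u v z = ∑' w, famR τ a b u v w := by
  rw [← (reidxEquiv (g := g)).tsum_eq (famL τ a b u v)]
  exact tsum_congr (famL_reidx τ a b u v)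

theorem summable_famR_inner (τ : Siegel g) (a b : Fin g → ℝ) (u v : Fin g → ℂ)
    (e : Fin g → Fin 2) :
    Summable (fun pq : (Fin g → ℤ) × (Fin g → ℤ) => famR τ a b u v (e, pq)) := by
  have h := summable_mul_of_summable_norm
    (f := term τ.double (halfChar (a + b) e) (u + v))
    (g := term τ.double (halfChar (a - b) e) (u - v))
    (summable_norm_term τ.double (halfChar (a + b) e) (u + v))
    (summable_norm_term τ.double (halfChar (a - b) e) (u - v))
  exact h

theorem tsum_famR_inner (τ : Siegel g) (a b : Fin g → ℝ) (u v : Fin g → ℂ)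
    (e : Fin g → Fin 2) :
    ∑' pq : (Fin g → ℤ) × (Fin g → ℤ), famR τ a b u v (e, pq) =
      thetaA τ.double (halfChar (a + b) e) (u + v) *
        thetaA τ.double (halfChar (a - b) e) (u - v) := by
  have h := tsum_mul_tsum_of_summable_norm
    (f := term τ.double (halfChar (a + b) e) (u + v))
    (g := term τ.double (halfChar (a - b) e) (u - v))
    (summable_norm_term τ.double (halfChar (a + b) e) (u + v))
    (summable_norm_term τ.double (halfChar (a - b) e) (u - v))
  exact h.symm

theorem tsum_famR_eq (τ : Siegel g) (a b : Fin g → ℝ) (u v : Fin g → ℂ) :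
    ∑' w, famR τ a b u v w =
      ∑ e : Fin g → Fin 2, thetaA τ.double (halfChar (a + b) e) (u + v) *
        thetaA τ.double (halfChar (a - b) e) (u - v) := by
  rw [(summable_famR τ a b u v).tsum_prod' (summable_famR_inner τ a b u v), tsum_fintype]
  exact Finset.sum_congr rfl fun e _ => tsum_famR_inner τ a b u v e

/-- **the product formula**. -/
theorem thetaA_mul_thetaA (τ : Siegel g) (a b : Fin g → ℝ) (u v : Fin g → ℂ) :
    thetaA τ a u * thetaA τ b v =
      ∑ e : Fin g → Fin 2, thetaA τ.double (halfChar (a + b) e) (u + v) *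
        thetaA τ.double (halfChar (a - b) e) (u - v) := by
  rw [thetaA_mul_eq_tsum_famL, tsum_famL_eq_tsum_famR, tsum_famR_eq]

end Fermat.Agent.M17.Theta1
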