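/-
M17 (helper1): **quasi-periodicity** of the theta functions with characteristics.

* `thetaA_add_intChar`  : `θ_{a+m} = θ_a` for `m ∈ ℤ^g`;
* `thetaA_add_real`     : termwise effect of a real translation (used for integer translations);
* `thetaA_add_int`      : `θ_a(z + p) = e^{2πi a·p} θ_a(z)` for `p ∈ ℤ^g`;
* `thetaA_add_mulVec`   : `θ_a(z + Ω q) = e^{-πi qᵀΩq - 2πi q·z} θ_{a+q}(z)` for every REAL `q`;
* `thetaA_neg`          : `θ_{-a}(-z) = θ_a(z)`;
* `thetaAB a b z = θ_a(z + b)` with the classical functional equation (convention (C6)).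
-/
import Mathlib
import Fermat.Agent.M17.ThetaBound1

set_option autoImplicit false

namespace Fermat.Agent.M17.Theta1

open Complex Real Matrix

variable {g : ℕ}

/-- integer vectors as real vectors. -/
def intVec (m : Fin g → ℤ) : Fin g → ℝ := fun i => (m i : ℝ)

theorem intVec_add (m m' : Fin g → ℤ) : intVec (m + m') = intVec m + intVec m' := by
  funext i; simp [intVec]

theorem intVec_neg (m : Fin g → ℤ) : intVec (-m) = -intVec m := by
  funext i; simp [intVec]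

theorem intVec_zero : intVec (0 : Fin g → ℤ) = 0 := by
  funext i; simp [intVec]

namespace Siegel

theorem ofRealVec_add (v w : Fin g → ℝ) : ofRealVec (v + w) = ofRealVec v + ofRealVec w := by
  funext i; simp [ofRealVec]

theorem ofRealVec_neg (v : Fin g → ℝ) : ofRealVec (-v) = -ofRealVec v := by
  funext i; simp [ofRealVec]

theorem ofRealVec_zero : ofRealVec (0 : Fin g → ℝ) = 0 := by
  funext i; simp [ofRealVec]

theorem ofRealVec_smul (c : ℝ) (v : Fin g → ℝ) : ofRealVec (c • v) = (c : ℂ) • ofRealVec v := by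
  funext i; simp [ofRealVec]

theorem ofRealVec_dotProduct (v w : Fin g → ℝ) :
    ofRealVec v ⬝ᵥ ofRealVec w = ((v ⬝ᵥ w : ℝ) : ℂ) := by
  simp [dotProduct, ofRealVec]

theorem Q_neg (τ : Siegel g) (w : Fin g → ℂ) : τ.Q (-w) = τ.Q w := by
  have : -w = (-1 : ℂ) • w := by simp
  rw [this, Q_smul]; ring

theorem B_eq_dotProduct (τ : Siegel g) (w w' : Fin g → ℂ) : τ.B w w' = w ⬝ᵥ (τ.Ω *ᵥ w') := rfl

end Siegel

open Siegel

theorem shiftVec_add_intVec (a : Fin g → ℝ) (m n : Fin g → ℤ) :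
    shiftVec (a + intVec m) n = shiftVec a (n + m) := by
  funext i; simp only [shiftVec, intVec, Pi.add_apply, Int.cast_add]; ring

theorem shiftVec_add_char (a q : Fin g → ℝ) (n : Fin g → ℤ) :
    shiftVec (a + q) n = shiftVec a n + q := by
  funext i; simp only [shiftVec, Pi.add_apply]; ring

theorem shiftVec_neg (a : Fin g → ℝ) (n : Fin g → ℤ) : shiftVec (-a) (-n) = -shiftVec a n := by
  funext i; simp only [shiftVec, Pi.neg_apply, Int.cast_neg]; ring

theorem shiftVec_eq (a : Fin g → ℝ) (n : Fin g → ℤ) : shiftVec a n = intVec n + a := rfl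

/-! ### integer shift of the characteristic -/

theorem term_add_intChar (τ : Siegel g) (a : Fin g → ℝ) (m : Fin g → ℤ) (z : Fin g → ℂ)
    (n : Fin g → ℤ) : term τ (a + intVec m) z n = term τ a z (n + m) := by
  unfold term; rw [shiftVec_add_intVec]

/-- `θ_{a+m} = θ_a` for an integer vector `m`. -/
theorem thetaA_add_intChar (τ : Siegel g) (a : Fin g → ℝ) (m : Fin g → ℤ) (z : Fin g → ℂ) :
    thetaA τ (a + intVec m) z = thetaA τ a z := by
  unfold thetaA
  rw [← (Equiv.addRight m).tsum_eq (term τ a z)]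
  exact tsum_congr fun n => term_add_intChar τ a m z n

/-! ### real and integer translations -/

theorem term_add_real (τ : Siegel g) (a b : Fin g → ℝ) (z : Fin g → ℂ) (n : Fin g → ℤ) :
    term τ a (z + ofRealVec b) n =
      cexp (2 * π * I * ((shiftVec a n ⬝ᵥ b : ℝ) : ℂ)) * term τ a z n := by
  unfold term
  rw [← Complex.exp_add, dotProduct_add, ofRealVec_dotProduct]
  congr 1; ring

theorem exp_int_dotProduct (n p : Fin g → ℤ) :
    cexp (2 * π * I * ((intVec n ⬝ᵥ intVec p : ℝ) : ℂ)) = 1 := by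
  have h : ((intVec n ⬝ᵥ intVec p : ℝ) : ℂ) = ((n ⬝ᵥ p : ℤ) : ℂ) := by
    simp [dotProduct, intVec]
  rw [h, show 2 * (π : ℂ) * I * ((n ⬝ᵥ p : ℤ) : ℂ) = ((n ⬝ᵥ p : ℤ) : ℂ) * (2 * π * I) by ring]
  exact Complex.exp_int_mul_two_pi_mul_I _

/-- `θ_a(z + p) = e^{2πi a·p} θ_a(z)` for an integer vector `p`. -/
theorem thetaA_add_int (τ : Siegel g) (a : Fin g → ℝ) (p : Fin g → ℤ) (z : Fin g → ℂ) :
    thetaA τ a (z + ofRealVec (intVec p)) =
      cexp (2 * π * I * ((a ⬝ᵥ intVec p : ℝ) : ℂ)) * thetaA τ a z := by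
  unfold thetaA
  rw [← tsum_mul_left]
  refine tsum_congr fun n => ?_
  rw [term_add_real, shiftVec_eq, add_dotProduct]
  push_cast
  rw [mul_add, Complex.exp_add]
  have := exp_int_dotProduct n p
  rw [this, one_mul]

/-! ### translation by `Ω q`, `q` real -/

theorem term_add_mulVec (τ : Siegel g) (a q : Fin g → ℝ) (z : Fin g → ℂ) (n : Fin g → ℤ) :
    term τ a (z + τ.Ω *ᵥ ofRealVec q) n =
      cexp (-(π * I * τ.Q (ofRealVec q)) - 2 * π * I * (ofRealVec q ⬝ᵥ z)) *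
        term τ (a + q) z n := by
  unfold term
  rw [← Complex.exp_add, shiftVec_add_char, ofRealVec_add, Q_add, dotProduct_add,
    ← B_eq_dotProduct, add_dotProduct]
  congr 1; ring

/-- `θ_a(z + Ω q) = e^{-πi qᵀΩq - 2πi q·z} θ_{a+q}(z)` for every real vector `q`. -/
theorem thetaA_add_mulVec (τ : Siegel g) (a q : Fin g → ℝ) (z : Fin g → ℂ) :
    thetaA τ a (z + τ.Ω *ᵥ ofRealVec q) =
      cexp (-(π * I * τ.Q (ofRealVec q)) - 2 * π * I * (ofRealVec q ⬝ᵥ z)) *
        thetaA τ (a + q) z := by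
  unfold thetaA
  rw [← tsum_mul_left]
  exact tsum_congr fun n => term_add_mulVec τ a q z n

/-- integer `q`: `θ_a(z + Ω q) = e^{-πi qᵀΩq - 2πi q·z} θ_a(z)`. -/
theorem thetaA_add_mulVec_int (τ : Siegel g) (a : Fin g → ℝ) (q : Fin g → ℤ) (z : Fin g → ℂ) :
    thetaA τ a (z + τ.Ω *ᵥ ofRealVec (intVec q)) =
      cexp (-(π * I * τ.Q (ofRealVec (intVec q))) - 2 * π * I * (ofRealVec (intVec q) ⬝ᵥ z)) *
        thetaA τ a z := by
  rw [thetaA_add_mulVec, thetaA_add_intChar]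

/-! ### parity -/

theorem term_neg (τ : Siegel g) (a : Fin g → ℝ) (z : Fin g → ℂ) (n : Fin g → ℤ) :
    term τ (-a) (-z) (-n) = term τ a z n := by
  unfold term
  rw [shiftVec_neg, ofRealVec_neg, Q_neg, neg_dotProduct_neg]

/-- `θ_{-a}(-z) = θ_a(z)`. -/
theorem thetaA_neg (τ : Siegel g) (a : Fin g → ℝ) (z : Fin g → ℂ) :
    thetaA τ (-a) (-z) = thetaA τ a z := by
  unfold thetaA
  rw [← (Equiv.neg (Fin g → ℤ)).tsum_eq (term τ (-a) (-z))]
  exact tsum_congr fun n => term_neg τ a z n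

/-! ### theta functions with characteristics `[a, b]` -/

/-- `θ[a,b](z) = θ_a(z + b)` (convention (C6)). -/
noncomputable def thetaAB (τ : Siegel g) (a b : Fin g → ℝ) (z : Fin g → ℂ) : ℂ :=
  thetaA τ a (z + ofRealVec b)

theorem thetaAB_zero_right (τ : Siegel g) (a : Fin g → ℝ) (z : Fin g → ℂ) :
    thetaAB τ a 0 z = thetaA τ a z := by
  unfold thetaAB; rw [ofRealVec_zero, add_zero]

theorem thetaAB_add_intChar_left (τ : Siegel g) (a b : Fin g → ℝ) (m : Fin g → ℤ)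
    (z : Fin g → ℂ) : thetaAB τ (a + intVec m) b z = thetaAB τ a b z := by
  unfold thetaAB; rw [thetaA_add_intChar]

theorem thetaAB_add_intChar_right (τ : Siegel g) (a b : Fin g → ℝ) (m : Fin g → ℤ)
    (z : Fin g → ℂ) :
    thetaAB τ a (b + intVec m) z = cexp (2 * π * I * ((a ⬝ᵥ intVec m : ℝ) : ℂ)) * thetaAB τ a b z := by
  unfold thetaAB
  rw [ofRealVec_add, ← add_assoc, thetaA_add_int]

/-- translation by a real vector shifts the second characteristic. -/
theorem thetaAB_add_real (τ : Siegel g) (a b p : Fin g → ℝ) (z : Fin g → ℂ) :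
    thetaAB τ a b (z + ofRealVec p) = thetaAB τ a (b + p) z := by
  unfold thetaAB
  rw [ofRealVec_add, add_assoc, add_comm (ofRealVec p)]

/-- translation by `Ω q` (`q` real) shifts the first characteristic. -/
theorem thetaAB_add_mulVec (τ : Siegel g) (a b q : Fin g → ℝ) (z : Fin g → ℂ) :
    thetaAB τ a b (z + τ.Ω *ᵥ ofRealVec q) =
      cexp (-(π * I * τ.Q (ofRealVec q)) - 2 * π * I * (ofRealVec q ⬝ᵥ z)
        - 2 * π * I * ((q ⬝ᵥ b : ℝ) : ℂ)) * thetaAB τ (a + q) b z := by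
  unfold thetaAB
  rw [add_right_comm, thetaA_add_mulVec, dotProduct_add, ofRealVec_dotProduct]
  congr 2; ring

/-- **the functional equation** (convention (C6)): for integer vectors `p, q`,
`θ[a,b](z + p + Ω q) = e^{2πi(a·p - b·q)} e^{-πi qᵀΩq - 2πi q·z} θ[a,b](z)`. -/
theorem thetaAB_add_lattice (τ : Siegel g) (a b : Fin g → ℝ) (p q : Fin g → ℤ) (z : Fin g → ℂ) :
    thetaAB τ a b (z + ofRealVec (intVec p) + τ.Ω *ᵥ ofRealVec (intVec q)) =
      cexp (2 * π * I * (((a ⬝ᵥ intVec p : ℝ) : ℂ) - ((b ⬝ᵥ intVec q : ℝ) : ℂ))) *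
      cexp (-(π * I * τ.Q (ofRealVec (intVec q))) - 2 * π * I * (ofRealVec (intVec q) ⬝ᵥ z)) *
        thetaAB τ a b z := by
  rw [thetaAB_add_mulVec, thetaAB_add_intChar_left, thetaAB_add_real, thetaAB_add_intChar_right,
    dotProduct_add, ofRealVec_dotProduct]
  have h1 := exp_int_dotProduct q p
  rw [← mul_assoc, ← Complex.exp_add, ← Complex.exp_add]
  have h2 : cexp (-(π * I * τ.Q (ofRealVec (intVec q))) -
      2 * π * I * (ofRealVec (intVec q) ⬝ᵥ z + ((intVec q ⬝ᵥ intVec p : ℝ) : ℂ)) -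
      2 * π * I * ((intVec q ⬝ᵥ b : ℝ) : ℂ) + 2 * π * I * ((a ⬝ᵥ intVec p : ℝ) : ℂ)) =
      cexp (2 * π * I * (((a ⬝ᵥ intVec p : ℝ) : ℂ) - ((b ⬝ᵥ intVec q : ℝ) : ℂ)) +
        (-(π * I * τ.Q (ofRealVec (intVec q))) - 2 * π * I * (ofRealVec (intVec q) ⬝ᵥ z))) *
      (cexp (2 * π * I * ((intVec q ⬝ᵥ intVec p : ℝ) : ℂ)))⁻¹ := by
    rw [← Complex.exp_neg, ← Complex.exp_add, dotProduct_comm (intVec q) b]
    congr 1; ring
  rw [h2, h1, inv_one, mul_one]

/-- parity: `θ[-a,-b](-z) = θ[a,b](z)`. -/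
theorem thetaAB_neg (τ : Siegel g) (a b : Fin g → ℝ) (z : Fin g → ℂ) :
    thetaAB τ (-a) (-b) (-z) = thetaAB τ a b z := by
  unfold thetaAB
  rw [ofRealVec_neg, ← neg_add, thetaA_neg]

end Fermat.Agent.M17.Theta1
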