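/-
M17 (helper1): **holomorphy** of the theta functions: `thetaA τ a` is (Fréchet) differentiable
over `ℂ` on `ℂ^g`, hence continuous.  Termwise differentiation with a locally uniform summable
bound for the derivatives (`hasFDerivAt_of_tendstoUniformlyOn`).
-/
import Mathlib
import Fermat.Agent.M17.ThetaPeriod1

set_option autoImplicit false

namespace Fermat.Agent.M17.Theta1

open Complex Real Matrix Filter Topology

variable {g : ℕ}

/-- the continuous linear functional `z ↦ w ⬝ᵥ z` on `ℂ^g`. -/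
noncomputable def dotCLM (w : Fin g → ℂ) : (Fin g → ℂ) →L[ℂ] ℂ :=
  ∑ i, w i • ContinuousLinearMap.proj (R := ℂ) (φ := fun _ : Fin g => ℂ) i

theorem dotCLM_apply (w z : Fin g → ℂ) : dotCLM w z = w ⬝ᵥ z := by
  simp [dotCLM, dotProduct]

theorem norm_dotCLM_le (w : Fin g → ℂ) : ‖dotCLM w‖ ≤ ∑ i, ‖w i‖ := by
  unfold dotCLM
  refine (norm_sum_le _ _).trans (Finset.sum_le_sum fun i _ => ?_)
  rw [norm_smul]
  have h1 : ‖ContinuousLinearMap.proj (R := ℂ) (φ := fun _ : Fin g => ℂ) i‖ ≤ 1 := by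
    refine ContinuousLinearMap.opNorm_le_bound _ zero_le_one fun z => ?_
    rw [one_mul]
    exact norm_le_pi_norm z i
  calc ‖w i‖ * ‖ContinuousLinearMap.proj (R := ℂ) (φ := fun _ : Fin g => ℂ) i‖
      ≤ ‖w i‖ * 1 := mul_le_mul_of_nonneg_left h1 (norm_nonneg _)
    _ = ‖w i‖ := mul_one _

/-- the derivative of the general term. -/
noncomputable def termDeriv (τ : Siegel g) (a : Fin g → ℝ) (z : Fin g → ℂ) (n : Fin g → ℤ) :
    (Fin g → ℂ) →L[ℂ] ℂ :=
  (term τ a z n * (2 * π * I)) • dotCLM (Siegel.ofRealVec (shiftVec a n))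

theorem hasFDerivAt_term (τ : Siegel g) (a : Fin g → ℝ) (z : Fin g → ℂ) (n : Fin g → ℤ) :
    HasFDerivAt (fun z => term τ a z n) (termDeriv τ a z n) z := by
  have h1 : HasFDerivAt (fun z : Fin g → ℂ => dotCLM (Siegel.ofRealVec (shiftVec a n)) z)
      (dotCLM (Siegel.ofRealVec (shiftVec a n))) z :=
    (dotCLM (Siegel.ofRealVec (shiftVec a n))).hasFDerivAt
  have h2 : HasFDerivAt (fun z : Fin g → ℂ =>
      π * I * τ.Q (Siegel.ofRealVec (shiftVec a n)) +
        2 * π * I * dotCLM (Siegel.ofRealVec (shiftVec a n)) z)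
      ((2 * π * I) • dotCLM (Siegel.ofRealVec (shiftVec a n))) z :=
    (h1.const_mul (2 * π * I)).const_add _
  have h3 := h2.cexp
  have e : (fun z : Fin g → ℂ => term τ a z n) = fun z : Fin g → ℂ =>
      cexp (π * I * τ.Q (Siegel.ofRealVec (shiftVec a n)) +
        2 * π * I * dotCLM (Siegel.ofRealVec (shiftVec a n)) z) := by
    funext z; unfold term; rw [dotCLM_apply]
  rw [e]
  refine h3.congr_fderiv ?_
  unfold termDeriv term
  rw [dotCLM_apply, smul_smul]

theorem norm_ofRealVec_shiftVec_sum (a : Fin g → ℝ) (n : Fin g → ℤ) :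
    ∑ i, ‖Siegel.ofRealVec (shiftVec a n) i‖ = ∑ i, |(n i : ℝ) + a i| := by
  refine Finset.sum_congr rfl fun i _ => ?_
  show ‖((((n i : ℝ) + a i : ℝ)) : ℂ)‖ = _
  rw [Complex.norm_real, Real.norm_eq_abs]

/-- the derivative bound: one more unit of `R` absorbs the linear factor. -/
theorem norm_termDeriv_le (τ : Siegel g) {c : ℝ} (hc : 0 < c)
    (hcoer : ∀ v : Fin g → ℝ, c * ‖v‖ ^ 2 ≤ τ.qY v) (a : Fin g → ℝ) {R : ℝ}
    {z : Fin g → ℂ} (hz : ‖imVec z‖ ≤ R) (n : Fin g → ℤ) :
    ‖termDeriv τ a z n‖ ≤ 2 * π * boundG (c / ((g : ℝ) + 1)) (R + 1 / (2 * π)) a n := by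
  unfold termDeriv
  rw [norm_smul, norm_mul]
  have h2pi : ‖(2 * π * I : ℂ)‖ = 2 * π := by
    rw [norm_mul, norm_mul, Complex.norm_I, mul_one, Complex.norm_real, Complex.norm_ofNat,
      Real.norm_eq_abs, abs_of_pos Real.pi_pos]
  rw [h2pi]
  have h1 := norm_term_le τ hc hcoer a hz n
  have h3 := norm_dotCLM_le (Siegel.ofRealVec (shiftVec a n))
  rw [norm_ofRealVec_shiftVec_sum] at h3
  set S : ℝ := ∑ i, |(n i : ℝ) + a i| with hS
  have hS0 : 0 ≤ S := Finset.sum_nonneg fun i _ => abs_nonneg _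
  have hSexp : S ≤ rexp S := by
    have := Real.add_one_le_exp S
    linarith
  -- `boundG c R * exp S = boundG c (R + 1/(2π))`
  have hkey : boundG (c / ((g : ℝ) + 1)) R a n * rexp S =
      boundG (c / ((g : ℝ) + 1)) (R + 1 / (2 * π)) a n := by
    unfold boundG bound1
    rw [← Real.exp_sum, ← Real.exp_sum, ← Real.exp_add, hS, ← Finset.sum_add_distrib]
    congr 1
    refine Finset.sum_congr rfl fun i _ => ?_
    have hpi : (π : ℝ) ≠ 0 := Real.pi_ne_zero
    field_simp
    ring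
  have hpos : 0 ≤ boundG (c / ((g : ℝ) + 1)) R a n :=
    Finset.prod_nonneg fun i _ => bound1_nonneg _ _ _ _
  calc ‖term τ a z n‖ * (2 * π) * ‖dotCLM (Siegel.ofRealVec (shiftVec a n))‖
      ≤ boundG (c / ((g : ℝ) + 1)) R a n * (2 * π) * rexp S := by
        have h2pi0 : (0 : ℝ) ≤ 2 * π := by positivity
        exact mul_le_mul (mul_le_mul_of_nonneg_right h1 h2pi0) (h3.trans hSexp)
          (norm_nonneg _) (mul_nonneg hpos h2pi0)
    _ = 2 * π * (boundG (c / ((g : ℝ) + 1)) R a n * rexp S) := by ring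
    _ = 2 * π * boundG (c / ((g : ℝ) + 1)) (R + 1 / (2 * π)) a n := by rw [hkey]

theorem continuous_imVec : Continuous (imVec (g := g)) := by
  unfold imVec
  exact continuous_pi fun i => Complex.continuous_im.comp (continuous_apply i)

/-- **`thetaA τ a` is holomorphic on `ℂ^g`.** -/
theorem hasFDerivAt_thetaA (τ : Siegel g) (a : Fin g → ℝ) (z : Fin g → ℂ) :
    HasFDerivAt (thetaA τ a) (∑' n, termDeriv τ a z n) z := by
  obtain ⟨c, hc, hcoer⟩ := τ.exists_coercive
  set R : ℝ := ‖imVec z‖ + 1 with hR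
  have hR0 : 0 ≤ R := by positivity
  set s : Set (Fin g → ℂ) := {z' | ‖imVec z'‖ < R} with hs
  have hsopen : IsOpen s := isOpen_lt (continuous_norm.comp continuous_imVec) continuous_const
  have hzs : z ∈ s := by simp [hs, hR]
  have hu : Summable (fun n => 2 * π * boundG (c / ((g : ℝ) + 1)) (R + 1 / (2 * π)) a n) :=
    (summable_boundG (by positivity) (by positivity) a).mul_left _
  have hf' : ∀ n (x : Fin g → ℂ), x ∈ s → ‖termDeriv τ a x n‖ ≤
      2 * π * boundG (c / ((g : ℝ) + 1)) (R + 1 / (2 * π)) a n :=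
    fun n x hx => norm_termDeriv_le τ hc hcoer a (le_of_lt hx) n
  have hA : ∀ x : Fin g → ℂ, x ∈ s →
      Tendsto (fun t : Finset (Fin g → ℤ) => ∑ n ∈ t, term τ a x n) atTop
        (𝓝 (∑' n, term τ a x n)) :=
    fun x _ => (summable_term τ a x).hasSum
  exact hasFDerivAt_of_tendstoUniformlyOn hsopen (tendstoUniformlyOn_tsum hu hf')
    (fun t y _ => HasFDerivAt.fun_sum fun n _ => hasFDerivAt_term τ a y n) hA hzs

theorem differentiable_thetaA (τ : Siegel g) (a : Fin g → ℝ) : Differentiable ℂ (thetaA τ a) :=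
  fun z => (hasFDerivAt_thetaA τ a z).differentiableAt

theorem continuous_thetaA (τ : Siegel g) (a : Fin g → ℝ) : Continuous (thetaA τ a) :=
  (differentiable_thetaA τ a).continuous

theorem differentiable_thetaAB (τ : Siegel g) (a b : Fin g → ℝ) :
    Differentiable ℂ (thetaAB τ a b) := by
  unfold thetaAB
  exact (differentiable_thetaA τ a).comp (differentiable_id.add_const _)

/-- `z ↦ θ_a(c z + b)` is holomorphic. -/
theorem differentiable_thetaA_affine (τ : Siegel g) (a : Fin g → ℝ) (c : ℂ) (b : Fin g → ℂ) :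
    Differentiable ℂ fun z : Fin g → ℂ => thetaA τ a (c • z + b) :=
  (differentiable_thetaA τ a).comp ((differentiable_id.const_smul c).add_const b)

end Fermat.Agent.M17.Theta1
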