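/-
M17 (helper1): **non-vanishing** of theta functions by Fourier uniqueness on the torus.

* `coeff_eq_zero_of_tsum_mFourier_eq_zero` : an absolutely convergent multi-variable Fourier series
  which vanishes identically has zero coefficients;
* `exists_thetaA_ne_zero` : for every `z₀` there is a REAL translate `z₀ + x` with `θ_a ≠ 0` there;
* `exists_thetaAB_ne_zero`.
-/
import Mathlib
import Fermat.Agent.M17.ThetaHolo1

set_option autoImplicit false

namespace Fermat.Agent.M17.Theta1

open Complex Real Matrix MeasureTheory UnitAddTorus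

/-- same normalisation as in Mathlib's `Analysis/Fourier/AddCircleMulti`. -/
noncomputable local instance instMeasureSpaceUAC1 : MeasureSpace UnitAddCircle := ⟨AddCircle.haarAddCircle⟩

local instance instHaarUAC1 : Measure.IsAddHaarMeasure (volume : Measure UnitAddCircle) :=
  inferInstanceAs (Measure.IsAddHaarMeasure AddCircle.haarAddCircle)

local instance instProbUAC1 : IsProbabilityMeasure (volume : Measure UnitAddCircle) :=
  inferInstanceAs (IsProbabilityMeasure AddCircle.haarAddCircle)

/-- **Fourier uniqueness** for absolutely convergent series on the torus. -/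
theorem coeff_eq_zero_of_tsum_mFourier_eq_zero {d : Type*} [Fintype d] (c : (d → ℤ) → ℂ)
    (hc : Summable fun n => ‖c n‖)
    (h : ∀ x : UnitAddTorus d, ∑' n, c n * mFourier n x = 0) (m : d → ℤ) : c m = 0 := by
  classical
  have hs : Summable fun n => c n • (mFourier n : C(UnitAddTorus d, ℂ)) := by
    refine Summable.of_norm ?_
    simpa [norm_smul, mFourier_norm] using hc
  have hF := hs.hasSum
  have hF0 : (∑' n, c n • (mFourier n : C(UnitAddTorus d, ℂ))) = 0 := by
    ext x
    have h1 := (ContinuousMap.evalCLM ℂ x).hasSum hF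
    simp only [ContinuousMap.evalCLM_apply, ContinuousMap.coe_smul, Pi.smul_apply,
      smul_eq_mul] at h1
    rw [← h1.tsum_eq]
    exact h x
  rw [hF0] at hF
  have hL := (ContinuousMap.toLp (E := ℂ) 2 (volume : Measure (UnitAddTorus d)) ℂ).hasSum hF
  have hI := (innerSL ℂ (mFourierLp 2 m)).hasSum hL
  simp only [map_zero, map_smul, innerSL_apply_apply, smul_eq_mul] at hI
  have hterm : ∀ n : d → ℤ, c n * inner ℂ (mFourierLp 2 m) (mFourierLp 2 n) =
      if n = m then c m else 0 := by
    intro n
    have := (orthonormal_iff_ite.mp (orthonormal_mFourier (d := d))) m n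
    rw [this]
    by_cases hnm : n = m
    · subst hnm; simp
    · rw [if_neg hnm, if_neg (Ne.symm hnm), mul_zero]
  have hI' : HasSum (fun n : d → ℤ => if n = m then c m else 0) 0 := by
    have e : (fun n : d → ℤ => if n = m then c m else 0) =
        fun n => c n * inner ℂ (mFourierLp 2 m) (mFourierLp 2 n) :=
      funext fun n => (hterm n).symm
    rw [e]
    exact hI
  exact (hasSum_ite_eq m (c m)).unique hI'

variable {g : ℕ}

theorem mFourier_coe (n : Fin g → ℤ) (x : Fin g → ℝ) :
    mFourier n (fun i => (x i : UnitAddCircle)) = cexp (2 * π * I * ((intVec n ⬝ᵥ x : ℝ) : ℂ)) := by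
  simp only [mFourier, ContinuousMap.coe_mk]
  have : ∀ i, fourier (n i) ((x i : ℝ) : UnitAddCircle) = cexp (2 * π * I * (n i) * (x i)) := by
    intro i
    rw [fourier_coe_apply]
    simp
  simp_rw [this]
  rw [← Complex.exp_sum]
  congr 1
  simp only [dotProduct, intVec]
  push_cast
  rw [Finset.mul_sum]
  exact Finset.sum_congr rfl fun i _ => by ring

/-- every real translate `z₀ + ℝ^g` contains a point where `θ_a` does not vanish. -/
theorem exists_thetaA_ne_zero (τ : Siegel g) (a : Fin g → ℝ) (z₀ : Fin g → ℂ) :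
    ∃ x : Fin g → ℝ, thetaA τ a (z₀ + Siegel.ofRealVec x) ≠ 0 := by
  by_contra hcon
  push Not at hcon
  have hzero : ∀ x : UnitAddTorus (Fin g), ∑' n, term τ a z₀ n * mFourier n x = 0 := by
    intro x
    have hsurj : ∃ y : Fin g → ℝ, x = fun i => (y i : UnitAddCircle) := by
      choose y hy using fun i => QuotientAddGroup.mk_surjective (x i)
      exact ⟨y, funext fun i => (hy i).symm⟩
    obtain ⟨y, rfl⟩ := hsurj
    have h0 := hcon y
    unfold thetaA at h0
    have hterm : ∀ n, term τ a (z₀ + Siegel.ofRealVec y) n =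
        cexp (2 * π * I * ((a ⬝ᵥ y : ℝ) : ℂ)) *
          (term τ a z₀ n * mFourier n (fun i => (y i : UnitAddCircle))) := by
      intro n
      rw [term_add_real, shiftVec_eq, add_dotProduct, mFourier_coe]
      push_cast
      rw [mul_add, Complex.exp_add]
      ring
    simp_rw [hterm] at h0
    rw [tsum_mul_left] at h0
    exact (mul_eq_zero.mp h0).resolve_left (Complex.exp_ne_zero _)
  have := coeff_eq_zero_of_tsum_mFourier_eq_zero (term τ a z₀) (summable_norm_term τ a z₀) hzero 0
  exact Complex.exp_ne_zero _ this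

/-- `θ_a` is not identically zero. -/
theorem exists_thetaA_ne_zero' (τ : Siegel g) (a : Fin g → ℝ) : ∃ z, thetaA τ a z ≠ 0 := by
  obtain ⟨x, hx⟩ := exists_thetaA_ne_zero τ a 0
  exact ⟨_, hx⟩

theorem exists_thetaAB_ne_zero (τ : Siegel g) (a b : Fin g → ℝ) : ∃ z, thetaAB τ a b z ≠ 0 := by
  obtain ⟨x, hx⟩ := exists_thetaA_ne_zero τ a (Siegel.ofRealVec b)
  refine ⟨Siegel.ofRealVec x, ?_⟩
  unfold thetaAB
  rwa [add_comm]

end Fermat.Agent.M17.Theta1
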