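/-
M17 (helper1): **level 2 and level 4 theta coordinates** and the exact law between them.

For `s c : Char2 g = Fin g → Fin 2`:
* `kap τ z s   = θ^{2Ω}_{s/2}(2z)`                    (second order theta functions, level 2);
* `Phi τ z (s,c) = θ[s/2, c/2](2z)`                   (level 4 coordinates, convention (C6));
* `Phi_mul_Phi` : `Φ_{s,c}(x) Φ_{s,c}(y) = ∑_e (-1)^{(s+e)·c} κ_{s+e}(x+y) κ_e(x-y)`;
* `Rmat`, `Smat` (rational), `Smat_Rmat` (`S R = 1`), `law` in the literal shape of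
  `FiniteFibres9.AnalyticThetaData`;
* `theta_mul_theta` : `θ(z+w) θ(z-w) = ∑_e κ_e(z) κ_e(w)`.
-/
import Mathlib
import Fermat.Agent.M17.ThetaAdd1
import Fermat.Agent.M17.ThetaNonzero1

set_option autoImplicit false

namespace Fermat.Agent.M17.Theta1

open Complex Real Matrix

variable {g : ℕ}

/-- characteristics modulo 2. -/
abbrev Char2 (g : ℕ) : Type := Fin g → Fin 2

/-- the representative in `{0,1}^g ⊆ ℤ^g`. -/
def natVec (s : Char2 g) : Fin g → ℤ := fun i => (((s i : Fin 2) : ℕ) : ℤ)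

/-- the half-integer characteristic `s/2`. -/
noncomputable def halfVec (s : Char2 g) : Fin g → ℝ := fun i => (((s i : Fin 2) : ℕ) : ℝ) / 2

/-- the pairing `s·c` (as a natural number). -/
def pair (s c : Char2 g) : ℕ := ∑ i, ((s i : Fin 2) : ℕ) * ((c i : Fin 2) : ℕ)

/-- the sign `(-1)^{s·c}`. -/
def sgn (s c : Char2 g) : ℤ := (-1) ^ pair s c

/-- the carry of the addition `s + e` in `{0,1}^g`. -/
def carry (s e : Char2 g) : Fin g → ℤ :=
  fun i => (((((s i : Fin 2) : ℕ) + ((e i : Fin 2) : ℕ)) / 2 : ℕ) : ℤ)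

theorem halfVec_zero : halfVec (0 : Char2 g) = 0 := by
  funext i; simp [halfVec]

theorem fin2_half_add (u v : Fin 2) :
    ((u : ℕ) : ℝ) / 2 + ((v : ℕ) : ℝ) / 2 =
      (((u + v : Fin 2) : ℕ) : ℝ) / 2 + (((((u : ℕ) + (v : ℕ)) / 2 : ℕ) : ℤ) : ℝ) := by
  fin_cases u <;> fin_cases v <;> norm_num [Fin.val_add]

theorem halfChar_double (s e : Char2 g) :
    halfChar (halfVec s + halfVec s) e = halfVec (s + e) + intVec (carry s e) := by
  funext i
  simp only [halfChar, halfVec, Pi.add_apply, intVec, carry]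
  have := fin2_half_add (s i) (e i)
  linarith

theorem halfChar_sub_self (a : Fin g → ℝ) (e : Char2 g) : halfChar (a - a) e = halfVec e := by
  funext i
  simp [halfChar, halfVec]

theorem halfChar_zero (e : Char2 g) : halfChar (0 + 0) e = halfVec e := by
  funext i
  simp [halfChar, halfVec]

theorem two_smul_halfVec (c : Char2 g) :
    Siegel.ofRealVec (halfVec c) + Siegel.ofRealVec (halfVec c) =
      Siegel.ofRealVec (intVec (natVec c)) := by
  funext i
  simp only [Siegel.ofRealVec, halfVec, intVec, natVec, Pi.add_apply]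
  push_cast
  ring

/-- `e^{2πi (t/2)·c} = (-1)^{t·c}`. -/
theorem exp_halfVec_natVec (t c : Char2 g) :
    cexp (2 * π * I * ((halfVec t ⬝ᵥ intVec (natVec c) : ℝ) : ℂ)) = ((sgn t c : ℤ) : ℂ) := by
  have h1 : ((halfVec t ⬝ᵥ intVec (natVec c) : ℝ) : ℂ) = ((pair t c : ℕ) : ℂ) / 2 := by
    simp only [dotProduct, halfVec, intVec, natVec, pair]
    push_cast
    rw [Finset.sum_div]
    exact Finset.sum_congr rfl fun i _ => by ring
  rw [h1, show 2 * (π : ℂ) * I * (((pair t c : ℕ) : ℂ) / 2) = ((pair t c : ℕ) : ℂ) * (π * I) by ring,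
    Complex.exp_nat_mul, Complex.exp_pi_mul_I, sgn]
  push_cast
  rfl

/-! ### the coordinates -/

/-- level 2: the second order theta functions `κ_s(z) = θ^{2Ω}_{s/2}(2z)`. -/
noncomputable def kap (τ : Siegel g) (z : Fin g → ℂ) (s : Char2 g) : ℂ :=
  thetaA τ.double (halfVec s) ((2 : ℂ) • z)

/-- level 4: `Φ_{s,c}(z) = θ[s/2, c/2](2z)`. -/
noncomputable def Phi (τ : Siegel g) (z : Fin g → ℂ) (sc : Char2 g × Char2 g) : ℂ :=
  thetaAB τ (halfVec sc.1) (halfVec sc.2) ((2 : ℂ) • z)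

theorem differentiable_kap (τ : Siegel g) (s : Char2 g) :
    Differentiable ℂ fun z => kap τ z s := by
  have := differentiable_thetaA_affine τ.double (halfVec s) 2 0
  unfold kap
  simpa only [add_zero] using this

theorem differentiable_Phi (τ : Siegel g) (sc : Char2 g × Char2 g) :
    Differentiable ℂ fun z => Phi τ z sc :=
  differentiable_thetaA_affine τ (halfVec sc.1) 2 _

theorem Phi_zero_zero (τ : Siegel g) (z : Fin g → ℂ) :
    Phi τ z (0, 0) = thetaA τ 0 ((2 : ℂ) • z) := by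
  unfold Phi
  simp only [halfVec_zero]
  exact thetaAB_zero_right τ 0 _

/-! ### the product formulas -/

/-- `θ(z+w) θ(z-w) = ∑_e κ_e(z) κ_e(w)`. -/
theorem theta_mul_theta (τ : Siegel g) (z w : Fin g → ℂ) :
    thetaA τ 0 (z + w) * thetaA τ 0 (z - w) = ∑ e : Char2 g, kap τ z e * kap τ w e := by
  rw [thetaA_mul_thetaA]
  refine Finset.sum_congr rfl fun e _ => ?_
  have h1 : z + w + (z - w) = (2 : ℂ) • z := by rw [two_smul]; abel
  have h2 : z + w - (z - w) = (2 : ℂ) • w := by rw [two_smul]; abel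
  rw [h1, h2, halfChar_zero, halfChar_sub_self]
  rfl

/-- the level 4 / level 2 product formula. -/
theorem Phi_mul_Phi (τ : Siegel g) (x y : Fin g → ℂ) (s c : Char2 g) :
    Phi τ x (s, c) * Phi τ y (s, c) =
      ∑ e : Char2 g, ((sgn (s + e) c : ℤ) : ℂ) * (kap τ (x + y) (s + e) * kap τ (x - y) e) := by
  unfold Phi thetaAB
  simp only
  rw [thetaA_mul_thetaA]
  refine Finset.sum_congr rfl fun e _ => ?_
  have h1 : (2 : ℂ) • x + Siegel.ofRealVec (halfVec c) + ((2 : ℂ) • y + Siegel.ofRealVec (halfVec c)) =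
      (2 : ℂ) • (x + y) + Siegel.ofRealVec (intVec (natVec c)) := by
    rw [← two_smul_halfVec, smul_add]; abel
  have h2 : (2 : ℂ) • x + Siegel.ofRealVec (halfVec c) - ((2 : ℂ) • y + Siegel.ofRealVec (halfVec c)) =
      (2 : ℂ) • (x - y) := by
    rw [smul_sub]; abel
  rw [h1, h2, halfChar_double, thetaA_add_intChar, thetaA_add_int, exp_halfVec_natVec,
    halfChar_sub_self]
  unfold kap
  ring

/-! ### the rational matrices -/

/-- `R((s,c),(a,b)) = (-1)^{a·c}` if `a = s + b`, else `0`. -/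
def Rmat (p : (Char2 g × Char2 g) × (Char2 g × Char2 g)) : ℚ :=
  if p.2.1 = p.1.1 + p.2.2 then ((sgn p.2.1 p.1.2 : ℤ) : ℚ) else 0

/-- `S((a,b),(s,c)) = 2^{-g} (-1)^{a·c}` if `s = a + b`, else `0`. -/
def Smat (p : (Char2 g × Char2 g) × (Char2 g × Char2 g)) : ℚ :=
  if p.2.1 = p.1.1 + p.1.2 then ((sgn p.1.1 p.2.2 : ℤ) : ℚ) / 2 ^ g else 0

/-- **the law** in the shape of `AnalyticThetaData`. -/
theorem law (τ : Siegel g) (X Y : Fin g → ℂ) (i : Char2 g × Char2 g) :
    Phi τ X i * Phi τ Y i =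
      ∑ ab : Char2 g × Char2 g, (Rmat (i, ab) : ℂ) * (kap τ (X + Y) ab.1 * kap τ (X - Y) ab.2) := by
  obtain ⟨s, c⟩ := i
  rw [Phi_mul_Phi, Fintype.sum_prod_type, Finset.sum_comm]
  refine Finset.sum_congr rfl fun e _ => ?_
  simp only [Rmat]
  rw [Finset.sum_eq_single (s + e)]
  · rw [if_pos rfl]; push_cast; rfl
  · intro a _ ha
    rw [if_neg ha]; simp
  · intro h; exact absurd (Finset.mem_univ _) h

/-! ### character orthogonality on `(ℤ/2)^g` -/

theorem sgn_eq_prod (s c : Char2 g) :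
    sgn s c = ∏ i, (-1 : ℤ) ^ (((s i : Fin 2) : ℕ) * ((c i : Fin 2) : ℕ)) := by
  unfold sgn pair
  rw [Finset.prod_pow_eq_pow_sum]

theorem fin2_char_sum (u v : Fin 2) :
    ∑ t : Fin 2, ((-1 : ℤ) ^ ((u : ℕ) * (t : ℕ)) * (-1 : ℤ) ^ ((v : ℕ) * (t : ℕ))) =
      if u = v then 2 else 0 := by
  fin_cases u <;> fin_cases v <;> simp [Fin.sum_univ_two]

theorem sum_sgn_mul_sgn (a a' : Char2 g) :
    ∑ c : Char2 g, sgn a c * sgn a' c = if a = a' then 2 ^ g else 0 := by
  have h1 : ∀ c : Char2 g, sgn a c * sgn a' c =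
      ∏ i, ((-1 : ℤ) ^ (((a i : Fin 2) : ℕ) * ((c i : Fin 2) : ℕ)) *
        (-1 : ℤ) ^ (((a' i : Fin 2) : ℕ) * ((c i : Fin 2) : ℕ))) := by
    intro c
    rw [sgn_eq_prod, sgn_eq_prod, Finset.prod_mul_distrib]
  simp_rw [h1]
  have h2 := Finset.prod_univ_sum (fun _ : Fin g => (Finset.univ : Finset (Fin 2)))
    (fun (i : Fin g) (t : Fin 2) => (-1 : ℤ) ^ (((a i : Fin 2) : ℕ) * (t : ℕ)) *
        (-1 : ℤ) ^ (((a' i : Fin 2) : ℕ) * (t : ℕ)))
  rw [Fintype.piFinset_univ] at h2
  rw [← h2]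
  simp_rw [fin2_char_sum]
  by_cases h : a = a'
  · subst h
    simp
  · rw [if_neg h]
    obtain ⟨i, hi⟩ := Function.ne_iff.mp h
    exact Finset.prod_eq_zero (Finset.mem_univ i) (if_neg hi)

theorem fin2_add_self (u : Fin 2) : u + u = 0 := by
  fin_cases u <;> rfl

theorem char2_add_self (b : Char2 g) : b + b = 0 := by
  funext i; exact fin2_add_self (b i)

/-- `S R = 1`. -/
theorem Smat_Rmat (ab cd : Char2 g × Char2 g) :
    ∑ i : Char2 g × Char2 g, Smat (ab, i) * Rmat (i, cd) = if ab = cd then 1 else 0 := by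
  obtain ⟨a, b⟩ := ab
  obtain ⟨a', b'⟩ := cd
  rw [Fintype.sum_prod_type]
  simp only [Smat, Rmat]
  rw [Finset.sum_eq_single (a + b)]
  · simp only [if_true]
    by_cases h1 : a' = a + b + b'
    · simp only [if_pos h1]
      have h2 : ∑ c : Char2 g, ((sgn a c : ℤ) : ℚ) / 2 ^ g * ((sgn a' c : ℤ) : ℚ) =
          ((∑ c : Char2 g, sgn a c * sgn a' c : ℤ) : ℚ) / 2 ^ g := by
        push_cast
        rw [Finset.sum_div]
        exact Finset.sum_congr rfl fun c _ => by ring
      rw [h2, sum_sgn_mul_sgn]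
      by_cases h3 : a = a'
      · subst h3
        have hb : b = b' := by
          have h4 : b + b' = 0 := by
            have : a + (b + b') = a + 0 := by rw [add_zero, ← add_assoc]; exact h1.symm
            exact add_left_cancel this
          have h5 : b + b' + b' = b' := by rw [h4, zero_add]
          rw [add_assoc, char2_add_self, add_zero] at h5
          exact h5
        subst hb
        simp
      · rw [if_neg h3]
        have : ¬ ((a, b) = (a', b')) := fun h => h3 (Prod.ext_iff.mp h).1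
        rw [if_neg this]; simp
    · simp only [if_neg h1, mul_zero, Finset.sum_const_zero]
      have : ¬ ((a, b) = (a', b')) := by
        intro h
        obtain ⟨rfl, rfl⟩ := Prod.ext_iff.mp h
        apply h1
        rw [add_assoc, char2_add_self, add_zero]
      rw [if_neg this]
  · intro s _ hs
    refine Finset.sum_eq_zero fun c _ => ?_
    rw [if_neg hs, zero_mul]
  · intro h; exact absurd (Finset.mem_univ _) h

end Fermat.Agent.M17.Theta1
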