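/-
M17 (helper1): **the analytic theta data of a point of the Siegel half space**, in the literal shape
consumed by helper9's `FiniteFibres9.AnalyticThetaData` / `ThetaGlue9.ofAnalytic`:

* `kap_ne_zero`, `Phi_ne_zero` : the level 2 and level 4 coordinate vectors never vanish;
* `thetaData τ : AnalyticThetaData (Fin g → ℂ) (Char2 g × Char2 g) (Char2 g)`;
* `latticeSubgroup τ` (`ℤ^g + Ω ℤ^g` as an `AddSubgroup`), automorphy of `kap`, `Phi` under it;
* `sub_mem_lattice_of_Phi_eq` : **(INJ)** `Φ z' = c • Φ z → z' - z ∈ ℤ^g + Ω ℤ^g`.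
-/
import Mathlib
import Fermat.Agent.M17.ThetaLevel1
import Fermat.Agent.M17.FiniteFibres9
import Fermat.Agent.M17.ThetaGlue9

set_option autoImplicit false

namespace Fermat.Agent.M17.Theta1

open Complex Real Matrix
open Fermat.Agent.M17.FiniteFibres9

variable {g : ℕ}

/-! ### non-vanishing of the coordinate vectors -/

/-- the level 2 coordinate vector never vanishes. -/
theorem kap_ne_zero (τ : Siegel g) (z : Fin g → ℂ) : kap τ z ≠ 0 := by
  intro h0
  have hmul : ∀ w : Fin g → ℂ, thetaA τ 0 (z + w) * thetaA τ 0 (z - w) = 0 := by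
    intro w
    rw [theta_mul_theta, h0]
    simp
  have hd1 : Differentiable ℂ fun w : Fin g → ℂ => thetaA τ 0 (z + w) :=
    (differentiable_thetaA τ 0).comp (differentiable_id.const_add z)
  have hd2 : Differentiable ℂ fun w : Fin g → ℂ => thetaA τ 0 (z - w) :=
    (differentiable_thetaA τ 0).comp (differentiable_id.const_sub z)
  obtain ⟨u, hu⟩ := exists_thetaA_ne_zero' τ 0
  rcases eq_zero_or_eq_zero_of_mul_eq_zero hd1 hd2 hmul with h | h
  · apply hu
    have := h (u - z)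
    simpa using this
  · apply hu
    have := h (z - u)
    simpa using this

/-- the structure without the `Φ`-nonvanishing (which is derived from it). -/
noncomputable def thetaData (τ : Siegel g) :
    AnalyticThetaData (Fin g → ℂ) (Char2 g × Char2 g) (Char2 g) where
  Φ := Phi τ
  κ := kap τ
  κ_diff := differentiable_kap τ
  κ_ne_zero := kap_ne_zero τ
  R := Rmat
  S := Smat
  SR := Smat_Rmat
  law := law τ
  θ := thetaA τ 0
  θ_diff := differentiable_thetaA τ 0
  θ_ne := exists_thetaA_ne_zero' τ 0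
  i₀ := (0, 0)
  Φ_i₀ := Phi_zero_zero τ

/-- the level 4 coordinate vector never vanishes. -/
theorem Phi_ne_zero (τ : Siegel g) (z : Fin g → ℂ) : Phi τ z ≠ 0 := by
  intro h0
  apply kap_ne_zero τ z
  funext a
  have h := (thetaData τ).law_inv z 0 (a, a)
  have hΦ : (thetaData τ).Φ z = 0 := h0
  simp only [hΦ, Pi.zero_apply, zero_mul, mul_zero, Finset.sum_const_zero, add_zero,
    sub_zero] at h
  have h2 : kap τ z a * kap τ z a = 0 := h.symm
  simpa using mul_self_eq_zero.mp h2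

/-! ### the lattice and the automorphy factors -/

theorem ofRealVec_intVec (m : Fin g → ℤ) :
    Siegel.ofRealVec (intVec m) = fun j => (m j : ℂ) := by
  funext j; simp [Siegel.ofRealVec, intVec]

/-- the lattice `ℤ^g + Ω ℤ^g`. -/
def latticeSubgroup (τ : Siegel g) : AddSubgroup (Fin g → ℂ) where
  carrier := latticeSet τ.Ω
  zero_mem' := ⟨0, 0, by
    have h0 : (fun j : Fin g => (((0 : Fin g → ℤ) j : ℤ) : ℂ)) = 0 := by funext j; simp
    rw [h0, mulVec_zero, add_zero]⟩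
  add_mem' := by
    rintro _ _ ⟨m, n, rfl⟩ ⟨m', n', rfl⟩
    refine ⟨m + m', n + n', ?_⟩
    have h1 : (fun j => ((m + m') j : ℂ)) = (fun j => (m j : ℂ)) + fun j => (m' j : ℂ) := by
      funext j; simp
    have h2 : (fun j => ((n + n') j : ℂ)) = (fun j => (n j : ℂ)) + fun j => (n' j : ℂ) := by
      funext j; simp
    rw [h1, h2, mulVec_add]; abel
  neg_mem' := by
    rintro _ ⟨m, n, rfl⟩
    refine ⟨-m, -n, ?_⟩
    have h1 : (fun j => ((-m) j : ℂ)) = -fun j => (m j : ℂ) := by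
      funext j; simp
    have h2 : (fun j => ((-n) j : ℂ)) = -fun j => (n j : ℂ) := by
      funext j; simp
    rw [h1, h2, mulVec_neg]; abel

theorem mem_latticeSubgroup (τ : Siegel g) (l : Fin g → ℂ) :
    l ∈ latticeSubgroup τ ↔ ∃ m n : Fin g → ℤ,
      l = Siegel.ofRealVec (intVec m) + τ.Ω *ᵥ Siegel.ofRealVec (intVec n) := by
  simp only [ofRealVec_intVec]
  rfl

theorem exp_halfVec_two (s : Char2 g) (m : Fin g → ℤ) :
    cexp (2 * π * I * ((halfVec s ⬝ᵥ intVec ((2 : ℤ) • m) : ℝ) : ℂ)) = 1 := by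
  have h : ((halfVec s ⬝ᵥ intVec ((2 : ℤ) • m) : ℝ) : ℂ) = ((natVec s ⬝ᵥ m : ℤ) : ℂ) := by
    simp only [dotProduct, halfVec, intVec, natVec, Pi.smul_apply]
    push_cast
    refine Finset.sum_congr rfl fun i _ => ?_
    rw [smul_eq_mul]
    push_cast
    ring
  rw [h, show 2 * (π : ℂ) * I * ((natVec s ⬝ᵥ m : ℤ) : ℂ) =
    ((natVec s ⬝ᵥ m : ℤ) : ℂ) * (2 * π * I) by ring]
  exact Complex.exp_int_mul_two_pi_mul_I _

theorem two_smul_lattice (τ : Siegel g) (m n : Fin g → ℤ) :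
    (2 : ℂ) • (Siegel.ofRealVec (intVec m) + τ.Ω *ᵥ Siegel.ofRealVec (intVec n)) =
      Siegel.ofRealVec (intVec ((2 : ℤ) • m)) + τ.Ω *ᵥ Siegel.ofRealVec (intVec ((2 : ℤ) • n)) := by
  have h : ∀ k : Fin g → ℤ, Siegel.ofRealVec (intVec ((2 : ℤ) • k)) =
      (2 : ℂ) • Siegel.ofRealVec (intVec k) := by
    intro k; funext j; simp [Siegel.ofRealVec, intVec]
  rw [h, h, mulVec_smul, smul_add]

/-- automorphy of the level 4 coordinates: a common nowhere vanishing factor. -/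
theorem Phi_add_lattice (τ : Siegel g) (m n : Fin g → ℤ) (z : Fin g → ℂ) :
    Phi τ (z + (Siegel.ofRealVec (intVec m) + τ.Ω *ᵥ Siegel.ofRealVec (intVec n))) =
      cexp (-(π * I * τ.Q (Siegel.ofRealVec (intVec ((2 : ℤ) • n)))) -
        2 * π * I * (Siegel.ofRealVec (intVec ((2 : ℤ) • n)) ⬝ᵥ ((2 : ℂ) • z))) • Phi τ z := by
  funext sc
  obtain ⟨s, c⟩ := sc
  simp only [Pi.smul_apply, smul_eq_mul]
  unfold Phi
  simp only
  rw [smul_add, two_smul_lattice, ← add_assoc, thetaAB_add_lattice, mul_sub, Complex.exp_sub,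
    exp_halfVec_two, exp_halfVec_two, div_one, one_mul]

/-- automorphy of the level 2 coordinates. -/
theorem kap_add_lattice (τ : Siegel g) (m n : Fin g → ℤ) (z : Fin g → ℂ) :
    kap τ (z + (Siegel.ofRealVec (intVec m) + τ.Ω *ᵥ Siegel.ofRealVec (intVec n))) =
      cexp (-(π * I * τ.double.Q (Siegel.ofRealVec (intVec n))) -
        2 * π * I * (Siegel.ofRealVec (intVec n) ⬝ᵥ
          ((2 : ℂ) • z + Siegel.ofRealVec (intVec ((2 : ℤ) • m))))) • kap τ z := by
  funext s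
  simp only [Pi.smul_apply, smul_eq_mul]
  unfold kap
  have h1 : (2 : ℂ) • (z + (Siegel.ofRealVec (intVec m) + τ.Ω *ᵥ Siegel.ofRealVec (intVec n))) =
      (2 : ℂ) • z + Siegel.ofRealVec (intVec ((2 : ℤ) • m)) +
        τ.double.Ω *ᵥ Siegel.ofRealVec (intVec n) := by
    have h : Siegel.ofRealVec (intVec ((2 : ℤ) • m)) = (2 : ℂ) • Siegel.ofRealVec (intVec m) := by
      funext j; simp [Siegel.ofRealVec, intVec]
    have h' : τ.double.Ω = (2 : ℂ) • τ.Ω := rfl
    rw [h, h', smul_mulVec, smul_add, smul_add, add_assoc]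
  rw [h1, thetaA_add_mulVec_int, thetaA_add_int, exp_halfVec_two, one_mul]

theorem kap_automorphy (τ : Siegel g) :
    ∀ l ∈ latticeSubgroup τ, ∀ z, ∃ c : ℂ, c ≠ 0 ∧ kap τ (z + l) = c • kap τ z := by
  intro l hl z
  obtain ⟨m, n, rfl⟩ := (mem_latticeSubgroup τ l).mp hl
  exact ⟨_, Complex.exp_ne_zero _, kap_add_lattice τ m n z⟩

theorem Phi_automorphy (τ : Siegel g) :
    ∀ l ∈ latticeSubgroup τ, ∀ z, ∃ c : ℂ, c ≠ 0 ∧ Phi τ (z + l) = c • Phi τ z := by
  intro l hl z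
  obtain ⟨m, n, rfl⟩ := (mem_latticeSubgroup τ l).mp hl
  exact ⟨_, Complex.exp_ne_zero _, Phi_add_lattice τ m n z⟩

/-! ### (INJ) -/

theorem thetaA_zero_add_int (τ : Siegel g) (m : Fin g → ℤ) (u : Fin g → ℂ) :
    thetaA τ 0 (u + fun j => (m j : ℂ)) = 1 * thetaA τ 0 u := by
  rw [← ofRealVec_intVec, thetaA_add_int]
  simp

theorem thetaA_zero_add_mulVec (τ : Siegel g) (n : Fin g → ℤ) (u : Fin g → ℂ) :
    thetaA τ 0 (u + τ.Ω *ᵥ fun j => (n j : ℂ)) =
      cexp (-(π * I * τ.Q (Siegel.ofRealVec (intVec n)))) *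
        cexp (-(2 * π * I) * ∑ j, (n j : ℂ) * u j) * thetaA τ 0 u := by
  rw [← ofRealVec_intVec, thetaA_add_mulVec_int, ← Complex.exp_add]
  congr 2
  simp only [dotProduct, ofRealVec_intVec]
  ring

/-- **(INJ)**: the level 4 map `z ↦ [Φ z]` is injective modulo `ℤ^g + Ω ℤ^g`. -/
theorem sub_mem_lattice_of_Phi_eq (τ : Siegel g) {z z' : Fin g → ℂ} {c : ℂ}
    (h : Phi τ z' = c • Phi τ z) : z' - z ∈ latticeSubgroup τ :=
  (thetaData τ).sub_mem_latticeSet τ.Ω τ.symm.eq (fun _ => 1)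
    (fun n => cexp (-(π * I * τ.Q (Siegel.ofRealVec (intVec n)))))
    (thetaA_zero_add_int τ) (thetaA_zero_add_mulVec τ) h

/-- the `hINJ` hypothesis of `ThetaGlue9.finite_fibres_ofAnalytic`, literally. -/
theorem thetaData_INJ (τ : Siegel g) :
    ∀ (z z' : Fin g → ℂ) (c : ℂ), (thetaData τ).Φ z' = c • (thetaData τ).Φ z →
      z' - z ∈ latticeSubgroup τ :=
  fun _ _ _ h => sub_mem_lattice_of_Phi_eq τ h

end Fermat.Agent.M17.Theta1
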