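/-
M17 (helper1): **the lattice `ℤ^g + Ω ℤ^g` is cocompact** in `ℂ^g`:

* `Siegel.Y_mulVec_surjective` : `Im Ω` is invertible;
* `exists_real_decomp` : every `z ∈ ℂ^g` is `x + Ω r` with `x, r ∈ ℝ^g`;
* `fundBox τ` : the image of `[-1/2,1/2]^g × [-1/2,1/2]^g` under `(x, r) ↦ x + Ω r`; it is bounded and
  every `z` has a lattice translate in it (`exists_add_mem_fundBox`);
* `Phi_linearIndependent` : the `4^g` level 4 coordinates are linearly independent functions;
* `kap_linearIndependent` : so are the `2^g` second order theta functions.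
-/
import Mathlib
import Fermat.Agent.M17.ThetaData1

set_option autoImplicit false

namespace Fermat.Agent.M17.Theta1

open Complex Real Matrix

variable {g : ℕ}

namespace Siegel

theorem Y_mulVec_injective (τ : Siegel g) : Function.Injective τ.Y.mulVec := by
  intro v w h
  by_contra hne
  have hsub : v - w ≠ 0 := sub_ne_zero.mpr hne
  have hpos := τ.pos (v - w) hsub
  have h0 : τ.Y *ᵥ (v - w) = 0 := by rw [mulVec_sub, h, sub_self]
  have : (v - w) ⬝ᵥ ((τ.Ω.map Complex.im) *ᵥ (v - w)) = 0 := by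
    show (v - w) ⬝ᵥ (τ.Y *ᵥ (v - w)) = 0
    rw [h0, dotProduct_zero]
  linarith

theorem Y_isUnit (τ : Siegel g) : IsUnit τ.Y :=
  Matrix.mulVec_injective_iff_isUnit.mp τ.Y_mulVec_injective

theorem Y_mulVec_surjective (τ : Siegel g) : Function.Surjective τ.Y.mulVec :=
  Matrix.mulVec_surjective_iff_isUnit.mpr τ.Y_isUnit

end Siegel

/-- the real part of a complex vector. -/
def reVec (z : Fin g → ℂ) : Fin g → ℝ := fun i => (z i).re

theorem mulVec_ofRealVec_re (τ : Siegel g) (r : Fin g → ℝ) (i : Fin g) :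
    ((τ.Ω *ᵥ Siegel.ofRealVec r) i).re = (τ.X *ᵥ r) i := by
  simp only [mulVec, dotProduct, Siegel.ofRealVec, Siegel.X, Complex.re_sum, Matrix.map_apply,
    Complex.re_mul_ofReal]

theorem mulVec_ofRealVec_im (τ : Siegel g) (r : Fin g → ℝ) (i : Fin g) :
    ((τ.Ω *ᵥ Siegel.ofRealVec r) i).im = (τ.Y *ᵥ r) i := by
  simp only [mulVec, dotProduct, Siegel.ofRealVec, Siegel.Y, Complex.im_sum, Matrix.map_apply,
    Complex.im_mul_ofReal]

/-- `ℂ^g = ℝ^g ⊕ Ω ℝ^g`. -/
theorem exists_real_decomp (τ : Siegel g) (z : Fin g → ℂ) :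
    ∃ x r : Fin g → ℝ, z = Siegel.ofRealVec x + τ.Ω *ᵥ Siegel.ofRealVec r := by
  obtain ⟨r, hr⟩ := τ.Y_mulVec_surjective (imVec z)
  refine ⟨fun i => (z i).re - (τ.X *ᵥ r) i, r, ?_⟩
  funext i
  apply Complex.ext
  · rw [Pi.add_apply, Complex.add_re, mulVec_ofRealVec_re]
    simp [Siegel.ofRealVec]
  · rw [Pi.add_apply, Complex.add_im, mulVec_ofRealVec_im, hr]
    simp [Siegel.ofRealVec, imVec]

/-- the parametrisation `(x, r) ↦ x + Ω r`. -/
noncomputable def realParam (τ : Siegel g) (p : (Fin g → ℝ) × (Fin g → ℝ)) : Fin g → ℂ :=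
  Siegel.ofRealVec p.1 + τ.Ω *ᵥ Siegel.ofRealVec p.2

theorem continuous_ofRealVec : Continuous (Siegel.ofRealVec (g := g)) := by
  unfold Siegel.ofRealVec
  exact continuous_pi fun i => Complex.continuous_ofReal.comp (continuous_apply i)

theorem continuous_realParam (τ : Siegel g) : Continuous (realParam τ) := by
  unfold realParam
  exact (continuous_ofRealVec.comp continuous_fst).add
    (Continuous.matrix_mulVec continuous_const (continuous_ofRealVec.comp continuous_snd))

/-- the compact fundamental box. -/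
noncomputable def fundBox (τ : Siegel g) : Set (Fin g → ℂ) :=
  realParam τ '' (Metric.closedBall (0 : Fin g → ℝ) (1 / 2) ×ˢ Metric.closedBall (0 : Fin g → ℝ) (1 / 2))

theorem isCompact_fundBox (τ : Siegel g) : IsCompact (fundBox τ) :=
  ((isCompact_closedBall _ _).prod (isCompact_closedBall _ _)).image (continuous_realParam τ)

theorem isBounded_fundBox (τ : Siegel g) : Bornology.IsBounded (fundBox τ) :=
  (isCompact_fundBox τ).isBounded

/-- rounding a real vector. -/
noncomputable def roundVec (x : Fin g → ℝ) : Fin g → ℤ := fun i => round (x i)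

theorem sub_roundVec_mem (x : Fin g → ℝ) :
    x - intVec (roundVec x) ∈ Metric.closedBall (0 : Fin g → ℝ) (1 / 2) := by
  rw [mem_closedBall_zero_iff, pi_norm_le_iff_of_nonneg (by norm_num)]
  intro i
  rw [Real.norm_eq_abs]
  exact abs_sub_round (x i)

/-- every point has a lattice translate in the fundamental box. -/
theorem exists_add_mem_fundBox (τ : Siegel g) (z : Fin g → ℂ) :
    ∃ l ∈ latticeSubgroup τ, z + l ∈ fundBox τ := by
  obtain ⟨x, r, rfl⟩ := exists_real_decomp τ z
  refine ⟨-(Siegel.ofRealVec (intVec (roundVec x)) + τ.Ω *ᵥ Siegel.ofRealVec (intVec (roundVec r))),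
    (latticeSubgroup τ).neg_mem ((mem_latticeSubgroup τ _).mpr ⟨_, _, rfl⟩), ?_⟩
  refine ⟨(x - intVec (roundVec x), r - intVec (roundVec r)),
    ⟨sub_roundVec_mem x, sub_roundVec_mem r⟩, ?_⟩
  unfold realParam
  simp only
  have h1 : ∀ v w : Fin g → ℝ, Siegel.ofRealVec (v - w) = Siegel.ofRealVec v - Siegel.ofRealVec w := by
    intro v w; funext i; simp [Siegel.ofRealVec]
  rw [h1, h1, mulVec_sub]
  abel

/-! ### linear independence of the level 4 coordinates -/

theorem thetaAB_half_add_int (τ : Siegel g) (s c p : Char2 g) (w : Fin g → ℂ) :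
    thetaAB τ (halfVec s) (halfVec c) (w + Siegel.ofRealVec (intVec (natVec p))) =
      ((sgn s p : ℤ) : ℂ) * thetaAB τ (halfVec s) (halfVec c) w := by
  rw [thetaAB_add_real, thetaAB_add_intChar_right, exp_halfVec_natVec]

theorem exp_natVec_halfVec (q c : Char2 g) :
    cexp (-(2 * π * I * ((intVec (natVec q) ⬝ᵥ halfVec c : ℝ) : ℂ))) = ((sgn c q : ℤ) : ℂ) := by
  rw [dotProduct_comm, Complex.exp_neg, exp_halfVec_natVec]
  have h : ((sgn c q : ℤ) : ℂ) * ((sgn c q : ℤ) : ℂ) = 1 := by
    unfold sgn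
    push_cast
    rw [← pow_add, ← two_mul, pow_mul]
    simp
  exact inv_eq_of_mul_eq_one_left h

theorem thetaAB_half_add_mulVec (τ : Siegel g) (s c q : Char2 g) (w : Fin g → ℂ) :
    thetaAB τ (halfVec s) (halfVec c) (w + τ.Ω *ᵥ Siegel.ofRealVec (intVec (natVec q))) =
      cexp (-(π * I * τ.Q (Siegel.ofRealVec (intVec (natVec q)))) -
        2 * π * I * (Siegel.ofRealVec (intVec (natVec q)) ⬝ᵥ w)) *
      (((sgn c q : ℤ) : ℂ) * thetaAB τ (halfVec s) (halfVec c) w) := by
  rw [thetaAB_add_mulVec, thetaAB_add_intChar_left, sub_eq_add_neg _ (2 * π * I * _),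
    Complex.exp_add, ← mul_neg, ← neg_mul, ← neg_mul] 
  rw [show (-(2 * (π : ℂ)) * I * ((intVec (natVec q) ⬝ᵥ halfVec c : ℝ) : ℂ)) =
    -(2 * π * I * ((intVec (natVec q) ⬝ᵥ halfVec c : ℝ) : ℂ)) by ring, exp_natVec_halfVec]
  ring

/-- character sums isolate one first characteristic. -/
theorem sum_sgn_mul_sum (f : Char2 g → ℂ) (s₀ : Char2 g) :
    ∑ p : Char2 g, ((sgn s₀ p : ℤ) : ℂ) * ∑ s : Char2 g, ((sgn s p : ℤ) : ℂ) * f s =
      (2 : ℂ) ^ g * f s₀ := by
  simp_rw [Finset.mul_sum]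
  rw [Finset.sum_comm]
  have h : ∀ s : Char2 g, ∑ p : Char2 g, ((sgn s₀ p : ℤ) : ℂ) * (((sgn s p : ℤ) : ℂ) * f s) =
      ((∑ p : Char2 g, sgn s₀ p * sgn s p : ℤ) : ℂ) * f s := by
    intro s
    push_cast
    rw [Finset.sum_mul]
    exact Finset.sum_congr rfl fun p _ => by ring
  simp_rw [h, sum_sgn_mul_sgn]
  rw [Finset.sum_eq_single s₀]
  · simp
  · intro s _ hs
    rw [if_neg (Ne.symm hs)]; simp
  · intro h; exact absurd (Finset.mem_univ _) h

theorem sgn_comm (s c : Char2 g) : sgn s c = sgn c s := by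
  unfold sgn pair
  congr 1
  exact Finset.sum_congr rfl fun i _ => mul_comm _ _

/-- **linear independence** of the functions `θ[s/2, c/2]`. -/
theorem thetaAB_half_linearIndependent (τ : Siegel g) (ℓ : Char2 g × Char2 g → ℂ)
    (h : ∀ w : Fin g → ℂ, ∑ sc : Char2 g × Char2 g,
      ℓ sc * thetaAB τ (halfVec sc.1) (halfVec sc.2) w = 0) : ℓ = 0 := by
  funext sc
  obtain ⟨s₀, c₀⟩ := sc
  -- step 1: isolate `s₀` by integer translations
  have h1 : ∀ w : Fin g → ℂ, ∑ c : Char2 g, ℓ (s₀, c) * thetaAB τ (halfVec s₀) (halfVec c) w = 0 := by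
    intro w
    have hp : ∀ p : Char2 g, ∑ s : Char2 g, ((sgn s p : ℤ) : ℂ) *
        ∑ c : Char2 g, ℓ (s, c) * thetaAB τ (halfVec s) (halfVec c) w = 0 := by
      intro p
      have := h (w + Siegel.ofRealVec (intVec (natVec p)))
      rw [Fintype.sum_prod_type] at this
      simp only [thetaAB_half_add_int] at this
      rw [← this]
      refine Finset.sum_congr rfl fun s _ => ?_
      rw [Finset.mul_sum]
      exact Finset.sum_congr rfl fun c _ => by ring
    have := sum_sgn_mul_sum (fun s => ∑ c : Char2 g, ℓ (s, c) * thetaAB τ (halfVec s) (halfVec c) w) s₀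
    simp only [hp, mul_zero, Finset.sum_const_zero] at this
    have h2 : (2 : ℂ) ^ g ≠ 0 := pow_ne_zero _ two_ne_zero
    exact (mul_eq_zero.mp this.symm).resolve_left h2
  -- step 2: isolate `c₀` by translations in `Ω ℤ^g`
  have h2 : ∀ w : Fin g → ℂ, ℓ (s₀, c₀) * thetaAB τ (halfVec s₀) (halfVec c₀) w = 0 := by
    intro w
    have hq : ∀ q : Char2 g, ∑ c : Char2 g, ((sgn c q : ℤ) : ℂ) *
        (ℓ (s₀, c) * thetaAB τ (halfVec s₀) (halfVec c) w) = 0 := by
      intro q
      have := h1 (w + τ.Ω *ᵥ Siegel.ofRealVec (intVec (natVec q)))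
      simp only [thetaAB_half_add_mulVec] at this
      have h3 : cexp (-(π * I * τ.Q (Siegel.ofRealVec (intVec (natVec q)))) -
          2 * π * I * (Siegel.ofRealVec (intVec (natVec q)) ⬝ᵥ w)) *
          ∑ c : Char2 g, ((sgn c q : ℤ) : ℂ) *
            (ℓ (s₀, c) * thetaAB τ (halfVec s₀) (halfVec c) w) = 0 := by
        rw [← this, Finset.mul_sum]
        exact Finset.sum_congr rfl fun c _ => by ring
      exact (mul_eq_zero.mp h3).resolve_left (Complex.exp_ne_zero _)
    have := sum_sgn_mul_sum (fun c => ℓ (s₀, c) * thetaAB τ (halfVec s₀) (halfVec c) w) c₀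
    simp only [hq, mul_zero, Finset.sum_const_zero] at this
    have h2 : (2 : ℂ) ^ g ≠ 0 := pow_ne_zero _ two_ne_zero
    exact (mul_eq_zero.mp this.symm).resolve_left h2
  obtain ⟨w, hw⟩ := exists_thetaAB_ne_zero τ (halfVec s₀) (halfVec c₀)
  exact (mul_eq_zero.mp (h2 w)).resolve_right hw

/-- **linear independence** of the level 4 coordinates (the `hspan` of
`ThetaRigidity9.rational_matrix_of_generic` for `Ψ = Φ`). -/
theorem Phi_linearIndependent (τ : Siegel g) (ℓ : Char2 g × Char2 g → ℂ)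
    (h : ∀ z : Fin g → ℂ, ∑ sc : Char2 g × Char2 g, ℓ sc * Phi τ z sc = 0) : ℓ = 0 := by
  refine thetaAB_half_linearIndependent τ ℓ fun w => ?_
  have := h ((2 : ℂ)⁻¹ • w)
  unfold Phi at this
  simpa [smul_smul] using this

/-- **linear independence** of the `2^g` second order theta functions `κ_e`. -/
theorem kap_linearIndependent (τ : Siegel g) (ℓ : Char2 g → ℂ)
    (h : ∀ z : Fin g → ℂ, ∑ e : Char2 g, ℓ e * kap τ z e = 0) : ℓ = 0 := by
  classical
  have hw : ∀ w : Fin g → ℂ, ∑ e : Char2 g, ℓ e * thetaA τ.double (halfVec e) w = 0 := by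
    intro w
    have := h ((2 : ℂ)⁻¹ • w)
    unfold kap at this
    simpa [smul_smul] using this
  have key := thetaAB_half_linearIndependent τ.double
    (fun sc : Char2 g × Char2 g => if sc.2 = 0 then ℓ sc.1 else 0) (fun w => by
      rw [Fintype.sum_prod_type]
      refine Eq.trans ?_ (hw w)
      refine Finset.sum_congr rfl fun s _ => ?_
      rw [Finset.sum_eq_single (0 : Char2 g)]
      · simp only [if_true, halfVec_zero, thetaAB_zero_right]
      · intro c _ hc
        simp only [if_neg hc, zero_mul]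
      · intro h'; exact absurd (Finset.mem_univ _) h')
  funext e
  have := congrFun key (e, 0)
  simpa using this

end Fermat.Agent.M17.Theta1
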