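/-
M17 (target S17), block [RT], leaf (Z-SUM) (helper4): **the Abel sum of the zero divisors of the theta
pull-backs, difference form.**

`z_sum_diff : AJ.iota [Z e - Z e'] = e - e'` for `Fe e, Fe e' ≠ 0`, from `AJData.iota_of_automorphic`
applied to `F = F_e / F_e' · exp(-2πi ∑ β_k A_k)`, `e - e' = α + Om β`.

Imported by no statement.
-/
import Fermat.Agent.M17.FreeOne4
import Fermat.Agent.M17.CuspLog4
import Fermat.Agent.M17.ThetaCover1

set_option autoImplicit false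
set_option linter.unusedSectionVars false

open UpperHalfPlane AlgebraicCurve Filter Topology Matrix
open scoped Manifold MatrixGroups
open CongruenceSubgroup

noncomputable section

namespace Fermat.Agent.M17.AbelSum4

open Fermat.Agent.X0 Fermat.Agent.ES.KUM Fermat.Agent.X0.SurjPoint
open Fermat.Agent.M17.Interfaces7 Fermat.Agent.M15.DivLogMer1 ModularCurve
open Fermat.Agent.M17.AutDiv4 Fermat.Agent.M17.Dict4 Fermat.Agent.M17.AutAlg4
open Fermat.Agent.M17.Theta1 Fermat.Agent.M17.FreeOne4 Fermat.Agent.M17.CuspLog4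
open Fermat.Agent.M15.DivShift1 Fermat.Agent.M15.DivAut1 Fermat.Agent.M15.DivLogPrim1

local notation "ι" => algebraMap HolH MerH

variable {N : ℕ} [NeZero N] {g : ℕ} (L : LatData N g)

/-! ### the linear form `∑ c_k A_k` as a holomorphic function -/

/-- the coordinate `A_k` as an element of `HolH`. -/
def AH (k : Fin g) : HolH := ⟨fun τ : ℍ => L.A τ k, mdiff_A_coord L k⟩

/-- `∑_k c_k A_k`. -/
def linH (c : Fin g → ℂ) : HolH := ∑ k, algebraMap ℂ HolH (c k) * AH L k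

theorem linH_apply (c : Fin g → ℂ) (τ : ℍ) :
    ((linH L c : HolH) : ℍ → ℂ) τ = ∑ k, c k * L.A τ k := by
  have := map_sum (evalAt τ) (fun k => algebraMap ℂ HolH (c k) * AH L k) Finset.univ
  rw [evalAt_apply] at this
  unfold linH
  rw [this]
  rfl

theorem linH_smul (c : Fin g → ℂ) (γ : Gamma0 N) (τ : ℍ) :
    ((linH L c : HolH) : ℍ → ℂ) ((γ : SL(2, ℤ)) • τ) = ((linH L c : HolH) : ℍ → ℂ) τ +
      ∑ k, c k * ((((L.n k : Additive (Gamma0 N) →+ ℤ) (Additive.ofMul γ) : ℤ) : ℂ) +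
        ∑ j, L.Om j k * (((L.m j : Additive (Gamma0 N) →+ ℤ) (Additive.ofMul γ) : ℤ) : ℂ)) := by
  rw [linH_apply, linH_apply, A_smul' L γ τ, ← Finset.sum_add_distrib]
  refine Finset.sum_congr rfl fun k _ => ?_
  rw [Pi.add_apply, mul_add]

theorem tendsto_linH_cusp (c : Fin g → ℂ) (δ : SL(2, ℤ)) :
    ∃ ℓ : ℂ, Tendsto (fun τ : ℍ => ((linH L c : HolH) : ℍ → ℂ) (δ • τ)) atImInfty (𝓝 ℓ) := by
  obtain ⟨Ac, hAc⟩ := exists_tendsto_A_cusp L δ
  refine ⟨∑ k, c k * Ac k, ?_⟩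
  simp_rw [linH_apply]
  refine tendsto_finsetSum _ fun k _ => ?_
  exact ((tendsto_pi_nhds.mp hAc) k).const_mul (c k)

/-- `exp (∑ c_k A_k)` has trivial automorphic divisor. -/
theorem isAutDiv_expH_linH (c : Fin g → ℂ) : IsAutDiv N (ι (expH (linH L c))) 0 := by
  refine (isAutDiv_iff N _ _).mpr ⟨iota_ne_zero (expH_ne_zero _), fun z => ?_, fun δ => ?_⟩
  · rw [ordMer_expH, Finsupp.zero_apply, zero_mul]
  · rw [Finsupp.zero_apply, zero_mul]
    obtain ⟨ℓ, hℓ⟩ := tendsto_linH_cusp L c δ⁻¹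
    refine cuspOrdIs_iota_of_tendsto N (Complex.exp_ne_zero ℓ) ?_
    have h1 : Tendsto (fun τ : ℍ => Complex.exp (((linH L c : HolH) : ℍ → ℂ) (δ⁻¹ • τ))) atImInfty
        (𝓝 (Complex.exp ℓ)) := (Complex.continuous_exp.tendsto ℓ).comp hℓ
    refine h1.congr fun τ => ?_
    rw [Efac_zero, mul_one, expH_apply]

/-! ### the automorphy of `F_e / F_e' · exp(-2πi β·A)` -/

/-- the character `χ_δ` in explicit coordinates. -/
theorem chiOf_eq (α β : Fin g → ℝ) (γ : Gamma0 N) :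
    chiOf N L α β γ = Complex.exp (2 * Real.pi * Complex.I *
      ∑ j, ((((L.m j : Additive (Gamma0 N) →+ ℤ) (Additive.ofMul γ) : ℤ) : ℂ) * α j
        - (((L.n j : Additive (Gamma0 N) →+ ℤ) (Additive.ofMul γ) : ℤ) : ℂ) * β j)) := rfl

theorem fac_div (γ : Gamma0 N) (e e' : Fin g → ℂ) (τ : ℍ) :
    fac L γ e τ = Complex.exp (2 * Real.pi * Complex.I *
      (Siegel.ofRealVec (intVec (mVec L γ)) ⬝ᵥ (e - e'))) * fac L γ e' τ := by
  unfold fac
  rw [← Complex.exp_add]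
  congr 1
  have : L.A τ - e' = (L.A τ - e) + (e - e') := by abel
  rw [this, dotProduct_add]
  ring

theorem key_exponent (α β : Fin g → ℝ) (γ : Gamma0 N) (d : Fin g → ℂ)
    (hd : d = fun k => (α k : ℂ) + ∑ j, L.Om j k * (β j : ℂ)) :
    2 * Real.pi * Complex.I * (Siegel.ofRealVec (intVec (mVec L γ)) ⬝ᵥ d) +
      ∑ k, (-(2 * Real.pi * Complex.I) * (β k : ℂ)) *
        ((((L.n k : Additive (Gamma0 N) →+ ℤ) (Additive.ofMul γ) : ℤ) : ℂ) +
          ∑ j, L.Om j k * (((L.m j : Additive (Gamma0 N) →+ ℤ) (Additive.ofMul γ) : ℤ) : ℂ)) =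
    2 * Real.pi * Complex.I *
      ∑ j, ((((L.m j : Additive (Gamma0 N) →+ ℤ) (Additive.ofMul γ) : ℤ) : ℂ) * α j
        - (((L.n j : Additive (Gamma0 N) →+ ℤ) (Additive.ofMul γ) : ℤ) : ℂ) * β j) := by
  set mm : Fin g → ℂ := fun j => (((L.m j : Additive (Gamma0 N) →+ ℤ) (Additive.ofMul γ) : ℤ) : ℂ)
    with hmm
  set nn : Fin g → ℂ := fun j => (((L.n j : Additive (Gamma0 N) →+ ℤ) (Additive.ofMul γ) : ℤ) : ℂ)
    with hnn
  have hmv : ∀ k, Siegel.ofRealVec (intVec (mVec L γ)) k = mm k := by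
    intro k
    simp [Siegel.ofRealVec, intVec, mVec, hmm]
  have hsymm : ∑ k, mm k * ∑ j, L.Om j k * (β j : ℂ) = ∑ k, (β k : ℂ) * ∑ j, L.Om j k * mm j := by
    simp_rw [Finset.mul_sum]
    rw [Finset.sum_comm]
    refine Finset.sum_congr rfl fun k _ => Finset.sum_congr rfl fun j _ => ?_
    have : L.Om k j = L.Om j k := L.om_symm k j
    rw [this]
    ring
  have h1 : Siegel.ofRealVec (intVec (mVec L γ)) ⬝ᵥ d =
      ∑ k, mm k * (α k : ℂ) + ∑ k, mm k * ∑ j, L.Om j k * (β j : ℂ) := by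
    rw [hd, dotProduct, ← Finset.sum_add_distrib]
    refine Finset.sum_congr rfl fun k _ => ?_
    rw [hmv k]
    ring
  rw [h1, hsymm]
  show 2 * Real.pi * Complex.I * (∑ k, mm k * (α k : ℂ) + ∑ k, (β k : ℂ) * ∑ j, L.Om j k * mm j) +
    ∑ k, (-(2 * Real.pi * Complex.I) * (β k : ℂ)) * (nn k + ∑ j, L.Om j k * mm j) =
    2 * Real.pi * Complex.I * ∑ j, (mm j * α j - nn j * β j)
  rw [Finset.mul_sum, mul_add, Finset.mul_sum, Finset.mul_sum, ← Finset.sum_add_distrib,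
    ← Finset.sum_add_distrib]
  refine Finset.sum_congr rfl fun k _ => ?_
  ring

/-- the function `F_e / F_e' · exp(-2πi ∑ β_k A_k)`. -/
def quotF (e e' : Fin g → ℂ) (β : Fin g → ℝ) : MerH :=
  ι (Fe L e) / ι (Fe L e') * ι (expH (linH L fun k => -(2 * Real.pi * Complex.I) * (β k : ℂ)))

theorem slMer_quotF (e e' : Fin g → ℂ) (he' : Fe L e' ≠ 0) (α β : Fin g → ℝ)
    (hd : e - e' = fun k => (α k : ℂ) + ∑ j, L.Om j k * (β j : ℂ)) (γ : Gamma0 N) :
    slMer (γ : SL(2, ℤ)) (quotF L e e' β) =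
      algebraMap HolH MerH (algebraMap ℂ HolH (chiOf N L α β γ)) * quotF L e e' β := by
  set c : Fin g → ℂ := fun k => -(2 * Real.pi * Complex.I) * (β k : ℂ) with hc
  have key : compSLHom (γ : SL(2, ℤ)) (Fe L e) * compSLHom (γ : SL(2, ℤ)) (expH (linH L c)) *
      Fe L e' = algebraMap ℂ HolH (chiOf N L α β γ) * (Fe L e * expH (linH L c)) *
        compSLHom (γ : SL(2, ℤ)) (Fe L e') := by
    apply Subtype.ext
    funext τ
    show (Fe L e : ℍ → ℂ) ((γ : SL(2, ℤ)) • τ) *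
        ((expH (linH L c) : HolH) : ℍ → ℂ) ((γ : SL(2, ℤ)) • τ) * (Fe L e' : ℍ → ℂ) τ =
      chiOf N L α β γ * ((Fe L e : ℍ → ℂ) τ * ((expH (linH L c) : HolH) : ℍ → ℂ) τ) *
        (Fe L e' : ℍ → ℂ) ((γ : SL(2, ℤ)) • τ)
    have h1 : (Fe L e : ℍ → ℂ) ((γ : SL(2, ℤ)) • τ) = fac L γ e τ * (Fe L e : ℍ → ℂ) τ :=
      FeFun_smul' L e γ τ
    have h2 : (Fe L e' : ℍ → ℂ) ((γ : SL(2, ℤ)) • τ) = fac L γ e' τ * (Fe L e' : ℍ → ℂ) τ :=
      FeFun_smul' L e' γ τ
    rw [h1, h2, expH_apply, expH_apply, linH_smul, Complex.exp_add, fac_div L γ e e' τ, chiOf_eq,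
      ← key_exponent L α β γ (e - e') hd, Complex.exp_add]
    ring
  have hP' : ι (Fe L e') ≠ 0 := iota_ne_zero he'
  have hcP' : ι (compSLHom (γ : SL(2, ℤ)) (Fe L e')) ≠ 0 :=
    iota_ne_zero (compSLHom_ne_zero _ he')
  have key' := congrArg (algebraMap HolH MerH) key
  simp only [map_mul] at key'
  unfold quotF
  rw [map_mul, slMer_div, slMer_algebraMap, div_mul_eq_mul_div, div_mul_eq_mul_div,
    ← mul_div_assoc, div_eq_div_iff hcP' hP']
  linear_combination key'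

theorem isAutDiv_quotF (Z : (Fin g → ℂ) → Divisor ℂ (FC N))
    (hZ : ∀ e, Fe L e ≠ 0 → IsAutDiv N (ι (Fe L e)) (Z e))
    (e e' : Fin g → ℂ) (he : Fe L e ≠ 0) (he' : Fe L e' ≠ 0) (β : Fin g → ℝ) :
    IsAutDiv N (quotF L e e' β) (Z e - Z e') := by
  have := isAutDiv_mul N (isAutDiv_div N (hZ e he) (hZ e' he'))
    (isAutDiv_expH_linH L fun k => -(2 * Real.pi * Complex.I) * (β k : ℂ))
  rw [add_zero] at this
  exact this

/-- every vector is `α + Om β` with real `α β` (in the coordinates of `Interfaces7`). -/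
theorem exists_real_decomp' (d : Fin g → ℂ) :
    ∃ α β : Fin g → ℝ, d = fun k => (α k : ℂ) + ∑ j, L.Om j k * (β j : ℂ) := by
  obtain ⟨x, r, h⟩ := exists_real_decomp (siegelOfLat L) d
  refine ⟨x, r, ?_⟩
  rw [h]
  funext k
  simp only [Pi.add_apply, mulVec, dotProduct, siegelOfLat_Ω, Siegel.ofRealVec]
  congr 1
  refine Finset.sum_congr rfl fun j _ => ?_
  have : L.Om k j = L.Om j k := L.om_symm k j
  rw [this]

/-! ### (Z-SUM), difference form -/

/-- **(Z-SUM)**: `iota [Z e - Z e'] = e - e'`. -/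
theorem z_sum_diff (AJ : AJData N L) (Z : (Fin g → ℂ) → Divisor ℂ (FC N))
    (hZ : ∀ e, Fe L e ≠ 0 → IsAutDiv N (algebraMap HolH MerH (Fe L e)) (Z e))
    (e e' : Fin g → ℂ) (he : Fe L e ≠ 0) (he' : Fe L e' ≠ 0)
    (h : Z e - Z e' ∈ Divisor.degZero (K := ℂ) (F := FC N)) :
    AJ.iota (Pic0.mk ⟨Z e - Z e', h⟩) = QuotientAddGroup.mk (e - e') := by
  obtain ⟨α, β, hd⟩ := exists_real_decomp' L (e - e')
  have h1 := AJ.iota_of_automorphic (quotF L e e' β) (Z e - Z e') α β h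
    (isAutDiv_quotF L Z hZ e e' he he' β) (fun γ => slMer_quotF L e e' he' α β hd γ)
  rw [h1, hd]

end Fermat.Agent.M17.AbelSum4
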