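/-
M17 (target S17), block [MAJ] part 2 (helper4): **the multiplicative Abel-Jacobi data (M1)-(M5)** in the
`IsAutDiv` vocabulary of `Interfaces7`.

`IsAutPair N F χ Δ` : `F` is an automorphic function with divisor `Δ` (`IsAutDiv`) and unitary
character `χ` (`slMer γ F = cst (χ γ) * F`, `‖χ γ‖ = 1`).

* (M1) `exists_isAutPair`        : every divisor of degree `0` (cusps included) has a pair;
* (M2) `isAutPair_char_unique`   : the character only depends on `Δ`;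
* (M3) `isAutPair_char_eq_one_of_principal` : principal divisors have trivial character;
* (M4) `isPrincipal_of_isAutPair` : trivial character ⇒ principal;
* (M5) `isAutPair_mul`, `isAutPair_inv`, `isAutPair_one` : additivity;
* (M6) `isAutPair_char_mul`, `isAutPair_char_one`, `isAutPair_char_eq_one_of_trSq_le` : `χ` is a
  character, trivial on parabolic and elliptic elements.

Imported by no statement.
-/
import Fermat.Agent.M17.CuspLog4
import Fermat.Agent.ES.HECKE.WeakApprox25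

set_option autoImplicit false
set_option linter.unusedSectionVars false

open UpperHalfPlane AlgebraicCurve Filter Topology
open scoped Manifold MatrixGroups NNReal
open CongruenceSubgroup

noncomputable section

namespace Fermat.Agent.M17.MultAJ4

open Fermat.Agent.X0 Fermat.Agent.ES.KUM Fermat.Agent.X0.SurjPoint Fermat.Agent.ES.KUM.CCusp16
open Fermat.Agent.M17.Interfaces7 Fermat.Agent.M15.DivLogMer1 ModularCurve
open Fermat.Agent.M17.AutDiv4 Fermat.Agent.M17.Dict4 Fermat.Agent.M17.AutAlg4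
open Fermat.Agent.M17.CuspLog4
open Fermat.Agent.M15.DivShift1 Fermat.Agent.M15.DivAut1 Fermat.Agent.M15.DivLogPrim1
open Fermat.Agent.M15.DivDict1

local notation "ι" => algebraMap HolH MerH

variable (N : ℕ) [NeZero N]

/-- `(F, χ)` is an automorphic pair with unitary character for the divisor `Δ`. -/
def IsAutPair (F : MerH) (χ : ↥(Gamma0 N) → ℂ) (Δ : Divisor ℂ (FC N)) : Prop :=
  IsAutDiv N F Δ ∧ (∀ γ, ‖χ γ‖ = 1) ∧
    ∀ γ : ↥(Gamma0 N), slMer (γ : SL(2, ℤ)) F = cst (χ γ) * F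

variable {N}

theorem IsAutPair.ne_zero {F : MerH} {χ : ↥(Gamma0 N) → ℂ} {Δ : Divisor ℂ (FC N)}
    (h : IsAutPair N F χ Δ) : F ≠ 0 := ((isAutDiv_iff N F Δ).mp h.1).1

variable (N)

/-! ### (M5) additivity -/

theorem isAutPair_mul {F F' : MerH} {χ χ' : ↥(Gamma0 N) → ℂ} {Δ Δ' : Divisor ℂ (FC N)}
    (h : IsAutPair N F χ Δ) (h' : IsAutPair N F' χ' Δ') :
    IsAutPair N (F * F') (fun γ => χ γ * χ' γ) (Δ + Δ') := by
  refine ⟨isAutDiv_mul N h.1 h'.1, fun γ => ?_, fun γ => ?_⟩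
  · rw [norm_mul, h.2.1, h'.2.1, mul_one]
  · rw [map_mul, h.2.2 γ, h'.2.2 γ, cst_mul]
    ring

theorem isAutPair_inv {F : MerH} {χ : ↥(Gamma0 N) → ℂ} {Δ : Divisor ℂ (FC N)}
    (h : IsAutPair N F χ Δ) : IsAutPair N F⁻¹ (fun γ => (χ γ)⁻¹) (-Δ) := by
  refine ⟨isAutDiv_inv N h.1, fun γ => ?_, fun γ => ?_⟩
  · rw [norm_inv, h.2.1, inv_one]
  · have hχ : χ γ ≠ 0 := by
      intro h0
      have := h.2.1 γ
      rw [h0, norm_zero] at this
      exact zero_ne_one this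
    have hc0 : cst 0 = 0 := by unfold cst; rw [map_zero, map_zero]
    have hc : cst (χ γ) ≠ 0 := fun h0 => hχ (cst_injective (h0.trans hc0.symm))
    rw [map_inv₀, h.2.2 γ, mul_inv]
    congr 1
    rw [← mul_left_inj' hc, inv_mul_cancel₀ hc, ← cst_mul, inv_mul_cancel₀ hχ, cst_one]

theorem isAutPair_one : IsAutPair N (1 : MerH) (fun _ => 1) 0 := by
  refine ⟨isAutDiv_one N, fun γ => norm_one, fun γ => ?_⟩
  rw [map_one, cst_one, one_mul]

theorem isAutPair_realMer {h : FC N} (hh : h ≠ 0) {Δ : Divisor ℂ (FC N)}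
    (hΔ : ∀ v, Δ v = v.ord h) : IsAutPair N (realMer N h) (fun _ => 1) Δ := by
  refine ⟨isAutDiv_realMer N hh hΔ, fun γ => norm_one, fun γ => ?_⟩
  rw [slMer_realMer_of_mem N γ γ.2, cst_one, one_mul]

/-! ### unitary rigidity -/

/-- An automorphic function with trivial divisor and unitary multipliers is constant. -/
theorem eq_cst_of_isAutPair_zero {G : MerH} {c : ↥(Gamma0 N) → ℂ} (h : IsAutPair N G c 0) :
    ∃ c₀ : ℂ, c₀ ≠ 0 ∧ G = cst c₀ := by
  obtain ⟨hG0, hord, hcusp⟩ := (isAutDiv_iff N G 0).mp h.1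
  obtain ⟨A, hA⟩ := exists_holH_of_forall_ordMer_nonneg (x := G) (fun z => by
    rw [hord z, Finsupp.zero_apply, zero_mul])
  -- the functional equation of `A`
  have hAeq : ∀ (γ : ↥(Gamma0 N)) (z : ℍ),
      (A : ℍ → ℂ) ((γ : SL(2, ℤ)) • z) = c γ * (A : ℍ → ℂ) z := by
    intro γ z
    have h1 := h.2.2 γ
    rw [← hA, slMer_algebraMap] at h1
    unfold cst at h1
    rw [← map_mul] at h1
    have h2 := iota_injective h1
    exact congrArg (fun f : HolH => (f : ℍ → ℂ) z) h2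
  -- the limits at the cusps
  have hlim : ∀ δ : SL(2, ℤ), ∃ ℓ : ℂ, ℓ ≠ 0 ∧
      Tendsto (fun τ : ℍ => (A : ℍ → ℂ) (δ • τ)) atImInfty (𝓝 ℓ) := by
    intro δ
    have h1 := hcusp δ⁻¹
    rw [Finsupp.zero_apply, zero_mul, ← hA] at h1
    obtain ⟨ℓ, hℓ, hl⟩ := tendsto_of_cuspOrdIs_iota N h1
    refine ⟨ℓ, hℓ, hl.congr fun τ => ?_⟩
    rw [Efac_zero, mul_one, inv_inv]
  have hT : ∀ w : ℍ, ((N : ℝ) +ᵥ w : ℍ) = ModularGroup.T ^ (N : ℤ) • w := by
    intro w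
    rw [UpperHalfPlane.modular_T_zpow_smul]
    push_cast
    rfl
  have hper : ∀ δ : SL(2, ℤ), ∃ M : ℕ, 0 < M ∧
      ∀ w : ℍ, (A : ℍ → ℂ) (δ • ((M : ℝ) +ᵥ w)) = (A : ℍ → ℂ) (δ • w) := by
    intro δ
    refine ⟨N, Nat.pos_of_ne_zero (NeZero.ne N), ?_⟩
    set γ₁ : ↥(Gamma0 N) := ⟨δ * ModularGroup.T ^ (N : ℤ) * δ⁻¹,
      EisPack20.conj_T_pow_mem_Gamma0 N δ⟩ with hγ₁
    have hrel : ∀ w : ℍ, (A : ℍ → ℂ) (δ • ((N : ℝ) +ᵥ w)) = c γ₁ * (A : ℍ → ℂ) (δ • w) := by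
      intro w
      rw [← hAeq γ₁ (δ • w), hT w]
      have : δ • ModularGroup.T ^ (N : ℤ) • w = (δ * ModularGroup.T ^ (N : ℤ) * δ⁻¹) • δ • w := by
        rw [← mul_smul, ← mul_smul, inv_mul_cancel_right]
      rw [this]
    obtain ⟨ℓ, hℓ, hl⟩ := hlim δ
    have htr : Tendsto (fun w : ℍ => ((N : ℝ) +ᵥ w : ℍ)) atImInfty atImInfty := by
      rw [atImInfty, tendsto_comap_iff]
      have : (im ∘ fun w : ℍ => ((N : ℝ) +ᵥ w : ℍ)) = fun w : ℍ => w.im := by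
        funext w
        simp [UpperHalfPlane.vadd_im]
      rw [this]
      exact tendsto_comap
    have h1 : Tendsto (fun w : ℍ => (A : ℍ → ℂ) (δ • ((N : ℝ) +ᵥ w))) atImInfty (𝓝 ℓ) :=
      hl.comp htr
    have h2 : Tendsto (fun w : ℍ => (A : ℍ → ℂ) (δ • ((N : ℝ) +ᵥ w))) atImInfty
        (𝓝 (c γ₁ * ℓ)) := (hl.const_mul (c γ₁)).congr fun w => (hrel w).symm
    have h3 : c γ₁ * ℓ = ℓ := tendsto_nhds_unique h2 h1
    have h4 : c γ₁ = 1 := by
      have := mul_right_cancel₀ hℓ (h3.trans (one_mul ℓ).symm)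
      exact this
    intro w
    rw [hrel w, h4, one_mul]
  have hbdd : ∀ δ : SL(2, ℤ), IsBoundedAtImInfty (fun w : ℍ => (A : ℍ → ℂ) (δ • w)) := by
    intro δ
    obtain ⟨ℓ, -, hl⟩ := hlim δ
    exact hl.isBigO_one ℝ
  have hinv : ∀ γ ∈ Gamma0 N, ∀ z : ℍ, ‖(A : ℍ → ℂ) (γ • z)‖ = ‖(A : ℍ → ℂ) z‖ := by
    intro γ hγ z
    have := hAeq ⟨γ, hγ⟩ z
    rw [show ((⟨γ, hγ⟩ : ↥(Gamma0 N)) : SL(2, ℤ)) = γ from rfl] at this
    rw [this, norm_mul, h.2.1, one_mul]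
  obtain ⟨c₀, hc₀⟩ := Fermat.Agent.S21.MaxPrinciple7.eq_const_of_norm_invariant (Gamma0 N)
    A.2 hinv hper hbdd
  have hAc : A = algebraMap ℂ HolH c₀ := by
    apply Subtype.ext
    funext z
    exact hc₀ z
  have hGc : G = cst c₀ := by
    rw [← hA, hAc]
    rfl
  refine ⟨c₀, ?_, hGc⟩
  rintro rfl
  apply hG0
  rw [hGc]
  unfold cst
  rw [map_zero, map_zero]

/-- The multipliers of an automorphic function with trivial divisor and unitary multipliers are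
trivial. -/
theorem char_eq_one_of_isAutPair_zero {G : MerH} {c : ↥(Gamma0 N) → ℂ} (h : IsAutPair N G c 0)
    (γ : ↥(Gamma0 N)) : c γ = 1 := by
  obtain ⟨c₀, hc₀, hG⟩ := eq_cst_of_isAutPair_zero N h
  have h1 := h.2.2 γ
  rw [hG, slMer_cst] at h1
  have h2 : cst 1 * cst c₀ = cst (c γ) * cst c₀ := by rw [cst_one, one_mul]; exact h1
  have hne : cst c₀ ≠ 0 := by
    rw [← hG]
    exact h.ne_zero
  exact (eq_of_cst_mul_eq hne h2).symm

/-! ### (M2) uniqueness of the character -/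

theorem isAutPair_char_unique {F F' : MerH} {χ χ' : ↥(Gamma0 N) → ℂ} {Δ : Divisor ℂ (FC N)}
    (h : IsAutPair N F χ Δ) (h' : IsAutPair N F' χ' Δ) : χ = χ' := by
  have h1 := isAutPair_mul N h (isAutPair_inv N h')
  rw [add_neg_cancel] at h1
  funext γ
  have h2 := char_eq_one_of_isAutPair_zero N h1 γ
  have hχ' : χ' γ ≠ 0 := by
    intro h0
    have := h'.2.1 γ
    rw [h0, norm_zero] at this
    exact zero_ne_one this
  have h3 : χ γ * (χ' γ)⁻¹ = 1 := h2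
  rw [mul_inv_eq_one₀ hχ'] at h3
  exact h3

/-! ### (M3) principal divisors have trivial character -/

theorem isAutPair_char_eq_one_of_principal {F : MerH} {χ : ↥(Gamma0 N) → ℂ}
    {Δ : Divisor ℂ (FC N)} (h : IsAutPair N F χ Δ) (hΔ : Divisor.IsPrincipal Δ)
    (γ : ↥(Gamma0 N)) : χ γ = 1 := by
  obtain ⟨f, hf, hfΔ⟩ := hΔ
  have := isAutPair_char_unique N h (isAutPair_realMer N hf hfΔ)
  rw [this]

/-! ### (M4) trivial character ⇒ principal -/

theorem isPrincipal_of_isAutPair {F : MerH} {χ : ↥(Gamma0 N) → ℂ} {Δ : Divisor ℂ (FC N)}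
    (h : IsAutPair N F χ Δ) (hχ : ∀ γ, χ γ = 1) : Divisor.IsPrincipal Δ := by
  obtain ⟨f, hf, -, hfΔ⟩ := exists_realMer_eq_of_isAutDiv N h.1 (fun γ hγ => by
    have := h.2.2 ⟨γ, hγ⟩
    rw [hχ, cst_one, one_mul] at this
    exact this)
  exact ⟨f, hf, hfΔ⟩

/-- the function itself is algebraic when the character is trivial. -/
theorem exists_realMer_eq_of_isAutPair {F : MerH} {χ : ↥(Gamma0 N) → ℂ} {Δ : Divisor ℂ (FC N)}
    (h : IsAutPair N F χ Δ) (hχ : ∀ γ, χ γ = 1) :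
    ∃ f : FC N, f ≠ 0 ∧ realMer N f = F ∧ ∀ v, Δ v = v.ord f :=
  exists_realMer_eq_of_isAutDiv N h.1 (fun γ hγ => by
    have := h.2.2 ⟨γ, hγ⟩
    rw [hχ, cst_one, one_mul] at this
    exact this)

/-! ### (M1) existence -/

/-- **(M1)**, with the extra information that `χ` is a character trivial on `trSq ≤ 4`. -/
theorem exists_isAutPair' (Δ : Divisor ℂ (FC N)) (hΔ : Divisor.degree Δ = 0) :
    ∃ (F : MerH) (χ : ↥(Gamma0 N) →* ℂˣ), IsAutPair N F (fun γ => ((χ γ : ℂˣ) : ℂ)) Δ ∧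
      ∀ γ : ↥(Gamma0 N), trSq (γ : SL(2, ℤ)) ≤ 4 → χ γ = 1 := by
  classical
  -- move the cusps away
  set S : Finset (Place ℂ (FC N)) := (finite_poles_jC N).toFinset with hS
  obtain ⟨h, hh0, hh⟩ := Fermat.Agent.ES.HECKE.WeakApprox25.exists_ord_eq S (fun v => Δ v)
  obtain ⟨Δh, hΔh, hdeg⟩ := HasPrincipalDivisors.exists_divisor (K := ℂ) h hh0
  have hdeg0 : Divisor.degree (Δ - Δh) = 0 := by rw [map_sub, hΔ, hdeg, sub_zero]
  have hcf : ∀ v : Place ℂ (FC N), v.ord (jC N) < 0 → (Δ - Δh) v = 0 := by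
    intro v hv
    have hvS : v ∈ S := by
      rw [hS, Set.Finite.mem_toFinset]
      exact hv
    rw [Finsupp.sub_apply, hΔh, hh v hvS, sub_self]
  obtain ⟨F₀, χ, hdiv, hnorm, htriv, heig⟩ := exists_autPair_of_cuspFree N (Δ - Δh) hdeg0 hcf
  refine ⟨F₀ * realMer N h, χ, ?_, htriv⟩
  have h1 : IsAutPair N F₀ (fun γ => ((χ γ : ℂˣ) : ℂ)) (Δ - Δh) := ⟨hdiv, hnorm, heig⟩
  have h2 := isAutPair_mul N h1 (isAutPair_realMer N hh0 hΔh)
  rw [sub_add_cancel] at h2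
  simpa using h2

/-- **(M1)**: every divisor of degree `0` (cusps in the support included) has an automorphic
function with unitary character. -/
theorem exists_isAutPair (Δ : Divisor ℂ (FC N)) (hΔ : Δ ∈ Divisor.degZero (K := ℂ) (F := FC N)) :
    ∃ (F : MerH) (χ : ↥(Gamma0 N) → ℂ), IsAutPair N F χ Δ := by
  obtain ⟨F, χ, h, -⟩ := exists_isAutPair' N Δ hΔ
  exact ⟨F, _, h⟩

/-! ### (M6) the character is a character, trivial on parabolic and elliptic elements -/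

theorem isAutPair_char_one {F : MerH} {χ : ↥(Gamma0 N) → ℂ} {Δ : Divisor ℂ (FC N)}
    (h : IsAutPair N F χ Δ) : χ 1 = 1 := by
  have h1 := h.2.2 1
  have h2 : slMer ((1 : ↥(Gamma0 N)) : SL(2, ℤ)) F = F := slMer_one F
  rw [h2] at h1
  have h3 : cst 1 * F = cst (χ 1) * F := by rw [cst_one, one_mul]; exact h1
  exact (eq_of_cst_mul_eq h.ne_zero h3).symm

theorem isAutPair_char_mul {F : MerH} {χ : ↥(Gamma0 N) → ℂ} {Δ : Divisor ℂ (FC N)}
    (h : IsAutPair N F χ Δ) (γ δ : ↥(Gamma0 N)) : χ (γ * δ) = χ γ * χ δ := by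
  apply eq_of_cst_mul_eq h.ne_zero
  rw [← h.2.2 (γ * δ)]
  show slMer ((γ : SL(2, ℤ)) * (δ : SL(2, ℤ))) F = _
  rw [slMer_mul, h.2.2 γ, map_mul, slMer_cst, h.2.2 δ, cst_mul]
  ring

theorem isAutPair_char_eq_one_of_trSq_le {F : MerH} {χ : ↥(Gamma0 N) → ℂ}
    {Δ : Divisor ℂ (FC N)} (h : IsAutPair N F χ Δ) (hΔ : Divisor.degree Δ = 0)
    (γ : ↥(Gamma0 N)) (hγ : trSq (γ : SL(2, ℤ)) ≤ 4) : χ γ = 1 := by
  obtain ⟨F', χ', h', htriv⟩ := exists_isAutPair' N Δ hΔ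
  rw [isAutPair_char_unique N h h']
  show ((χ' γ : ℂˣ) : ℂ) = 1
  rw [htriv γ hγ]
  rfl

end Fermat.Agent.M17.MultAJ4
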