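/-
M17 (target S17), block [AJ] assembly (helper7): **the producer of `Interfaces7.AJData`** from

* `(M1)-(M5)` = `MultAJ4` (multiplicative Abel-Jacobi: automorphic pairs `(F, χ)` of a divisor),
* `(RL)` in the pair form: the character of `(x) - (y)` is `chiOf` of the real coordinates of
  `A x - A y` (hypothesis `RLPair` below, first point in `ℍ`, second a point or a cusp).

Everything else (general divisors, well-definedness, injectivity = Abel's theorem, the formula on
point/cusp divisors, the link `iota_of_automorphic`) is formal and done here.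
Imported by no statement.
-/
import Mathlib
import Fermat.Agent.M17.Interfaces7
import Fermat.Agent.M17.MultAJ4
import Fermat.Agent.M17.AbelSum4

set_option autoImplicit false
set_option linter.unusedSectionVars false

open UpperHalfPlane AlgebraicCurve Filter Topology
open scoped MatrixGroups
open CongruenceSubgroup

noncomputable section

namespace Fermat.Agent.M17.AJAssembly7

open Fermat.Agent.X0 Fermat.Agent.ES.KUM Fermat.Agent.X0.SurjPoint Fermat.Agent.ES.KUM.CCusp16
open Fermat.Agent.M17.Interfaces7 ModularCurve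
open Fermat.Agent.M17.MultAJ4 Fermat.Agent.M17.Theta1 Fermat.Agent.M17.AbelSum4
open Fermat.Agent.M15.DivLogPrim1

variable {N : ℕ} [NeZero N] {g : ℕ} (L : LatData N g)

/-! ### real coordinates `α + Om β` -/

/-- the vector `α + Om β` (coordinates of `Interfaces7`). -/
def colVec (α β : Fin g → ℝ) : Fin g → ℂ := fun k => (α k : ℂ) + ∑ j, L.Om j k * (β j : ℂ)

theorem colVec_add (α β α' β' : Fin g → ℝ) :
    colVec L (α + α') (β + β') = colVec L α β + colVec L α' β' := by
  funext k
  simp only [colVec, Pi.add_apply, Complex.ofReal_add, mul_add, Finset.sum_add_distrib]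
  ring

theorem colVec_neg (α β : Fin g → ℝ) : colVec L (-α) (-β) = -colVec L α β := by
  funext k
  simp only [colVec, Pi.neg_apply, Complex.ofReal_neg, mul_neg, Finset.sum_neg_distrib]
  ring

theorem colVec_zero : colVec L 0 0 = 0 := by
  funext k
  simp [colVec]

theorem colVec_sub (α β α' β' : Fin g → ℝ) :
    colVec L (α - α') (β - β') = colVec L α β - colVec L α' β' := by
  rw [sub_eq_add_neg, sub_eq_add_neg, colVec_add, colVec_neg, ← sub_eq_add_neg]

theorem colVec_eq_siegel (α β : Fin g → ℝ) :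
    colVec L α β = Siegel.ofRealVec α + (siegelOfLat L).Ω.mulVec (Siegel.ofRealVec β) := by
  funext k
  simp only [colVec, Pi.add_apply, Matrix.mulVec, dotProduct, siegelOfLat_Ω, Siegel.ofRealVec]
  congr 1
  refine Finset.sum_congr rfl fun j _ => ?_
  have : L.Om k j = L.Om j k := L.om_symm k j
  rw [this]

/-- the real coordinates are unique. -/
theorem colVec_injective {α β α' β' : Fin g → ℝ} (h : colVec L α β = colVec L α' β') :
    α = α' ∧ β = β' := by
  rw [colVec_eq_siegel, colVec_eq_siegel] at h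
  have hβ : β = β' := by
    apply (siegelOfLat L).Y_mulVec_injective
    funext k
    have := congrArg Complex.im (congrFun h k)
    rw [Pi.add_apply, Pi.add_apply, Complex.add_im, Complex.add_im, mulVec_ofRealVec_im,
      mulVec_ofRealVec_im] at this
    simpa [Siegel.ofRealVec] using this
  subst hβ
  refine ⟨?_, rfl⟩
  funext k
  have := congrArg Complex.re (congrFun h k)
  rw [Pi.add_apply, Pi.add_apply, Complex.add_re, Complex.add_re] at this
  simpa [Siegel.ofRealVec] using this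

/-- integral vectors. -/
def IsInt (α : Fin g → ℝ) : Prop := ∃ p : Fin g → ℤ, α = fun k => (p k : ℝ)

theorem mem_lattice_iff (α β : Fin g → ℝ) :
    colVec L α β ∈ L.lattice ↔ IsInt α ∧ IsInt β := by
  constructor
  · rintro ⟨p, q, h⟩
    have h' : colVec L α β = colVec L (fun k => (p k : ℝ)) (fun k => (q k : ℝ)) := by
      rw [h]
      funext k
      simp [colVec]
    obtain ⟨h1, h2⟩ := colVec_injective L h'
    exact ⟨⟨p, h1⟩, ⟨q, h2⟩⟩
  · rintro ⟨⟨p, rfl⟩, ⟨q, rfl⟩⟩
    refine ⟨p, q, ?_⟩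
    funext k
    simp [colVec]

/-! ### the characters `chiOf` -/

theorem chiOf_add (α β α' β' : Fin g → ℝ) (γ : Gamma0 N) :
    chiOf N L (α + α') (β + β') γ = chiOf N L α β γ * chiOf N L α' β' γ := by
  unfold chiOf
  rw [← Complex.exp_add]
  congr 1
  rw [← mul_add, ← Finset.sum_add_distrib]
  congr 1
  refine Finset.sum_congr rfl fun j _ => ?_
  simp only [Pi.add_apply, Complex.ofReal_add]
  ring

theorem chiOf_zero (γ : Gamma0 N) : chiOf N L 0 0 γ = 1 := by
  unfold chiOf
  simp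

theorem chiOf_neg (α β : Fin g → ℝ) (γ : Gamma0 N) :
    chiOf N L (-α) (-β) γ = (chiOf N L α β γ)⁻¹ := by
  have h := chiOf_add L α β (-α) (-β) γ
  rw [add_neg_cancel, add_neg_cancel, chiOf_zero] at h
  exact eq_inv_of_mul_eq_one_right h.symm

theorem chiOf_ne_zero (α β : Fin g → ℝ) (γ : Gamma0 N) : chiOf N L α β γ ≠ 0 :=
  Complex.exp_ne_zero _

theorem norm_chiOf (α β : Fin g → ℝ) (γ : Gamma0 N) : ‖chiOf N L α β γ‖ = 1 := by
  unfold chiOf
  rw [Complex.norm_exp]
  have : (2 * Real.pi * Complex.I *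
    ∑ j, (((L.m j : Additive (Gamma0 N) →+ ℤ) (Additive.ofMul γ) : ℂ) * α j
      - ((L.n j : Additive (Gamma0 N) →+ ℤ) (Additive.ofMul γ) : ℂ) * β j)).re = 0 := by
    have h1 : (∑ j, (((L.m j : Additive (Gamma0 N) →+ ℤ) (Additive.ofMul γ) : ℂ) * α j
      - ((L.n j : Additive (Gamma0 N) →+ ℤ) (Additive.ofMul γ) : ℂ) * β j)) =
        ((∑ j, (((L.m j : Additive (Gamma0 N) →+ ℤ) (Additive.ofMul γ) : ℝ) * α j
      - ((L.n j : Additive (Gamma0 N) →+ ℤ) (Additive.ofMul γ) : ℝ) * β j) : ℝ) : ℂ) := by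
      push_cast
      rfl
    rw [h1]
    simp
  rw [this, Real.exp_zero]

theorem chiOf_of_isInt {α β : Fin g → ℝ} (hα : IsInt α) (hβ : IsInt β) (γ : Gamma0 N) :
    chiOf N L α β γ = 1 := by
  obtain ⟨p, rfl⟩ := hα
  obtain ⟨q, rfl⟩ := hβ
  unfold chiOf
  rw [Complex.exp_eq_one_iff]
  refine ⟨∑ j, ((L.m j : Additive (Gamma0 N) →+ ℤ) (Additive.ofMul γ) * p j
      - (L.n j : Additive (Gamma0 N) →+ ℤ) (Additive.ofMul γ) * q j), ?_⟩
  push_cast
  ring

/-- a trivial `chiOf` has integral parameters (evaluate at the `a`- and `b`-cycles). -/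
theorem isInt_of_chiOf_eq_one {α β : Fin g → ℝ} (h : ∀ γ, chiOf N L α β γ = 1) :
    IsInt α ∧ IsInt β := by
  have hα : ∀ k, ∃ n : ℤ, α k = n := by
    intro k
    have hk := h (L.b k)
    unfold chiOf at hk
    rw [Complex.exp_eq_one_iff] at hk
    obtain ⟨n, hn⟩ := hk
    have hsum : (∑ j, (((L.m j : Additive (Gamma0 N) →+ ℤ) (Additive.ofMul (L.b k)) : ℂ) * α j
      - ((L.n j : Additive (Gamma0 N) →+ ℤ) (Additive.ofMul (L.b k)) : ℂ) * β j)) = (α k : ℂ) := by
      simp only [L.m_b, L.n_b]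
      simp
    rw [hsum] at hn
    have h2 : (2 * Real.pi * Complex.I) ≠ 0 := by
      simp [Real.pi_ne_zero]
    have h3 : (α k : ℂ) = (n : ℂ) := by
      have : (2 * Real.pi * Complex.I) * (α k : ℂ) = (2 * Real.pi * Complex.I) * (n : ℂ) := by
        rw [hn]; ring
      exact mul_left_cancel₀ h2 this
    exact ⟨n, by exact_mod_cast h3⟩
  have hβ : ∀ k, ∃ n : ℤ, β k = n := by
    intro k
    have hk := h (L.a k)
    unfold chiOf at hk
    rw [Complex.exp_eq_one_iff] at hk
    obtain ⟨n, hn⟩ := hk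
    have hsum : (∑ j, (((L.m j : Additive (Gamma0 N) →+ ℤ) (Additive.ofMul (L.a k)) : ℂ) * α j
      - ((L.n j : Additive (Gamma0 N) →+ ℤ) (Additive.ofMul (L.a k)) : ℂ) * β j)) = -(β k : ℂ) := by
      simp only [L.m_a, L.n_a]
      simp
    rw [hsum] at hn
    have h2 : (2 * Real.pi * Complex.I) ≠ 0 := by
      simp [Real.pi_ne_zero]
    have h3 : (β k : ℂ) = ((-n : ℤ) : ℂ) := by
      have : (2 * Real.pi * Complex.I) * (β k : ℂ) = (2 * Real.pi * Complex.I) * ((-n : ℤ) : ℂ) := by
        push_cast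
        linear_combination -hn
      exact mul_left_cancel₀ h2 this
    exact ⟨-n, by exact_mod_cast h3⟩
  choose p hp using hα
  choose q hq using hβ
  exact ⟨⟨p, funext hp⟩, ⟨q, funext hq⟩⟩


/-! ### generalised points and formal divisors -/

/-- generalised points: points of `ℍ` and cusps (through `SL(2, ℤ)`). -/
abbrev GP : Type := ℍ ⊕ SL(2, ℤ)

variable (N) in
/-- the place of a generalised point. -/
def gpPlace : GP → Place ℂ (FC N)
  | .inl z => ptPlaceC N 1 z
  | .inr δ => cuspPlaceC N δ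

/-- the Abel-Jacobi integral at a generalised point. -/
def gpA (Ac : SL(2, ℤ) → Fin g → ℂ) : GP → Fin g → ℂ
  | .inl z => L.A z
  | .inr δ => Ac δ

variable (N) in
theorem gpPlace_surjective : Function.Surjective (gpPlace N) := by
  intro v
  rcases CSurj25.place_cases N v with ⟨z, rfl⟩ | ⟨δ, rfl⟩
  · exact ⟨.inl z, rfl⟩
  · exact ⟨.inr δ, rfl⟩

variable (N) in
/-- the divisor of a formal divisor. -/
def repDiv : (GP →₀ ℤ) →+ Divisor ℂ (FC N) := Finsupp.mapDomain.addMonoidHom (gpPlace N)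

/-- the Abel-Jacobi sum of a formal divisor. -/
def Jmap (Ac : SL(2, ℤ) → Fin g → ℂ) : (GP →₀ ℤ) →+ (Fin g → ℂ) :=
  Finsupp.liftAddHom fun x => (zmultiplesHom (Fin g → ℂ) (gpA L Ac x))

theorem repDiv_single (x : GP) (n : ℤ) : repDiv N (Finsupp.single x n) = Finsupp.single (gpPlace N x) n := by
  simp [repDiv]

theorem Jmap_single (Ac : SL(2, ℤ) → Fin g → ℂ) (x : GP) (n : ℤ) :
    Jmap L Ac (Finsupp.single x n) = n • gpA L Ac x := by
  simp [Jmap]

variable (N) in
theorem repDiv_surjective : Function.Surjective (repDiv N) := by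
  intro D
  exact Finsupp.mapDomain_surjective (gpPlace_surjective N) D

/-- the total multiplicity. -/
def total : (GP →₀ ℤ) →+ ℤ := Finsupp.liftAddHom fun _ => AddMonoidHom.id ℤ

theorem total_single (x : GP) (n : ℤ) : total (Finsupp.single x n) = n := by
  simp [total]

theorem degree_repDiv (P : GP →₀ ℤ) : Divisor.degree (repDiv N P) = total P := by
  induction P using Finsupp.induction_linear with
  | zero => simp
  | add P Q hP hQ => rw [map_add, map_add, map_add, hP, hQ]
  | single x n =>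
    rw [repDiv_single, Divisor.degree_single, total_single,
      Fermat.Agent.ES.KUM.FieldL25.deg_eq_one_L ℂ N (gpPlace N x)]
    simp

/-! ### the subgroup of formal divisors satisfying the reciprocity law -/

/-- formal divisors `P` whose (unique) character is `chiOf` of the real coordinates of `Jmap P`. -/
def Good (Ac : SL(2, ℤ) → Fin g → ℂ) : AddSubgroup (GP →₀ ℤ) where
  carrier := {P | ∃ (F : MerH) (α β : Fin g → ℝ),
    IsAutPair N F (chiOf N L α β) (repDiv N P) ∧ Jmap L Ac P = colVec L α β}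
  zero_mem' := by
    refine ⟨1, 0, 0, ?_, ?_⟩
    · have h := isAutPair_one N
      have e : chiOf N L 0 0 = fun _ => (1 : ℂ) := funext fun γ => chiOf_zero L γ
      rw [e, map_zero]
      exact h
    · rw [map_zero, colVec_zero]
  add_mem' := by
    rintro P Q ⟨F, α, β, hF, hJ⟩ ⟨F', α', β', hF', hJ'⟩
    refine ⟨F * F', α + α', β + β', ?_, ?_⟩
    · have h := isAutPair_mul N hF hF'
      have e : chiOf N L (α + α') (β + β') = fun γ => chiOf N L α β γ * chiOf N L α' β' γ :=
        funext fun γ => chiOf_add L α β α' β' γ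
      rw [e, map_add]
      exact h
    · rw [map_add, hJ, hJ', colVec_add]
  neg_mem' := by
    rintro P ⟨F, α, β, hF, hJ⟩
    refine ⟨F⁻¹, -α, -β, ?_, ?_⟩
    · have h := isAutPair_inv N hF
      have e : chiOf N L (-α) (-β) = fun γ => (chiOf N L α β γ)⁻¹ :=
        funext fun γ => chiOf_neg L α β γ
      rw [e, map_neg]
      exact h
    · rw [map_neg, hJ, colVec_neg]

theorem mem_good_iff (Ac : SL(2, ℤ) → Fin g → ℂ) (P : GP →₀ ℤ) :
    P ∈ Good L Ac ↔ ∃ (F : MerH) (α β : Fin g → ℝ),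
      IsAutPair N F (chiOf N L α β) (repDiv N P) ∧ Jmap L Ac P = colVec L α β := Iff.rfl

/-- modulo the lattice is enough (integral shifts do not change `chiOf`). -/
theorem mem_good_of_mod (Ac : SL(2, ℤ) → Fin g → ℂ) (P : GP →₀ ℤ) (F : MerH) (α β : Fin g → ℝ)
    (hF : IsAutPair N F (chiOf N L α β) (repDiv N P))
    (hJ : Jmap L Ac P - colVec L α β ∈ L.lattice) : P ∈ Good L Ac := by
  obtain ⟨p, q, hpq⟩ := hJ
  refine ⟨F, α + (fun k => (p k : ℝ)), β + (fun k => (q k : ℝ)), ?_, ?_⟩
  · have e : chiOf N L (α + fun k => (p k : ℝ)) (β + fun k => (q k : ℝ)) = chiOf N L α β := by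
      funext γ
      rw [chiOf_add, chiOf_of_isInt L ⟨p, rfl⟩ ⟨q, rfl⟩, mul_one]
    rw [e]
    exact hF
  · rw [colVec_add]
    have : colVec L (fun k => (p k : ℝ)) (fun k => (q k : ℝ)) =
        fun k => (p k : ℂ) + ∑ j, L.Om j k * (q j : ℂ) := by
      funext k
      simp [colVec]
    rw [this, ← hpq]
    abel

/-- **the pair form of the reciprocity law** (the input from the analytic side): the first point in
`ℍ`, the second a point of `ℍ` with a different place, or a cusp. -/
def RLPair (Ac : SL(2, ℤ) → Fin g → ℂ) : Prop :=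
  (∀ z z' : ℍ, ptPlaceC N 1 z ≠ ptPlaceC N 1 z' → ∃ (F : MerH) (α β : Fin g → ℝ),
    IsAutPair N F (chiOf N L α β)
      (Finsupp.single (ptPlaceC N 1 z) 1 - Finsupp.single (ptPlaceC N 1 z') 1) ∧
    L.A z - L.A z' - colVec L α β ∈ L.lattice) ∧
  (∀ (z : ℍ) (δ : SL(2, ℤ)), ∃ (F : MerH) (α β : Fin g → ℝ),
    IsAutPair N F (chiOf N L α β)
      (Finsupp.single (ptPlaceC N 1 z) 1 - Finsupp.single (cuspPlaceC N δ) 1) ∧
    L.A z - Ac δ - colVec L α β ∈ L.lattice)

theorem pair_mem_good (Ac : SL(2, ℤ) → Fin g → ℂ) (hRL : RLPair L Ac) (z : ℍ) (y : GP) :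
    Finsupp.single (Sum.inl z) 1 - Finsupp.single y 1 ∈ Good L Ac := by
  rcases y with z' | δ
  · by_cases hne : ptPlaceC N 1 z = ptPlaceC N 1 z'
    · -- equal places: the divisor is `0`, and `A z - A z'` is in the lattice
      obtain ⟨γ, hγ, rfl⟩ := (Fermat.Agent.M17.Dict4.ptPlaceC_eq_iff N z z').mp hne
      have hlat := Theta1.A_smul_sub_mem L ⟨γ, hγ⟩ z
      refine mem_good_of_mod L Ac _ 1 0 0 ?_ ?_
      · have e : chiOf N L 0 0 = fun _ => (1 : ℂ) := funext fun γ => chiOf_zero L γ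
        rw [e, map_sub, repDiv_single, repDiv_single]
        show IsAutPair N 1 _ (Finsupp.single (ptPlaceC N 1 z) 1 - Finsupp.single (ptPlaceC N 1 (γ • z)) 1)
        rw [← hne, sub_self]
        exact isAutPair_one N
      · rw [colVec_zero, sub_zero, map_sub, Jmap_single, Jmap_single, one_smul, one_smul]
        have : gpA L Ac (Sum.inl z) - gpA L Ac (Sum.inl (γ • z)) =
            -(L.A (((⟨γ, hγ⟩ : Gamma0 N) : SL(2, ℤ)) • z) - L.A z) := by
          show L.A z - L.A (γ • z) = _
          abel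
        rw [this]
        exact L.lattice.neg_mem hlat
    · obtain ⟨F, α, β, hF, hJ⟩ := hRL.1 z z' hne
      refine mem_good_of_mod L Ac _ F α β ?_ ?_
      · rw [map_sub, repDiv_single, repDiv_single]
        exact hF
      · rw [map_sub, Jmap_single, Jmap_single, one_smul, one_smul]
        exact hJ
  · obtain ⟨F, α, β, hF, hJ⟩ := hRL.2 z δ
    refine mem_good_of_mod L Ac _ F α β ?_ ?_
    · rw [map_sub, repDiv_single, repDiv_single]
      exact hF
    · rw [map_sub, Jmap_single, Jmap_single, one_smul, one_smul]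
      exact hJ

/-- every formal divisor of total multiplicity `0` satisfies the reciprocity law. -/
theorem mem_good_of_total (Ac : SL(2, ℤ) → Fin g → ℂ) (hRL : RLPair L Ac) (P : GP →₀ ℤ)
    (hP : total P = 0) : P ∈ Good L Ac := by
  have key : ∀ Q : GP →₀ ℤ,
      Q - Finsupp.single (Sum.inl UpperHalfPlane.I) (total Q) ∈ Good L Ac := by
    intro Q
    induction Q using Finsupp.induction_linear with
    | zero => simp
    | add P Q hP hQ =>
      have := (Good L Ac).add_mem hP hQ
      have e : P + Q - Finsupp.single (Sum.inl UpperHalfPlane.I) (total (P + Q)) =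
          (P - Finsupp.single (Sum.inl UpperHalfPlane.I) (total P)) +
            (Q - Finsupp.single (Sum.inl UpperHalfPlane.I) (total Q)) := by
        rw [map_add, Finsupp.single_add]
        abel
      rw [e]
      exact this
    | single x n =>
      rw [total_single]
      have h1 := pair_mem_good L Ac hRL UpperHalfPlane.I x
      have h2 := (Good L Ac).zsmul_mem h1 (-n)
      have e : Finsupp.single x n - Finsupp.single (Sum.inl UpperHalfPlane.I) n =
          (-n) • (Finsupp.single (Sum.inl UpperHalfPlane.I) (1 : ℤ) - Finsupp.single x 1) := by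
        rw [smul_sub, Finsupp.smul_single, Finsupp.smul_single]
        simp only [smul_eq_mul, mul_one, Finsupp.single_neg]
        abel
      rw [e]
      exact h2
  have := key P
  rwa [hP, Finsupp.single_zero, sub_zero] at this


/-! ### Abel's theorem in the formal vocabulary -/

section Abel

variable (Ac : SL(2, ℤ) → Fin g → ℂ) (hRL : RLPair L Ac)

theorem total_eq_zero_of_mem_degZero {P : GP →₀ ℤ}
    (h : repDiv N P ∈ Divisor.degZero (K := ℂ) (F := FC N)) : total P = 0 := by
  rw [← degree_repDiv (N := N)]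
  exact Divisor.mem_degZero.mp h

include hRL in
/-- the easy half of Abel's theorem. -/
theorem Jmap_mem_lattice_of_principal (P : GP →₀ ℤ) (hP : total P = 0)
    (hpr : Divisor.IsPrincipal (repDiv N P)) : Jmap L Ac P ∈ L.lattice := by
  obtain ⟨F, α, β, hF, hJ⟩ := mem_good_of_total L Ac hRL P hP
  have h1 := isAutPair_char_eq_one_of_principal N hF hpr
  obtain ⟨hα, hβ⟩ := isInt_of_chiOf_eq_one L h1
  rw [hJ]
  exact (mem_lattice_iff L α β).mpr ⟨hα, hβ⟩

include hRL in
/-- the hard half of Abel's theorem. -/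
theorem principal_of_Jmap_mem_lattice (P : GP →₀ ℤ) (hP : total P = 0)
    (h : Jmap L Ac P ∈ L.lattice) : Divisor.IsPrincipal (repDiv N P) := by
  obtain ⟨F, α, β, hF, hJ⟩ := mem_good_of_total L Ac hRL P hP
  rw [hJ, mem_lattice_iff] at h
  exact isPrincipal_of_isAutPair N hF (fun γ => chiOf_of_isInt L h.1 h.2 γ)

theorem exists_rep (x : Pic0 ℂ (FC N)) :
    ∃ (P : GP →₀ ℤ) (h : repDiv N P ∈ Divisor.degZero (K := ℂ) (F := FC N)),
      Pic0.mk ⟨repDiv N P, h⟩ = x := by
  obtain ⟨D, rfl⟩ := Pic0.mk_surjective x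
  obtain ⟨P, hP⟩ := repDiv_surjective N D.1
  refine ⟨P, by rw [hP]; exact D.2, ?_⟩
  congr 1
  exact Subtype.ext hP

/-- the Abel-Jacobi map as a function. -/
def iotaFun (x : Pic0 ℂ (FC N)) : (Fin g → ℂ) ⧸ L.lattice :=
  QuotientAddGroup.mk (Jmap L Ac (exists_rep (N := N) x).choose)

include hRL in
theorem iotaFun_mk (P : GP →₀ ℤ) (h : repDiv N P ∈ Divisor.degZero (K := ℂ) (F := FC N)) :
    iotaFun L Ac (Pic0.mk ⟨repDiv N P, h⟩) = QuotientAddGroup.mk (Jmap L Ac P) := by
  set x : Pic0 ℂ (FC N) := Pic0.mk ⟨repDiv N P, h⟩ with hx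
  obtain ⟨h', hspec⟩ := (exists_rep (N := N) x).choose_spec
  set P' := (exists_rep (N := N) x).choose with hP'
  show QuotientAddGroup.mk (Jmap L Ac P') = _
  have h0 : Pic0.mk ((⟨repDiv N P', h'⟩ : Divisor.degZero (K := ℂ) (F := FC N)) - ⟨repDiv N P, h⟩) = 0 := by
    rw [Fermat.Agent.ES.KUM.KummerAbstract17.mk_sub, hspec, hx, sub_self]
  rw [Fermat.Agent.ES.KUM.KummerAbstract17.mk_eq_zero_iff] at h0
  have h1 : Divisor.IsPrincipal (repDiv N (P' - P)) := by
    rw [map_sub]
    exact h0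
  have ht : total (P' - P) = 0 := by
    rw [map_sub, total_eq_zero_of_mem_degZero h', total_eq_zero_of_mem_degZero h, sub_self]
  have h2 := Jmap_mem_lattice_of_principal L Ac hRL (P' - P) ht h1
  rw [map_sub] at h2
  rw [QuotientAddGroup.eq]
  have : -Jmap L Ac P' + Jmap L Ac P = -(Jmap L Ac P' - Jmap L Ac P) := by abel
  rw [this]
  exact L.lattice.neg_mem h2

include hRL in
theorem iotaFun_add (x y : Pic0 ℂ (FC N)) :
    iotaFun L Ac (x + y) = iotaFun L Ac x + iotaFun L Ac y := by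
  obtain ⟨P, hP, rfl⟩ := exists_rep (N := N) x
  obtain ⟨Q, hQ, rfl⟩ := exists_rep (N := N) y
  have hPQ : repDiv N (P + Q) ∈ Divisor.degZero (K := ℂ) (F := FC N) := by
    rw [map_add]
    exact (Divisor.degZero (K := ℂ) (F := FC N)).add_mem hP hQ
  have e : Pic0.mk ⟨repDiv N P, hP⟩ + Pic0.mk ⟨repDiv N Q, hQ⟩ =
      Pic0.mk ⟨repDiv N (P + Q), hPQ⟩ := by
    rw [← Pic0.mk_add]
    congr 1
    exact Subtype.ext (map_add _ _ _).symm
  rw [e, iotaFun_mk L Ac hRL, iotaFun_mk L Ac hRL, iotaFun_mk L Ac hRL, map_add]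
  rfl

/-- **the Abel-Jacobi map**. -/
def iotaHom : Pic0 ℂ (FC N) →+ (Fin g → ℂ) ⧸ L.lattice :=
  AddMonoidHom.mk' (iotaFun L Ac) (iotaFun_add L Ac hRL)

theorem iotaHom_mk (P : GP →₀ ℤ) (h : repDiv N P ∈ Divisor.degZero (K := ℂ) (F := FC N)) :
    iotaHom L Ac hRL (Pic0.mk ⟨repDiv N P, h⟩) = QuotientAddGroup.mk (Jmap L Ac P) :=
  iotaFun_mk L Ac hRL P h

theorem iotaHom_injective : Function.Injective (iotaHom L Ac hRL) := by
  rw [injective_iff_map_eq_zero]
  intro x hx
  obtain ⟨P, hP, rfl⟩ := exists_rep (N := N) x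
  rw [iotaHom_mk, QuotientAddGroup.eq_zero_iff] at hx
  rw [Fermat.Agent.ES.KUM.KummerAbstract17.mk_eq_zero_iff]
  exact principal_of_Jmap_mem_lattice L Ac hRL P (total_eq_zero_of_mem_degZero hP) hx

end Abel


/-! ### the producer of `AJData` -/

section Producer

variable (Ac : SL(2, ℤ) → Fin g → ℂ) (hRL : RLPair L Ac)

/-- the formal divisor of a pair (points, cusps). -/
def formalOf (m : ℍ →₀ ℤ) (c : SL(2, ℤ) →₀ ℤ) : GP →₀ ℤ :=
  Finsupp.mapDomain Sum.inl m + Finsupp.mapDomain Sum.inr c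

theorem repDiv_formalOf (m : ℍ →₀ ℤ) (c : SL(2, ℤ) →₀ ℤ) :
    repDiv N (formalOf m c) = pointDivisor N m + cuspDivisor N c := by
  unfold formalOf repDiv pointDivisor cuspDivisor
  rw [map_add]
  simp only [Finsupp.mapDomain.addMonoidHom_apply, ← Finsupp.mapDomain_comp]
  rfl

theorem Jmap_formalOf (m : ℍ →₀ ℤ) (c : SL(2, ℤ) →₀ ℤ) :
    Jmap L Ac (formalOf m c) = (m.sum fun z k => k • L.A z) + (c.sum fun δ k => k • Ac δ) := by
  unfold formalOf Jmap
  rw [map_add, Finsupp.liftAddHom_apply, Finsupp.liftAddHom_apply,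
    Finsupp.sum_mapDomain_index (by intro; simp) (by intro a b₁ b₂; simp [add_smul]),
    Finsupp.sum_mapDomain_index (by intro; simp) (by intro a b₁ b₂; simp [add_smul])]
  rfl

include hRL in
theorem iotaHom_of_automorphic (F : MerH) (Δ : Divisor ℂ (FC N)) (α β : Fin g → ℝ)
    (h : Δ ∈ Divisor.degZero (K := ℂ) (F := FC N)) (hdiv : IsAutDiv N F Δ)
    (haut : ∀ γ : Gamma0 N, slMer (γ : SL(2, ℤ)) F =
      algebraMap HolH MerH (algebraMap ℂ HolH (chiOf N L α β γ)) * F) :
    iotaHom L Ac hRL (Pic0.mk ⟨Δ, h⟩) = QuotientAddGroup.mk (colVec L α β) := by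
  obtain ⟨P, rfl⟩ := repDiv_surjective N Δ
  rw [iotaHom_mk]
  obtain ⟨F', α', β', hF', hJ⟩ := mem_good_of_total L Ac hRL P (total_eq_zero_of_mem_degZero h)
  have hF : IsAutPair N F (chiOf N L α β) (repDiv N P) :=
    ⟨hdiv, fun γ => norm_chiOf L α β γ, haut⟩
  have hχ := isAutPair_char_unique N hF hF'
  have h1 : ∀ γ, chiOf N L (α - α') (β - β') γ = 1 := by
    intro γ
    rw [sub_eq_add_neg, sub_eq_add_neg, chiOf_add, chiOf_neg, hχ]
    exact mul_inv_cancel₀ (chiOf_ne_zero L α' β' γ)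
  obtain ⟨hα, hβ⟩ := isInt_of_chiOf_eq_one L h1
  have h2 : colVec L (α - α') (β - β') ∈ L.lattice := (mem_lattice_iff L _ _).mpr ⟨hα, hβ⟩
  rw [colVec_sub] at h2
  rw [hJ, QuotientAddGroup.eq]
  have : -colVec L α' β' + colVec L α β = colVec L α β - colVec L α' β' := by abel
  rw [this]
  exact h2

/-- **the producer of `AJData`** from (M1)-(M5) and the pair form of the reciprocity law. -/
def ajDataOf (hAc : ∀ δ : SL(2, ℤ),
    Tendsto (fun τ : ℍ => L.A (δ⁻¹ • τ)) atImInfty (𝓝 (Ac δ))) : AJData N L where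
  Acusp := Ac
  Acusp_spec := hAc
  iota := iotaHom L Ac hRL
  iota_injective := iotaHom_injective L Ac hRL
  iota_mk := by
    intro m c h
    have e := repDiv_formalOf (N := N) m c
    have h' : repDiv N (formalOf m c) ∈ Divisor.degZero (K := ℂ) (F := FC N) := by
      rw [e]; exact h
    have e2 : (⟨pointDivisor N m + cuspDivisor N c, h⟩ : Divisor.degZero (K := ℂ) (F := FC N)) =
        ⟨repDiv N (formalOf m c), h'⟩ := Subtype.ext e.symm
    rw [e2, iotaHom_mk, Jmap_formalOf]
  iota_of_automorphic := by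
    intro F Δ α β h hdiv haut
    exact iotaHom_of_automorphic L Ac hRL F Δ α β h hdiv haut

/-- the cusp values of `A` (by choice, from `ThetaPull1.exists_tendsto_A_cusp`). -/
def AcOf (δ : SL(2, ℤ)) : Fin g → ℂ := (Theta1.exists_tendsto_A_cusp L δ⁻¹).choose

theorem AcOf_spec (δ : SL(2, ℤ)) :
    Tendsto (fun τ : ℍ => L.A (δ⁻¹ • τ)) atImInfty (𝓝 (AcOf L δ)) :=
  (Theta1.exists_tendsto_A_cusp L δ⁻¹).choose_spec

/-- **I-AJ exists** as soon as the pair form of the reciprocity law holds for the cusp values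
`AcOf`. -/
theorem nonempty_ajData (hRL' : RLPair L (AcOf L)) : Nonempty (AJData N L) :=
  ⟨ajDataOf L (AcOf L) hRL' (AcOf_spec L)⟩

end Producer

end Fermat.Agent.M17.AJAssembly7
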