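/-
M17 (helper6), programme M17 (target S17); imported by no statement.

**(OPEN)**: the Abel sum `(P₁,…,P_g) ↦ ∑ A(P_i)`, `ℍ^g → ℂ^g`, has an image with nonempty interior;
consumer form: an entire function on `ℂ^g` vanishing on a translate of the image vanishes
identically.

* `exists_det_ne_zero` : `∃ P : Fin g → ℍ, det (w_k(P_i)) ≠ 0` (the `w_k` are linearly independent
  functions on `ℍ`);
* `hasStrictFDerivAt_Psi` : the complex derivative of `x ↦ ∑ A(x_i)` at `x = P` is `h ↦ (∑_i w_k(P_i) h_i)_k`;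
* `image_mem_nhds` : the image of `ℍ^g` is a neighbourhood of `∑ A(P_i)` (inverse function theorem);
* `eq_zero_of_forall_abel_sum` : `F` entire, `F (c + ∑ A(P_i)) = 0` for all `P` ⇒ `F = 0`
  (restriction to complex lines and the one-variable identity theorem).
-/
import Mathlib
import Fermat.Agent.M17.Interfaces7

set_option autoImplicit false
set_option linter.unusedSectionVars false
set_option linter.unusedVariables false

namespace Fermat.Agent.M17.AbelOpen6

open ModularCurve ModularCurve.Period CongruenceSubgroup UpperHalfPlane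
open Fermat.Agent.M17.Interfaces7 Fermat.Agent.S21.PeriodPrim
open Filter Topology
open scoped MatrixGroups

variable {N : ℕ} [NeZero N] {g : ℕ} (L : LatData N g)

/-! ### the coordinates of the Abel map on `ℂ` -/

/-- the `k`-th coordinate of the Abel map as a function on `ℂ` (junk outside `ℍ`). -/
noncomputable def Ac (k : Fin g) (w : ℂ) : ℂ := Fp (⇑(L.w k)) (ofComplex w)

theorem Ac_coe (k : Fin g) (τ : ℍ) : Ac L k (τ : ℂ) = L.A τ k := by
  simp only [Ac, LatData.A, ofComplex_apply]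

theorem hasDerivAt_Ac (k : Fin g) (τ : ℍ) : HasDerivAt (Ac L k) (L.w k τ) (τ : ℂ) := by
  obtain ⟨a, ha, hfd⟩ := cusp_decay (L.w k)
  exact hasDerivAt_Fp ha (cusp_mdiff (L.w k)) hfd τ

theorem differentiableOn_Ac (k : Fin g) : DifferentiableOn ℂ (Ac L k) {w : ℂ | 0 < w.im} := by
  intro w hw
  have := hasDerivAt_Ac L k ⟨w, hw⟩
  exact this.differentiableAt.differentiableWithinAt

theorem isOpen_UH : IsOpen {w : ℂ | 0 < w.im} :=
  isOpen_lt continuous_const Complex.continuous_im

theorem hasStrictDerivAt_Ac (k : Fin g) (τ : ℍ) :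
    HasStrictDerivAt (Ac L k) (L.w k τ) (τ : ℂ) := by
  have han : AnalyticAt ℂ (Ac L k) (τ : ℂ) :=
    (differentiableOn_Ac L k).analyticAt (isOpen_UH.mem_nhds τ.im_pos)
  have h := han.hasStrictDerivAt
  rwa [(hasDerivAt_Ac L k τ).deriv] at h

/-- the Abel map is continuous (coordinatewise). -/
theorem continuous_A : Continuous fun τ : ℍ => L.A τ := by
  refine continuous_pi fun k => ?_
  have h1 : ContinuousOn (Ac L k) {w : ℂ | 0 < w.im} := (differentiableOn_Ac L k).continuousOn
  have h2 : Continuous fun τ : ℍ => Ac L k (τ : ℂ) :=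
    h1.comp_continuous UpperHalfPlane.continuous_coe (fun τ => τ.im_pos)
  refine h2.congr fun τ => ?_
  exact Ac_coe L k τ

/-! ### the evaluation vectors span -/

/-- evaluation of cusp forms at a point, as a linear map. -/
noncomputable def evL (τ : ℍ) : CuspForm (Gamma0 N) 2 →ₗ[ℂ] ℂ where
  toFun f := f τ
  map_add' _ _ := rfl
  map_smul' _ _ := rfl

/-- the evaluation vector `(w_k(τ))_k`. -/
noncomputable def ev (τ : ℍ) : Fin g → ℂ := fun k => L.w k τ

theorem span_ev : Submodule.span ℂ (Set.range (ev L)) = ⊤ := by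
  classical
  by_contra hne
  obtain ⟨f, hf0, hf⟩ := Submodule.exists_le_ker_of_lt_top _ (lt_top_iff_ne_top.2 hne)
  apply hf0
  set ℓ : Fin g → ℂ := fun k => f (fun j => if k = j then 1 else 0) with hℓ
  have hfv : ∀ v : Fin g → ℂ, f v = ∑ k, v k • ℓ k := fun v =>
    LinearMap.pi_apply_eq_sum_univ f v
  have hzero : ∑ k, ℓ k • L.w k = 0 := by
    apply DFunLike.ext
    intro τ
    have h1 : f (ev L τ) = 0 := hf (Submodule.subset_span ⟨τ, rfl⟩)
    rw [hfv] at h1
    have h2 : (∑ k, ℓ k • L.w k) τ = evL τ (∑ k, ℓ k • L.w k) := rfl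
    have h3 : (0 : CuspForm (Gamma0 N) 2) τ = 0 := rfl
    rw [h2, h3, map_sum, ← h1]
    refine Finset.sum_congr rfl fun k _ => ?_
    rw [map_smul, smul_eq_mul, smul_eq_mul, mul_comm]
    rfl
  have hl := Fintype.linearIndependent_iff.1 L.w.linearIndependent _ hzero
  refine LinearMap.ext fun v => ?_
  rw [hfv]
  simp [hl]

/-- **the `w_k` are linearly independent functions**: some `g`-tuple of points has
`det (w_k(P_i)) ≠ 0`. -/
theorem exists_det_ne_zero :
    ∃ P : Fin g → ℍ, (Matrix.of fun i k => L.w k (P i)).det ≠ 0 := by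
  obtain ⟨f, hf, -, hli⟩ := Submodule.exists_fun_fin_finrank_span_eq ℂ (Set.range (ev L))
  have hn : Module.finrank ℂ (Submodule.span ℂ (Set.range (ev L))) = g := by
    rw [span_ev]; simp
  choose Q hQ using hf
  refine ⟨fun i => Q (finCongr hn.symm i), ?_⟩
  have h1 : LinearIndependent ℂ (fun i : Fin g => f (finCongr hn.symm i)) :=
    hli.comp _ (finCongr hn.symm).injective
  have h2 : (Matrix.of fun i k => L.w k (Q (finCongr hn.symm i))).row
      = fun i : Fin g => f (finCongr hn.symm i) := by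
    funext i
    rw [← hQ]
    rfl
  have h3 := Matrix.linearIndependent_rows_iff_isUnit.1 (h2 ▸ h1)
  exact ((Matrix.isUnit_iff_isUnit_det _).1 h3).ne_zero

/-! ### the Abel sum and its derivative -/

/-- the Abel sum on `ℂ^g` (junk outside `ℍ^g`). -/
noncomputable def Psi (x : Fin g → ℂ) : Fin g → ℂ := fun k => ∑ i, Ac L k (x i)

theorem Psi_coe (P : Fin g → ℍ) : Psi L (fun i => (P i : ℂ)) = ∑ i, L.A (P i) := by
  funext k
  simp only [Psi, Finset.sum_apply, Ac_coe]

/-- the derivative of the Abel sum. -/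
noncomputable def dPsi (P : Fin g → ℍ) : (Fin g → ℂ) →L[ℂ] (Fin g → ℂ) :=
  ContinuousLinearMap.pi fun k =>
    ∑ i, (L.w k (P i)) • (ContinuousLinearMap.proj i : (Fin g → ℂ) →L[ℂ] ℂ)

theorem dPsi_apply (P : Fin g → ℍ) (h : Fin g → ℂ) (k : Fin g) :
    dPsi L P h k = ∑ i, L.w k (P i) * h i := by
  simp [dPsi]

theorem hasStrictFDerivAt_Psi (P : Fin g → ℍ) :
    HasStrictFDerivAt (Psi L) (dPsi L P) (fun i => (P i : ℂ)) := by
  unfold Psi dPsi
  rw [hasStrictFDerivAt_pi]
  intro k
  refine HasStrictFDerivAt.fun_sum (fun i _ => ?_)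
  have h1 : HasStrictFDerivAt (fun x : Fin g → ℂ => x i)
      (ContinuousLinearMap.proj i : (Fin g → ℂ) →L[ℂ] ℂ) (fun i => (P i : ℂ)) :=
    hasStrictFDerivAt_apply i _
  exact (hasStrictDerivAt_Ac L k (P i)).comp_hasStrictFDerivAt_of_eq (fun i => (P i : ℂ)) h1 rfl

theorem dPsi_surjective (P : Fin g → ℍ)
    (hP : (Matrix.of fun i k => L.w k (P i)).det ≠ 0) :
    LinearMap.range (dPsi L P : (Fin g → ℂ) →ₗ[ℂ] (Fin g → ℂ)) = ⊤ := by
  rw [LinearMap.range_eq_top]
  intro y
  set M : Matrix (Fin g) (Fin g) ℂ := Matrix.of fun i k => L.w k (P i) with hM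
  have hu : IsUnit M.det := isUnit_iff_ne_zero.2 hP
  refine ⟨Matrix.vecMul y M⁻¹, ?_⟩
  funext k
  show dPsi L P (Matrix.vecMul y M⁻¹) k = y k
  rw [dPsi_apply]
  have h1 : Matrix.vecMul (Matrix.vecMul y M⁻¹) M = y := by
    rw [Matrix.vecMul_vecMul, Matrix.nonsing_inv_mul _ hu, Matrix.vecMul_one]
  have h2 := congrFun h1 k
  rw [← h2]
  simp only [Matrix.vecMul, dotProduct, hM, Matrix.of_apply]
  exact Finset.sum_congr rfl fun i _ => mul_comm _ _

/-- **the image of `ℍ^g` under the Abel sum is a neighbourhood of `∑ A(P_i)`** when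
`det (w_k(P_i)) ≠ 0`. -/
theorem image_mem_nhds (P : Fin g → ℍ)
    (hP : (Matrix.of fun i k => L.w k (P i)).det ≠ 0) :
    {y : Fin g → ℂ | ∃ P' : Fin g → ℍ, y = ∑ i, L.A (P' i)} ∈ 𝓝 (∑ i, L.A (P i)) := by
  have hmap := (hasStrictFDerivAt_Psi L P).map_nhds_eq_of_surj (dPsi_surjective L P hP)
  rw [Psi_coe] at hmap
  rw [← hmap]
  have hopen : IsOpen {x : Fin g → ℂ | ∀ i, 0 < (x i).im} := by
    have : {x : Fin g → ℂ | ∀ i, 0 < (x i).im}
        = ⋂ i, (fun x : Fin g → ℂ => (x i).im) ⁻¹' Set.Ioi 0 := by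
      ext x; simp
    rw [this]
    exact isOpen_iInter_of_finite fun i =>
      isOpen_Ioi.preimage (Complex.continuous_im.comp (continuous_apply i))
  have hmem : {x : Fin g → ℂ | ∀ i, 0 < (x i).im} ∈ 𝓝 (fun i => (P i : ℂ)) :=
    hopen.mem_nhds fun i => (P i).im_pos
  refine Filter.mem_map.2 (Filter.mem_of_superset hmem ?_)
  intro x hx
  refine ⟨fun i => ⟨x i, hx i⟩, ?_⟩
  rw [← Psi_coe]

/-! ### the consumer form -/

/-- an entire function on `ℂ^g` vanishing near a point vanishes identically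
(restriction to complex lines). -/
theorem eq_zero_of_eventually_eq_zero {E : Type*} [NormedAddCommGroup E] [NormedSpace ℂ E]
    (F : E → ℂ) (hF : Differentiable ℂ F) (y₀ : E) (h : ∀ᶠ y in 𝓝 y₀, F y = 0) :
    ∀ z, F z = 0 := by
  intro z
  set φ : ℂ → ℂ := fun t => F (y₀ + t • (z - y₀)) with hφ
  have hline : Differentiable ℂ fun t : ℂ => y₀ + t • (z - y₀) :=
    (differentiable_const _).add (differentiable_id.smul_const _)
  have hd : Differentiable ℂ φ := hF.comp hline
  have han : AnalyticOnNhd ℂ φ Set.univ := fun t _ => hd.analyticAt t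
  have hcont : Tendsto (fun t : ℂ => y₀ + t • (z - y₀)) (𝓝 0) (𝓝 y₀) := by
    have := hline.continuous.tendsto 0
    simpa using this
  have h0 : φ =ᶠ[𝓝 0] 0 := hcont.eventually h
  have := han.eqOn_zero_of_preconnected_of_eventuallyEq_zero isPreconnected_univ
    (Set.mem_univ 0) h0 (Set.mem_univ 1)
  simpa [hφ] using this

/-- **(OPEN), consumer form**: an entire function on `ℂ^g` vanishing on a translate of the image
of the Abel sum `ℍ^g → ℂ^g` vanishes identically. -/
theorem eq_zero_of_forall_abel_sum (F : (Fin g → ℂ) → ℂ) (hF : Differentiable ℂ F)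
    (c : Fin g → ℂ) (h : ∀ P : Fin g → ℍ, F (c + ∑ i, L.A (P i)) = 0) : ∀ z, F z = 0 := by
  obtain ⟨P, hP⟩ := exists_det_ne_zero L
  have hnh := image_mem_nhds L P hP
  have hG : Differentiable ℂ fun y : Fin g → ℂ => F (c + y) :=
    hF.comp ((differentiable_const _).add differentiable_id)
  have hz := eq_zero_of_eventually_eq_zero (fun y : Fin g → ℂ => F (c + y)) hG
    (∑ i, L.A (P i)) (Filter.mem_of_superset hnh (by
      rintro y ⟨P', rfl⟩
      exact h P'))
  intro z
  have := hz (z - c)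
  simpa using this

/-- **(OPEN)**, helper2's shape (board 1156): `f_g ≢ 0`. -/
theorem exists_sum_ne_zero (th0 : (Fin g → ℂ) → ℂ) (hdiff : Differentiable ℂ th0)
    (hne : ∃ z, th0 z ≠ 0) (z : Fin g → ℂ) :
    ∃ P Q : Fin g → ℍ, th0 (z + ∑ i, (L.A (P i) - L.A (Q i))) ≠ 0 := by
  by_contra hcon
  obtain ⟨z', hz'⟩ := hne
  apply hz'
  refine eq_zero_of_forall_abel_sum L th0 hdiff (z - ∑ i : Fin g, L.A UpperHalfPlane.I)
    (fun P => ?_) z'
  have h : th0 (z + ∑ i, (L.A (P i) - L.A UpperHalfPlane.I)) = 0 := by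
    by_contra h'
    exact hcon ⟨P, fun _ => UpperHalfPlane.I, h'⟩
  rw [Finset.sum_sub_distrib] at h
  rw [← h]
  congr 1
  abel

end Fermat.Agent.M17.AbelOpen6
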