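/-
M17 (target S17), block [ALG], GLUE leaves (helper7).  Imported by no statement.

* (G5) `exists_eq_const_mul_bcQC` : an element of `F_ℂ` whose divisor is the extension of a divisor
  `D` of `F_ℚ̄` is a nonzero constant times `bcQC r` with `div r = D`.
* (G1) `valAt_extPlaceC` : `(bcQC r)(extPlaceC w) = complexEmbedding (r(w))` (values in the sense of
  `M15/DivDefs4.valAt`), `bcQC_mem_extPlaceC`, `bcQC_algebraMap`.
* (G2) `valAt_ptPlaceC` : if `realMer N h = a / b` with `a b` holomorphic on `ℍ` and `b z ≠ 0`, then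
  the value of `h` at `ptPlaceC N 1 z` is `a z / b z`.
* (G3)/(G4) are already in the tree: `M15/DivDefs4.valAt_smul` (values are equivariant under
  semilinear automorphisms, in particular under the Prelude's `arithmeticGalois`, whose `baseAut` is
  `σ`), `J/DESC/NormalForm10.normalForm_smul`, `J/DESC/ExtPic22.smul_extDiv`.
-/
import Mathlib
import Fermat.Agent.J.DESC.DescentFinal24
import Fermat.Agent.M15.DivDefs4
import Fermat.Agent.ES.KUM.CSurj25

set_option autoImplicit false
set_option linter.unusedSectionVars false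
set_option linter.style.longLine false

namespace Fermat.Agent.M17.AlgGlue7

open ModularCurve AlgebraicCurve Fermat.Agent.X0
open Fermat.Agent.J.DESC.ConstExt24 Fermat.Agent.J.DESC.LaurentExt24
open Fermat.Agent.J.DESC.DescentC24 Fermat.Agent.J.DESC.ExtPic22
open Fermat.Agent.J.DESC.DescentFinal24
open Fermat.Agent.RR.LSpace Fermat.Agent.RR.LHypGen
open Fermat.Agent.ES.KUM.FieldL25

noncomputable section

attribute [local instance] instAlgebraQbarComplex instTowerQbarComplex

variable (N : ℕ) [NeZero N]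

/-- `LHyp` for `F_ℂ`. -/
theorem lHypC : LHyp ℂ (FCx N) := lHyp_of_isGen (isGen_jL ℂ N)

/-- `LHyp` for `F_ℚ̄`. -/
theorem lHypQ : LHyp Qb (FQ N) := lHyp_of_isGen (isGen_jL Qb N)

/-- **(G5)** a function over `ℂ` with a `ℚ̄`-rational divisor is a constant times a function over
`ℚ̄` with that divisor. -/
theorem exists_eq_const_mul_bcQC {h : FCx N} (hh : h ≠ 0) (D : Divisor Qb (FQ N))
    (hD : ∀ v : Place ℂ (FCx N), extDivC N D v = v.ord h) :
    ∃ (c : ℂ) (r : FQ N), c ≠ 0 ∧ r ≠ 0 ∧ h = algebraMap ℂ (FCx N) c * bcQC N r ∧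
      ∀ w : Place Qb (FQ N), D w = w.ord r := by
  have hprinc : extDivC N D ∈ Divisor.principal (K := ℂ) (F := FCx N) := ⟨h, hh, hD⟩
  have hDp : D ∈ Divisor.principal (K := Qb) (F := FQ N) :=
    mem_principal_of_extDiv_mem_principal (isConstExt_bcQC N) (isGen_jL Qb N) (isGen_jL ℂ N)
      (rhoC N) (rhoC_smul_bcQC N) (mem_range_bcQC_of_fixed N) hprinc
  obtain ⟨r, hr0, hr⟩ := hDp
  have hbr0 : bcQC N r ≠ 0 := bcQC_ne_zero N hr0
  have hordr : ∀ v : Place ℂ (FCx N), extDivC N D v = v.ord (bcQC N r) := fun v =>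
    extDiv_apply_of_principal (isConstExt_bcQC N) (isGen_jL Qb N) (isGen_jL ℂ N) hr0 hr v
  have hu : ∀ v : Place ℂ (FCx N), 0 ≤ v.ord (h * (bcQC N r)⁻¹) := by
    intro v
    rw [v.ord_mul hh (inv_ne_zero hbr0), v.ord_inv, ← hD, ← hordr]
    omega
  obtain ⟨c, hc⟩ := eq_algebraMap_of_forall_ord_nonneg (lHypC N) hu
  have hc0 : c ≠ 0 := by
    rintro rfl
    rw [map_zero] at hc
    exact mul_ne_zero hh (inv_ne_zero hbr0) hc
  refine ⟨c, r, hc0, hr0, ?_, hr⟩
  rw [← hc, mul_assoc, inv_mul_cancel₀ hbr0, mul_one]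

/-! ### (G1) values at extended places -/

open Fermat.Agent.M15.DivDefs4

/-- `bcQC` of a constant. -/
theorem bcQC_algebraMap (c : Qb) :
    bcQC N (algebraMap Qb (FQ N) c) = algebraMap ℂ (FCx N) (algebraMap Qb ℂ c) :=
  (isConstExt_bcQC N).comm c

/-- regular functions stay regular at the extended place. -/
theorem bcQC_mem_extPlaceC (w : Place Qb (FQ N)) {r : FQ N} (hr : r ∈ w.toValuationSubring) :
    bcQC N r ∈ (extPlaceC N w).toValuationSubring := by
  apply FF.mem_of_ord_nonneg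
  rw [ord_extPlaceC]
  exact FF.ord_nonneg_of_mem w hr

/-- **(G1)** the value of `bcQC r` at the extended place is the complex embedding of the value of
`r`. -/
theorem valAt_extPlaceC (w : Place Qb (FQ N)) {r : FQ N} (hr : r ∈ w.toValuationSubring) :
    valAt (lHypC N) (extPlaceC N w) (bcQC N r) = algebraMap Qb ℂ (valAt (lHypQ N) w r) := by
  apply valAt_eq_of
  rcases valAt_spec (lHypQ N) w hr with h0 | h0
  · left
    rw [← bcQC_algebraMap, ← map_sub, h0, map_zero]
  · right
    rw [← bcQC_algebraMap, ← map_sub, ord_extPlaceC]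
    exact h0

/-! ### (G2) the analytic value at a point of `ℍ` -/

open Fermat.Agent.ES.KUM Fermat.Agent.X0.SurjPoint UpperHalfPlane

/-- **(G2)** if `realMer N h = a / b` with `a b` holomorphic on `ℍ` and `b z ≠ 0`, the value of `h`
at the place `ptPlaceC N 1 z` is the complex number `a z / b z`. -/
theorem valAt_ptPlaceC {h : FC N} {a b : HolH} (z : ℍ) (hb : (b : ℍ → ℂ) z ≠ 0)
    (hab : realMer N h * algebraMap HolH MerH b = algebraMap HolH MerH a) :
    valAt (lHypC N) (ptPlaceC N 1 z) h = (a : ℍ → ℂ) z / (b : ℍ → ℂ) z := by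
  set c : ℂ := (a : ℍ → ℂ) z / (b : ℍ → ℂ) z with hc
  apply valAt_eq_of
  by_cases h0 : h - algebraMap ℂ (FC N) c = 0
  · exact Or.inl h0
  right
  have hb0 : b ≠ 0 := by
    rintro rfl
    exact hb rfl
  have hbM : algebraMap HolH MerH b ≠ 0 :=
    (map_ne_zero_iff _ (IsFractionRing.injective HolH MerH)).mpr hb0
  -- the numerator `d = a - c b`
  set d : HolH := a - algebraMap ℂ HolH c * b with hd
  have hdz : (d : ℍ → ℂ) z = 0 := by
    show (a : ℍ → ℂ) z - c * (b : ℍ → ℂ) z = 0
    rw [hc, div_mul_cancel₀ _ hb, sub_self]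
  have hreal : realMer N (h - algebraMap ℂ (FC N) c) * algebraMap HolH MerH b =
      algebraMap HolH MerH d := by
    rw [map_sub, realMer_algebraMap, sub_mul, hab, hd, map_sub, map_mul]
  have hrne : realMer N (h - algebraMap ℂ (FC N) c) ≠ 0 :=
    fun h1 => h0 ((realMer N).injective (by rw [h1, map_zero]))
  have hd0 : d ≠ 0 := by
    intro h1
    rw [h1, map_zero] at hreal
    exact mul_ne_zero hrne hbM hreal
  have hdM : algebraMap HolH MerH d ≠ 0 :=
    (map_ne_zero_iff _ (IsFractionRing.injective HolH MerH)).mpr hd0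
  -- orders
  have hordb : ordMer z (algebraMap HolH MerH b) = 0 := by
    rw [ordMer_algebraMap z hb0, (Fermat.Agent.X0.ordH_eq_zero_iff b.2 z).mpr hb]
    rfl
  have hordd : 0 < ordMer z (algebraMap HolH MerH d) := by
    rw [ordMer_algebraMap z hd0]
    have h1 : ordH (d : ℍ → ℂ) z ≠ 0 := fun h2 =>
      (Fermat.Agent.X0.ordH_eq_zero_iff d.2 z).mp h2 hdz
    have h2 : ordH (d : ℍ → ℂ) z ≠ ⊤ :=
      Fermat.Agent.X0.ordH_ne_top d.2 (fun h3 => hd0 (Subtype.ext h3)) z
    have h3 : (ordH (d : ℍ → ℂ) z).toNat ≠ 0 := by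
      intro h4
      rcases (ENat.toNat_eq_zero).mp h4 with h5 | h5
      · exact h1 h5
      · exact h2 h5
    exact_mod_cast Nat.pos_of_ne_zero h3
  have hsum : ordMer z (realMer N (h - algebraMap ℂ (FC N) c)) = ordMer z (algebraMap HolH MerH d) := by
    have := ordMer_mul z hrne hbM
    rw [hreal, hordb, add_zero] at this
    exact this.symm
  have hpt := ordMer_realMer N z h0
  rw [hsum] at hpt
  have hidx : (0 : ℤ) < (ptIdx N 1 z : ℤ) := by exact_mod_cast ptIdx_pos N 1 z
  rw [hpt] at hordd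
  exact (mul_pos_iff_of_pos_left hidx).mp hordd

end

end Fermat.Agent.M17.AlgGlue7
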