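/-
Programme M17 (target S17), helper9.  (R1) = the Heisenberg action on the level-4 theta
coordinates, on top of helper1's `ThetaPeriod1`.  Imported by no statement.

For `t = (p + Ω q)/4`, `p q ∈ ℤ^g`:  `Φ (z + t) = E_t(z) • U_t (Φ z)` with `U_t` monomial with
entries `ε` such that `ε ^ 4 = 1`, `U_t ^ 8 = 1`, and the family `(U_t)` has scalar commutant.
-/
import Fermat.Agent.M17.ThetaPeriod1
import Fermat.Agent.M17.ThetaGlue9
import Fermat.Agent.M17.SiegelLattice9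

set_option autoImplicit false

namespace Fermat.Agent.M17.Heisenberg9

open Fermat.Agent.M17.Theta1 Fermat.Agent.M17.Theta1.Siegel Fermat.Agent.M17.ThetaRigidity9
  Complex Real Matrix

variable {g : ℕ}

/-- characteristics mod 2. -/
abbrev Ch (g : ℕ) : Type := Fin g → Fin 2

/-- the half-integer vector `s/2`. -/
noncomputable def hv (s : Ch g) : Fin g → ℝ := fun i => ((s i : ℕ) : ℝ) / 2

/-- the level-4 theta coordinates `Φ_{(s,c)}(z) = θ[s/2, c/2](2z)`. -/
noncomputable def Phi (τ : Siegel g) (z : Fin g → ℂ) (χ : Ch g × Ch g) : ℂ :=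
  thetaAB τ (hv χ.1) (hv χ.2) ((2 : ℂ) • z)

/-- `s + q` reduced mod 2. -/
def red (s : Ch g) (q : Fin g → ℤ) : Ch g := fun i => ((((s i : ℕ) : ℤ) + q i : ℤ) : ZMod 2)

/-- the carry `⌊(s + q)/2⌋`. -/
def carry (s : Ch g) (q : Fin g → ℤ) : Fin g → ℤ := fun i => (((s i : ℕ) : ℤ) + q i) / 2

theorem red_val (s : Ch g) (q : Fin g → ℤ) (i : Fin g) :
    (((red s q i : Fin 2) : ℕ) : ℤ) = (((s i : ℕ) : ℤ) + q i) % 2 := by
  have := ZMod.val_intCast (n := 2) (((s i : ℕ) : ℤ) + q i)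
  exact this

theorem red_add_carry (s : Ch g) (q : Fin g → ℤ) (i : Fin g) :
    (((red s q i : Fin 2) : ℕ) : ℤ) + 2 * carry s q i = ((s i : ℕ) : ℤ) + q i := by
  rw [red_val, carry]
  exact Int.emod_add_mul_ediv _ _

/-- `s/2 + q/2 = (s+q mod 2)/2 + carry`. -/
theorem hv_add_half (s : Ch g) (q : Fin g → ℤ) :
    hv s + (2 : ℝ)⁻¹ • intVec q = hv (red s q) + intVec (carry s q) := by
  funext i
  have h := red_add_carry s q i
  have h' : ((((red s q i : Fin 2) : ℕ) : ℤ) : ℝ) + 2 * ((carry s q i : ℤ) : ℝ) =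
      (((s i : ℕ) : ℤ) : ℝ) + ((q i : ℤ) : ℝ) := by exact_mod_cast h
  simp only [hv, intVec, Pi.add_apply, Pi.smul_apply, smul_eq_mul]
  push_cast at h'
  linarith

/-- the quarter period `(p + Ω q)/4`. -/
noncomputable def tvec (τ : Siegel g) (p q : Fin g → ℤ) : Fin g → ℂ :=
  (4 : ℂ)⁻¹ • (ofRealVec (intVec p) + τ.Ω *ᵥ ofRealVec (intVec q))

/-- the common exponential factor. -/
noncomputable def Efac (τ : Siegel g) (p q : Fin g → ℤ) (z : Fin g → ℂ) : ℂ :=
  cexp (-(π * I * τ.Q (ofRealVec ((2 : ℝ)⁻¹ • intVec q))) -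
    2 * π * I * (ofRealVec ((2 : ℝ)⁻¹ • intVec q) ⬝ᵥ ((2 : ℂ) • z + ofRealVec ((2 : ℝ)⁻¹ • intVec p))))

/-- the root of unity. -/
noncomputable def eps (p q : Fin g → ℤ) (χ : Ch g × Ch g) : ℂ :=
  cexp (-(2 * π * I * ((((2 : ℝ)⁻¹ • intVec q) ⬝ᵥ hv χ.2 : ℝ) : ℂ))) *
    cexp (2 * π * I * ((hv (red χ.1 q) ⬝ᵥ intVec (carry χ.2 p) : ℝ) : ℂ))

/-- the permutation of the characteristics. -/
def shiftChar (p q : Fin g → ℤ) (χ : Ch g × Ch g) : Ch g × Ch g := (red χ.1 q, red χ.2 p)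

/-- **the translation formula** for quarter periods. -/
theorem Phi_add_tvec (τ : Siegel g) (p q : Fin g → ℤ) (z : Fin g → ℂ) (χ : Ch g × Ch g) :
    Phi τ (z + tvec τ p q) χ = Efac τ p q z * (eps p q χ * Phi τ z (shiftChar p q χ)) := by
  unfold Phi
  have h2 : (2 : ℂ) • (z + tvec τ p q) = (2 : ℂ) • z + ofRealVec ((2 : ℝ)⁻¹ • intVec p) +
      τ.Ω *ᵥ ofRealVec ((2 : ℝ)⁻¹ • intVec q) := by
    unfold tvec
    rw [smul_add, smul_smul, smul_add, ofRealVec_smul, ofRealVec_smul, Matrix.mulVec_smul,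
      add_assoc]
    norm_num
  rw [h2, thetaAB_add_mulVec, thetaAB_add_real, hv_add_half, hv_add_half,
    thetaAB_add_intChar_left, thetaAB_add_intChar_right]
  unfold Efac eps shiftChar
  simp only
  rw [← mul_assoc, ← mul_assoc, ← Complex.exp_add, ← Complex.exp_add, ← Complex.exp_add]
  congr 2
  ring

/-! ### the monomial matrices -/

/-- the Heisenberg matrix of the quarter period `(p + Ω q)/4` in the basis `Φ`. -/
noncomputable def Umat (p q : Fin g → ℤ) : Matrix (Ch g × Ch g) (Ch g × Ch g) ℂ :=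
  fun χ χ' => if χ' = shiftChar p q χ then eps p q χ else 0

theorem Umat_mulVec (p q : Fin g → ℤ) (v : Ch g × Ch g → ℂ) (χ : Ch g × Ch g) :
    (Umat p q *ᵥ v) χ = eps p q χ * v (shiftChar p q χ) := by
  simp only [Matrix.mulVec, dotProduct, Umat, ite_mul, zero_mul, Finset.sum_ite_eq',
    Finset.mem_univ, if_true]

/-- **matrix form of the translation formula**. -/
theorem Phi_add_tvec' (τ : Siegel g) (p q : Fin g → ℤ) (z : Fin g → ℂ) :
    Phi τ (z + tvec τ p q) = Efac τ p q z • (Umat p q *ᵥ Phi τ z) := by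
  funext χ
  rw [Pi.smul_apply, smul_eq_mul, Umat_mulVec, Phi_add_tvec]

theorem Efac_ne_zero (τ : Siegel g) (p q : Fin g → ℤ) (z : Fin g → ℂ) : Efac τ p q z ≠ 0 :=
  Complex.exp_ne_zero _

theorem eps_ne_zero (p q : Fin g → ℤ) (χ : Ch g × Ch g) : eps p q χ ≠ 0 :=
  mul_ne_zero (Complex.exp_ne_zero _) (Complex.exp_ne_zero _)

theorem exp_two_pi_int (k : ℤ) : cexp (2 * π * I * (k : ℂ)) = 1 := by
  rw [show 2 * (π : ℂ) * I * (k : ℂ) = (k : ℂ) * (2 * π * I) by ring]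
  exact Complex.exp_int_mul_two_pi_mul_I k

/-- `4 * ((q/2) · (c/2))` is an integer. -/
theorem four_mul_half_dot (q : Fin g → ℤ) (c : Ch g) :
    ∃ k : ℤ, 4 * ((((2 : ℝ)⁻¹ • intVec q) ⬝ᵥ hv c : ℝ) : ℂ) = (k : ℂ) := by
  refine ⟨∑ i, q i * ((c i : ℕ) : ℤ), ?_⟩
  simp only [dotProduct, hv, intVec, Pi.smul_apply, smul_eq_mul]
  push_cast
  rw [Finset.mul_sum]
  exact Finset.sum_congr rfl fun i _ => by ring

/-- `2 * ((s/2) · m)` is an integer. -/
theorem two_mul_hv_dot (s : Ch g) (m : Fin g → ℤ) :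
    ∃ k : ℤ, 2 * ((hv s ⬝ᵥ intVec m : ℝ) : ℂ) = (k : ℂ) := by
  refine ⟨∑ i, ((s i : ℕ) : ℤ) * m i, ?_⟩
  simp only [dotProduct, hv, intVec]
  push_cast
  rw [Finset.mul_sum]
  exact Finset.sum_congr rfl fun i _ => by ring

theorem eps_pow_four (p q : Fin g → ℤ) (χ : Ch g × Ch g) : eps p q χ ^ 4 = 1 := by
  unfold eps
  rw [mul_pow, ← Complex.exp_nat_mul, ← Complex.exp_nat_mul]
  obtain ⟨k, hk⟩ := four_mul_half_dot q χ.2
  obtain ⟨k', hk'⟩ := two_mul_hv_dot (red χ.1 q) (carry χ.2 p)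
  have h1 : ((4 : ℕ) : ℂ) * -(2 * π * I * ((((2 : ℝ)⁻¹ • intVec q) ⬝ᵥ hv χ.2 : ℝ) : ℂ)) =
      2 * π * I * ((-k : ℤ) : ℂ) := by
    push_cast
    linear_combination (-(2 * π * I)) * hk
  have h2 : ((4 : ℕ) : ℂ) * (2 * π * I * ((hv (red χ.1 q) ⬝ᵥ intVec (carry χ.2 p) : ℝ) : ℂ)) =
      2 * π * I * ((2 * k' : ℤ) : ℂ) := by
    push_cast
    linear_combination (4 * π * I) * hk'
  rw [h1, h2, exp_two_pi_int, exp_two_pi_int, one_mul]

/-! ### arithmetic of characteristics -/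

/-- `Fin 2` seen as `ZMod 2` (they are the same type). -/
def toZ (x : Fin 2) : ZMod 2 := x

theorem toZ_injective : Function.Injective toZ := fun _ _ h => h

theorem cast_val (x : Fin 2) : ((((x : ℕ) : ℤ) : ZMod 2)) = toZ x := by
  rw [Int.cast_natCast]; exact ZMod.natCast_zmod_val (n := 2) x

theorem red_eq (s : Ch g) (q : Fin g → ℤ) (i : Fin g) :
    toZ (red s q i) = toZ (s i) + ((q i : ℤ) : ZMod 2) := by
  have : toZ (red s q i) = ((((s i : ℕ) : ℤ) + q i : ℤ) : ZMod 2) := rfl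
  rw [this, Int.cast_add, cast_val]

theorem red_red (s : Ch g) (q : Fin g → ℤ) : red (red s q) q = s := by
  funext i
  apply toZ_injective
  rw [red_eq, red_eq, add_assoc, CharTwo.add_self_eq_zero, add_zero]

theorem shiftChar_involutive (p q : Fin g → ℤ) : Function.Involutive (shiftChar (g := g) p q) := by
  intro χ
  simp only [shiftChar, red_red]

theorem red_two_mul (s : Ch g) (q : Fin g → ℤ) : red s (fun i => 2 * q i) = s := by
  funext i
  apply toZ_injective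
  rw [red_eq]
  have : (((2 * q i : ℤ)) : ZMod 2) = 0 := by
    rw [Int.cast_mul]
    have h2 : ((2 : ℤ) : ZMod 2) = 0 := rfl
    rw [h2, zero_mul]
  rw [this, add_zero]

theorem red_sub (s s₁ : Ch g) : red s (fun i => ((s₁ i : ℕ) : ℤ) - ((s i : ℕ) : ℤ)) = s₁ := by
  funext i
  apply toZ_injective
  rw [red_eq, Int.cast_sub, cast_val, cast_val, add_sub_cancel]

theorem carry_two_mul (c : Ch g) (p : Fin g → ℤ) : carry c (fun i => 2 * p i) = p := by
  funext i
  have h := (c i).isLt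
  simp only [carry]
  omega

/-! ### finite order -/

theorem Umat_sq (p q : Fin g → ℤ) :
    Umat (g := g) p q * Umat p q =
      Matrix.diagonal fun χ => eps p q χ * eps p q (shiftChar p q χ) := by
  ext χ χ''
  rw [Matrix.mul_apply]
  simp only [Umat, ite_mul, zero_mul, Finset.sum_ite_eq', Finset.mem_univ, if_true,
    shiftChar_involutive p q χ, Matrix.diagonal_apply]
  by_cases h : χ = χ''
  · subst h; simp
  · rw [if_neg h, if_neg (Ne.symm h), mul_zero]

theorem Umat_pow_eight (p q : Fin g → ℤ) : Umat (g := g) p q ^ 8 = 1 := by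
  have h8 : Umat (g := g) p q ^ 8 = (Umat p q * Umat p q) ^ 4 := by
    rw [← pow_two, ← pow_mul]
  rw [h8, Umat_sq, Matrix.diagonal_pow]
  have : ((fun χ => eps p q χ * eps p q (shiftChar p q χ)) ^ 4 : Ch g × Ch g → ℂ) = 1 := by
    funext χ
    simp only [Pi.pow_apply, Pi.one_apply, mul_pow, eps_pow_four, one_mul]
  rw [this]
  exact Matrix.diagonal_one

/-! ### scalar commutant -/

theorem exp_pi_fin2 (x : Fin 2) : cexp (π * I * ((x : ℕ) : ℂ)) = if x = 0 then 1 else -1 := by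
  fin_cases x
  · simp
  · simp [Complex.exp_pi_mul_I]

/-- the diagonal Heisenberg matrices (translations by half periods). -/
theorem Umat_two_mul (p₀ q₀ : Fin g → ℤ) :
    Umat (g := g) (fun i => 2 * p₀ i) (fun i => 2 * q₀ i) =
      Matrix.diagonal (eps (fun i => 2 * p₀ i) (fun i => 2 * q₀ i)) := by
  ext χ χ'
  simp only [Umat, shiftChar, red_two_mul, Matrix.diagonal_apply]
  by_cases h : χ = χ'
  · subst h; simp
  · rw [if_neg h, if_neg (Ne.symm h)]

theorem eps_two_mul (p₀ q₀ : Fin g → ℤ) (χ : Ch g × Ch g) :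
    eps (fun i => 2 * p₀ i) (fun i => 2 * q₀ i) χ =
      cexp (-(π * I * ∑ i, (q₀ i : ℂ) * ((χ.2 i : ℕ) : ℂ))) *
        cexp (π * I * ∑ i, ((χ.1 i : ℕ) : ℂ) * (p₀ i : ℂ)) := by
  unfold eps
  rw [red_two_mul, carry_two_mul]
  congr 2
  · simp only [dotProduct, hv, intVec, Pi.smul_apply, smul_eq_mul]
    push_cast
    rw [Finset.mul_sum, Finset.mul_sum]
    congr 1
    exact Finset.sum_congr rfl fun i _ => by ring
  · simp only [dotProduct, hv, intVec]
    push_cast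
    rw [Finset.mul_sum, Finset.mul_sum]
    exact Finset.sum_congr rfl fun i _ => by ring

theorem sum_single_mul (j : Fin g) (f : Fin g → ℂ) :
    ∑ i, (((if i = j then (1 : ℤ) else 0 : ℤ)) : ℂ) * f i = f j := by
  rw [Finset.sum_eq_single j (fun i _ hi => by simp [hi]) (by simp)]
  simp

theorem sum_mul_single (j : Fin g) (f : Fin g → ℂ) :
    ∑ i, f i * (((if i = j then (1 : ℤ) else 0 : ℤ)) : ℂ) = f j := by
  rw [Finset.sum_eq_single j (fun i _ hi => by simp [hi]) (by simp)]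
  simp

theorem fin2_ne_iff (x y : Fin 2) (h : x ≠ y) :
    (if x = 0 then (1 : ℂ) else -1) ≠ if y = 0 then 1 else -1 := by
  have hne : (1 : ℂ) ≠ -1 := by norm_num
  have hne' : (-1 : ℂ) ≠ 1 := by norm_num
  fin_cases x <;> fin_cases y <;> simp_all

/-- **the Heisenberg matrices have scalar commutant**. -/
theorem scalar_of_commute_Umat (N : Matrix (Ch g × Ch g) (Ch g × Ch g) ℂ)
    (hN : ∀ t : (Fin g → ℤ) × (Fin g → ℤ), N * Umat t.1 t.2 = Umat t.1 t.2 * N) :
    ∃ c : ℂ, N = c • (1 : Matrix (Ch g × Ch g) (Ch g × Ch g) ℂ) := by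
  classical
  refine ThetaGlue9.scalar_of_commute_monomial (fun t : (Fin g → ℤ) × (Fin g → ℤ) => Umat t.1 t.2)
    ?_ ?_ N hN
  · -- separating diagonal matrices
    intro χ χ' hne
    by_cases h1 : χ.1 = χ'.1
    · have h2 : χ.2 ≠ χ'.2 := fun h => hne (Prod.ext h1 h)
      obtain ⟨j, hj⟩ := Function.ne_iff.mp h2
      refine ⟨(fun i => 2 * 0, fun i => 2 * (if i = j then 1 else 0)), _,
        Umat_two_mul (fun _ => 0) (fun i => if i = j then 1 else 0), ?_⟩
      rw [eps_two_mul, eps_two_mul]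
      simp only [Int.cast_zero, mul_zero, Finset.sum_const_zero, Complex.exp_zero, mul_one,
        sum_single_mul]
      intro h
      have h' := congrArg (fun w => w⁻¹) h
      simp only [← Complex.exp_neg, neg_neg] at h'
      rw [exp_pi_fin2, exp_pi_fin2] at h'
      exact fin2_ne_iff _ _ hj h'
    · obtain ⟨j, hj⟩ := Function.ne_iff.mp h1
      refine ⟨(fun i => 2 * (if i = j then 1 else 0), fun i => 2 * 0), _,
        Umat_two_mul (fun i => if i = j then 1 else 0) (fun _ => 0), ?_⟩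
      rw [eps_two_mul, eps_two_mul]
      simp only [Int.cast_zero, zero_mul, Finset.sum_const_zero, mul_zero, neg_zero,
        Complex.exp_zero, one_mul, sum_mul_single]
      rw [exp_pi_fin2, exp_pi_fin2]
      exact fin2_ne_iff _ _ hj
  · -- transitive monomial matrices
    intro χ χ₁
    refine ⟨(fun i => ((χ₁.2 i : ℕ) : ℤ) - ((χ.2 i : ℕ) : ℤ),
        fun i => ((χ₁.1 i : ℕ) : ℤ) - ((χ.1 i : ℕ) : ℤ)),
      (shiftChar_involutive _ _).toPerm, eps _ _, eps_ne_zero _ _ _, fun x y => rfl, ?_⟩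
    simp only [Function.Involutive.coe_toPerm, shiftChar, red_sub]

/-! ### automorphy under the lattice, torsion of the quarter periods, packaging -/

open SiegelLattice9 in
/-- `Φ` has a common factor of automorphy under the period lattice. -/
theorem Phi_add_lattice (τ : Siegel g) (l : Fin g → ℂ) (hl : l ∈ SiegelLattice9.lattice τ)
    (z : Fin g → ℂ) : ∃ c : ℂ, Phi τ (z + l) = c • Phi τ z := by
  obtain ⟨p, q, rfl⟩ := hl
  refine ⟨cexp (-(π * I * τ.Q (ofRealVec (intVec fun i => 2 * q i))) -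
    2 * π * I * (ofRealVec (intVec fun i => 2 * q i) ⬝ᵥ ((2 : ℂ) • z))), ?_⟩
  funext χ
  simp only [Phi, Pi.smul_apply, smul_eq_mul]
  have h2 : (2 : ℂ) • (z + realCoord τ (intVec p) (intVec q)) =
      (2 : ℂ) • z + ofRealVec (intVec fun i => 2 * p i) +
        τ.Ω *ᵥ ofRealVec (intVec fun i => 2 * q i) := by
    have e1 : ∀ r : Fin g → ℤ, ofRealVec (intVec fun i => 2 * r i) =
        (2 : ℂ) • ofRealVec (intVec r) := by
      intro r; funext i; simp [ofRealVec, intVec]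
    rw [e1, e1, Matrix.mulVec_smul, realCoord, smul_add, smul_add, add_assoc]
  rw [h2, thetaAB_add_lattice]
  obtain ⟨k, hk⟩ : ∃ k : ℤ, ((hv χ.1 ⬝ᵥ intVec (fun i => 2 * p i) : ℝ) : ℂ) -
      ((hv χ.2 ⬝ᵥ intVec (fun i => 2 * q i) : ℝ) : ℂ) = (k : ℂ) := by
    refine ⟨∑ i, ((χ.1 i : ℕ) : ℤ) * p i - ∑ i, ((χ.2 i : ℕ) : ℤ) * q i, ?_⟩
    simp only [dotProduct, hv, intVec]
    push_cast
    congr 1 <;> exact Finset.sum_congr rfl fun i _ => by ring
  rw [hk, exp_two_pi_int, one_mul]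

open SiegelLattice9 in
/-- the quarter periods are torsion points. -/
theorem four_smul_tvec_mem (τ : Siegel g) (p q : Fin g → ℤ) :
    (4 : ℕ) • tvec τ p q ∈ SiegelLattice9.lattice τ := by
  refine ⟨p, q, ?_⟩
  unfold tvec realCoord
  rw [← Nat.cast_smul_eq_nsmul ℂ, smul_smul]
  norm_num

/-- the entries of the Heisenberg matrices lie in any subfield closed under roots. -/
theorem Umat_mem_range {L : Type*} [Field L] (φ : L →+* ℂ)
    (hroot : ∀ (c : ℂ) (k : ℕ), 0 < k → c ^ k ∈ φ.range → c ∈ φ.range)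
    (p q : Fin g → ℤ) (χ χ' : Ch g × Ch g) : Umat p q χ χ' ∈ φ.range := by
  unfold Umat
  split_ifs
  · exact hroot _ 4 (by norm_num) (by rw [eps_pow_four]; exact ⟨1, map_one φ⟩)
  · exact ⟨0, map_zero φ⟩

/-- **A5', rigidity for the canonical level-4 coordinates** `Φ = Phi τ`: any basis `Ψ = M Φ`
which takes `L`-rational values (up to scalars) on a set `P` that is dense together with its
quarter-period translates has `M` rational up to a scalar.  Analytic inputs on `Φ`: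
differentiability, non-vanishing, linear independence. -/
theorem rational_matrix_of_generic_Phi (τ : Siegel g) {L : Type*} [Field L] (φ : L →+* ℂ)
    (hroot : ∀ (c : ℂ) (k : ℕ), 0 < k → c ^ k ∈ φ.range → c ∈ φ.range)
    (hΦdiff : ∀ χ, Differentiable ℂ fun z => Phi τ z χ) (hΦne : ∀ z, Phi τ z ≠ 0)
    (hΦspan : ∀ ℓ : Ch g × Ch g → ℂ, (∀ z, ∑ χ, ℓ χ * Phi τ z χ = 0) → ℓ = 0)
    (Ψ : (Fin g → ℂ) → Ch g × Ch g → ℂ) (M : Matrix (Ch g × Ch g) (Ch g × Ch g) ℂ)
    (hM : IsUnit M) (hΨΦ : ∀ z, Ψ z = M *ᵥ Phi τ z)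
    (P : Set (Fin g → ℂ)) (v : (Fin g → ℂ) → Ch g × Ch g → L)
    (hv : ∀ z ∈ P, ∃ c : ℂ, c ≠ 0 ∧ ∀ χ, φ (v z χ) = c * Ψ z χ)
    (hdense : ∀ p q : Fin g → ℤ, Dense {z | z ∈ P ∧ z + tvec τ p q ∈ P}) :
    ∃ (M₀ : Matrix (Ch g × Ch g) (Ch g × Ch g) L) (c : ℂ), c ≠ 0 ∧ M = c • M₀.map φ := by
  classical
  have hdet : IsUnit M.det := (Matrix.isUnit_iff_isUnit_det M).mp hM
  obtain ⟨B, hB, hcov⟩ := SiegelLattice9.exists_bounded_fundamental τ
  -- properties of `Ψ`
  have hΨdiff : ∀ χ, Differentiable ℂ fun z => Ψ z χ := by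
    intro χ
    simp only [hΨΦ, Matrix.mulVec, dotProduct]
    exact Differentiable.fun_sum fun j _ => (hΦdiff j).const_mul _
  have hΨne : ∀ z, Ψ z ≠ 0 := by
    intro z h0
    apply hΦne z
    have := congrArg (fun w => M⁻¹ *ᵥ w) (hΨΦ z ▸ h0)
    simpa [Matrix.mulVec_mulVec, Matrix.nonsing_inv_mul M hdet] using this
  have hΨper : ∀ l ∈ SiegelLattice9.lattice τ, ∀ z, ∃ c : ℂ, Ψ (z + l) = c • Ψ z := by
    intro l hl z
    obtain ⟨c, hc⟩ := Phi_add_lattice τ l hl z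
    exact ⟨c, by rw [hΨΦ, hc, Matrix.mulVec_smul, ← hΨΦ]⟩
  have hΨspan : ∀ ℓ : Ch g × Ch g → ℂ, (∀ z, ∑ χ, ℓ χ * Ψ z χ = 0) → ℓ = 0 := by
    intro ℓ hℓ
    -- `ℓ · (M Φ) = (Mᵀ ℓ) · Φ`
    have h1 : Mᵀ *ᵥ ℓ = 0 := by
      apply hΦspan
      intro z
      have := hℓ z
      rw [hΨΦ] at this
      simp only [Matrix.mulVec, dotProduct, Matrix.transpose_apply] at this ⊢
      rw [← this]
      simp only [Finset.mul_sum, Finset.sum_mul]
      rw [Finset.sum_comm]
      exact Finset.sum_congr rfl fun i _ => Finset.sum_congr rfl fun j _ => by ring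
    have hdetT : IsUnit Mᵀ.det := by rw [Matrix.det_transpose]; exact hdet
    have := congrArg (fun w => Mᵀ⁻¹ *ᵥ w) h1
    simpa [Matrix.mulVec_mulVec, Matrix.nonsing_inv_mul Mᵀ hdetT] using this
  exact rational_matrix_of_generic' φ hroot (Phi τ) Ψ M hM hΨΦ hΨdiff hΨne
    (SiegelLattice9.lattice τ) hΨper B hB hcov hΨspan
    (fun t : (Fin g → ℤ) × (Fin g → ℤ) => tvec τ t.1 t.2) (fun t => Umat t.1 t.2)
    (fun t i j => Umat_mem_range φ hroot t.1 t.2 i j) (fun t z => Efac τ t.1 t.2 z)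
    (fun t z => Efac_ne_zero τ t.1 t.2 z) (fun t z => Phi_add_tvec' τ t.1 t.2 z)
    (fun _ => 8) (fun _ => by norm_num) (fun t => Umat_pow_eight t.1 t.2)
    scalar_of_commute_Umat P v hv (fun t => hdense t.1 t.2)

end Fermat.Agent.M17.Heisenberg9
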