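/-
Programme M17 (target S17), helper9.  Imported by no statement.

**Linear independence of the level-4 theta coordinates** `Φ_χ(z) = θ[χ](2z)` (and of the level-2
coordinates `κ_e`), by the character argument: translations by half periods act on the `Φ_χ`
through a common factor times pairwise distinct characters.  With it, the rigidity theorem
`Heisenberg9.rational_matrix_of_generic_Phi` is instantiated with helper1's analytic inputs
(`rational_matrix_of_generic_theta`, no analytic hypothesis left).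
-/
import Fermat.Agent.M17.Heisenberg9
import Fermat.Agent.M17.ThetaData1

set_option autoImplicit false

namespace Fermat.Agent.M17.ThetaIndep9

open Fermat.Agent.M17.Theta1 Fermat.Agent.M17.Theta1.Siegel Fermat.Agent.M17.ThetaRigidity9
  Fermat.Agent.M17.Heisenberg9 Complex Real Matrix

/-! ### a subspace invariant under separating diagonal operators is spanned by coordinate
vectors -/

/-- If a subspace `W ⊆ ℂ^ι` is stable under the diagonal operators `d t` (`t ∈ T`), these separate
the indices, and `W` contains no coordinate vector, then `W = 0`. -/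
theorem eq_zero_of_invariant_separating {ι : Type*} [Fintype ι] [DecidableEq ι] {T : Type*}
    (d : T → ι → ℂ) (hsep : ∀ i j, i ≠ j → ∃ t, d t i ≠ d t j)
    (W : Submodule ℂ (ι → ℂ)) (hW : ∀ t, ∀ ℓ ∈ W, d t * ℓ ∈ W)
    (hne : ∀ i, (Pi.single i 1 : ι → ℂ) ∉ W) {ℓ : ι → ℂ} (hℓ : ℓ ∈ W) : ℓ = 0 := by
  classical
  funext i₀
  by_contra h0
  have key : ∀ s : Finset ι, i₀ ∉ s → ∃ ℓ' ∈ W, ℓ' i₀ ≠ 0 ∧ ∀ j ∈ s, ℓ' j = 0 := by
    intro s
    induction s using Finset.induction_on with
    | empty => exact fun _ => ⟨ℓ, hℓ, h0, fun j hj => absurd hj (Finset.notMem_empty j)⟩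
    | insert j s hj ih =>
      intro hi₀
      rw [Finset.mem_insert, not_or] at hi₀
      obtain ⟨ℓ', hℓ', h1, h2⟩ := ih hi₀.2
      obtain ⟨t, ht⟩ := hsep i₀ j hi₀.1
      refine ⟨d t * ℓ' - d t j • ℓ', W.sub_mem (hW t ℓ' hℓ') (W.smul_mem _ hℓ'), ?_, ?_⟩
      · simp only [Pi.sub_apply, Pi.mul_apply, Pi.smul_apply, smul_eq_mul]
        rw [← sub_mul]
        exact mul_ne_zero (sub_ne_zero.mpr ht) h1
      · intro k hk
        simp only [Pi.sub_apply, Pi.mul_apply, Pi.smul_apply, smul_eq_mul]
        rcases Finset.mem_insert.mp hk with rfl | hk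
        · ring
        · rw [h2 k hk]; ring
  obtain ⟨ℓ', hℓ', h1, h2⟩ := key (Finset.univ.erase i₀) (Finset.notMem_erase i₀ _)
  apply hne i₀
  have : (Pi.single i₀ 1 : ι → ℂ) = (ℓ' i₀)⁻¹ • ℓ' := by
    funext k
    by_cases hk : k = i₀
    · subst hk
      simp only [Pi.single_eq_same, Pi.smul_apply, smul_eq_mul]
      rw [inv_mul_cancel₀ h1]
    · rw [Pi.single_eq_of_ne hk, Pi.smul_apply, h2 k (Finset.mem_erase.mpr ⟨hk, Finset.mem_univ _⟩),
        smul_zero]
  rw [this]
  exact W.smul_mem _ hℓ'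

variable {g : ℕ}

/-! ### the two definitions of the level-4 coordinates agree -/

theorem hv_eq_halfVec (s : Ch g) : hv s = halfVec s := rfl

theorem Phi_eq (τ : Siegel g) : Heisenberg9.Phi τ = Theta1.Phi τ := rfl

/-! ### the half periods separate the characteristics -/

/-- for distinct characteristics there is a half period whose (diagonal) Heisenberg matrix
separates them. -/
theorem exists_eps_ne (χ χ' : Ch g × Ch g) (hne : χ ≠ χ') :
    ∃ p₀ q₀ : Fin g → ℤ, eps (fun i => 2 * p₀ i) (fun i => 2 * q₀ i) χ ≠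
      eps (fun i => 2 * p₀ i) (fun i => 2 * q₀ i) χ' := by
  classical
  by_cases h1 : χ.1 = χ'.1
  · have h2 : χ.2 ≠ χ'.2 := fun h => hne (Prod.ext h1 h)
    obtain ⟨j, hj⟩ := Function.ne_iff.mp h2
    refine ⟨fun _ => 0, fun i => if i = j then 1 else 0, ?_⟩
    rw [eps_two_mul, eps_two_mul]
    simp only [Int.cast_zero, mul_zero, Finset.sum_const_zero, Complex.exp_zero, mul_one,
      sum_single_mul]
    intro h
    have h' := congrArg (fun w => w⁻¹) h
    simp only [← Complex.exp_neg, neg_neg] at h'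
    rw [exp_pi_fin2, exp_pi_fin2] at h'
    exact fin2_ne_iff _ _ hj h'
  · obtain ⟨j, hj⟩ := Function.ne_iff.mp h1
    refine ⟨fun i => if i = j then 1 else 0, fun _ => 0, ?_⟩
    rw [eps_two_mul, eps_two_mul]
    simp only [Int.cast_zero, zero_mul, Finset.sum_const_zero, mul_zero, neg_zero,
      Complex.exp_zero, one_mul, sum_mul_single]
    rw [exp_pi_fin2, exp_pi_fin2]
    exact fin2_ne_iff _ _ hj

/-- translation by a half period acts diagonally on `Φ`. -/
theorem Phi_add_half (τ : Siegel g) (p₀ q₀ : Fin g → ℤ) (z : Fin g → ℂ) (χ : Ch g × Ch g) :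
    Heisenberg9.Phi τ (z + tvec τ (fun i => 2 * p₀ i) (fun i => 2 * q₀ i)) χ =
      Efac τ (fun i => 2 * p₀ i) (fun i => 2 * q₀ i) z *
        (eps (fun i => 2 * p₀ i) (fun i => 2 * q₀ i) χ * Heisenberg9.Phi τ z χ) := by
  rw [Phi_add_tvec]
  simp only [shiftChar, red_two_mul]

/-- **the `4^g` functions `Φ_χ = θ[χ](2·)` are linearly independent.** -/
theorem Phi_linearIndependent (τ : Siegel g) (ℓ : Ch g × Ch g → ℂ)
    (hℓ : ∀ z, ∑ χ, ℓ χ * Theta1.Phi τ z χ = 0) : ℓ = 0 := by
  classical
  let W : Submodule ℂ (Ch g × Ch g → ℂ) :=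
    { carrier := {ℓ | ∀ z, ∑ χ, ℓ χ * Theta1.Phi τ z χ = 0}
      zero_mem' := fun z => by simp
      add_mem' := by
        intro a b ha hb z
        have := congrArg₂ (· + ·) (ha z) (hb z)
        simp only [add_zero] at this
        rw [← this, ← Finset.sum_add_distrib]
        exact Finset.sum_congr rfl fun χ _ => by simp only [Pi.add_apply]; ring
      smul_mem' := by
        intro c a ha z
        have := congrArg (c * ·) (ha z)
        simp only [mul_zero] at this
        rw [← this, Finset.mul_sum]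
        exact Finset.sum_congr rfl fun χ _ => by simp only [Pi.smul_apply, smul_eq_mul]; ring }
  refine eq_zero_of_invariant_separating
    (fun t : (Fin g → ℤ) × (Fin g → ℤ) => eps (fun i => 2 * t.1 i) (fun i => 2 * t.2 i))
    (fun χ χ' hne => ?_) W ?_ ?_ (show ℓ ∈ W from hℓ)
  · obtain ⟨p₀, q₀, h⟩ := exists_eps_ne χ χ' hne
    exact ⟨(p₀, q₀), h⟩
  · intro t a ha z
    have h1 := ha (z + tvec τ (fun i => 2 * t.1 i) (fun i => 2 * t.2 i))
    rw [← Phi_eq] at h1 ⊢
    simp only [Phi_add_half] at h1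
    have hE := Efac_ne_zero τ (fun i => 2 * t.1 i) (fun i => 2 * t.2 i) z
    have h2 : Efac τ (fun i => 2 * t.1 i) (fun i => 2 * t.2 i) z *
        ∑ χ, (eps (fun i => 2 * t.1 i) (fun i => 2 * t.2 i) * a) χ * Heisenberg9.Phi τ z χ = 0 := by
      rw [← h1, Finset.mul_sum]
      exact Finset.sum_congr rfl fun χ _ => by simp only [Pi.mul_apply]; ring
    exact (mul_eq_zero.mp h2).resolve_left hE
  · intro χ hχ
    obtain ⟨z, hz⟩ := exists_thetaAB_ne_zero τ (halfVec χ.1) (halfVec χ.2)
    have h1 : ∀ z, Theta1.Phi τ z χ = 0 := by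
      intro z
      have := hχ z
      rw [Finset.sum_eq_single χ (fun χ' _ hne => by rw [Pi.single_eq_of_ne hne, zero_mul])
        (fun h => absurd (Finset.mem_univ _) h), Pi.single_eq_same, one_mul] at this
      exact this
    apply hz
    have := h1 ((2 : ℂ)⁻¹ • z)
    unfold Theta1.Phi at this
    rwa [smul_smul, mul_inv_cancel₀ (two_ne_zero), one_smul] at this

/-! ### independence of the level-2 coordinates -/

theorem kap_add_half (τ : Siegel g) (p : Fin g → ℤ) (z : Fin g → ℂ) (e : Char2 g) :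
    kap τ (z + (2 : ℂ)⁻¹ • ofRealVec (intVec p)) e =
      cexp (π * I * ∑ i, ((e i : ℕ) : ℂ) * (p i : ℂ)) * kap τ z e := by
  unfold kap
  rw [smul_add, smul_smul, mul_inv_cancel₀ (two_ne_zero), one_smul, thetaA_add_int]
  congr 2
  simp only [dotProduct, halfVec, intVec]
  push_cast
  rw [Finset.mul_sum, Finset.mul_sum]
  exact Finset.sum_congr rfl fun i _ => by ring

/-- **the `2^g` second order theta functions `κ_e` are linearly independent.** -/
theorem kap_linearIndependent (τ : Siegel g) (ℓ : Char2 g → ℂ)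
    (hℓ : ∀ z, ∑ e, ℓ e * kap τ z e = 0) : ℓ = 0 := by
  classical
  let W : Submodule ℂ (Char2 g → ℂ) :=
    { carrier := {ℓ | ∀ z, ∑ e, ℓ e * kap τ z e = 0}
      zero_mem' := fun z => by simp
      add_mem' := by
        intro a b ha hb z
        have := congrArg₂ (· + ·) (ha z) (hb z)
        simp only [add_zero] at this
        rw [← this, ← Finset.sum_add_distrib]
        exact Finset.sum_congr rfl fun χ _ => by simp only [Pi.add_apply]; ring
      smul_mem' := by
        intro c a ha z
        have := congrArg (c * ·) (ha z)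
        simp only [mul_zero] at this
        rw [← this, Finset.mul_sum]
        exact Finset.sum_congr rfl fun χ _ => by simp only [Pi.smul_apply, smul_eq_mul]; ring }
  refine eq_zero_of_invariant_separating
    (fun (p : Fin g → ℤ) (e : Char2 g) => cexp (π * I * ∑ i, ((e i : ℕ) : ℂ) * (p i : ℂ)))
    (fun e e' hne => ?_) W ?_ ?_ (show ℓ ∈ W from hℓ)
  · obtain ⟨j, hj⟩ := Function.ne_iff.mp hne
    refine ⟨fun i => if i = j then 1 else 0, ?_⟩
    simp only [sum_mul_single]
    rw [exp_pi_fin2, exp_pi_fin2]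
    exact fin2_ne_iff _ _ hj
  · intro p a ha z
    have h1 := ha (z + (2 : ℂ)⁻¹ • ofRealVec (intVec p))
    simp only [kap_add_half] at h1
    rw [← h1]
    exact Finset.sum_congr rfl fun e _ => by simp only [Pi.mul_apply]; ring
  · intro e he
    obtain ⟨z, hz⟩ := exists_thetaA_ne_zero' τ.double (halfVec e)
    have h1 : ∀ z, kap τ z e = 0 := by
      intro z
      have := he z
      rw [Finset.sum_eq_single e (fun e' _ hne => by rw [Pi.single_eq_of_ne hne, zero_mul])
        (fun h => absurd (Finset.mem_univ _) h), Pi.single_eq_same, one_mul] at this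
      exact this
    apply hz
    have := h1 ((2 : ℂ)⁻¹ • z)
    unfold kap at this
    rwa [smul_smul, mul_inv_cancel₀ (two_ne_zero), one_smul] at this

/-- consumer form: the vectors `κ(w)` span `ℂ^ν`. -/
theorem kap_span (τ : Siegel g) :
    Submodule.span ℂ (Set.range fun w : Fin g → ℂ => kap τ w) = ⊤ := by
  classical
  by_contra hne
  obtain ⟨f, hf0, hf⟩ := Submodule.exists_le_ker_of_lt_top _ (lt_top_iff_ne_top.mpr hne)
  apply hf0
  have h1 : ∀ w, f (kap τ w) = 0 := fun w =>
    LinearMap.mem_ker.mp (hf (Submodule.subset_span ⟨w, rfl⟩))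
  have h2 : (fun e => f (Pi.single e 1)) = 0 := by
    apply kap_linearIndependent τ
    intro z
    have := h1 z
    rw [← this]
    conv_rhs => rw [pi_eq_sum_univ' (kap τ z)]
    rw [map_sum]
    refine Finset.sum_congr rfl fun e _ => ?_
    rw [map_smul, smul_eq_mul, mul_comm]
  apply LinearMap.pi_ext'
  intro e
  apply LinearMap.ext_ring
  simpa using congrFun h2 e

/-! ### rigidity for the canonical coordinates, all analytic inputs discharged -/

/-- **A5' (rigidity), final form**: any basis `Ψ = M Φ` of level-4 theta functions which takes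
`L`-rational values (up to scalars) on a set `P` that is dense together with its quarter-period
translates has `M = c • M₀` with `M₀` rational. -/
theorem rational_matrix_of_generic_theta (τ : Siegel g) {L : Type*} [Field L] (φ : L →+* ℂ)
    (hroot : ∀ (c : ℂ) (k : ℕ), 0 < k → c ^ k ∈ φ.range → c ∈ φ.range)
    (Ψ : (Fin g → ℂ) → Char2 g × Char2 g → ℂ) (M : Matrix (Char2 g × Char2 g) (Char2 g × Char2 g) ℂ)
    (hM : IsUnit M) (hΨΦ : ∀ z, Ψ z = M *ᵥ Theta1.Phi τ z)
    (P : Set (Fin g → ℂ)) (v : (Fin g → ℂ) → Char2 g × Char2 g → L)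
    (hv : ∀ z ∈ P, ∃ c : ℂ, c ≠ 0 ∧ ∀ χ, φ (v z χ) = c * Ψ z χ)
    (hdense : ∀ p q : Fin g → ℤ, Dense {z | z ∈ P ∧ z + tvec τ p q ∈ P}) :
    ∃ (M₀ : Matrix (Char2 g × Char2 g) (Char2 g × Char2 g) L) (c : ℂ), c ≠ 0 ∧
      M = c • M₀.map φ :=
  rational_matrix_of_generic_Phi τ φ hroot (fun χ => differentiable_Phi τ χ) (Phi_ne_zero τ)
    (Phi_linearIndependent τ) Ψ M hM hΨΦ P v hv hdense

end Fermat.Agent.M17.ThetaIndep9
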