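/-
Programme M17 (target S17), helper9.  Imported by no statement.

**The algebraic basis of level-4 theta functions used by A4'.**  Every product of four translates
`θ(z+s₁)θ(z+s₂)θ(z+s₃)θ(z+s₄)` with `s₁+s₂+s₃+s₄ = 0` is an EXPLICIT combination of the canonical
coordinates `Φ_χ(z) = θ[χ](2z)` (`prod_four`), with coefficient vector
`coef a w w' = Φ(a) ⊙ Sᵀ(κ(w) ⊗ κ(w'))`, `a = (s₁+s₂)/2`, `w = (s₁−s₂)/2`, `w' = (s₃−s₄)/2`.
With translation vectors `s_j = k + u_j`, `u_j` in a dense subgroup `D ∋ 4k`, these coefficient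
vectors span `ℂ^{4^g}`, so `4^g` parameter triples with INVERTIBLE coefficient matrix exist
(`exists_basis_params`).
-/
import Fermat.Agent.M17.ThetaIndep9

set_option autoImplicit false

namespace Fermat.Agent.M17.Basis9

open Fermat.Agent.M17.Theta1 Fermat.Agent.M17.Theta1.Siegel Fermat.Agent.M17.FiniteFibres9
  Complex Matrix

variable {g : ℕ} (τ : Siegel g)

/-! ### the expansion of a product of four translates -/

/-- `B_χ(w,w') = ∑_{e,e'} S((e,e'),χ) κ_e(w) κ_{e'}(w')`. -/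
noncomputable def bil (w w' : Fin g → ℂ) (χ : Char2 g × Char2 g) : ℂ :=
  ∑ ab : Char2 g × Char2 g, (Smat (ab, χ) : ℂ) * (kap τ w ab.1 * kap τ w' ab.2)

/-- the coefficient vector of `θ(z+a+w)θ(z+a−w)θ(z−a+w')θ(z−a−w')` in the basis `Φ_χ`. -/
noncomputable def coef (a w w' : Fin g → ℂ) (χ : Char2 g × Char2 g) : ℂ :=
  Theta1.Phi τ a χ * bil τ w w' χ

/-- **the expansion**. -/
theorem prod_four (a w w' z : Fin g → ℂ) :
    thetaA τ 0 (z + (a + w)) * thetaA τ 0 (z + (a - w)) *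
      (thetaA τ 0 (z + (-a + w')) * thetaA τ 0 (z + (-a - w'))) =
      ∑ χ, coef τ a w w' χ * Theta1.Phi τ z χ := by
  have h1 : thetaA τ 0 (z + (a + w)) * thetaA τ 0 (z + (a - w)) =
      ∑ e : Char2 g, kap τ (z + a) e * kap τ w e := by
    rw [← theta_mul_theta]
    congr 2 <;> abel
  have h2 : thetaA τ 0 (z + (-a + w')) * thetaA τ 0 (z + (-a - w')) =
      ∑ e : Char2 g, kap τ (z - a) e * kap τ w' e := by
    rw [← theta_mul_theta]
    congr 2 <;> abel
  rw [h1, h2, Finset.sum_mul_sum, ← Finset.sum_product']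
  have h3 : ∀ ab : Char2 g × Char2 g, kap τ (z + a) ab.1 * kap τ (z - a) ab.2 =
      ∑ χ, (Smat (ab, χ) : ℂ) * (Theta1.Phi τ z χ * Theta1.Phi τ a χ) := fun ab =>
    ((thetaData τ).law_inv z a ab).symm
  calc ∑ ab ∈ (Finset.univ : Finset (Char2 g)) ×ˢ (Finset.univ : Finset (Char2 g)),
        kap τ (z + a) ab.1 * kap τ w ab.1 * (kap τ (z - a) ab.2 * kap τ w' ab.2)
      = ∑ ab : Char2 g × Char2 g, (∑ χ, (Smat (ab, χ) : ℂ) *
          (Theta1.Phi τ z χ * Theta1.Phi τ a χ)) * (kap τ w ab.1 * kap τ w' ab.2) := by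
        rw [Finset.univ_product_univ]
        refine Finset.sum_congr rfl fun ab _ => ?_
        rw [← h3]; ring
    _ = ∑ χ, coef τ a w w' χ * Theta1.Phi τ z χ := by
        simp_rw [Finset.sum_mul]
        rw [Finset.sum_comm]
        refine Finset.sum_congr rfl fun χ _ => ?_
        unfold coef bil
        rw [Finset.mul_sum, Finset.sum_mul]
        exact Finset.sum_congr rfl fun ab _ => by ring

/-! ### the coefficient vectors span -/

theorem continuous_kap (e : Char2 g) : Continuous fun z => kap τ z e :=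
  (differentiable_kap τ e).continuous

theorem continuous_Phi (χ : Char2 g × Char2 g) : Continuous fun z => Theta1.Phi τ z χ :=
  (differentiable_Phi τ χ).continuous

theorem Smat_self_zero (s c : Char2 g) : Smat ((s, (0 : Char2 g)), (s, c)) ≠ 0 := by
  unfold Smat
  simp only [add_zero, if_true]
  have h1 : ((sgn s c : ℤ) : ℚ) ≠ 0 := by
    unfold sgn
    exact_mod_cast pow_ne_zero _ (by norm_num : (-1 : ℤ) ≠ 0)
  exact div_ne_zero h1 (pow_ne_zero _ (by norm_num))

/-- no `B_χ` vanishes identically. -/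
theorem exists_bil_ne_zero (χ : Char2 g × Char2 g) : ∃ w w', bil τ w w' χ ≠ 0 := by
  classical
  by_contra hcon
  push Not at hcon
  obtain ⟨s, c⟩ := χ
  have hexp : ∀ w w', bil τ w w' (s, c) =
      ∑ a, (∑ b, (Smat ((a, b), (s, c)) : ℂ) * kap τ w' b) * kap τ w a := by
    intro w w'
    unfold bil
    rw [Fintype.sum_prod_type]
    refine Finset.sum_congr rfl fun a _ => ?_
    rw [Finset.sum_mul]
    exact Finset.sum_congr rfl fun b _ => by ring
  have h1 : ∀ w' a, ∑ b, (Smat ((a, b), (s, c)) : ℂ) * kap τ w' b = 0 := by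
    intro w' a
    have := ThetaIndep9.kap_linearIndependent τ
      (fun a => ∑ b, (Smat ((a, b), (s, c)) : ℂ) * kap τ w' b) (fun w => by
        rw [← hexp]; exact hcon w w')
    exact congrFun this a
  have h2 : (fun b => ((Smat ((s, b), (s, c)) : ℚ) : ℂ)) = 0 :=
    ThetaIndep9.kap_linearIndependent τ _ fun w' => h1 w' s
  have h3 := congrFun h2 0
  simp only [Pi.zero_apply, Rat.cast_eq_zero] at h3
  exact Smat_self_zero s c h3

/-- the parameters attached to `(u₁, u₂, u₃)`: translation vectors `k + u₁, k + u₂, k + u₃,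
-3k - u₁ - u₂ - u₃`. -/
noncomputable def parA (k u₁ u₂ : Fin g → ℂ) : Fin g → ℂ := k + (2 : ℂ)⁻¹ • (u₁ + u₂)

noncomputable def parW (u₁ u₂ : Fin g → ℂ) : Fin g → ℂ := (2 : ℂ)⁻¹ • (u₁ - u₂)

noncomputable def parW' (k u₁ u₂ u₃ : Fin g → ℂ) : Fin g → ℂ :=
  (2 : ℂ) • k + (2 : ℂ)⁻¹ • (u₁ + u₂) + u₃

theorem half_add_half (v : Fin g → ℂ) : (2 : ℂ)⁻¹ • v + (2 : ℂ)⁻¹ • v = v := by
  rw [← add_smul]; norm_num

theorem parA_add_parW (k u₁ u₂ : Fin g → ℂ) : parA k u₁ u₂ + parW u₁ u₂ = k + u₁ := by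
  unfold parA parW
  rw [add_assoc, ← smul_add, show u₁ + u₂ + (u₁ - u₂) = u₁ + u₁ by abel, smul_add, half_add_half]

theorem parA_sub_parW (k u₁ u₂ : Fin g → ℂ) : parA k u₁ u₂ - parW u₁ u₂ = k + u₂ := by
  unfold parA parW
  rw [add_sub_assoc, ← smul_sub, show u₁ + u₂ - (u₁ - u₂) = u₂ + u₂ by abel, smul_add,
    half_add_half]

theorem neg_parA_add_parW' (k u₁ u₂ u₃ : Fin g → ℂ) :
    -parA k u₁ u₂ + parW' k u₁ u₂ u₃ = k + u₃ := by
  unfold parA parW'
  rw [two_smul]; abel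

theorem neg_parA_sub_parW' (k u₁ u₂ u₃ : Fin g → ℂ) :
    -parA k u₁ u₂ - parW' k u₁ u₂ u₃ = -((3 : ℂ) • k) - u₁ - u₂ - u₃ := by
  unfold parA parW'
  have h3 : (3 : ℂ) • k = k + k + k := by
    rw [show (3 : ℂ) = 1 + 1 + 1 by norm_num, add_smul, add_smul, one_smul]
  have h : (2 : ℂ)⁻¹ • (u₁ + u₂) + (2 : ℂ)⁻¹ • (u₁ + u₂) = u₁ + u₂ := half_add_half _
  rw [two_smul, h3]
  calc -(k + (2 : ℂ)⁻¹ • (u₁ + u₂)) - (k + k + (2 : ℂ)⁻¹ • (u₁ + u₂) + u₃)
      = -(k + k + k) - ((2 : ℂ)⁻¹ • (u₁ + u₂) + (2 : ℂ)⁻¹ • (u₁ + u₂)) - u₃ := by abel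
    _ = -(k + k + k) - u₁ - u₂ - u₃ := by rw [h]; abel

/-- the coefficient vector attached to `(u₁, u₂, u₃)`. -/
noncomputable def coefU (k u₁ u₂ u₃ : Fin g → ℂ) : Char2 g × Char2 g → ℂ :=
  coef τ (parA k u₁ u₂) (parW u₁ u₂) (parW' k u₁ u₂ u₃)

/-- **the expansion, in terms of the translation vectors.** -/
theorem prod_four_U (k u₁ u₂ u₃ z : Fin g → ℂ) :
    thetaA τ 0 (z + (k + u₁)) * thetaA τ 0 (z + (k + u₂)) *
      (thetaA τ 0 (z + (k + u₃)) * thetaA τ 0 (z + (-((3 : ℂ) • k) - u₁ - u₂ - u₃))) =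
      ∑ χ, coefU τ k u₁ u₂ u₃ χ * Theta1.Phi τ z χ := by
  have := prod_four τ (parA k u₁ u₂) (parW u₁ u₂) (parW' k u₁ u₂ u₃) z
  rw [parA_add_parW, parA_sub_parW, neg_parA_add_parW', neg_parA_sub_parW'] at this
  exact this

theorem continuous_coefU_three (ℓ : Char2 g × Char2 g → ℂ) (k u₁ u₂ : Fin g → ℂ) :
    Continuous fun u₃ => ∑ χ, ℓ χ * coefU τ k u₁ u₂ u₃ χ := by
  unfold coefU coef bil parW'
  refine continuous_finsetSum _ fun χ _ => continuous_const.mul (continuous_const.mul ?_)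
  refine continuous_finsetSum _ fun ab _ => continuous_const.mul (continuous_const.mul ?_)
  exact (continuous_kap τ ab.2).comp (continuous_const.add continuous_id)

theorem continuous_coefU_two (ℓ : Char2 g × Char2 g → ℂ) (k u₁ u₃ : Fin g → ℂ) :
    Continuous fun u₂ => ∑ χ, ℓ χ * coefU τ k u₁ u₂ u₃ χ := by
  unfold coefU coef bil parW' parW parA
  have hc1 : Continuous fun u₂ : Fin g → ℂ => (2 : ℂ)⁻¹ • (u₁ + u₂) :=
    by fun_prop
  have hc2 : Continuous fun u₂ : Fin g → ℂ => (2 : ℂ)⁻¹ • (u₁ - u₂) :=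
    by fun_prop
  refine continuous_finsetSum _ fun χ _ => continuous_const.mul (Continuous.mul ?_ ?_)
  · exact (continuous_Phi τ χ).comp (continuous_const.add hc1)
  · refine continuous_finsetSum _ fun ab _ => continuous_const.mul (Continuous.mul ?_ ?_)
    · exact (continuous_kap τ ab.1).comp hc2
    · exact (continuous_kap τ ab.2).comp ((continuous_const.add hc1).add continuous_const)

theorem continuous_coefU_one (ℓ : Char2 g × Char2 g → ℂ) (k u₂ u₃ : Fin g → ℂ) :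
    Continuous fun u₁ => ∑ χ, ℓ χ * coefU τ k u₁ u₂ u₃ χ := by
  unfold coefU coef bil parW' parW parA
  have hc1 : Continuous fun u₁ : Fin g → ℂ => (2 : ℂ)⁻¹ • (u₁ + u₂) :=
    by fun_prop
  have hc2 : Continuous fun u₁ : Fin g → ℂ => (2 : ℂ)⁻¹ • (u₁ - u₂) :=
    by fun_prop
  refine continuous_finsetSum _ fun χ _ => continuous_const.mul (Continuous.mul ?_ ?_)
  · exact (continuous_Phi τ χ).comp (continuous_const.add hc1)
  · refine continuous_finsetSum _ fun ab _ => continuous_const.mul (Continuous.mul ?_ ?_)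
    · exact (continuous_kap τ ab.1).comp hc2
    · exact (continuous_kap τ ab.2).comp ((continuous_const.add hc1).add continuous_const)

/-- **a functional vanishing on the coefficient vectors of a dense set of parameters is zero.** -/
theorem eq_zero_of_coefU_orthogonal (D : Set (Fin g → ℂ)) (hD : Dense D) (k : Fin g → ℂ)
    (ℓ : Char2 g × Char2 g → ℂ)
    (h : ∀ u₁ ∈ D, ∀ u₂ ∈ D, ∀ u₃ ∈ D, ∑ χ, ℓ χ * coefU τ k u₁ u₂ u₃ χ = 0) : ℓ = 0 := by
  classical
  -- extend to all parameters by continuity, one variable at a time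
  have h3 : ∀ u₁ ∈ D, ∀ u₂ ∈ D, ∀ u₃, ∑ χ, ℓ χ * coefU τ k u₁ u₂ u₃ χ = 0 := by
    intro u₁ hu₁ u₂ hu₂ u₃
    have := Continuous.ext_on hD (continuous_coefU_three τ ℓ k u₁ u₂) continuous_const
      (fun u₃ hu₃ => h u₁ hu₁ u₂ hu₂ u₃ hu₃)
    exact congrFun this u₃
  have h2 : ∀ u₁ ∈ D, ∀ u₂ u₃, ∑ χ, ℓ χ * coefU τ k u₁ u₂ u₃ χ = 0 := by
    intro u₁ hu₁ u₂ u₃
    have := Continuous.ext_on hD (continuous_coefU_two τ ℓ k u₁ u₃) continuous_const
      (fun u₂ hu₂ => h3 u₁ hu₁ u₂ hu₂ u₃)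
    exact congrFun this u₂
  have h1 : ∀ u₁ u₂ u₃, ∑ χ, ℓ χ * coefU τ k u₁ u₂ u₃ χ = 0 := by
    intro u₁ u₂ u₃
    have := Continuous.ext_on hD (continuous_coefU_one τ ℓ k u₂ u₃) continuous_const
      (fun u₁ hu₁ => h2 u₁ hu₁ u₂ u₃)
    exact congrFun this u₁
  -- all `(a, w, w')` are attained
  have hall : ∀ a w w', ∑ χ, ℓ χ * coef τ a w w' χ = 0 := by
    intro a w w'
    have := h1 (a - k + w) (a - k - w) (w' - a - k)
    unfold coefU at this
    have e1 : parA k (a - k + w) (a - k - w) = a := by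
      unfold parA
      rw [show a - k + w + (a - k - w) = (a - k) + (a - k) by abel, smul_add, half_add_half]
      abel
    have e2 : parW (a - k + w) (a - k - w) = w := by
      unfold parW
      rw [show a - k + w - (a - k - w) = w + w by abel, smul_add, half_add_half]
    have e3 : parW' k (a - k + w) (a - k - w) (w' - a - k) = w' := by
      unfold parW'
      rw [show a - k + w + (a - k - w) = (a - k) + (a - k) by abel, smul_add, half_add_half,
        two_smul]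
      abel
    rwa [e1, e2, e3] at this
  -- independence of the `Φ_χ` in the variable `a`
  have hχ : ∀ w w' χ, ℓ χ * bil τ w w' χ = 0 := by
    intro w w'
    have := ThetaIndep9.Phi_linearIndependent τ (fun χ => ℓ χ * bil τ w w' χ) (fun a => by
      rw [← hall a w w']
      exact Finset.sum_congr rfl fun χ _ => by unfold coef; ring)
    exact fun χ => congrFun this χ
  funext χ
  obtain ⟨w, w', hne⟩ := exists_bil_ne_zero τ χ
  exact (mul_eq_zero.mp (hχ w w' χ)).resolve_right hne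

/-- **`4^g` parameter triples with invertible coefficient matrix**, the `u`'s taken in a dense
set `D`. -/
theorem exists_basis_params (D : Set (Fin g → ℂ)) (hD : Dense D) (k : Fin g → ℂ) :
    ∃ u : Char2 g × Char2 g → (Fin g → ℂ) × (Fin g → ℂ) × (Fin g → ℂ),
      (∀ i, (u i).1 ∈ D ∧ (u i).2.1 ∈ D ∧ (u i).2.2 ∈ D) ∧
      IsUnit (Matrix.of fun i χ => coefU τ k (u i).1 (u i).2.1 (u i).2.2 χ) := by
  classical
  let S : Set (Char2 g × Char2 g → ℂ) :=
    {m | ∃ u₁ ∈ D, ∃ u₂ ∈ D, ∃ u₃ ∈ D, m = coefU τ k u₁ u₂ u₃}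
  -- the span is everything
  have hspan : Submodule.span ℂ S = ⊤ := by
    by_contra hne
    obtain ⟨f, hf0, hf⟩ := Submodule.exists_le_ker_of_lt_top _ (lt_top_iff_ne_top.mpr hne)
    apply hf0
    have hfS : ∀ m ∈ S, f m = 0 := fun m hm => LinearMap.mem_ker.mp (hf (Submodule.subset_span hm))
    have hℓ : (fun χ => f (Pi.single χ 1)) = 0 := by
      apply eq_zero_of_coefU_orthogonal τ D hD k
      intro u₁ hu₁ u₂ hu₂ u₃ hu₃
      have := hfS _ ⟨u₁, hu₁, u₂, hu₂, u₃, hu₃, rfl⟩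
      rw [← this]
      conv_rhs => rw [pi_eq_sum_univ' (coefU τ k u₁ u₂ u₃)]
      rw [map_sum]
      refine Finset.sum_congr rfl fun χ _ => ?_
      rw [map_smul, smul_eq_mul, mul_comm]
    apply LinearMap.pi_ext'
    intro χ
    apply LinearMap.ext_ring
    simpa using congrFun hℓ χ
  obtain ⟨f, hfS, -, hfli⟩ := Submodule.exists_fun_fin_finrank_span_eq ℂ S
  have hcard : Module.finrank ℂ (Submodule.span ℂ S) = Fintype.card (Char2 g × Char2 g) := by
    rw [hspan, finrank_top, Module.finrank_fintype_fun_eq_card]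
  let e : Char2 g × Char2 g ≃ Fin (Module.finrank ℂ (Submodule.span ℂ S)) :=
    (Fintype.equivFinOfCardEq hcard.symm)
  choose u₁ hu₁ u₂ hu₂ u₃ hu₃ hm using fun i => hfS (e i)
  refine ⟨fun i => (u₁ i, u₂ i, u₃ i), fun i => ⟨hu₁ i, hu₂ i, hu₃ i⟩, ?_⟩
  rw [← Matrix.linearIndependent_rows_iff_isUnit]
  have hrow : (Matrix.of fun i χ => coefU τ k (u₁ i) (u₂ i) (u₃ i) χ).row = f ∘ e := by
    funext i
    rw [Function.comp_apply, hm i]
    rfl
  rw [hrow]
  exact hfli.comp e e.injective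

end Fermat.Agent.M17.Basis9
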