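/-
Programme M17 (target S17), block [ALG], the EDGE LEMMA of A4' (helper2; statement by helper5,
board 1147).

For balanced lists `T, T'` of translation vectors and two points `P Q : ℍ` giving `ℚ̄`-rational
places `wP wQ`: if the zero divisors `Z (A Q - z'' - t)` of the translates are `ℚ̄`-rational
(`= extDivC (D t)`), then there is `r ∈ F_ℚ̄` with `div r = ∑_T D t - ∑_T' D t`, and for every such `r`

  `ψ_T(z') ψ_T'(z'') = φ(r(P) / r(Q)) · ψ_T(z'') ψ_T'(z')`,   `z' = z'' + A P - A Q`,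

where `ψ_T z = ∏_{t ∈ T} th0 (z + t)` and `φ = complexEmbedding`.
-/
import Mathlib
import Fermat.Agent.M17.Interfaces7
import Fermat.Agent.M17.AlgGlue7

set_option autoImplicit false
set_option linter.unusedSectionVars false
set_option linter.unusedVariables false
set_option linter.style.longLine false

namespace Fermat.Agent.M17.EdgeLemma2

open ModularCurve AlgebraicCurve Fermat.Agent.X0 UpperHalfPlane
open Fermat.Agent.J.DESC.ConstExt24 Fermat.Agent.J.DESC.LaurentExt24
open Fermat.Agent.J.DESC.DescentC24 Fermat.Agent.J.DESC.ExtPic22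
open Fermat.Agent.J.DESC.DescentFinal24
open Fermat.Agent.RR.LSpace Fermat.Agent.RR.LHypGen
open Fermat.Agent.ES.KUM.FieldL25 Fermat.Agent.ES.KUM Fermat.Agent.X0.SurjPoint
open Fermat.Agent.M15.DivDefs4
open Fermat.Agent.M17.Interfaces7 Fermat.Agent.M17.AlgGlue7

noncomputable section

attribute [local instance] instAlgebraQbarComplex instTowerQbarComplex

variable (N : ℕ) [NeZero N]

/-- the product of the translates `th0 (z + t)`, `t ∈ T`. -/
def psiT {g : ℕ} (th0 : (Fin g → ℂ) → ℂ) (T : List (Fin g → ℂ)) (z : Fin g → ℂ) : ℂ :=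
  (T.map fun t => th0 (z + t)).prod

/-! ### list bookkeeping -/

theorem list_sum_map_sub {g : ℕ} (c : Fin g → ℂ) (T : List (Fin g → ℂ)) :
    (T.map fun t => c - t).sum = T.length • c - T.sum := by
  induction T with
  | nil => simp
  | cons a T ih =>
    simp only [List.map_cons, List.sum_cons, List.length_cons, ih, succ_nsmul]
    abel

/-- evaluation of a holomorphic function at a point, as a ring hom. -/
def evalH (z : ℍ) : HolH →+* ℂ := (Pi.evalRingHom (fun _ : ℍ => ℂ) z).comp HolH.val.toRingHom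

theorem evalH_apply (z : ℍ) (a : HolH) : evalH z a = (a : ℍ → ℂ) z := rfl

theorem coe_list_prod_apply (l : List HolH) (z : ℍ) :
    ((l.prod : HolH) : ℍ → ℂ) z = (l.map fun a : HolH => (a : ℍ → ℂ) z).prod := by
  rw [← evalH_apply, map_list_prod]
  rfl

theorem divisor_list_sum_apply {K F : Type*} [Field K] [Field F] [Algebra K F]
    (l : List (Divisor K F)) (v : Place K F) : l.sum v = (l.map fun D => D v).sum := by
  induction l with
  | nil => simp
  | cons a l ih => simp [ih]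

/-! ### consequences of `RTData` -/

section RT

variable {N} {g : ℕ} {L : LatData N g} {AJ : AJData N L} {th0 : (Fin g → ℂ) → ℂ}
  (RT : RTData N L AJ th0)

theorem Fe_ne_zero_of_apply {e : Fin g → ℂ} {τ : ℍ} (h : (RT.Fe e : ℍ → ℂ) τ ≠ 0) :
    RT.Fe e ≠ 0 := by
  intro h0
  apply h
  rw [h0]
  rfl

/-- the zero divisor `Z e` does not contain a point of `ℍ` at which `F_e` does not vanish. -/
theorem Z_pt_eq_zero {e : Fin g → ℂ} {z : ℍ} (h : (RT.Fe e : ℍ → ℂ) z ≠ 0) :
    RT.Z e (ptPlaceC N 1 z) = 0 := by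
  have hne := Fe_ne_zero_of_apply RT h
  have hspec := (RT.Z_spec e hne).2.1 z
  rw [ordMer_algebraMap z hne, (Fermat.Agent.X0.ordH_eq_zero_iff (RT.Fe e).2 z).mpr h] at hspec
  have hidx : (ptIdx N 1 z : ℤ) ≠ 0 := by
    have := ptIdx_pos N 1 z
    exact_mod_cast this.ne'
  have h0 : RT.Z e (ptPlaceC N 1 z) * (ptIdx N 1 z : ℤ) = 0 := by
    rw [← hspec]
    rfl
  exact (mul_eq_zero.mp h0).resolve_right hidx

end RT

/-! ### the edge lemma -/

/-- **EDGE LEMMA** (helper5's statement, board 1147). -/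
theorem edge {g : ℕ} (L : LatData N g) (AJ : AJData N L) (th0 : (Fin g → ℂ) → ℂ)
    (RT : RTData N L AJ th0)
    (T T' : List (Fin g → ℂ)) (hlen : T.length = T'.length) (hsum : T.sum = T'.sum)
    (z'' : Fin g → ℂ) (P Q : ℍ)
    (hQ : ∀ t ∈ T ++ T', th0 (z'' + t) ≠ 0)
    (hP : ∀ t ∈ T', th0 (z'' + L.A P - L.A Q + t) ≠ 0)
    (D : (Fin g → ℂ) → Divisor Qb (FQ N))
    (hD : ∀ t ∈ T ++ T', RT.Z (L.A Q - z'' - t) = extDivC N (D t))
    (wP wQ : Place Qb (FQ N)) (hwP : extPlaceC N wP = ptPlaceC N 1 P)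
    (hwQ : extPlaceC N wQ = ptPlaceC N 1 Q) :
    (∃ r : FQ N, r ≠ 0 ∧ ∀ w : Place Qb (FQ N),
        (w.ord r : ℤ) = (T.map fun t => D t w).sum - (T'.map fun t => D t w).sum) ∧
    ∀ r : FQ N, r ≠ 0 →
      (∀ w, (w.ord r : ℤ) = (T.map fun t => D t w).sum - (T'.map fun t => D t w).sum) →
      r ∈ wP.toValuationSubring ∧ r ∈ wQ.toValuationSubring ∧ valAt (lHypQ N) wQ r ≠ 0 ∧
      psiT th0 T (z'' + L.A P - L.A Q) * psiT th0 T' z'' =
        algebraMap Qb ℂ (valAt (lHypQ N) wP r / valAt (lHypQ N) wQ r) *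
          (psiT th0 T z'' * psiT th0 T' (z'' + L.A P - L.A Q)) := by
  classical
  -- the translation vectors `e_t = A Q - z'' - t`
  set eOf : (Fin g → ℂ) → (Fin g → ℂ) := fun t => L.A Q - z'' - t with heOf
  have hFeQ : ∀ t, (RT.Fe (eOf t) : ℍ → ℂ) Q = th0 (z'' + t) := by
    intro t
    rw [RT.Fe_apply]
    congr 1
    funext k
    simp only [heOf, Pi.sub_apply, Pi.add_apply]
    ring
  have hFeP : ∀ t, (RT.Fe (eOf t) : ℍ → ℂ) P = th0 (z'' + L.A P - L.A Q + t) := by
    intro t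
    rw [RT.Fe_apply]
    congr 1
    funext k
    simp only [heOf, Pi.sub_apply, Pi.add_apply]
    ring
  have hne : ∀ t ∈ T ++ T', RT.Fe (eOf t) ≠ 0 := fun t ht =>
    Fe_ne_zero_of_apply RT (by rw [hFeQ]; exact hQ t ht)
  have hEne : ∀ e ∈ T.map eOf, RT.Fe e ≠ 0 := by
    intro e he
    obtain ⟨t, ht, rfl⟩ := List.mem_map.mp he
    exact hne t (List.mem_append_left _ ht)
  have hE'ne : ∀ e ∈ T'.map eOf, RT.Fe e ≠ 0 := by
    intro e he
    obtain ⟨t, ht, rfl⟩ := List.mem_map.mp he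
    exact hne t (List.mem_append_right _ ht)
  have hlenE : (T.map eOf).length = (T'.map eOf).length := by
    rw [List.length_map, List.length_map, hlen]
  have hsumE : (T.map eOf).sum = (T'.map eOf).sum := by
    rw [heOf, list_sum_map_sub, list_sum_map_sub, hlen, hsum]
  -- the algebraic function
  obtain ⟨h, hh⟩ := RT.Z_balanced (T.map eOf) (T'.map eOf) hlenE hsumE hEne hE'ne
  have hord := RT.Z_ratio (T.map eOf) (T'.map eOf) h hEne hE'ne hh
  set a : HolH := ((T.map eOf).map RT.Fe).prod with ha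
  set b : HolH := ((T'.map eOf).map RT.Fe).prod with hb
  have ha0 : a ≠ 0 := by
    apply List.prod_ne_zero
    intro h0
    obtain ⟨e, he, he0⟩ := List.mem_map.mp h0
    exact hEne e he he0
  have hb0 : b ≠ 0 := by
    apply List.prod_ne_zero
    intro h0
    obtain ⟨e, he, he0⟩ := List.mem_map.mp h0
    exact hE'ne e he he0
  have haM : algebraMap HolH MerH a ≠ 0 :=
    (map_ne_zero_iff _ (IsFractionRing.injective HolH MerH)).mpr ha0
  have hh0 : h ≠ 0 := by
    rintro rfl
    rw [map_zero, zero_mul] at hh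
    exact haM hh.symm
  -- values of `a`, `b` at `P`, `Q`
  have haP : (a : ℍ → ℂ) P = psiT th0 T (z'' + L.A P - L.A Q) := by
    rw [ha, coe_list_prod_apply, List.map_map, List.map_map, psiT]
    congr 1
    exact List.map_congr_left fun t _ => hFeP t
  have haQ : (a : ℍ → ℂ) Q = psiT th0 T z'' := by
    rw [ha, coe_list_prod_apply, List.map_map, List.map_map, psiT]
    congr 1
    exact List.map_congr_left fun t _ => hFeQ t
  have hbP : (b : ℍ → ℂ) P = psiT th0 T' (z'' + L.A P - L.A Q) := by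
    rw [hb, coe_list_prod_apply, List.map_map, List.map_map, psiT]
    congr 1
    exact List.map_congr_left fun t _ => hFeP t
  have hbQ : (b : ℍ → ℂ) Q = psiT th0 T' z'' := by
    rw [hb, coe_list_prod_apply, List.map_map, List.map_map, psiT]
    congr 1
    exact List.map_congr_left fun t _ => hFeQ t
  have hbP0 : (b : ℍ → ℂ) P ≠ 0 := by
    rw [hbP, psiT]
    apply List.prod_ne_zero
    intro h0
    obtain ⟨t, ht, ht0⟩ := List.mem_map.mp h0
    exact hP t ht ht0
  have hbQ0 : (b : ℍ → ℂ) Q ≠ 0 := by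
    rw [hbQ, psiT]
    apply List.prod_ne_zero
    intro h0
    obtain ⟨t, ht, ht0⟩ := List.mem_map.mp h0
    exact hQ t (List.mem_append_right _ ht) ht0
  -- the rational divisor
  set Dtot : Divisor Qb (FQ N) := (T.map D).sum - (T'.map D).sum with hDtot
  have hDtot_apply : ∀ w : Place Qb (FQ N),
      Dtot w = (T.map fun t => D t w).sum - (T'.map fun t => D t w).sum := by
    intro w
    rw [hDtot, Finsupp.sub_apply, divisor_list_sum_apply, divisor_list_sum_apply, List.map_map,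
      List.map_map]
    rfl
  have hZext : ∀ (S : List (Fin g → ℂ)), (∀ t ∈ S, t ∈ T ++ T') → ∀ v : Place ℂ (FC N),
      ((S.map eOf).map fun e => RT.Z e v).sum = extDivC N (S.map D).sum v := by
    intro S hS v
    rw [map_list_sum, divisor_list_sum_apply, List.map_map, List.map_map, List.map_map]
    congr 1
    refine List.map_congr_left fun t ht => ?_
    simp only [Function.comp_apply]
    rw [← hD t (hS t ht)]
  have hDext : ∀ v : Place ℂ (FCx N), extDivC N Dtot v = v.ord h := by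
    intro v
    rw [hDtot, map_sub, Finsupp.sub_apply, hord v,
      hZext T (fun t ht => List.mem_append_left _ ht) v,
      hZext T' (fun t ht => List.mem_append_right _ ht) v]
  -- first conjunct, from (G5)
  obtain ⟨c, r₀, hc0, hr₀, -, hdiv⟩ := exists_eq_const_mul_bcQC N hh0 Dtot hDext
  refine ⟨⟨r₀, hr₀, fun w => by rw [← hdiv w, hDtot_apply]⟩, ?_⟩
  -- second conjunct
  intro r hr0 hr
  have hr' : ∀ w : Place Qb (FQ N), Dtot w = w.ord r := fun w => by rw [hDtot_apply, hr w]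
  have hbr0 : bcQC N r ≠ 0 := bcQC_ne_zero N hr0
  have hordr : ∀ v : Place ℂ (FCx N), extDivC N Dtot v = v.ord (bcQC N r) := fun v =>
    extDiv_apply_of_principal (isConstExt_bcQC N) (isGen_jL Qb N) (isGen_jL ℂ N) hr0 hr' v
  have hu : ∀ v : Place ℂ (FCx N), 0 ≤ v.ord (h * (bcQC N r)⁻¹) := by
    intro v
    rw [v.ord_mul hh0 (inv_ne_zero hbr0), v.ord_inv, ← hDext, ← hordr]
    omega
  obtain ⟨c₁, hc₁⟩ := eq_algebraMap_of_forall_ord_nonneg (lHypC N) hu
  have hc₁0 : c₁ ≠ 0 := by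
    rintro rfl
    rw [map_zero] at hc₁
    exact mul_ne_zero hh0 (inv_ne_zero hbr0) hc₁
  have hhr : h = algebraMap ℂ (FCx N) c₁ * bcQC N r := by
    rw [← hc₁, mul_assoc, inv_mul_cancel₀ hbr0, mul_one]
  -- the local multiplicities
  have hDnonneg : ∀ t ∈ T ++ T', ∀ w : Place Qb (FQ N), 0 ≤ D t w := by
    intro t ht w
    rw [← extDivC_apply_extPlaceC N (D t) w, ← hD t ht]
    exact RT.Z_nonneg _ _
  have hDP : ∀ t ∈ T', D t wP = 0 := by
    intro t ht
    rw [← extDivC_apply_extPlaceC N (D t) wP, ← hD t (List.mem_append_right _ ht), hwP]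
    exact Z_pt_eq_zero RT (by rw [hFeP]; exact hP t ht)
  have hDQ : ∀ t ∈ T ++ T', D t wQ = 0 := by
    intro t ht
    rw [← extDivC_apply_extPlaceC N (D t) wQ, ← hD t ht, hwQ]
    exact Z_pt_eq_zero RT (by rw [hFeQ]; exact hQ t ht)
  have hordP : 0 ≤ wP.ord r := by
    rw [hr wP]
    have h1 : (T'.map fun t => D t wP).sum = 0 := by
      apply List.sum_eq_zero
      intro x hx
      obtain ⟨t, ht, rfl⟩ := List.mem_map.mp hx
      exact hDP t ht
    have h2 : 0 ≤ (T.map fun t => D t wP).sum := by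
      apply List.sum_nonneg
      intro x hx
      obtain ⟨t, ht, rfl⟩ := List.mem_map.mp hx
      exact hDnonneg t (List.mem_append_left _ ht) wP
    rw [h1, sub_zero]
    exact h2
  have hordQ : wQ.ord r = 0 := by
    rw [hr wQ]
    have h1 : (T'.map fun t => D t wQ).sum = 0 := by
      apply List.sum_eq_zero
      intro x hx
      obtain ⟨t, ht, rfl⟩ := List.mem_map.mp hx
      exact hDQ t (List.mem_append_right _ ht)
    have h2 : (T.map fun t => D t wQ).sum = 0 := by
      apply List.sum_eq_zero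
      intro x hx
      obtain ⟨t, ht, rfl⟩ := List.mem_map.mp hx
      exact hDQ t (List.mem_append_left _ ht)
    rw [h1, h2, sub_zero]
  have hrP : r ∈ wP.toValuationSubring := FF.mem_of_ord_nonneg wP hordP
  have hrQ : r ∈ wQ.toValuationSubring := FF.mem_of_ord_nonneg wQ hordQ.ge
  have hvQ : valAt (lHypQ N) wQ r ≠ 0 := by
    intro h0
    rcases (valAt_eq_zero_iff (lHypQ N) wQ hrQ).mp h0 with h1 | h1
    · exact hr0 h1
    · omega
  refine ⟨hrP, hrQ, hvQ, ?_⟩
  -- the two values of `h`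
  have hvalP : valAt (lHypC N) (ptPlaceC N 1 P) h
      = c₁ * algebraMap Qb ℂ (valAt (lHypQ N) wP r) := by
    rw [← hwP, hhr, valAt_mul (lHypC N) _ ((extPlaceC N wP).algebraMap_mem' c₁)
      (bcQC_mem_extPlaceC N wP hrP), valAt_algebraMap, valAt_extPlaceC N wP hrP]
  have hvalQ : valAt (lHypC N) (ptPlaceC N 1 Q) h
      = c₁ * algebraMap Qb ℂ (valAt (lHypQ N) wQ r) := by
    rw [← hwQ, hhr, valAt_mul (lHypC N) _ ((extPlaceC N wQ).algebraMap_mem' c₁)
      (bcQC_mem_extPlaceC N wQ hrQ), valAt_algebraMap, valAt_extPlaceC N wQ hrQ]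
  have hP2 := valAt_ptPlaceC N P hbP0 hh
  have hQ2 := valAt_ptPlaceC N Q hbQ0 hh
  rw [hvalP, haP, hbP] at hP2
  rw [hvalQ, haQ, hbQ] at hQ2
  rw [hbP] at hbP0
  rw [hbQ] at hbQ0
  have hφQ : algebraMap Qb ℂ (valAt (lHypQ N) wQ r) ≠ 0 :=
    (map_ne_zero_iff _ (algebraMap Qb ℂ).injective).mpr hvQ
  rw [map_div₀]
  have e1 : psiT th0 T (z'' + L.A P - L.A Q)
      = c₁ * algebraMap Qb ℂ (valAt (lHypQ N) wP r) * psiT th0 T' (z'' + L.A P - L.A Q) := by
    rw [hP2, div_mul_cancel₀ _ hbP0]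
  have e2 : psiT th0 T z''
      = c₁ * algebraMap Qb ℂ (valAt (lHypQ N) wQ r) * psiT th0 T' z'' := by
    rw [hQ2, div_mul_cancel₀ _ hbQ0]
  rw [e1, e2]
  field_simp

end

end Fermat.Agent.M17.EdgeLemma2
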