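/-
M17 (helper6), programme M17 (target S17); imported by no statement.

**The weak Mordell-Weil theorem for `J₀(N)(ℚ)`**: `G / 2G` is finite, where
`G = FixedPoints.addSubgroup Gal(ℚ̄/ℚ) (JZero N)`; in the literal shape of the hypothesis `H₁` of
Mathlib's `AddCommGroup.fg_of_descent'`.

Proof (classical): Kummer cocycles `c_x σ = σ y - y` (`2 y = x`, `J₀(N)(ℚ̄)` is divisible:
`M15/DivFinal4`), unramified outside `2N` by the reduction package (SP) of `ES/TOP` (inertia
invariance + injectivity on prime-to-`ℓ` torsion), finiteness by Kummer theory in the form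
`PT/GLOB/H1Finite15.exists_field_forall_hom`.
-/
import Mathlib
import Fermat.Agent.M15.DivFinal4
import Fermat.Agent.ES.KUM.FiniteTorsion15
import Fermat.Agent.ES.GAL.OpenStab12
import Fermat.Agent.ES.TOP.TorsionGalois12
import Fermat.Agent.PT.GLOB.H1Finite15
import Fermat.Agent.PT.GLOB.H1FiniteCoh15

set_option autoImplicit false
set_option linter.unusedSectionVars false
set_option linter.unusedVariables false
set_option linter.style.haveILetI false
set_option synthInstance.maxHeartbeats 400000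

noncomputable section

open AlgebraicCurve ModularCurve

namespace Fermat.Agent.M17.WeakMW6

local notation "Qb" => AlgebraicClosure ℚ
local notation "Γ" => (AlgebraicClosure ℚ ≃ₐ[ℚ] AlgebraicClosure ℚ)

variable (N : ℕ) [NeZero N]

/-! ### the Kummer cocycle -/

/-- a chosen half of a point of `J₀(N)(ℚ̄)`. -/
def half (x : JZero N) : JZero N :=
  (Fermat.Agent.M15.DivFinal4.jzero_divisible N 2 two_ne_zero x).choose

theorem two_nsmul_half (x : JZero N) : 2 • half N x = x :=
  (Fermat.Agent.M15.DivFinal4.jzero_divisible N 2 two_ne_zero x).choose_spec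

/-- the Kummer cocycle of `x`. -/
def kum (x : JZero N) (σ : Γ) : JZero N := σ • half N x - half N x

theorem smul_nsmul' (σ : Γ) (m : ℕ) (x : JZero N) : σ • (m • x) = m • (σ • x) :=
  map_nsmul (DistribSMul.toAddMonoidHom (JZero N) σ) m x

theorem two_nsmul_kum {x : JZero N} (hx : ∀ σ : Γ, σ • x = x) (σ : Γ) : 2 • kum N x σ = 0 := by
  unfold kum
  rw [nsmul_sub, ← smul_nsmul', two_nsmul_half, hx σ, sub_self]

theorem kum_mul (x : JZero N) (σ τ : Γ) : kum N x (σ * τ) = kum N x σ + σ • kum N x τ := by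
  unfold kum
  rw [mul_smul, smul_sub]
  abel

theorem kum_eq_zero_iff (x : JZero N) (σ : Γ) : kum N x σ = 0 ↔ σ • half N x = half N x := by
  unfold kum
  rw [sub_eq_zero]

/-! ### the rational points -/

/-- `J₀(N)(ℚ)`: the Galois-fixed points. -/
abbrev G : AddSubgroup (JZero N) := FixedPoints.addSubgroup Γ (JZero N)

theorem mem_G_iff (x : JZero N) : x ∈ G N ↔ ∀ σ : Γ, σ • x = x := Iff.rfl

/-- equal Kummer cocycles: the points differ by an element of `2 G`. -/
theorem sub_mem_range_of_kum_eq {x x' : G N} (h : kum N (x : JZero N) = kum N (x' : JZero N)) :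
    x - x' ∈ (nsmulAddMonoidHom (α := ↥(G N)) 2).range := by
  have hz : half N (x : JZero N) - half N (x' : JZero N) ∈ G N := by
    intro σ
    have h1 := congrFun h σ
    unfold kum at h1
    rw [smul_sub]
    have e : σ • half N (x : JZero N) - σ • half N (x' : JZero N) -
        (half N (x : JZero N) - half N (x' : JZero N)) = 0 := by
      rw [sub_sub_sub_comm, h1, sub_self]
    exact sub_eq_zero.mp e
  refine ⟨⟨_, hz⟩, Subtype.ext ?_⟩
  show 2 • (half N (x : JZero N) - half N (x' : JZero N)) = (x : JZero N) - (x' : JZero N)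
  rw [nsmul_sub, two_nsmul_half, two_nsmul_half]

/-- finiteness of the set of Kummer cocycles gives the finiteness of `G / 2 G`. -/
theorem finiteIndex_of_finite_range
    (hfin : (Set.range fun x : G N => kum N (x : JZero N)).Finite) :
    (nsmulAddMonoidHom (α := ↥(G N)) 2).range.FiniteIndex := by
  classical
  haveI : Finite (Set.range fun x : G N => kum N (x : JZero N)) := hfin.to_subtype
  let H := (nsmulAddMonoidHom (α := ↥(G N)) 2).range
  let f : (Set.range fun x : G N => kum N (x : JZero N)) → (↥(G N)) ⧸ H :=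
    fun r => QuotientAddGroup.mk r.2.choose
  have hf : Function.Surjective f := by
    intro q
    obtain ⟨x, rfl⟩ := QuotientAddGroup.mk_surjective q
    refine ⟨⟨kum N (x : JZero N), x, rfl⟩, ?_⟩
    show QuotientAddGroup.mk _ = QuotientAddGroup.mk x
    set r : Set.range fun x : G N => kum N (x : JZero N) := ⟨kum N (x : JZero N), x, rfl⟩ with hr
    have hspec : kum N ((r.2.choose : G N) : JZero N) = kum N (x : JZero N) := r.2.choose_spec
    rw [QuotientAddGroup.eq]
    have := sub_mem_range_of_kum_eq N hspec.symm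
    rwa [sub_eq_neg_add] at this
  haveI : Finite ((↥(G N)) ⧸ H) := Finite.of_surjective f hf
  exact AddSubgroup.finiteIndex_of_finite_quotient

/-! ### the Kummer cocycle is unramified outside `2 N` -/

open Fermat.Agent.ES.TOP.TorsionGalois12 Fermat.Agent.ES.TOP.Skeleton8 in
theorem inertia_smul_half {ℓ : ℕ} (hℓ : ℓ.Prime) (hℓN : ¬ ℓ ∣ N) (hℓ2 : ℓ ≠ 2)
    {A : ValuationSubring Qb} (hA : A.LiesOverPrime ℓ) {x : JZero N} (hx : ∀ σ : Γ, σ • x = x)
    {τ : Γ} (hτ : τ ∈ A.inertiaSubgroupIn ℚ) : τ • half N x = half N x := by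
  obtain ⟨G', _, Φ, h1, -, h3⟩ := sp N ℓ hℓ hℓN A hA
  rw [← sub_eq_zero]
  have h2 : ¬ ℓ ∣ 2 := fun hd => hℓ2 ((Nat.prime_dvd_prime_iff_eq hℓ Nat.prime_two).mp hd)
  refine h3 2 _ h2 ?_ ?_
  · exact two_nsmul_kum N hx τ
  · rw [map_sub, h1 τ hτ, sub_self]

/-! ### open subgroups and their fixed fields -/

local instance isAlgClosureQb : IsAlgClosure ℚ Qb := ⟨inferInstance, inferInstance⟩
local instance normalQb : Normal ℚ Qb := IsAlgClosure.normal ℚ Qb
local instance isGaloisQb : IsGalois ℚ Qb := IsAlgClosure.isGalois ℚ Qb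

section Fixed

variable (V : Subgroup Γ)

/-- `V` contains the fixing subgroup of a number field. -/
def IsOpenLevel : Prop :=
  ∃ L : IntermediateField ℚ Qb, FiniteDimensional ℚ L ∧ L.fixingSubgroup ≤ V

variable {V}

theorem fixingSubgroup_fixedField (hV : IsOpenLevel V) :
    (IntermediateField.fixedField V).fixingSubgroup = V := by
  obtain ⟨L, hL, hLV⟩ := hV
  have hopen : IsOpen (V : Set Γ) :=
    Subgroup.isOpen_mono hLV (IntermediateField.fixingSubgroup_isOpen L)
  have hclosed : IsClosed (V : Set Γ) := Subgroup.isClosed_of_isOpen V hopen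
  exact InfiniteGalois.fixingSubgroup_fixedField ⟨V, hclosed⟩

theorem finiteDimensional_fixedField (hV : IsOpenLevel V) :
    FiniteDimensional ℚ (IntermediateField.fixedField V) := by
  obtain ⟨L, hL, hLV⟩ := hV
  have hle : IntermediateField.fixedField V ≤ L := by
    intro x hx
    rw [IntermediateField.mem_fixedField_iff] at hx
    rw [← InfiniteGalois.fixedField_fixingSubgroup L, IntermediateField.mem_fixedField_iff]
    intro s hs
    exact hx s (hLV hs)
  exact Module.Finite.of_injective (IntermediateField.inclusion hle).toLinearMap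
    (IntermediateField.inclusion_injective hle)

/-- the fixed field of an open subgroup containing the inertia groups outside `T` is unramified
outside `T`. -/
theorem isUnramifiedOutside_fixedField (hV : IsOpenLevel V) (T : Finset Nat.Primes)
    (hin : ∀ q : Nat.Primes, q ∉ T → ∀ A : ValuationSubring Qb, A.LiesOverPrime (q : ℕ) →
      A.inertiaSubgroupIn ℚ ≤ V) :
    (IntermediateField.fixedField V).IsUnramifiedOutside T := by
  refine ⟨finiteDimensional_fixedField hV, fun q hq A hA => ?_⟩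
  rw [fixingSubgroup_fixedField hV]
  exact hin q hq A hA

end Fixed

/-- from a finite-level condition to an open-level subgroup. -/
theorem isOpenLevel_of_hasLevel {V : Subgroup Γ} {C : Γ → Prop}
    (h : Fermat.Agent.ES.GAL.OpenStab12.HasLevel C) (hC : ∀ σ, C σ → σ ∈ V) : IsOpenLevel V := by
  obtain ⟨L, hL, H⟩ := h
  refine ⟨L, hL, fun σ hσ => hC σ (H σ fun a ha => ?_)⟩
  exact (IntermediateField.mem_fixingSubgroup_iff L σ).mp hσ a ha

/-! ### the specific subgroups and fields -/

/-- the finite set of bad primes: those dividing `2 N`. -/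
def badPrimes : Finset Nat.Primes := Finset.subtype Nat.Prime (2 * N).primeFactors

theorem of_not_mem_badPrimes {q : Nat.Primes} (hq : q ∉ badPrimes N) :
    (q : ℕ) ≠ 2 ∧ ¬ (q : ℕ) ∣ N := by
  have h : (q : ℕ) ∉ (2 * N).primeFactors := fun h => hq (Finset.mem_subtype.mpr h)
  rw [Nat.mem_primeFactors] at h
  have hN : 2 * N ≠ 0 := mul_ne_zero two_ne_zero (NeZero.ne N)
  constructor
  · intro h2
    exact h ⟨q.2, h2 ▸ dvd_mul_right 2 N, hN⟩
  · intro hd
    exact h ⟨q.2, hd.mul_left 2, hN⟩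

/-- the pointwise stabiliser of `J₀(N)[2]`. -/
def U₂ : Subgroup Γ where
  carrier := {σ | ∀ t : JZero N, 2 • t = 0 → σ • t = t}
  one_mem' := fun t _ => one_smul _ t
  mul_mem' := fun {a b} ha hb t ht => by rw [mul_smul, hb t ht, ha t ht]
  inv_mem' := fun {a} ha t ht => by
    rw [inv_smul_eq_iff]
    exact (ha t ht).symm

theorem mem_U₂_iff (σ : Γ) : σ ∈ U₂ N ↔ ∀ t : JZero N, 2 • t = 0 → σ • t = t := Iff.rfl

/-- the stabiliser of `J₀(N)[2]` and of the chosen half of `x`. -/
def U (x : JZero N) : Subgroup Γ := U₂ N ⊓ MulAction.stabilizer Γ (half N x)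

theorem mem_U_iff (x : JZero N) (σ : Γ) :
    σ ∈ U N x ↔ (∀ t : JZero N, 2 • t = 0 → σ • t = t) ∧ σ • half N x = half N x := Iff.rfl

theorem hasLevel_two : Fermat.Agent.ES.GAL.OpenStab12.HasLevel
    (fun σ : Γ => ∀ y : JZero N, 2 • y = 0 → σ • y = y) :=
  Fermat.Agent.ES.GAL.OpenStab12.hasLevel_torsion N 2
    (Fermat.Agent.ES.KUM.FiniteTorsion15.finite_setOf_nsmul_eq_zero N 2)

theorem isOpenLevel_U₂ : IsOpenLevel (U₂ N) :=
  isOpenLevel_of_hasLevel (hasLevel_two N) fun σ h => h

theorem isOpenLevel_U (x : JZero N) : IsOpenLevel (U N x) :=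
  isOpenLevel_of_hasLevel
    ((hasLevel_two N).and (Fermat.Agent.ES.GAL.OpenStab12.hasLevel_pic0 N (half N x)))
    fun σ h => ⟨h.1, h.2⟩

theorem inertia_le_U₂ {q : Nat.Primes} (hq : q ∉ badPrimes N) {A : ValuationSubring Qb}
    (hA : A.LiesOverPrime (q : ℕ)) : A.inertiaSubgroupIn ℚ ≤ U₂ N := by
  obtain ⟨h2, hN⟩ := of_not_mem_badPrimes N hq
  intro τ hτ t ht
  have hd : ¬ (q : ℕ) ∣ 2 := fun hd => h2 ((Nat.prime_dvd_prime_iff_eq q.2 Nat.prime_two).mp hd)
  exact Fermat.Agent.ES.TOP.TorsionGalois12.inertia_smul_eq q.2 hN hA hd ht hτ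

theorem inertia_le_U {q : Nat.Primes} (hq : q ∉ badPrimes N) {A : ValuationSubring Qb}
    (hA : A.LiesOverPrime (q : ℕ)) {x : JZero N} (hx : ∀ σ : Γ, σ • x = x) :
    A.inertiaSubgroupIn ℚ ≤ U N x := by
  obtain ⟨h2, hN⟩ := of_not_mem_badPrimes N hq
  intro τ hτ
  exact ⟨inertia_le_U₂ N hq hA hτ, inertia_smul_half N q.2 hN h2 hA hx hτ⟩

/-- the field cut out by `J₀(N)[2]`. -/
def F₀ : IntermediateField ℚ Qb := IntermediateField.fixedField (U₂ N)

/-- the field cut out by `J₀(N)[2]` and the chosen half of `x`. -/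
def E (x : JZero N) : IntermediateField ℚ Qb := IntermediateField.fixedField (U N x)

theorem fixingSubgroup_F₀ : (F₀ N).fixingSubgroup = U₂ N :=
  fixingSubgroup_fixedField (isOpenLevel_U₂ N)

theorem fixingSubgroup_E (x : JZero N) : (E N x).fixingSubgroup = U N x :=
  fixingSubgroup_fixedField (isOpenLevel_U N x)

theorem isUnramifiedOutside_F₀ : (F₀ N).IsUnramifiedOutside (badPrimes N) :=
  isUnramifiedOutside_fixedField (isOpenLevel_U₂ N) (badPrimes N)
    fun q hq A hA => inertia_le_U₂ N hq hA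

theorem isUnramifiedOutside_E {x : JZero N} (hx : ∀ σ : Γ, σ • x = x) :
    (E N x).IsUnramifiedOutside (badPrimes N) :=
  isUnramifiedOutside_fixedField (isOpenLevel_U N x) (badPrimes N)
    fun q hq A hA => inertia_le_U N hq hA hx

theorem neg_one_mem_F₀ : (-1 : Qb) ∈ F₀ N := neg_mem (one_mem _)

theorem isPrimitiveRoot_neg_one : IsPrimitiveRoot (-1 : Qb) 2 := by
  refine IsPrimitiveRoot.mk_of_lt (-1 : Qb) two_pos (by norm_num) ?_
  intro l hl0 hl2 h
  interval_cases l
  rw [pow_one] at h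
  have h2 : (2 : Qb) = 0 := by linear_combination -h
  exact two_ne_zero h2

/-! ### finiteness of the set of Kummer cocycles -/

/-- the `2`-torsion subgroup of `J₀(N)(ℚ̄)`. -/
def J2 : AddSubgroup (JZero N) where
  carrier := {t | 2 • t = 0}
  zero_mem' := smul_zero 2
  add_mem' := fun {a b} ha hb => by
    show 2 • (a + b) = 0
    rw [nsmul_add, ha, hb, add_zero]
  neg_mem' := fun {a} ha => by
    show 2 • (-a) = 0
    have ha' : 2 • a = 0 := ha
    rw [neg_nsmul, ha', neg_zero]

theorem mem_J2_iff (t : JZero N) : t ∈ J2 N ↔ 2 • t = 0 := Iff.rfl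

instance finite_J2 : Finite (J2 N) :=
  (Fermat.Agent.ES.KUM.FiniteTorsion15.finite_setOf_nsmul_eq_zero N 2).to_subtype

/-- the Kummer cocycle with values in `J₀(N)[2]`. -/
def kumJ2 (x : G N) (σ : Γ) : J2 N := ⟨kum N (x : JZero N) σ, two_nsmul_kum N x.2 σ⟩

theorem kumJ2_mul (x : G N) {σ : Γ} (hσ : σ ∈ U₂ N) (τ : Γ) :
    kumJ2 N x (σ * τ) = kumJ2 N x σ + kumJ2 N x τ := by
  refine Subtype.ext ?_
  show kum N (x : JZero N) (σ * τ) = kum N (x : JZero N) σ + kum N (x : JZero N) τ
  rw [kum_mul, hσ _ (two_nsmul_kum N x.2 τ)]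

theorem kumJ2_eq_zero_of_mem_U (x : G N) {σ : Γ} (hσ : σ ∈ U N (x : JZero N)) :
    kumJ2 N x σ = 0 := by
  refine Subtype.ext ?_
  show kum N (x : JZero N) σ = 0
  rw [kum_eq_zero_iff]
  exact hσ.2

theorem finite_range_kum : (Set.range fun x : G N => kum N (x : JZero N)).Finite := by
  classical
  have hF₀ := isUnramifiedOutside_F₀ N
  haveI := hF₀.1
  obtain ⟨F₁, -, hfin, hF₁⟩ :=
    Fermat.Agent.PT.GLOB.H1Finite15.exists_field_forall_hom Nat.prime_two (badPrimes N) (F₀ N) hF₀
      isPrimitiveRoot_neg_one (neg_one_mem_F₀ N)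
  haveI := hfin
  haveI := Fermat.Agent.PT.GLOB.H1FiniteCoh15.finiteIndex_fixingSubgroup F₁
  have h2 : ∀ t : J2 N, 2 • t = 0 := fun t => Subtype.ext t.2
  letI : Module (ZMod 2) (J2 N) := AddCommGroup.zmodModule h2
  have hsep : ∀ m : J2 N, (∀ lam : Module.Dual (ZMod 2) (J2 N), lam m = 0) → m = 0 := fun m h =>
    (Module.forall_dual_apply_eq_zero_iff (ZMod 2) m).mp h
  -- every Kummer cocycle has level `F₁`
  have key : ∀ x : G N, ∀ g : Γ, ∀ s ∈ F₁.fixingSubgroup,
      kumJ2 N x (g * s) = kumJ2 N x g := by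
    intro x g s hs
    have hcs : kumJ2 N x s = 0 := by
      refine hsep _ fun lam => ?_
      refine hF₁ (fun g => lam (kumJ2 N x g)) ?_ ⟨E N (x : JZero N), isUnramifiedOutside_E N x.2, ?_⟩
        s hs
      · intro s hs t _
        rw [fixingSubgroup_F₀] at hs
        show lam (kumJ2 N x (s * t)) = lam (kumJ2 N x s) + lam (kumJ2 N x t)
        rw [kumJ2_mul N x hs, map_add]
      · intro t ht _
        rw [fixingSubgroup_E] at ht
        show lam (kumJ2 N x t) = 0
        rw [kumJ2_eq_zero_of_mem_U N x ht, map_zero]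
    refine Subtype.ext ?_
    show kum N (x : JZero N) (g * s) = kum N (x : JZero N) g
    have hcs' : kum N (x : JZero N) s = 0 := congrArg Subtype.val hcs
    have hz : g • (0 : JZero N) = 0 := smul_zero (A := JZero N) g
    rw [kum_mul, hcs', hz, add_zero]
  have hfin1 := Fermat.Agent.PT.GLOB.H1FiniteCoh15.finite_setOf_level (X := J2 N) F₁.fixingSubgroup
  refine Set.Finite.subset (hfin1.image fun f : Γ → J2 N => fun σ => ((f σ : J2 N) : JZero N)) ?_
  rintro _ ⟨x, rfl⟩
  exact ⟨kumJ2 N x, key x, rfl⟩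

/-- **The weak Mordell–Weil theorem for `J₀(N)(ℚ)`**: `J₀(N)(ℚ) / 2 J₀(N)(ℚ)` is finite. -/
theorem weakMW : (nsmulAddMonoidHom (α := ↥(FixedPoints.addSubgroup
    (AlgebraicClosure ℚ ≃ₐ[ℚ] AlgebraicClosure ℚ) (ModularCurve.JZero N))) 2).range.FiniteIndex :=
  finiteIndex_of_finite_range N (finite_range_kum N)

end Fermat.Agent.M17.WeakMW6
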