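/-
M17 (target S17), [FIN] DRY RUN (helper7, coordinator): the final assembly with every analytic /
arithmetic input as a HYPOTHESIS, to pin down the typeclass plumbing of
`ThetaRigidity9.CThetaData.fg_of_generic` at `J = JZero N`, `L = ℚ̄`, `Γ = Gal(ℚ̄/K1)`.
Imported by no statement.
-/
import Mathlib
import Fermat.Agent.M17.ThetaRigidity9
import Fermat.Agent.M17.WeakMW6
import Fermat.Prelude.Def_GaloisRep_ComplexConjugation

set_option autoImplicit false

namespace Fermat.Agent.M17.FinDryRun7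

open ModularCurve Fermat.Agent.M17.ThetaRigidity9

/-- `ℚ̄` -/
abbrev Qb : Type := AlgebraicClosure ℚ

/-- `Gal(ℚ̄/ℚ)` -/
abbrev GQ : Type := Qb ≃ₐ[ℚ] Qb

variable (N : ℕ) [NeZero N]

/-- the invariants of `Gal(ℚ̄/K1)` in `ℚ̄` are `K1`. -/
theorem mem_of_fixed (K1 : IntermediateField ℚ Qb) (y : Qb)
    (hy : ∀ σ : ↥K1.fixingSubgroup, σ • y = y) : y ∈ (algebraMap ↥K1 Qb).range := by
  have h1 : y ∈ IntermediateField.fixedField K1.fixingSubgroup := fun σ => hy σ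
  rw [InfiniteGalois.fixedField_fixingSubgroup] at h1
  exact ⟨⟨y, h1⟩, rfl⟩

/-- **[FIN], dry run**: S17 from complex theta data on `J₀(N)(ℚ̄)` that are rational and
`Gal(ℚ̄/K1)`-equivariant on a generic set, for a number field `K1 ⊆ ℚ̄`. -/
theorem s17_of_generic {ι ν : Type*} [Fintype ι] [Fintype ν] [DecidableEq ν]
    (D : CThetaData (JZero N) ι ν) (K1 : IntermediateField ℚ Qb) [FiniteDimensional ℚ ↥K1]
    {U : Set (JZero N)} {v : JZero N → ι → Qb}
    (hv : RatEqOn (Γ := ↥K1.fixingSubgroup) (complexEmbedding : Qb →+* ℂ) D.Φ U v)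
    (hG1 : ∀ w : JZero N, ∃ X ∈ U, w - X ∈ U)
    (hG2 : ∃ Y ∈ U, ∀ i, D.Φ Y i ≠ 0)
    (hfib : ∀ x : JZero N, {y : JZero N | ∃ c : ℂ, D.Φ y = c • D.Φ x}.Finite) :
    AddGroup.FG ↥(FixedPoints.addSubgroup GQ (JZero N)) := by
  have : NumberField ↥K1 := { }
  refine D.fg_of_generic (Γ := ↥K1.fixingSubgroup) (L := Qb) (complexEmbedding : Qb →+* ℂ) hv hG1 hG2
    (algebraMap ↥K1 Qb) (mem_of_fixed K1) (FixedPoints.addSubgroup GQ (JZero N)) ?_ hfib
    (Fermat.Agent.M17.WeakMW6.weakMW N)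
  intro x hx σ
  exact hx (σ : GQ)

end Fermat.Agent.M17.FinDryRun7
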