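/-
Programme M17 (target S17), helper9.  Imported by no statement.

**A5' assembled, abstract form** (Mathlib + the M17 theta files only).  `J` an abstract group with
a lift `J → ℂ^g` of a homomorphism to `ℂ^g/Λ` whose image contains all torsion points (TORS);
`V ⊆ J` a set containing the complement of a theta hypersurface `{W = 0}`.

* `exists_lift_ne_zero` : a nonzero entire function with `Λ`-stable zero set does not vanish at the
  lift of some point of `J`;
* `hG1_of_hypersurface`, `hG2_of_hypersurface`, `dense_of_hypersurface` : the three genericity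
  inputs of `ThetaRigidity9` (`ratEq_Phi`, `fg_of_generic`) and of the rigidity theorem;
* `ratEqOn_Phi_of_basis` : rationality + equivariance of ANY basis `Ψ = M Φ` of level-4 theta
  functions on `V` gives rationality + equivariance of the canonical coordinates `Φ` on `V`, for the
  subgroup fixing the entries of a rational matrix.
-/
import Fermat.Agent.M17.ThetaIndep9

set_option autoImplicit false

namespace Fermat.Agent.M17.Generic9

open Fermat.Agent.M17.Theta1 Fermat.Agent.M17.Theta1.Siegel Fermat.Agent.M17.ThetaRigidity9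
  Fermat.Agent.M17.Heisenberg9 Fermat.Agent.M17.FiniteFibres9 Fermat.Agent.M17.ThetaGlue9
  Complex Matrix

variable {g : ℕ}

/-! ### the two descriptions of the lattice -/

theorem lattice_eq (τ : Siegel g) : SiegelLattice9.lattice τ = latticeSubgroup τ := by
  ext l
  rw [SiegelLattice9.mem_lattice, mem_latticeSubgroup]
  rfl

/-! ### torsion points -/

theorem torsionSet_add {V : Type*} [NormedAddCommGroup V] [NormedSpace ℝ V] (Λ : AddSubgroup V)
    {z t : V} (hz : z ∈ torsionSet Λ) (ht : t ∈ torsionSet Λ) : z + t ∈ torsionSet Λ := by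
  obtain ⟨n, hn, hnz⟩ := hz
  obtain ⟨m, hm, hmt⟩ := ht
  refine ⟨n * m, Nat.mul_pos hn hm, ?_⟩
  rw [smul_add]
  refine Λ.add_mem ?_ ?_
  · rw [mul_comm, mul_smul]
    exact Λ.nsmul_mem hnz m
  · rw [mul_smul]
    exact Λ.nsmul_mem hmt n

theorem tvec_mem_torsionSet (τ : Siegel g) (p q : Fin g → ℤ) :
    tvec τ p q ∈ torsionSet (latticeSubgroup τ) :=
  ⟨4, by norm_num, by rw [← lattice_eq]; exact four_smul_tvec_mem τ p q⟩

/-! ### nonzero entire functions -/

theorem differentiable_finset_prod {E : Type*} [NormedAddCommGroup E] [NormedSpace ℂ E]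
    {α : Type*} (s : Finset α) (f : α → E → ℂ) (hf : ∀ a ∈ s, Differentiable ℂ (f a)) :
    Differentiable ℂ fun z => ∏ a ∈ s, f a z := by
  classical
  intro z
  exact (HasFDerivAt.finsetProd fun a ha => (hf a ha z).hasFDerivAt).differentiableAt

/-- a finite product of nonzero entire functions is a nonzero entire function. -/
theorem exists_forall_ne_zero {E : Type*} [NormedAddCommGroup E] [NormedSpace ℂ E] {α : Type*}
    (s : Finset α) (f : α → E → ℂ) (hf : ∀ a ∈ s, Differentiable ℂ (f a))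
    (hne : ∀ a ∈ s, ∃ z, f a z ≠ 0) : ∃ z, ∀ a ∈ s, f a z ≠ 0 := by
  classical
  induction s using Finset.induction_on with
  | empty => exact ⟨0, fun a ha => absurd ha (Finset.notMem_empty a)⟩
  | insert a s ha ih =>
    have hd : Differentiable ℂ fun z => ∏ b ∈ s, f b z :=
      differentiable_finset_prod s f fun b hb => hf b (Finset.mem_insert_of_mem hb)
    obtain ⟨z₁, hz₁⟩ := ih (fun b hb => hf b (Finset.mem_insert_of_mem hb))
      (fun b hb => hne b (Finset.mem_insert_of_mem hb))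
    obtain ⟨z₂, hz₂⟩ := hne a (Finset.mem_insert_self a s)
    by_contra hcon
    push Not at hcon
    have hmul : ∀ z, f a z * ∏ b ∈ s, f b z = 0 := by
      intro z
      obtain ⟨b, hb, hbz⟩ := hcon z
      rcases Finset.mem_insert.mp hb with rfl | hb
      · rw [hbz, zero_mul]
      · rw [Finset.prod_eq_zero hb hbz, mul_zero]
    rcases eq_zero_or_eq_zero_of_mul_eq_zero (hf a (Finset.mem_insert_self a s)) hd hmul with h | h
    · exact hz₂ (h z₂)
    · exact Finset.prod_ne_zero_iff.mpr hz₁ (h z₁)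

section generic

variable (τ : Siegel g) {J : Type*} [AddCommGroup J] (lift : J → Fin g → ℂ)

omit [AddCommGroup J] in
/-- **a torsion point avoids a theta hypersurface**: a nonzero entire function whose zero set is
stable under the lattice does not vanish at the lift of some point of `J`, as soon as the image of
`J` in `ℂ^g/Λ` contains the torsion points. -/
theorem exists_lift_ne_zero
    (hTORS : ∀ z, z ∈ torsionSet (latticeSubgroup τ) → ∃ x : J, z - lift x ∈ latticeSubgroup τ)
    (F : (Fin g → ℂ) → ℂ) (hF : Differentiable ℂ F) (hF0 : ∃ z, F z ≠ 0)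
    (hFΛ : ∀ l ∈ latticeSubgroup τ, ∀ z, F z = 0 → F (z + l) = 0) : ∃ x : J, F (lift x) ≠ 0 := by
  obtain ⟨z₀, hz₀⟩ := hF0
  have hW : IsClosed {z | F z = 0} := isClosed_eq hF.continuous continuous_const
  have hW0 : interior {z | F z = 0} = ∅ := by
    rw [interior_eq_empty_iff_dense_compl]
    exact dense_ne_zero hF hz₀
  have hd := SiegelLattice9.dense_torsion_diff τ hW hW0
  obtain ⟨z, hzt, hzW⟩ := hd.nonempty
  rw [lattice_eq] at hzt
  obtain ⟨x, hx⟩ := hTORS z hzt
  refine ⟨x, fun h0 => hzW ?_⟩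
  have := hFΛ _ hx (lift x) h0
  rwa [add_sub_cancel] at this

variable (hsub : ∀ x y : J, lift (x - y) - (lift x - lift y) ∈ latticeSubgroup τ)
  (hTORS : ∀ z, z ∈ torsionSet (latticeSubgroup τ) → ∃ x : J, z - lift x ∈ latticeSubgroup τ)
  (W : (Fin g → ℂ) → ℂ) (hW : Differentiable ℂ W) (hW0 : ∃ z, W z ≠ 0)
  (hWΛ : ∀ l ∈ latticeSubgroup τ, ∀ z, W z = 0 → W (z + l) = 0)
  (V : Set J) (hVW : ∀ x : J, W (lift x) ≠ 0 → x ∈ V)

include hsub hTORS hW hW0 hWΛ hVW

/-- **(hG1)** for the complement of a theta hypersurface. -/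
theorem hG1_of_hypersurface (w : J) : ∃ X ∈ V, w - X ∈ V := by
  have hd2 : Differentiable ℂ fun z => W (lift w - z) := hW.comp (differentiable_id.const_sub _)
  obtain ⟨z₀, hz₀⟩ := hW0
  have hne : ∃ z, W z * W (lift w - z) ≠ 0 := by
    by_contra hcon
    push Not at hcon
    rcases eq_zero_or_eq_zero_of_mul_eq_zero hW hd2 hcon with h | h
    · exact hz₀ (h z₀)
    · apply hz₀
      have := h (lift w - z₀)
      rwa [sub_sub_cancel] at this
  obtain ⟨X, hX⟩ := exists_lift_ne_zero τ lift hTORS (fun z => W z * W (lift w - z))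
    (hW.mul hd2) hne (fun l hl z hz => by
      rcases mul_eq_zero.mp hz with h | h
      · rw [hWΛ l hl z h, zero_mul]
      · have := hWΛ (-l) ((latticeSubgroup τ).neg_mem hl) _ h
        rw [show lift w - (z + l) = lift w - z + -l by abel, this, mul_zero])
  have h1 : W (lift X) ≠ 0 := left_ne_zero_of_mul hX
  have h2 : W (lift w - lift X) ≠ 0 := right_ne_zero_of_mul hX
  refine ⟨X, hVW X h1, hVW _ fun h0 => h2 ?_⟩
  have := hWΛ _ ((latticeSubgroup τ).neg_mem (hsub w X)) _ h0
  rwa [show lift (w - X) + -(lift (w - X) - (lift w - lift X)) = lift w - lift X by abel] at this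

omit [AddCommGroup J] hsub in
/-- **(hG2)** for the complement of a theta hypersurface. -/
theorem hG2_of_hypersurface : ∃ Y ∈ V, ∀ χ, Theta1.Phi τ (lift Y) χ ≠ 0 := by
  classical
  have hΦne : ∀ χ : Char2 g × Char2 g, ∃ z, Theta1.Phi τ z χ ≠ 0 := by
    intro χ
    by_contra hcon
    push Not at hcon
    have h1 : (Pi.single χ 1 : Char2 g × Char2 g → ℂ) = 0 := by
      apply ThetaIndep9.Phi_linearIndependent τ
      intro z
      rw [Finset.sum_eq_single χ (fun χ' _ hne => by rw [Pi.single_eq_of_ne hne, zero_mul])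
        (fun h => absurd (Finset.mem_univ _) h), hcon z, mul_zero]
    have := congrFun h1 χ
    simp at this
  have hd : Differentiable ℂ fun z => ∏ χ, Theta1.Phi τ z χ :=
    differentiable_finset_prod Finset.univ (fun χ z => Theta1.Phi τ z χ)
      fun χ _ => differentiable_Phi τ χ
  obtain ⟨z₁, hz₁⟩ := exists_forall_ne_zero Finset.univ (fun χ z => Theta1.Phi τ z χ)
    (fun χ _ => differentiable_Phi τ χ) (fun χ _ => hΦne χ)
  obtain ⟨z₀, hz₀⟩ := hW0
  have hne : ∃ z, W z * ∏ χ, Theta1.Phi τ z χ ≠ 0 := by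
    by_contra hcon
    push Not at hcon
    rcases eq_zero_or_eq_zero_of_mul_eq_zero hW hd hcon with h | h
    · exact hz₀ (h z₀)
    · exact Finset.prod_ne_zero_iff.mpr hz₁ (h z₁)
  obtain ⟨Y, hY⟩ := exists_lift_ne_zero τ lift hTORS (fun z => W z * ∏ χ, Theta1.Phi τ z χ)
    (hW.mul hd) hne (fun l hl z hz => by
      rcases mul_eq_zero.mp hz with h | h
      · rw [hWΛ l hl z h, zero_mul]
      · obtain ⟨χ, -, hχ⟩ := Finset.prod_eq_zero_iff.mp h
        obtain ⟨c, -, hc⟩ := Phi_automorphy τ l hl z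
        have : Theta1.Phi τ (z + l) χ = 0 := by rw [hc, Pi.smul_apply, hχ, smul_zero]
        rw [Finset.prod_eq_zero (Finset.mem_univ χ) this, mul_zero])
  exact ⟨Y, hVW Y (left_ne_zero_of_mul hY),
    fun χ => Finset.prod_ne_zero_iff.mp (right_ne_zero_of_mul hY) χ (Finset.mem_univ χ)⟩

/-- the `Λ`-saturation of the lifts of the points of `V`. -/
def liftSet : Set (Fin g → ℂ) := {z | ∃ x ∈ V, z - lift x ∈ latticeSubgroup τ}

omit [AddCommGroup J] hsub hW hW0 in
theorem mem_liftSet_of_torsion {z : Fin g → ℂ} (hz : z ∈ torsionSet (latticeSubgroup τ))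
    (hWz : W z ≠ 0) : z ∈ liftSet τ lift V := by
  obtain ⟨x, hx⟩ := hTORS z hz
  refine ⟨x, hVW x fun h0 => hWz ?_, hx⟩
  have := hWΛ _ hx (lift x) h0
  rwa [add_sub_cancel] at this

omit [AddCommGroup J] hsub in
/-- **(hdense)** for the complement of a theta hypersurface. -/
theorem dense_of_hypersurface (p q : Fin g → ℤ) :
    Dense {z | z ∈ liftSet τ lift V ∧ z + tvec τ p q ∈ liftSet τ lift V} := by
  have hd2 : Differentiable ℂ fun z => W (z + tvec τ p q) :=
    hW.comp (differentiable_id.add_const _)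
  obtain ⟨z₀, hz₀⟩ := hW0
  have hne : W (z₀ - tvec τ p q + tvec τ p q) ≠ 0 := by rwa [sub_add_cancel]
  have hF : Differentiable ℂ fun z => W z * W (z + tvec τ p q) := hW.mul hd2
  have hF0 : ∃ z, W z * W (z + tvec τ p q) ≠ 0 := by
    by_contra hcon
    push Not at hcon
    rcases eq_zero_or_eq_zero_of_mul_eq_zero hW hd2 hcon with h | h
    · exact hz₀ (h z₀)
    · exact hne (h _)
  obtain ⟨z₁, hz₁⟩ := hF0
  have hcl : IsClosed {z | W z * W (z + tvec τ p q) = 0} :=
    isClosed_eq hF.continuous continuous_const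
  have hint : interior {z | W z * W (z + tvec τ p q) = 0} = ∅ := by
    rw [interior_eq_empty_iff_dense_compl]
    exact dense_ne_zero hF hz₁
  refine (SiegelLattice9.dense_torsion_diff τ hcl hint).mono ?_
  rintro z ⟨hzt, hzW⟩
  rw [lattice_eq] at hzt
  have hzW' : W z * W (z + tvec τ p q) ≠ 0 := hzW
  exact ⟨mem_liftSet_of_torsion τ lift hTORS W hWΛ V hVW hzt (left_ne_zero_of_mul hzW'),
    mem_liftSet_of_torsion τ lift hTORS W hWΛ V hVW
      (torsionSet_add _ hzt (tvec_mem_torsionSet τ p q)) (right_ne_zero_of_mul hzW')⟩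

omit [AddCommGroup J] hsub in
/-- **A5' (rigidity) on `J`**: if a basis `Ψ = M Φ` of level-4 theta functions has `L`-rational
values (up to scalars) at the lifts of the points of `V`, then `Φ = c • N₀ Ψ` with `N₀` rational. -/
theorem exists_rational_matrix_of_basis {L : Type*} [Field L] (φ : L →+* ℂ)
    (hroot : ∀ (c : ℂ) (k : ℕ), 0 < k → c ^ k ∈ φ.range → c ∈ φ.range)
    (M : Matrix (Char2 g × Char2 g) (Char2 g × Char2 g) ℂ) (hM : IsUnit M)
    (r : J → Char2 g × Char2 g → L)
    (hr : ∀ x ∈ V, ∃ c : ℂ, c ≠ 0 ∧ ∀ i, φ (r x i) = c * (M *ᵥ Theta1.Phi τ (lift x)) i) :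
    ∃ (N₀ : Matrix (Char2 g × Char2 g) (Char2 g × Char2 g) L) (c : ℂ), c ≠ 0 ∧
      ∀ z, Theta1.Phi τ z = c • ((N₀.map φ) *ᵥ (M *ᵥ Theta1.Phi τ z)) := by
  classical
  -- rational representatives at all lifts
  let v : (Fin g → ℂ) → Char2 g × Char2 g → L := fun z =>
    if h : z ∈ liftSet τ lift V then r h.choose else 0
  have hv : ∀ z ∈ liftSet τ lift V, ∃ c : ℂ, c ≠ 0 ∧
      ∀ χ, φ (v z χ) = c * (M *ᵥ Theta1.Phi τ z) χ := by
    intro z hz
    obtain ⟨hxV, hxΛ⟩ := hz.choose_spec
    obtain ⟨c, hc, h⟩ := hr _ hxV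
    obtain ⟨c', hc', h'⟩ := Phi_automorphy τ _ hxΛ (lift hz.choose)
    rw [add_sub_cancel] at h'
    refine ⟨c * c'⁻¹, mul_ne_zero hc (inv_ne_zero hc'), fun χ => ?_⟩
    simp only [v, dif_pos hz]
    rw [h χ, h', Matrix.mulVec_smul, Pi.smul_apply, smul_eq_mul]
    field_simp
  obtain ⟨M₀, c, hc, hMM₀⟩ := ThetaIndep9.rational_matrix_of_generic_theta τ φ hroot
    (fun z => M *ᵥ Theta1.Phi τ z) M hM (fun _ => rfl) (liftSet τ lift V) v hv
    (dense_of_hypersurface τ lift hTORS W hW hW0 hWΛ V hVW)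
  -- `M₀` is invertible
  have hdetM : M.det ≠ 0 := ((Matrix.isUnit_iff_isUnit_det M).mp hM).ne_zero
  have hdet₀ : M₀.det ≠ 0 := by
    intro h0
    apply hdetM
    have e : M₀.map φ = φ.mapMatrix M₀ := rfl
    rw [hMM₀, Matrix.det_smul, e, ← RingHom.map_det, h0, map_zero, mul_zero]
  have hinv : M₀⁻¹ * M₀ = 1 := Matrix.nonsing_inv_mul M₀ (isUnit_iff_ne_zero.mpr hdet₀)
  have hinv' : (M₀⁻¹).map φ * M₀.map φ = 1 := by
    rw [← Matrix.map_mul, hinv, Matrix.map_one _ (map_zero φ) (map_one φ)]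
  refine ⟨M₀⁻¹, c⁻¹, inv_ne_zero hc, fun z => ?_⟩
  rw [hMM₀, Matrix.smul_mulVec, Matrix.mulVec_smul, Matrix.mulVec_mulVec, hinv', Matrix.one_mulVec,
    smul_smul, inv_mul_cancel₀ hc, one_smul]

end generic

end Fermat.Agent.M17.Generic9
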