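/-
M17 (helper1): **Siegel glue**: the period matrix of `Interfaces7.LatData` is a point of the Siegel
half space, and its lattice is `latticeSubgroup`.  So the whole theta package applies to `L.Om`:

* `siegelOfLat L : Siegel g` with `(siegelOfLat L).Ω = L.Om`;
* `latticeSubgroup_siegelOfLat : latticeSubgroup (siegelOfLat L) = L.lattice`;
* `(INJ)`, automorphy, cocompactness restated for `L.lattice`.
-/
import Mathlib
import Fermat.Agent.M17.ThetaCover1
import Fermat.Agent.M17.Interfaces7

set_option autoImplicit false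

namespace Fermat.Agent.M17.Theta1

open Complex Real Matrix
open Fermat.Agent.M17.Interfaces7

variable {N : ℕ} [NeZero N] {g : ℕ}

/-- the period matrix as a point of the Siegel half space. -/
noncomputable def siegelOfLat (L : LatData N g) : Siegel g where
  Ω := L.Om
  symm := by
    ext j k
    show L.Om k j = L.Om j k
    exact L.om_symm k j
  pos := by
    intro v hv
    have h := L.om_pos.dotProduct_mulVec_pos hv
    have e : (L.Om.map Complex.im) = Matrix.of fun j k => (per N (L.w k) (L.b j)).im := by
      ext j k; rfl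
    rw [e]
    simpa using h

@[simp] theorem siegelOfLat_Ω (L : LatData N g) : (siegelOfLat L).Ω = L.Om := rfl

theorem latticeSubgroup_siegelOfLat (L : LatData N g) :
    latticeSubgroup (siegelOfLat L) = L.lattice := by
  ext v
  constructor
  · rintro ⟨m, n, rfl⟩
    refine ⟨m, n, ?_⟩
    funext k
    simp only [Pi.add_apply, mulVec, dotProduct, siegelOfLat_Ω]
    congr 1
    refine Finset.sum_congr rfl fun j _ => ?_
    have : L.Om k j = L.Om j k := L.om_symm k j
    rw [this]
  · rintro ⟨p, q, rfl⟩
    refine ⟨p, q, ?_⟩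
    funext k
    simp only [Pi.add_apply, mulVec, dotProduct, siegelOfLat_Ω]
    congr 1
    refine Finset.sum_congr rfl fun j _ => ?_
    have : L.Om k j = L.Om j k := L.om_symm k j
    rw [this]

/-- **(INJ)** for the period lattice. -/
theorem sub_mem_lattice_of_Phi_eq_lat (L : LatData N g) {z z' : Fin g → ℂ} {c : ℂ}
    (h : Phi (siegelOfLat L) z' = c • Phi (siegelOfLat L) z) : z' - z ∈ L.lattice := by
  rw [← latticeSubgroup_siegelOfLat]
  exact sub_mem_lattice_of_Phi_eq _ h

theorem kap_automorphy_lat (L : LatData N g) :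
    ∀ l ∈ L.lattice, ∀ z, ∃ c : ℂ, c ≠ 0 ∧
      kap (siegelOfLat L) (z + l) = c • kap (siegelOfLat L) z := by
  intro l hl
  rw [← latticeSubgroup_siegelOfLat] at hl
  exact kap_automorphy _ l hl

theorem Phi_automorphy_lat (L : LatData N g) :
    ∀ l ∈ L.lattice, ∀ z, ∃ c : ℂ, c ≠ 0 ∧
      Phi (siegelOfLat L) (z + l) = c • Phi (siegelOfLat L) z := by
  intro l hl
  rw [← latticeSubgroup_siegelOfLat] at hl
  exact Phi_automorphy _ l hl

theorem exists_add_mem_fundBox_lat (L : LatData N g) (z : Fin g → ℂ) :
    ∃ l ∈ L.lattice, z + l ∈ fundBox (siegelOfLat L) := by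
  obtain ⟨l, hl, h⟩ := exists_add_mem_fundBox (siegelOfLat L) z
  rw [latticeSubgroup_siegelOfLat] at hl
  exact ⟨l, hl, h⟩

end Fermat.Agent.M17.Theta1
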