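/-
Programme M17 (target S17), helper9.  Imported by no statement.

**(GLUE) = A5' + [FIN] in the tree's vocabulary.**  From `Interfaces7.LatData` / `AJData`, a lift
`JZero N → ℂ^g` of `AJ.iota ∘ extPic0C`, the torsion leaf (TORS) and the output of A4' (ANY basis
`Ψ = M Φ` of level-4 theta functions which is `ℚ̄`-rational and `Gal(ℚ̄/K1)`-equivariant on a set
`V` containing the complement of a theta hypersurface):

* `thetaD` : the complex theta data on `JZero N` (`ThetaGlue9.ofAnalytic` of helper1's `thetaData`);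
* `finite_fibres` : (FIB), from (INJ) + injectivity of `AJ.iota` and of `extPic0C`;
* `hroot_of_isAlgClosed` : the image of an algebraically closed field is closed under roots;
* `s17_of_basis` : `AddGroup.FG (J₀(N)(ℚ))`.
-/
import Fermat.Agent.M17.Generic9
import Fermat.Agent.M17.ThetaLat1
import Fermat.Agent.M17.FinDryRun7

set_option autoImplicit false

namespace Fermat.Agent.M17.Glue9

open ModularCurve Fermat.Agent.M17.Theta1 Fermat.Agent.M17.ThetaRigidity9
  Fermat.Agent.M17.ThetaGlue9 Fermat.Agent.M17.Interfaces7 Matrix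

/-- `ℚ̄` -/
local notation "Qb" => AlgebraicClosure ℚ

/-- `extPic0C` -/
local notation "extPic0C" => Fermat.Agent.J.DESC.DescentFinal24.extPic0C

/-! ### roots -/

/-- the image of an algebraically closed field in `ℂ` is closed under taking roots. -/
theorem hroot_of_isAlgClosed {L : Type*} [Field L] [IsAlgClosed L] (φ : L →+* ℂ) (c : ℂ) (k : ℕ)
    (hk : 0 < k) (hc : c ^ k ∈ φ.range) : c ∈ φ.range := by
  obtain ⟨a, ha⟩ := hc
  have hp0 : (Polynomial.X ^ k - Polynomial.C a : Polynomial L) ≠ 0 :=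
    Polynomial.X_pow_sub_C_ne_zero hk a
  have hsplit : (Polynomial.X ^ k - Polynomial.C a : Polynomial L).Splits := IsAlgClosed.splits _
  have hmap0 : (Polynomial.X ^ k - Polynomial.C a : Polynomial L).map φ ≠ 0 :=
    (Polynomial.map_ne_zero_iff φ.injective).mpr hp0
  have hroot : c ∈ ((Polynomial.X ^ k - Polynomial.C a : Polynomial L).map φ).roots := by
    rw [Polynomial.mem_roots hmap0]
    simp [ha]
  rw [hsplit.roots_map_of_injective φ.injective] at hroot
  obtain ⟨b, -, hb⟩ := Multiset.mem_map.mp hroot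
  exact ⟨b, hb⟩

variable (N : ℕ) [NeZero N] {g : ℕ} (L : LatData N g) (AJ : AJData N L)
  (lift : JZero N → Fin g → ℂ)
  (hlift : ∀ x : JZero N, (QuotientAddGroup.mk (lift x) : (Fin g → ℂ) ⧸ L.lattice) =
    AJ.iota (extPic0C N x))

include hlift

/-! ### the lift -/

theorem lift_add (x y : JZero N) : lift (x + y) - (lift x + lift y) ∈ L.lattice := by
  rw [← QuotientAddGroup.eq_zero_iff, QuotientAddGroup.mk_sub, QuotientAddGroup.mk_add, hlift,
    hlift, hlift, map_add, map_add, sub_self]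

theorem lift_sub (x y : JZero N) : lift (x - y) - (lift x - lift y) ∈ L.lattice := by
  rw [← QuotientAddGroup.eq_zero_iff, QuotientAddGroup.mk_sub, QuotientAddGroup.mk_sub, hlift,
    hlift, hlift, map_sub, map_sub, sub_self]

theorem eq_of_lift_sub_mem {x y : JZero N} (h : lift y - lift x ∈ L.lattice) : y = x := by
  rw [← QuotientAddGroup.eq_zero_iff, QuotientAddGroup.mk_sub, hlift, hlift, sub_eq_zero] at h
  exact Fermat.Agent.J.DESC.DescentFinal24.extPic0C_injective N (AJ.iota_injective h)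

/-! ### the theta data on `J₀(N)(ℚ̄)` -/

/-- the complex theta data of `J₀(N)(ℚ̄)`: level-4 coordinates `Φ_χ(lift x) = θ[χ](2 lift x)`. -/
noncomputable def thetaD : CThetaData (JZero N) (Char2 g × Char2 g) (Char2 g) :=
  ofAnalytic (thetaData (siegelOfLat L)) (Theta1.Phi_ne_zero _) L.lattice (kap_automorphy_lat L)
    lift (lift_add N L AJ lift hlift) (lift_sub N L AJ lift hlift)

theorem thetaD_Φ (x : JZero N) :
    (thetaD N L AJ lift hlift).Φ x = Theta1.Phi (siegelOfLat L) (lift x) := rfl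

/-- **(FIB)**: the level-4 map has finite (indeed trivial) fibres on `J₀(N)(ℚ̄)`. -/
theorem finite_fibres (x : JZero N) :
    {y : JZero N | ∃ c : ℂ, (thetaD N L AJ lift hlift).Φ y =
      c • (thetaD N L AJ lift hlift).Φ x}.Finite := by
  refine finite_fibres_ofAnalytic (thetaData (siegelOfLat L)) (Theta1.Phi_ne_zero _) L.lattice
    (kap_automorphy_lat L) lift (lift_add N L AJ lift hlift) (lift_sub N L AJ lift hlift)
    (fun z z' c h => sub_mem_lattice_of_Phi_eq_lat L h) (fun x => ?_) x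
  refine (Set.finite_singleton x).subset fun y hy => ?_
  exact eq_of_lift_sub_mem N L AJ lift hlift hy

/-! ### the final assembly -/

/-- **S17 from A4'** (`0 < g` is not needed here): `J₀(N)(ℚ)` is finitely generated, given
(TORS), and a basis `Ψ = M Φ` of level-4 theta functions which is `ℚ̄`-rational and
`Gal(ℚ̄/K1)`-equivariant on a set `V ⊆ J₀(N)(ℚ̄)` containing the complement of a theta
hypersurface `{W = 0}`. -/
theorem s17_of_basis
    (hTORS : ∀ n : ℕ, 0 < n → ∀ t : (Fin g → ℂ) ⧸ L.lattice, n • t = 0 →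
      ∃ x : JZero N, AJ.iota (extPic0C N x) = t)
    (W : (Fin g → ℂ) → ℂ) (hW : Differentiable ℂ W) (hW0 : ∃ z, W z ≠ 0)
    (hWΛ : ∀ l ∈ L.lattice, ∀ z, W z = 0 → W (z + l) = 0)
    (V : Set (JZero N)) (hVW : ∀ x : JZero N, W (lift x) ≠ 0 → x ∈ V)
    (K1 : IntermediateField ℚ Qb) [FiniteDimensional ℚ ↥K1]
    (M : Matrix (Char2 g × Char2 g) (Char2 g × Char2 g) ℂ) (hM : IsUnit M)
    (r : JZero N → Char2 g × Char2 g → Qb)
    (hr : RatEqOn (Γ := ↥K1.fixingSubgroup) (complexEmbedding : Qb →+* ℂ)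
      (fun x => M *ᵥ Theta1.Phi (siegelOfLat L) (lift x)) V r) :
    AddGroup.FG ↥(FixedPoints.addSubgroup (Qb ≃ₐ[ℚ] Qb) (JZero N)) := by
  classical
  set τ := siegelOfLat L with hτ
  have hΛ : latticeSubgroup τ = L.lattice := latticeSubgroup_siegelOfLat L
  -- the hypotheses of `Generic9` for the lattice `latticeSubgroup τ`
  have hsub' : ∀ x y : JZero N, lift (x - y) - (lift x - lift y) ∈ latticeSubgroup τ := by
    intro x y; rw [hΛ]; exact lift_sub N L AJ lift hlift x y
  have hTORS' : ∀ z, z ∈ torsionSet (latticeSubgroup τ) →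
      ∃ x : JZero N, z - lift x ∈ latticeSubgroup τ := by
    rintro z ⟨n, hn, hnz⟩
    rw [hΛ] at hnz ⊢
    obtain ⟨x, hx⟩ := hTORS n hn (QuotientAddGroup.mk z) (by
      rw [← QuotientAddGroup.mk_nsmul]
      exact (QuotientAddGroup.eq_zero_iff _).mpr hnz)
    refine ⟨x, ?_⟩
    rw [← QuotientAddGroup.eq_zero_iff, QuotientAddGroup.mk_sub, hlift, hx, sub_self]
  have hWΛ' : ∀ l ∈ latticeSubgroup τ, ∀ z, W z = 0 → W (z + l) = 0 := by
    intro l hl; rw [hΛ] at hl; exact hWΛ l hl
  -- rigidity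
  obtain ⟨N₀, c, hc, hΦ⟩ := Generic9.exists_rational_matrix_of_basis τ lift hTORS' W hW hW0 hWΛ'
    V hVW (complexEmbedding : Qb →+* ℂ) (hroot_of_isAlgClosed _) M hM r hr.1
  -- the number field `K1' = K1(entries of N₀)`
  let S : Set Qb := Set.range fun ij : (Char2 g × Char2 g) × (Char2 g × Char2 g) => N₀ ij.1 ij.2
  have hSfin : Finite S := Set.finite_range _
  let K2 : IntermediateField ℚ Qb := IntermediateField.adjoin ℚ S
  have hK2 : FiniteDimensional ℚ ↥K2 :=
    IntermediateField.finiteDimensional_adjoin fun x _ =>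
      (Algebra.IsAlgebraic.isAlgebraic x).isIntegral
  let K1' : IntermediateField ℚ Qb := K1 ⊔ K2
  have hK1' : FiniteDimensional ℚ ↥K1' := IntermediateField.finiteDimensional_sup K1 K2
  have hle : K1'.fixingSubgroup ≤ K1.fixingSubgroup :=
    IntermediateField.fixingSubgroup_antitone le_sup_left
  -- equivariance for the smaller group
  have hr' : RatEqOn (Γ := ↥K1'.fixingSubgroup) (complexEmbedding : Qb →+* ℂ)
      (fun x => M *ᵥ Theta1.Phi τ (lift x)) V r :=
    RatEqOn.comap (Subgroup.inclusion hle) (fun _ _ => rfl) (fun _ _ => rfl) hr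
  have hfix : ∀ (σ : ↥K1'.fixingSubgroup) i j, σ • N₀ i j = N₀ i j := by
    intro σ i j
    have hmem : N₀ i j ∈ K1' :=
      (le_sup_right : K2 ≤ K1') (IntermediateField.subset_adjoin ℚ S ⟨(i, j), rfl⟩)
    exact (IntermediateField.mem_fixingSubgroup_iff K1' σ.1).mp σ.2 _ hmem
  have hv : RatEqOn (Γ := ↥K1'.fixingSubgroup) (complexEmbedding : Qb →+* ℂ)
      (thetaD N L AJ lift hlift).Φ V (fun x => N₀ *ᵥ r x) :=
    RatEqOn.of_rational_matrix hr' N₀ hfix hc fun x => hΦ (lift x)
  exact FinDryRun7.s17_of_generic N (thetaD N L AJ lift hlift) K1' hv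
    (Generic9.hG1_of_hypersurface τ lift hsub' hTORS' W hW hW0 hWΛ' V hVW)
    (Generic9.hG2_of_hypersurface τ lift hTORS' W hW hW0 hWΛ' V hVW)
    (finite_fibres N L AJ lift hlift)

end Fermat.Agent.M17.Glue9
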