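/-
Programme M17 (target S17), helper9.  Imported by no statement.

**The consumer of the chain theorem (A4' top level).**  `s17_of_chain` : from `LatData` / `AJData`,
a lift, (TORS), (KAPPA) (`2k` algebraic) and the chain theorem in helper7's shape (for any family
of balanced lists `T i` of translation vectors `s = k + u`, `u` algebraic: the products
`ψ_{T i} = ∏_{s ∈ T i} θ(· + s)` are, up to nonzero constants, `ℚ̄`-rational and
`Gal(ℚ̄/K1)`-equivariant on `V = {x | ∀ i, ∀ s ∈ T i, θ(lift x + s) ≠ 0}`), `J₀(N)(ℚ)` is finitely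
generated.  The choice of the `4^g` lists (products of four translates with sum `0` whose coefficient
matrix in the canonical basis `Φ_χ` is invertible) is `Basis9.exists_basis_params`.
-/
import Fermat.Agent.M17.Glue9
import Fermat.Agent.M17.Basis9
import Fermat.Agent.M17.EdgeLemma2

set_option autoImplicit false

namespace Fermat.Agent.M17.Assembly9

open ModularCurve Fermat.Agent.M17.Theta1 Fermat.Agent.M17.ThetaRigidity9
  Fermat.Agent.M17.ThetaGlue9 Fermat.Agent.M17.Interfaces7 Fermat.Agent.M17.FiniteFibres9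
  Fermat.Agent.M17.Basis9 Fermat.Agent.M17.EdgeLemma2 Matrix

/-- `ℚ̄` -/
local notation "Qb" => AlgebraicClosure ℚ

/-- `extPic0C` -/
local notation "extPic0C" => Fermat.Agent.J.DESC.DescentFinal24.extPic0C

variable {g : ℕ}

/-! ### the zero set of `θ` is stable under the lattice -/

theorem thetaA_zero_add_lattice (τ : Siegel g) {l : Fin g → ℂ} (hl : l ∈ latticeSubgroup τ)
    (z : Fin g → ℂ) (hz : thetaA τ 0 z = 0) : thetaA τ 0 (z + l) = 0 := by
  obtain ⟨m, n, rfl⟩ := hl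
  rw [← add_assoc, thetaA_zero_add_mulVec, thetaA_zero_add_int, hz]
  ring

/-! ### the four translation vectors -/

/-- the translation vectors `k + u₁, k + u₂, k + u₃, -3k - u₁ - u₂ - u₃`. -/
noncomputable def svec (k : Fin g → ℂ) (u : (Fin g → ℂ) × (Fin g → ℂ) × (Fin g → ℂ)) :
    Fin 4 → (Fin g → ℂ) :=
  ![k + u.1, k + u.2.1, k + u.2.2, -((3 : ℂ) • k) - u.1 - u.2.1 - u.2.2]

theorem sum_svec (k : Fin g → ℂ) (u : (Fin g → ℂ) × (Fin g → ℂ) × (Fin g → ℂ)) :
    ∑ j, svec k u j = 0 := by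
  have h3 : (3 : ℂ) • k = k + k + k := by
    rw [show (3 : ℂ) = 1 + 1 + 1 by norm_num, add_smul, add_smul, one_smul]
  rw [Fin.sum_univ_four]
  simp only [svec, Matrix.cons_val_zero, Matrix.cons_val_one, Matrix.cons_val]
  rw [h3]
  abel

theorem psiT_ofFn (th0 : (Fin g → ℂ) → ℂ) (s : Fin 4 → (Fin g → ℂ)) (z : Fin g → ℂ) :
    psiT th0 (List.ofFn s) z =
      th0 (z + s 0) * th0 (z + s 1) * (th0 (z + s 2) * th0 (z + s 3)) := by
  unfold psiT
  rw [List.map_ofFn, List.prod_ofFn, Fin.prod_univ_four]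
  simp only [Function.comp_apply]
  ring

variable (N : ℕ) [NeZero N] (L : LatData N g) (AJ : AJData N L)
  (lift : JZero N → Fin g → ℂ)
  (hlift : ∀ x : JZero N, (QuotientAddGroup.mk (lift x) : (Fin g → ℂ) ⧸ L.lattice) =
    AJ.iota (extPic0C N x))

include hlift in
/-- **S17 from the chain theorem.** -/
theorem s17_of_chain
    (hTORS : ∀ n : ℕ, 0 < n → ∀ t : (Fin g → ℂ) ⧸ L.lattice, n • t = 0 →
      ∃ x : JZero N, AJ.iota (extPic0C N x) = t)
    (k : Fin g → ℂ)
    (hk : ∃ y : JZero N, AJ.iota (extPic0C N y) = QuotientAddGroup.mk ((2 : ℂ) • k))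
    (hchain : ∀ T : Char2 g × Char2 g → List (Fin g → ℂ), (∀ i, (T i).length = 4) →
      (∀ i, (T i).sum = 0) →
      (∀ i, ∀ s ∈ T i, ∃ x : JZero N, AJ.iota (extPic0C N x) = QuotientAddGroup.mk (s - k)) →
      ∃ (K1 : IntermediateField ℚ Qb) (_ : FiniteDimensional ℚ ↥K1)
        (c : Char2 g × Char2 g → ℂ) (r : JZero N → Char2 g × Char2 g → Qb), (∀ i, c i ≠ 0) ∧
        RatEqOn (Γ := ↥K1.fixingSubgroup) (complexEmbedding : Qb →+* ℂ)
          (fun x i => c i * psiT (thetaA (siegelOfLat L) 0) (T i) (lift x))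
          {x | ∀ i, ∀ s ∈ T i, thetaA (siegelOfLat L) 0 (lift x + s) ≠ 0} r) :
    AddGroup.FG ↥(FixedPoints.addSubgroup (Qb ≃ₐ[ℚ] Qb) (JZero N)) := by
  classical
  set τ := siegelOfLat L with hτ
  have hΛ : latticeSubgroup τ = L.lattice := latticeSubgroup_siegelOfLat L
  -- the algebraic vectors
  let D : Set (Fin g → ℂ) :=
    {u | ∃ x : JZero N, AJ.iota (extPic0C N x) = QuotientAddGroup.mk u}
  have hDadd : ∀ u v, u ∈ D → v ∈ D → u + v ∈ D := by
    rintro u v ⟨x, hx⟩ ⟨y, hy⟩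
    exact ⟨x + y, by rw [map_add, map_add, hx, hy, QuotientAddGroup.mk_add]⟩
  have hDneg : ∀ u, u ∈ D → -u ∈ D := by
    rintro u ⟨x, hx⟩
    exact ⟨-x, by rw [map_neg, map_neg, hx, QuotientAddGroup.mk_neg]⟩
  have hDdense : Dense D := by
    have hd := SiegelLattice9.dense_torsion_diff τ (W := ∅) isClosed_empty interior_empty
    refine hd.mono ?_
    rintro z ⟨⟨n, hn, hnz⟩, -⟩
    rw [Generic9.lattice_eq, hΛ] at hnz
    exact hTORS n hn (QuotientAddGroup.mk z) (by
      rw [← QuotientAddGroup.mk_nsmul]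
      exact (QuotientAddGroup.eq_zero_iff _).mpr hnz)
  have h4k : -((4 : ℂ) • k) ∈ D := by
    obtain ⟨y, hy⟩ := hk
    have : (4 : ℂ) • k = (2 : ℂ) • k + (2 : ℂ) • k := by rw [← add_smul]; norm_num
    rw [this]
    exact hDneg _ (hDadd _ _ ⟨y, hy⟩ ⟨y, hy⟩)
  -- the parameters
  obtain ⟨u, huD, huM⟩ := exists_basis_params τ D hDdense k
  let T : Char2 g × Char2 g → List (Fin g → ℂ) := fun i => List.ofFn (svec k (u i))
  have hTmem : ∀ i, ∀ s ∈ T i, s - k ∈ D := by
    intro i s hs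
    obtain ⟨j, rfl⟩ := (List.mem_ofFn' _ _).mp hs
    obtain ⟨h1, h2, h3⟩ := huD i
    fin_cases j
    · simpa [svec] using h1
    · simpa [svec] using h2
    · simpa [svec] using h3
    · have h3k : (4 : ℂ) • k = (3 : ℂ) • k + k := by
        rw [show (4 : ℂ) = 3 + 1 by norm_num, add_smul, one_smul]
      have : svec k (u i) 3 - k = -((4 : ℂ) • k) + (-(u i).1 + (-(u i).2.1 + -(u i).2.2)) := by
        simp only [svec, Matrix.cons_val]
        rw [h3k]
        abel
      show svec k (u i) 3 - k ∈ D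
      rw [this]
      exact hDadd _ _ h4k (hDadd _ _ (hDneg _ h1) (hDadd _ _ (hDneg _ h2) (hDneg _ h3)))
  obtain ⟨K1, hK1, c, r, hc, hr⟩ := hchain T (fun i => List.length_ofFn)
    (fun i => by rw [List.sum_ofFn]; exact sum_svec k (u i)) hTmem
  -- the matrix
  let M₀ : Matrix (Char2 g × Char2 g) (Char2 g × Char2 g) ℂ :=
    Matrix.of fun i χ => coefU τ k (u i).1 (u i).2.1 (u i).2.2 χ
  let M : Matrix (Char2 g × Char2 g) (Char2 g × Char2 g) ℂ := Matrix.diagonal c * M₀
  have hM : IsUnit M := by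
    refine IsUnit.mul ?_ huM
    rw [Matrix.isUnit_iff_isUnit_det, Matrix.det_diagonal]
    exact isUnit_iff_ne_zero.mpr (Finset.prod_ne_zero_iff.mpr fun i _ => hc i)
  have hfun : (fun x i => c i * psiT (thetaA τ 0) (T i) (lift x)) =
      fun x => M *ᵥ Theta1.Phi τ (lift x) := by
    funext x i
    have h1 : psiT (thetaA τ 0) (T i) (lift x) =
        ∑ χ, coefU τ k (u i).1 (u i).2.1 (u i).2.2 χ * Theta1.Phi τ (lift x) χ := by
      rw [psiT_ofFn, ← prod_four_U]
      simp only [svec, Matrix.cons_val_zero, Matrix.cons_val_one, Matrix.cons_val]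
    rw [h1, ← Matrix.mulVec_mulVec, Matrix.mulVec_diagonal]
    rfl
  rw [hfun] at hr
  -- the hypersurface
  let W : (Fin g → ℂ) → ℂ := fun z =>
    ∏ p : (Char2 g × Char2 g) × Fin 4, thetaA τ 0 (z + svec k (u p.1) p.2)
  have hWd : Differentiable ℂ W :=
    Generic9.differentiable_finset_prod Finset.univ
      (fun (p : (Char2 g × Char2 g) × Fin 4) z => thetaA τ 0 (z + svec k (u p.1) p.2))
      fun p _ => (differentiable_thetaA τ 0).comp (differentiable_id.add_const _)
  have hW0 : ∃ z, W z ≠ 0 := by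
    obtain ⟨z, hz⟩ := Generic9.exists_forall_ne_zero Finset.univ
      (fun (p : (Char2 g × Char2 g) × Fin 4) z => thetaA τ 0 (z + svec k (u p.1) p.2))
      (fun p _ => (differentiable_thetaA τ 0).comp (differentiable_id.add_const _))
      (fun p _ => by
        obtain ⟨z₀, hz₀⟩ := exists_thetaA_ne_zero' τ 0
        exact ⟨z₀ - svec k (u p.1) p.2, by rwa [sub_add_cancel]⟩)
    exact ⟨z, Finset.prod_ne_zero_iff.mpr hz⟩
  have hWΛ : ∀ l ∈ L.lattice, ∀ z, W z = 0 → W (z + l) = 0 := by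
    intro l hl z hz
    rw [← hΛ] at hl
    obtain ⟨p, -, hp⟩ := Finset.prod_eq_zero_iff.mp hz
    refine Finset.prod_eq_zero (Finset.mem_univ p) ?_
    rw [add_right_comm]
    exact thetaA_zero_add_lattice τ hl _ hp
  have hVW : ∀ x : JZero N, W (lift x) ≠ 0 →
      x ∈ {x | ∀ i, ∀ s ∈ T i, thetaA τ 0 (lift x + s) ≠ 0} := by
    intro x hx i s hs
    obtain ⟨j, rfl⟩ := (List.mem_ofFn' _ _).mp hs
    exact Finset.prod_ne_zero_iff.mp hx (i, j) (Finset.mem_univ _)
  exact Glue9.s17_of_basis N L AJ lift hlift hTORS W hWd hW0 hWΛ _ hVW K1 M hM r hr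

end Fermat.Agent.M17.Assembly9
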