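/-
M17 (helper1): **existence of the analytic divisor** of a holomorphic automorphic function with
nowhere vanishing factors of automorphy, part A: local statements.

For `F : HolH`:
* `HolCuspOrd N F δ n` : `F(δ⁻¹ τ) q_N^{-n} → ℓ ≠ 0`; transport along `δ ↦ T^k δ` and `δ ↦ δ γ`
  (`holCuspOrd_T_zpow_mul`, `holCuspOrd_mul_right`), divisibility `N ∣ n w` from `w`-periodicity
  (`dvd_of_holCuspOrd_of_periodic`), `cuspIdx ∣ n` (`cuspIdx_dvd_of_holCuspOrd`);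
* points: `ordMer_smul_of_aut` (invariance of the order), `ptIdx_dvd_ordMer_of_stab`.
-/
import Mathlib
import Fermat.Agent.M17.AutDiv4
import Fermat.Agent.ES.KUM.DivAllPlaces25
import Fermat.Agent.ES.KUM.EllStab14

set_option autoImplicit false
set_option linter.unusedSectionVars false

open UpperHalfPlane AlgebraicCurve Filter Topology
open scoped Manifold MatrixGroups
open CongruenceSubgroup MulAction Subgroup

noncomputable section

namespace Fermat.Agent.M17.AutoDiv1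

open Fermat.Agent.X0 Fermat.Agent.ES.KUM Fermat.Agent.X0.SurjPoint Fermat.Agent.ES.KUM.CCusp16
open Fermat.Agent.M17.Interfaces7 Fermat.Agent.M17.AutDiv4 Fermat.Agent.M15.DivLogMer1 ModularCurve

local notation "ι" => algebraMap HolH MerH

variable (N : ℕ) [NeZero N]

/-- `F ∘ δ⁻¹` has order `n` at `i∞` in the parameter `q_N`. -/
def HolCuspOrd (F : HolH) (δ : SL(2, ℤ)) (n : ℤ) : Prop :=
  ∃ ℓ : ℂ, ℓ ≠ 0 ∧
    Tendsto (fun τ : ℍ => (F : ℍ → ℂ) (δ⁻¹ • τ) * Efac N n τ) atImInfty (𝓝 ℓ)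

theorem cuspOrdIs_of_holCuspOrd {F : HolH} {δ : SL(2, ℤ)} {n : ℤ} (h : HolCuspOrd N F δ n) :
    CuspOrdIs N (ι F) δ n := by
  obtain ⟨ℓ, hℓ, hlim⟩ := h
  refine (cuspOrdIs_iff N _ δ n).2 ⟨F, 1, ℓ, one_ne_zero, hℓ, by rw [map_one, mul_one], ?_⟩
  refine hlim.congr fun τ => ?_
  have h1 : ((1 : HolH) : ℍ → ℂ) (δ⁻¹ • τ) = 1 := rfl
  rw [h1, div_one]

theorem holCuspOrd_unique {F : HolH} {δ : SL(2, ℤ)} {n n' : ℤ} (h : HolCuspOrd N F δ n)
    (h' : HolCuspOrd N F δ n') : n = n' :=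
  cuspOrdIs_unique N (cuspOrdIs_of_holCuspOrd N h) (cuspOrdIs_of_holCuspOrd N h')

/-- real translations preserve `atImInfty`. -/
theorem tendsto_vadd_atImInfty (x : ℝ) : Tendsto (fun τ : ℍ => x +ᵥ τ) atImInfty atImInfty := by
  rw [atImInfty, tendsto_comap_iff]
  have : (UpperHalfPlane.im ∘ fun τ : ℍ => x +ᵥ τ) = UpperHalfPlane.im := by
    funext τ; simp
  rw [this]
  exact tendsto_comap

theorem Efac_vadd (n : ℤ) (x : ℝ) (τ : ℍ) :
    Efac N n (x +ᵥ τ) = Complex.exp (-(2 * Real.pi * Complex.I * n * (x : ℂ)) / N) * Efac N n τ := by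
  unfold Efac
  rw [← Complex.exp_add]
  congr 1
  rw [UpperHalfPlane.coe_vadd]
  ring

/-- transport along `δ ↦ T^k δ`. -/
theorem holCuspOrd_T_zpow_mul {F : HolH} {δ : SL(2, ℤ)} {n : ℤ} (h : HolCuspOrd N F δ n) (k : ℤ) :
    HolCuspOrd N F (ModularGroup.T ^ k * δ) n := by
  obtain ⟨ℓ, hℓ, hlim⟩ := h
  have hc : Complex.exp (-(2 * Real.pi * Complex.I * n * (((-k : ℤ) : ℝ) : ℂ)) / N) ≠ 0 :=
    Complex.exp_ne_zero _
  refine ⟨ℓ * (Complex.exp (-(2 * Real.pi * Complex.I * n * (((-k : ℤ) : ℝ) : ℂ)) / N))⁻¹,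
    mul_ne_zero hℓ (inv_ne_zero hc), ?_⟩
  have h1 := (hlim.comp (tendsto_vadd_atImInfty (((-k : ℤ) : ℝ)))).mul_const
    ((Complex.exp (-(2 * Real.pi * Complex.I * n * (((-k : ℤ) : ℝ) : ℂ)) / N))⁻¹)
  refine h1.congr fun τ => ?_
  simp only [Function.comp_apply]
  rw [Efac_vadd]
  have h2 : (ModularGroup.T ^ k * δ)⁻¹ • τ = δ⁻¹ • ((((-k : ℤ) : ℝ)) +ᵥ τ) := by
    rw [mul_inv_rev, mul_smul, ← zpow_neg, UpperHalfPlane.modular_T_zpow_smul]
  rw [h2]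
  field_simp

/-- transport along `δ ↦ δ γ` when `F ∘ γ⁻¹ = j F` and `j` has a nonzero limit along `δ⁻¹`. -/
theorem holCuspOrd_mul_right {F : HolH} {δ γ : SL(2, ℤ)} {n : ℤ} (h : HolCuspOrd N F δ n)
    (j : ℍ → ℂ) (hj : ∀ τ, (F : ℍ → ℂ) (γ⁻¹ • τ) = j τ * (F : ℍ → ℂ) τ)
    {c : ℂ} (hc : c ≠ 0) (hjlim : Tendsto (fun τ : ℍ => j (δ⁻¹ • τ)) atImInfty (𝓝 c)) :
    HolCuspOrd N F (δ * γ) n := by
  obtain ⟨ℓ, hℓ, hlim⟩ := h
  refine ⟨c * ℓ, mul_ne_zero hc hℓ, ?_⟩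
  refine (hjlim.mul hlim).congr fun τ => ?_
  rw [mul_inv_rev, mul_smul, hj]
  ring

/-- periodicity forces divisibility of the order. -/
theorem dvd_of_holCuspOrd_of_periodic {F : HolH} {δ : SL(2, ℤ)} {n : ℤ} (h : HolCuspOrd N F δ n)
    (w : ℕ) (hper : ∀ τ : ℍ, (F : ℍ → ℂ) (δ⁻¹ • (((w : ℤ) : ℝ) +ᵥ τ)) = (F : ℍ → ℂ) (δ⁻¹ • τ)) :
    (N : ℤ) ∣ n * w := by
  obtain ⟨ℓ, hℓ, hlim⟩ := h
  have h1 := hlim.comp (tendsto_vadd_atImInfty (((w : ℤ) : ℝ)))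
  have h2 : Tendsto (fun τ : ℍ => Complex.exp (-(2 * Real.pi * Complex.I * n * (((w : ℤ) : ℝ) : ℂ)) / N) *
      ((F : ℍ → ℂ) (δ⁻¹ • τ) * Efac N n τ)) atImInfty (𝓝 ℓ) := by
    refine h1.congr fun τ => ?_
    simp only [Function.comp_apply]
    rw [Efac_vadd, hper]
    ring
  have h3 := tendsto_nhds_unique h2 (hlim.const_mul _)
  have h4 : Complex.exp (-(2 * Real.pi * Complex.I * n * (((w : ℤ) : ℝ) : ℂ)) / N) = 1 := by
    have : ℓ * (Complex.exp (-(2 * Real.pi * Complex.I * n * (((w : ℤ) : ℝ) : ℂ)) / N) - 1) = 0 := by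
      rw [mul_sub, mul_one, mul_comm, ← h3, sub_self]
    rcases mul_eq_zero.mp this with h | h
    · exact absurd h hℓ
    · exact sub_eq_zero.mp h
  rw [Complex.exp_eq_one_iff] at h4
  obtain ⟨m, hm⟩ := h4
  have hN : (N : ℂ) ≠ 0 := by exact_mod_cast NeZero.ne N
  have hpi : (2 * Real.pi * Complex.I : ℂ) ≠ 0 := by
    simp [Real.pi_ne_zero, Complex.I_ne_zero]
  have h5 : (n : ℂ) * (w : ℂ) = -(m : ℂ) * N := by
    have h6 : -(2 * Real.pi * Complex.I * n * (((w : ℤ) : ℝ) : ℂ)) = m * (2 * Real.pi * Complex.I) * N := by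
      rw [← hm]; field_simp
    have h7 : (2 * Real.pi * Complex.I) * ((n : ℂ) * (w : ℂ)) = (2 * Real.pi * Complex.I) * (-(m : ℂ) * N) := by
      push_cast at h6
      linear_combination -h6
    exact mul_left_cancel₀ hpi h7
  refine ⟨-m, ?_⟩
  have : ((n * (w : ℤ) : ℤ) : ℂ) = (((N : ℤ) * -m : ℤ) : ℂ) := by
    push_cast
    rw [h5]; ring
  exact_mod_cast this

/-- the width of the cusp: `T^w` fixes the coset `δ Γ₀(N)` for `w` the size of its `⟨T⟩`-orbit. -/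
theorem conj_T_pow_card_mem (δ : SL(2, ℤ)) :
    δ⁻¹ * ModularGroup.T ^ (Nat.card (orbit (zpowers ModularGroup.T)
      (QuotientGroup.mk δ : SL(2, ℤ) ⧸ Gamma0 N))) * δ ∈ Gamma0 N := by
  set x : SL(2, ℤ) ⧸ Gamma0 N := QuotientGroup.mk δ with hx
  have h1 : ModularGroup.T ^ (Nat.card (orbit (zpowers ModularGroup.T) x)) • x = x := by
    have h0 : Nat.card (orbit (zpowers ModularGroup.T) x) =
        Function.minimalPeriod (ModularGroup.T • ·) x :=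
      OrbitCount.card_orbit_zpowers ModularGroup.T x
    rw [h0]
    exact pow_smul_eq_iff_minimalPeriod_dvd.mpr dvd_rfl
  rw [hx, MulAction.Quotient.smul_mk, smul_eq_mul, eq_comm, QuotientGroup.eq, ← mul_assoc] at h1
  exact h1

/-- **the index divides the order** as soon as `F` is invariant under the parabolic stabiliser. -/
theorem cuspIdx_dvd_of_holCuspOrd {F : HolH} {δ : SL(2, ℤ)} {n : ℤ} (h : HolCuspOrd N F δ n)
    (hpar : ∀ γ ∈ Gamma0 N, ((γ : SL(2, ℤ)) : Matrix (Fin 2) (Fin 2) ℤ).trace ^ 2 = 4 →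
      ∀ τ, (F : ℍ → ℂ) (γ • τ) = (F : ℍ → ℂ) τ) :
    (cuspIdx N δ : ℤ) ∣ n := by
  set w := Nat.card (orbit (zpowers ModularGroup.T) (QuotientGroup.mk δ : SL(2, ℤ) ⧸ Gamma0 N))
    with hw
  have hmem := conj_T_pow_card_mem N δ
  have htr : ((δ⁻¹ * ModularGroup.T ^ w * δ : SL(2, ℤ)) : Matrix (Fin 2) (Fin 2) ℤ).trace ^ 2 = 4 := by
    have hT : (↑(ModularGroup.T ^ w) : Matrix (Fin 2) (Fin 2) ℤ) = !![1, (w : ℤ); 0, 1] := by
      rw [← zpow_natCast, ModularGroup.coe_T_zpow]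
    rw [Matrix.SpecialLinearGroup.coe_mul, Matrix.trace_mul_comm, ← Matrix.SpecialLinearGroup.coe_mul,
      mul_inv_cancel_left, hT]
    simp [Matrix.trace_fin_two]
  have hper : ∀ τ : ℍ, (F : ℍ → ℂ) (δ⁻¹ • (((w : ℤ) : ℝ) +ᵥ τ)) = (F : ℍ → ℂ) (δ⁻¹ • τ) := by
    intro τ
    have h1 : δ⁻¹ • (((w : ℤ) : ℝ) +ᵥ τ) = (δ⁻¹ * ModularGroup.T ^ w * δ) • (δ⁻¹ • τ) := by
      rw [← UpperHalfPlane.modular_T_zpow_smul, zpow_natCast, ← mul_smul, ← mul_smul]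
      congr 1
      group
    rw [h1]
    exact hpar _ hmem htr _
  have hdvd := dvd_of_holCuspOrd_of_periodic N h w hper
  have hNw : (cuspIdx N δ : ℤ) * (w : ℤ) = (N : ℤ) := by
    exact_mod_cast cuspIdx_mul_card_orbit N δ
  have hwpos : (w : ℤ) ≠ 0 := by
    intro h0
    rw [h0, mul_zero] at hNw
    exact (NeZero.ne N) (by exact_mod_cast hNw.symm)
  rw [← hNw] at hdvd
  exact Int.dvd_of_mul_dvd_mul_right hwpos hdvd

/-! ### points -/

/-- the order is invariant under `γ` when `F ∘ γ = j F` with `j` nowhere vanishing. -/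
theorem ordMer_smul_of_aut {F j : HolH} (hF : F ≠ 0) (γ : SL(2, ℤ))
    (hj : ∀ τ, (j : ℍ → ℂ) τ ≠ 0) (haut : compSLHom γ F = j * F) (z : ℍ) :
    ordMer (γ • z) (ι F) = ordMer z (ι F) := by
  have hj0 : j ≠ 0 := by
    intro h0
    apply hj z
    rw [h0]; rfl
  rw [← ordMer_slMer, slMer_algebraMap, haut, map_mul,
    ordMer_mul z (iota_ne_zero hj0) (iota_ne_zero hF), ordMer_algebraMap z hj0]
  have : ordH (j : ℍ → ℂ) z = 0 := (ordH_eq_zero_iff j.2 z).mpr (hj z)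
  rw [this]
  simp

/-- divisibility of the order at the elliptic points. -/
theorem ptIdx_dvd_ordMer_of_stab {F : HolH} (hF : F ≠ 0)
    (hstab : ∀ γ ∈ Gamma0 N, |((γ : SL(2, ℤ)) : Matrix (Fin 2) (Fin 2) ℤ).trace| ≤ 2 →
      compSLHom γ F = F) (z : ℍ) :
    (ptIdx N 1 z : ℤ) ∣ ordMer z (ι F) := by
  refine ptIdx_dvd_ordMer N (DivAllPlaces25.pointSurj N) z (ι F) (iota_ne_zero hF) ?_
  intro γ hγ hfix
  rw [slMer_algebraMap, hstab γ hγ (EllStab14.abs_trace_le_two_of_fixed hfix)]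

end Fermat.Agent.M17.AutoDiv1
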