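import Fermat.Agent.M17.DbarResidue5

/-!
# Weighted argument principle

`∫ 2∂̄φ · F'/F = - 2π ∑_p ord_p(F) φ(p)` for `F` holomorphic near the support of `φ`.
Sandbox prototype for S17 (route K).  Mathlib only.
-/

namespace Fermat.Agent.M17.DbarLogDeriv5

open MeasureTheory Set Filter Topology
open scoped Real
open Fermat.Agent.M17.CauchyPompeiu5 Fermat.Agent.M17.DbarResidue5

noncomputable section

/-- local form of the logarithmic derivative at a point of finite order -/
lemma exists_local_logDeriv {F : ℂ → ℂ} {p : ℂ} (hF : AnalyticAt ℂ F p)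
    (hne : analyticOrderAt F p ≠ ⊤) :
    ∃ k : ℂ → ℂ, AnalyticAt ℂ k p ∧
      ∀ᶠ z in 𝓝[≠] p, F z ≠ 0 ∧ deriv F z / F z = (analyticOrderNatAt F p : ℂ) / (z - p) + k z := by
  obtain ⟨g, hg, hgp, hFg⟩ := hF.analyticOrderAt_ne_top.1 hne
  set n := analyticOrderNatAt F p with hn
  refine ⟨fun z => deriv g z / g z, hg.deriv.div hg hgp, ?_⟩
  have h1 : ∀ᶠ z in 𝓝 p, F =ᶠ[𝓝 z] fun z ↦ (z - p) ^ n • g z := hFg.eventuallyEq_nhds
  have h2 : ∀ᶠ z in 𝓝 p, g z ≠ 0 := hg.continuousAt.eventually_ne hgp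
  have h3 : ∀ᶠ z in 𝓝 p, DifferentiableAt ℂ g z :=
    hg.eventually_analyticAt.mono fun z hz => hz.differentiableAt
  have h4 : ∀ᶠ z in 𝓝[≠] p, z ≠ p := eventually_mem_nhdsWithin
  filter_upwards [h1.filter_mono nhdsWithin_le_nhds, h2.filter_mono nhdsWithin_le_nhds,
    h3.filter_mono nhdsWithin_le_nhds, h4] with z hz1 hz2 hz3 hz4
  have hzp : z - p ≠ 0 := sub_ne_zero.mpr hz4
  have hFz : F z = (z - p) ^ n * g z := by simpa using hz1.eq_of_nhds
  have hd : HasDerivAt (fun z ↦ (z - p) ^ n • g z)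
      ((n : ℂ) * (z - p) ^ (n - 1) * g z + (z - p) ^ n * deriv g z) z := by
    have e1 : HasDerivAt (fun z : ℂ => (z - p) ^ n) ((n : ℂ) * (z - p) ^ (n - 1) * 1) z :=
      ((hasDerivAt_id z).sub_const p).pow n
    exact (e1.mul hz3.hasDerivAt).congr_deriv (by ring)
  have hdF : deriv F z = (n : ℂ) * (z - p) ^ (n - 1) * g z + (z - p) ^ n * deriv g z := by
    rw [hz1.deriv_eq]; exact hd.deriv
  refine ⟨by rw [hFz]; exact mul_ne_zero (pow_ne_zero _ hzp) hz2, ?_⟩
  rw [hdF, hFz]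
  rcases Nat.eq_zero_or_pos n with h0 | hpos
  · simp [h0]
  · have hpow : (z - p) ^ n = (z - p) ^ (n - 1) * (z - p) := by
      rw [← pow_succ, Nat.sub_add_cancel hpos]
    rw [hpow]
    have hpp : (z - p) ^ (n - 1) ≠ 0 := pow_ne_zero _ hzp
    field_simp


/-- zeros of a holomorphic function of finite order in a compact set are finite -/
lemma finite_zeros {F : ℂ → ℂ} {U K : Set ℂ} (hU : IsOpen U) (hK : IsCompact K) (hKU : K ⊆ U)
    (hF : DifferentiableOn ℂ F U) (hne : ∀ z ∈ U, analyticOrderAt F z ≠ ⊤) :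
    (K ∩ {z | F z = 0}).Finite := by
  have hN : ∀ p ∈ K, {z | z = p ∨ F z ≠ 0} ∈ 𝓝 p := by
    intro p hp
    have hA : AnalyticAt ℂ F p := hF.analyticAt (hU.mem_nhds (hKU hp))
    obtain ⟨k, -, hk⟩ := exists_local_logDeriv hA (hne p (hKU hp))
    have : ∀ᶠ z in 𝓝[≠] p, F z ≠ 0 := hk.mono fun z hz => hz.1
    rw [eventually_nhdsWithin_iff] at this
    filter_upwards [this] with z hz
    by_cases h : z = p
    · exact Or.inl h
    · exact Or.inr (hz h)
  obtain ⟨t, ht, hcov⟩ := hK.elim_nhds_subcover _ hN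
  apply t.finite_toSet.subset
  intro z ⟨hzK, hz0⟩
  obtain ⟨p, hp, hzp⟩ := mem_iUnion₂.mp (hcov hzK)
  rcases hzp with h | h
  · simpa [h] using hp
  · exact absurd hz0 h

variable {φ : ℂ → ℂ}

/-- global decomposition of the logarithmic derivative near the support of `φ`: `Z` is any finite
set containing the zeros of `F` in the support of `φ`. -/
theorem exists_decomp_logDeriv
    {U : Set ℂ} (hU : IsOpen U) (hsub : tsupport φ ⊆ U) {F : ℂ → ℂ}
    (hF : DifferentiableOn ℂ F U) (hne : ∀ z ∈ U, analyticOrderAt F z ≠ ⊤)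
    (Z : Finset ℂ) (hZ : ∀ z ∈ tsupport φ, F z = 0 → z ∈ Z) :
    ∃ (U' : Set ℂ) (h₀ : ℂ → ℂ), IsOpen U' ∧ tsupport φ ⊆ U' ∧ DifferentiableOn ℂ h₀ U' ∧
      ∀ z ∈ U', z ∉ Z →
        deriv F z / F z = ∑ p ∈ Z, (analyticOrderNatAt F p : ℂ) / (z - p) + h₀ z := by
  have H : ∀ p, p ∈ U → ∃ k : ℂ → ℂ, AnalyticAt ℂ k p ∧
      ∀ᶠ z in 𝓝[≠] p, F z ≠ 0 ∧
        deriv F z / F z = (analyticOrderNatAt F p : ℂ) / (z - p) + k z := fun p hp =>
    exists_local_logDeriv (hF.analyticAt (hU.mem_nhds hp)) (hne p hp)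
  choose! kk hkk1 hkk2 using H
  set n : ℂ → ℂ := fun p => (analyticOrderNatAt F p : ℂ) with hn
  set U' : Set ℂ := {z | z ∈ U ∧ (F z = 0 → z ∈ Z)} with hU'
  have hU'open : IsOpen U' := by
    rw [isOpen_iff_mem_nhds]
    intro z hz
    by_cases h0 : F z = 0
    · have hzZ := hz.2 h0
      have h1 : ∀ᶠ w in 𝓝 z, w ≠ z → F w ≠ 0 := by
        have := (hkk2 z hz.1).mono fun w hw => hw.1
        rwa [eventually_nhdsWithin_iff] at this
      filter_upwards [h1, hU.mem_nhds hz.1] with w hw hwU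
      refine ⟨hwU, fun hw0 => ?_⟩
      by_cases hwz : w = z
      · rw [hwz]; exact hzZ
      · exact absurd hw0 (hw hwz)
    · have hcont : ContinuousAt F z := (hF.differentiableAt (hU.mem_nhds hz.1)).continuousAt
      filter_upwards [hcont.eventually_ne h0, hU.mem_nhds hz.1] with w hw hwU
      exact ⟨hwU, fun hw0 => absurd hw0 hw⟩
  have hsub' : tsupport φ ⊆ U' := fun z hz => ⟨hsub hz, hZ z hz⟩
  set h₀ : ℂ → ℂ := fun z =>
    if z ∈ Z then kk z z - ∑ q ∈ Z.erase z, n q / (z - q)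
    else deriv F z / F z - ∑ q ∈ Z, n q / (z - q) with hh₀
  have hh₀d : DifferentiableOn ℂ h₀ U' := by
    intro z hz
    apply DifferentiableAt.differentiableWithinAt
    by_cases hzZ : z ∈ Z
    · have hev : h₀ =ᶠ[𝓝 z] fun w => kk z w - ∑ q ∈ Z.erase z, n q / (w - q) := by
        have h1 : ∀ᶠ w in 𝓝 z, w ≠ z →
            deriv F w / F w = (analyticOrderNatAt F z : ℂ) / (w - z) + kk z w := by
          have := (hkk2 z hz.1).mono fun w hw => hw.2
          rwa [eventually_nhdsWithin_iff] at this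
        have h2 : ∀ᶠ w in 𝓝 z, w ∉ ((Z.erase z : Finset ℂ) : Set ℂ) :=
          (Z.erase z).finite_toSet.isClosed.isOpen_compl.mem_nhds (by simp)
        filter_upwards [h1, h2] with w hw1 hw2
        by_cases hwz : w = z
        · subst hwz
          simp only [hh₀, if_pos hzZ]
        · have hwZ : w ∉ Z := by
            intro hw
            exact hw2 (by simpa using ⟨hw, hwz⟩)
          simp only [hh₀, if_neg hwZ]
          rw [hw1 hwz, ← Finset.add_sum_erase Z _ hzZ]
          ring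
      apply (DifferentiableAt.congr_of_eventuallyEq · hev)
      apply (hkk1 z hz.1).differentiableAt.sub
      apply DifferentiableAt.fun_sum
      intro q hq
      have hqz : z - q ≠ 0 := sub_ne_zero.mpr (Finset.ne_of_mem_erase hq).symm
      exact (differentiableAt_const _).div (differentiableAt_id.sub_const q) hqz
    · have hFz : F z ≠ 0 := fun h => hzZ (hz.2 h)
      have hev : h₀ =ᶠ[𝓝 z] fun w => deriv F w / F w - ∑ q ∈ Z, n q / (w - q) := by
        have h2 : ∀ᶠ w in 𝓝 z, w ∉ (Z : Set ℂ) :=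
          Z.finite_toSet.isClosed.isOpen_compl.mem_nhds (by simpa using hzZ)
        filter_upwards [h2] with w hw
        have hwZ : w ∉ Z := by simpa using hw
        simp only [hh₀, if_neg hwZ]
      apply (DifferentiableAt.congr_of_eventuallyEq · hev)
      have hA : AnalyticAt ℂ F z := hF.analyticAt (hU.mem_nhds hz.1)
      apply (hA.deriv.differentiableAt.div hA.differentiableAt hFz).sub
      apply DifferentiableAt.fun_sum
      intro q hq
      have hqz : z - q ≠ 0 := sub_ne_zero.mpr (fun h => hzZ (h ▸ hq))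
      exact (differentiableAt_const _).div (differentiableAt_id.sub_const q) hqz
  refine ⟨U', h₀, hU'open, hsub', hh₀d, ?_⟩
  intro z _ hzZ
  simp only [hh₀, if_neg hzZ]
  ring

/-- (DLOG) **weighted argument principle**: `Z` is any finite set containing the zeros
of `F` in the support of `φ`. -/
theorem integral_dbar2_mul_logDeriv (hφ : ContDiff ℝ 1 φ) (hc : HasCompactSupport φ)
    {U : Set ℂ} (hU : IsOpen U) (hsub : tsupport φ ⊆ U) {F : ℂ → ℂ}
    (hF : DifferentiableOn ℂ F U) (hne : ∀ z ∈ U, analyticOrderAt F z ≠ ⊤)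
    (Z : Finset ℂ) (hZ : ∀ z ∈ tsupport φ, F z = 0 → z ∈ Z) :
    ∫ z, dbar2 φ z * (deriv F z / F z)
      = -(2 * π) * ∑ p ∈ Z, (analyticOrderNatAt F p : ℂ) * φ p := by
  obtain ⟨U', h₀, hU'open, hsub', hh₀d, heq⟩ := exists_decomp_logDeriv hU hsub hF hne Z hZ
  exact integral_dbar2_mul_simple_poles hφ hc hU'open hsub' Z _ hh₀d heq

/-- the logarithmic derivative is integrable against `2∂̄φ`. -/
theorem integrable_dbar2_mul_logDeriv (hφ : ContDiff ℝ 1 φ) (hc : HasCompactSupport φ)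
    {U : Set ℂ} (hU : IsOpen U) (hsub : tsupport φ ⊆ U) {F : ℂ → ℂ}
    (hF : DifferentiableOn ℂ F U) (hne : ∀ z ∈ U, analyticOrderAt F z ≠ ⊤) :
    Integrable (fun z => dbar2 φ z * (deriv F z / F z)) := by
  have hfin := finite_zeros hU hc hsub hF hne
  obtain ⟨U', h₀, -, hsub', hh₀d, heq⟩ := exists_decomp_logDeriv hU hsub hF hne
    hfin.toFinset (fun z hz h0 => by simpa using ⟨hz, h0⟩)
  exact integrable_dbar2_mul_simple_poles hφ hc hsub' _ _ hh₀d heq

end

end Fermat.Agent.M17.DbarLogDeriv5
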