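/-
M17 (helper1): **existence of the analytic divisor**, part B: finiteness of the zeros modulo `Γ₀(N)`
and the assembly.

* `ThetaLike N F` : `F : HolH` nonzero, automorphic for `Γ₀(N)` with nowhere vanishing holomorphic
  factors having nonzero limits at all cusps, invariant under the elements of trace `|tr| ≤ 2`,
  with an order `n ≥ 0` at every cusp;
* `exists_isAutDiv` : then there is an effective divisor `Δ` with `IsAutDiv N F Δ`.
-/
import Mathlib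
import Fermat.Agent.M17.AutoDivA1
import Fermat.Agent.M17.DbarLogDeriv5

set_option autoImplicit false
set_option linter.unusedSectionVars false

open UpperHalfPlane AlgebraicCurve Filter Topology
open scoped Manifold MatrixGroups Modular
open CongruenceSubgroup MulAction Subgroup

noncomputable section

namespace Fermat.Agent.M17.AutoDiv1

open Fermat.Agent.X0 Fermat.Agent.ES.KUM Fermat.Agent.X0.SurjPoint Fermat.Agent.ES.KUM.CCusp16
open Fermat.Agent.M17.Interfaces7 Fermat.Agent.M17.AutDiv4 Fermat.Agent.M15.DivLogMer1 ModularCurve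

local notation "ι" => algebraMap HolH MerH

variable (N : ℕ) [NeZero N]

/-! ### finiteness -/

/-- a function with a cusp order does not vanish high up. -/
theorem exists_forall_ne_zero_of_holCuspOrd {F : HolH} {δ : SL(2, ℤ)} {n : ℤ}
    (h : HolCuspOrd N F δ n) : ∃ M : ℝ, ∀ τ : ℍ, M ≤ τ.im → (F : ℍ → ℂ) (δ⁻¹ • τ) ≠ 0 := by
  obtain ⟨ℓ, hℓ, hlim⟩ := h
  have hev : ∀ᶠ τ : ℍ in atImInfty, (F : ℍ → ℂ) (δ⁻¹ • τ) * Efac N n τ ≠ 0 :=
    hlim.eventually_ne hℓ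
  obtain ⟨M, hM⟩ := (atImInfty_mem _).mp hev
  exact ⟨M, fun τ hτ h0 => hM τ hτ (by rw [h0, zero_mul])⟩

/-- the zeros of `G ≠ 0` in the fundamental domain, below a horizontal line, are finite. -/
theorem finite_zeros_fd {G : HolH} (hG : G ≠ 0) (M : ℝ) :
    {p : ℍ | p ∈ 𝒟 ∧ p.im ≤ M ∧ (G : ℍ → ℂ) p = 0}.Finite := by
  set K : Set ℂ := Set.Icc (-(1 / 2) : ℝ) (1 / 2) ×ℂ Set.Icc (1 / 2 : ℝ) M with hK
  have hKc : IsCompact K := IsCompact.reProdIm isCompact_Icc isCompact_Icc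
  set U : Set ℂ := {w | 0 < w.im} with hU
  have hUo : IsOpen U := isOpen_upperHalfPlaneSet
  have hKU : K ⊆ U := by
    intro w hw
    have := hw.2.1
    show 0 < w.im
    linarith
  have hd : DifferentiableOn ℂ ((G : ℍ → ℂ) ∘ ofComplex) U :=
    UpperHalfPlane.mdifferentiable_iff.mp G.2
  have hne : ∀ z ∈ U, analyticOrderAt ((G : ℍ → ℂ) ∘ ofComplex) z ≠ ⊤ := by
    intro z hz
    have := ordH_ne_top G.2 (fun h0 => hG (Subtype.ext h0)) ⟨z, hz⟩
    exact this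
  have hfin := Fermat.Agent.M17.DbarLogDeriv5.finite_zeros hUo hKc hKU hd hne
  have hinj : Set.InjOn (fun p : ℍ => (p : ℂ))
      ((fun p : ℍ => (p : ℂ)) ⁻¹' (K ∩ {z | ((G : ℍ → ℂ) ∘ ofComplex) z = 0})) :=
    fun a _ b _ hab => UpperHalfPlane.ext hab
  refine (hfin.preimage hinj).subset ?_
  rintro p ⟨hp, hpM, hp0⟩
  obtain ⟨hns, hre⟩ := hp
  have him : (1 / 2 : ℝ) ≤ p.im := by
    have h1 : Complex.normSq (p : ℂ) = p.re ^ 2 + p.im ^ 2 := by
      rw [Complex.normSq_apply]; simp [sq]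
    rw [h1] at hns
    have h2 : p.re ^ 2 ≤ 1 / 4 := by
      have := abs_le.mp hre
      nlinarith
    have h3 : (3 / 4 : ℝ) ≤ p.im ^ 2 := by linarith
    nlinarith [p.im_pos]
  refine ⟨⟨?_, ?_⟩, ?_⟩
  · exact ⟨by simpa using (abs_le.mp hre).1, by simpa using (abs_le.mp hre).2⟩
  · exact ⟨him, hpM⟩
  · show ((G : ℍ → ℂ) ∘ ofComplex) (p : ℂ) = 0
    rw [Function.comp_apply, ofComplex_apply]
    exact hp0

/-- for every `g`, the zeros of `F ∘ g` in the fundamental domain are finite, if `F` has an order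
at the cusp of `g⁻¹`. -/
theorem finite_zeros_fd_comp {F : HolH} (hF : F ≠ 0) (g : SL(2, ℤ)) {n : ℤ}
    (h : HolCuspOrd N F g⁻¹ n) :
    {p : ℍ | p ∈ 𝒟 ∧ (F : ℍ → ℂ) (g • p) = 0}.Finite := by
  obtain ⟨M, hM⟩ := exists_forall_ne_zero_of_holCuspOrd N h
  have hG : compSLHom g F ≠ 0 := compSLHom_ne_zero g hF
  refine (finite_zeros_fd hG M).subset ?_
  rintro p ⟨hp, hp0⟩
  refine ⟨hp, ?_, hp0⟩
  by_contra hlt
  have := hM p (le_of_lt (not_le.mp hlt))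
  rw [inv_inv] at this
  exact this hp0

/-- **finiteness of the zeros modulo `Γ₀(N)`**, on the level of places. -/
theorem finite_zero_places {F : HolH} (hF : F ≠ 0)
    (haut : ∀ γ ∈ Gamma0 N, ∃ j : HolH, compSLHom γ F = j * F)
    (hcusp : ∀ δ : SL(2, ℤ), ∃ n : ℤ, HolCuspOrd N F δ n) :
    {v : Place ℂ (FC N) | ∃ z : ℍ, v = ptPlaceC N 1 z ∧ (F : ℍ → ℂ) z = 0}.Finite := by
  have : Finite (SL(2, ℤ) ⧸ Gamma0 N) := by
    apply Nat.finite_of_card_ne_zero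
    rw [G1Index.g1_card]
    exact (GNPsi.gnp_dedekindPsi_pos (NeZero.ne N)).ne'
  have hfin : ∀ x : SL(2, ℤ) ⧸ Gamma0 N,
      ((fun p : ℍ => ptPlaceC N 1 (x.out⁻¹ • p)) ''
        {p : ℍ | p ∈ 𝒟 ∧ (F : ℍ → ℂ) (x.out⁻¹ • p) = 0}).Finite := by
    intro x
    obtain ⟨n, hn⟩ := hcusp (x.out⁻¹)⁻¹
    exact (finite_zeros_fd_comp N hF x.out⁻¹ hn).image _
  refine (Set.finite_iUnion hfin).subset ?_
  rintro v ⟨z, rfl, hz⟩
  obtain ⟨σ, hσ⟩ := ModularGroup.exists_smul_mem_fd z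
  obtain ⟨h, hh⟩ := QuotientGroup.mk_out_eq_mul (Gamma0 N) σ
  rw [Set.mem_iUnion]
  refine ⟨QuotientGroup.mk σ, σ • z, ⟨hσ, ?_⟩, ?_⟩
  · -- `x.out⁻¹ • σ • z = h⁻¹ • z`
    have h1 : (QuotientGroup.mk σ : SL(2, ℤ) ⧸ Gamma0 N).out⁻¹ • σ • z = (h : SL(2, ℤ))⁻¹ • z := by
      rw [hh, mul_inv_rev, mul_smul, inv_smul_smul]
    rw [h1]
    obtain ⟨j, hj⟩ := haut ((h : SL(2, ℤ))⁻¹) (inv_mem h.2)
    have := congrArg (fun a : HolH => (a : ℍ → ℂ) z) hj
    simp only [coe_compSLHom, compSL_apply] at this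
    rw [this]
    show (j : ℍ → ℂ) z * (F : ℍ → ℂ) z = 0
    rw [hz, mul_zero]
  · have h1 : (QuotientGroup.mk σ : SL(2, ℤ) ⧸ Gamma0 N).out⁻¹ • σ • z = (h : SL(2, ℤ))⁻¹ • z := by
      rw [hh, mul_inv_rev, mul_smul, inv_smul_smul]
    show ptPlaceC N 1 ((QuotientGroup.mk σ : SL(2, ℤ) ⧸ Gamma0 N).out⁻¹ • σ • z) = ptPlaceC N 1 z
    rw [h1]
    exact Fermat.Agent.M17.Dict4.ptPlaceC_smul_of_mem N (inv_mem h.2) z

end Fermat.Agent.M17.AutoDiv1
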