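/-
M17 (helper1): **existence of the analytic divisor**, part C: the assembly.

* `ThetaLike N F` : `F : HolH` nonzero, automorphic for `Γ₀(N)` with nowhere vanishing holomorphic
  factors having nonzero limits at all cusps, invariant under the elements of trace `|tr| ≤ 2`,
  with an order `n ≥ 0` at every cusp;
* `exists_isAutDiv` : then there is an effective divisor `Δ` with `IsAutDiv N (ι F) Δ`.
-/
import Mathlib
import Fermat.Agent.M17.AutoDivB1

set_option autoImplicit false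
set_option linter.unusedSectionVars false

open UpperHalfPlane AlgebraicCurve Filter Topology
open scoped Manifold MatrixGroups Modular
open CongruenceSubgroup MulAction Subgroup

noncomputable section

namespace Fermat.Agent.M17.AutoDiv1

open Fermat.Agent.X0 Fermat.Agent.ES.KUM Fermat.Agent.X0.SurjPoint Fermat.Agent.ES.KUM.CCusp16
open Fermat.Agent.M17.Interfaces7 Fermat.Agent.M17.AutDiv4 Fermat.Agent.M15.DivLogMer1 ModularCurve

local notation "ι" => algebraMap HolH MerH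

variable (N : ℕ) [NeZero N]

/-- the hypotheses on a "theta-like" holomorphic function on `ℍ`. -/
structure ThetaLike (F : HolH) : Prop where
  ne : F ≠ 0
  aut : ∀ γ ∈ Gamma0 N, ∃ j : HolH, (∀ τ, (j : ℍ → ℂ) τ ≠ 0) ∧ compSLHom γ F = j * F ∧
    ∀ δ : SL(2, ℤ), ∃ c : ℂ, c ≠ 0 ∧
      Tendsto (fun τ : ℍ => (j : ℍ → ℂ) (δ • τ)) atImInfty (𝓝 c)
  stab : ∀ γ ∈ Gamma0 N, |((γ : SL(2, ℤ)) : Matrix (Fin 2) (Fin 2) ℤ).trace| ≤ 2 →
    compSLHom γ F = F
  cusp : ∀ δ : SL(2, ℤ), ∃ n : ℕ, HolCuspOrd N F δ n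

variable {N}

namespace ThetaLike

variable {F : HolH} (hF : ThetaLike N F)

/-- the order at the cusp `δ`. -/
def cuspN (δ : SL(2, ℤ)) : ℕ := (hF.cusp δ).choose

theorem cuspN_spec (δ : SL(2, ℤ)) : HolCuspOrd N F δ (hF.cusp δ).choose := (hF.cusp δ).choose_spec

include hF in
theorem ordMer_smul {γ : SL(2, ℤ)} (hγ : γ ∈ Gamma0 N) (z : ℍ) :
    ordMer (γ • z) (ι F) = ordMer z (ι F) := by
  obtain ⟨j, hj, haut, -⟩ := hF.aut γ hγ
  exact ordMer_smul_of_aut hF.ne γ hj haut z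

include hF in
theorem apply_smul_eq_zero {γ : SL(2, ℤ)} (hγ : γ ∈ Gamma0 N) {z : ℍ} (hz : (F : ℍ → ℂ) z = 0) :
    (F : ℍ → ℂ) (γ • z) = 0 := by
  obtain ⟨j, -, haut, -⟩ := hF.aut γ hγ
  have := congrArg (fun a : HolH => (a : ℍ → ℂ) z) haut
  simp only [coe_compSLHom, compSL_apply] at this
  rw [this]
  show (j : ℍ → ℂ) z * (F : ℍ → ℂ) z = 0
  rw [hz, mul_zero]

include hF in
theorem holCuspOrd_of_eq {δ δ' : SL(2, ℤ)} (h : cuspPlaceC N δ = cuspPlaceC N δ') {n : ℤ}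
    (hn : HolCuspOrd N F δ' n) : HolCuspOrd N F δ n ∧ cuspIdx N δ = cuspIdx N δ' := by
  rw [← cuspPlaceXC_mk, ← cuspPlaceXC_mk, cuspPlaceXC_eq_iff] at h
  obtain ⟨⟨t, k, rfl⟩, hk⟩ := h
  have hk' : (QuotientGroup.mk (ModularGroup.T ^ k * δ') : SL(2, ℤ) ⧸ Gamma0 N) =
      QuotientGroup.mk δ := hk
  rw [QuotientGroup.eq] at hk'
  set γ : SL(2, ℤ) := (ModularGroup.T ^ k * δ')⁻¹ * δ with hγ
  have hδ : δ = (ModularGroup.T ^ k * δ') * γ := by rw [hγ, mul_inv_cancel_left]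
  obtain ⟨j, hj, haut, hlim⟩ := hF.aut γ⁻¹ (inv_mem hk')
  obtain ⟨c, hc, hclim⟩ := hlim (ModularGroup.T ^ k * δ')⁻¹
  constructor
  · rw [hδ]
    refine holCuspOrd_mul_right N (holCuspOrd_T_zpow_mul N hn k) (fun τ => (j : ℍ → ℂ) τ) ?_ hc hclim
    intro τ
    have := congrArg (fun a : HolH => (a : ℍ → ℂ) τ) haut
    simp only [coe_compSLHom, compSL_apply] at this
    exact this
  · rw [hδ, cuspIdx_mul_right N _ γ hk', cuspIdx_T_zpow_mul]

include hF in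
theorem cuspIdx_dvd {δ : SL(2, ℤ)} {n : ℤ} (hn : HolCuspOrd N F δ n) : (cuspIdx N δ : ℤ) ∣ n := by
  refine cuspIdx_dvd_of_holCuspOrd N hn ?_
  intro γ hγ htr τ
  have h2 : |((γ : SL(2, ℤ)) : Matrix (Fin 2) (Fin 2) ℤ).trace| ≤ 2 := by
    have h4 : |((γ : SL(2, ℤ)) : Matrix (Fin 2) (Fin 2) ℤ).trace| ^ 2 = 2 ^ 2 := by
      rw [sq_abs, htr]; norm_num
    have := abs_nonneg ((γ : SL(2, ℤ)) : Matrix (Fin 2) (Fin 2) ℤ).trace
    nlinarith
  have := congrArg (fun a : HolH => (a : ℍ → ℂ) τ) (hF.stab γ hγ h2)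
  simpa only [coe_compSLHom, compSL_apply] using this

open Classical in
/-- the coefficients of the divisor. -/
def zfun (v : Place ℂ (FC N)) : ℤ :=
  if h : ∃ z : ℍ, v = ptPlaceC N 1 z then ordMer h.choose (ι F) / (ptIdx N 1 h.choose : ℤ)
  else if h : ∃ δ : SL(2, ℤ), v = cuspPlaceC N δ then
    ((hF.cusp h.choose).choose : ℤ) / (cuspIdx N h.choose : ℤ)
  else 0

theorem zfun_nonneg (v : Place ℂ (FC N)) : 0 ≤ hF.zfun v := by
  unfold zfun
  split_ifs with h1 h2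
  · refine Int.ediv_nonneg ?_ (by positivity)
    rw [ordMer_algebraMap _ hF.ne]
    positivity
  · exact Int.ediv_nonneg (by positivity) (by positivity)
  · exact le_rfl

theorem zfun_pt (z : ℍ) :
    hF.zfun (ptPlaceC N 1 z) * (ptIdx N 1 z : ℤ) = ordMer z (ι F) := by
  have h : ∃ z' : ℍ, ptPlaceC N 1 z = ptPlaceC N 1 z' := ⟨z, rfl⟩
  unfold zfun
  rw [dif_pos h]
  obtain ⟨γ, hγ, hγz⟩ := (Fermat.Agent.M17.Dict4.ptPlaceC_eq_iff N z h.choose).mp h.choose_spec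
  have h1 : ordMer h.choose (ι F) = ordMer z (ι F) := by
    rw [← hγz]; exact hF.ordMer_smul hγ z
  have h2 : ptIdx N 1 h.choose = ptIdx N 1 z := by
    rw [← hγz]
    have e1 := CSurj25.ptIdx_eq_one N γ⁻¹ z
    rw [inv_inv] at e1
    rw [← e1]
    have e2 := ptIdx_mul_of_mem N 1 γ⁻¹ (inv_mem hγ) z
    rw [one_mul] at e2
    exact e2
  rw [h1, h2]
  exact Int.ediv_mul_cancel (ptIdx_dvd_ordMer_of_stab N hF.ne hF.stab z)

theorem zfun_cusp (δ : SL(2, ℤ)) :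
    HolCuspOrd N F δ (hF.zfun (cuspPlaceC N δ) * (cuspIdx N δ : ℤ)) := by
  have h0 : ¬ ∃ z : ℍ, cuspPlaceC N δ = ptPlaceC N 1 z := by
    rintro ⟨z, hz⟩
    exact CSurj25.ptPlaceC_ne_cuspPlaceC N 1 δ z hz.symm
  have h : ∃ δ' : SL(2, ℤ), cuspPlaceC N δ = cuspPlaceC N δ' := ⟨δ, rfl⟩
  unfold zfun
  rw [dif_neg h0, dif_pos h]
  obtain ⟨h1, h2⟩ := hF.holCuspOrd_of_eq h.choose_spec (hF.cusp h.choose).choose_spec
  rw [← h2, Int.ediv_mul_cancel]
  · exact h1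
  · exact hF.cuspIdx_dvd h1

theorem zfun_support_finite : (Function.support hF.zfun).Finite := by
  have hfin1 := finite_zero_places N hF.ne
    (fun γ hγ => by obtain ⟨j, -, hj, -⟩ := hF.aut γ hγ; exact ⟨j, hj⟩)
    (fun δ => by obtain ⟨n, hn⟩ := hF.cusp δ; exact ⟨n, hn⟩)
  refine (hfin1.union (finite_poles_jC N)).subset ?_
  intro v hv
  rw [Function.mem_support] at hv
  by_cases h1 : ∃ z : ℍ, v = ptPlaceC N 1 z
  · left
    refine ⟨h1.choose, h1.choose_spec, ?_⟩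
    by_contra hne
    apply hv
    unfold zfun
    rw [dif_pos h1, ordMer_algebraMap _ hF.ne, (ordH_eq_zero_iff F.2 _).mpr hne]
    simp
  · by_cases h2 : ∃ δ : SL(2, ℤ), v = cuspPlaceC N δ
    · right
      obtain ⟨δ, rfl⟩ := h2
      exact cuspPlaceC_ord_jC_neg N δ
    · exfalso
      apply hv
      unfold zfun
      rw [dif_neg h1, dif_neg h2]

/-- the divisor of `F`. -/
def div : Divisor ℂ (FC N) := Finsupp.ofSupportFinite hF.zfun hF.zfun_support_finite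

theorem div_apply (v : Place ℂ (FC N)) : hF.div v = hF.zfun v := rfl

theorem div_nonneg (v : Place ℂ (FC N)) : 0 ≤ hF.div v := hF.zfun_nonneg v

theorem isAutDiv_div : IsAutDiv N (ι F) hF.div := by
  refine ⟨iota_ne_zero hF.ne, fun z => ?_, fun δ => ?_⟩
  · rw [div_apply, zfun_pt]
  · rw [div_apply]
    exact cuspOrdIs_of_holCuspOrd N (hF.zfun_cusp δ)

end ThetaLike

/-- **existence of the analytic divisor** of a theta-like function. -/
theorem exists_isAutDiv {F : HolH} (hF : ThetaLike N F) :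
    ∃ Δ : Divisor ℂ (FC N), (∀ v, 0 ≤ Δ v) ∧ IsAutDiv N (ι F) Δ :=
  ⟨hF.div, hF.div_nonneg, hF.isAutDiv_div⟩

end Fermat.Agent.M17.AutoDiv1
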