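import Mathlib

/-!
# Cauchy–Pompeiu formula for compactly supported `C¹` functions (local Green identity)

`∫_ℂ (φ_x + i φ_y)(z) / (z - a) dA(z) = - 2π φ(a)`.

Sandbox prototype for S17 (route K), leaf A1 of D5b.  Imports only Mathlib.
-/

namespace Fermat.Agent.M17.CauchyPompeiu5

open MeasureTheory Set Filter Topology
open scoped Real

noncomputable section

/-- `2 ∂̄φ = φ_x + i φ_y`. -/
def dbar2 (φ : ℂ → ℂ) (z : ℂ) : ℂ :=
  fderiv ℝ φ z 1 + Complex.I * fderiv ℝ φ z Complex.I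

/-- the polar map `(r, θ) ↦ r e^{iθ}` -/
def pol (p : ℝ × ℝ) : ℂ := (p.1 : ℂ) * Complex.exp ((p.2 : ℂ) * Complex.I)

lemma polarCoord_symm_eq (p : ℝ × ℝ) : Complex.polarCoord.symm p = pol p := by
  simp [pol, Complex.exp_mul_I]

/-- radial term `∂_r (φ (r e^{iθ}))` -/
def radT (φ : ℂ → ℂ) (p : ℝ × ℝ) : ℂ :=
  fderiv ℝ φ (pol p) (Complex.exp ((p.2 : ℂ) * Complex.I))

/-- angular term `(i / r) ∂_θ (φ (r e^{iθ}))` -/
def angT (φ : ℂ → ℂ) (p : ℝ × ℝ) : ℂ :=
  Complex.I * fderiv ℝ φ (pol p) (Complex.I * Complex.exp ((p.2 : ℂ) * Complex.I))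

lemma exp_eq (θ : ℝ) : Complex.exp ((θ : ℂ) * Complex.I)
    = (Real.cos θ) • (1 : ℂ) + (Real.sin θ) • Complex.I := by
  rw [Complex.exp_mul_I]
  simp [Complex.real_smul]

lemma I_mul_exp_eq (θ : ℝ) : Complex.I * Complex.exp ((θ : ℂ) * Complex.I)
    = (-Real.sin θ) • (1 : ℂ) + (Real.cos θ) • Complex.I := by
  rw [Complex.exp_mul_I]
  simp only [Complex.real_smul, Complex.ofReal_neg, Complex.ofReal_sin, Complex.ofReal_cos]
  ring_nf
  rw [Complex.I_sq]
  ring

lemma key_pointwise (φ : ℂ → ℂ) (p : ℝ × ℝ) (hp : p.1 ≠ 0) :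
    (p.1 : ℝ) • (dbar2 φ (pol p) / pol p) = radT φ p + angT φ p := by
  obtain ⟨r, θ⟩ := p
  simp only at hp
  unfold radT angT dbar2
  simp only
  rw [I_mul_exp_eq, exp_eq]
  simp only [map_add, map_smul]
  set L1 := fderiv ℝ φ (pol (r, θ)) 1
  set LI := fderiv ℝ φ (pol (r, θ)) Complex.I
  have hr : (r : ℂ) ≠ 0 := by exact_mod_cast hp
  have he : Complex.exp ((θ : ℂ) * Complex.I) ≠ 0 := Complex.exp_ne_zero _
  have hcs : (Real.cos θ : ℂ) ^ 2 + (Real.sin θ : ℂ) ^ 2 = 1 := by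
    exact_mod_cast Real.cos_sq_add_sin_sq θ
  have hee : Complex.exp ((θ : ℂ) * Complex.I) = (Real.cos θ : ℂ) + (Real.sin θ : ℂ) * Complex.I := by
    rw [Complex.exp_mul_I]; simp
  have hinv : (Complex.exp ((θ : ℂ) * Complex.I))⁻¹
      = (Real.cos θ : ℂ) - (Real.sin θ : ℂ) * Complex.I := by
    apply inv_eq_of_mul_eq_one_right
    rw [hee]
    ring_nf
    rw [Complex.I_sq]
    linear_combination hcs
  simp only [pol, Complex.real_smul]
  rw [div_mul_eq_div_div, div_eq_mul_inv _ (Complex.exp _), hinv]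
  field_simp
  push_cast
  ring_nf
  rw [Complex.I_sq]
  ring


variable {φ : ℂ → ℂ}

lemma continuous_pol : Continuous pol := by unfold pol; fun_prop

lemma continuous_radT (hφ : ContDiff ℝ 1 φ) : Continuous (radT φ) := by
  unfold radT
  exact ((hφ.continuous_fderiv one_ne_zero).comp continuous_pol).clm_apply (by fun_prop)

lemma continuous_angT (hφ : ContDiff ℝ 1 φ) : Continuous (angT φ) := by
  unfold angT
  exact continuous_const.mul
    (((hφ.continuous_fderiv one_ne_zero).comp continuous_pol).clm_apply (by fun_prop))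

lemma norm_pol (p : ℝ × ℝ) : ‖pol p‖ = |p.1| := by
  simp [pol, Complex.norm_exp_ofReal_mul_I]

/-- radial derivative -/
lemma hasDerivAt_rad (hφ : ContDiff ℝ 1 φ) (r θ : ℝ) :
    HasDerivAt (fun r : ℝ => φ (pol (r, θ))) (radT φ (r, θ)) r := by
  have h1 : HasFDerivAt φ (fderiv ℝ φ (pol (r, θ))) (pol (r, θ)) :=
    (hφ.differentiable one_ne_zero _).hasFDerivAt
  have h2 : HasDerivAt (fun r : ℝ => pol (r, θ)) (Complex.exp ((θ : ℂ) * Complex.I)) r := by
    unfold pol
    simpa using (Complex.ofRealCLM.hasDerivAt (x := r)).mul_const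
      (Complex.exp ((θ : ℂ) * Complex.I))
  exact h1.comp_hasDerivAt r h2

/-- angular derivative -/
lemma hasDerivAt_ang (hφ : ContDiff ℝ 1 φ) (r θ : ℝ) :
    HasDerivAt (fun θ : ℝ => φ (pol (r, θ)))
      (fderiv ℝ φ (pol (r, θ)) ((r : ℂ) * (Complex.I * Complex.exp ((θ : ℂ) * Complex.I)))) θ := by
  have h1 : HasFDerivAt φ (fderiv ℝ φ (pol (r, θ))) (pol (r, θ)) :=
    (hφ.differentiable one_ne_zero _).hasFDerivAt
  have h2 : HasDerivAt (fun θ : ℝ => pol (r, θ))
      ((r : ℂ) * (Complex.I * Complex.exp ((θ : ℂ) * Complex.I))) θ := by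
    unfold pol
    have h3 : HasDerivAt (fun θ : ℝ => Complex.exp ((θ : ℂ) * Complex.I))
        (Complex.exp ((θ : ℂ) * Complex.I) * (1 * Complex.I)) θ := by
      have := ((Complex.ofRealCLM.hasDerivAt (x := θ)).mul_const Complex.I).cexp
      simpa using this
    exact (h3.const_mul (r : ℂ)).congr_deriv (by ring)
  exact h1.comp_hasDerivAt θ h2


lemma exists_radius (hc : HasCompactSupport φ) :
    ∃ R : ℝ, 0 < R ∧ (∀ z : ℂ, R ≤ ‖z‖ → φ z = 0) ∧ (∀ z : ℂ, R ≤ ‖z‖ → fderiv ℝ φ z = 0) := by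
  obtain ⟨R1, h1, h1'⟩ := hc.exists_pos_le_norm
  obtain ⟨R2, h2, h2'⟩ := (hc.fderiv ℝ).exists_pos_le_norm
  exact ⟨max R1 R2, lt_max_of_lt_left h1, fun z hz => h1' z ((le_max_left _ _).trans hz),
    fun z hz => h2' z ((le_max_right _ _).trans hz)⟩

lemma integrableOn_target {F : ℝ × ℝ → ℂ} (hF : Continuous F) {R : ℝ}
    (hR : ∀ p : ℝ × ℝ, R ≤ |p.1| → F p = 0) :
    IntegrableOn F (Ioi (0 : ℝ) ×ˢ Ioo (-π) π) := by
  have hK : MeasurableSet (Icc (0 : ℝ) R ×ˢ Icc (-π) π) := measurableSet_Icc.prod measurableSet_Icc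
  have h1 : IntegrableOn F (Icc (0 : ℝ) R ×ˢ Icc (-π) π) :=
    hF.continuousOn.integrableOn_compact (isCompact_Icc.prod isCompact_Icc)
  have h2 : IntegrableOn (indicator (Icc (0 : ℝ) R ×ˢ Icc (-π) π) F) (Ioi (0 : ℝ) ×ˢ Ioo (-π) π) :=
    (h1.integrable_indicator hK).integrableOn
  refine h2.congr_fun ?_ (measurableSet_Ioi.prod measurableSet_Ioo)
  intro p hp
  by_cases hpR : p.1 ≤ R
  · have : p ∈ Icc (0 : ℝ) R ×ˢ Icc (-π) π :=
      ⟨⟨le_of_lt hp.1, hpR⟩, ⟨le_of_lt hp.2.1, le_of_lt hp.2.2⟩⟩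
    rw [indicator_of_mem this]
  · have hn : p ∉ Icc (0 : ℝ) R ×ˢ Icc (-π) π := fun h => hpR h.1.2
    rw [indicator_of_notMem hn]
    exact (hR p (le_trans (le_of_lt (not_le.mp hpR)) (le_abs_self _))).symm

lemma rad_integral (hφ : ContDiff ℝ 1 φ) (hc : HasCompactSupport φ) :
    ∫ p in Ioi (0 : ℝ) ×ˢ Ioo (-π) π, radT φ p = -(2 * π) * φ 0 := by
  obtain ⟨R, hR0, hRφ, hRd⟩ := exists_radius hc
  have hint : IntegrableOn (radT φ) (Ioi (0 : ℝ) ×ˢ Ioo (-π) π) := by
    refine integrableOn_target (continuous_radT hφ) (R := R) ?_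
    intro p hp
    unfold radT
    rw [hRd (pol p) (by rw [norm_pol]; exact hp)]
    simp
  unfold IntegrableOn at hint
  rw [Measure.volume_eq_prod, ← Measure.prod_restrict] at hint ⊢
  rw [integral_prod_symm _ hint]
  have hin : ∀ θ : ℝ, ∫ r in Ioi (0 : ℝ), radT φ (r, θ) = - φ 0 := by
    intro θ
    have hg : ContDiff ℝ 1 (fun r : ℝ => φ (pol (r, θ))) := by
      apply hφ.comp
      unfold pol
      simp only
      exact Complex.ofRealCLM.contDiff.mul contDiff_const
    have hgc : HasCompactSupport (fun r : ℝ => φ (pol (r, θ))) := by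
      apply HasCompactSupport.intro (isCompact_Icc : IsCompact (Icc (-R) R))
      intro r hr
      apply hRφ
      rw [norm_pol]
      simp only [mem_Icc, not_and_or, not_le] at hr
      rcases hr with hr | hr
      · rw [abs_of_neg (by linarith)]; linarith
      · rw [abs_of_pos (by linarith)]; linarith
    have := hgc.integral_Ioi_deriv_eq hg 0
    have hd : ∀ r : ℝ, deriv (fun r : ℝ => φ (pol (r, θ))) r = radT φ (r, θ) :=
      fun r => (hasDerivAt_rad hφ r θ).deriv
    simp only [hd] at this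
    rw [this]
    simp [pol]
  simp only [hin]
  rw [setIntegral_const]
  simp only [Real.volume_real_Ioo_of_le (by linarith [Real.pi_pos] : -π ≤ π)]
  simp only [Complex.real_smul]
  push_cast
  ring


lemma pol_pi (r : ℝ) : pol (r, π) = pol (r, -π) := by
  unfold pol
  simp only [Complex.ofReal_neg, neg_mul]
  rw [Complex.exp_pi_mul_I, Complex.exp_neg, Complex.exp_pi_mul_I]
  norm_num

lemma ang_integral (hφ : ContDiff ℝ 1 φ) (hc : HasCompactSupport φ) :
    ∫ p in Ioi (0 : ℝ) ×ˢ Ioo (-π) π, angT φ p = 0 := by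
  obtain ⟨R, hR0, hRφ, hRd⟩ := exists_radius hc
  have hint : IntegrableOn (angT φ) (Ioi (0 : ℝ) ×ˢ Ioo (-π) π) := by
    refine integrableOn_target (continuous_angT hφ) (R := R) ?_
    intro p hp
    unfold angT
    rw [hRd (pol p) (by rw [norm_pol]; exact hp)]
    simp
  unfold IntegrableOn at hint
  rw [Measure.volume_eq_prod, ← Measure.prod_restrict] at hint ⊢
  rw [integral_prod _ hint]
  apply setIntegral_eq_zero_of_forall_eq_zero
  intro r hr
  have hr0 : (r : ℂ) ≠ 0 := by exact_mod_cast (ne_of_gt hr)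
  -- the θ-derivative
  set k' : ℝ → ℂ := fun θ =>
    fderiv ℝ φ (pol (r, θ)) ((r : ℂ) * (Complex.I * Complex.exp ((θ : ℂ) * Complex.I))) with hk'
  have hk'c : Continuous k' := by
    rw [hk']
    exact ((hφ.continuous_fderiv one_ne_zero).comp
      (continuous_pol.comp (by fun_prop : Continuous fun θ : ℝ => (r, θ)))).clm_apply (by fun_prop)
  have hang : ∀ θ : ℝ, angT φ (r, θ) = (Complex.I / (r : ℂ)) * k' θ := by
    intro θ
    rw [hk']
    unfold angT
    simp only
    have : (r : ℂ) * (Complex.I * Complex.exp ((θ : ℂ) * Complex.I))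
        = r • (Complex.I * Complex.exp ((θ : ℂ) * Complex.I)) := by
      rw [Complex.real_smul]
    rw [this, map_smul, Complex.real_smul]
    field_simp
  simp only [hang]
  rw [integral_const_mul]
  have hFTC : ∫ θ in (-π)..π, k' θ = φ (pol (r, π)) - φ (pol (r, -π)) :=
    intervalIntegral.integral_eq_sub_of_hasDerivAt
      (fun θ _ => hasDerivAt_ang hφ r θ) (hk'c.intervalIntegrable _ _)
  rw [intervalIntegral.integral_of_le (by linarith [Real.pi_pos] : -π ≤ π),
    integral_Ioc_eq_integral_Ioo] at hFTC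
  rw [hFTC, pol_pi, sub_self, mul_zero]

/-- **Cauchy–Pompeiu at the origin**, compact support version. -/
theorem integral_dbar2_div (hφ : ContDiff ℝ 1 φ) (hc : HasCompactSupport φ) :
    ∫ z : ℂ, dbar2 φ z / z = -(2 * π) * φ 0 := by
  obtain ⟨R, hR0, hRφ, hRd⟩ := exists_radius hc
  rw [← Complex.integral_comp_polarCoord_symm]
  have h1 : ∫ p in polarCoord.target,
      p.1 • (dbar2 φ (Complex.polarCoord.symm p) / Complex.polarCoord.symm p)
      = ∫ p in Ioi (0 : ℝ) ×ˢ Ioo (-π) π, (radT φ p + angT φ p) := by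
    rw [polarCoord_target]
    apply setIntegral_congr_fun (measurableSet_Ioi.prod measurableSet_Ioo)
    intro p hp
    simp only [polarCoord_symm_eq]
    exact key_pointwise φ p (ne_of_gt hp.1)
  rw [h1, integral_add, rad_integral hφ hc, ang_integral hφ hc, add_zero]
  · refine integrableOn_target (continuous_radT hφ) (R := R) ?_
    intro p hp
    unfold radT
    rw [hRd (pol p) (by rw [norm_pol]; exact hp)]
    simp
  · refine integrableOn_target (continuous_angT hφ) (R := R) ?_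
    intro p hp
    unfold angT
    rw [hRd (pol p) (by rw [norm_pol]; exact hp)]
    simp

/-- **Cauchy–Pompeiu**, compact support version:
`∫_ℂ (φ_x + i φ_y)(z) / (z - a) dA(z) = - 2π φ(a)`. -/
theorem integral_dbar2_div_sub (hφ : ContDiff ℝ 1 φ) (hc : HasCompactSupport φ) (a : ℂ) :
    ∫ z : ℂ, dbar2 φ z / (z - a) = -(2 * π) * φ a := by
  have hψ : ContDiff ℝ 1 (fun z => φ (z + a)) := hφ.comp (contDiff_id.add contDiff_const)
  have hψc : HasCompactSupport (fun z => φ (z + a)) := hc.comp_homeomorph (Homeomorph.addRight a)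
  have h := integral_dbar2_div hψ hψc
  have hd : ∀ z, dbar2 (fun z => φ (z + a)) z = dbar2 φ (z + a) := by
    intro z
    unfold dbar2
    rw [fderiv_comp_add_right]
  simp only [hd, zero_add] at h
  rw [← h, ← integral_add_right_eq_self (fun z => dbar2 φ z / (z - a)) a]
  simp

end

end Fermat.Agent.M17.CauchyPompeiu5
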