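/-
M17 (target S17), block [ALG] top level, part 1 (helper7): **the abstract chaining lemma (GRAPH)**.

Nodes `x : J`, a set `V` of good nodes, node values `R x i : ℂ`, a Galois group `Γ` acting on `J` and
on the field `K` (`φ : K →+* ℂ`).  Along every edge inside `V` the node values are multiplied by
`K`-rational factors `φ (α i)`, and the conjugate edge (starting at a good node) ends at a good node
and carries the conjugate factors `φ (σ • α i)`.  If `V` is connected through a `Γ`-fixed base node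
`x0`, then `V` is `Γ`-stable and `x ↦ R x i / R x0 i` is `K`-rational and `Γ`-equivariant on `V`.
Mathlib only.  Imported by no statement.
-/
import Mathlib

set_option autoImplicit false

namespace Fermat.Agent.M17.Chain7

variable {J : Type*} {Γ : Type*} [Group Γ] [MulAction Γ J]
  {K : Type*} [Field K] [MulSemiringAction Γ K] {ι : Type*}

/-- the edge hypothesis of the chaining lemma. -/
def EdgeHyp (φ : K →+* ℂ) (V : Set J) (R : J → ι → ℂ) (E : J → J → Prop) : Prop :=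
  ∀ y y' : J, E y y' → y ∈ V → y' ∈ V → ∃ α : ι → K,
    (∀ i, R y' i = φ (α i) * R y i) ∧
    ∀ σ : Γ, σ • y ∈ V → (σ • y' ∈ V ∧ ∀ i, R (σ • y') i = φ (σ • α i) * R (σ • y) i)

/-- the inductive invariant. -/
def NodeOK (φ : K →+* ℂ) (V : Set J) (R : J → ι → ℂ) (x0 x : J) : Prop :=
  x ∈ V ∧ ∃ ρ : ι → K, (∀ i, R x i = φ (ρ i) * R x0 i) ∧
    ∀ σ : Γ, σ • x ∈ V ∧ ∀ i, R (σ • x) i = φ (σ • ρ i) * R x0 i

theorem nodeOK_base (φ : K →+* ℂ) (V : Set J) (R : J → ι → ℂ) (x0 : J) (hx0 : x0 ∈ V)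
    (hfix : ∀ σ : Γ, σ • x0 = x0) : NodeOK (Γ := Γ) φ V R x0 x0 := by
  refine ⟨hx0, fun _ => 1, fun i => by rw [map_one, one_mul], fun σ => ⟨by rw [hfix]; exact hx0,
    fun i => ?_⟩⟩
  rw [hfix, smul_one, map_one, one_mul]

theorem nodeOK_step (φ : K →+* ℂ) (V : Set J) (R : J → ι → ℂ) (E : J → J → Prop)
    (hE : EdgeHyp (Γ := Γ) φ V R E) (x0 y y' : J) (hy : NodeOK (Γ := Γ) φ V R x0 y)
    (hy' : y' ∈ V) (hedge : E y y') : NodeOK (Γ := Γ) φ V R x0 y' := by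
  obtain ⟨hyV, ρ, hρ, hσ⟩ := hy
  obtain ⟨α, hα, hασ⟩ := hE y y' hedge hyV hy'
  refine ⟨hy', fun i => α i * ρ i, fun i => ?_, fun σ => ?_⟩
  · rw [hα i, hρ i, map_mul, mul_assoc]
  · obtain ⟨h1, h2⟩ := hασ σ (hσ σ).1
    refine ⟨h1, fun i => ?_⟩
    rw [h2 i, (hσ σ).2 i, smul_mul', map_mul, mul_assoc]

theorem nodeOK_of_path (φ : K →+* ℂ) (V : Set J) (R : J → ι → ℂ) (E : J → J → Prop)
    (hE : EdgeHyp (Γ := Γ) φ V R E) (x0 : J) (hx0 : x0 ∈ V) (hfix : ∀ σ : Γ, σ • x0 = x0)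
    (x : J) (hpath : Relation.ReflTransGen (fun y y' => y ∈ V ∧ y' ∈ V ∧ E y y') x0 x) :
    NodeOK (Γ := Γ) φ V R x0 x := by
  induction hpath with
  | refl => exact nodeOK_base φ V R x0 hx0 hfix
  | tail _ hstep ih => exact nodeOK_step φ V R E hE x0 _ _ ih hstep.2.1 hstep.2.2

/-- **(GRAPH)**: the chaining lemma. -/
theorem exists_rational_of_connected (φ : K →+* ℂ) (V : Set J) (R : J → ι → ℂ)
    (E : J → J → Prop) (hE : EdgeHyp (Γ := Γ) φ V R E) (x0 : J) (hx0 : x0 ∈ V)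
    (hfix : ∀ σ : Γ, σ • x0 = x0) (hR0 : ∀ i, R x0 i ≠ 0)
    (hconn : ∀ x ∈ V, Relation.ReflTransGen (fun y y' => y ∈ V ∧ y' ∈ V ∧ E y y') x0 x) :
    ∃ r : J → ι → K, (∀ x ∈ V, ∀ i, R x i = φ (r x i) * R x0 i) ∧
      (∀ x ∈ V, ∀ σ : Γ, σ • x ∈ V) ∧
      (∀ x ∈ V, ∀ (σ : Γ) (i : ι), r (σ • x) i = σ • r x i) := by
  classical
  have hok : ∀ x ∈ V, NodeOK (Γ := Γ) φ V R x0 x := fun x hx =>
    nodeOK_of_path φ V R E hE x0 hx0 hfix x (hconn x hx)
  let r : J → ι → K := fun x => if hx : x ∈ V then (hok x hx).2.choose else 0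
  have hr : ∀ x (hx : x ∈ V), (∀ i, R x i = φ (r x i) * R x0 i) ∧
      ∀ σ : Γ, σ • x ∈ V ∧ ∀ i, R (σ • x) i = φ (σ • r x i) * R x0 i := by
    intro x hx
    have := (hok x hx).2.choose_spec
    simp only [r, dif_pos hx]
    exact this
  refine ⟨r, fun x hx => (hr x hx).1, fun x hx σ => ((hr x hx).2 σ).1, fun x hx σ i => ?_⟩
  have h1 := ((hr x hx).2 σ).2 i
  have h2 := (hr (σ • x) ((hr x hx).2 σ).1).1 i
  rw [h1] at h2
  have h3 := mul_right_cancel₀ (hR0 i) h2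
  exact (φ.injective h3).symm

end Fermat.Agent.M17.Chain7
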