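/-
M17 (target S17), leaf (CUSP-MOVE) (lead): **every class of `J₀(N)(ℚ̄) = Pic⁰(F_ℚ̄)` is a sum of classes
`[a − b]` of POINT places** (places of `F_ℚ̄` whose extension to `F_ℂ` is `ptPlaceC N 1 P`, `P ∈ ℍ`).
Imported by no statement.

* `exists_rep_avoiding` : the moving lemma (weak approximation `WeakApprox25.exists_ord_eq`): every
  class of `Pic⁰(F/K)` has a representative avoiding a given finite set of places;
* `IsPointPlace`, `isPointPlace_iff` : point places = places which are not poles of `j`;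
* `exists_rep_pointPlaces` : every class of `J₀(N)(ℚ̄)` is represented by a divisor supported on point
  places;
* `pairClass N a b = [a − b]`, `closure_pairClass` (the classes `[a − b]`, `a b` point places, generate
  `J₀(N)(ℚ̄)`), `exists_chain` (list form).
-/
import Mathlib
import Fermat.Agent.M17.Interfaces7
import Fermat.Agent.ES.HECKE.WeakApprox25
import Fermat.Agent.ES.KUM.RatioMem15

set_option autoImplicit false
set_option linter.unusedSectionVars false

namespace Fermat.Agent.M17.CuspMove0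

open ModularCurve UpperHalfPlane AlgebraicCurve
open Fermat.Agent.X0 Fermat.Agent.X0.SurjPoint Fermat.Agent.ES.KUM
open Fermat.Agent.J.DESC.DescentFinal24 Fermat.Agent.ES.KUM.FieldL25
open scoped MatrixGroups

/-! ### the moving lemma -/

section Moving

variable {K F : Type*} [Field K] [Field F] [Algebra K F] [HasPrincipalDivisors K F]

/-- **Moving lemma**: every class of `Pic⁰(F/K)` has a representative whose support avoids a given
finite set of places. -/
theorem exists_rep_avoiding (S : Finset (Place K F)) (x : Pic0 K F) :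
    ∃ D : Divisor.degZero (K := K) (F := F), Pic0.mk D = x ∧
      ∀ v ∈ S, (D : Divisor K F) v = 0 := by
  obtain ⟨D₀, rfl⟩ := Pic0.mk_surjective x
  obtain ⟨f, hf, hfS⟩ := Fermat.Agent.ES.HECKE.WeakApprox25.exists_ord_eq S
    (fun v => (D₀ : Divisor K F) v)
  obtain ⟨E, hE, hdeg⟩ := HasPrincipalDivisors.exists_divisor (K := K) f hf
  refine ⟨D₀ - ⟨E, hdeg⟩, ?_, fun v hv => ?_⟩
  · refine (QuotientAddGroup.eq).mpr ?_
    have h1 : -(D₀ - ⟨E, hdeg⟩) + D₀ = (⟨E, hdeg⟩ : Divisor.degZero (K := K) (F := F)) := by abel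
    rw [h1]
    exact ⟨f, hf, hE⟩
  · show (D₀ : Divisor K F) v - E v = 0
    rw [hE v, hfS v hv, sub_self]

end Moving

attribute [local instance] instAlgebraQbarComplex instTowerQbarComplex

variable (N : ℕ) [NeZero N]

/-! ### point places -/

/-- a place of `F_ℚ̄` lying under a point `P ∈ ℍ` (i.e. not a cusp). -/
def IsPointPlace (w : Place Qb (FQ N)) : Prop := ∃ P : ℍ, extPlaceC N w = ptPlaceC N 1 P

theorem isPointPlace_of_ord_nonneg (w : Place Qb (FQ N)) (h : 0 ≤ w.ord (jL Qb N)) :
    IsPointPlace N w := by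
  have h1 : 0 ≤ (extPlaceC N w).ord (jC N) := by
    rw [RatioMem15.jC_eq_jL, ← bcQC_jL, ord_extPlaceC]
    exact h
  exact CSurj25.exists_ptPlaceC_of_ord_jC_nonneg N _ h1

theorem isPointPlace_iff (w : Place Qb (FQ N)) : IsPointPlace N w ↔ 0 ≤ w.ord (jL Qb N) := by
  refine ⟨?_, isPointPlace_of_ord_nonneg N w⟩
  rintro ⟨P, hP⟩
  have h1 := CSurj25.ptPlaceC_ord_jC_nonneg N 1 P
  rw [← hP, RatioMem15.jC_eq_jL, ← bcQC_jL, ord_extPlaceC] at h1
  exact h1

instance : HasPrincipalDivisors Qb (FQ N) := hasPrincipalDivisors_L Qb N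

/-- **every class of `J₀(N)(ℚ̄)` is represented by a divisor supported on point places.** -/
theorem exists_rep_pointPlaces (x : Pic0 Qb (FQ N)) :
    ∃ D : Divisor.degZero (K := Qb) (F := FQ N), Pic0.mk D = x ∧
      ∀ w : Place Qb (FQ N), (D : Divisor Qb (FQ N)) w ≠ 0 → IsPointPlace N w := by
  have hj : jL Qb N ≠ 0 := by
    intro h0
    have := (isGen_jL Qb N).1
    rw [h0] at this
    exact this (isAlgebraic_zero)
  obtain ⟨E, hE, -⟩ := exists_divisor_L Qb N hj
  obtain ⟨D, hD, hS⟩ := exists_rep_avoiding E.support x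
  refine ⟨D, hD, fun w hw => isPointPlace_of_ord_nonneg N w ?_⟩
  by_contra hneg
  have hmem : w ∈ E.support := by
    rw [Finsupp.mem_support_iff, hE w]
    intro h0
    rw [h0] at hneg
    exact hneg le_rfl
  exact hw (hS w hmem)

/-! ### the classes `[a − b]` -/

theorem degree_single_one (a : Place Qb (FQ N)) :
    Divisor.degree (Finsupp.single a (1 : ℤ)) = 1 := by
  rw [Divisor.degree_single, deg_eq_one_L Qb N a]
  norm_num

/-- the class `[a − b]` of `J₀(N)(ℚ̄)`. -/
noncomputable def pairClass (a b : Place Qb (FQ N)) : Pic0 Qb (FQ N) :=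
  Pic0.mk ⟨Finsupp.single a 1 - Finsupp.single b 1, by
    rw [Divisor.mem_degZero, map_sub, degree_single_one, degree_single_one, sub_self]⟩

theorem neg_pairClass (a b : Place Qb (FQ N)) : -pairClass N a b = pairClass N b a := by
  unfold pairClass
  rw [Pic0.mk, Pic0.mk, ← QuotientAddGroup.mk_neg]
  congr 1
  apply Subtype.ext
  show -(Finsupp.single a (1 : ℤ) - Finsupp.single b 1) = Finsupp.single b 1 - Finsupp.single a 1
  abel

/-- the "subtract the base point" homomorphism `D ↦ [D − deg D · w₀]`. -/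
noncomputable def baseHom (w₀ : Place Qb (FQ N)) : Divisor Qb (FQ N) →+ Pic0 Qb (FQ N) :=
  (QuotientAddGroup.mk' _).comp
    ((AddMonoidHom.id (Divisor Qb (FQ N)) -
      ((AddMonoidHom.flip (smulAddHom ℤ (Divisor Qb (FQ N)))) (Finsupp.single w₀ 1)).comp
        Divisor.degree).codRestrict (Divisor.degZero (K := Qb) (F := FQ N)) (fun D => by
      rw [Divisor.mem_degZero]
      show Divisor.degree (D - Divisor.degree D • Finsupp.single w₀ (1 : ℤ)) = 0
      rw [map_sub, map_zsmul, degree_single_one, smul_eq_mul, mul_one, sub_self]))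

theorem baseHom_of_degZero (w₀ : Place Qb (FQ N)) (D : Divisor.degZero (K := Qb) (F := FQ N)) :
    baseHom N w₀ (D : Divisor Qb (FQ N)) = Pic0.mk D := by
  show Pic0.mk _ = Pic0.mk D
  congr 1
  apply Subtype.ext
  show (D : Divisor Qb (FQ N)) - Divisor.degree (D : Divisor Qb (FQ N)) • Finsupp.single w₀ (1 : ℤ)
    = D
  rw [Divisor.mem_degZero.mp D.2, zero_smul, sub_zero]

theorem baseHom_single (w₀ w : Place Qb (FQ N)) (n : ℤ) :
    baseHom N w₀ (Finsupp.single w n) = n • pairClass N w w₀ := by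
  have h1 : (Finsupp.single w n : Divisor Qb (FQ N)) = n • Finsupp.single w (1 : ℤ) := by
    rw [Finsupp.smul_single, smul_eq_mul, mul_one]
  rw [h1, map_zsmul]
  congr 1
  show Pic0.mk _ = Pic0.mk _
  congr 1
  apply Subtype.ext
  show Finsupp.single w (1 : ℤ) - Divisor.degree (Finsupp.single w (1 : ℤ)) • Finsupp.single w₀ (1 : ℤ)
    = Finsupp.single w 1 - Finsupp.single w₀ 1
  rw [degree_single_one, one_smul]

/-- **(CUSP-MOVE)**: the classes `[a − b]` with `a b` point places generate `J₀(N)(ℚ̄)`. -/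
theorem closure_pairClass :
    AddSubgroup.closure {x : Pic0 Qb (FQ N) | ∃ a b : Place Qb (FQ N),
      IsPointPlace N a ∧ IsPointPlace N b ∧ x = pairClass N a b} = ⊤ := by
  rw [eq_top_iff]
  intro x _
  obtain ⟨D, rfl, hD⟩ := exists_rep_pointPlaces N x
  by_cases h0 : (D : Divisor Qb (FQ N)) = 0
  · have : D = 0 := Subtype.ext h0
    rw [this]
    exact AddSubgroup.zero_mem _
  · obtain ⟨w₀, hw₀⟩ := Finsupp.support_nonempty_iff.mpr h0
    have hw₀P : IsPointPlace N w₀ := hD w₀ (Finsupp.mem_support_iff.mp hw₀)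
    rw [← baseHom_of_degZero N w₀ D]
    have hsum : (D : Divisor Qb (FQ N)) = (D : Divisor Qb (FQ N)).sum Finsupp.single :=
      (Finsupp.sum_single _).symm
    rw [hsum, map_finsuppSum]
    refine AddSubgroup.sum_mem _ fun w hw => ?_
    show baseHom N w₀ (Finsupp.single w ((D : Divisor Qb (FQ N)) w)) ∈ _
    rw [baseHom_single]
    refine AddSubgroup.zsmul_mem _ (AddSubgroup.subset_closure ?_) _
    exact ⟨w, w₀, hD w (Finsupp.mem_support_iff.mp hw), hw₀P, rfl⟩

theorem neg_sum_pairClass (l : List (Place Qb (FQ N) × Place Qb (FQ N))) :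
    -(l.map fun ab => pairClass N ab.1 ab.2).sum =
      ((l.map Prod.swap).map fun ab => pairClass N ab.1 ab.2).sum := by
  induction l with
  | nil => simp
  | cons c l ih =>
    rw [List.map_cons, List.sum_cons, neg_add, ih, List.map_cons, List.map_cons, List.sum_cons,
      neg_pairClass]
    rfl

/-- **(CUSP-MOVE), list form**: every class of `J₀(N)(ℚ̄)` is a finite sum `∑ [a_i − b_i]` with
`a_i b_i` point places. -/
theorem exists_chain (x : Pic0 Qb (FQ N)) :
    ∃ l : List (Place Qb (FQ N) × Place Qb (FQ N)),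
      (∀ ab ∈ l, IsPointPlace N ab.1 ∧ IsPointPlace N ab.2) ∧
        x = (l.map fun ab => pairClass N ab.1 ab.2).sum := by
  have hx : x ∈ AddSubgroup.closure {x : Pic0 Qb (FQ N) | ∃ a b : Place Qb (FQ N),
      IsPointPlace N a ∧ IsPointPlace N b ∧ x = pairClass N a b} := by
    rw [closure_pairClass]; exact AddSubgroup.mem_top x
  induction hx using AddSubgroup.closure_induction with
  | mem y hy =>
    obtain ⟨a, b, ha, hb, rfl⟩ := hy
    refine ⟨[(a, b)], ?_, by simp⟩
    intro ab hab
    rw [List.mem_singleton] at hab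
    rw [hab]
    exact ⟨ha, hb⟩
  | zero => exact ⟨[], by simp, by simp⟩
  | add y z _ _ hy hz =>
    obtain ⟨l₁, h₁, rfl⟩ := hy
    obtain ⟨l₂, h₂, rfl⟩ := hz
    refine ⟨l₁ ++ l₂, ?_, by rw [List.map_append, List.sum_append]⟩
    intro ab hab
    rcases List.mem_append.mp hab with h | h
    · exact h₁ ab h
    · exact h₂ ab h
  | neg y _ hy =>
    obtain ⟨l, h, rfl⟩ := hy
    refine ⟨l.map Prod.swap, ?_, ?_⟩
    · intro ab hab
      obtain ⟨cd, hcd, rfl⟩ := List.mem_map.mp hab
      exact ⟨(h cd hcd).2, (h cd hcd).1⟩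
    · exact neg_sum_pairClass N l

end Fermat.Agent.M17.CuspMove0
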