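/-
M17 (target S17), block [ALG] top level, part 2 (helper7): **the A4' output from the edge step and
the connectivity of the good set**.

For a finite family `T i` of lists of translation vectors, `ψ_i z = ∏_{t ∈ T i} th0 (z + t)`,
`V = {x ∈ J₀(N)(ℚ̄) | all factors of all ψ_i are nonzero at lift x}`, node values
`R x i = ψ_i (lift x) / ψ_{i0} (lift x)`, edges `x → x + [a - b]` (`a b` point places):

* `EdgeStep` (the concrete `Chain7.EdgeHyp`; supplied by EdgeLemma2 + RatZero3 + the conjugate edge),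
* `Connected` (supplied by Connect6),

give `ThetaRigidity9.RatEqOn` for `x ↦ (c i * ψ_i (lift x))_i` on `V` and `Γ = Gal(ℚ̄/K1)`, for
every number field `K1` over which one node of `V` is rational.
Imported by no statement.
-/
import Mathlib
import Fermat.Agent.M17.Chain7
import Fermat.Agent.M17.EdgeLemma2
import Fermat.Agent.M17.CuspMove0
import Fermat.Agent.M17.ThetaRigidity9
import Fermat.Agent.ES.GAL.OpenStab12
import Fermat.Prelude.Def_GaloisRep_ComplexConjugation

set_option autoImplicit false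
set_option linter.unusedSectionVars false

namespace Fermat.Agent.M17.ChainTop7

open ModularCurve AlgebraicCurve UpperHalfPlane
open Fermat.Agent.J.DESC.DescentFinal24
open Fermat.Agent.M17.Interfaces7 Fermat.Agent.M17.EdgeLemma2 Fermat.Agent.M17.CuspMove0
open Fermat.Agent.M17.Chain7 Fermat.Agent.M17.ThetaRigidity9

noncomputable section

variable (N : ℕ) [NeZero N] {g : ℕ} (th0 : (Fin g → ℂ) → ℂ) (lift : JZero N → Fin g → ℂ)
  {ι' : Type*} (T : ι' → List (Fin g → ℂ)) (i0 : ι')

/-- the good set: all factors of all products are nonzero. -/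
def Vset : Set (JZero N) := {x | ∀ i, ∀ s ∈ T i, th0 (lift x + s) ≠ 0}

/-- the node values `ψ_i / ψ_{i0}`. -/
def Rval (x : JZero N) (i : ι') : ℂ := psiT th0 (T i) (lift x) / psiT th0 (T i0) (lift x)

/-- the edges: `y' = y + [a - b]` with point places `a b`. -/
def IsEdge (y y' : JZero N) : Prop :=
  ∃ a b : Place Qb (FQ N), IsPointPlace N a ∧ IsPointPlace N b ∧ y' = y + pairClass N a b

/-- **the edge step** for the Galois group of `ℚ̄ / K1` (to be supplied by the conjugate edge
lemma). -/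
def EdgeStep (K1 : IntermediateField ℚ Qb) : Prop :=
  EdgeHyp (Γ := ↥K1.fixingSubgroup) (K := Qb) (complexEmbedding : Qb →+* ℂ)
    (Vset N th0 lift T) (Rval N th0 lift T i0) (IsEdge N)

/-- **connectivity of the good set** (to be supplied by `Connect6`). -/
def Connected : Prop :=
  ∀ x0 ∈ Vset N th0 lift T, ∀ x ∈ Vset N th0 lift T,
    Relation.ReflTransGen (fun y y' => y ∈ Vset N th0 lift T ∧ y' ∈ Vset N th0 lift T ∧ IsEdge N y y')
      x0 x

theorem psiT_ne_zero {x : JZero N} (hx : x ∈ Vset N th0 lift T) (i : ι') :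
    psiT th0 (T i) (lift x) ≠ 0 := by
  unfold psiT
  intro h0
  rw [List.prod_eq_zero_iff] at h0
  obtain ⟨s, hs, h⟩ := List.mem_map.mp h0
  exact hx i s hs h

theorem Rval_ne_zero {x : JZero N} (hx : x ∈ Vset N th0 lift T) (i : ι') :
    Rval N th0 lift T i0 x i ≠ 0 :=
  div_ne_zero (psiT_ne_zero N th0 lift T hx i) (psiT_ne_zero N th0 lift T hx i0)

/-- **A4' from the edge step and connectivity**, for a number field `K1` fixing a node of `V`. -/
theorem ratEqOn_of_edgeStep (K1 : IntermediateField ℚ Qb)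
    (hE : EdgeStep N th0 lift T i0 K1) (hconn : Connected N th0 lift T)
    (x0 : JZero N) (hx0 : x0 ∈ Vset N th0 lift T)
    (hfix : ∀ σ : ↥K1.fixingSubgroup, σ • x0 = x0) :
    ∃ (c : ι' → ℂ) (r : JZero N → ι' → Qb), (∀ i, c i ≠ 0) ∧
      RatEqOn (Γ := ↥K1.fixingSubgroup) (complexEmbedding : Qb →+* ℂ)
        (fun x i => c i * psiT th0 (T i) (lift x)) (Vset N th0 lift T) r := by
  obtain ⟨r, hr1, hr2, hr3⟩ := exists_rational_of_connected (Γ := ↥K1.fixingSubgroup)
    (complexEmbedding : Qb →+* ℂ) (Vset N th0 lift T) (Rval N th0 lift T i0) (IsEdge N) hE x0 hx0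
    hfix (Rval_ne_zero N th0 lift T i0 hx0) (hconn x0 hx0)
  refine ⟨fun i => (Rval N th0 lift T i0 x0 i)⁻¹, r,
    fun i => inv_ne_zero (Rval_ne_zero N th0 lift T i0 hx0 i), ?_, hr2, ?_⟩
  · intro x hx
    refine ⟨(psiT th0 (T i0) (lift x))⁻¹, inv_ne_zero (psiT_ne_zero N th0 lift T hx i0), fun i => ?_⟩
    have h1 := hr1 x hx i
    have h0 := Rval_ne_zero N th0 lift T i0 hx0 i
    have h2 : (complexEmbedding : Qb →+* ℂ) (r x i) =
        Rval N th0 lift T i0 x i * (Rval N th0 lift T i0 x0 i)⁻¹ := by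
      rw [h1, mul_assoc, mul_inv_cancel₀ h0, mul_one]
    show (complexEmbedding : Qb →+* ℂ) (r x i) = _
    rw [h2]
    unfold Rval
    ring
  · intro x hx σ
    refine ⟨1, one_ne_zero, ?_⟩
    funext i
    rw [hr3 x hx σ i]
    simp

/-- a number field over which finitely many points of `J₀(N)(ℚ̄)` are rational. -/
theorem exists_field_fixing (S : Set (JZero N)) (hS : S.Finite) :
    ∃ K1 : IntermediateField ℚ Qb, FiniteDimensional ℚ ↥K1 ∧
      ∀ σ : ↥K1.fixingSubgroup, ∀ y ∈ S, σ • y = y := by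
  obtain ⟨K1, hK1, h⟩ := Fermat.Agent.ES.GAL.OpenStab12.hasLevel_finite N S hS
  refine ⟨K1, hK1, fun σ y hy => ?_⟩
  exact h (σ : Qb ≃ₐ[ℚ] Qb)
    (fun a ha => (IntermediateField.mem_fixingSubgroup_iff K1 σ.1).mp σ.2 a ha) y hy

/-- **A4', final form**: if the edge step holds for every number field over which a given finite
set `S₀` of points (the algebraic parts of the translation vectors) is rational, the good set is
connected and nonempty, then the family `ψ_i` is `ℚ̄`-rational and `Gal(ℚ̄/K1)`-equivariant on `V`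
up to constants, for some number field `K1`. -/
theorem exists_ratEqOn (S₀ : Set (JZero N)) (hS₀ : S₀.Finite)
    (hE : ∀ K1 : IntermediateField ℚ Qb, (∀ σ : ↥K1.fixingSubgroup, ∀ y ∈ S₀, σ • y = y) →
      EdgeStep N th0 lift T i0 K1)
    (hconn : Connected N th0 lift T) (hne : (Vset N th0 lift T).Nonempty) :
    ∃ (K1 : IntermediateField ℚ Qb) (_ : FiniteDimensional ℚ ↥K1) (c : ι' → ℂ)
      (r : JZero N → ι' → Qb), (∀ i, c i ≠ 0) ∧
      RatEqOn (Γ := ↥K1.fixingSubgroup) (complexEmbedding : Qb →+* ℂ)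
        (fun x i => c i * psiT th0 (T i) (lift x)) (Vset N th0 lift T) r := by
  obtain ⟨x0, hx0⟩ := hne
  obtain ⟨K1, hK1, hfix⟩ := exists_field_fixing N (S₀ ∪ {x0}) (hS₀.union (Set.finite_singleton x0))
  obtain ⟨c, r, hc, hr⟩ := ratEqOn_of_edgeStep N th0 lift T i0 K1
    (hE K1 fun σ y hy => hfix σ y (Or.inl hy)) hconn x0 hx0
    (fun σ => hfix σ x0 (Or.inr rfl))
  exact ⟨K1, hK1, c, r, hc, hr⟩

end

end Fermat.Agent.M17.ChainTop7
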