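/-
Programme M17 (target S17), block [RT]/[ALG], leaf (GEN) (helper2): **the only genericity lemma**,
purely algebraic, in the tree's Riemann-Roch vocabulary (`RR.Final.RRData`).

For a function field `F / K` with Riemann-Roch data `X` and a nonzero differential:

* `finite_setOf_finrank_add_single_ne` : if `D` is special (`0 < l(W - D)`, `W` canonical) then
  `l(D + P) = l(D)` for all but finitely many places `P`;
* `gen` : **(GEN)** if `deg D < g` and `l(D) = 1` then `l(D + P) = 1` for all but finitely many `P`;
* `exists_generic_points` : for `n ≤ g` and any finite set of places to avoid there are pairwise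
  distinct places `P_1, …, P_n` outside it with `l(P_1 + ⋯ + P_n) = 1`;
* `gen_isGen`, `exists_generic_points_isGen` : the same for `IsGen K x`, `K` algebraically closed of
  characteristic `0` (so for `FF N / ℚ̄` and `FC N / ℂ`, instantiated at the end).
-/
import Mathlib
import Fermat.Agent.RR.Final
import Fermat.Agent.M15.ThirdKind0
import Fermat.Agent.ES.KUM.FieldL25
import Fermat.Agent.FF.GaussOv1D
import Fermat.Agent.X0.HasCanDivInst

set_option autoImplicit false
set_option linter.unusedSectionVars false
set_option linter.unusedVariables false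
set_option linter.style.longLine false

noncomputable section

namespace Fermat.Agent.M17.GenericRR2

open AlgebraicCurve KaehlerDifferential Module
open Fermat.Agent.RR.LSpace Fermat.Agent.RR.Final Fermat.Agent.RR.Duality

variable {K F : Type*} [Field K] [Field F] [Algebra K F]

/-! ### `L(E - P)` versus `L(E)` -/

/-- if the effective divisor `div f + E` does not contain `P` then `f ∉ L(E - P)`. -/
theorem not_mem_L_sub_single (E : Divisor K F) {f : F} (hf : f ≠ 0) (P : Place K F)
    (hP : P.ord f + E P = 0) : f ∉ riemannRochSpace (E - Finsupp.single P 1) := by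
  intro hmem
  have h := (mem_L_iff hf).mp hmem P
  rw [Finsupp.sub_apply, Finsupp.single_eq_same] at h
  omega

/-- `l(E - P) + 1 = l(E)` as soon as one element of `L(E)` is not in `L(E - P)`. -/
theorem finrank_L_sub_single (H : LHyp K F) (E : Divisor K F) (P : Place K F) {f : F}
    (hfE : f ∈ riemannRochSpace E) (hf : f ∉ riemannRochSpace (E - Finsupp.single P 1)) :
    finrank K (riemannRochSpace (E - Finsupp.single P 1)) + 1 = finrank K (riemannRochSpace E) := by
  haveI : FiniteDimensional K (riemannRochSpace E) := finiteDimensional_L H E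
  haveI : FiniteDimensional K (riemannRochSpace (E - Finsupp.single P 1)) :=
    finiteDimensional_L H _
  have hE : E - Finsupp.single P 1 + Finsupp.single P 1 = E := sub_add_cancel _ _
  have h1 := (finrank_L_add_single_le H (E - Finsupp.single P 1) P).2
  rw [hE] at h1
  have hle : riemannRochSpace (E - Finsupp.single P 1) ≤ riemannRochSpace E := by
    have := L_mono (le_add_single (E - Finsupp.single P 1) P)
    rwa [hE] at this
  have hlt : riemannRochSpace (E - Finsupp.single P 1) < riemannRochSpace E :=
    lt_of_le_of_ne hle (fun heq => hf (heq ▸ hfE))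
  have h2 := Submodule.finrank_lt_finrank_of_lt hlt
  omega

/-! ### the genericity lemma -/

section Main

variable (X : RRData K F) {ω₀ : Ω[F⁄K]} (hω₀ : ω₀ ≠ 0) {W : Divisor K F}
  (hW : ∀ v, W v = v.ordDifferential ω₀)

include X hω₀ hW

/-- if `D` is special then `l(D + P) = l(D)` for all but finitely many places `P`. -/
theorem finite_setOf_finrank_add_single_ne' (D : Divisor K F)
    (hpos : 0 < finrank K (riemannRochSpace (W - D))) :
    {P : Place K F | finrank K (riemannRochSpace (D + Finsupp.single P 1))
      ≠ finrank K (riemannRochSpace D)}.Finite := by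
  classical
  have H := X.HL
  haveI : FiniteDimensional K (riemannRochSpace (W - D)) := finiteDimensional_L H _
  obtain ⟨f, hf0⟩ : ∃ f : riemannRochSpace (W - D), f ≠ 0 := by
    by_contra hcon
    push Not at hcon
    have : Subsingleton (riemannRochSpace (W - D)) := ⟨fun a b => by rw [hcon a, hcon b]⟩
    have := finrank_zero_of_subsingleton (R := K) (M := riemannRochSpace (W - D))
    omega
  have hfF : (f : F) ≠ 0 := fun h => hf0 (Subtype.ext h)
  set Z : Divisor K F := divOf H hfF + (W - D) with hZ
  refine (Finset.finite_toSet Z.support).subset ?_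
  intro P hP
  by_contra hPZ
  apply hP
  have hZP : Z P = 0 := by
    simpa [Finsupp.mem_support_iff] using hPZ
  have hZP' : P.ord (f : F) + (W - D) P = 0 := by
    rw [hZ, Finsupp.add_apply, divOf_apply] at hZP
    exact hZP
  have h1 := finrank_L_sub_single H (W - D) P f.2 (not_mem_L_sub_single (W - D) hfF P hZP')
  have hrr := riemann_roch X hω₀ hW D
  have hrr' := riemann_roch X hω₀ hW (D + Finsupp.single P 1)
  have hsub : W - (D + Finsupp.single P 1) = W - D - Finsupp.single P 1 := by
    abel
  rw [hsub, map_add, degree_single H] at hrr'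
  have : (finrank K (riemannRochSpace (D + Finsupp.single P 1)) : ℤ)
      = finrank K (riemannRochSpace D) := by
    have h1' : (finrank K (riemannRochSpace (W - D - Finsupp.single P 1)) : ℤ) + 1
        = finrank K (riemannRochSpace (W - D)) := by exact_mod_cast h1
    linarith
  exact_mod_cast this

/-- **(GEN)**, with an explicit canonical divisor. -/
theorem gen' (D : Divisor K F) (hdeg : Divisor.degree D < genusFF K F)
    (h1 : finrank K (riemannRochSpace D) = 1) :
    {P : Place K F | finrank K (riemannRochSpace (D + Finsupp.single P 1)) ≠ 1}.Finite := by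
  have hrr := riemann_roch X hω₀ hW D
  rw [h1] at hrr
  have hpos : 0 < finrank K (riemannRochSpace (W - D)) := by
    have : (0 : ℤ) < finrank K (riemannRochSpace (W - D)) := by
      push_cast at hrr
      linarith
    exact_mod_cast this
  have := finite_setOf_finrank_add_single_ne' X hω₀ hW D hpos
  rwa [h1] at this

end Main

/-- the canonical divisor of a nonzero differential, from `DiffHyp`. -/
def canDiv (X : RRData K F) {ω₀ : Ω[F⁄K]} (hω₀ : ω₀ ≠ 0) : Divisor K F :=
  Finsupp.ofSupportFinite (fun v : Place K F => v.ordDifferential ω₀) (X.HD.finite_support ω₀ hω₀)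

theorem canDiv_apply (X : RRData K F) {ω₀ : Ω[F⁄K]} (hω₀ : ω₀ ≠ 0) (v : Place K F) :
    canDiv X hω₀ v = v.ordDifferential ω₀ := rfl

/-- if `D` is special then `l(D + P) = l(D)` for all but finitely many places `P`
(`W = canDiv X hω₀`). -/
theorem finite_setOf_finrank_add_single_ne (X : RRData K F) {ω₀ : Ω[F⁄K]} (hω₀ : ω₀ ≠ 0)
    (D : Divisor K F) (hpos : 0 < finrank K (riemannRochSpace (canDiv X hω₀ - D))) :
    {P : Place K F | finrank K (riemannRochSpace (D + Finsupp.single P 1))
      ≠ finrank K (riemannRochSpace D)}.Finite :=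
  finite_setOf_finrank_add_single_ne' X hω₀ (canDiv_apply X hω₀) D hpos

/-- **(GEN)**: if `deg D < g` and `l(D) = 1` then `l(D + P) = 1` for all but finitely many places
`P`. -/
theorem gen (X : RRData K F) (hex : ∃ ω : Ω[F⁄K], ω ≠ 0) (D : Divisor K F)
    (hdeg : Divisor.degree D < genusFF K F) (h1 : finrank K (riemannRochSpace D) = 1) :
    {P : Place K F | finrank K (riemannRochSpace (D + Finsupp.single P 1)) ≠ 1}.Finite := by
  obtain ⟨ω₀, hω₀⟩ := hex
  exact gen' X hω₀ (canDiv_apply X hω₀) D hdeg h1

/-! ### generic effective divisors of degree `n ≤ g` -/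

/-- the effective divisor `P_1 + ⋯ + P_n`. -/
def sumPts {n : ℕ} (P : Fin n → Place K F) : Divisor K F := ∑ i, Finsupp.single (P i) 1

theorem sumPts_snoc {n : ℕ} (P : Fin n → Place K F) (Q : Place K F) :
    sumPts (Fin.snoc P Q : Fin (n + 1) → Place K F) = sumPts P + Finsupp.single Q 1 := by
  unfold sumPts
  rw [Fin.sum_univ_castSucc]
  simp only [Fin.snoc_castSucc, Fin.snoc_last]

theorem degree_sumPts (H : LHyp K F) {n : ℕ} (P : Fin n → Place K F) :
    Divisor.degree (sumPts P) = n := by
  unfold sumPts
  rw [map_sum]
  simp [degree_single H]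

theorem sumPts_nonneg {n : ℕ} (P : Fin n → Place K F) : 0 ≤ sumPts P := by
  classical
  unfold sumPts
  refine Finset.sum_nonneg fun i _ => ?_
  intro v
  by_cases hv : v = P i
  · subst hv
    simp
  · rw [Finsupp.single_eq_of_ne hv]
    simp

/-- **generic points**: for `n ≤ g` and any finite set of places to avoid there are pairwise
distinct places `P_1, …, P_n` outside it with `l(P_1 + ⋯ + P_n) = 1`. -/
theorem exists_generic_points (X : RRData K F) (hex : ∃ ω : Ω[F⁄K], ω ≠ 0)
    [Infinite (Place K F)] (avoid : Set (Place K F)) (havoid : avoid.Finite) :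
    ∀ n : ℕ, n ≤ genusFF K F → ∃ P : Fin n → Place K F, Function.Injective P ∧
      (∀ i, P i ∉ avoid) ∧ finrank K (riemannRochSpace (sumPts P)) = 1 := by
  intro n
  induction n with
  | zero =>
    intro _
    refine ⟨Fin.elim0, fun i => i.elim0, fun i => i.elim0, ?_⟩
    have : sumPts (Fin.elim0 : Fin 0 → Place K F) = 0 := by
      unfold sumPts; simp
    rw [this]
    exact finrank_L_zero X.HL
  | succ n ih =>
    intro hn
    obtain ⟨P, hinj, hav, h1⟩ := ih (by omega)
    have hdeg : Divisor.degree (sumPts P) < genusFF K F := by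
      rw [degree_sumPts X.HL]
      exact_mod_cast hn
    have hbad := gen X hex (sumPts P) hdeg h1
    have hfin : (avoid ∪ Set.range P ∪ {Q : Place K F |
        finrank K (riemannRochSpace (sumPts P + Finsupp.single Q 1)) ≠ 1}).Finite :=
      (havoid.union (Set.finite_range P)).union hbad
    obtain ⟨Q, hQ⟩ := hfin.infinite_compl.nonempty
    simp only [Set.mem_compl_iff, Set.mem_union, Set.mem_range, Set.mem_setOf_eq, not_or,
      not_exists, not_not] at hQ
    obtain ⟨⟨hQa, hQr⟩, hQ1⟩ := hQ
    refine ⟨Fin.snoc P Q, ?_, ?_, ?_⟩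
    · intro i j hij
      induction i using Fin.lastCases with
      | last =>
        induction j using Fin.lastCases with
        | last => rfl
        | cast j' =>
          rw [Fin.snoc_last, Fin.snoc_castSucc] at hij
          exact absurd hij.symm (hQr j')
      | cast i' =>
        induction j using Fin.lastCases with
        | last =>
          rw [Fin.snoc_last, Fin.snoc_castSucc] at hij
          exact absurd hij (hQr i')
        | cast j' =>
          rw [Fin.snoc_castSucc, Fin.snoc_castSucc] at hij
          rw [hinj hij]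
    · intro i
      refine Fin.lastCases ?_ (fun i' => ?_) i
      · rw [Fin.snoc_last]; exact hQa
      · rw [Fin.snoc_castSucc]; exact hav i'
    · rw [sumPts_snoc]
      exact hQ1

/-! ### the concrete form: `IsGen K x`, `K` algebraically closed of characteristic `0` -/

section Concrete

open Fermat.Agent.X0 Fermat.Agent.X0.FF

variable [IsAlgClosed K] [CharZero K] {x : F}

/-- **(GEN)** for a function field with a generator. -/
theorem gen_isGen (hx : IsGen K x) (D : Divisor K F)
    (hdeg : Divisor.degree D < genusFF K F) (h1 : finrank K (riemannRochSpace D) = 1) :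
    {P : Place K F | finrank K (riemannRochSpace (D + Finsupp.single P 1)) ≠ 1}.Finite :=
  gen (Fermat.Agent.M15.ThirdKind0.rrDataGen hx) (FFGenus.exists_differential_ne_zero hx) D hdeg h1

/-- generic points for a function field with a generator. -/
theorem exists_generic_points_isGen (hx : IsGen K x)
    (avoid : Set (Place K F)) (havoid : avoid.Finite) (n : ℕ) (hn : n ≤ genusFF K F) :
    ∃ P : Fin n → Place K F, Function.Injective P ∧
      (∀ i, P i ∉ avoid) ∧ finrank K (riemannRochSpace (sumPts P)) = 1 := by
  haveI : Infinite (Place K F) :=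
    Fermat.Agent.FF.GaussOv1.infinite_place_of_lHyp (Fermat.Agent.M15.ThirdKind0.rrDataGen hx).HL
  exact exists_generic_points (Fermat.Agent.M15.ThirdKind0.rrDataGen hx)
    (FFGenus.exists_differential_ne_zero hx) avoid havoid n hn

end Concrete

/-! ### the modular function fields `FC N / ℂ` and `FF N / ℚ̄` -/

section Modular

open ModularCurve Fermat.Agent.ES.KUM.FieldL25

variable (N : ℕ) [NeZero N]

/-- **(GEN)** for `F_ℂ = laurentBaseChange ℂ (modularFunctionFieldFull N)` (= `FC N` = `FCx N`). -/
theorem gen_FC (D : Divisor ℂ ↥(laurentBaseChange ℂ (modularFunctionFieldFull N)))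
    (hdeg : Divisor.degree D < genusFF ℂ ↥(laurentBaseChange ℂ (modularFunctionFieldFull N)))
    (h1 : finrank ℂ (riemannRochSpace D) = 1) :
    {P : Place ℂ ↥(laurentBaseChange ℂ (modularFunctionFieldFull N)) |
      finrank ℂ (riemannRochSpace (D + Finsupp.single P 1)) ≠ 1}.Finite :=
  gen_isGen (isGen_jL ℂ N) D hdeg h1

theorem exists_generic_points_FC
    (avoid : Set (Place ℂ ↥(laurentBaseChange ℂ (modularFunctionFieldFull N))))
    (havoid : avoid.Finite) (n : ℕ)
    (hn : n ≤ genusFF ℂ ↥(laurentBaseChange ℂ (modularFunctionFieldFull N))) :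
    ∃ P : Fin n → Place ℂ ↥(laurentBaseChange ℂ (modularFunctionFieldFull N)),
      Function.Injective P ∧ (∀ i, P i ∉ avoid) ∧ finrank ℂ (riemannRochSpace (sumPts P)) = 1 :=
  exists_generic_points_isGen (isGen_jL ℂ N) avoid havoid n hn

/-- **(GEN)** for `FF N / ℚ̄`. -/
theorem gen_FF (D : Divisor Fermat.Agent.X0.Kbar (Fermat.Agent.X0.FF N))
    (hdeg : Divisor.degree D < genusFF Fermat.Agent.X0.Kbar (Fermat.Agent.X0.FF N))
    (h1 : finrank Fermat.Agent.X0.Kbar (riemannRochSpace D) = 1) :
    {P : Place Fermat.Agent.X0.Kbar (Fermat.Agent.X0.FF N) |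
      finrank Fermat.Agent.X0.Kbar (riemannRochSpace (D + Finsupp.single P 1)) ≠ 1}.Finite :=
  gen_isGen (Fermat.Agent.X0.HasCanDivInst.isGen N) D hdeg h1

theorem exists_generic_points_FF
    (avoid : Set (Place Fermat.Agent.X0.Kbar (Fermat.Agent.X0.FF N)))
    (havoid : avoid.Finite) (n : ℕ)
    (hn : n ≤ genusFF Fermat.Agent.X0.Kbar (Fermat.Agent.X0.FF N)) :
    ∃ P : Fin n → Place Fermat.Agent.X0.Kbar (Fermat.Agent.X0.FF N),
      Function.Injective P ∧ (∀ i, P i ∉ avoid) ∧
        finrank Fermat.Agent.X0.Kbar (riemannRochSpace (sumPts P)) = 1 :=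
  exists_generic_points_isGen (Fermat.Agent.X0.HasCanDivInst.isGen N) avoid havoid n hn

end Modular

end Fermat.Agent.M17.GenericRR2
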