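/-
Programme M17 (target S17), block [RT]/[ALG], leaf (GENUS-C) (helper2): **the genus of the complex
modular function field** `F_ℂ = FC N = laurentBaseChange ℂ (modularFunctionFieldFull N)` equals the
genus of `F_ℚ̄` (hence `dim S₂(Γ₀(N))`).

Proof: Riemann-Hurwitz for `j` on both sides (`X0.FFGenus.degree_canonical`), same degree
`[F : K(j)] = ψ(N)` (`FieldL25.finrank_jL`), same fibre cardinalities over algebraic values and over
`∞` (`extPlaceC` is a bijection there), and `j : F_ℂ` is unramified over every transcendental value: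
the ramified places form a finite set stable under `Aut(ℂ/ℚ̄)`, so each of them is an extended place
(`FiniteOrbit22`) and lies over an algebraic value.
-/
import Mathlib
import Fermat.Agent.J.DESC.DescentFinal24
import Fermat.Agent.J.DESC.FiniteOrbit22
import Fermat.Agent.M15.ThirdKind0
import Fermat.Agent.X0.HasCanDivInst
import Fermat.Agent.X0.RootsK
import Fermat.Agent.S20
import Fermat.Agent.S24
import Fermat.Agent.RR.InstPrep
import Fermat.Agent.RR.ResidueGlob

set_option autoImplicit false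
set_option linter.unusedSectionVars false
set_option linter.unusedVariables false
set_option linter.style.longLine false

namespace Fermat.Agent.M17.GenusComplex2

open ModularCurve AlgebraicCurve Module KaehlerDifferential
open Fermat.Agent.X0 Fermat.Agent.X0.FF
open Fermat.Agent.J.DESC.ConstExt24 Fermat.Agent.J.DESC.FiniteOrbit22
open Fermat.Agent.J.DESC.DescentFinal24
open Fermat.Agent.ES.KUM.FieldL25

noncomputable section

attribute [local instance] instAlgebraQbarComplex instTowerQbarComplex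

variable (N : ℕ) [NeZero N]

/-! ### base change of `j - c` -/

theorem bcQC_const (c : Qb) :
    bcQC N (algebraMap Qb (FQ N) c) = algebraMap ℂ (FCx N) (algebraMap Qb ℂ c) :=
  (isConstExt_bcQC N).comm c

theorem bcQC_j_sub (c : Qb) :
    bcQC N (jL Qb N - algebraMap Qb (FQ N) c)
      = jL ℂ N - algebraMap ℂ (FCx N) (algebraMap Qb ℂ c) := by
  rw [map_sub, bcQC_jL, bcQC_const]

theorem jQ_sub_ne_zero (c : Qb) : jL Qb N - algebraMap Qb (FQ N) c ≠ 0 := by
  intro h
  apply (isGen_jL Qb N).transcendental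
  rw [sub_eq_zero] at h
  rw [h]
  exact isAlgebraic_algebraMap c

theorem jC_sub_ne_zero (c : ℂ) : jL ℂ N - algebraMap ℂ (FCx N) c ≠ 0 := by
  intro h
  apply (isGen_jL ℂ N).transcendental
  rw [sub_eq_zero] at h
  rw [h]
  exact isAlgebraic_algebraMap c

/-! ### the fibres over algebraic values and over `∞` -/

/-- a place of `F_ℂ` over an algebraic value of `j` is an extended place. -/
theorem mem_range_extPlaceC_of_fibre (c : Qb) (v' : Place ℂ (FCx N))
    (hv' : 0 < v'.ord (jL ℂ N - algebraMap ℂ (FCx N) (algebraMap Qb ℂ c))) :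
    v' ∈ Set.range (extPlaceC N) := by
  unfold extPlaceC
  rw [mem_range_extPlace_iff (isConstExt_bcQC N) (isGen_jL Qb N) (isGen_jL ℂ N)]
  refine ⟨jL Qb N - algebraMap Qb (FQ N) c, jQ_sub_ne_zero N c, ?_⟩
  rw [bcQC_j_sub]
  exact hv'

/-- a pole of `j` on `F_ℂ` is an extended place. -/
theorem mem_range_extPlaceC_of_pole (v' : Place ℂ (FCx N)) (hv' : v'.ord (jL ℂ N) < 0) :
    v' ∈ Set.range (extPlaceC N) := by
  unfold extPlaceC
  rw [mem_range_extPlace_iff (isConstExt_bcQC N) (isGen_jL Qb N) (isGen_jL ℂ N)]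
  refine ⟨(jL Qb N)⁻¹, inv_ne_zero (isGen_jL Qb N).ne_zero, ?_⟩
  rw [map_inv₀, bcQC_jL, v'.ord_inv]
  omega

/-- the fibre of `j` over an algebraic value has the same cardinality on both sides. -/
theorem card_fibre (c : Qb) :
    Nat.card {v' : Place ℂ (FCx N) //
        0 < v'.ord (jL ℂ N - algebraMap ℂ (FCx N) (algebraMap Qb ℂ c))}
      = Nat.card {w : Place Qb (FQ N) // 0 < w.ord (jL Qb N - algebraMap Qb (FQ N) c)} := by
  symm
  refine Nat.card_congr (Equiv.ofBijective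
    (fun w => ⟨extPlaceC N w.1, by rw [← bcQC_j_sub, ord_extPlaceC]; exact w.2⟩) ⟨?_, ?_⟩)
  · intro w w' h
    exact Subtype.ext (extPlaceC_injective N (congrArg Subtype.val h))
  · rintro ⟨v', hv'⟩
    obtain ⟨w, rfl⟩ := mem_range_extPlaceC_of_fibre N c v' hv'
    refine ⟨⟨w, ?_⟩, rfl⟩
    rw [← bcQC_j_sub, ord_extPlaceC] at hv'
    exact hv'

/-- the polar fibre of `j` has the same cardinality on both sides. -/
theorem card_poles :
    Nat.card {v' : Place ℂ (FCx N) // v'.ord (jL ℂ N) < 0}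
      = Nat.card {w : Place Qb (FQ N) // w.ord (jL Qb N) < 0} := by
  symm
  refine Nat.card_congr (Equiv.ofBijective
    (fun w => ⟨extPlaceC N w.1, by rw [← bcQC_jL, ord_extPlaceC]; exact w.2⟩) ⟨?_, ?_⟩)
  · intro w w' h
    exact Subtype.ext (extPlaceC_injective N (congrArg Subtype.val h))
  · rintro ⟨v', hv'⟩
    obtain ⟨w, rfl⟩ := mem_range_extPlaceC_of_pole N v' hv'
    refine ⟨⟨w, ?_⟩, rfl⟩
    rw [← bcQC_jL, ord_extPlaceC] at hv'
    exact hv'

/-! ### `j` is unramified outside `{0, 1728}` on `F_ℂ` -/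

theorem jF_eq_jL : (jF N : FF N) = jL Qb N := by
  apply Subtype.ext
  rw [Fermat.Agent.X0.coe_jF, Fermat.Agent.X0.jqK_eq_jqModC]
  rfl

/-- `j` on `F_ℚ̄` is unramified outside `{0, 1728}` (restating `HasCanDivInst.unramified`). -/
theorem unramifiedQ (c : Qb) (hc : c ≠ 0 ∧ c ≠ 1728) (w : Place Qb (FQ N))
    (hw : 0 < w.ord (jL Qb N - algebraMap Qb (FQ N) c)) :
    w.ord (jL Qb N - algebraMap Qb (FQ N) c) = 1 := by
  have h := HasCanDivInst.unramified N c hc w
  rw [jF_eq_jL] at h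
  exact h hw

/-- the places of `F_ℂ` at which `dj` has a zero or a pole: a finite set. -/
theorem finite_ramified :
    {v' : Place ℂ (FCx N) | v'.ordDifferential (D ℂ (FCx N) (jL ℂ N)) ≠ 0}.Finite :=
  (Fermat.Agent.M15.ThirdKind0.rrDataGen (isGen_jL ℂ N)).HD.finite_support _
    (D_ne_zero (isGen_jL ℂ N))

theorem D_j_sub (c : ℂ) :
    D ℂ (FCx N) (jL ℂ N - algebraMap ℂ (FCx N) c) = D ℂ (FCx N) (jL ℂ N) := by
  rw [map_sub, Derivation.map_algebraMap, sub_zero]

/-- a place where `j - c` vanishes to order `≥ 2` is a zero of `dj`. -/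
theorem mem_ramified_of_two_le (c : ℂ) (v' : Place ℂ (FCx N))
    (h : 2 ≤ v'.ord (jL ℂ N - algebraMap ℂ (FCx N) c)) :
    v'.ordDifferential (D ℂ (FCx N) (jL ℂ N)) ≠ 0 := by
  have h1 := (FFGenus.genusHyp (isGen_jL ℂ N)).ordDifferential_D_of_ord_ne_zero v'
    (jL ℂ N - algebraMap ℂ (FCx N) c) (by omega)
  rw [D_j_sub] at h1
  rw [h1]
  omega

theorem rhoC_smul_jL (σ : ℂ ≃ₐ[Qb] ℂ) : rhoC N σ • jL ℂ N = jL ℂ N := by
  rw [← bcQC_jL, rhoC_smul_bcQC]

/-- **a ramified place of `j` on `F_ℂ` is an extended place.** -/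
theorem mem_range_extPlaceC_of_two_le (c : ℂ) (v' : Place ℂ (FCx N))
    (h : 2 ≤ v'.ord (jL ℂ N - algebraMap ℂ (FCx N) c)) :
    v' ∈ Set.range (extPlaceC N) := by
  unfold extPlaceC
  refine mem_range_extPlace_of_finiteIndex (isConstExt_bcQC N) (isGen_jL Qb N) (isGen_jL ℂ N)
    (rhoC N) (baseAut_rhoC N) (rhoC_smul_bcQC N) ⊤ v' ?_
  refine (finite_ramified N).subset ?_
  rintro _ ⟨σ, -, rfl⟩
  have h1 := ord_smul_sub_const (rhoC N σ) v' (jL ℂ N) c
  rw [rhoC_smul_jL] at h1
  exact mem_ramified_of_two_le N _ _ (by rw [h1]; exact h)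

/-- an extended place over a value `c` of `j`: the value is algebraic. -/
theorem exists_algebraic_of_extPlaceC (w : Place Qb (FQ N)) (c : ℂ)
    (h : 0 < (extPlaceC N w).ord (jL ℂ N - algebraMap ℂ (FCx N) c)) :
    ∃ c₀ : Qb, c = algebraMap Qb ℂ c₀ ∧ 0 < w.ord (jL Qb N - algebraMap Qb (FQ N) c₀) := by
  -- `j` is regular at `w`
  have hreg : 0 ≤ (extPlaceC N w).ord (jL ℂ N) := by
    have h2 : (0 : ℤ) ≤ (extPlaceC N w).ord (algebraMap ℂ (FCx N) c) := by
      rw [ord_algebraMap]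
    have := ffp_le_ord_add (extPlaceC N w) h.le h2 (by
      rw [sub_add_cancel]; exact (isGen_jL ℂ N).ne_zero)
    rwa [sub_add_cancel] at this
  rw [← bcQC_jL, ord_extPlaceC] at hreg
  obtain ⟨c₀, hc₀ | hc₀⟩ := exists_ord_sub_pos (isGen_jL Qb N) w
    (ffp_mem_of_ord_nonneg w hreg)
  · exact absurd (sub_eq_zero.mpr hc₀) (jQ_sub_ne_zero N c₀)
  · refine ⟨c₀, ?_, hc₀⟩
    have h3 : 0 < (extPlaceC N w).ord (jL ℂ N - algebraMap ℂ (FCx N) (algebraMap Qb ℂ c₀)) := by
      rw [← bcQC_j_sub, ord_extPlaceC]; exact hc₀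
    exact const_unique (extPlaceC N w) h h3

/-- the branch set of `j` on `F_ℂ`. -/
def branchC : Finset ℂ := {0, 1728}

/-- **`j` is unramified outside `{0, 1728}` on `F_ℂ`.** -/
theorem unramifiedC (c : ℂ) (hc : c ∉ branchC) (v' : Place ℂ (FCx N))
    (hv' : 0 < v'.ord (jL ℂ N - algebraMap ℂ (FCx N) c)) :
    v'.ord (jL ℂ N - algebraMap ℂ (FCx N) c) = 1 := by
  by_contra hne
  have h2 : 2 ≤ v'.ord (jL ℂ N - algebraMap ℂ (FCx N) c) := by omega
  obtain ⟨w, rfl⟩ := mem_range_extPlaceC_of_two_le N c v' h2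
  obtain ⟨c₀, rfl, hw⟩ := exists_algebraic_of_extPlaceC N w c hv'
  have hc0 : c₀ ≠ 0 ∧ c₀ ≠ 1728 := by
    simp only [branchC, Finset.mem_insert, Finset.mem_singleton, not_or] at hc
    refine ⟨fun h => hc.1 (by rw [h, map_zero]), fun h => hc.2 (by rw [h]; exact map_ofNat (algebraMap Qb ℂ) 1728)⟩
  have h1 := unramifiedQ N c₀ hc0 w hw
  rw [← bcQC_j_sub, ord_extPlaceC] at hne
  exact hne h1

/-! ### Riemann-Hurwitz on both sides -/

/-- the branch set of `j` on `F_ℚ̄`. -/
def branchQ : Finset Qb := {0, 1728}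

theorem unramifiedQ' (c : Qb) (hc : c ∉ branchQ) (w : Place Qb (FQ N))
    (hw : 0 < w.ord (jL Qb N - algebraMap Qb (FQ N) c)) :
    w.ord (jL Qb N - algebraMap Qb (FQ N) c) = 1 := by
  simp only [branchQ, Finset.mem_insert, Finset.mem_singleton, not_or] at hc
  exact unramifiedQ N c hc w hw

theorem branchC_eq : branchC = branchQ.image (algebraMap Qb ℂ) := by
  classical
  simp only [branchC, branchQ, Finset.image_insert, Finset.image_singleton, map_zero]
  congr 2
  exact (map_ofNat (algebraMap Qb ℂ) 1728).symm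

/-- **the canonical divisors of `F_ℂ` and `F_ℚ̄` have the same degree.** -/
theorem degree_canonical_eq {ωC : Ω[FCx N⁄ℂ]} (hωC : ωC ≠ 0) (WC : Divisor ℂ (FCx N))
    (hWC : ∀ v, WC v = v.ordDifferential ωC) {ωQ : Ω[FQ N⁄Qb]} (hωQ : ωQ ≠ 0)
    (WQ : Divisor Qb (FQ N)) (hWQ : ∀ v, WQ v = v.ordDifferential ωQ) :
    Divisor.degree WC = Divisor.degree WQ := by
  classical
  rw [FFGenus.degree_canonical (isGen_jL ℂ N) hωC WC hWC branchC (unramifiedC N),
    FFGenus.degree_canonical (isGen_jL Qb N) hωQ WQ hWQ branchQ (unramifiedQ' N),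
    finrank_jL ℂ N, finrank_jL Qb N, card_poles, branchC_eq,
    Finset.sum_image (fun a _ b _ h => (algebraMap Qb ℂ).injective h)]
  congr 2
  refine Finset.sum_congr rfl fun c _ => ?_
  rw [card_fibre]

/-- **(GENUS-C), first form**: `F_ℂ` and `F_ℚ̄` have the same genus. -/
theorem genusFF_complex_eq : genusFF ℂ (FCx N) = genusFF Qb (FQ N) := by
  let WC : Divisor ℂ (FCx N) := Finsupp.ofSupportFinite (fun v : Place ℂ (FCx N) =>
      v.ordDifferential (D ℂ (FCx N) (jL ℂ N)))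
      ((Fermat.Agent.M15.ThirdKind0.rrDataGen (isGen_jL ℂ N)).HD.finite_support _
        (D_ne_zero (isGen_jL ℂ N)))
  let WQ : Divisor Qb (FQ N) := Finsupp.ofSupportFinite (fun v : Place Qb (FQ N) =>
      v.ordDifferential (D Qb (FQ N) (jL Qb N)))
      ((Fermat.Agent.M15.ThirdKind0.rrDataGen (isGen_jL Qb N)).HD.finite_support _
        (D_ne_zero (isGen_jL Qb N)))
  have hWC : ∀ v, WC v = v.ordDifferential (D ℂ (FCx N) (jL ℂ N)) := fun v => rfl
  have hWQ : ∀ v, WQ v = v.ordDifferential (D Qb (FQ N) (jL Qb N)) := fun v => rfl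
  have hC := Fermat.Agent.RR.Final.degree_canonical
    (Fermat.Agent.M15.ThirdKind0.rrDataGen (isGen_jL ℂ N)) (D_ne_zero (isGen_jL ℂ N)) hWC
  have hQ := Fermat.Agent.RR.Final.degree_canonical
    (Fermat.Agent.M15.ThirdKind0.rrDataGen (isGen_jL Qb N)) (D_ne_zero (isGen_jL Qb N)) hWQ
  have h := degree_canonical_eq N (D_ne_zero (isGen_jL ℂ N)) WC hWC
    (D_ne_zero (isGen_jL Qb N)) WQ hWQ
  rw [hC, hQ] at h
  have : (genusFF ℂ (FCx N) : ℤ) = genusFF Qb (FQ N) := by linarith
  exact_mod_cast this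

/-- the genus of `F_ℚ̄` is `dim S₂(Γ₀(N))` (S20 + S24 + Riemann-Roch). -/
theorem genusFF_bar_eq :
    genusFF Qb (FQ N) = finrank ℂ (CuspForm (CongruenceSubgroup.Gamma0 N) 2) := by
  have : HasCanonicalDivisor (K := Kbar) (F := FF N) := HasCanDivInst.hasCanonicalDivisor N
  have hx : FF.IsGen Kbar (jF N) := Degree.isGen_jF N (realizeData N) (cuspData N)
  have h1 := Fermat.Agent.S24.result N
  have h2 := Fermat.Agent.S20.result N
  have h3 := Fermat.Agent.RR.Final.genus_eq_genusFF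
    (Fermat.Agent.RR.InstPrep.rrData hx (Fermat.Agent.RR.ResidueGlob.residueData hx))
    (FFGenus.exists_differential_ne_zero hx)
  have h4 : (genus Kbar (FF N) : ℚ) = finrank ℂ (CuspForm (CongruenceSubgroup.Gamma0 N) 2) := by
    rw [h1, ← h2]
  have h5 : genus Kbar (FF N) = finrank ℂ (CuspForm (CongruenceSubgroup.Gamma0 N) 2) := by
    exact_mod_cast h4
  rw [← h5, h3]

/-- **(GENUS-C)**: the genus of the complex modular function field is `dim S₂(Γ₀(N))`. -/
theorem genusFF_complex :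
    genusFF ℂ (FCx N) = finrank ℂ (CuspForm (CongruenceSubgroup.Gamma0 N) 2) := by
  rw [genusFF_complex_eq, genusFF_bar_eq]

end

end Fermat.Agent.M17.GenusComplex2
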