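/-
M17 (helper1): **existence of the order at `i∞`** of a periodic holomorphic function on `ℍ` which
is bounded at `i∞` (Mathlib only):

`exists_cusp_order` : `f ≠ 0`, `h`-periodic, holomorphic, bounded at `i∞` ⇒ there are `n : ℕ` and
`ℓ ≠ 0` with `f(τ) · exp(-2πi n τ / h) → ℓ` as `Im τ → ∞`.
-/
import Mathlib

set_option autoImplicit false

namespace Fermat.Agent.M17.CuspOrder1

open Complex UpperHalfPlane Filter Topology Function
open scoped Manifold

/-- the cusp function of a nonzero function does not vanish identically near `0`. -/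
theorem analyticOrderAt_cuspFunction_ne_top {f : ℍ → ℂ} {h : ℝ} (hh : 0 < h)
    (hper : Periodic (f ∘ ofComplex) h) (hhol : MDiff f) (hbdd : IsBoundedAtImInfty f)
    (hf : f ≠ 0) : analyticOrderAt (cuspFunction h f) 0 ≠ ⊤ := by
  intro htop
  apply hf
  have han : AnalyticOnNhd ℂ (cuspFunction h f) (Metric.ball 0 1) :=
    (differentiableOn_cuspFunction_ball hh hper hhol hbdd).analyticOnNhd Metric.isOpen_ball
  have hev : cuspFunction h f =ᶠ[𝓝 0] 0 := analyticOrderAt_eq_top.mp htop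
  have hzero := han.eqOn_zero_of_preconnected_of_eventuallyEq_zero
    (convex_ball (0 : ℂ) 1).isPreconnected (Metric.mem_ball_self one_pos) hev
  funext τ
  have hq : Periodic.qParam h τ ∈ Metric.ball (0 : ℂ) 1 := by
    rw [mem_ball_zero_iff]
    exact Periodic.norm_qParam_lt_one hh τ.im_pos
  have := hzero hq
  rw [eq_cuspFunction τ hh.ne' hper] at this
  exact this

/-- **existence of the order at `i∞`**. -/
theorem exists_cusp_order {f : ℍ → ℂ} {h : ℝ} (hh : 0 < h)
    (hper : Periodic (f ∘ ofComplex) h) (hhol : MDiff f) (hbdd : IsBoundedAtImInfty f)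
    (hf : f ≠ 0) :
    ∃ (n : ℕ) (ℓ : ℂ), ℓ ≠ 0 ∧
      Tendsto (fun τ : ℍ => f τ * cexp (-(2 * Real.pi * Complex.I * n * (τ : ℂ)) / h)) atImInfty (𝓝 ℓ) := by
  have han0 : AnalyticAt ℂ (cuspFunction h f) 0 := analyticAt_cuspFunction_zero hh hper hhol hbdd
  have hne := analyticOrderAt_cuspFunction_ne_top hh hper hhol hbdd hf
  obtain ⟨n, hn⟩ := ENat.ne_top_iff_exists.mp hne
  obtain ⟨u, hu, hu0, hev⟩ := (han0.analyticOrderAt_eq_natCast).mp hn.symm
  refine ⟨n, u 0, hu0, ?_⟩
  have hq0 : Tendsto (fun τ : ℍ => Periodic.qParam h τ) atImInfty (𝓝 0) :=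
    qParam_tendsto_atImInfty hh
  have hlim : Tendsto (fun τ : ℍ => u (Periodic.qParam h τ)) atImInfty (𝓝 (u 0)) :=
    hu.continuousAt.tendsto.comp hq0
  refine hlim.congr' ?_
  have hev' : ∀ᶠ τ : ℍ in atImInfty,
      cuspFunction h f (Periodic.qParam h τ) = (Periodic.qParam h τ - 0) ^ n • u (Periodic.qParam h τ) :=
    hq0.eventually hev
  filter_upwards [hev'] with τ hτ
  rw [eq_cuspFunction τ hh.ne' hper, sub_zero, smul_eq_mul] at hτ
  rw [hτ]
  have hqne : Periodic.qParam h (τ : ℂ) ≠ 0 := Periodic.qParam_ne_zero _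
  have hexp : cexp (-(2 * Real.pi * Complex.I * n * (τ : ℂ)) / h) = ((Periodic.qParam h (τ : ℂ)) ^ n)⁻¹ := by
    rw [Periodic.qParam, ← Complex.exp_nat_mul, ← Complex.exp_neg]
    congr 1
    ring
  rw [hexp]
  field_simp

end Fermat.Agent.M17.CuspOrder1
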