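/-
M17 (helper1): **the pull-back of the theta function to the upper half plane**,
`F_e(τ) = θ(A(τ) - e)` for `L : Interfaces7.LatData N g` (`A = L.A`, `θ = thetaA (siegelOfLat L) 0`):

* `A_smul`    : `A(γτ) = A(τ) + n(γ) + Ω m(γ)` for `γ ∈ Γ₀(N)`;
* `Fe L e : HolH` with `Fe_apply`;
* `Fe_smul`   : the automorphy `F_e(γτ) = exp(-πi mᵀΩm - 2πi m·(A τ - e)) F_e(τ)`;
* `A_smul_of_trace`, `Fe_smul_of_trace` : parabolic (and `±1`) elements act trivially;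
* `exists_tendsto_A_cusp` : limits of `A` at all cusps;
* `exists_cuspOrdIs_Fe` : if `F_e ≠ 0`, it has an order `n ≥ 0` at every cusp, in the
  normalisation of `Interfaces7.CuspOrdIs`.
-/
import Mathlib
import Fermat.Agent.M17.ThetaLat1
import Fermat.Agent.M17.CuspOrder1

set_option autoImplicit false
set_option linter.unusedSectionVars false

namespace Fermat.Agent.M17.Theta1

open Complex Real Matrix UpperHalfPlane Filter Topology CongruenceSubgroup Function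
open Fermat.Agent.M17.Interfaces7 Fermat.Agent.X0 Fermat.Agent.X0.SurjPoint
open scoped Manifold MatrixGroups

variable {N : ℕ} [NeZero N] {g : ℕ} (L : LatData N g)

/-- the `a`-coordinates `n(γ)` of `γ`. -/
def nVec (γ : Gamma0 N) : Fin g → ℤ :=
  fun k => (L.n k : Additive (Gamma0 N) →+ ℤ) (Additive.ofMul γ)

/-- the `b`-coordinates `m(γ)` of `γ`. -/
def mVec (γ : Gamma0 N) : Fin g → ℤ :=
  fun k => (L.m k : Additive (Gamma0 N) →+ ℤ) (Additive.ofMul γ)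

/-- `A(γτ) = A(τ) + n(γ) + Ω m(γ)`. -/
theorem A_smul (γ : Gamma0 N) (τ : ℍ) :
    L.A ((γ : SL(2, ℤ)) • τ) = L.A τ + Siegel.ofRealVec (intVec (nVec L γ)) +
      (siegelOfLat L).Ω *ᵥ Siegel.ofRealVec (intVec (mVec L γ)) := by
  funext k
  have h1 := Fermat.Agent.S21.PeriodPrim.periodMap_apply (L.w k) γ τ
  have h2 := L.per_eq k γ
  unfold per at h2
  rw [h1] at h2
  have h3 : L.A ((γ : SL(2, ℤ)) • τ) k = L.A τ k +
      (((L.n k : Additive (Gamma0 N) →+ ℤ) (Additive.ofMul γ) : ℂ) +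
        ∑ j, ModularCurve.periodMap N (L.w k) (Additive.ofMul (L.b j)) *
          ((L.m j : Additive (Gamma0 N) →+ ℤ) (Additive.ofMul γ) : ℂ)) := by
    rw [← h2]; simp only [LatData.A]; ring
  have hR : (L.A τ + Siegel.ofRealVec (intVec (nVec L γ)) +
      (siegelOfLat L).Ω *ᵥ Siegel.ofRealVec (intVec (mVec L γ))) k =
      L.A τ k + (((nVec L γ k : ℤ) : ℂ) + ∑ j, L.Om k j * ((mVec L γ j : ℤ) : ℂ)) := by
    simp only [Pi.add_apply, mulVec, dotProduct, siegelOfLat_Ω, Siegel.ofRealVec, intVec]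
    push_cast
    ring
  rw [h3, hR]
  congr 2
  refine Finset.sum_congr rfl fun j _ => ?_
  have hs : L.Om k j = L.Om j k := L.om_symm k j
  rw [hs]
  rfl

/-- the same in the coordinates of `Interfaces7.LatData.lattice` (helper7's request (b)):
`A(γτ) = A(τ) + (p + Omᵀ q)` with `p = n(γ)`, `q = m(γ)`. -/
theorem A_smul' (γ : Gamma0 N) (τ : ℍ) :
    L.A ((γ : SL(2, ℤ)) • τ) = L.A τ + fun k =>
      (((L.n k : Additive (Gamma0 N) →+ ℤ) (Additive.ofMul γ) : ℤ) : ℂ) +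
        ∑ j, L.Om j k * (((L.m j : Additive (Gamma0 N) →+ ℤ) (Additive.ofMul γ) : ℤ) : ℂ) := by
  funext k
  have h1 := Fermat.Agent.S21.PeriodPrim.periodMap_apply (L.w k) γ τ
  have h2 := L.per_eq k γ
  unfold per at h2
  rw [h1] at h2
  simp only [Pi.add_apply]
  have h3 : L.A ((γ : SL(2, ℤ)) • τ) k - L.A τ k =
      Fermat.Agent.S21.PeriodPrim.Fp (⇑(L.w k)) ((γ : SL(2, ℤ)) • τ) -
        Fermat.Agent.S21.PeriodPrim.Fp (⇑(L.w k)) τ := rfl
  have h4 : ∀ j, L.Om j k = ModularCurve.periodMap N (L.w k) (Additive.ofMul (L.b j)) :=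
    fun j => rfl
  simp only [h4]
  linear_combination h3 + h2

/-- the increment lies in the period lattice. -/
theorem A_smul_sub_mem (γ : Gamma0 N) (τ : ℍ) :
    L.A ((γ : SL(2, ℤ)) • τ) - L.A τ ∈ L.lattice := by
  rw [A_smul' L γ τ, add_sub_cancel_left]
  exact ⟨fun k => (L.n k : Additive (Gamma0 N) →+ ℤ) (Additive.ofMul γ),
    fun j => (L.m j : Additive (Gamma0 N) →+ ℤ) (Additive.ofMul γ), rfl⟩

/-- elements of trace `±2` act trivially on `A`. -/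
theorem A_smul_of_trace (γ : Gamma0 N)
    (hγ : ((γ : SL(2, ℤ)) : Matrix (Fin 2) (Fin 2) ℤ).trace ^ 2 = 4) (τ : ℍ) :
    L.A ((γ : SL(2, ℤ)) • τ) = L.A τ := by
  have hn : nVec L γ = 0 := by
    funext k
    exact (ModularCurve.Period.mem_parabolicHoms_iff.mp (L.n k).2) γ hγ
  have hm : mVec L γ = 0 := by
    funext k
    exact (ModularCurve.Period.mem_parabolicHoms_iff.mp (L.m k).2) γ hγ
  rw [A_smul, hn, hm, intVec_zero, Siegel.ofRealVec_zero, mulVec_zero, add_zero, add_zero]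

/-- `A` is holomorphic. -/
theorem hasDerivAt_A (τ : ℍ) :
    HasDerivAt (fun w : ℂ => L.A (ofComplex w)) (fun k => (L.w k : ℍ → ℂ) τ) (τ : ℂ) := by
  rw [hasDerivAt_pi]
  intro k
  obtain ⟨a, ha, hfd⟩ := Fermat.Agent.S21.PeriodPrim.cusp_decay (L.w k)
  exact Fermat.Agent.S21.PeriodPrim.hasDerivAt_Fp ha
    (Fermat.Agent.S21.PeriodPrim.cusp_mdiff (L.w k)) hfd τ

/-- the pull-back `τ ↦ θ(A τ - e)`. -/
noncomputable def FeFun (e : Fin g → ℂ) (τ : ℍ) : ℂ := thetaA (siegelOfLat L) 0 (L.A τ - e)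

theorem mdiff_FeFun (e : Fin g → ℂ) : MDiff (FeFun L e) := by
  intro τ
  rw [UpperHalfPlane.mdifferentiableAt_iff]
  have h1 : DifferentiableAt ℂ (fun w : ℂ => L.A (ofComplex w) - e) (τ : ℂ) :=
    ((hasDerivAt_A L τ).differentiableAt).sub_const e
  have h2 : DifferentiableAt ℂ (thetaA (siegelOfLat L) 0) (L.A (ofComplex (τ : ℂ)) - e) :=
    (differentiable_thetaA (siegelOfLat L) 0) _
  have h3 : DifferentiableAt ℂ
      ((thetaA (siegelOfLat L) 0) ∘ fun w : ℂ => L.A (ofComplex w) - e) (τ : ℂ) :=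
    DifferentiableAt.comp (τ : ℂ) h2 h1
  exact h3

/-- `F_e` as an element of `HolH`. -/
noncomputable def Fe (e : Fin g → ℂ) : HolH := ⟨FeFun L e, mdiff_FeFun L e⟩

theorem Fe_apply (e : Fin g → ℂ) (τ : ℍ) :
    (Fe L e : ℍ → ℂ) τ = thetaA (siegelOfLat L) 0 (L.A τ - e) := rfl

/-- **automorphy of `F_e`**. -/
theorem FeFun_smul (e : Fin g → ℂ) (γ : Gamma0 N) (τ : ℍ) :
    FeFun L e ((γ : SL(2, ℤ)) • τ) =
      cexp (-(π * Complex.I * (siegelOfLat L).Q (Siegel.ofRealVec (intVec (mVec L γ)))) -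
        2 * π * Complex.I * (Siegel.ofRealVec (intVec (mVec L γ)) ⬝ᵥ (L.A τ - e))) * FeFun L e τ := by
  unfold FeFun
  rw [A_smul]
  have h1 : L.A τ + Siegel.ofRealVec (intVec (nVec L γ)) +
      (siegelOfLat L).Ω *ᵥ Siegel.ofRealVec (intVec (mVec L γ)) - e =
      (L.A τ - e) + Siegel.ofRealVec (intVec (nVec L γ)) +
        (siegelOfLat L).Ω *ᵥ Siegel.ofRealVec (intVec (mVec L γ)) := by abel
  rw [h1, thetaA_add_mulVec_int, thetaA_add_int, dotProduct_add]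
  have h2 : cexp (2 * π * Complex.I * ((((0 : Fin g → ℝ) ⬝ᵥ intVec (nVec L γ) : ℝ)) : ℂ)) = 1 := by
    simp
  have h3 := exp_int_dotProduct (mVec L γ) (nVec L γ)
  rw [h2, one_mul, Siegel.ofRealVec_dotProduct]
  have h4 : cexp (-(π * Complex.I * (siegelOfLat L).Q (Siegel.ofRealVec (intVec (mVec L γ)))) -
      2 * π * Complex.I * (Siegel.ofRealVec (intVec (mVec L γ)) ⬝ᵥ (L.A τ - e) +
        ((intVec (mVec L γ) ⬝ᵥ intVec (nVec L γ) : ℝ) : ℂ))) =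
      cexp (-(π * Complex.I * (siegelOfLat L).Q (Siegel.ofRealVec (intVec (mVec L γ)))) -
        2 * π * Complex.I * (Siegel.ofRealVec (intVec (mVec L γ)) ⬝ᵥ (L.A τ - e))) *
      (cexp (2 * π * Complex.I * ((intVec (mVec L γ) ⬝ᵥ intVec (nVec L γ) : ℝ) : ℂ)))⁻¹ := by
    rw [← Complex.exp_neg, ← Complex.exp_add]
    congr 1; ring
  rw [h4, h3, inv_one, mul_one]

theorem FeFun_smul_of_trace (e : Fin g → ℂ) (γ : Gamma0 N)
    (hγ : ((γ : SL(2, ℤ)) : Matrix (Fin 2) (Fin 2) ℤ).trace ^ 2 = 4) (τ : ℍ) :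
    FeFun L e ((γ : SL(2, ℤ)) • τ) = FeFun L e τ := by
  unfold FeFun
  rw [A_smul_of_trace L γ hγ]

/-! ### cusps -/

/-- `δ⁻¹ T^N δ ∈ Γ₀(N)`. -/
theorem conj_T_pow_mem_Gamma0 (δ : SL(2, ℤ)) : δ⁻¹ * ModularGroup.T ^ N * δ ∈ Gamma0 N := by
  rw [Gamma0_mem]
  have hT : (↑(ModularGroup.T ^ N) : Matrix (Fin 2) (Fin 2) ℤ) = !![1, (N : ℤ); 0, 1] := by
    rw [← zpow_natCast, ModularGroup.coe_T_zpow]
  have hinv0 : (↑(δ⁻¹) : Matrix (Fin 2) (Fin 2) ℤ) 1 0 = -δ 1 0 := by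
    rw [Matrix.SpecialLinearGroup.SL2_inv_expl]; rfl
  have hinv1 : (↑(δ⁻¹) : Matrix (Fin 2) (Fin 2) ℤ) 1 1 = δ 0 0 := by
    rw [Matrix.SpecialLinearGroup.SL2_inv_expl]; rfl
  have h00 : (↑(ModularGroup.T ^ N) : Matrix (Fin 2) (Fin 2) ℤ) 0 0 = 1 := by rw [hT]; rfl
  have h01 : (↑(ModularGroup.T ^ N) : Matrix (Fin 2) (Fin 2) ℤ) 0 1 = N := by rw [hT]; rfl
  have h10 : (↑(ModularGroup.T ^ N) : Matrix (Fin 2) (Fin 2) ℤ) 1 0 = 0 := by rw [hT]; rfl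
  have h11 : (↑(ModularGroup.T ^ N) : Matrix (Fin 2) (Fin 2) ℤ) 1 1 = 1 := by rw [hT]; rfl
  have key : (δ⁻¹ * ModularGroup.T ^ N * δ) 1 0 = -((N : ℤ) * (δ 1 0) ^ 2) := by
    show (↑(δ⁻¹ * ModularGroup.T ^ N * δ) : Matrix (Fin 2) (Fin 2) ℤ) 1 0 = _
    rw [Matrix.SpecialLinearGroup.coe_mul, Matrix.SpecialLinearGroup.coe_mul, Matrix.mul_apply,
      Fin.sum_univ_two, Matrix.mul_apply, Matrix.mul_apply, Fin.sum_univ_two, Fin.sum_univ_two,
      hinv0, hinv1, h00, h01, h10, h11]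
    have hdet := Matrix.SpecialLinearGroup.det_coe δ
    rw [Matrix.det_fin_two] at hdet
    ring
  rw [key]
  push_cast
  simp

theorem trace_conj_T_pow (δ : SL(2, ℤ)) :
    ((δ⁻¹ * ModularGroup.T ^ N * δ : SL(2, ℤ)) : Matrix (Fin 2) (Fin 2) ℤ).trace ^ 2 = 4 := by
  have hT : (↑(ModularGroup.T ^ N) : Matrix (Fin 2) (Fin 2) ℤ) = !![1, (N : ℤ); 0, 1] := by
    rw [← zpow_natCast, ModularGroup.coe_T_zpow]
  rw [Matrix.SpecialLinearGroup.coe_mul, Matrix.trace_mul_comm, ← Matrix.SpecialLinearGroup.coe_mul,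
    mul_inv_cancel_left, hT]
  simp [Matrix.trace_fin_two]

/-- the function `τ ↦ F_e(δ⁻¹ τ)` is `N`-periodic. -/
theorem periodic_FeFun_cusp (e : Fin g → ℂ) (δ : SL(2, ℤ)) :
    Periodic ((fun τ : ℍ => FeFun L e (δ⁻¹ • τ)) ∘ ofComplex) (N : ℝ) := by
  intro w
  by_cases hw : 0 < im w
  · have hw' : 0 < im (w + ((N : ℝ) : ℂ)) := by simpa using hw
    simp only [Function.comp_apply, ofComplex_apply_of_im_pos hw', ofComplex_apply_of_im_pos hw]
    have h1 : (⟨w + ((N : ℝ) : ℂ), hw'⟩ : ℍ) = ModularGroup.T ^ N • (⟨w, hw⟩ : ℍ) := by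
      rw [← zpow_natCast, UpperHalfPlane.modular_T_zpow_smul]
      ext
      simp [add_comm]
    rw [h1]
    have h2 : δ⁻¹ • ModularGroup.T ^ N • (⟨w, hw⟩ : ℍ) =
        (δ⁻¹ * ModularGroup.T ^ N * δ) • (δ⁻¹ • (⟨w, hw⟩ : ℍ)) := by
      rw [← mul_smul, ← mul_smul]
      congr 1
      group
    rw [h2]
    exact FeFun_smul_of_trace L e ⟨_, conj_T_pow_mem_Gamma0 δ⟩ (trace_conj_T_pow δ) _
  · have hw0 : im w ≤ 0 := not_lt.mp hw
    have hw' : im (w + ((N : ℝ) : ℂ)) ≤ 0 := by simpa using hw0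
    simp only [Function.comp_apply, ofComplex_apply_of_im_nonpos hw', ofComplex_apply_of_im_nonpos hw0]

/-- limits of `A` at every cusp. -/
theorem exists_tendsto_A_cusp (δ : SL(2, ℤ)) :
    ∃ Ac : Fin g → ℂ, Tendsto (fun τ : ℍ => L.A (δ • τ)) atImInfty (𝓝 Ac) := by
  choose Ac hAc using fun k => Fermat.Agent.S21.PeriodPrim.Fp_cusp_limit (L.w k) δ
  exact ⟨Ac, tendsto_pi_nhds.mpr fun k => hAc k⟩

/-- `A(i∞) = 0` (base point, convention (C7)). -/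
theorem tendsto_A_infty : Tendsto L.A atImInfty (𝓝 0) := by
  refine tendsto_pi_nhds.mpr fun k => ?_
  obtain ⟨a, ha, hfd⟩ := Fermat.Agent.S21.PeriodPrim.cusp_decay (L.w k)
  exact Fermat.Agent.S21.PeriodPrim.tendsto_Fp ha
    (Fermat.Agent.S21.PeriodPrim.cusp_mdiff (L.w k)) hfd

/-- each coordinate of `A` is in `HolH`. -/
theorem mdiff_A_coord (k : Fin g) : MDiff (fun τ : ℍ => L.A τ k) := by
  intro τ
  rw [UpperHalfPlane.mdifferentiableAt_iff]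
  exact ((hasDerivAt_pi.mp (hasDerivAt_A L τ)) k).differentiableAt

theorem exists_tendsto_FeFun_cusp (e : Fin g → ℂ) (δ : SL(2, ℤ)) :
    ∃ c : ℂ, Tendsto (fun τ : ℍ => FeFun L e (δ • τ)) atImInfty (𝓝 c) := by
  obtain ⟨Ac, hAc⟩ := exists_tendsto_A_cusp L δ
  refine ⟨thetaA (siegelOfLat L) 0 (Ac - e), ?_⟩
  have h1 : Tendsto (fun τ : ℍ => L.A (δ • τ) - e) atImInfty (𝓝 (Ac - e)) :=
    hAc.sub_const e
  exact ((continuous_thetaA (siegelOfLat L) 0).tendsto _).comp h1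

/-- **cusp orders of `F_e`**: if `F_e ≠ 0`, then at every cusp it has an order `n ≥ 0` in the
parameter `q_N`, in the normalisation of `Interfaces7.CuspOrdIs`. -/
theorem exists_cuspOrdIs_Fe (e : Fin g → ℂ) (hne : Fe L e ≠ 0) (δ : SL(2, ℤ)) :
    ∃ n : ℕ, CuspOrdIs N (algebraMap HolH MerH (Fe L e)) δ (n : ℤ) := by
  have hN : (0 : ℝ) < (N : ℝ) := by exact_mod_cast Nat.pos_of_ne_zero (NeZero.ne N)
  have hhol : MDiff (fun τ : ℍ => FeFun L e (δ⁻¹ • τ)) := (compSLHom δ⁻¹ (Fe L e)).2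
  obtain ⟨c, hc⟩ := exists_tendsto_FeFun_cusp L e δ⁻¹
  have hbdd : IsBoundedAtImInfty (fun τ : ℍ => FeFun L e (δ⁻¹ • τ)) := hc.isBigO_one ℝ
  have hne' : (fun τ : ℍ => FeFun L e (δ⁻¹ • τ)) ≠ 0 := by
    intro h0
    apply hne
    apply Subtype.ext
    funext τ
    have := congrFun h0 (δ • τ)
    simp only [inv_smul_smul, Pi.zero_apply] at this
    exact this
  obtain ⟨n, ℓ, hℓ, hlim⟩ := CuspOrder1.exists_cusp_order hN (periodic_FeFun_cusp L e δ) hhol hbdd hne'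
  refine ⟨n, Fe L e, 1, ℓ, one_ne_zero, hℓ, by simp, ?_⟩
  refine hlim.congr fun τ => ?_
  have h1 : ((1 : HolH) : ℍ → ℂ) (δ⁻¹ • τ) = 1 := rfl
  rw [h1, div_one]
  rfl

end Fermat.Agent.M17.Theta1
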