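/-
Programme M17 (target S17), block [RT], leaf (RVT) (helper2): **Riemann's vanishing theorem, the hard
inclusion `Θ ⊆ W_{g-1} - k`**, against the interfaces `LatData / AJData / RTData` of `Interfaces7`.

`th0 z = 0 ⇒ ∃ E ≥ 0` of degree `g - 1` with `iota [E - (g-1)·∞] = z + k`.

Proof (the `s`-argument): `f_s(P;Q) := th0 (z + ∑_{i<s} (A P_i - A Q_i))`; `f_0 ≡ 0`; let `s + 1` be the
least index with `f_{s+1} ≢ 0` (it exists: `f_g ≢ 0`, hypothesis `(OPEN)`); choose `(P;Q)` with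
`f_{s+1}(P;Q) ≠ 0` and the `Q_j` pairwise `Γ₀(N)`-inequivalent; for
`e := A Q_s - z - ∑_{i<s} (A P_i - A Q_i)` the function `F_e` does not vanish at `P_s` and vanishes at all
`Q_j`, so `Z e = ∑_j (Q_j) + R` with `R ≥ 0`; the Abel sum `Z_sum` gives
`k - z = iota [∑_{i<s} (P_i) + R - (g-1)·∞]`; finally `th0` is even.
-/
import Mathlib
import Fermat.Agent.M17.Interfaces7
import Fermat.Agent.M17.AlgGlue7
import Fermat.Agent.M17.Dict4
import Fermat.Agent.M17.ThetaPull1

set_option autoImplicit false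
set_option linter.unusedSectionVars false
set_option linter.unusedVariables false
set_option linter.style.longLine false

namespace Fermat.Agent.M17.RiemannVanishing2

open ModularCurve AlgebraicCurve UpperHalfPlane CongruenceSubgroup Filter Topology
open Fermat.Agent.X0 Fermat.Agent.X0.SurjPoint Fermat.Agent.ES.KUM Fermat.Agent.ES.KUM.CCusp16
open Fermat.Agent.RR.LSpace
open Fermat.Agent.M17.Interfaces7 Fermat.Agent.M17.AlgGlue7
open scoped MatrixGroups

noncomputable section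

variable {N : ℕ} [NeZero N] {g : ℕ} {L : LatData N g} {AJ : AJData N L}
  {th0 : (Fin g → ℂ) → ℂ}

/-! ### divisors of points -/

/-- the divisor `∑_i (P_i)` on `F_ℂ`. -/
def ptsDiv {n : ℕ} (P : Fin n → ℍ) : Divisor ℂ (FC N) :=
  ∑ i, Finsupp.single (ptPlaceC N 1 (P i)) (1 : ℤ)

/-- `n·∞`. -/
def inftyDiv (n : ℤ) : Divisor ℂ (FC N) := Finsupp.single (cuspPlaceC N 1) n

theorem degree_ptsDiv {n : ℕ} (P : Fin n → ℍ) : Divisor.degree (ptsDiv (N := N) P) = n := by
  unfold ptsDiv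
  rw [map_sum]
  simp [degree_single (lHypC N)]

theorem degree_inftyDiv (n : ℤ) : Divisor.degree (inftyDiv (N := N) n) = n :=
  degree_single (lHypC N) _ n

theorem ptsDiv_nonneg {n : ℕ} (P : Fin n → ℍ) : 0 ≤ ptsDiv (N := N) P := by
  classical
  unfold ptsDiv
  refine Finset.sum_nonneg fun i _ => ?_
  intro v
  by_cases hv : v = ptPlaceC N 1 (P i)
  · subst hv
    simp
  · rw [Finsupp.single_eq_of_ne hv]
    simp

theorem ptsDiv_sub_mem {n : ℕ} (P : Fin n → ℍ) :
    ptsDiv (N := N) P - inftyDiv (n : ℤ) ∈ Divisor.degZero (K := ℂ) (F := FC N) := by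
  rw [Divisor.mem_degZero, map_sub, degree_ptsDiv, degree_inftyDiv, sub_self]

/-- the value of `A` at the cusp `∞` is `0`. -/
theorem Acusp_one (AJ : AJData N L) : AJ.Acusp 1 = 0 := by
  have h1 := AJ.Acusp_spec 1
  simp only [inv_one, one_smul] at h1
  exact tendsto_nhds_unique h1 (Theta1.tendsto_A_infty L)

/-- **Abel-Jacobi on point divisors**: `iota [∑ (P_i) - n·∞] = ∑ A(P_i)`. -/
theorem iota_ptsDiv (AJ : AJData N L) {n : ℕ} (P : Fin n → ℍ) :
    AJ.iota (Pic0.mk ⟨ptsDiv (N := N) P - inftyDiv (n : ℤ), ptsDiv_sub_mem P⟩)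
      = QuotientAddGroup.mk (∑ i, L.A (P i)) := by
  classical
  set m : ℍ →₀ ℤ := ∑ i, Finsupp.single (P i) (1 : ℤ) with hm
  set c : SL(2, ℤ) →₀ ℤ := Finsupp.single 1 (-(n : ℤ)) with hc
  have hdiv : pointDivisor N m + cuspDivisor N c = ptsDiv (N := N) P - inftyDiv (n : ℤ) := by
    unfold pointDivisor cuspDivisor ptsDiv inftyDiv
    rw [hm, hc, Finsupp.mapDomain_finsetSum, Finsupp.mapDomain_single, Finsupp.single_neg,
      sub_eq_add_neg]
    congr 1
    refine Finset.sum_congr rfl fun i _ => ?_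
    rw [Finsupp.mapDomain_single]
  have hmem : pointDivisor N m + cuspDivisor N c ∈ Divisor.degZero (K := ℂ) (F := FC N) := by
    rw [hdiv]; exact ptsDiv_sub_mem P
  have h1 := AJ.iota_mk m c hmem
  have hval : (m.sum fun z k => k • L.A z) + (c.sum fun δ k => k • AJ.Acusp δ)
      = ∑ i, L.A (P i) := by
    rw [hc, Finsupp.sum_single_index (by simp), Acusp_one, smul_zero, add_zero, hm,
      ← Finsupp.sum_finsetSum_index (h := fun z k => k • L.A z) (fun a => zero_smul _ _)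
        (fun a b₁ b₂ => add_smul _ _ _)]
    refine Finset.sum_congr rfl fun i _ => ?_
    rw [Finsupp.sum_single_index (h := fun z k => k • L.A z) (zero_smul _ _), one_smul]
  rw [hval] at h1
  rw [← h1]
  congr 2
  exact Subtype.ext hdiv.symm

/-! ### zeros of `F_e` and the divisor `Z e` -/

section RT

variable (RT : RTData N L AJ th0)

theorem Fe_ne_zero_of_apply {e : Fin g → ℂ} {τ : ℍ} (h : (RT.Fe e : ℍ → ℂ) τ ≠ 0) :
    RT.Fe e ≠ 0 := by
  intro h0
  apply h
  rw [h0]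
  rfl

/-- a zero of `F_e` at a point of `ℍ` is in the support of `Z e`. -/
theorem one_le_Z_pt {e : Fin g → ℂ} {τ : ℍ} (hne : RT.Fe e ≠ 0)
    (h0 : (RT.Fe e : ℍ → ℂ) τ = 0) : 1 ≤ RT.Z e (ptPlaceC N 1 τ) := by
  have hspec := (RT.Z_spec e hne).2.1 τ
  rw [ordMer_algebraMap τ hne] at hspec
  have h1 : ordH (RT.Fe e : ℍ → ℂ) τ ≠ 0 := fun h2 =>
    (Fermat.Agent.X0.ordH_eq_zero_iff (RT.Fe e).2 τ).mp h2 h0
  have h2 : ordH (RT.Fe e : ℍ → ℂ) τ ≠ ⊤ :=
    Fermat.Agent.X0.ordH_ne_top (RT.Fe e).2 (fun h3 => hne (Subtype.ext h3)) τ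
  have h3 : (ordH (RT.Fe e : ℍ → ℂ) τ).toNat ≠ 0 := by
    intro h4
    rcases (ENat.toNat_eq_zero).mp h4 with h5 | h5
    · exact h1 h5
    · exact h2 h5
  have h4 : (0 : ℤ) < ((ordH (RT.Fe e : ℍ → ℂ) τ).toNat : ℤ) := by
    exact_mod_cast Nat.pos_of_ne_zero h3
  rw [hspec] at h4
  have hidx : (0 : ℤ) < (ptIdx N 1 τ : ℤ) := by exact_mod_cast ptIdx_pos N 1 τ
  have := (mul_pos_iff_of_pos_right hidx).mp h4
  omega

end RT

/-- `∑ (Q_j) ≤ D` if the places `(Q_j)` are pairwise distinct and all lie in the support of the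
effective divisor `D`. -/
theorem ptsDiv_le_of_injective {n : ℕ} (Q : Fin n → ℍ)
    (hinj : Function.Injective fun j => ptPlaceC N 1 (Q j)) (D : Divisor ℂ (FC N)) (hD : 0 ≤ D)
    (h1 : ∀ j, 1 ≤ D (ptPlaceC N 1 (Q j))) : ptsDiv (N := N) Q ≤ D := by
  classical
  intro v
  unfold ptsDiv
  rw [Finsupp.finsetSum_apply]
  by_cases hv : ∃ j, ptPlaceC N 1 (Q j) = v
  · obtain ⟨j, rfl⟩ := hv
    rw [Finset.sum_eq_single j]
    · rw [Finsupp.single_eq_same]
      exact h1 j
    · intro i _ hij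
      rw [Finsupp.single_eq_of_ne]
      intro h
      exact hij (hinj h.symm)
    · intro h
      exact absurd (Finset.mem_univ j) h
  · rw [Finset.sum_eq_zero]
    · exact hD v
    · intro i _
      rw [Finsupp.single_eq_of_ne]
      intro h
      exact hv ⟨i, h.symm⟩

/-! ### the `s`-argument -/

/-- the function `f_n(P;Q) = th0 (z + ∑_i (A P_i - A Q_i))`. -/
def fS (L : LatData N g) (th0 : (Fin g → ℂ) → ℂ) (z : Fin g → ℂ) {n : ℕ} (P Q : Fin n → ℍ) : ℂ :=
  th0 (z + ∑ i, (L.A (P i) - L.A (Q i)))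

/-- **the core of the `s`-argument.** -/
theorem step (RT : RTData N L AJ th0) (z : Fin g → ℂ) {s : ℕ}
    (hs : ∀ P Q : Fin s → ℍ, fS L th0 z P Q = 0) (P Q : Fin (s + 1) → ℍ)
    (hne : fS L th0 z P Q ≠ 0) (hinj : Function.Injective fun j => ptPlaceC N 1 (Q j)) :
    ∃ (E : Divisor ℂ (FC N))
      (h : E - inftyDiv ((g : ℤ) - 1) ∈ Divisor.degZero (K := ℂ) (F := FC N)),
      0 ≤ E ∧ AJ.iota (Pic0.mk ⟨_, h⟩) = QuotientAddGroup.mk (RT.k - z) := by
  classical
  set P' : Fin s → ℍ := fun i => P i.castSucc with hP'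
  set Q' : Fin s → ℍ := fun i => Q i.castSucc with hQ'
  set Pl : ℍ := P (Fin.last s) with hPl
  set Ql : ℍ := Q (Fin.last s) with hQl
  set S : Fin g → ℂ := ∑ i, (L.A (P' i) - L.A (Q' i)) with hS
  set e : Fin g → ℂ := L.A Ql - z - S with he
  have hFe : ∀ τ : ℍ, (RT.Fe e : ℍ → ℂ) τ = th0 (z + S + (L.A τ - L.A Ql)) := by
    intro τ
    rw [RT.Fe_apply]
    congr 1
    rw [he]
    abel
  -- `F_e (P_s) ≠ 0`
  have hFePl : (RT.Fe e : ℍ → ℂ) Pl ≠ 0 := by
    rw [hFe]
    have : z + S + (L.A Pl - L.A Ql) = z + ∑ i, (L.A (P i) - L.A (Q i)) := by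
      rw [Fin.sum_univ_castSucc, add_assoc]
    rw [this]
    exact hne
  have hFene : RT.Fe e ≠ 0 := Fe_ne_zero_of_apply RT hFePl
  -- `F_e (Q_j) = 0` for all `j`
  have hFeQ : ∀ j : Fin (s + 1), (RT.Fe e : ℍ → ℂ) (Q j) = 0 := by
    intro j
    refine Fin.lastCases ?_ (fun j' => ?_) j
    · rw [hFe, sub_self, add_zero]
      exact hs P' Q'
    · rw [hFe]
      have h1 := hs P' (Function.update Q' j' Ql)
      unfold fS at h1
      have h2 : ∑ i, (L.A (P' i) - L.A (Function.update Q' j' Ql i))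
          = S + (L.A (Q j'.castSucc) - L.A Ql) := by
        rw [hS, ← sub_eq_iff_eq_add', ← Finset.sum_sub_distrib]
        rw [Finset.sum_eq_single j']
        · rw [Function.update_self]
          abel
        · intro i _ hij
          rw [Function.update_of_ne hij]
          abel
        · intro h
          exact absurd (Finset.mem_univ j') h
      rw [h2, ← add_assoc] at h1
      exact h1
  -- `∑ (Q_j) ≤ Z e`
  have hle : ptsDiv (N := N) Q ≤ RT.Z e :=
    ptsDiv_le_of_injective Q hinj (RT.Z e) (fun v => RT.Z_nonneg e v)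
      (fun j => one_le_Z_pt RT hFene (hFeQ j))
  set R : Divisor ℂ (FC N) := RT.Z e - ptsDiv (N := N) Q with hR
  have hR0 : 0 ≤ R := by
    intro v
    have := hle v
    simp only [hR, Finsupp.coe_sub, Pi.sub_apply, Finsupp.coe_zero, Pi.zero_apply]
    omega
  set E : Divisor ℂ (FC N) := ptsDiv (N := N) P' + R with hE
  have hE0 : 0 ≤ E := add_nonneg (ptsDiv_nonneg P') hR0
  have hdegZ := RT.Z_degree e hFene
  have hZmem : RT.Z e - Finsupp.single (cuspPlaceC N 1) (g : ℤ)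
      ∈ Divisor.degZero (K := ℂ) (F := FC N) := by
    rw [Divisor.mem_degZero, map_sub, hdegZ, degree_single (lHypC N), sub_self]
  have hEmem : E - inftyDiv ((g : ℤ) - 1) ∈ Divisor.degZero (K := ℂ) (F := FC N) := by
    rw [Divisor.mem_degZero, map_sub, hE, map_add, hR, map_sub, hdegZ, degree_ptsDiv,
      degree_ptsDiv, degree_inftyDiv]
    push_cast
    ring
  refine ⟨E, hEmem, hE0, ?_⟩
  -- decomposition in `degZero`
  have hdec : (⟨E - inftyDiv ((g : ℤ) - 1), hEmem⟩ : Divisor.degZero (K := ℂ) (F := FC N))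
      = ⟨RT.Z e - Finsupp.single (cuspPlaceC N 1) (g : ℤ), hZmem⟩
        - ⟨ptsDiv (N := N) Q - inftyDiv ((s + 1 : ℕ) : ℤ), ptsDiv_sub_mem Q⟩
        + ⟨ptsDiv (N := N) P' - inftyDiv (s : ℤ), ptsDiv_sub_mem P'⟩ := by
    apply Subtype.ext
    simp only [AddSubgroup.coe_add, AddSubgroup.coe_sub]
    rw [hE, hR]
    unfold inftyDiv
    have h1 : Finsupp.single (cuspPlaceC N 1) ((g : ℤ) - 1)
        = Finsupp.single (cuspPlaceC N 1) (g : ℤ)
          - Finsupp.single (cuspPlaceC N 1) (((s + 1 : ℕ) : ℤ))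
          + Finsupp.single (cuspPlaceC N 1) (s : ℤ) := by
      rw [← Finsupp.single_sub, ← Finsupp.single_add]
      congr 1
      push_cast
      ring
    rw [h1]
    abel
  rw [hdec]
  have hmk : ∀ a b c : Divisor.degZero (K := ℂ) (F := FC N),
      Pic0.mk (a - b + c) = Pic0.mk a - Pic0.mk b + Pic0.mk c := fun a b c => rfl
  rw [hmk, map_add, map_sub, RT.Z_sum e hFene hZmem, iota_ptsDiv AJ Q, iota_ptsDiv AJ P',
    ← QuotientAddGroup.mk_sub, ← QuotientAddGroup.mk_add]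
  congr 1
  rw [Fin.sum_univ_castSucc, he, hS, Finset.sum_sub_distrib]
  abel

/-! ### making the `Q_j` pairwise inequivalent -/

theorem continuous_snoc_left {n : ℕ} (c : ℍ) :
    Continuous fun Q' : Fin n → ℍ => (Fin.snoc Q' c : Fin (n + 1) → ℍ) := by
  refine continuous_pi fun i => ?_
  refine Fin.lastCases ?_ (fun i' => ?_) i
  · simp only [Fin.snoc_last]
    exact continuous_const
  · simp only [Fin.snoc_castSucc]
    exact continuous_apply i'

theorem continuous_snoc_right {n : ℕ} (Q' : Fin n → ℍ) :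
    Continuous fun c : ℍ => (Fin.snoc Q' c : Fin (n + 1) → ℍ) := by
  refine continuous_pi fun i => ?_
  refine Fin.lastCases ?_ (fun i' => ?_) i
  · simp only [Fin.snoc_last]
    exact continuous_id
  · simp only [Fin.snoc_castSucc]
    exact continuous_const

/-- a nonempty open subset of `ℍ` is not contained in a countable set. -/
theorem exists_mem_not_mem_of_countable {V : Set ℍ} (hV : IsOpen V) (hne : V.Nonempty)
    {B : Set ℍ} (hB : B.Countable) : ∃ τ ∈ V, τ ∉ B := by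
  have hopen : IsOpen (((↑) : ℍ → ℂ) '' V) :=
    UpperHalfPlane.isOpenEmbedding_coe.isOpenMap V hV
  have hne' : (((↑) : ℍ → ℂ) '' V).Nonempty := hne.image _
  have hcount : (((↑) : ℍ → ℂ) '' B).Countable := hB.image _
  have hdense : Dense (((↑) : ℍ → ℂ) '' B)ᶜ := hcount.dense_compl ℝ
  obtain ⟨w, hw1, hw2⟩ := hdense.inter_open_nonempty _ hopen hne'
  obtain ⟨τ, hτV, rfl⟩ := hw1
  refine ⟨τ, hτV, fun hτB => hw2 ⟨τ, hτB, rfl⟩⟩

/-- the set of points of `ℍ` giving the same place as one of finitely many points is countable. -/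
theorem countable_same_place {n : ℕ} (Q' : Fin n → ℍ) :
    {τ : ℍ | ∃ i, ptPlaceC N 1 τ = ptPlaceC N 1 (Q' i)}.Countable := by
  have hsub : {τ : ℍ | ∃ i, ptPlaceC N 1 τ = ptPlaceC N 1 (Q' i)}
      ⊆ ⋃ i : Fin n, Set.range fun γ : SL(2, ℤ) => γ • Q' i := by
    rintro τ ⟨i, hi⟩
    obtain ⟨γ, -, hγ⟩ := (Dict4.ptPlaceC_eq_iff N τ (Q' i)).mp hi
    refine Set.mem_iUnion.mpr ⟨i, γ⁻¹, ?_⟩
    show γ⁻¹ • Q' i = τ
    rw [← hγ, inv_smul_smul]
  have : Countable (Matrix (Fin 2) (Fin 2) ℤ) := inferInstanceAs (Countable (Fin 2 → Fin 2 → ℤ))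
  have : Countable SL(2, ℤ) := Subtype.countable
  exact (Set.countable_iUnion fun i => Set.countable_range _).mono hsub

/-- **every nonempty open set of tuples contains a tuple with pairwise distinct places.** -/
theorem exists_injective_of_isOpen : ∀ (n : ℕ) (U : Set (Fin n → ℍ)), IsOpen U → U.Nonempty →
    ∃ Q ∈ U, Function.Injective fun j => ptPlaceC N 1 (Q j) := by
  intro n
  induction n with
  | zero =>
    intro U _ hne
    obtain ⟨Q, hQ⟩ := hne
    exact ⟨Q, hQ, fun i => i.elim0⟩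
  | succ n ih =>
    intro U hU hne
    obtain ⟨Q0, hQ0⟩ := hne
    -- first `n` coordinates
    obtain ⟨Q', hQ'U, hQ'inj⟩ := ih {Q' : Fin n → ℍ | (Fin.snoc Q' (Q0 (Fin.last n)) : Fin (n + 1) → ℍ) ∈ U}
      (hU.preimage (continuous_snoc_left (Q0 (Fin.last n))))
      ⟨Fin.init Q0, by
        show (Fin.snoc (Fin.init Q0) (Q0 (Fin.last n)) : Fin (n + 1) → ℍ) ∈ U
        rw [Fin.snoc_init_self]; exact hQ0⟩
    -- last coordinate
    obtain ⟨τ, hτV, hτB⟩ := exists_mem_not_mem_of_countable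
      (V := {c : ℍ | (Fin.snoc Q' c : Fin (n + 1) → ℍ) ∈ U})
      (hU.preimage (continuous_snoc_right Q')) ⟨Q0 (Fin.last n), hQ'U⟩
      (countable_same_place (N := N) Q')
    refine ⟨Fin.snoc Q' τ, hτV, ?_⟩
    intro i j hij
    simp only at hij
    induction i using Fin.lastCases with
    | last =>
      induction j using Fin.lastCases with
      | last => rfl
      | cast j' =>
        rw [Fin.snoc_last, Fin.snoc_castSucc] at hij
        exact absurd ⟨j', hij⟩ hτB
    | cast i' =>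
      induction j using Fin.lastCases with
      | last =>
        rw [Fin.snoc_last, Fin.snoc_castSucc] at hij
        exact absurd ⟨i', hij.symm⟩ hτB
      | cast j' =>
        rw [Fin.snoc_castSucc, Fin.snoc_castSucc] at hij
        rw [hQ'inj hij]

/-! ### Riemann's vanishing theorem -/

theorem continuous_A (L : LatData N g) : Continuous L.A :=
  continuous_pi fun k => (Theta1.mdiff_A_coord L k).continuous

theorem continuous_fS (L : LatData N g) (hcont : Continuous th0) (z : Fin g → ℂ) {n : ℕ}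
    (P : Fin n → ℍ) : Continuous fun Q : Fin n → ℍ => fS L th0 z P Q := by
  unfold fS
  refine hcont.comp (continuous_const.add ?_)
  refine continuous_finsetSum _ fun i _ => ?_
  exact continuous_const.sub ((continuous_A L).comp (continuous_apply i))

/-- **(RVT)** with `k - z`. -/
theorem rvt_sub (RT : RTData N L AJ th0) (hcont : Continuous th0) (z : Fin g → ℂ)
    (hz : th0 z = 0) (hopen : ∃ P Q : Fin g → ℍ, fS L th0 z P Q ≠ 0) :
    ∃ (E : Divisor ℂ (FC N))
      (h : E - inftyDiv ((g : ℤ) - 1) ∈ Divisor.degZero (K := ℂ) (F := FC N)),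
      0 ≤ E ∧ AJ.iota (Pic0.mk ⟨_, h⟩) = QuotientAddGroup.mk (RT.k - z) := by
  classical
  have hex : ∃ n : ℕ, ∃ P Q : Fin n → ℍ, fS L th0 z P Q ≠ 0 := ⟨g, hopen⟩
  have hmin : ∀ m : ℕ, m < Nat.find hex → ¬ ∃ P Q : Fin m → ℍ, fS L th0 z P Q ≠ 0 :=
    fun m hm => Nat.find_min hex hm
  obtain ⟨P, Q0, hPQ⟩ := Nat.find_spec hex
  have hn0 : Nat.find hex ≠ 0 := by
    intro h0
    have h1 := Nat.find_spec hex
    rw [h0] at h1
    obtain ⟨P0, Q00, h2⟩ := h1
    apply h2
    unfold fS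
    rw [Finset.univ_eq_empty, Finset.sum_empty, add_zero]
    exact hz
  obtain ⟨s, hs⟩ := Nat.exists_eq_succ_of_ne_zero hn0
  have hsz : ∀ P Q : Fin s → ℍ, fS L th0 z P Q = 0 := by
    intro P1 Q1
    by_contra hne
    exact hmin s (by omega) ⟨P1, Q1, hne⟩
  -- transport along `Nat.find hex = s + 1`
  revert P Q0
  rw [hs]
  intro P Q0 hPQ
  obtain ⟨Q, hQU, hQinj⟩ := exists_injective_of_isOpen (N := N) (s + 1)
    {Q : Fin (s + 1) → ℍ | fS L th0 z P Q ≠ 0}
    ((continuous_fS L hcont z P).isOpen_preimage _ isOpen_compl_singleton) ⟨Q0, hPQ⟩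
  exact step RT z hsz P Q hQU hQinj

/-- **(RVT), Riemann's vanishing theorem**: `th0 z = 0 ⇒ z + k ∈ W_{g-1}`.  `(OPEN)` (the function
`f_g` is not identically zero) is a hypothesis here. -/
theorem rvt (RT : RTData N L AJ th0) (hcont : Continuous th0) (heven : ∀ z, th0 (-z) = th0 z)
    (hopen : ∀ z : Fin g → ℂ, ∃ P Q : Fin g → ℍ, th0 (z + ∑ i, (L.A (P i) - L.A (Q i))) ≠ 0)
    (z : Fin g → ℂ) (hz : th0 z = 0) :
    ∃ (E : Divisor ℂ (FC N))
      (h : E - Finsupp.single (cuspPlaceC N 1) ((g : ℤ) - 1)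
        ∈ Divisor.degZero (K := ℂ) (F := FC N)),
      0 ≤ E ∧ AJ.iota (Pic0.mk ⟨_, h⟩) = QuotientAddGroup.mk (z + RT.k) := by
  have h1 := rvt_sub RT hcont (-z) (by rw [heven]; exact hz) (hopen (-z))
  obtain ⟨E, h, hE, hι⟩ := h1
  refine ⟨E, h, hE, ?_⟩
  have h2 : RT.k - -z = z + RT.k := by abel
  rw [h2] at hι
  exact hι

end

end Fermat.Agent.M17.RiemannVanishing2
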