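/-
Programme M17 (target S17), block [RT]/[ALG], leaf (KAPPA) (helper2): **twice Riemann's constant is
the class of the canonical divisor, hence `ℚ̄`-rational**:

  `∃ y : JZero N, AJ.iota (extPic0C N y) = mk (2 • RT.k)`,   `y = [W_ℚ̄ - (2g-2) w_∞]`,

against `Interfaces7.RTData`, with `(OPEN)` and helper5's `(a)` (`th0 (∑_{i<g-1} A(Q_i) - k) = 0`) as
hypotheses.

Proof.  For `Q : Fin (g-1) → ℍ`, `(a)` + `(RVT)` (`RiemannVanishing2.rvt_sub`) give `E_Q ≥ 0` with
`iota [E_Q - (g-1)∞] = 2k - ∑ A(Q_i)`, so `D_Q := E_Q + ∑ (Q_i)` is effective of degree `2g - 2` with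
`iota [D_Q - (2g-2)∞] = 2k`.  Fix `κ' := D_{Q⁰}`; by injectivity of `iota` all `D_Q` are linearly
equivalent to `κ'`, hence `L(κ' - ∑ (Q_i)) ≠ 0` for ALL `Q`; so `l(κ') ≥ g` (else `g - 1` generic
points kill `L(κ')`), Riemann-Roch gives `l(W - κ') ≥ 1` and `deg (W - κ') = 0`: `κ' ∼ W`.  Finally
the canonical divisor `div (dj)` of `F_ℂ` is the extension of the one of `F_ℚ̄` (`j` is unramified
at the non-extended places: `GenusComplex2`), and `∞ = extPlaceC w_∞`.
-/
import Mathlib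
import Fermat.Agent.M17.RiemannVanishing2
import Fermat.Agent.M17.GenusComplex2
import Fermat.Agent.M17.GenericRR2

set_option autoImplicit false
set_option linter.unusedSectionVars false
set_option linter.unusedVariables false
set_option linter.style.longLine false

namespace Fermat.Agent.M17.KappaCanonical2

open ModularCurve AlgebraicCurve UpperHalfPlane CongruenceSubgroup Filter Topology Module
open KaehlerDifferential
open Fermat.Agent.X0 Fermat.Agent.X0.FF Fermat.Agent.X0.SurjPoint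
open Fermat.Agent.ES.KUM Fermat.Agent.ES.KUM.CCusp16 Fermat.Agent.ES.KUM.FieldL25
open Fermat.Agent.RR.LSpace Fermat.Agent.RR.Final
open Fermat.Agent.J.DESC.ConstExt24 Fermat.Agent.J.DESC.ExtPic22
open Fermat.Agent.J.DESC.DescentFinal24
open Fermat.Agent.M17.Interfaces7 Fermat.Agent.M17.AlgGlue7
open Fermat.Agent.M17.RiemannVanishing2 Fermat.Agent.M17.GenusComplex2
open Fermat.Agent.M17.GenericRR2
open scoped MatrixGroups

noncomputable section

attribute [local instance] instAlgebraQbarComplex instTowerQbarComplex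

variable (N : ℕ) [NeZero N]

/-! ### the canonical divisor `div (dj)` descends -/

/-- the Riemann-Roch data of `F_ℂ`. -/
def XC : RRData ℂ (FCx N) := Fermat.Agent.M15.ThirdKind0.rrDataGen (isGen_jL ℂ N)

/-- the Riemann-Roch data of `F_ℚ̄`. -/
def XQ : RRData Qb (FQ N) := Fermat.Agent.M15.ThirdKind0.rrDataGen (isGen_jL Qb N)

/-- `div (dj)` on `F_ℂ`. -/
def canC : Divisor ℂ (FCx N) := canDiv (XC N) (D_ne_zero (isGen_jL ℂ N))

/-- `div (dj)` on `F_ℚ̄`. -/
def canQ : Divisor Qb (FQ N) := canDiv (XQ N) (D_ne_zero (isGen_jL Qb N))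

theorem canC_apply (v : Place ℂ (FCx N)) :
    canC N v = v.ordDifferential (D ℂ (FCx N) (jL ℂ N)) := rfl

theorem canQ_apply (w : Place Qb (FQ N)) :
    canQ N w = w.ordDifferential (D Qb (FQ N) (jL Qb N)) := rfl

/-- at an extended place the orders of `dj` agree. -/
theorem ordDifferential_extPlaceC (w : Place Qb (FQ N)) :
    (extPlaceC N w).ordDifferential (D ℂ (FCx N) (jL ℂ N))
      = w.ordDifferential (D Qb (FQ N) (jL Qb N)) := by
  have HC := FFGenus.genusHyp (isGen_jL ℂ N)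
  have HQ := FFGenus.genusHyp (isGen_jL Qb N)
  by_cases hpole : w.ord (jL Qb N) < 0
  · have hpoleC : (extPlaceC N w).ord (jL ℂ N) < 0 := by
      rw [← bcQC_jL, ord_extPlaceC]; exact hpole
    rw [HC.ordDifferential_dx_of_pole hpoleC, HQ.ordDifferential_dx_of_pole hpole,
      ← bcQC_jL, ord_extPlaceC]
  · have hreg : 0 ≤ w.ord (jL Qb N) := not_lt.mp hpole
    obtain ⟨c₀, hc₀ | hc₀⟩ := exists_ord_sub_pos (isGen_jL Qb N) w
      (ffp_mem_of_ord_nonneg w hreg)
    · exact absurd (sub_eq_zero.mpr hc₀) (jQ_sub_ne_zero N c₀)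
    · have h3 : 0 < (extPlaceC N w).ord (jL ℂ N - algebraMap ℂ (FCx N) (algebraMap Qb ℂ c₀)) := by
        rw [← bcQC_j_sub, ord_extPlaceC]; exact hc₀
      rw [HC.ordDifferential_dx_of_zero h3, HQ.ordDifferential_dx_of_zero hc₀,
        ← bcQC_j_sub, ord_extPlaceC]

/-- at a non-extended place `dj` has neither zero nor pole. -/
theorem ordDifferential_of_notMem_range (v : Place ℂ (FCx N))
    (hv : v ∉ Set.range (extPlaceC N)) :
    v.ordDifferential (D ℂ (FCx N) (jL ℂ N)) = 0 := by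
  have HC := FFGenus.genusHyp (isGen_jL ℂ N)
  have hreg : 0 ≤ v.ord (jL ℂ N) := by
    by_contra h
    exact hv (mem_range_extPlaceC_of_pole N v (not_le.mp h))
  obtain ⟨c, hc | hc⟩ := exists_ord_sub_pos (isGen_jL ℂ N) v (ffp_mem_of_ord_nonneg v hreg)
  · exact absurd (sub_eq_zero.mpr hc) (jC_sub_ne_zero N c)
  · have hc' : 0 < v.ord (jL ℂ N - algebraMap ℂ (FCx N) c) := hc
    rw [HC.ordDifferential_dx_of_zero hc']
    have h2 : ¬ 2 ≤ v.ord (jL ℂ N - algebraMap ℂ (FCx N) c) :=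
      fun h => hv (mem_range_extPlaceC_of_two_le N c v h)
    show v.ord (jL ℂ N - algebraMap ℂ (FCx N) c) - 1 = 0
    omega

/-- **the canonical divisor of `F_ℂ` is the extension of the canonical divisor of `F_ℚ̄`.** -/
theorem canC_eq : canC N = extDivC N (canQ N) := by
  ext v
  by_cases hv : v ∈ Set.range (extPlaceC N)
  · obtain ⟨w, rfl⟩ := hv
    rw [extDivC_apply_extPlaceC, canC_apply, canQ_apply, ordDifferential_extPlaceC]
  · rw [canC_apply, ordDifferential_of_notMem_range N v hv]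
    exact (extDiv_apply_of_notMem_range (isConstExt_bcQC N) (isGen_jL ℂ N) (canQ N) hv).symm

/-- the cusp `∞` of `F_ℂ` is an extended place. -/
theorem cusp_one_mem_range : cuspPlaceC N 1 ∈ Set.range (extPlaceC N) := by
  refine mem_range_extPlaceC_of_pole N (cuspPlaceC N 1) ?_
  have h := cuspPlaceC_ord_jC_neg N 1
  rwa [Fermat.Agent.ES.KUM.CCusp16.jC_eq_jL] at h

/-! ### generic points kill `L(D)` -/

variable {N}

/-- the points of `ℍ` lying over a finite set of places form a countable set. -/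
theorem countable_preimage_finite {S : Set (Place ℂ (FC N))} (hS : S.Finite) :
    {τ : ℍ | ptPlaceC N 1 τ ∈ S}.Countable := by
  have hsub : {τ : ℍ | ptPlaceC N 1 τ ∈ S} ⊆ ⋃ v ∈ S, {τ : ℍ | ptPlaceC N 1 τ = v} := by
    intro τ hτ
    exact Set.mem_biUnion hτ rfl
  refine (Set.Countable.biUnion hS.countable fun v _ => ?_).mono hsub
  rcases Set.eq_empty_or_nonempty {τ : ℍ | ptPlaceC N 1 τ = v} with h0 | ⟨τ0, hτ0⟩
  · rw [h0]; exact Set.countable_empty
  · refine (countable_same_place (N := N) (fun _ : Fin 1 => τ0)).mono ?_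
    intro τ hτ
    exact ⟨0, (hτ : ptPlaceC N 1 τ = v).trans (hτ0 : ptPlaceC N 1 τ0 = v).symm⟩

theorem ptsDiv_cons {n : ℕ} (τ : ℍ) (Q : Fin n → ℍ) :
    ptsDiv (N := N) (Fin.cons τ Q : Fin (n + 1) → ℍ)
      = Finsupp.single (ptPlaceC N 1 τ) (1 : ℤ) + ptsDiv (N := N) Q := by
  unfold ptsDiv
  rw [Fin.sum_univ_succ]
  simp only [Fin.cons_zero, Fin.cons_succ]

/-- **if `l(D) ≤ n`, then `n` suitable points of `ℍ` kill `L(D)`.** -/
theorem exists_pts_L_eq_bot : ∀ (n : ℕ) (D : Divisor ℂ (FC N)),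
    finrank ℂ (riemannRochSpace D) ≤ n →
    ∃ Q : Fin n → ℍ, riemannRochSpace (D - ptsDiv (N := N) Q) = ⊥ := by
  intro n
  induction n with
  | zero =>
    intro D hD
    refine ⟨fun i => i.elim0, ?_⟩
    have h1 : ptsDiv (N := N) (fun i : Fin 0 => i.elim0) = 0 := by
      unfold ptsDiv
      rw [Finset.univ_eq_empty, Finset.sum_empty]
    rw [h1, sub_zero]
    have : FiniteDimensional ℂ (riemannRochSpace D) := finiteDimensional_L (lHypC N) D
    exact Submodule.finrank_eq_zero.mp (Nat.le_zero.mp hD)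
  | succ n ih =>
    intro D hD
    by_cases hbot : riemannRochSpace D = ⊥
    · refine ⟨fun _ => UpperHalfPlane.I, ?_⟩
      rw [eq_bot_iff, ← hbot]
      refine L_mono ?_
      have h1 := ptsDiv_nonneg (N := N) (fun _ : Fin (n + 1) => UpperHalfPlane.I)
      exact sub_le_self D h1
    · obtain ⟨f, hfD, hf0⟩ := (Submodule.ne_bot_iff _).mp hbot
      -- the finite set of places where `div f + D ≠ 0`
      have hfin : {v : Place ℂ (FC N) | v.ord f + D v ≠ 0}.Finite := by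
        refine ((divOf (lHypC N) hf0 + D).support.finite_toSet).subset ?_
        intro v hv
        rw [Finset.mem_coe, Finsupp.mem_support_iff, Finsupp.add_apply, divOf_apply]
        exact hv
      obtain ⟨τ, -, hτ⟩ := exists_mem_not_mem_of_countable (V := Set.univ) isOpen_univ
        ⟨UpperHalfPlane.I, trivial⟩ (countable_preimage_finite hfin)
      have hτ0 : (ptPlaceC N 1 τ).ord f + D (ptPlaceC N 1 τ) = 0 := by
        by_contra hne
        exact hτ hne
      have hnot := not_mem_L_sub_single D hf0 (ptPlaceC N 1 τ) hτ0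
      have hrank := finrank_L_sub_single (lHypC N) D (ptPlaceC N 1 τ) hfD hnot
      obtain ⟨Q', hQ'⟩ := ih (D - Finsupp.single (ptPlaceC N 1 τ) 1)
        (Nat.le_of_succ_le_succ (hrank.trans_le hD))
      refine ⟨Fin.cons τ Q', ?_⟩
      rw [ptsDiv_cons, ← sub_sub]
      exact hQ'

/-! ### `2k` is the canonical class -/

section RT

variable {g : ℕ} {L : LatData N g} {AJ : AJData N L} {th0 : (Fin g → ℂ) → ℂ}

theorem inftyDiv_add (m n : ℤ) :
    inftyDiv (N := N) m + inftyDiv (N := N) n = inftyDiv (N := N) (m + n) :=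
  (Finsupp.single_add _ _ _).symm

/-- **(K1)** for every `Q : Fin (g-1) → ℍ` there is an effective `E` of degree `g - 1` with
`iota [E + ∑ (Q_i) - (2g-2)∞] = 2k`. -/
theorem exists_effective_two_k (RT : RTData N L AJ th0) (hcont : Continuous th0)
    (hopen : ∀ z : Fin g → ℂ, ∃ P Q : Fin g → ℍ, th0 (z + ∑ i, (L.A (P i) - L.A (Q i))) ≠ 0)
    (ha : ∀ Q : Fin (g - 1) → ℍ, th0 (∑ i, L.A (Q i) - RT.k) = 0) (hg : 0 < g)
    (Q : Fin (g - 1) → ℍ) :
    ∃ (E : Divisor ℂ (FC N))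
      (h : E + ptsDiv (N := N) Q - inftyDiv (2 * (g : ℤ) - 2)
        ∈ Divisor.degZero (K := ℂ) (F := FC N)),
      0 ≤ E ∧ AJ.iota (Pic0.mk ⟨_, h⟩) = QuotientAddGroup.mk ((2 : ℂ) • RT.k) := by
  obtain ⟨E, h1, hE, hι⟩ := rvt_sub RT hcont (∑ i, L.A (Q i) - RT.k) (ha Q) (hopen _)
  have h2 := iota_ptsDiv AJ Q
  have hcast : (((g - 1 : ℕ)) : ℤ) = (g : ℤ) - 1 := by omega
  have hdiv : E + ptsDiv (N := N) Q - inftyDiv (2 * (g : ℤ) - 2)
      = (E - inftyDiv ((g : ℤ) - 1)) + (ptsDiv (N := N) Q - inftyDiv (((g - 1 : ℕ)) : ℤ)) := by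
    rw [hcast]
    have h3 : inftyDiv (N := N) (2 * (g : ℤ) - 2)
        = inftyDiv (N := N) ((g : ℤ) - 1) + inftyDiv (N := N) ((g : ℤ) - 1) := by
      rw [inftyDiv_add]; congr 1; ring
    rw [h3]; abel
  have hmem : E + ptsDiv (N := N) Q - inftyDiv (2 * (g : ℤ) - 2)
      ∈ Divisor.degZero (K := ℂ) (F := FC N) := by
    rw [hdiv]
    exact add_mem h1 (ptsDiv_sub_mem Q)
  refine ⟨E, hmem, hE, ?_⟩
  have heq : (⟨_, hmem⟩ : Divisor.degZero (K := ℂ) (F := FC N))
      = ⟨_, h1⟩ + ⟨_, ptsDiv_sub_mem Q⟩ := Subtype.ext hdiv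
  rw [heq, Pic0.mk_add, map_add, hι, h2, ← QuotientAddGroup.mk_add]
  congr 1
  rw [two_smul]
  abel

/-- the genus of `F_ℂ` is `g`. -/
theorem genusFF_eq (L : LatData N g) : genusFF ℂ (FCx N) = g := by
  rw [genusFF_complex N, Module.finrank_eq_card_basis L.w, Fintype.card_fin]

/-- **(K2)-(K4)**: `iota [W - (2g-2)∞] = 2k`, `W = div (dj)`. -/
theorem iota_canonical (RT : RTData N L AJ th0) (hcont : Continuous th0)
    (hopen : ∀ z : Fin g → ℂ, ∃ P Q : Fin g → ℍ, th0 (z + ∑ i, (L.A (P i) - L.A (Q i))) ≠ 0)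
    (ha : ∀ Q : Fin (g - 1) → ℍ, th0 (∑ i, L.A (Q i) - RT.k) = 0) (hg : 0 < g) :
    ∃ (h : canC N - inftyDiv (N := N) (2 * (g : ℤ) - 2)
        ∈ Divisor.degZero (K := ℂ) (F := FC N)),
      AJ.iota (Pic0.mk ⟨_, h⟩) = QuotientAddGroup.mk ((2 : ℂ) • RT.k) := by
  classical
  have H := lHypC N
  -- the base divisor `κ`
  obtain ⟨E0, h0, hE0, hι0⟩ := exists_effective_two_k RT hcont hopen ha hg
    (fun _ => UpperHalfPlane.I)
  set κ : Divisor ℂ (FC N) := E0 + ptsDiv (N := N) (fun _ : Fin (g - 1) => UpperHalfPlane.I)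
    with hκ
  have hdegκ : Divisor.degree κ = 2 * (g : ℤ) - 2 := by
    have := Divisor.mem_degZero.mp h0
    rw [map_sub, degree_inftyDiv] at this
    linarith
  -- (K2)
  have hK2 : ∀ Q : Fin (g - 1) → ℍ, riemannRochSpace (κ - ptsDiv (N := N) Q) ≠ ⊥ := by
    intro Q
    obtain ⟨E, h, hE, hι⟩ := exists_effective_two_k RT hcont hopen ha hg Q
    have h1 : Pic0.mk (⟨_, h0⟩ : Divisor.degZero (K := ℂ) (F := FC N)) = Pic0.mk ⟨_, h⟩ :=
      AJ.iota_injective (hι0.trans hι.symm)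
    have h2 := QuotientAddGroup.eq.mp h1
    rw [AddSubgroup.mem_addSubgroupOf] at h2
    obtain ⟨f, hf0, hf⟩ := h2
    rw [Submodule.ne_bot_iff]
    refine ⟨f, (mem_L_iff hf0).mpr fun v => ?_, hf0⟩
    have h3 := hf v
    simp only [AddSubgroup.coe_add, AddSubgroup.coe_neg, Finsupp.add_apply, Finsupp.neg_apply,
      Finsupp.sub_apply] at h3
    rw [← h3, Finsupp.sub_apply]
    have h4 : (0 : ℤ) ≤ E v := hE v
    linarith
  -- (K3)
  have hK3 : g ≤ finrank ℂ (riemannRochSpace κ) := by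
    by_contra hlt
    obtain ⟨Q, hQ⟩ := exists_pts_L_eq_bot (N := N) (g - 1) κ (by omega)
    exact hK2 Q hQ
  -- (K4) Riemann-Roch
  have hRR := riemann_roch (XC N) (D_ne_zero (isGen_jL ℂ N)) (canC_apply N) κ
  have hdegW := Fermat.Agent.RR.Final.degree_canonical (XC N) (D_ne_zero (isGen_jL ℂ N))
    (canC_apply N)
  rw [genusFF_eq L] at hRR hdegW
  have hpos : 0 < finrank ℂ (riemannRochSpace (canC N - κ)) := by
    have h5 : (g : ℤ) ≤ finrank ℂ (riemannRochSpace κ) := by exact_mod_cast hK3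
    have h6 : (0 : ℤ) < finrank ℂ (riemannRochSpace (canC N - κ)) := by
      rw [hdegκ] at hRR
      linarith
    exact_mod_cast h6
  have hne : riemannRochSpace (canC N - κ) ≠ ⊥ := by
    intro hb
    rw [hb, finrank_bot] at hpos
    exact lt_irrefl _ hpos
  obtain ⟨f, hfW, hf0⟩ := (Submodule.ne_bot_iff _).mp hne
  have hZ0 : divOf H hf0 + (canC N - κ) = 0 := by
    refine eq_zero_of_degree_eq_zero H (fun v => ?_) ?_
    · have := (mem_L_iff hf0).mp hfW v
      rw [Finsupp.add_apply, divOf_apply]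
      simp only [Finsupp.coe_zero, Pi.zero_apply]
      linarith
    · rw [map_add, map_sub, degree_divOf, hdegW, hdegκ]
      ring
  have hmem : canC N - inftyDiv (N := N) (2 * (g : ℤ) - 2)
      ∈ Divisor.degZero (K := ℂ) (F := FC N) := by
    rw [Divisor.mem_degZero, map_sub, degree_inftyDiv, hdegW, sub_self]
  refine ⟨hmem, ?_⟩
  rw [← hι0]
  congr 1
  refine QuotientAddGroup.eq.mpr ?_
  rw [AddSubgroup.mem_addSubgroupOf]
  refine ⟨f, hf0, fun v => ?_⟩
  have h7 := congrArg (fun D : Divisor ℂ (FC N) => D v) hZ0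
  simp only [Finsupp.add_apply, Finsupp.sub_apply, divOf_apply, Finsupp.coe_zero,
    Pi.zero_apply] at h7
  rw [hκ, Finsupp.add_apply] at h7
  simp only [AddSubgroup.coe_add, AddSubgroup.coe_neg, Finsupp.add_apply, Finsupp.neg_apply,
    Finsupp.sub_apply]
  linarith

theorem extDivC_single (w : Place Qb (FQ N)) (n : ℤ) :
    extDivC N (Finsupp.single w n) = Finsupp.single (extPlaceC N w) n :=
  extDiv_single (isConstExt_bcQC N) (isGen_jL ℂ N) w n

/-- the degree of the canonical divisor of `F_ℚ̄`. -/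
theorem degree_canQ (L : LatData N g) : Divisor.degree (canQ N) = 2 * (g : ℤ) - 2 := by
  rw [← degree_extDivC, ← canC_eq,
    Fermat.Agent.RR.Final.degree_canonical (XC N) (D_ne_zero (isGen_jL ℂ N)) (canC_apply N),
    genusFF_eq L]

/-- **(KAPPA)**: `2k` is `ℚ̄`-rational: it is the image of the class `[W_ℚ̄ - (2g-2) w_∞]` of
`J₀(N)(ℚ̄)`. -/
theorem two_k_rational (RT : RTData N L AJ th0) (hcont : Continuous th0)
    (hopen : ∀ z : Fin g → ℂ, ∃ P Q : Fin g → ℍ, th0 (z + ∑ i, (L.A (P i) - L.A (Q i))) ≠ 0)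
    (ha : ∀ Q : Fin (g - 1) → ℍ, th0 (∑ i, L.A (Q i) - RT.k) = 0) :
    ∃ y : JZero N, AJ.iota (extPic0C N y) = QuotientAddGroup.mk ((2 : ℂ) • RT.k) := by
  rcases Nat.eq_zero_or_pos g with hg0 | hg
  · subst hg0
    have : Subsingleton ((Fin 0 → ℂ) ⧸ L.lattice) :=
      (QuotientAddGroup.mk_surjective (s := L.lattice)).subsingleton
    exact ⟨0, Subsingleton.elim _ _⟩
  obtain ⟨w, hw⟩ := cusp_one_mem_range N
  obtain ⟨hmem, hι⟩ := iota_canonical RT hcont hopen ha hg
  have hmemQ : canQ N - Finsupp.single w (2 * (g : ℤ) - 2)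
      ∈ Divisor.degZero (K := Qb) (F := FQ N) := by
    rw [Divisor.mem_degZero, map_sub, degree_canQ L, degree_single (lHypQ N), sub_self]
  refine ⟨Pic0.mk ⟨_, hmemQ⟩, ?_⟩
  rw [← hι]
  congr 1
  show extPic0C N (Pic0.mk ⟨_, hmemQ⟩) = _
  rw [extPic0C_mk]
  congr 1
  apply Subtype.ext
  rw [coe_extDegZeroC]
  show extDivC N (canQ N - Finsupp.single w (2 * (g : ℤ) - 2))
    = canC N - inftyDiv (N := N) (2 * (g : ℤ) - 2)
  rw [map_sub, ← canC_eq, extDivC_single, hw]
  rfl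

end RT

end

end Fermat.Agent.M17.KappaCanonical2
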