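/-
Programme M17 (target S17), block [ALG] (helper2): **the cusp `∞` is rational and Galois-fixed**:
the place `pInf N` (`q = 0`) of `F_ℚ̄` (`U44/DescInst1`, fixed by the arithmetic Galois action:
`DescInst1.gal_smul_pInf`) extends to the cusp place `cuspPlaceC N 1` of `F_ℂ`:

  `extPlaceC N (pInf N) = cuspPlaceC N 1`.

This is the `wInf` of (CH-1).
-/
import Mathlib
import Fermat.Agent.U44.DescInst1
import Fermat.Agent.RED.CUSP.CuspExact16
import Fermat.Agent.M17.KappaCanonical2

set_option autoImplicit false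
set_option linter.unusedSectionVars false
set_option linter.unusedVariables false
set_option linter.style.longLine false

namespace Fermat.Agent.M17.CuspInfty2

open ModularCurve AlgebraicCurve
open Fermat.Agent.X0 Fermat.Agent.X0.FF
open Fermat.Agent.ES.KUM Fermat.Agent.ES.KUM.CCusp16
open Fermat.Agent.J.DESC.DescentFinal24
open Fermat.Agent.U44.DescInst1
open scoped MatrixGroups

noncomputable section

attribute [local instance] instAlgebraQbarComplex instTowerQbarComplex

variable (N : ℕ) [NeZero N]

/-- the `q_N`-order at `∞` of the base change of `f : F_ℚ̄` is `N` times the `q`-order of `f`. -/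
theorem order_cuspEmbC_one_bcQC (f : FQ N) :
    (cuspEmbC N 1 (bcQC N f)).order = (N : ℤ) * ((f : FQ N) : LaurentSeries Qb).order := by
  rw [cuspEmbC_one, Fermat.Agent.RED.CUSP.CuspExact16.order_qExpand, coe_bcQC,
    Fermat.Agent.ES.P36.DescTools1.order_coeffMap]

/-- **the rational cusp `∞`**: the place `q = 0` of `F_ℚ̄` extends to `cuspPlaceC N 1`. -/
theorem extPlaceC_pInf : extPlaceC N (pInf N) = cuspPlaceC N 1 := by
  obtain ⟨w, hw⟩ := KappaCanonical2.cusp_one_mem_range N
  suffices h : w = pInf N by rw [← h, hw]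
  apply Place.ext
  ext f
  rcases eq_or_ne f 0 with rfl | hf
  · simp only [zero_mem]
  rw [ffp_mem_iff_ord_nonneg, mem_pInf_iff N hf]
  have h1 : w.ord f = (cuspPlaceC N 1).ord (bcQC N f) := by rw [← hw, ord_extPlaceC]
  have h2 := order_cuspEmbC N 1 (bcQC_ne_zero N hf)
  rw [inv_one, order_cuspEmbC_one_bcQC, ← h1] at h2
  have hN : (0 : ℤ) < N := by exact_mod_cast Nat.pos_of_ne_zero (NeZero.ne N)
  have hm : (0 : ℤ) < cuspIdx N 1 := by exact_mod_cast cuspIdx_pos N 1
  constructor
  · intro h0
    by_contra hneg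
    have : ((f : FQ N) : LaurentSeries Qb).order < 0 := not_le.mp hneg
    nlinarith
  · intro h0
    by_contra hneg
    have : w.ord f < 0 := not_le.mp hneg
    nlinarith

/-- the rational cusp `∞` is fixed by the arithmetic Galois action. -/
theorem arithmeticGalois_smul_pInf (σ : Qb ≃ₐ[ℚ] Qb) :
    arithmeticGalois (modularFunctionFieldFull N) σ • pInf N = pInf N :=
  gal_smul_pInf N σ

/-- `wInf` of (CH-1), packaged. -/
theorem exists_wInf : ∃ wInf : Place Qb (FQ N), extPlaceC N wInf = cuspPlaceC N 1 ∧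
    ∀ σ : Qb ≃ₐ[ℚ] Qb, arithmeticGalois (modularFunctionFieldFull N) σ • wInf = wInf :=
  ⟨pInf N, extPlaceC_pInf N, arithmeticGalois_smul_pInf N⟩

end

end Fermat.Agent.M17.CuspInfty2
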