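/-
Programme M17 (target S17), block [ALG], leaf (CH-2) (helper2; literal target by helper7, board
1193): **the edge step of the chaining theorem, with its Galois conjugates** =
`ChainTop7.EdgeStep N th0 lift T i0 K1`.

Along an edge `y → y' = y + [a - b]` (`a b` point places over `P Q ∈ ℍ`) inside the good set `V`,
the node values `R x i = ψ_{T i}(lift x) / ψ_{T i0}(lift x)` are multiplied by the `ℚ̄`-rational
factors `α i = r_i(a) / r_i(b)`, where `div r_i = ∑_{t ∈ T i} D t - ∑_{t ∈ T i0} D t` and `D t ≥ 0` is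
the `ℚ̄`-rational zero divisor of `τ ↦ th0 (A τ - A Q + lift y + t)` (`EdgeLemma2.edge` + (CH-1)).
For `σ ∈ Gal(ℚ̄/K1)` the conjugate edge `σ y → σ y'` carries the divisors `σ • D t`, the functions
`σ • r_i` and the factors `σ (α i)` (`DivDefs4.valAt_smul`), and `σ y' ∈ V` as soon as `σ y ∈ V`.

The two statements of (CH-1) (`Z_eq_extDivC`, `exists_effective_rep`, helper3's `RatZero3`) are
hypotheses here, in helper7's literal shapes (board 1171) with `wInf := U44.DescInst1.pInf N`.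
-/
import Mathlib
import Fermat.Agent.M17.ChainTop7
import Fermat.Agent.M17.RiemannVanishing2
import Fermat.Agent.M17.CuspInfty2

set_option autoImplicit false
set_option linter.unusedSectionVars false
set_option linter.unusedVariables false
set_option linter.style.longLine false

namespace Fermat.Agent.M17.ConjEdge2

open ModularCurve AlgebraicCurve UpperHalfPlane
open Fermat.Agent.X0 Fermat.Agent.X0.SurjPoint
open Fermat.Agent.ES.KUM Fermat.Agent.ES.KUM.CCusp16 Fermat.Agent.ES.KUM.FieldL25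
open Fermat.Agent.J.DESC.ConstExt24 Fermat.Agent.J.DESC.ExtPic22
open Fermat.Agent.J.DESC.DescentFinal24
open Fermat.Agent.M15.DivDefs4
open Fermat.Agent.U44.DescInst1
open Fermat.Agent.M17.Interfaces7 Fermat.Agent.M17.AlgGlue7 Fermat.Agent.M17.EdgeLemma2
open Fermat.Agent.M17.CuspMove0 Fermat.Agent.M17.ChainTop7 Fermat.Agent.M17.RiemannVanishing2
open scoped MatrixGroups

noncomputable section

attribute [local instance] instAlgebraQbarComplex instTowerQbarComplex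

/-! ### products of translates under lattice translations -/

section Analytic

variable {g : ℕ} {th0 : (Fin g → ℂ) → ℂ}

theorem psiT_nil (z : Fin g → ℂ) : psiT th0 [] z = 1 := rfl

theorem psiT_cons (t : Fin g → ℂ) (T : List (Fin g → ℂ)) (z : Fin g → ℂ) :
    psiT th0 (t :: T) z = th0 (z + t) * psiT th0 T z := by
  unfold psiT
  rw [List.map_cons, List.prod_cons]

/-- the effect of a quasi-period on a product of translates. -/
theorem psiT_add_quasiPeriod {l : Fin g → ℂ} {c : ℂ} {χ : (Fin g → ℂ) →+ ℂ}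
    (h : ∀ z, th0 (z + l) = c * Complex.exp (χ z) * th0 z) (T : List (Fin g → ℂ))
    (z : Fin g → ℂ) :
    psiT th0 T (z + l) = c ^ T.length * Complex.exp (T.length • χ z + χ T.sum) * psiT th0 T z := by
  induction T with
  | nil => simp [psiT_nil]
  | cons t T ih =>
    have hexp : Complex.exp ((T.length + 1) • χ z + χ (t + T.sum))
        = Complex.exp (χ (z + t)) * Complex.exp (T.length • χ z + χ T.sum) := by
      rw [← Complex.exp_add]
      congr 1
      rw [map_add, map_add, succ_nsmul]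
      abel
    have h1 : z + l + t = (z + t) + l := by abel
    rw [psiT_cons, psiT_cons, ih, List.length_cons, List.sum_cons, hexp, h1, h (z + t), pow_succ]
    ring

/-- **balanced quotients are lattice-periodic**, multiplicative form. -/
theorem psiT_balanced {l : Fin g → ℂ}
    (h : ∃ (c : ℂ) (χ : (Fin g → ℂ) →+ ℂ), c ≠ 0 ∧ ∀ z, th0 (z + l) = c * Complex.exp (χ z) * th0 z)
    (T T' : List (Fin g → ℂ)) (hlen : T.length = T'.length) (hsum : T.sum = T'.sum)
    (z : Fin g → ℂ) :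
    psiT th0 T (z + l) * psiT th0 T' z = psiT th0 T z * psiT th0 T' (z + l) := by
  obtain ⟨c, χ, -, hc⟩ := h
  rw [psiT_add_quasiPeriod hc T z, psiT_add_quasiPeriod hc T' z, hlen, hsum]
  ring

/-- non-vanishing is lattice-periodic. -/
theorem ne_zero_add_iff {l : Fin g → ℂ}
    (h : ∃ (c : ℂ) (χ : (Fin g → ℂ) →+ ℂ), c ≠ 0 ∧ ∀ z, th0 (z + l) = c * Complex.exp (χ z) * th0 z)
    (z : Fin g → ℂ) : th0 (z + l) ≠ 0 ↔ th0 z ≠ 0 := by
  obtain ⟨c, χ, hc0, hc⟩ := h
  rw [hc z]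
  constructor
  · intro h1 h2
    exact h1 (by rw [h2, mul_zero])
  · intro h1
    exact mul_ne_zero (mul_ne_zero hc0 (Complex.exp_ne_zero _)) h1

end Analytic

/-! ### Abel-Jacobi on pair classes -/

section AJ

variable (N : ℕ) [NeZero N] {g : ℕ} {L : LatData N g} (AJ : AJData N L)

/-- `extPic0C` on an explicit class. -/
theorem extPic0C_mk' (D : Divisor Qb (FQ N)) (h : D ∈ Divisor.degZero (K := Qb) (F := FQ N)) :
    extPic0C N (Pic0.mk ⟨D, h⟩) = Pic0.mk ⟨extDivC N D, by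
      rw [Divisor.mem_degZero, degree_extDivC]; exact h⟩ := by
  rw [extPic0C_mk]
  congr 1

theorem pairClass_sub (a b c : Place Qb (FQ N)) :
    pairClass N a b = pairClass N a c - pairClass N b c := by
  unfold pairClass
  rw [Pic0.mk, Pic0.mk, Pic0.mk, ← QuotientAddGroup.mk_sub]
  congr 1
  apply Subtype.ext
  show Finsupp.single a (1 : ℤ) - Finsupp.single b 1
    = (Finsupp.single a 1 - Finsupp.single c 1) - (Finsupp.single b 1 - Finsupp.single c 1)
  abel

/-- `iota [b - ∞] = A Q` for a point place `b` over `Q`. -/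
theorem iota_pairClass_pInf {b : Place Qb (FQ N)} {Q : ℍ}
    (hb : extPlaceC N b = ptPlaceC N 1 Q) :
    AJ.iota (extPic0C N (pairClass N b (pInf N))) = QuotientAddGroup.mk (L.A Q) := by
  have h1 := iota_ptsDiv AJ (fun _ : Fin 1 => Q)
  rw [Finset.univ_unique, Finset.sum_singleton] at h1
  rw [← h1]
  unfold pairClass
  rw [extPic0C_mk']
  congr 2
  apply Subtype.ext
  show extDivC N (Finsupp.single b 1 - Finsupp.single (pInf N) 1)
    = ptsDiv (N := N) (fun _ : Fin 1 => Q) - inftyDiv ((1 : ℕ) : ℤ)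
  rw [map_sub, KappaCanonical2.extDivC_single, KappaCanonical2.extDivC_single, hb,
    CuspInfty2.extPlaceC_pInf]
  unfold ptsDiv inftyDiv
  rw [Finset.univ_unique, Finset.sum_singleton, Nat.cast_one]

/-- `iota [a - b] = A P - A Q` for point places `a b` over `P Q`. -/
theorem iota_pairClass {a b : Place Qb (FQ N)} {P Q : ℍ}
    (ha : extPlaceC N a = ptPlaceC N 1 P) (hb : extPlaceC N b = ptPlaceC N 1 Q) :
    AJ.iota (extPic0C N (pairClass N a b)) = QuotientAddGroup.mk (L.A P - L.A Q) := by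
  rw [pairClass_sub N a b (pInf N), map_sub, map_sub, iota_pairClass_pInf N AJ ha,
    iota_pairClass_pInf N AJ hb, ← QuotientAddGroup.mk_sub]

/-- the lift along an edge, up to the lattice. -/
theorem lift_edge {lift : JZero N → Fin g → ℂ}
    (hlift : ∀ x, (QuotientAddGroup.mk (lift x) : (Fin g → ℂ) ⧸ L.lattice)
      = AJ.iota (extPic0C N x))
    {a b : Place Qb (FQ N)} {P Q : ℍ}
    (ha : extPlaceC N a = ptPlaceC N 1 P) (hb : extPlaceC N b = ptPlaceC N 1 Q) (y : JZero N) :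
    ∃ l ∈ L.lattice, lift (y + pairClass N a b) = lift y + L.A P - L.A Q + l := by
  have h1 := hlift (y + pairClass N a b)
  rw [map_add, map_add, ← hlift y, iota_pairClass N AJ ha hb, ← QuotientAddGroup.mk_add] at h1
  have h2 := QuotientAddGroup.eq.mp h1.symm
  refine ⟨_, h2, ?_⟩
  abel

end AJ

/-! ### the arithmetic Galois action on places, divisors and pair classes -/

section Galois

variable (N : ℕ) [NeZero N]

/-- the arithmetic Galois action of `σ` on `F_ℚ̄`. -/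
abbrev gq (σ : Qb ≃ₐ[ℚ] Qb) : SemilinearAut Qb (FQ N) :=
  arithmeticGalois (modularFunctionFieldFull N) σ

theorem gq_smul_jL (σ : Qb ≃ₐ[ℚ] Qb) : gq N σ • jL Qb N = jL Qb N := by
  have h := Fermat.Agent.ES.GAL.OpenStab12.arithmeticGalois_smul_jF N σ
  rw [GenusComplex2.jF_eq_jL] at h
  exact h

/-- conjugates of point places are point places. -/
theorem isPointPlace_smul (σ : Qb ≃ₐ[ℚ] Qb) {a : Place Qb (FQ N)} (ha : IsPointPlace N a) :
    IsPointPlace N (gq N σ • a) := by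
  rw [isPointPlace_iff] at ha ⊢
  have h := SemilinearAut.ord_smul (gq N σ) a (jL Qb N)
  rw [gq_smul_jL] at h
  rw [h]
  exact ha

theorem gq_smul_pInf (σ : Qb ≃ₐ[ℚ] Qb) : gq N σ • pInf N = pInf N :=
  gal_smul_pInf N σ

theorem smul_pairClass (σ : Qb ≃ₐ[ℚ] Qb) (a b : Place Qb (FQ N)) :
    σ • pairClass N a b = pairClass N (gq N σ • a) (gq N σ • b) := by
  unfold pairClass
  rw [galois_smul_pic0_def, SemilinearAut.pic0_smul_mk]
  congr 1
  apply Subtype.ext
  rw [SemilinearAut.coe_degZeroSMulHom]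
  show gq N σ • (Finsupp.single a (1 : ℤ) - Finsupp.single b 1) = _
  rw [smul_sub, SemilinearAut.smul_single, SemilinearAut.smul_single]

theorem smul_divisor_nonneg (σ : Qb ≃ₐ[ℚ] Qb) {D : Divisor Qb (FQ N)} (hD : 0 ≤ D) :
    0 ≤ gq N σ • D := by
  intro w
  rw [SemilinearAut.divisor_smul_apply]
  exact hD _

end Galois

/-! ### rational zero divisors at a node -/

section Rep

variable (N : ℕ) [NeZero N] (g : ℕ)

/-- `D ≥ 0` of degree `g` represents the class `[b - ∞] - y - x` (`x` the algebraic part of a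
translation vector). -/
def IsRep (y x : JZero N) (b : Place Qb (FQ N)) (D : Divisor Qb (FQ N)) : Prop :=
  0 ≤ D ∧ ∃ h : D - Finsupp.single (pInf N) (g : ℤ) ∈ Divisor.degZero (K := Qb) (F := FQ N),
    Pic0.mk ⟨_, h⟩ = pairClass N b (pInf N) - y - x

/-- conjugating a representing divisor. -/
theorem isRep_smul (σ : Qb ≃ₐ[ℚ] Qb) {y x : JZero N} (hx : σ • x = x) {b : Place Qb (FQ N)}
    {D : Divisor Qb (FQ N)} (h : IsRep N g y x b D) :
    IsRep N g (σ • y) x (gq N σ • b) (gq N σ • D) := by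
  obtain ⟨hD, hmem, hcls⟩ := h
  have heq : gq N σ • D - Finsupp.single (pInf N) (g : ℤ)
      = gq N σ • (D - Finsupp.single (pInf N) (g : ℤ)) := by
    rw [smul_sub, SemilinearAut.smul_single, gq_smul_pInf]
  have hmem' : gq N σ • D - Finsupp.single (pInf N) (g : ℤ)
      ∈ Divisor.degZero (K := Qb) (F := FQ N) := by
    rw [heq]
    exact SemilinearAut.smul_mem_degZero _ hmem
  refine ⟨smul_divisor_nonneg N σ hD, hmem', ?_⟩
  have h1 : Pic0.mk (⟨_, hmem'⟩ : Divisor.degZero (K := Qb) (F := FQ N))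
      = σ • Pic0.mk ⟨_, hmem⟩ := by
    rw [galois_smul_pic0_def, SemilinearAut.pic0_smul_mk]
    congr 1
    exact Subtype.ext heq
  rw [h1, hcls, smul_sub, smul_sub, smul_pairClass, gq_smul_pInf, hx]

variable {N g} {L : LatData N g} {AJ : AJData N L} {th0 : (Fin g → ℂ) → ℂ}

/-- **the rational zero divisor at a node**: from (CH-1). -/
theorem Z_eq_of_isRep (RT : RTData N L AJ th0) {lift : JZero N → Fin g → ℂ}
    (hlift : ∀ x, (QuotientAddGroup.mk (lift x) : (Fin g → ℂ) ⧸ L.lattice)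
      = AJ.iota (extPic0C N x))
    (hZ : ∀ (e : Fin g → ℂ), RT.Fe e ≠ 0 → ∀ (D : Divisor Qb (FQ N)), 0 ≤ D →
      ∀ (hdeg : D - Finsupp.single (pInf N) (g : ℤ) ∈ Divisor.degZero (K := Qb) (F := FQ N)),
      AJ.iota (extPic0C N (Pic0.mk ⟨_, hdeg⟩)) = QuotientAddGroup.mk (e + RT.k) →
      RT.Z e = extDivC N D)
    {y x : JZero N} {b : Place Qb (FQ N)} {Q : ℍ} (hb : extPlaceC N b = ptPlaceC N 1 Q)
    {t : Fin g → ℂ} (hx : AJ.iota (extPic0C N x) = QuotientAddGroup.mk (t - RT.k))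
    {D : Divisor Qb (FQ N)} (hrep : IsRep N g y x b D) (hne : th0 (lift y + t) ≠ 0) :
    RT.Z (L.A Q - lift y - t) = extDivC N D := by
  obtain ⟨hD, hmem, hcls⟩ := hrep
  have hFe : (RT.Fe (L.A Q - lift y - t) : ℍ → ℂ) Q = th0 (lift y + t) := by
    rw [RT.Fe_apply]
    congr 1
    abel
  have he : RT.Fe (L.A Q - lift y - t) ≠ 0 :=
    EdgeLemma2.Fe_ne_zero_of_apply RT (by rw [hFe]; exact hne)
  refine hZ _ he D hD hmem ?_
  rw [hcls, map_sub, map_sub, map_sub, map_sub, iota_pairClass_pInf N AJ hb, ← hlift y, hx,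
    ← QuotientAddGroup.mk_sub, ← QuotientAddGroup.mk_sub]
  congr 1
  abel

end Rep

/-! ### one edge at one node -/

section Node

variable {N : ℕ} [NeZero N] {g : ℕ} {L : LatData N g} {AJ : AJData N L}
  {th0 : (Fin g → ℂ) → ℂ}

theorem psiT_ne_zero_of {T : List (Fin g → ℂ)} {z : Fin g → ℂ} (h : ∀ t ∈ T, th0 (z + t) ≠ 0) :
    psiT th0 T z ≠ 0 := by
  unfold psiT
  intro h0
  rw [List.prod_eq_zero_iff] at h0
  obtain ⟨s, hs, h1⟩ := List.mem_map.mp h0
  exact h s hs h1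

/-- at a node with rational zero divisor `D` for the translate by `t`: the factor at the far end of
the edge towards `a` (over `P`) is nonzero iff `a` is not in the support of `D`. -/
theorem factor_ne_zero_iff (RT : RTData N L AJ th0) {z : Fin g → ℂ} {t : Fin g → ℂ}
    {a : Place Qb (FQ N)} {P Q : ℍ} (ha : extPlaceC N a = ptPlaceC N 1 P)
    {D : Divisor Qb (FQ N)} (hDZ : RT.Z (L.A Q - z - t) = extDivC N D)
    (hne : th0 (z + t) ≠ 0) :
    th0 (z + L.A P - L.A Q + t) ≠ 0 ↔ D a = 0 := by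
  have hFeQ : (RT.Fe (L.A Q - z - t) : ℍ → ℂ) Q = th0 (z + t) := by
    rw [RT.Fe_apply]
    congr 1
    abel
  have hFeP : (RT.Fe (L.A Q - z - t) : ℍ → ℂ) P = th0 (z + L.A P - L.A Q + t) := by
    rw [RT.Fe_apply]
    congr 1
    abel
  have he : RT.Fe (L.A Q - z - t) ≠ 0 :=
    EdgeLemma2.Fe_ne_zero_of_apply RT (by rw [hFeQ]; exact hne)
  have hDa : RT.Z (L.A Q - z - t) (ptPlaceC N 1 P) = D a := by
    rw [hDZ, ← ha, extDivC_apply_extPlaceC]
  constructor
  · intro h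
    rw [← hDa]
    exact Z_pt_eq_zero RT (by rw [hFeP]; exact h)
  · intro h h0
    have h1 := one_le_Z_pt RT he (by rw [hFeP]; exact h0)
    rw [hDa, h] at h1
    exact absurd h1 (by norm_num)

/-- **the edge relation at a node, in terms of the lifts.** -/
theorem edge_at_node (RT : RTData N L AJ th0) {lift : JZero N → Fin g → ℂ}
    (hlift : ∀ x, (QuotientAddGroup.mk (lift x) : (Fin g → ℂ) ⧸ L.lattice)
      = AJ.iota (extPic0C N x))
    (hqp : ∀ l ∈ L.lattice, ∃ (c : ℂ) (χ : (Fin g → ℂ) →+ ℂ), c ≠ 0 ∧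
      ∀ z, th0 (z + l) = c * Complex.exp (χ z) * th0 z)
    (T T' : List (Fin g → ℂ)) (hlen : T.length = T'.length) (hsum : T.sum = T'.sum)
    (y : JZero N) {a b : Place Qb (FQ N)} {P Q : ℍ}
    (ha : extPlaceC N a = ptPlaceC N 1 P) (hb : extPlaceC N b = ptPlaceC N 1 Q)
    (hV : ∀ t ∈ T ++ T', th0 (lift y + t) ≠ 0)
    (hV' : ∀ t ∈ T ++ T', th0 (lift (y + pairClass N a b) + t) ≠ 0)
    (D : (Fin g → ℂ) → Divisor Qb (FQ N))
    (hDZ : ∀ t ∈ T ++ T', RT.Z (L.A Q - lift y - t) = extDivC N (D t))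
    (r : FQ N) (hr0 : r ≠ 0)
    (hr : ∀ w : Place Qb (FQ N),
      (w.ord r : ℤ) = (T.map fun t => D t w).sum - (T'.map fun t => D t w).sum) :
    r ∈ a.toValuationSubring ∧ r ∈ b.toValuationSubring ∧
      psiT th0 T (lift (y + pairClass N a b)) / psiT th0 T' (lift (y + pairClass N a b))
        = algebraMap Qb ℂ (valAt (lHypQ N) a r / valAt (lHypQ N) b r)
          * (psiT th0 T (lift y) / psiT th0 T' (lift y)) := by
  obtain ⟨l, hl, hlift'⟩ := lift_edge N AJ hlift ha hb y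
  have hshift : ∀ t, lift (y + pairClass N a b) + t = (lift y + L.A P - L.A Q + t) + l := by
    intro t
    rw [hlift']
    abel
  have hP : ∀ t ∈ T ++ T', th0 (lift y + L.A P - L.A Q + t) ≠ 0 := by
    intro t ht
    have h1 := hV' t ht
    rw [hshift t] at h1
    exact (ne_zero_add_iff (hqp l hl) _).mp h1
  obtain ⟨hra, hrb, hvb, hrel⟩ := (edge N L AJ th0 RT T T' hlen hsum (lift y) P Q hV
    (fun t ht => hP t (List.mem_append_right _ ht)) D hDZ a b ha hb).2 r hr0 hr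
  refine ⟨hra, hrb, ?_⟩
  have hbal := psiT_balanced (hqp l hl) T T' hlen hsum (lift y + L.A P - L.A Q)
  rw [← hlift'] at hbal
  have hB0 : psiT th0 T' (lift y) ≠ 0 :=
    psiT_ne_zero_of fun t ht => hV t (List.mem_append_right _ ht)
  have hB1 : psiT th0 T' (lift y + L.A P - L.A Q) ≠ 0 :=
    psiT_ne_zero_of fun t ht => hP t (List.mem_append_right _ ht)
  have hB2 : psiT th0 T' (lift (y + pairClass N a b)) ≠ 0 :=
    psiT_ne_zero_of fun t ht => hV' t (List.mem_append_right _ ht)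
  rw [div_eq_iff hB2]
  field_simp
  apply mul_right_cancel₀ hB1
  linear_combination psiT th0 T' (lift y) * hbal
    + psiT th0 T' (lift (y + pairClass N a b)) * hrel

end Node

/-! ### the edge step -/

section Main

variable {N : ℕ} [NeZero N] {g : ℕ} {L : LatData N g} {AJ : AJData N L}
  {th0 : (Fin g → ℂ) → ℂ} {ι' : Type*}

/-- **(CH-2), the edge step with its Galois conjugates**, with the two statements of (CH-1) as
hypotheses `hZ`, `hrepEx`. -/
theorem edgeStep_of (RT : RTData N L AJ th0) {lift : JZero N → Fin g → ℂ}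
    (hlift : ∀ x, (QuotientAddGroup.mk (lift x) : (Fin g → ℂ) ⧸ L.lattice)
      = AJ.iota (extPic0C N x))
    (hqp : ∀ l ∈ L.lattice, ∃ (c : ℂ) (χ : (Fin g → ℂ) →+ ℂ), c ≠ 0 ∧
      ∀ z, th0 (z + l) = c * Complex.exp (χ z) * th0 z)
    (hZ : ∀ (e : Fin g → ℂ), RT.Fe e ≠ 0 → ∀ (D : Divisor Qb (FQ N)), 0 ≤ D →
      ∀ (hdeg : D - Finsupp.single (pInf N) (g : ℤ) ∈ Divisor.degZero (K := Qb) (F := FQ N)),
      AJ.iota (extPic0C N (Pic0.mk ⟨_, hdeg⟩)) = QuotientAddGroup.mk (e + RT.k) →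
      RT.Z e = extDivC N D)
    (hrepEx : ∀ x : JZero N, ∃ (D : Divisor Qb (FQ N))
      (h : D - Finsupp.single (pInf N) (g : ℤ) ∈ Divisor.degZero (K := Qb) (F := FQ N)),
      0 ≤ D ∧ Pic0.mk ⟨_, h⟩ = x)
    (T : ι' → List (Fin g → ℂ)) (i0 : ι') (hlen : ∀ i, (T i).length = (T i0).length)
    (hsum : ∀ i, (T i).sum = (T i0).sum)
    (xs : (Fin g → ℂ) → JZero N)
    (hxs : ∀ i, ∀ s ∈ T i, AJ.iota (extPic0C N (xs s)) = QuotientAddGroup.mk (s - RT.k))
    (K1 : IntermediateField ℚ Qb)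
    (hK1 : ∀ σ : ↥K1.fixingSubgroup, ∀ i, ∀ s ∈ T i, σ • xs s = xs s) :
    EdgeStep N th0 lift T i0 K1 := by
  classical
  intro y y' hedge hy hy'
  obtain ⟨a, b, ⟨P, ha⟩, ⟨Q, hb⟩, rfl⟩ := hedge
  -- membership in `V`, list form
  have hVl : ∀ {x : JZero N}, x ∈ Vset N th0 lift T → ∀ i, ∀ t ∈ T i ++ T i0,
      th0 (lift x + t) ≠ 0 := by
    intro x hx i t ht
    rcases List.mem_append.mp ht with h | h
    · exact hx i t h
    · exact hx i0 t h
  -- the representing divisors at the node `y`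
  have hex : ∀ t, ∃ D : Divisor Qb (FQ N), IsRep N g y (xs t) b D := fun t => by
    obtain ⟨D, h, hD, hc⟩ := hrepEx (pairClass N b (pInf N) - y - xs t)
    exact ⟨D, hD, h, hc⟩
  choose D hDrep using hex
  have hDZ : ∀ i, ∀ t ∈ T i, RT.Z (L.A Q - lift y - t) = extDivC N (D t) := fun i t ht =>
    Z_eq_of_isRep RT hlift hZ hb (hxs i t ht) (hDrep t) (hy i t ht)
  have hDZl : ∀ i, ∀ t ∈ T i ++ T i0, RT.Z (L.A Q - lift y - t) = extDivC N (D t) := by
    intro i t ht
    rcases List.mem_append.mp ht with h | h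
    · exact hDZ i t h
    · exact hDZ i0 t h
  -- the far-end factors at `y`
  obtain ⟨l, hl, hliftE⟩ := lift_edge N AJ hlift ha hb y
  have hfar : ∀ i, ∀ t ∈ T i, th0 (lift y + L.A P - L.A Q + t) ≠ 0 := by
    intro i t ht
    have h1 := hy' i t ht
    have h2 : lift (y + pairClass N a b) + t = (lift y + L.A P - L.A Q + t) + l := by
      rw [hliftE]; abel
    rw [h2] at h1
    exact (ne_zero_add_iff (hqp l hl) _).mp h1
  -- the functions `r i`
  have hri : ∀ i, ∃ r : FQ N, r ≠ 0 ∧ ∀ w : Place Qb (FQ N),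
      (w.ord r : ℤ) = ((T i).map fun t => D t w).sum - ((T i0).map fun t => D t w).sum :=
    fun i => (edge N L AJ th0 RT (T i) (T i0) (hlen i) (hsum i) (lift y) P Q (hVl hy i)
      (fun t ht => hfar i0 t ht) D (hDZl i) a b ha hb).1
  choose r hr0 hr using hri
  have hnode : ∀ i, _ := fun i => edge_at_node RT hlift hqp (T i) (T i0) (hlen i) (hsum i) y ha hb
    (hVl hy i) (hVl hy' i) D (hDZl i) (r i) (hr0 i) (hr i)
  refine ⟨fun i => valAt (lHypQ N) a (r i) / valAt (lHypQ N) b (r i), fun i => (hnode i).2.2,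
    fun σ hσy => ?_⟩
  -- the conjugate edge
  obtain ⟨P', ha'⟩ := isPointPlace_smul N (σ : Qb ≃ₐ[ℚ] Qb) ⟨P, ha⟩
  obtain ⟨Q', hb'⟩ := isPointPlace_smul N (σ : Qb ≃ₐ[ℚ] Qb) ⟨Q, hb⟩
  have hedge' : σ • (y + pairClass N a b)
      = σ • y + pairClass N (gq N (σ : Qb ≃ₐ[ℚ] Qb) • a) (gq N (σ : Qb ≃ₐ[ℚ] Qb) • b) := by
    rw [smul_add]
    congr 1
    exact smul_pairClass N (σ : Qb ≃ₐ[ℚ] Qb) a b
  have hDrep' : ∀ i, ∀ t ∈ T i, IsRep N g (σ • y) (xs t) (gq N (σ : Qb ≃ₐ[ℚ] Qb) • b)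
      (gq N (σ : Qb ≃ₐ[ℚ] Qb) • D t) := fun i t ht =>
    isRep_smul N g (σ : Qb ≃ₐ[ℚ] Qb) (hK1 σ i t ht) (hDrep t)
  have hDZ' : ∀ i, ∀ t ∈ T i,
      RT.Z (L.A Q' - lift (σ • y) - t) = extDivC N (gq N (σ : Qb ≃ₐ[ℚ] Qb) • D t) :=
    fun i t ht => Z_eq_of_isRep RT hlift hZ hb' (hxs i t ht) (hDrep' i t ht) (hσy i t ht)
  have hDZl' : ∀ i, ∀ t ∈ T i ++ T i0,
      RT.Z (L.A Q' - lift (σ • y) - t) = extDivC N (gq N (σ : Qb ≃ₐ[ℚ] Qb) • D t) := by
    intro i t ht
    rcases List.mem_append.mp ht with h | h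
    · exact hDZ' i t h
    · exact hDZ' i0 t h
  -- (i) the conjugate far end is good
  obtain ⟨l', hl', hliftE'⟩ := lift_edge N AJ hlift ha' hb' (σ • y)
  have hV' : σ • (y + pairClass N a b) ∈ Vset N th0 lift T := by
    intro i t ht
    rw [hedge']
    have h1 : D t a = 0 :=
      (factor_ne_zero_iff RT ha (hDZ i t ht) (hy i t ht)).mp (hfar i t ht)
    have h2 : (gq N (σ : Qb ≃ₐ[ℚ] Qb) • D t) (gq N (σ : Qb ≃ₐ[ℚ] Qb) • a) = 0 := by
      rw [SemilinearAut.divisor_smul_apply_smul]; exact h1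
    have h3 := (factor_ne_zero_iff RT ha' (hDZ' i t ht) (hσy i t ht)).mpr h2
    have h4 : lift (σ • y + pairClass N (gq N (σ : Qb ≃ₐ[ℚ] Qb) • a)
        (gq N (σ : Qb ≃ₐ[ℚ] Qb) • b)) + t = (lift (σ • y) + L.A P' - L.A Q' + t) + l' := by
      rw [hliftE']; abel
    rw [h4]
    exact (ne_zero_add_iff (hqp l' hl') _).mpr h3
  refine ⟨hV', fun i => ?_⟩
  -- (ii) the conjugate factor
  have hr0' : gq N (σ : Qb ≃ₐ[ℚ] Qb) • r i ≠ 0 := by
    rw [Ne, smul_eq_zero_iff_eq]; exact hr0 i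
  have hr' : ∀ w : Place Qb (FQ N), (w.ord (gq N (σ : Qb ≃ₐ[ℚ] Qb) • r i) : ℤ)
      = ((T i).map fun t => (gq N (σ : Qb ≃ₐ[ℚ] Qb) • D t) w).sum
        - ((T i0).map fun t => (gq N (σ : Qb ≃ₐ[ℚ] Qb) • D t) w).sum := by
    intro w
    have h1 := SemilinearAut.ord_smul (gq N (σ : Qb ≃ₐ[ℚ] Qb))
      ((gq N (σ : Qb ≃ₐ[ℚ] Qb))⁻¹ • w) (r i)
    rw [smul_inv_smul] at h1
    rw [h1, hr i]
    simp only [SemilinearAut.divisor_smul_apply]
  have hV'' : σ • y + pairClass N (gq N (σ : Qb ≃ₐ[ℚ] Qb) • a) (gq N (σ : Qb ≃ₐ[ℚ] Qb) • b)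
      ∈ Vset N th0 lift T := by
    rw [← hedge']; exact hV'
  have hnode' := edge_at_node RT hlift hqp (T i) (T i0) (hlen i) (hsum i) (σ • y) ha' hb'
    (hVl hσy i) (hVl hV'' i) (fun t => gq N (σ : Qb ≃ₐ[ℚ] Qb) • D t) (hDZl' i)
    (gq N (σ : Qb ≃ₐ[ℚ] Qb) • r i) hr0' hr'
  have h5 := hnode'.2.2
  rw [valAt_smul (lHypQ N) a (gq N (σ : Qb ≃ₐ[ℚ] Qb)) (hnode i).1,
    valAt_smul (lHypQ N) b (gq N (σ : Qb ≃ₐ[ℚ] Qb)) (hnode i).2.1, ← map_div₀] at h5
  show Rval N th0 lift T i0 (σ • (y + pairClass N a b)) i = _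
  rw [hedge']
  exact h5

end Main

end

end Fermat.Agent.M17.ConjEdge2
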