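/-
Programme M17 (S17), helper3: leaf (CH-1) of the A4' top level (helper7, board 1171) - RATIONAL ZERO
DIVISORS.  `wInf := U44.DescInst1.pInf N` is the place `q = 0` of `F_ℚ̄`.

* `extPlaceC_pInf` : its extension to `F_ℂ` is the cusp `cuspPlaceC N 1`; it is Galois-fixed
  (`DescInst1.gal_smul_pInf`);
* `Z_eq_extDivC` : an effective `ℚ̄`-divisor `D` of degree `g` whose class `[D - g ∞]` maps to
  `e + k` is the zero divisor `Z e` (given (S-A));
* `exists_effective_rep` : every class of `J₀(N)(ℚ̄)` is `[D - g ∞]` with `D ≥ 0` (Riemann-Roch over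
  `ℚ̄`);
* `Z_eq_extDivC_smul` : Galois equivariance.
-/
import Mathlib
import Fermat.Agent.M17.Interfaces7
import Fermat.Agent.M17.AlgGlue7
import Fermat.Agent.M17.GenusComplex2
import Fermat.Agent.M17.KappaCanonical2
import Fermat.Agent.U44.DescInst1
import Fermat.Agent.ES.KUM.CCuspExpand16

set_option autoImplicit false
set_option linter.unusedSectionVars false
set_option linter.style.longLine false

namespace Fermat.Agent.M17.RatZero3

open ModularCurve AlgebraicCurve Fermat.Agent.X0 UpperHalfPlane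
open Fermat.Agent.J.DESC.ConstExt24 Fermat.Agent.J.DESC.LaurentExt24
open Fermat.Agent.J.DESC.DescentC24 Fermat.Agent.J.DESC.ExtPic22
open Fermat.Agent.J.DESC.DescentFinal24
open Fermat.Agent.ES.KUM Fermat.Agent.ES.KUM.FieldL25 Fermat.Agent.ES.KUM.CCusp16 Fermat.Agent.X0.SurjPoint
open Fermat.Agent.M17.Interfaces7 Fermat.Agent.M17.AlgGlue7
open Fermat.Agent.U44.DescInst1
open scoped MatrixGroups

noncomputable section

attribute [local instance] instAlgebraQbarComplex instTowerQbarComplex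

variable (N : ℕ) [NeZero N]

/-- the place `q = 0` of `F_ℚ̄`, in the vocabulary of `DescentFinal24`. -/
abbrev wInf : Place Qb (FQ N) := pInf N

/-- the cusp `∞` of `F_ℂ` lies over the place `q = 0` of `F_ℚ̄`. -/
theorem liesOver_cusp_one : LiesOver (bcQC N) (cuspPlaceC N 1) (wInf N) := by
  intro a
  rcases eq_or_ne a 0 with rfl | ha
  · simp
  have hb : bcQC N a ≠ 0 := bcQC_ne_zero N ha
  rw [mem_pInf_iff N ha, mem_cuspPlaceC_iff N 1 hb, inv_one, cuspEmbC_one,
    Fermat.Agent.IG.PR.ThetaV1.order_qExpand, coe_bcQC,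
    Fermat.Agent.ES.P36.DescTools1.order_coeffMap]
  have hN : (0 : ℤ) < N := by exact_mod_cast Nat.pos_of_ne_zero (NeZero.ne N)
  constructor
  · intro h
    exact mul_nonneg hN.le h
  · intro h
    by_contra hneg
    push Not at hneg
    have := mul_neg_of_pos_of_neg hN hneg
    omega

/-- **the extension of `q = 0` is the cusp `∞`.** -/
theorem extPlaceC_pInf : extPlaceC N (wInf N) = cuspPlaceC N 1 :=
  (eq_extPlace_of_liesOver (isConstExt_bcQC N) (isGen_jL Qb N) (isGen_jL ℂ N)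
    (liesOver_cusp_one N)).symm

/-- `q = 0` is fixed by the arithmetic Galois action. -/
theorem smul_wInf (σ : GQ) : arithmeticGalois (modularFunctionFieldFull N) σ • wInf N = wInf N :=
  gal_smul_pInf N σ


/-! ### (CH-1), first half: the zero divisor is the extension of the effective representative -/

variable {N} {g : ℕ} {L : LatData N g} {AJ : AJData N L} {th0 : (Fin g → ℂ) → ℂ}

open Fermat.Agent.RR.LSpace

/-- the extension of `D - n ∞`. -/
theorem extDivC_sub_single (D : Divisor Qb (FQ N)) (n : ℤ) :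
    extDivC N (D - Finsupp.single (wInf N) n) =
      extDivC N D - Finsupp.single (cuspPlaceC N 1) n := by
  rw [map_sub, Fermat.Agent.M17.KappaCanonical2.extDivC_single, extPlaceC_pInf]

/-- `Z e - g ∞` has degree `0`. -/
theorem Z_sub_mem_degZero (RT : RTData N L AJ th0) (e : Fin g → ℂ) (he : RT.Fe e ≠ 0) :
    RT.Z e - Finsupp.single (cuspPlaceC N 1) (g : ℤ) ∈ Divisor.degZero (K := ℂ) (F := FC N) := by
  rw [Divisor.mem_degZero, map_sub, RT.Z_degree e he, degree_single (lHypC N), sub_self]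

/-- **(CH-1), `Z_eq_extDivC`** (helper7's statement of board 1171, `wInf := pInf N`). -/
theorem Z_eq_extDivC (RT : RTData N L AJ th0)
    (hSA : ∀ e, RT.Fe e ≠ 0 → ∀ D' : Divisor ℂ (FC N), 0 ≤ D' →
      Divisor.IsPrincipal (D' - RT.Z e) → D' = RT.Z e)
    (e : Fin g → ℂ) (he : RT.Fe e ≠ 0) (D : Divisor Qb (FQ N)) (hD : 0 ≤ D)
    (hdeg : D - Finsupp.single (wInf N) (g : ℤ) ∈ Divisor.degZero (K := Qb) (F := FQ N))
    (hx : AJ.iota (extPic0C N (Pic0.mk ⟨_, hdeg⟩)) = QuotientAddGroup.mk (e + RT.k)) :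
    RT.Z e = extDivC N D := by
  have hZ := RT.Z_sum e he (Z_sub_mem_degZero RT e he)
  rw [← hx] at hZ
  have h1 := AJ.iota_injective hZ
  rw [extPic0C_mk] at h1
  have h2 := (QuotientAddGroup.eq).mp h1
  rw [AddSubgroup.mem_addSubgroupOf] at h2
  have h3 : Divisor.IsPrincipal (extDivC N D - RT.Z e) := by
    have h4 : ((-(⟨RT.Z e - Finsupp.single (cuspPlaceC N 1) (g : ℤ), Z_sub_mem_degZero RT e he⟩ :
        Divisor.degZero (K := ℂ) (F := FC N)) +
        extDegZero (isConstExt_bcQC N) (isGen_jL Qb N) (isGen_jL ℂ N) ⟨_, hdeg⟩ :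
        Divisor.degZero (K := ℂ) (F := FC N)) : Divisor ℂ (FC N)) = extDivC N D - RT.Z e := by
      show -(RT.Z e - Finsupp.single (cuspPlaceC N 1) (g : ℤ)) +
        extDivC N (D - Finsupp.single (wInf N) (g : ℤ)) = _
      rw [extDivC_sub_single]
      abel
    rw [h4] at h2
    exact h2
  exact (hSA e he (extDivC N D) (extDiv_nonneg (isConstExt_bcQC N) (isGen_jL ℂ N) hD) h3).symm


/-! ### (CH-1), second half: effective representatives over `ℚ̄` -/

open Fermat.Agent.RR.Final Fermat.Agent.M17.KappaCanonical2 Fermat.Agent.X0.FF KaehlerDifferential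

/-- the genus of `F_ℚ̄` is the `g` of `LatData`. -/
theorem genusFF_bar (L : LatData N g) : genusFF Qb (FQ N) = g :=
  (Fermat.Agent.M17.GenusComplex2.genusFF_complex_eq N).symm.trans (genusFF_eq L)

/-- **(CH-1), `exists_effective_rep`**: every class of `J₀(N)(ℚ̄)` is `[D - g ∞]` with `D ≥ 0`
(Riemann-Roch over `ℚ̄`). -/
theorem exists_effective_rep (L : LatData N g) (x : JZero N) :
    ∃ (D : Divisor Qb (FQ N))
      (h : D - Finsupp.single (wInf N) (g : ℤ) ∈ Divisor.degZero (K := Qb) (F := FQ N)),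
      0 ≤ D ∧ Pic0.mk ⟨_, h⟩ = x := by
  obtain ⟨D₀, rfl⟩ := Pic0.mk_surjective x
  set D₁ : Divisor Qb (FQ N) := (D₀ : Divisor Qb (FQ N)) + Finsupp.single (wInf N) (g : ℤ) with hD₁
  have hdeg₁ : Divisor.degree D₁ = g := by
    rw [hD₁, map_add, Divisor.mem_degZero.mp D₀.2, degree_single (lHypQ N), zero_add]
  -- Riemann-Roch
  have hrr := riemann_roch (XQ N) (D_ne_zero (isGen_jL Qb N)) (canQ_apply N) D₁
  rw [hdeg₁, genusFF_bar L] at hrr
  have hpos : 0 < Module.finrank Qb (riemannRochSpace D₁) := by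
    have : (0 : ℤ) < Module.finrank Qb (riemannRochSpace D₁) := by
      have h0 : (0 : ℤ) ≤ Module.finrank Qb (riemannRochSpace (canQ N - D₁)) := Int.natCast_nonneg _
      linarith
    exact_mod_cast this
  have hne : riemannRochSpace D₁ ≠ ⊥ := by
    intro hbot
    rw [hbot, finrank_bot] at hpos
    exact lt_irrefl _ hpos
  obtain ⟨f, hfmem, hf0⟩ := Submodule.exists_mem_ne_zero_of_ne_bot hne
  rw [mem_L_iff hf0] at hfmem
  haveI : HasPrincipalDivisors Qb (FQ N) := hasPrincipalDivisors_L Qb N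
  obtain ⟨E, hE, hEdeg⟩ := HasPrincipalDivisors.exists_divisor (K := Qb) f hf0
  have hmem : D₁ + E - Finsupp.single (wInf N) (g : ℤ) ∈ Divisor.degZero (K := Qb) (F := FQ N) := by
    rw [Divisor.mem_degZero, map_sub, map_add, hdeg₁, hEdeg, degree_single (lHypQ N)]
    ring
  refine ⟨D₁ + E, hmem, ?_, ?_⟩
  · intro v
    show (0 : ℤ) ≤ D₁ v + E v
    rw [hE v]
    have := hfmem v
    linarith
  · refine (QuotientAddGroup.eq).mpr ?_
    rw [AddSubgroup.mem_addSubgroupOf]
    have h4 : ((-(⟨D₁ + E - Finsupp.single (wInf N) (g : ℤ), hmem⟩ :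
        Divisor.degZero (K := Qb) (F := FQ N)) + D₀ :
        Divisor.degZero (K := Qb) (F := FQ N)) : Divisor Qb (FQ N)) = -E := by
      show -(D₁ + E - Finsupp.single (wInf N) (g : ℤ)) + (D₀ : Divisor Qb (FQ N)) = -E
      rw [hD₁]
      abel
    rw [h4]
    exact (Divisor.principal (K := Qb) (F := FQ N)).neg_mem ⟨f, hf0, hE⟩


/-! ### (CH-1), Galois equivariance -/

/-- the arithmetic Galois action on divisors of `F_ℚ̄`. -/
abbrev galQ (N : ℕ) [NeZero N] (σ : GQ) : SemilinearAut Qb (FQ N) :=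
  arithmeticGalois (modularFunctionFieldFull N) σ

theorem smul_nonneg_div (γ : SemilinearAut Qb (FQ N)) {D : Divisor Qb (FQ N)} (hD : 0 ≤ D) :
    0 ≤ γ • D := by
  intro w
  rw [SemilinearAut.divisor_smul_apply]
  exact hD _

theorem smul_sub_single (σ : GQ) (D : Divisor Qb (FQ N)) (n : ℤ) :
    galQ N σ • (D - Finsupp.single (wInf N) n) = galQ N σ • D - Finsupp.single (wInf N) n := by
  rw [smul_sub, SemilinearAut.smul_single, smul_wInf]

theorem smul_sub_single_mem_degZero (σ : GQ) {D : Divisor Qb (FQ N)} {n : ℤ}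
    (h : D - Finsupp.single (wInf N) n ∈ Divisor.degZero (K := Qb) (F := FQ N)) :
    galQ N σ • D - Finsupp.single (wInf N) n ∈ Divisor.degZero (K := Qb) (F := FQ N) := by
  rw [← smul_sub_single]
  exact SemilinearAut.smul_mem_degZero _ h

/-- the Galois conjugate of the class `[D - n ∞]` is `[σ D - n ∞]`. -/
theorem smul_mk_sub_single (σ : GQ) {D : Divisor Qb (FQ N)} {n : ℤ}
    (h : D - Finsupp.single (wInf N) n ∈ Divisor.degZero (K := Qb) (F := FQ N)) :
    σ • (Pic0.mk ⟨_, h⟩ : JZero N) = Pic0.mk ⟨_, smul_sub_single_mem_degZero σ h⟩ := by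
  rw [galois_smul_pic0_def, SemilinearAut.pic0_smul_mk]
  congr 1
  apply Subtype.ext
  rw [SemilinearAut.coe_degZeroSMulHom]
  exact smul_sub_single σ D n

/-- **(CH-1), equivariance**: if `D ≥ 0` represents `x = [D - g ∞]`, then `σ D ≥ 0` represents
`σ x`, hence is the zero divisor `Z e'` for every `e'` with `F_{e'} ≠ 0` and
`iota (ext (σ x)) = e' + k`. -/
theorem Z_eq_extDivC_smul (RT : RTData N L AJ th0)
    (hSA : ∀ e, RT.Fe e ≠ 0 → ∀ D' : Divisor ℂ (FC N), 0 ≤ D' →
      Divisor.IsPrincipal (D' - RT.Z e) → D' = RT.Z e)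
    (σ : GQ) (D : Divisor Qb (FQ N)) (hD : 0 ≤ D)
    (hdeg : D - Finsupp.single (wInf N) (g : ℤ) ∈ Divisor.degZero (K := Qb) (F := FQ N))
    (e' : Fin g → ℂ) (he' : RT.Fe e' ≠ 0)
    (hx : AJ.iota (extPic0C N (σ • (Pic0.mk ⟨_, hdeg⟩ : JZero N))) =
      QuotientAddGroup.mk (e' + RT.k)) :
    RT.Z e' = extDivC N (galQ N σ • D) := by
  rw [smul_mk_sub_single σ hdeg] at hx
  exact Z_eq_extDivC RT hSA e' he' (galQ N σ • D) (smul_nonneg_div _ hD)
    (smul_sub_single_mem_degZero σ hdeg) hx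


/-! ### consumer forms -/

theorem extDivC_injective : Function.Injective (extDivC N) :=
  extDiv_injective (isConstExt_bcQC N) (isGen_jL ℂ N)

/-- **rational zero divisors, existence** (helper5's (CH-1), board 1160): if `F_e ≠ 0` and
`x ∈ J₀(N)(ℚ̄)` has `iota (ext x) = e + k`, then `Z e` is the extension of an effective
`ℚ̄`-divisor `D` with `[D - g ∞] = x`. -/
theorem exists_ratZero (RT : RTData N L AJ th0)
    (hSA : ∀ e, RT.Fe e ≠ 0 → ∀ D' : Divisor ℂ (FC N), 0 ≤ D' →
      Divisor.IsPrincipal (D' - RT.Z e) → D' = RT.Z e)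
    (e : Fin g → ℂ) (he : RT.Fe e ≠ 0) (x : JZero N)
    (hx : AJ.iota (extPic0C N x) = QuotientAddGroup.mk (e + RT.k)) :
    ∃ (D : Divisor Qb (FQ N))
      (h : D - Finsupp.single (wInf N) (g : ℤ) ∈ Divisor.degZero (K := Qb) (F := FQ N)),
      0 ≤ D ∧ Pic0.mk ⟨_, h⟩ = x ∧ RT.Z e = extDivC N D := by
  obtain ⟨D, h, hD, hmk⟩ := exists_effective_rep L x
  refine ⟨D, h, hD, hmk, Z_eq_extDivC RT hSA e he D hD h ?_⟩
  rw [hmk]
  exact hx

/-- **rational zero divisors, uniqueness.** -/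
theorem ratZero_unique (RT : RTData N L AJ th0) (e : Fin g → ℂ) {D D' : Divisor Qb (FQ N)}
    (hD : RT.Z e = extDivC N D) (hD' : RT.Z e = extDivC N D') : D = D' :=
  extDivC_injective (hD.symm.trans hD')

/-- **rational zero divisors, equivariance**: the rational zero divisor of the conjugate datum is
the conjugate divisor. -/
theorem ratZero_smul (RT : RTData N L AJ th0)
    (hSA : ∀ e, RT.Fe e ≠ 0 → ∀ D' : Divisor ℂ (FC N), 0 ≤ D' →
      Divisor.IsPrincipal (D' - RT.Z e) → D' = RT.Z e)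
    (σ : GQ) (D : Divisor Qb (FQ N)) (hD : 0 ≤ D)
    (hdeg : D - Finsupp.single (wInf N) (g : ℤ) ∈ Divisor.degZero (K := Qb) (F := FQ N))
    (e' : Fin g → ℂ) (he' : RT.Fe e' ≠ 0)
    (hx : AJ.iota (extPic0C N (σ • (Pic0.mk ⟨_, hdeg⟩ : JZero N))) =
      QuotientAddGroup.mk (e' + RT.k))
    (D' : Divisor Qb (FQ N)) (hD' : RT.Z e' = extDivC N D') : D' = galQ N σ • D :=
  extDivC_injective (hD'.symm.trans (Z_eq_extDivC_smul RT hSA σ D hD hdeg e' he' hx))

end

end Fermat.Agent.M17.RatZero3
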