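/-
M17 (target S17), leaf (S-A) of block [ALG] (lead), against the interfaces `LatData` / `AJData` /
`RTData` of `Interfaces7` as HYPOTHESES.  Imported by no statement.

* `iota_listDiv` : the Abel-Jacobi image of `∑ (r_i) - n·∞` for a list of points of `ℍ` and cusps;
* `theta_vanish_list` / `theta_vanish` : **(a)** `θ(∑_{i<g} A(Q_i) - k) = 0` (`W_{g-1} - k ⊆ Θ`);
* `theta_vanish_list'` : **(a')** the same with cusps among the `Q_i`;
* `finrank_Z` : **(S-A)** `l(Z e) = 1` if `F_e ≠ 0`; `eq_Z_of_principal` : an effective divisor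
  linearly equivalent to `Z e` is `Z e`.
-/
import Mathlib
import Fermat.Agent.M17.Interfaces7
import Fermat.Agent.M17.AlgGlue7
import Fermat.Agent.M17.EdgeLemma2
import Fermat.Agent.M17.GenericRR2
import Fermat.Agent.M17.GenusComplex2
import Fermat.Agent.M17.Dict4
import Fermat.Agent.M17.ThetaPull1

set_option autoImplicit false
set_option linter.unusedSectionVars false

namespace Fermat.Agent.M17.SpecialA0

open ModularCurve UpperHalfPlane AlgebraicCurve CongruenceSubgroup Filter Module
open Fermat.Agent.M17.Interfaces7 Fermat.Agent.X0 Fermat.Agent.X0.SurjPoint Fermat.Agent.ES.KUM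
open Fermat.Agent.ES.KUM.CCusp16 Fermat.Agent.RR.LSpace Fermat.Agent.M17.AlgGlue7
open scoped MatrixGroups Topology

variable {N : ℕ} [NeZero N] {g : ℕ} (L : LatData N g) (AJ : AJData N L)

/-! ### lists of points and cusps -/

/-- a point of `ℍ` or a cusp (an element `δ` of `SL(2, ℤ)`, for the cusp of `cuspPlaceC N δ`). -/
abbrev Pt : Type := ℍ ⊕ SL(2, ℤ)

variable (N) in
/-- the place of a point or cusp. -/
noncomputable def plc : Pt → Place ℂ (FC N) := Sum.elim (ptPlaceC N 1) (cuspPlaceC N)

/-- the Abel-Jacobi value of a point or cusp. -/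
noncomputable def aval : Pt → Fin g → ℂ := Sum.elim L.A AJ.Acusp

variable (N) in
/-- the effective divisor `∑ (r_i)`. -/
noncomputable def listDiv (R : List Pt) : Divisor ℂ (FC N) :=
  (R.map fun r => Finsupp.single (plc N r) (1 : ℤ)).sum

/-- the Abel sum `∑ A(r_i)`. -/
noncomputable def listSum (R : List Pt) : Fin g → ℂ := (R.map (aval L AJ)).sum

@[simp] theorem listDiv_nil : listDiv N ([] : List Pt) = 0 := rfl

@[simp] theorem listDiv_cons (r : Pt) (R : List Pt) :
    listDiv N (r :: R) = Finsupp.single (plc N r) 1 + listDiv N R := by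
  simp [listDiv]

@[simp] theorem listSum_nil : listSum L AJ ([] : List Pt) = 0 := rfl

@[simp] theorem listSum_cons (r : Pt) (R : List Pt) :
    listSum L AJ (r :: R) = aval L AJ r + listSum L AJ R := by
  simp [listSum]

theorem listDiv_nonneg (R : List Pt) : 0 ≤ listDiv N R := by
  induction R with
  | nil => exact le_rfl
  | cons r R ih =>
    rw [listDiv_cons]
    refine add_nonneg ?_ ih
    intro v
    classical
    rw [Finsupp.single_apply]
    split_ifs <;> simp

theorem degree_listDiv (R : List Pt) : Divisor.degree (listDiv N R) = R.length := by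
  induction R with
  | nil => simp
  | cons r R ih =>
    rw [listDiv_cons, map_add, ih, degree_single (lHypC N), List.length_cons]
    push_cast
    ring

theorem one_le_listDiv_of_mem {r : Pt} {R : List Pt} (h : r ∈ R) :
    1 ≤ listDiv N R (plc N r) := by
  induction R with
  | nil => exact absurd h (List.not_mem_nil)
  | cons s R ih =>
    rw [listDiv_cons, Finsupp.add_apply]
    rcases List.mem_cons.mp h with rfl | h'
    · rw [Finsupp.single_eq_same]
      have := listDiv_nonneg (N := N) R (plc N r)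
      simp only [Finsupp.coe_zero, Pi.zero_apply] at this
      omega
    · have h1 := ih h'
      have h2 : 0 ≤ (Finsupp.single (plc N s) (1 : ℤ)) (plc N r) := by
        classical
        rw [Finsupp.single_apply]
        split_ifs <;> simp
      omega

/-- the point part of a list, as a finitely supported function. -/
noncomputable def mOf (R : List Pt) : ℍ →₀ ℤ :=
  (R.map (Sum.elim (fun t => Finsupp.single t (1 : ℤ)) (fun _ => 0))).sum

/-- the cusp part of a list. -/
noncomputable def cOf (R : List Pt) : SL(2, ℤ) →₀ ℤ :=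
  (R.map (Sum.elim (fun _ => 0) (fun δ => Finsupp.single δ (1 : ℤ)))).sum

theorem pointDivisor_add (m m' : ℍ →₀ ℤ) :
    pointDivisor N (m + m') = pointDivisor N m + pointDivisor N m' :=
  Finsupp.mapDomain_add

theorem cuspDivisor_add (c c' : SL(2, ℤ) →₀ ℤ) :
    cuspDivisor N (c + c') = cuspDivisor N c + cuspDivisor N c' :=
  Finsupp.mapDomain_add

theorem pointDivisor_cuspDivisor_of (R : List Pt) :
    pointDivisor N (mOf R) + cuspDivisor N (cOf R) = listDiv N R := by
  induction R with
  | nil => simp [mOf, cOf, pointDivisor, cuspDivisor]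
  | cons r R ih =>
    have hm : mOf (r :: R) = Sum.elim (fun t => Finsupp.single t (1 : ℤ)) (fun _ => 0) r + mOf R := by
      simp [mOf]
    have hc : cOf (r :: R) = Sum.elim (fun _ => 0) (fun δ => Finsupp.single δ (1 : ℤ)) r + cOf R := by
      simp [cOf]
    rw [hm, hc, pointDivisor_add, cuspDivisor_add, listDiv_cons, ← ih]
    rcases r with t | δ
    · simp only [Sum.elim_inl, plc, pointDivisor, cuspDivisor, Finsupp.mapDomain_single,
        Finsupp.mapDomain_zero]
      abel
    · simp only [Sum.elim_inr, plc, pointDivisor, cuspDivisor, Finsupp.mapDomain_single,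
        Finsupp.mapDomain_zero]
      abel

theorem sum_smul_add {α : Type*} (f f' : α →₀ ℤ) (a : α → Fin g → ℂ) :
    ((f + f').sum fun z k => k • a z) = (f.sum fun z k => k • a z) + f'.sum fun z k => k • a z :=
  Finsupp.sum_add_index' (fun z => zero_smul ℤ (a z)) (fun z k₁ k₂ => add_smul k₁ k₂ (a z))

theorem sum_smul_single {α : Type*} (x : α) (n : ℤ) (a : α → Fin g → ℂ) :
    ((Finsupp.single x n).sum fun z k => k • a z) = n • a x :=
  Finsupp.sum_single_index (zero_smul ℤ (a x))

theorem sum_mOf_cOf (R : List Pt) :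
    ((mOf R).sum fun z k => k • L.A z) + ((cOf R).sum fun δ k => k • AJ.Acusp δ)
      = listSum L AJ R := by
  induction R with
  | nil => simp [mOf, cOf]
  | cons r R ih =>
    have hm : mOf (r :: R) = Sum.elim (fun t => Finsupp.single t (1 : ℤ)) (fun _ => 0) r + mOf R := by
      simp [mOf]
    have hc : cOf (r :: R) = Sum.elim (fun _ => 0) (fun δ => Finsupp.single δ (1 : ℤ)) r + cOf R := by
      simp [cOf]
    rw [hm, hc, listSum_cons, ← ih, sum_smul_add, sum_smul_add]
    rcases r with t | δ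
    · simp only [Sum.elim_inl, aval, Finsupp.sum_zero_index]
      rw [sum_smul_single, one_smul]
      abel
    · simp only [Sum.elim_inr, aval, Finsupp.sum_zero_index]
      rw [sum_smul_single, one_smul]
      abel

/-- base point: `A(∞) = 0`. -/
theorem Acusp_one : AJ.Acusp 1 = 0 := by
  have h1 := AJ.Acusp_spec 1
  simp only [inv_one, one_smul] at h1
  exact tendsto_nhds_unique h1 (Fermat.Agent.M17.Theta1.tendsto_A_infty L)

theorem listDiv_sub_mem (R : List Pt) :
    listDiv N R - Finsupp.single (cuspPlaceC N 1) (R.length : ℤ) ∈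
      Divisor.degZero (K := ℂ) (F := FC N) := by
  rw [Divisor.mem_degZero, map_sub, degree_listDiv, degree_single (lHypC N), sub_self]

/-- **the Abel-Jacobi image of `∑ (r_i) - n·∞`**. -/
theorem iota_listDiv (R : List Pt) (n : ℤ)
    (h : listDiv N R - Finsupp.single (cuspPlaceC N 1) n ∈ Divisor.degZero (K := ℂ) (F := FC N)) :
    AJ.iota (Pic0.mk ⟨_, h⟩) = QuotientAddGroup.mk (listSum L AJ R) := by
  have hD : pointDivisor N (mOf R) + cuspDivisor N (cOf R + Finsupp.single 1 (-n))
      = listDiv N R - Finsupp.single (cuspPlaceC N 1) n := by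
    rw [cuspDivisor_add, ← add_assoc, pointDivisor_cuspDivisor_of]
    have h1 : cuspDivisor N (Finsupp.single 1 (-n)) = -Finsupp.single (cuspPlaceC N 1) n := by
      rw [cuspDivisor, Finsupp.mapDomain_single, Finsupp.single_neg]
    rw [h1]
    abel
  have h' : pointDivisor N (mOf R) + cuspDivisor N (cOf R + Finsupp.single 1 (-n)) ∈
      Divisor.degZero (K := ℂ) (F := FC N) := by
    rw [hD]; exact h
  have hsum : ((mOf R).sum fun z k => k • L.A z) +
      ((cOf R + Finsupp.single 1 (-n)).sum fun δ k => k • AJ.Acusp δ) = listSum L AJ R := by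
    rw [sum_smul_add, sum_smul_single, Acusp_one, smul_zero, add_zero, sum_mOf_cOf]
  have h1 := AJ.iota_mk (mOf R) (cOf R + Finsupp.single 1 (-n)) h'
  rw [hsum] at h1
  rw [← h1]
  congr 2
  exact Subtype.ext hD.symm

/-! ### the top level: a generic effective divisor of degree `g` is the zero divisor of `F_e` -/

variable {L AJ} {th0 : (Fin g → ℂ) → ℂ} (RT : RTData N L AJ th0)

/-- the list of points `T` as a list of points and cusps. -/
abbrev inl (T : List ℍ) : List Pt := T.map Sum.inl

/-- `T` is good: `l(∑ (t_i)) = 1`. -/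
def Good (T : List ℍ) : Prop := finrank ℂ (riemannRochSpace (listDiv N (inl T))) = 1

/-- for a good list `T` of length `g` and `e = ∑ A(t_i) - k`, the function `F_e` vanishes at every
`t_i`. -/
theorem Fe_eq_zero_of_good (T : List ℍ) (hlen : T.length = g) (hgood : Good (N := N) T) :
    ∀ t ∈ T, (RT.Fe (listSum L AJ (inl T) - RT.k) : ℍ → ℂ) t = 0 := by
  intro t ht
  by_contra hne
  set R : List Pt := inl T with hR
  set e : Fin g → ℂ := listSum L AJ R - RT.k with he
  have hFe : RT.Fe e ≠ 0 := Fermat.Agent.M17.EdgeLemma2.Fe_ne_zero_of_apply RT hne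
  have hZdeg : Divisor.degree (RT.Z e) = g := RT.Z_degree e hFe
  have hZmem : RT.Z e - Finsupp.single (cuspPlaceC N 1) (g : ℤ) ∈
      Divisor.degZero (K := ℂ) (F := FC N) := by
    rw [Divisor.mem_degZero, map_sub, hZdeg, degree_single (lHypC N), sub_self]
  have hZsum := RT.Z_sum e hFe hZmem
  have hRlen : (R.length : ℤ) = g := by rw [hR, inl, List.length_map, hlen]
  have hRmem : listDiv N R - Finsupp.single (cuspPlaceC N 1) (g : ℤ) ∈
      Divisor.degZero (K := ℂ) (F := FC N) := by
    rw [← hRlen]; exact listDiv_sub_mem R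
  have hRsum := iota_listDiv L AJ R g hRmem
  have hek : e + RT.k = listSum L AJ R := by rw [he]; abel
  rw [hek, ← hRsum] at hZsum
  have hcls := AJ.iota_injective hZsum
  have hprin := (QuotientAddGroup.eq).mp hcls
  obtain ⟨f, hf0, hf⟩ := hprin
  have hf' : ∀ v : Place ℂ (FC N), listDiv N R v - RT.Z e v = v.ord f := by
    intro v
    have h1 := hf v
    have h2 : (Divisor.degZero.subtype
        (-⟨RT.Z e - Finsupp.single (cuspPlaceC N 1) (g : ℤ), hZmem⟩ +
          ⟨listDiv N R - Finsupp.single (cuspPlaceC N 1) (g : ℤ), hRmem⟩) : Divisor ℂ (FC N))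
        = -(RT.Z e - Finsupp.single (cuspPlaceC N 1) (g : ℤ)) +
          (listDiv N R - Finsupp.single (cuspPlaceC N 1) (g : ℤ)) := rfl
    rw [h2] at h1
    rw [← h1]
    simp only [Finsupp.add_apply, Finsupp.neg_apply, Finsupp.sub_apply]
    ring
  have hh0 : f⁻¹ ≠ 0 := inv_ne_zero hf0
  have hhord : ∀ v : Place ℂ (FC N), v.ord f⁻¹ = RT.Z e v - listDiv N R v := by
    intro v
    rw [v.ord_inv, ← hf' v]
    ring
  have hhmem : f⁻¹ ∈ riemannRochSpace (listDiv N R) := by
    rw [mem_L_iff hh0]
    intro v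
    rw [hhord v]
    have := RT.Z_nonneg e v
    omega
  have h1mem : (1 : FC N) ∈ riemannRochSpace (listDiv N R) := by
    rw [mem_L_iff one_ne_zero]
    intro v
    rw [v.ord_one]
    have := listDiv_nonneg (N := N) R v
    simp only [Finsupp.coe_zero, Pi.zero_apply] at this
    omega
  have h1ne : (⟨1, h1mem⟩ : riemannRochSpace (listDiv N R)) ≠ 0 := by
    intro h0
    exact one_ne_zero (congrArg Subtype.val h0)
  obtain ⟨c, hc⟩ := (finrank_eq_one_iff_of_nonzero' _ h1ne).mp hgood ⟨f⁻¹, hhmem⟩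
  have hc' : f⁻¹ = algebraMap ℂ (FC N) c := by
    have := congrArg Subtype.val hc
    simp only [Submodule.coe_smul] at this
    rw [← this, Algebra.smul_def, mul_one]
  have hZeq : ∀ v : Place ℂ (FC N), RT.Z e v = listDiv N R v := by
    intro v
    have h1 := hhord v
    rw [hc', FF.ffp_ord_algebraMap] at h1
    omega
  have hmem : (Sum.inl t : Pt) ∈ R := List.mem_map.mpr ⟨t, ht, rfl⟩
  have h1 := one_le_listDiv_of_mem (N := N) hmem
  have h2 := Fermat.Agent.M17.EdgeLemma2.Z_pt_eq_zero RT hne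
  have h3 := hZeq (ptPlaceC N 1 t)
  have h4 : plc N (Sum.inl t) = ptPlaceC N 1 t := rfl
  rw [h4] at h1
  omega

/-! ### density: a continuous function of `t ∈ ℍ` vanishing off finitely many places vanishes -/

variable (N) in
/-- the points of `ℍ` lying over a finite set of places form a countable set. -/
theorem countable_setOf_ptPlaceC_mem (B : Set (Place ℂ (FC N))) (hB : B.Finite) :
    {w : ℂ | ∃ h : 0 < w.im, ptPlaceC N 1 ⟨w, h⟩ ∈ B}.Countable := by
  have : Countable (Matrix (Fin 2) (Fin 2) ℤ) := inferInstanceAs (Countable (Fin 2 → Fin 2 → ℤ))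
  have : Countable SL(2, ℤ) := Subtype.countable
  have hsub : {w : ℂ | ∃ h : 0 < w.im, ptPlaceC N 1 ⟨w, h⟩ ∈ B} ⊆
      ⋃ v ∈ B, {w : ℂ | ∃ h : 0 < w.im, ptPlaceC N 1 ⟨w, h⟩ = v} := by
    rintro w ⟨h, hw⟩
    exact Set.mem_biUnion hw ⟨h, rfl⟩
  refine (hB.countable.biUnion fun v _ => ?_).mono hsub
  by_cases hne : {w : ℂ | ∃ h : 0 < w.im, ptPlaceC N 1 ⟨w, h⟩ = v}.Nonempty
  · obtain ⟨w₀, h₀, hw₀⟩ := hne
    refine (Set.countable_range fun γ : SL(2, ℤ) => (((γ • (⟨w₀, h₀⟩ : ℍ) : ℍ)) : ℂ)).mono ?_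
    rintro w ⟨h, hw⟩
    obtain ⟨γ, -, hγ⟩ := (Fermat.Agent.M17.Dict4.ptPlaceC_eq_iff N ⟨w₀, h₀⟩ ⟨w, h⟩).mp
      (hw₀.trans hw.symm)
    exact ⟨γ, congrArg UpperHalfPlane.coe hγ⟩
  · rw [Set.not_nonempty_iff_eq_empty] at hne
    rw [hne]
    exact Set.countable_empty

/-- **density**: if `θ(A t + c) = 0` for all `t` outside finitely many places, then for all `t`. -/
theorem eq_zero_of_generic (hcont : Continuous th0) (B : Set (Place ℂ (FC N))) (hB : B.Finite)
    (c : Fin g → ℂ) (h : ∀ t : ℍ, ptPlaceC N 1 t ∉ B → th0 (L.A t + c) = 0) (t : ℍ) :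
    th0 (L.A t + c) = 0 := by
  set F' : ℂ → ℂ := fun w => th0 (L.A (ofComplex w) + c) with hF'
  have hFt : F' (t : ℂ) = th0 (L.A t + c) := by rw [hF']; simp only [ofComplex_apply]
  have hFc : ContinuousAt F' (t : ℂ) := by
    have h1 : ContinuousAt (fun w : ℂ => L.A (ofComplex w)) (t : ℂ) :=
      (Fermat.Agent.M17.Theta1.hasDerivAt_A L t).continuousAt
    exact hcont.continuousAt.comp (h1.add continuousAt_const)
  by_contra hne
  rw [← hFt] at hne
  have hU : {w : ℂ | F' w ≠ 0 ∧ 0 < w.im} ∈ 𝓝 (t : ℂ) := by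
    have h1 : ∀ᶠ w in 𝓝 (t : ℂ), F' w ≠ 0 := hFc.eventually_ne hne
    have h2 : ∀ᶠ w in 𝓝 (t : ℂ), 0 < w.im :=
      (isOpen_lt continuous_const Complex.continuous_im).mem_nhds t.im_pos
    exact h1.and h2
  have hdense := (countable_setOf_ptPlaceC_mem N B hB).dense_compl ℝ
  obtain ⟨w, ⟨hw0, hwim⟩, hwS⟩ := mem_closure_iff_nhds.mp (hdense (t : ℂ)) _ hU
  apply hw0
  have hwB : ptPlaceC N 1 ⟨w, hwim⟩ ∉ B := fun hmem => hwS ⟨hwim, hmem⟩
  have := h ⟨w, hwim⟩ hwB
  rw [hF']
  show th0 (L.A (ofComplex w) + c) = 0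
  rw [ofComplex_apply_of_im_pos hwim]
  exact this

/-! ### (a): `θ` vanishes on `W_{g-1} - k` -/

/-- the genus of `F_ℂ` is the `g` of `LatData`. -/
theorem genus_eq (L : LatData N g) : genusFF ℂ (FC N) = g := by
  have h1 := Fermat.Agent.M17.GenusComplex2.genusFF_complex N
  have h2 : finrank ℂ (CuspForm (Gamma0 N) 2) = g := by
    rw [Module.finrank_eq_card_basis L.w, Fintype.card_fin]
  rw [← h2]
  exact h1

@[simp] theorem inl_cons (t : ℍ) (T : List ℍ) : inl (t :: T) = (Sum.inl t : Pt) :: inl T := rfl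

@[simp] theorem inl_nil : inl ([] : List ℍ) = [] := rfl

/-- the bad set of a good list of length `< g` is finite. -/
theorem finite_bad (L : LatData N g) (T : List ℍ) (hlen : T.length < g)
    (hgood : Good (N := N) T) :
    {P : Place ℂ (FC N) |
      finrank ℂ (riemannRochSpace (listDiv N (inl T) + Finsupp.single P 1)) ≠ 1}.Finite := by
  refine Fermat.Agent.M17.GenericRR2.gen_FC N (listDiv N (inl T)) ?_ hgood
  have h1 : Divisor.degree (listDiv N (inl T)) = T.length := by
    rw [degree_listDiv, inl, List.length_map]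
  rw [h1]
  have h2 := genus_eq L
  have h3 : genusFF ℂ ↥(laurentBaseChange ℂ (modularFunctionFieldFull N)) = g := h2
  rw [h3]
  exact_mod_cast hlen

theorem good_cons_of_not_mem (T : List ℍ) (t : ℍ)
    (ht : ptPlaceC N 1 t ∉ {P : Place ℂ (FC N) |
      finrank ℂ (riemannRochSpace (listDiv N (inl T) + Finsupp.single P 1)) ≠ 1}) :
    Good (N := N) (t :: T) := by
  simp only [Set.mem_ofPred_eq, not_not] at ht
  show finrank ℂ (riemannRochSpace (listDiv N (inl (t :: T)))) = 1
  rw [inl_cons, listDiv_cons, add_comm]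
  exact ht

/-- the induction: `T` good, `R` arbitrary, `|T| + |R| = g - 1`. -/
theorem vanish_aux (hcont : Continuous th0) (heven : ∀ z, th0 (-z) = th0 z) :
    ∀ n : ℕ, ∀ T R : List ℍ, R.length = n → T.length + n + 1 = g → Good (N := N) T →
      th0 (listSum L AJ (inl T) + listSum L AJ (inl R) - RT.k) = 0 := by
  intro n
  induction n with
  | zero =>
    intro T R hR hT hgood
    rw [List.length_eq_zero_iff] at hR
    subst hR
    have hB := finite_bad L T (by omega) hgood
    set B := {P : Place ℂ (FC N) |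
      finrank ℂ (riemannRochSpace (listDiv N (inl T) + Finsupp.single P 1)) ≠ 1} with hBdef
    obtain ⟨τ', hτ'⟩ : ∃ τ' : ℍ, ptPlaceC N 1 τ' ∉ B := by
      by_contra hall
      push Not at hall
      have := eq_zero_of_generic (L := L) (th0 := fun _ => (1 : ℂ)) continuous_const B hB 0
        (fun t ht => absurd (hall t) ht) UpperHalfPlane.I
      exact one_ne_zero this
    have hgood' := good_cons_of_not_mem T τ' hτ'
    have h1 := Fe_eq_zero_of_good RT (τ' :: T) (by rw [List.length_cons]; omega) hgood' τ'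
      List.mem_cons_self
    rw [RT.Fe_apply, inl_cons, listSum_cons] at h1
    have h2 : L.A τ' - (aval L AJ (Sum.inl τ') + listSum L AJ (inl T) - RT.k)
        = -(listSum L AJ (inl T) - RT.k) := by
      show L.A τ' - (L.A τ' + listSum L AJ (inl T) - RT.k) = _
      abel
    rw [h2, heven] at h1
    rw [inl_nil, listSum_nil, add_zero]
    exact h1
  | succ n ih =>
    intro T R hR hT hgood
    obtain ⟨r, R', rfl⟩ := List.exists_cons_of_length_eq_add_one hR
    have hR' : R'.length = n := by simpa using hR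
    have hB := finite_bad L T (by omega) hgood
    set B := {P : Place ℂ (FC N) |
      finrank ℂ (riemannRochSpace (listDiv N (inl T) + Finsupp.single P 1)) ≠ 1} with hBdef
    set c : Fin g → ℂ := listSum L AJ (inl T) + listSum L AJ (inl R') - RT.k with hc
    have hgen : ∀ t : ℍ, ptPlaceC N 1 t ∉ B → th0 (L.A t + c) = 0 := by
      intro t ht
      have hgood' := good_cons_of_not_mem T t ht
      have h1 := ih (t :: T) R' hR' (by rw [List.length_cons]; omega) hgood'
      rw [inl_cons, listSum_cons] at h1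
      have h2 : aval L AJ (Sum.inl t) + listSum L AJ (inl T) + listSum L AJ (inl R') - RT.k
          = L.A t + c := by
        show L.A t + listSum L AJ (inl T) + listSum L AJ (inl R') - RT.k = _
        rw [hc]; abel
      rw [h2] at h1
      exact h1
    have h3 := eq_zero_of_generic hcont B hB c hgen r
    rw [inl_cons, listSum_cons]
    have h4 : listSum L AJ (inl T) + (aval L AJ (Sum.inl r) + listSum L AJ (inl R')) - RT.k
        = L.A r + c := by
      show listSum L AJ (inl T) + (L.A r + listSum L AJ (inl R')) - RT.k = _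
      rw [hc]; abel
    rw [h4]
    exact h3

theorem good_nil : Good (N := N) [] := by
  show finrank ℂ (riemannRochSpace (listDiv N (inl []))) = 1
  rw [inl_nil, listDiv_nil]
  exact finrank_L_zero (lHypC N)

/-- **(a)**, list form: `θ(∑_{t ∈ R} A(t) - k) = 0` for every list `R` of `g - 1` points of `ℍ`. -/
theorem theta_vanish_list (hcont : Continuous th0) (heven : ∀ z, th0 (-z) = th0 z)
    (R : List ℍ) (hR : R.length + 1 = g) : th0 (listSum L AJ (inl R) - RT.k) = 0 := by
  have h := vanish_aux RT hcont heven R.length [] R rfl (by simpa using hR) good_nil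
  rw [inl_nil, listSum_nil, zero_add] at h
  exact h

theorem listSum_inl (T : List ℍ) : listSum L AJ (inl T) = (T.map L.A).sum := by
  induction T with
  | nil => rfl
  | cons t T ih =>
    rw [inl_cons, listSum_cons, ih, List.map_cons, List.sum_cons]
    rfl

/-- **(a)**: `θ(∑_{i < g-1} A(Q_i) - k) = 0`. -/
theorem theta_vanish (hcont : Continuous th0) (heven : ∀ z, th0 (-z) = th0 z) (hg : 0 < g)
    (Q : Fin (g - 1) → ℍ) : th0 (∑ i, L.A (Q i) - RT.k) = 0 := by
  have h := theta_vanish_list RT hcont heven (List.ofFn Q) (by rw [List.length_ofFn]; omega)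
  rw [listSum_inl, List.map_ofFn, List.sum_ofFn] at h
  exact h

/-! ### (a'): the same with cusps -/

/-- replace the cusps of a list by the points `δ⁻¹ • τ`. -/
noncomputable def spec (τ : ℍ) : Pt → ℍ := Sum.elim id (fun δ => δ⁻¹ • τ)

theorem tendsto_listSum_spec (R : List Pt) :
    Tendsto (fun τ : ℍ => listSum L AJ (inl (R.map (spec τ)))) atImInfty
      (𝓝 (listSum L AJ R)) := by
  induction R with
  | nil => exact tendsto_const_nhds
  | cons r R ih =>
    simp only [List.map_cons, listSum_cons]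
    refine Tendsto.add ?_ ih
    rcases r with t | δ
    · exact tendsto_const_nhds
    · exact AJ.Acusp_spec δ

/-- **(a')**: `θ(∑ A(r_i) - k) = 0` for every list of `g - 1` points of `ℍ` and cusps. -/
theorem theta_vanish_list' (hcont : Continuous th0) (heven : ∀ z, th0 (-z) = th0 z)
    (R : List Pt) (hR : R.length + 1 = g) : th0 (listSum L AJ R - RT.k) = 0 := by
  have h1 : Tendsto (fun τ : ℍ => th0 (listSum L AJ (inl (R.map (spec τ))) - RT.k)) atImInfty
      (𝓝 (th0 (listSum L AJ R - RT.k))) :=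
    (hcont.tendsto _).comp ((tendsto_listSum_spec R).sub tendsto_const_nhds)
  have h2 : (fun τ : ℍ => th0 (listSum L AJ (inl (R.map (spec τ))) - RT.k)) = fun _ => 0 := by
    funext τ
    exact theta_vanish_list RT hcont heven (R.map (spec τ)) (by rw [List.length_map]; exact hR)
  rw [h2] at h1
  exact tendsto_nhds_unique h1 tendsto_const_nhds

/-! ### (S-A): `l(Z e) = 1` -/

section Generic

variable {K V : Type*} [Field K] [AddCommGroup V] [Module K V]

theorem finrank_pos_of_mem (S : Submodule K V) [FiniteDimensional K S] {x : V} (hx : x ∈ S)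
    (hx0 : x ≠ 0) : 0 < finrank K S :=
  Module.finrank_pos_iff_exists_ne_zero.mpr ⟨⟨x, hx⟩, fun h0 => hx0 (congrArg Subtype.val h0)⟩

theorem exists_ne_zero_of_finrank_pos (S : Submodule K V) [FiniteDimensional K S]
    (h : 0 < finrank K S) : ∃ x ∈ S, x ≠ 0 := by
  obtain ⟨x, hx⟩ := Module.finrank_pos_iff_exists_ne_zero.mp h
  exact ⟨x, x.2, fun h0 => hx (Subtype.ext h0)⟩

end Generic

variable (N) in
/-- an effective divisor of `F_ℂ` of degree `n` is `∑ (r_i)` for a list of `n` points and cusps. -/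
theorem exists_list_of_nonneg : ∀ (n : ℕ) (E : Divisor ℂ (FC N)), 0 ≤ E →
    Divisor.degree E = n → ∃ R : List Pt, R.length = n ∧ E = listDiv N R := by
  intro n
  induction n with
  | zero =>
    intro E hE hdeg
    refine ⟨[], rfl, ?_⟩
    rw [listDiv_nil]
    exact eq_zero_of_degree_eq_zero (lHypC N) hE (by simpa using hdeg)
  | succ n ih =>
    intro E hE hdeg
    have hE0 : E ≠ 0 := by
      rintro rfl
      rw [map_zero] at hdeg
      have : (0 : ℤ) = ((n + 1 : ℕ) : ℤ) := hdeg
      omega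
    obtain ⟨v, hv⟩ := Finsupp.support_nonempty_iff.mpr hE0
    have hv0 : E v ≠ 0 := Finsupp.mem_support_iff.mp hv
    have hvpos : 0 < E v := by
      have := hE v
      simp only [Finsupp.coe_zero, Pi.zero_apply] at this
      omega
    obtain ⟨r, hr⟩ : ∃ r : Pt, plc N r = v := by
      rcases CSurj25.place_cases N v with ⟨z, hz⟩ | ⟨δ, hδ⟩
      · exact ⟨Sum.inl z, hz.symm⟩
      · exact ⟨Sum.inr δ, hδ.symm⟩
    have hE' : 0 ≤ E - Finsupp.single v 1 := by
      intro w
      classical
      rw [Finsupp.sub_apply, Finsupp.single_apply]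
      simp only [Finsupp.coe_zero, Pi.zero_apply]
      split_ifs with hw
      · subst hw; omega
      · have := hE w
        simp only [Finsupp.coe_zero, Pi.zero_apply] at this
        omega
    have hdeg' : Divisor.degree (E - Finsupp.single v 1) = n := by
      rw [map_sub, hdeg, degree_single (lHypC N)]
      push_cast
      ring
    obtain ⟨R, hRlen, hR⟩ := ih _ hE' hdeg'
    refine ⟨r :: R, by rw [List.length_cons, hRlen], ?_⟩
    rw [listDiv_cons, hr, ← hR]
    abel

theorem Fe_eq_zero_of_forall {e : Fin g → ℂ} (h : ∀ τ : ℍ, (RT.Fe e : ℍ → ℂ) τ = 0) :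
    RT.Fe e = 0 :=
  Subtype.ext (funext h)

/-- **(S-A)**: the zero divisor of `F_e ≠ 0` is non-special: `l(Z e) = 1`. -/
theorem finrank_Z (hcont : Continuous th0) (heven : ∀ z, th0 (-z) = th0 z)
    (hper : ∀ l ∈ L.lattice, ∀ z, th0 (z + l) = 0 ↔ th0 z = 0)
    (e : Fin g → ℂ) (he : RT.Fe e ≠ 0) : finrank ℂ (riemannRochSpace (RT.Z e)) = 1 := by
  have hZdeg : Divisor.degree (RT.Z e) = g := RT.Z_degree e he
  have hZnn : 0 ≤ RT.Z e := fun v => RT.Z_nonneg e v
  rcases Nat.eq_zero_or_pos g with hg0 | hgpos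
  · have : RT.Z e = 0 := eq_zero_of_degree_eq_zero (lHypC N) hZnn (by rw [hZdeg, hg0]; rfl)
    rw [this]
    exact finrank_L_zero (lHypC N)
  by_contra hne1
  have hfd : FiniteDimensional ℂ (riemannRochSpace (RT.Z e)) := finiteDimensional_L (lHypC N) _
  have h1mem : (1 : FC N) ∈ riemannRochSpace (RT.Z e) := by
    rw [mem_L_iff one_ne_zero]
    intro v
    rw [v.ord_one]
    have := RT.Z_nonneg e v
    omega
  have hpos : 0 < finrank ℂ (riemannRochSpace (RT.Z e)) :=
    finrank_pos_of_mem _ h1mem one_ne_zero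
  have h2le : 2 ≤ finrank ℂ (riemannRochSpace (RT.Z e)) := by omega
  apply he
  refine Fe_eq_zero_of_forall RT fun τ => ?_
  obtain ⟨P, hP⟩ : ∃ P : Place ℂ (FC N), P = ptPlaceC N 1 τ := ⟨_, rfl⟩
  obtain ⟨D0, hD0⟩ : ∃ D0 : Divisor ℂ (FC N), D0 = RT.Z e - Finsupp.single P 1 := ⟨_, rfl⟩
  have hD0P : D0 + Finsupp.single P 1 = RT.Z e := by rw [hD0]; exact sub_add_cancel _ _
  have hD0deg : Divisor.degree D0 = ((g - 1 : ℕ) : ℤ) := by
    rw [hD0, map_sub, hZdeg, degree_single (lHypC N)]
    push_cast [Nat.cast_sub hgpos]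
    ring
  have hfd0 : FiniteDimensional ℂ (riemannRochSpace D0) := finiteDimensional_L (lHypC N) _
  have hle := (finrank_L_add_single_le (lHypC N) D0 P).2
  rw [hD0P] at hle
  have h2le' : 2 ≤ finrank ℂ (riemannRochSpace D0) + 1 := le_trans h2le hle
  have hD0pos : 0 < finrank ℂ (riemannRochSpace D0) := by omega
  obtain ⟨f, hfmem, hfF⟩ := exists_ne_zero_of_finrank_pos _ hD0pos
  have hfL := (mem_L_iff hfF).mp hfmem
  obtain ⟨E, hE⟩ : ∃ E : Divisor ℂ (FC N), E = divOf (lHypC N) hfF + D0 := ⟨_, rfl⟩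
  have hEnn : 0 ≤ E := by
    intro v
    rw [hE, Finsupp.add_apply, divOf_apply]
    have := hfL v
    simp only [Finsupp.coe_zero, Pi.zero_apply]
    omega
  have hEdeg : Divisor.degree E = ((g - 1 : ℕ) : ℤ) := by
    rw [hE, map_add, degree_divOf, zero_add, hD0deg]
  obtain ⟨R, hRlen, hR⟩ := exists_list_of_nonneg N (g - 1) E hEnn hEdeg
  obtain ⟨R', hR'⟩ : ∃ R' : List Pt, R' = Sum.inl τ :: R := ⟨_, rfl⟩
  have hR'div : listDiv N R' = divOf (lHypC N) hfF + RT.Z e := by
    rw [hR', listDiv_cons, ← hR, hE, ← hD0P]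
    show Finsupp.single (ptPlaceC N 1 τ) 1 + (divOf (lHypC N) hfF + D0) = _
    rw [← hP]
    abel
  have hR'len : (R'.length : ℤ) = g := by
    rw [hR', List.length_cons, hRlen]
    push_cast [Nat.cast_sub hgpos]
    ring
  have hR'mem : listDiv N R' - Finsupp.single (cuspPlaceC N 1) (g : ℤ) ∈
      Divisor.degZero (K := ℂ) (F := FC N) := by
    rw [← hR'len]; exact listDiv_sub_mem R'
  have hZmem : RT.Z e - Finsupp.single (cuspPlaceC N 1) (g : ℤ) ∈
      Divisor.degZero (K := ℂ) (F := FC N) := by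
    rw [Divisor.mem_degZero, map_sub, hZdeg, degree_single (lHypC N), sub_self]
  have hcls : Pic0.mk ⟨_, hR'mem⟩ = Pic0.mk ⟨_, hZmem⟩ := by
    refine (QuotientAddGroup.eq).mpr ?_
    refine ⟨f⁻¹, inv_ne_zero hfF, fun v => ?_⟩
    have h2 : (Divisor.degZero.subtype
        (-⟨listDiv N R' - Finsupp.single (cuspPlaceC N 1) (g : ℤ), hR'mem⟩ +
          ⟨RT.Z e - Finsupp.single (cuspPlaceC N 1) (g : ℤ), hZmem⟩) : Divisor ℂ (FC N))
        = -(listDiv N R' - Finsupp.single (cuspPlaceC N 1) (g : ℤ)) +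
          (RT.Z e - Finsupp.single (cuspPlaceC N 1) (g : ℤ)) := rfl
    rw [h2, hR'div, v.ord_inv]
    simp only [Finsupp.add_apply, Finsupp.neg_apply, Finsupp.sub_apply, divOf_apply]
    ring
  have h3 := iota_listDiv L AJ R' g hR'mem
  have h4 := RT.Z_sum e he hZmem
  rw [hcls, h4] at h3
  have h5 := (QuotientAddGroup.eq).mp h3
  -- `h5 : -(e + k) + listSum R' ∈ Λ`
  have hS : listSum L AJ R' = L.A τ + listSum L AJ R := by
    rw [hR', listSum_cons]; rfl
  rw [RT.Fe_apply]
  have h6 : L.A τ - e = (RT.k - listSum L AJ R) + (-(e + RT.k) + listSum L AJ R') := by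
    rw [hS]; abel
  rw [h6, hper _ h5]
  have h7 : RT.k - listSum L AJ R = -(listSum L AJ R - RT.k) := by abel
  rw [h7, heven]
  exact theta_vanish_list' RT hcont heven R (by rw [hRlen]; omega)

variable (N) in
/-- an effective divisor linearly equivalent to an effective divisor `E` with `l(E) = 1` is `E`. -/
theorem eq_of_principal_of_finrank_one {D E : Divisor ℂ (FC N)} (hD : 0 ≤ D) (hE : 0 ≤ E)
    (h1 : finrank ℂ (riemannRochSpace E) = 1) (hprin : Divisor.IsPrincipal (D - E)) : D = E := by
  obtain ⟨f, hf0, hf⟩ := hprin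
  have hfmem : f ∈ riemannRochSpace E := by
    rw [mem_L_iff hf0]
    intro v
    rw [← hf v, Finsupp.sub_apply]
    have := hD v
    simp only [Finsupp.coe_zero, Pi.zero_apply] at this
    omega
  have h1mem : (1 : FC N) ∈ riemannRochSpace E := by
    rw [mem_L_iff one_ne_zero]
    intro v
    rw [v.ord_one]
    have := hE v
    simp only [Finsupp.coe_zero, Pi.zero_apply] at this
    omega
  have h1ne : (⟨1, h1mem⟩ : riemannRochSpace E) ≠ 0 := by
    intro h0
    exact one_ne_zero (congrArg Subtype.val h0)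
  obtain ⟨c, hc⟩ := (finrank_eq_one_iff_of_nonzero' _ h1ne).mp h1 ⟨f, hfmem⟩
  have hc' : f = algebraMap ℂ (FC N) c := by
    have := congrArg Subtype.val hc
    simp only [Submodule.coe_smul] at this
    rw [← this, Algebra.smul_def, mul_one]
  ext v
  have h2 := hf v
  rw [hc', FF.ffp_ord_algebraMap, Finsupp.sub_apply] at h2
  omega

/-- **(S-A), consumer form**: an effective divisor linearly equivalent to `Z e` is `Z e`. -/
theorem eq_Z_of_principal (hcont : Continuous th0) (heven : ∀ z, th0 (-z) = th0 z)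
    (hper : ∀ l ∈ L.lattice, ∀ z, th0 (z + l) = 0 ↔ th0 z = 0)
    (e : Fin g → ℂ) (he : RT.Fe e ≠ 0) (D : Divisor ℂ (FC N)) (hD : 0 ≤ D)
    (hprin : Divisor.IsPrincipal (D - RT.Z e)) : D = RT.Z e :=
  eq_of_principal_of_finrank_one N hD (fun v => RT.Z_nonneg e v)
    (finrank_Z RT hcont heven hper e he) hprin

end Fermat.Agent.M17.SpecialA0
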