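import Fermat.Agent.M17.ChainInst5
import Fermat.Agent.M17.ConjEdge2
import Fermat.Agent.M17.RatZero3
import Fermat.Agent.M17.SpecialA0

/-!
# (CHAIN) closed: the chain theorem, unconditionally (given `LatData` and `AJData`)

`ConjEdge2.edgeStep_of` (CH-2) with (CH-1) `RatZero3` and (S-A) `SpecialA0` plugged in gives
`ChainFinal5.EdgeStepAll`, hence lead's `Fin0.ChainHyp`.
-/

set_option autoImplicit false

namespace Fermat.Agent.M17.ChainClosed5

open ModularCurve AlgebraicCurve Fermat.Agent.M17.Interfaces7 Fermat.Agent.M17.Theta1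
open Fermat.Agent.X0 Fermat.Agent.ES.KUM Fermat.Agent.ES.KUM.FieldL25 Fermat.Agent.ES.KUM.CCusp16
open Fermat.Agent.M17.ChainFinal5 Fermat.Agent.J.DESC.DescentFinal24

attribute [local instance] instAlgebraQbarComplex instTowerQbarComplex

/-- **(CH-2) closed**: the conjugate edge step for `θ(A - e)`. -/
theorem edgeStepAll (N : ℕ) [NeZero N] {g : ℕ} (L : LatData N g) (AJ : AJData N L)
    (lift : JZero N → Fin g → ℂ)
    (hlift : ∀ x : JZero N, (QuotientAddGroup.mk (lift x) : (Fin g → ℂ) ⧸ L.lattice) =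
      AJ.iota (extPic0C N x)) (ι' : Type*) :
    EdgeStepAll (Fermat.Agent.M17.RTFinal5.rtDataFinal L AJ) lift ι' := by
  intro T i0 hlen hsum xs hxs K1 hK1
  set RT := Fermat.Agent.M17.RTFinal5.rtDataFinal L AJ
  have hSA : ∀ e, RT.Fe e ≠ 0 → ∀ D' : Divisor ℂ (FC N), 0 ≤ D' →
      Divisor.IsPrincipal (D' - RT.Z e) → D' = RT.Z e := fun e he D' h0 hp =>
    Fermat.Agent.M17.SpecialA0.eq_Z_of_principal RT (th0_continuous L) (th0_even L) (th0_per L)
      e he D' h0 hp
  exact Fermat.Agent.M17.ConjEdge2.edgeStep_of RT hlift (th0_qp L)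
    (fun e he D hD hdeg hx => Fermat.Agent.M17.RatZero3.Z_eq_extDivC RT hSA e he D hD hdeg hx)
    (fun x => Fermat.Agent.M17.RatZero3.exists_effective_rep L x)
    T i0 hlen hsum xs hxs K1 hK1

/-- **(CHAIN)**, lead's literal target. -/
theorem chain (N : ℕ) [NeZero N] {g : ℕ} (L : LatData N g) (AJ : AJData N L) :
    Fermat.Agent.M17.Fin0.ChainHyp N L AJ (Fermat.Agent.M17.Fin0.liftOf AJ)
      (Fermat.Agent.M17.RTFinal5.rtDataFinal L AJ).k :=
  Fermat.Agent.M17.ChainInst5.chainHyp_of_edgeStep N L AJ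
    (edgeStepAll N L AJ _ (Fermat.Agent.M17.Fin0.liftOf_spec AJ) _)

/-- **S17 from (RL) alone.** -/
theorem s17_of_RL (N : ℕ) [NeZero N]
    (hRL : ∀ (g : ℕ) (L : LatData N g),
      Fermat.Agent.M17.AJAssembly7.RLPair L (Fermat.Agent.M17.AJAssembly7.AcOf L)) :
    AddGroup.FG ↥(FixedPoints.addSubgroup (AlgebraicClosure ℚ ≃ₐ[ℚ] AlgebraicClosure ℚ)
      (JZero N)) :=
  Fermat.Agent.M17.Fin0.s17_of_RL_chain N hRL fun _ L AJ => chain N L AJ

end Fermat.Agent.M17.ChainClosed5
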