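/-
M17 (helper6), programme M17 (target S17); imported by no statement.

**(CH-3): connectivity of the good set `V` of the A4' chaining (board 1171)**, against `RTData` as
a hypothesis, in lead's `CuspMove0` vocabulary.

`lift : J₀(N)(ℚ̄) → ℂ^g` any lift of `iota ∘ extPic0C`, `S` a finite set of translation vectors,
`V = {x | ∀ s ∈ S, th0 (lift x + s) ≠ 0}`, `hper` : the zero set of `th0` is lattice-invariant.

* `iota_ext_pairClass` : `iota (ext [c − b]) = A P_c − A Q_b` for point places;
* `finite_bad` : for `y ∈ V` and a point place `b`, all but finitely many point places `c` have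
  `y + [c − b] ∈ V`  (`τ ↦ th0 (lift y + A τ − A Q_b + s) = F_e(τ)` is `≠ 0` at `Q_b`, so its zeros
  lie in the finite support of `Z e`);
* `infinite_pointPlaces` : there are infinitely many point places (`j` takes every algebraic value);
* `connected` : any two points of `V` are joined by a chain of edges `y ↦ y + [a − b]`
  (`a b` point places) inside `V`  (helper5's two chains meeting in the middle, as an induction on
  lead's `CuspMove0.exists_chain`).
-/
import Mathlib
import Fermat.Agent.M17.Rvt6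
import Fermat.Agent.M17.CuspMove0
import Fermat.Agent.M15.DivGeneric4

set_option autoImplicit false
set_option linter.unusedSectionVars false
set_option linter.unusedVariables false

namespace Fermat.Agent.M17.Connect6

open ModularCurve ModularCurve.Period CongruenceSubgroup UpperHalfPlane AlgebraicCurve
open Fermat.Agent.M17.Interfaces7 Fermat.Agent.M17.CuspMove0 Fermat.Agent.M17.Rvt6
open Fermat.Agent.ES.KUM Fermat.Agent.ES.KUM.CCusp16 Fermat.Agent.X0.SurjPoint
open Fermat.Agent.X0 Fermat.Agent.J.DESC.DescentFinal24 Fermat.Agent.ES.KUM.FieldL25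
open scoped MatrixGroups

attribute [local instance] instAlgebraQbarComplex instTowerQbarComplex

variable {N : ℕ} [NeZero N]

/-! ### point places -/

theorem extDivC_single (w : Place Qb (FQ N)) (n : ℤ) :
    extDivC N (Finsupp.single w n) = Finsupp.single (extPlaceC N w) n :=
  Fermat.Agent.J.DESC.ExtPic22.extDiv_single _ _ w n

/-- there are infinitely many point places: `j` takes every algebraic value. -/
theorem infinite_pointPlaces : {c : Place Qb (FQ N) | IsPointPlace N c}.Infinite := by
  choose w hw using fun α : Qb =>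
    Fermat.Agent.M15.DivGeneric4.exists_zero (isGen_jL Qb N) α
  have hpt : ∀ α, IsPointPlace N (w α) := by
    intro α
    refine isPointPlace_of_ord_nonneg N (w α) ?_
    by_contra hneg
    have hj0 : jL Qb N ≠ 0 := by
      intro h0
      rw [h0, Place.ord_zero] at hneg
      exact hneg le_rfl
    have h1 : (w α).ord (jL Qb N + -algebraMap Qb (FQ N) α) = (w α).ord (jL Qb N) :=
      Fermat.Agent.X0.FF.ord_add_eq_of_lt (w α) hj0 (by
        rw [Fermat.Agent.X0.FF.ord_neg, Fermat.Agent.X0.FF.ord_algebraMap]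
        exact not_le.1 hneg)
    have h2 := hw α
    rw [sub_eq_add_neg, h1] at h2
    exact hneg h2.le
  have hinj : Function.Injective w := by
    intro α β hαβ
    by_contra hne
    have h1 := hw α
    have h2 := hw β
    rw [← hαβ] at h2
    have hc : algebraMap Qb (FQ N) (α - β) ≠ 0 := by
      rw [Ne, map_eq_zero, sub_eq_zero]
      exact hne
    have h3 : (w α).ord (algebraMap Qb (FQ N) (α - β) + (jL Qb N - algebraMap Qb (FQ N) α))
        = (w α).ord (algebraMap Qb (FQ N) (α - β)) :=
      Fermat.Agent.X0.FF.ord_add_eq_of_lt (w α) hc (by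
        rw [Fermat.Agent.X0.FF.ord_algebraMap]
        exact h1)
    have h4 : algebraMap Qb (FQ N) (α - β) + (jL Qb N - algebraMap Qb (FQ N) α)
        = jL Qb N - algebraMap Qb (FQ N) β := by
      rw [map_sub]
      ring
    have h5 : (w α).ord (jL Qb N - algebraMap Qb (FQ N) β) = 0 := by
      rw [← h4, h3, Fermat.Agent.X0.FF.ord_algebraMap]
    rw [h5] at h2
    exact lt_irrefl _ h2
  exact Set.infinite_of_injective_forall_mem hinj hpt

theorem pairClass_add (a b c : Place Qb (FQ N)) :
    pairClass N a b + pairClass N c a = pairClass N c b := by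
  unfold pairClass
  rw [← Pic0.mk_add]
  congr 1
  apply Subtype.ext
  show (Finsupp.single a (1 : ℤ) - Finsupp.single b 1) + (Finsupp.single c 1 - Finsupp.single a 1)
    = Finsupp.single c 1 - Finsupp.single b 1
  abel

/-! ### the Abel-Jacobi image of an edge -/

section Edge

variable {g : ℕ} {L : LatData N g}

/-- `iota (ext [c − b]) = A P − A Q` for point places `c ↦ P`, `b ↦ Q`. -/
theorem iota_ext_pairClass (AJ : AJData N L) {c b : Place Qb (FQ N)} {P Q : ℍ}
    (hc : extPlaceC N c = ptPlaceC N 1 P) (hb : extPlaceC N b = ptPlaceC N 1 Q) :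
    AJ.iota (extPic0C N (pairClass N c b)) = QuotientAddGroup.mk (L.A P - L.A Q) := by
  classical
  set m : ℍ →₀ ℤ := Finsupp.single P 1 - Finsupp.single Q 1 with hm
  have hdiv : pointDivisor N m + cuspDivisor N 0
      = extDivC N (Finsupp.single c 1 - Finsupp.single b 1) := by
    have h0 : pointDivisor N m = Finsupp.mapDomain.addMonoidHom (ptPlaceC N 1) m := rfl
    have h1 : cuspDivisor N 0 = 0 := Finsupp.mapDomain_zero
    rw [h0, h1, add_zero, hm, map_sub, map_sub, extDivC_single, extDivC_single, hc, hb]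
    simp only [Finsupp.mapDomain.addMonoidHom_apply, Finsupp.mapDomain_single]
  have hmem : pointDivisor N m + cuspDivisor N 0 ∈ Divisor.degZero (K := ℂ) (F := FC N) := by
    rw [hdiv, Divisor.mem_degZero, degree_extDivC, map_sub, CuspMove0.degree_single_one,
      CuspMove0.degree_single_one, sub_self]
  have h := AJ.iota_mk m 0 hmem
  have hsum : (m.sum fun x k => k • L.A x) = L.A P - L.A Q := by
    rw [← ptSum_apply, hm, map_sub, ptSum_single, ptSum_single]
  rw [hsum, Finsupp.sum_zero_index, add_zero] at h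
  rw [← h]
  congr 1
  unfold pairClass
  rw [extPic0C_mk]
  congr 1
  apply Subtype.ext
  rw [coe_extDegZeroC]
  exact hdiv.symm

end Edge

/-! ### the good set and its connectivity -/

section Good

variable {g : ℕ} {L : LatData N g} {AJ : AJData N L} {th0 : (Fin g → ℂ) → ℂ}
  (RT : RTData N L AJ th0)
  (lift : Pic0 Qb (FQ N) → Fin g → ℂ)
  (hlift : ∀ x : Pic0 Qb (FQ N),
    (QuotientAddGroup.mk (lift x) : (Fin g → ℂ) ⧸ L.lattice) = AJ.iota (extPic0C N x))
  (S : Finset (Fin g → ℂ))
  (hper : ∀ l ∈ L.lattice, ∀ z, th0 (z + l) = 0 ↔ th0 z = 0)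

/-- the good set `V = {x | ∀ s ∈ S, th0 (lift x + s) ≠ 0}`. -/
def V (th0 : (Fin g → ℂ) → ℂ) (lift : Pic0 Qb (FQ N) → Fin g → ℂ) (S : Finset (Fin g → ℂ)) :
    Set (Pic0 Qb (FQ N)) :=
  {x | ∀ s ∈ S, th0 (lift x + s) ≠ 0}

include hlift in
/-- the lift of `y + [c − b]` is `lift y + A P − A Q` modulo the lattice. -/
theorem lift_add_pairClass (y : Pic0 Qb (FQ N)) {c b : Place Qb (FQ N)} {P Q : ℍ}
    (hc : extPlaceC N c = ptPlaceC N 1 P) (hb : extPlaceC N b = ptPlaceC N 1 Q) :
    lift (y + pairClass N c b) - (lift y + (L.A P - L.A Q)) ∈ L.lattice := by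
  rw [← QuotientAddGroup.eq_iff_sub_mem, hlift, map_add, map_add, ← hlift,
    iota_ext_pairClass AJ hc hb, QuotientAddGroup.mk_add]

include RT hlift hper in
/-- **(CH-3)(a)**: for `y ∈ V` and a point place `b`, only finitely many point places `c` have
`y + [c − b] ∉ V`. -/
theorem finite_bad (y : Pic0 Qb (FQ N)) (hy : y ∈ V th0 lift S) (b : Place Qb (FQ N))
    (hb : IsPointPlace N b) :
    {c : Place Qb (FQ N) | IsPointPlace N c ∧ y + pairClass N c b ∉ V th0 lift S}.Finite := by
  classical
  obtain ⟨Q, hQ⟩ := hb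
  have hFe : ∀ s ∈ S, RT.Fe (L.A Q - lift y - s) ≠ 0 := by
    intro s hs h0
    have h1 := RT.Fe_apply (L.A Q - lift y - s) Q
    rw [h0] at h1
    have e : L.A Q - (L.A Q - lift y - s) = lift y + s := by abel
    rw [e] at h1
    exact hy s hs h1.symm
  refine Set.Finite.subset
    (s := ⋃ s ∈ S, {c | extPlaceC N c ∈ (RT.Z (L.A Q - lift y - s)).support}) ?_ ?_
  · refine Set.Finite.biUnion S.finite_toSet (fun s hs => ?_)
    exact Set.Finite.preimage (extPlaceC_injective N).injOn (Finset.finite_toSet _)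
  · rintro c ⟨⟨P, hP⟩, hbad⟩
    have hex : ∃ s ∈ S, th0 (lift (y + pairClass N c b) + s) = 0 := by
      by_contra hcon
      apply hbad
      intro s hs h0
      exact hcon ⟨s, hs, h0⟩
    obtain ⟨s, hs, h0⟩ := hex
    simp only [Set.mem_iUnion]
    refine ⟨s, hs, ?_⟩
    have hl := lift_add_pairClass lift hlift y hP hQ
    have h1 : th0 (lift y + (L.A P - L.A Q) + s) = 0 := by
      refine (hper _ hl _).1 ?_
      rw [← h0]
      congr 1
      abel
    have h2 : (RT.Fe (L.A Q - lift y - s) : ℍ → ℂ) P = 0 := by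
      rw [RT.Fe_apply, ← h1]
      congr 1
      abel
    have h3 := one_le_Z_pt RT (hFe s hs) h2
    show extPlaceC N c ∈ (RT.Z (L.A Q - lift y - s)).support
    rw [Finsupp.mem_support_iff, hP]
    omega

/-- an edge of the graph on `V`. -/
def Edge (th0 : (Fin g → ℂ) → ℂ) (lift : Pic0 Qb (FQ N) → Fin g → ℂ) (S : Finset (Fin g → ℂ))
    (y y' : Pic0 Qb (FQ N)) : Prop :=
  y ∈ V th0 lift S ∧ y' ∈ V th0 lift S ∧
    ∃ a b : Place Qb (FQ N), IsPointPlace N a ∧ IsPointPlace N b ∧ y' = y + pairClass N a b

include RT hlift hper in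
theorem connected_of_list :
    ∀ (l : List (Place Qb (FQ N) × Place Qb (FQ N))),
      (∀ ab ∈ l, IsPointPlace N ab.1 ∧ IsPointPlace N ab.2) →
      ∀ x0 x : Pic0 Qb (FQ N), x0 ∈ V th0 lift S → x ∈ V th0 lift S →
        x = x0 + (l.map fun ab => pairClass N ab.1 ab.2).sum →
        Relation.ReflTransGen (Edge th0 lift S) x0 x := by
  intro l
  induction l with
  | nil =>
    intro _ x0 x _ _ hx
    rw [List.map_nil, List.sum_nil, add_zero] at hx
    rw [hx]
  | cons ab l ih =>
    intro hl x0 x hx0 hxV hx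
    obtain ⟨ha, hb⟩ := hl ab (List.mem_cons_self)
    have hl' : ∀ cd ∈ l, IsPointPlace N cd.1 ∧ IsPointPlace N cd.2 :=
      fun cd hcd => hl cd (List.mem_cons_of_mem _ hcd)
    have hfin := (finite_bad RT lift hlift S hper x0 hx0 ab.2 hb).union
      (finite_bad RT lift hlift S hper x hxV ab.1 ha)
    obtain ⟨c, hcP, hc⟩ := (infinite_pointPlaces (N := N)).exists_notMem_finset hfin.toFinset
    rw [Set.Finite.mem_toFinset, Set.mem_union, not_or] at hc
    have hc1 : x0 + pairClass N c ab.2 ∈ V th0 lift S := by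
      by_contra h
      exact hc.1 ⟨hcP, h⟩
    have hc2 : x + pairClass N c ab.1 ∈ V th0 lift S := by
      by_contra h
      exact hc.2 ⟨hcP, h⟩
    have hx' : x + pairClass N c ab.1
        = (x0 + pairClass N c ab.2) + (l.map fun ab => pairClass N ab.1 ab.2).sum := by
      rw [hx, List.map_cons, List.sum_cons, ← pairClass_add ab.1 ab.2 c]
      abel
    have hmid := ih hl' _ _ hc1 hc2 hx'
    refine Relation.ReflTransGen.head ⟨hx0, hc1, c, ab.2, hcP, hb, rfl⟩ ?_
    refine hmid.tail ⟨hc2, hxV, ab.1, c, ha, hcP, ?_⟩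
    rw [← neg_pairClass, neg_add_cancel_right]

include RT hlift hper in
/-- **(CH-3)(b)**: `V` is connected by edges `y ↦ y + [a − b]`, `a b` point places. -/
theorem connected {x0 x : Pic0 Qb (FQ N)} (hx0 : x0 ∈ V th0 lift S) (hx : x ∈ V th0 lift S) :
    Relation.ReflTransGen (fun y y' => y ∈ V th0 lift S ∧ y' ∈ V th0 lift S ∧
      ∃ a b : Place Qb (FQ N), IsPointPlace N a ∧ IsPointPlace N b ∧
        y' = y + pairClass N a b) x0 x := by
  obtain ⟨l, hl, hsum⟩ := exists_chain N (x - x0)
  exact connected_of_list RT lift hlift S hper l hl x0 x hx0 hx (by rw [← hsum]; abel)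

end Good

end Fermat.Agent.M17.Connect6
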