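/-
Programme M17 (target S17), block [RT]/[ALG] (helper2): **hypothesis-free corollaries** of
`RiemannVanishing2.rvt` and `KappaCanonical2.two_k_rational`, obtained by plugging in
`AbelOpen6.exists_sum_ne_zero` (helper6's `(OPEN)`) and `SpecialA0.theta_vanish` (lead's `(a)`):
for an even entire function `th0 ≢ 0` with `RT : RTData N L AJ th0`,

* `rvt'` : `th0 z = 0 ⇒ ∃ E ≥ 0, iota [E - (g-1)∞] = z + k`;
* `two_k_rational'` : `∃ y : JZero N, iota (extPic0C N y) = 2k`.
-/
import Mathlib
import Fermat.Agent.M17.KappaCanonical2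
import Fermat.Agent.M17.AbelOpen6
import Fermat.Agent.M17.SpecialA0

set_option autoImplicit false
set_option linter.unusedSectionVars false
set_option linter.unusedVariables false
set_option linter.style.longLine false

namespace Fermat.Agent.M17.KappaFinal2

open ModularCurve AlgebraicCurve UpperHalfPlane
open Fermat.Agent.ES.KUM Fermat.Agent.ES.KUM.CCusp16
open Fermat.Agent.J.DESC.DescentFinal24
open Fermat.Agent.M17.Interfaces7
open scoped MatrixGroups

noncomputable section

attribute [local instance] instAlgebraQbarComplex instTowerQbarComplex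

variable {N : ℕ} [NeZero N] {g : ℕ} {L : LatData N g} {AJ : AJData N L}
  {th0 : (Fin g → ℂ) → ℂ}

/-- **(RVT)**, no side hypothesis. -/
theorem rvt' (RT : RTData N L AJ th0) (hdiff : Differentiable ℂ th0)
    (heven : ∀ z, th0 (-z) = th0 z) (hne : ∃ z, th0 z ≠ 0) (z : Fin g → ℂ) (hz : th0 z = 0) :
    ∃ (E : Divisor ℂ (FC N))
      (h : E - Finsupp.single (cuspPlaceC N 1) ((g : ℤ) - 1)
        ∈ Divisor.degZero (K := ℂ) (F := FC N)),
      0 ≤ E ∧ AJ.iota (Pic0.mk ⟨_, h⟩) = QuotientAddGroup.mk (z + RT.k) :=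
  RiemannVanishing2.rvt RT hdiff.continuous heven
    (AbelOpen6.exists_sum_ne_zero L th0 hdiff hne) z hz

/-- **(KAPPA)**, no side hypothesis: `2k` is the image of a class of `J₀(N)(ℚ̄)`
(`[W_ℚ̄ - (2g-2) w_∞]`). -/
theorem two_k_rational' (RT : RTData N L AJ th0) (hdiff : Differentiable ℂ th0)
    (heven : ∀ z, th0 (-z) = th0 z) (hne : ∃ z, th0 z ≠ 0) :
    ∃ y : JZero N, AJ.iota (extPic0C N y) = QuotientAddGroup.mk ((2 : ℂ) • RT.k) := by
  rcases Nat.eq_zero_or_pos g with hg0 | hg
  · subst hg0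
    have : Subsingleton ((Fin 0 → ℂ) ⧸ L.lattice) :=
      (QuotientAddGroup.mk_surjective (s := L.lattice)).subsingleton
    exact ⟨0, Subsingleton.elim _ _⟩
  · exact KappaCanonical2.two_k_rational RT hdiff.continuous
      (AbelOpen6.exists_sum_ne_zero L th0 hdiff hne)
      (SpecialA0.theta_vanish RT hdiff.continuous heven hg)

end

end Fermat.Agent.M17.KappaFinal2
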