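import Fermat.Agent.M17.ThetaPull1

/-!
# (DEG): the shared definitions `Ymat`, `Sfun`, `Gfun`

For `L : LatData N g` and `e : ℂ^g`:
* `Ymat L = Im Ω`;
* `Sfun L e τ = 2πi ∑_{jk} (Y⁻¹)_{jk} w_j(τ) Im(A_k(τ) - e_k)`;
* `Gfun L e = F_e'/F_e + S`, the `Γ₀(N)`-weight-2 function whose residues count the zeros of
  `F_e = θ(A - e)` (it is `∂ log ‖F_e‖²` for the invariant metric of the theta bundle).
-/

set_option autoImplicit false
set_option linter.unusedSectionVars false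

namespace Fermat.Agent.M17.DegDefs5

open UpperHalfPlane CongruenceSubgroup
open Fermat.Agent.M17.Interfaces7 Fermat.Agent.M17.Theta1
open scoped Real MatrixGroups

noncomputable section

variable (N : ℕ) [NeZero N] {g : ℕ} (L : LatData N g) (e : Fin g → ℂ)

/-- `Y = Im Ω` -/
def Ymat : Matrix (Fin g) (Fin g) ℝ := Matrix.of fun j k => (L.Om j k).im

/-- `S(τ) = 2πi ∑_{jk} (Y⁻¹)_{jk} w_j(τ) Im(A_k(τ) - e_k)` -/
def Sfun (τ : ℍ) : ℂ :=
  2 * π * Complex.I *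
    ∑ j, ∑ k, (((Ymat N L)⁻¹ j k : ℝ) : ℂ) * (L.w j τ) * (((L.A τ k - e k).im : ℝ) : ℂ)

/-- `G = F'/F + S` -/
def Gfun (τ : ℍ) : ℂ :=
  deriv (fun z : ℂ => FeFun L e (ofComplex z)) τ / FeFun L e τ + Sfun N L e τ

end

end Fermat.Agent.M17.DegDefs5
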