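import Fermat.Agent.M17.DegLocal5

/-!
# Möbius maps, `2∂̄` of a composite, and the orbit sum of `2∂̄` of a partition of unity

Mathlib only.
-/

set_option autoImplicit false

namespace Fermat.Agent.M17.DegMoebius5

open MeasureTheory Set Filter Topology UpperHalfPlane
open scoped Real MatrixGroups
open Fermat.Agent.M17.CauchyPompeiu5

noncomputable section

/-- the Möbius map of `g ∈ SL(2, ℤ)` as a function on `ℂ` (junk outside the upper half plane) -/
def mob (g : SL(2, ℤ)) (z : ℂ) : ℂ := ↑(g • ofComplex z)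

lemma mob_coe (g : SL(2, ℤ)) (z : ℍ) : mob g (z : ℂ) = ↑(g • z) := by
  unfold mob; rw [ofComplex_apply]

lemma det_coe_GL (g : SL(2, ℤ)) : ((g : GL (Fin 2) ℝ)).val.det = 1 := by
  have := (Matrix.SpecialLinearGroup.map (Int.castRingHom ℝ) g).det_coe
  simpa using this

/-- complex derivative of the Möbius map -/
lemma hasDerivAt_mob (g : SL(2, ℤ)) (z : ℍ) :
    HasDerivAt (mob g) (1 / denom g z ^ 2) (z : ℂ) := by
  have h := (hasStrictDerivAt_smul (g := (g : GL (Fin 2) ℝ))
    (by rw [det_coe_GL]; norm_num) z).hasDerivAt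
  rw [det_coe_GL] at h
  have h2 : (fun w : ℂ => ((((g : GL (Fin 2) ℝ)) • ofComplex w : ℍ) : ℂ)) = mob g := rfl
  rw [h2] at h
  exact h.congr_deriv (by simp)

/-- chain rule for `2∂̄` under a holomorphic change of variables -/
lemma dbar2_comp {u m : ℂ → ℂ} {z m' : ℂ} (hu : DifferentiableAt ℝ u (m z))
    (hm : HasDerivAt m m' z) :
    dbar2 (u ∘ m) z = dbar2 u (m z) * (starRingEnd ℂ) m' := by
  have hm' : HasFDerivAt m ((ContinuousLinearMap.toSpanSingleton ℂ m').restrictScalars ℝ) z :=
    hm.hasFDerivAt.restrictScalars ℝ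
  have hcomp : HasFDerivAt (u ∘ m)
      ((fderiv ℝ u (m z)).comp ((ContinuousLinearMap.toSpanSingleton ℂ m').restrictScalars ℝ)) z :=
    hu.hasFDerivAt.comp z hm'
  unfold dbar2
  rw [hcomp.fderiv]
  simp only [ContinuousLinearMap.comp_apply, ContinuousLinearMap.coe_restrictScalars',
    ContinuousLinearMap.toSpanSingleton_apply, smul_eq_mul, one_mul]
  set L := fderiv ℝ u (m z)
  have h1 : L m' = m'.re • L 1 + m'.im • L Complex.I := by
    conv_lhs => rw [← Complex.re_add_im m']
    rw [map_add]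
    congr 1
    · rw [show (m'.re : ℂ) = m'.re • (1 : ℂ) by simp, map_smul]
    · rw [show (m'.im : ℂ) * Complex.I = m'.im • Complex.I by simp, map_smul]
  have h2 : L (Complex.I * m') = (-m'.im) • L 1 + m'.re • L Complex.I := by
    have : Complex.I * m' = (-m'.im) • (1 : ℂ) + m'.re • Complex.I := by
      apply Complex.ext <;> simp
    rw [this, map_add, map_smul, map_smul]
  rw [h1, h2]
  simp only [Complex.real_smul, Complex.ofReal_neg]
  have h3 : (starRingEnd ℂ) m' = (m'.re : ℂ) - m'.im * Complex.I := by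
    apply Complex.ext <;> simp
  rw [h3]
  ring_nf
  rw [Complex.I_sq]
  ring

end

end Fermat.Agent.M17.DegMoebius5
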