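/-
M17 (target S17), leaf (D-a1) of (DEG) (lead), against `DegDefs5` (helper5's `Ymat`, `Sfun`, `Gfun`):

* `Gfun_smul`       : `G(γτ) = (cτ + d)² G(τ)` for `γ ∈ Γ₀(N)` (where `F_e(τ) ≠ 0`);
* `contDiffOn_Sfun` : `S` is `C¹` on the upper half plane;
* `dbar2_Sfun`      : `2∂̄ S = -2π ∑_{jk} (Y⁻¹)_{jk} w_j conj(w_k)`.

Imported by no statement.
-/
import Mathlib
import Fermat.Agent.M17.DegDefs5
import Fermat.Agent.M17.DegMoebius5

set_option autoImplicit false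
set_option linter.unusedSectionVars false

namespace Fermat.Agent.M17.DegAut0

open UpperHalfPlane CongruenceSubgroup Complex Matrix
open Fermat.Agent.M17.Interfaces7 Fermat.Agent.M17.Theta1 Fermat.Agent.M17.DegDefs5
open Fermat.Agent.M17.CauchyPompeiu5 Fermat.Agent.M17.DegMoebius5
open scoped Real MatrixGroups

variable (N : ℕ) [NeZero N] {g : ℕ} (L : LatData N g) (e : Fin g → ℂ)

/-! ### the matrix `Y = Im Ω` -/

theorem Ymat_apply (j k : Fin g) : Ymat N L j k = (L.Om j k).im := rfl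

theorem Ymat_symm (j k : Fin g) : Ymat N L j k = Ymat N L k j := by
  rw [Ymat_apply, Ymat_apply]
  have h : L.Om j k = L.Om k j := L.om_symm j k
  rw [h]

theorem Ymat_posDef : (Ymat N L).PosDef := L.om_pos

theorem Ymat_inv_mul : (Ymat N L)⁻¹ * Ymat N L = 1 :=
  Matrix.nonsing_inv_mul _ (Ymat_posDef N L).det_pos.ne'.isUnit

theorem sum_Yinv_Y (j i : Fin g) :
    ∑ k, (Ymat N L)⁻¹ j k * Ymat N L i k = if j = i then 1 else 0 := by
  have h := congrFun (congrFun (Ymat_inv_mul N L) j) i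
  rw [Matrix.mul_apply, Matrix.one_apply] at h
  rw [← h]
  refine Finset.sum_congr rfl fun k _ => ?_
  rw [Ymat_symm N L i k]

/-! ### weight two -/

theorem w_smul (j : Fin g) (γ : Gamma0 N) (τ : ℍ) :
    L.w j ((γ : SL(2, ℤ)) • τ) = denom (γ : SL(2, ℤ)) τ ^ 2 * L.w j τ := by
  have := SlashInvariantForm.slash_action_eqn'' (L.w j) (Subgroup.mem_map_of_mem _ γ.2) τ
  exact_mod_cast this

/-- the increment of `Im A_k` under `γ`. -/
theorem im_A_smul (γ : Gamma0 N) (τ : ℍ) (k : Fin g) :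
    (L.A ((γ : SL(2, ℤ)) • τ) k - e k).im =
      (L.A τ k - e k).im + ∑ i, Ymat N L i k * (mVec L γ i : ℝ) := by
  rw [A_smul' L γ τ]
  simp only [Pi.add_apply, Complex.sub_im, Complex.add_im, Complex.intCast_im, Complex.im_sum,
    Complex.mul_im, Complex.intCast_re, mul_zero, zero_add]
  simp only [Ymat_apply, mVec]
  ring

/-- `S(γτ) = (cτ + d)² (S(τ) + 2πi ∑_j m_j w_j(τ))`. -/
theorem Sfun_smul (γ : Gamma0 N) (τ : ℍ) :
    Sfun N L e ((γ : SL(2, ℤ)) • τ) = denom (γ : SL(2, ℤ)) τ ^ 2 *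
      (Sfun N L e τ + 2 * π * Complex.I * ∑ j, ((mVec L γ j : ℤ) : ℂ) * L.w j τ) := by
  unfold Sfun
  have h1 : ∀ j k, (((Ymat N L)⁻¹ j k : ℝ) : ℂ) * (L.w j ((γ : SL(2, ℤ)) • τ)) *
      (((L.A ((γ : SL(2, ℤ)) • τ) k - e k).im : ℝ) : ℂ) =
      denom (γ : SL(2, ℤ)) τ ^ 2 * ((((Ymat N L)⁻¹ j k : ℝ) : ℂ) * (L.w j τ) *
        (((L.A τ k - e k).im : ℝ) : ℂ)) +
      denom (γ : SL(2, ℤ)) τ ^ 2 * (L.w j τ *
        ∑ i, ((((Ymat N L)⁻¹ j k * Ymat N L i k : ℝ) : ℝ) : ℂ) * ((mVec L γ i : ℤ) : ℂ)) := by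
    intro j k
    rw [w_smul, im_A_smul]
    push_cast
    rw [Finset.mul_sum, Finset.mul_sum]
    have : ∀ i ∈ Finset.univ, denom (γ : SL(2, ℤ)) τ ^ 2 * (L.w j τ *
        ((((Ymat N L)⁻¹ j k : ℝ) : ℂ) * ((Ymat N L i k : ℝ) : ℂ) * ((mVec L γ i : ℤ) : ℂ))) =
        (((Ymat N L)⁻¹ j k : ℝ) : ℂ) * (denom (γ : SL(2, ℤ)) τ ^ 2 * L.w j τ) *
          (((Ymat N L i k : ℝ) : ℂ) * ((mVec L γ i : ℤ) : ℂ)) := fun i _ => by ring
    rw [Finset.sum_congr rfl this, ← Finset.mul_sum]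
    ring
  simp only [h1, Finset.sum_add_distrib, ← Finset.mul_sum]
  have h2 : ∀ j, ∑ k, ∑ i, ((((Ymat N L)⁻¹ j k * Ymat N L i k : ℝ) : ℝ) : ℂ) *
      ((mVec L γ i : ℤ) : ℂ) = ((mVec L γ j : ℤ) : ℂ) := by
    intro j
    rw [Finset.sum_comm]
    simp only [← Finset.sum_mul]
    have : ∀ i, (∑ k, ((((Ymat N L)⁻¹ j k * Ymat N L i k : ℝ) : ℝ) : ℂ)) =
        if j = i then 1 else 0 := by
      intro i
      rw [← Complex.ofReal_sum, sum_Yinv_Y]
      split_ifs <;> simp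
    simp only [this, ite_mul, one_mul, zero_mul, Finset.sum_ite_eq, Finset.mem_univ, if_true]
  simp only [h2]
  have h3 : ∀ j, L.w j τ * ((mVec L γ j : ℤ) : ℂ) = ((mVec L γ j : ℤ) : ℂ) * L.w j τ :=
    fun j => mul_comm _ _
  simp only [h3]
  ring

/-! ### the logarithmic derivative of `F_e` -/

variable {N}

/-- `F_e ∘ ofComplex`. -/
noncomputable def Ft (z : ℂ) : ℂ := FeFun L e (ofComplex z)

theorem differentiableAt_Ft (τ : ℍ) : DifferentiableAt ℂ (Ft L e) (τ : ℂ) :=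
  UpperHalfPlane.mdifferentiableAt_iff.mp (mdiff_FeFun L e τ)

/-- the vector `m(γ)` with complex entries. -/
noncomputable def mC (γ : Gamma0 N) : Fin g → ℂ := Siegel.ofRealVec (intVec (mVec L γ))

theorem mC_apply (γ : Gamma0 N) (k : Fin g) : mC L γ k = ((mVec L γ k : ℤ) : ℂ) := by
  simp [mC, Siegel.ofRealVec, intVec]

/-- the automorphy factor of `F_e` as a function on `ℂ`. -/
noncomputable def Jf (γ : Gamma0 N) (z : ℂ) : ℂ :=
  cexp (-(π * Complex.I * (siegelOfLat L).Q (mC L γ)) -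
    2 * π * Complex.I * (mC L γ ⬝ᵥ (L.A (ofComplex z) - e)))

theorem Jf_ne_zero (γ : Gamma0 N) (z : ℂ) : Jf L e γ z ≠ 0 := Complex.exp_ne_zero _

theorem Ft_mob (γ : Gamma0 N) (z : ℂ) :
    Ft L e (mob (γ : SL(2, ℤ)) z) = Jf L e γ z * Ft L e z := by
  unfold Ft mob Jf mC
  rw [ofComplex_apply, FeFun_smul]

theorem hasDerivAt_Jf (γ : Gamma0 N) (τ : ℍ) :
    HasDerivAt (Jf L e γ)
      (Jf L e γ τ * (-(2 * π * Complex.I) * ∑ k, mC L γ k * L.w k τ)) (τ : ℂ) := by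
  have hk : ∀ k, HasDerivAt (fun z : ℂ => mC L γ k * (L.A (ofComplex z) k - e k))
      (mC L γ k * L.w k τ) (τ : ℂ) := fun k =>
    (((hasDerivAt_pi.mp (hasDerivAt_A L τ)) k).sub_const (e k)).const_mul _
  have hsum : HasDerivAt (fun z : ℂ => ∑ k, mC L γ k * (L.A (ofComplex z) k - e k))
      (∑ k, mC L γ k * L.w k τ) (τ : ℂ) := HasDerivAt.fun_sum fun k _ => hk k
  have h1 : HasDerivAt (fun z : ℂ => -(π * Complex.I * (siegelOfLat L).Q (mC L γ)) -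
      2 * π * Complex.I * ∑ k, mC L γ k * (L.A (ofComplex z) k - e k))
      (-(2 * π * Complex.I) * ∑ k, mC L γ k * L.w k τ) (τ : ℂ) := by
    have := (hsum.const_mul (2 * π * Complex.I)).const_sub
      (-(π * Complex.I * (siegelOfLat L).Q (mC L γ)))
    exact this.congr_deriv (by ring)
  have h2 := h1.cexp
  exact h2

/-- the transformation of the derivative of `F_e`. -/
theorem deriv_Ft_smul (γ : Gamma0 N) (τ : ℍ) :
    deriv (Ft L e) (((γ : SL(2, ℤ)) • τ : ℍ) : ℂ) = denom (γ : SL(2, ℤ)) τ ^ 2 *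
      (Jf L e γ τ * (-(2 * π * Complex.I) * ∑ k, mC L γ k * L.w k τ) * Ft L e τ +
        Jf L e γ τ * deriv (Ft L e) τ) := by
  have hmob := hasDerivAt_mob (γ : SL(2, ℤ)) τ
  have hFt : HasDerivAt (Ft L e) (deriv (Ft L e) (mob (γ : SL(2, ℤ)) (τ : ℂ)))
      (mob (γ : SL(2, ℤ)) (τ : ℂ)) := by
    rw [mob_coe]
    exact (differentiableAt_Ft L e ((γ : SL(2, ℤ)) • τ)).hasDerivAt
  have hL := hFt.comp (τ : ℂ) hmob
  have hR : HasDerivAt (fun z => Jf L e γ z * Ft L e z)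
      (Jf L e γ τ * (-(2 * π * Complex.I) * ∑ k, mC L γ k * L.w k τ) * Ft L e τ +
        Jf L e γ τ * deriv (Ft L e) τ) (τ : ℂ) :=
    (hasDerivAt_Jf L e γ τ).mul (differentiableAt_Ft L e τ).hasDerivAt
  have hfun : (Ft L e ∘ mob (γ : SL(2, ℤ))) = fun z => Jf L e γ z * Ft L e z :=
    funext fun z => Ft_mob L e γ z
  rw [hfun] at hL
  have huniq := hL.unique hR
  rw [mob_coe] at huniq
  have hden : denom (γ : SL(2, ℤ)) τ ^ 2 ≠ 0 := pow_ne_zero 2 (denom_ne_zero _ τ)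
  rw [← huniq]
  field_simp

theorem Ft_coe (τ : ℍ) : Ft L e (τ : ℂ) = FeFun L e τ := by
  unfold Ft
  rw [ofComplex_apply]

theorem FeFun_smul' (γ : Gamma0 N) (τ : ℍ) :
    FeFun L e ((γ : SL(2, ℤ)) • τ) = Jf L e γ τ * FeFun L e τ := by
  have h := Ft_mob L e γ (τ : ℂ)
  rw [mob_coe, Ft_coe, Ft_coe] at h
  exact h

variable (N) in
/-- **(D-a1), automorphy**: `G = F_e'/F_e + S` has weight `2` for `Γ₀(N)`. -/
theorem Gfun_smul (γ : Gamma0 N) (τ : ℍ) (h : FeFun L e τ ≠ 0) :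
    Gfun N L e ((γ : SL(2, ℤ)) • τ) = denom (γ : SL(2, ℤ)) τ ^ 2 * Gfun N L e τ := by
  unfold Gfun
  have h1 : deriv (fun z : ℂ => FeFun L e (ofComplex z)) (((γ : SL(2, ℤ)) • τ : ℍ) : ℂ) =
      denom (γ : SL(2, ℤ)) τ ^ 2 *
      (Jf L e γ τ * (-(2 * π * Complex.I) * ∑ k, mC L γ k * L.w k τ) * Ft L e τ +
        Jf L e γ τ * deriv (Ft L e) τ) := deriv_Ft_smul L e γ τ
  have hJ := Jf_ne_zero L e γ (τ : ℂ)
  rw [h1, FeFun_smul' L e γ τ, Sfun_smul, Ft_coe]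
  simp only [mC_apply]
  have hd : deriv (Ft L e) (τ : ℂ) = deriv (fun z : ℂ => FeFun L e (ofComplex z)) (τ : ℂ) := rfl
  rw [hd]
  field_simp
  ring

/-! ### smoothness and `2∂̄` of `S` -/

theorem isOpen_UH : IsOpen {z : ℂ | 0 < z.im} := isOpen_lt continuous_const Complex.continuous_im

theorem differentiableOn_w (j : Fin g) :
    DifferentiableOn ℂ (fun z : ℂ => L.w j (ofComplex z)) {z : ℂ | 0 < z.im} :=
  UpperHalfPlane.mdifferentiable_iff.mp (Fermat.Agent.S21.PeriodPrim.cusp_mdiff (L.w j))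

theorem differentiableOn_A (k : Fin g) :
    DifferentiableOn ℂ (fun z : ℂ => L.A (ofComplex z) k) {z : ℂ | 0 < z.im} :=
  UpperHalfPlane.mdifferentiable_iff.mp (mdiff_A_coord L k)

theorem contDiffOn_imA (k : Fin g) :
    ContDiffOn ℝ 1 (fun z : ℂ => (((L.A (ofComplex z) k - e k).im : ℝ) : ℂ)) {z : ℂ | 0 < z.im} := by
  have hA : ContDiffOn ℝ 1 (fun z : ℂ => L.A (ofComplex z) k) {z : ℂ | 0 < z.im} :=
    ((differentiableOn_A L k).contDiffOn isOpen_UH).restrict_scalars ℝ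
  exact Complex.ofRealCLM.contDiff.comp_contDiffOn
    (Complex.imCLM.contDiff.comp_contDiffOn (hA.sub contDiffOn_const))

variable (N) in
/-- **(D-a1), smoothness**: `S` is `C¹` on the upper half plane. -/
theorem contDiffOn_Sfun :
    ContDiffOn ℝ 1 (fun z : ℂ => Sfun N L e (ofComplex z)) {z : ℂ | 0 < z.im} := by
  have hw : ∀ j, ContDiffOn ℝ 1 (fun z : ℂ => L.w j (ofComplex z)) {z : ℂ | 0 < z.im} :=
    fun j => ((differentiableOn_w L j).contDiffOn isOpen_UH).restrict_scalars ℝ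
  unfold Sfun
  refine contDiffOn_const.mul (ContDiffOn.sum fun j _ => ContDiffOn.sum fun k _ => ?_)
  exact (contDiffOn_const.mul (hw j)).mul (contDiffOn_imA L e k)

/-- general product rule for `2∂̄`. -/
theorem dbar2_mul' {f h : ℂ → ℂ} {z : ℂ} (hf : DifferentiableAt ℝ f z)
    (hh : DifferentiableAt ℝ h z) :
    dbar2 (fun w => f w * h w) z = dbar2 f z * h z + f z * dbar2 h z := by
  unfold dbar2
  rw [fderiv_fun_mul hf hh]
  simp only [_root_.add_apply, _root_.smul_apply, smul_eq_mul]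
  ring

theorem dbar2_const_mul (c : ℂ) {f : ℂ → ℂ} {z : ℂ} (hf : DifferentiableAt ℝ f z) :
    dbar2 (fun w => c * f w) z = c * dbar2 f z := by
  unfold dbar2
  rw [fderiv_const_mul hf]
  simp only [_root_.smul_apply, smul_eq_mul]
  ring

theorem dbar2_holo_mul {h u : ℂ → ℂ} {z : ℂ} (hh : DifferentiableAt ℂ h z)
    (hu : DifferentiableAt ℝ u z) : dbar2 (fun w => h w * u w) z = h z * dbar2 u z := by
  rw [dbar2_mul' (hh.restrictScalars ℝ) hu,
    Fermat.Agent.M17.DbarResidue5.dbar2_eq_zero_of_differentiableAt hh, zero_mul, zero_add]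

theorem dbar2_fun_sum {ι : Type*} (s : Finset ι) {f : ι → ℂ → ℂ} {z : ℂ}
    (hf : ∀ i ∈ s, DifferentiableAt ℝ (f i) z) :
    dbar2 (fun w => ∑ i ∈ s, f i w) z = ∑ i ∈ s, dbar2 (f i) z := by
  unfold dbar2
  rw [fderiv_fun_sum hf]
  simp only [FunLike.coe_sum, Finset.sum_apply, Finset.mul_sum,
    Finset.sum_add_distrib]

/-- `2∂̄` of the imaginary part of a holomorphic function. -/
theorem hasFDerivAt_ofReal_im {a : ℂ → ℂ} {a' z : ℂ} (ha : HasDerivAt a a' z) :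
    HasFDerivAt (fun w => (((a w).im : ℝ) : ℂ))
      ((Complex.ofRealCLM.comp Complex.imCLM).comp
        ((ContinuousLinearMap.toSpanSingleton ℂ a').restrictScalars ℝ)) z := by
  have h1 : HasFDerivAt a ((ContinuousLinearMap.toSpanSingleton ℂ a').restrictScalars ℝ) z :=
    ha.hasFDerivAt.restrictScalars ℝ
  exact (Complex.ofRealCLM.comp Complex.imCLM).hasFDerivAt.comp z h1

theorem dbar2_ofReal_im {a : ℂ → ℂ} {a' z : ℂ} (ha : HasDerivAt a a' z) :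
    dbar2 (fun w => (((a w).im : ℝ) : ℂ)) z = Complex.I * (starRingEnd ℂ) a' := by
  unfold dbar2
  rw [(hasFDerivAt_ofReal_im ha).fderiv]
  simp only [ContinuousLinearMap.comp_apply, ContinuousLinearMap.coe_restrictScalars',
    ContinuousLinearMap.toSpanSingleton_apply, smul_eq_mul, one_mul, Complex.ofRealCLM_apply,
    Complex.imCLM_apply]
  apply Complex.ext <;> simp

variable (N) in
/-- **(D-a1), `2∂̄ S`**. -/
theorem dbar2_Sfun (τ : ℍ) :
    dbar2 (fun z : ℂ => Sfun N L e (ofComplex z)) (τ : ℂ) =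
      -(2 * π) * ∑ j, ∑ k, (((Ymat N L)⁻¹ j k : ℝ) : ℂ) * (L.w j τ) *
        (starRingEnd ℂ) (L.w k τ) := by
  have hτ : (τ : ℂ) ∈ {z : ℂ | 0 < z.im} := τ.im_pos
  have hwd : ∀ j, DifferentiableAt ℂ (fun z : ℂ => L.w j (ofComplex z)) (τ : ℂ) := fun j =>
    (differentiableOn_w L j).differentiableAt (isOpen_UH.mem_nhds hτ)
  have hAd : ∀ k, HasDerivAt (fun z : ℂ => L.A (ofComplex z) k - e k) (L.w k τ) (τ : ℂ) :=
    fun k => ((hasDerivAt_pi.mp (hasDerivAt_A L τ)) k).sub_const _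
  have himd : ∀ k, DifferentiableAt ℝ
      (fun z : ℂ => (((L.A (ofComplex z) k - e k).im : ℝ) : ℂ)) (τ : ℂ) := fun k =>
    (hasFDerivAt_ofReal_im (hAd k)).differentiableAt
  have hh : ∀ j k, DifferentiableAt ℂ
      (fun z : ℂ => (((Ymat N L)⁻¹ j k : ℝ) : ℂ) * L.w j (ofComplex z)) (τ : ℂ) := fun j k =>
    (hwd j).const_mul _
  have hterm : ∀ j k, dbar2 (fun z : ℂ => (((Ymat N L)⁻¹ j k : ℝ) : ℂ) * L.w j (ofComplex z) *
      (((L.A (ofComplex z) k - e k).im : ℝ) : ℂ)) (τ : ℂ) =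
      (((Ymat N L)⁻¹ j k : ℝ) : ℂ) * L.w j τ * (Complex.I * (starRingEnd ℂ) (L.w k τ)) := by
    intro j k
    rw [dbar2_holo_mul (hh j k) (himd k), dbar2_ofReal_im (hAd k), ofComplex_apply]
  have htd : ∀ j k, DifferentiableAt ℝ (fun z : ℂ => (((Ymat N L)⁻¹ j k : ℝ) : ℂ) *
      L.w j (ofComplex z) * (((L.A (ofComplex z) k - e k).im : ℝ) : ℂ)) (τ : ℂ) := fun j k =>
    ((hh j k).restrictScalars ℝ).mul (himd k)
  have hsd : ∀ j, DifferentiableAt ℝ (fun z : ℂ => ∑ k, (((Ymat N L)⁻¹ j k : ℝ) : ℂ) *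
      L.w j (ofComplex z) * (((L.A (ofComplex z) k - e k).im : ℝ) : ℂ)) (τ : ℂ) := fun j =>
    DifferentiableAt.fun_sum fun k _ => htd j k
  unfold Sfun
  rw [dbar2_const_mul _ (DifferentiableAt.fun_sum fun j _ => hsd j),
    dbar2_fun_sum _ (fun j _ => hsd j)]
  have h2 : ∀ j, dbar2 (fun z : ℂ => ∑ k, (((Ymat N L)⁻¹ j k : ℝ) : ℂ) *
      L.w j (ofComplex z) * (((L.A (ofComplex z) k - e k).im : ℝ) : ℂ)) (τ : ℂ) =
      ∑ k, (((Ymat N L)⁻¹ j k : ℝ) : ℂ) * L.w j τ * (Complex.I * (starRingEnd ℂ) (L.w k τ)) := by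
    intro j
    rw [dbar2_fun_sum _ (fun k _ => htd j k)]
    exact Finset.sum_congr rfl fun k _ => hterm j k
  simp only [h2, Finset.mul_sum]
  refine Finset.sum_congr rfl fun j _ => Finset.sum_congr rfl fun k _ => ?_
  have hI : Complex.I * Complex.I = -1 := Complex.I_mul_I
  linear_combination (2 * (π : ℂ) * (((Ymat N L)⁻¹ j k : ℝ) : ℂ) * L.w j τ *
    (starRingEnd ℂ) (L.w k τ)) * hI

end Fermat.Agent.M17.DegAut0
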