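/-
M17 (target S17), block [RT], leaf (DEG-COUNT) (helper4): **the degree of an automorphic divisor as a
weighted count over `SL(2, ℤ) ⧸ Γ₀(N)`** (pure [DICT] bookkeeping; helper5's statement of board 1169).

* `fibre_card_eq`, `sum_weighted_fibre` : abstract counting;
* `card_fibre_pt` : the fibre of `x ↦ ptPlaceC N x.out p` over `v` has `ord_v (j - j p)` elements;
* `sum_ptIdx` : `∑_x φ (ptPlaceC N x.out p) · ptIdx N x.out p = ellOrder p · ∑_{v | j p} φ v`;
* `sum_cuspIdx` : `∑_x φ (cuspPlaceC N x.out) · cuspIdx N x.out = N · ∑_{v | ∞} φ v`;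
* `deg_count` : the statement of (DEG-COUNT).

Imported by no statement.
-/
import Fermat.Agent.M17.AutDiv4
import Fermat.Agent.ES.KUM.CExact5

set_option autoImplicit false
set_option linter.unusedSectionVars false

open UpperHalfPlane AlgebraicCurve Filter Topology MulAction Subgroup
open scoped Manifold MatrixGroups
open CongruenceSubgroup

noncomputable section

namespace Fermat.Agent.M17.DegCount4

open Fermat.Agent.X0 Fermat.Agent.ES.KUM Fermat.Agent.X0.SurjPoint Fermat.Agent.ES.KUM.CCusp16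
open Fermat.Agent.M17.Interfaces7 Fermat.Agent.M15.DivLogMer1 ModularCurve
open Fermat.Agent.M17.AutDiv4 Fermat.Agent.M17.Dict4
open Fermat.Agent.X0.JOrderMain Fermat.Agent.X0.JOrderFinal

/-! ### abstract counting -/

section Abstract

variable {X Q : Type*} [Fintype X] [DecidableEq Q]

theorem fibre_card_eq (P : X → Q) (d : Q → ℕ)
    (hle : ∀ x, d (P x) ≤ (Finset.univ.filter (fun y => P y = P x)).card)
    (hsum : ∑ v ∈ Finset.univ.image P, d v = Fintype.card X) :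
    ∀ x, d (P x) = (Finset.univ.filter (fun y => P y = P x)).card := by
  have hle' : ∀ v ∈ Finset.univ.image P, d v ≤ (Finset.univ.filter (fun y => P y = v)).card := by
    intro v hv
    obtain ⟨x, -, rfl⟩ := Finset.mem_image.mp hv
    exact hle x
  have hcard : Fintype.card X = ∑ v ∈ Finset.univ.image P,
      (Finset.univ.filter (fun y => P y = v)).card :=
    Finset.card_eq_sum_card_image P Finset.univ
  have heq := (Finset.sum_eq_sum_iff_of_le hle').mp (hsum.trans hcard)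
  intro x
  exact heq (P x) (Finset.mem_image_of_mem P (Finset.mem_univ x))

theorem sum_weighted_fibre {R : Type*} [CommRing R] (P : X → Q) (φ : Q → R) (wt : X → R) (c : R)
    (h : ∀ x, ∑ y ∈ Finset.univ.filter (fun y => P y = P x), wt y = c) :
    ∑ x, φ (P x) * wt x = c * ∑ v ∈ Finset.univ.image P, φ v := by
  rw [← Finset.sum_fiberwise_of_maps_to (s := Finset.univ) (t := Finset.univ.image P) (g := P)
    (fun x _ => Finset.mem_image_of_mem P (Finset.mem_univ x)), Finset.mul_sum]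
  refine Finset.sum_congr rfl fun v hv => ?_
  obtain ⟨x, -, rfl⟩ := Finset.mem_image.mp hv
  rw [← h x, Finset.sum_mul]
  refine Finset.sum_congr rfl fun y hy => ?_
  rw [(Finset.mem_filter.mp hy).2]
  ring

/-- an orbit of a map of order `e₀ ∈ {2, 3}` through a moved point has `e₀` elements. -/
theorem le_card_fibre_of_moved [DecidableEq X] (ε : X → X) (hε : Function.Injective ε) (e₀ : ℕ)
    (he₀ : e₀ = 2 ∨ e₀ = 3) (hpow : ∀ x, ε^[e₀] x = x) (P : X → Q) (hP : ∀ x, P (ε x) = P x)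
    (x : X) (hx : ε x ≠ x) : e₀ ≤ (Finset.univ.filter (fun y => P y = P x)).card := by
  rcases he₀ with h | h
  · subst h
    have hsub : ({x, ε x} : Finset X) ⊆ Finset.univ.filter (fun y => P y = P x) := by
      intro y hy
      simp only [Finset.mem_insert, Finset.mem_singleton] at hy
      rcases hy with rfl | rfl
      · simp
      · simp [hP]
    have hc : ({x, ε x} : Finset X).card = 2 := Finset.card_pair (Ne.symm hx)
    calc 2 = ({x, ε x} : Finset X).card := hc.symm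
      _ ≤ _ := Finset.card_le_card hsub
  · subst h
    have h3 : ε (ε (ε x)) = x := hpow x
    have h12 : ε (ε x) ≠ ε x := fun h => hx (hε h)
    have h20 : ε (ε x) ≠ x := by
      intro h
      have := congrArg ε h
      rw [h3] at this
      exact hx this.symm
    have hsub : ({x, ε x, ε (ε x)} : Finset X) ⊆ Finset.univ.filter (fun y => P y = P x) := by
      intro y hy
      simp only [Finset.mem_insert, Finset.mem_singleton] at hy
      rcases hy with rfl | rfl | rfl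
      · simp
      · simp [hP]
      · simp [hP]
    have hc : ({x, ε x, ε (ε x)} : Finset X).card = 3 := by
      rw [Finset.card_insert_of_notMem, Finset.card_pair (Ne.symm h12)]
      simp only [Finset.mem_insert, Finset.mem_singleton, not_or]
      exact ⟨Ne.symm hx, Ne.symm h20⟩
    calc 3 = ({x, ε x, ε (ε x)} : Finset X).card := hc.symm
      _ ≤ _ := Finset.card_le_card hsub

end Abstract

/-! ### point places over a value of `j` -/

variable (N : ℕ) [NeZero N]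

section Points

variable [Fintype (SL(2, ℤ) ⧸ Gamma0 N)]

theorem ptPlaceC_out_mk (g : SL(2, ℤ)) (p : ℍ) :
    ptPlaceC N (QuotientGroup.mk g : SL(2, ℤ) ⧸ Gamma0 N).out p = ptPlaceC N g p :=
  ptPlaceC_of_mk_eq N (QuotientGroup.out_eq' _).symm p

theorem ptIdx_out_mk (g : SL(2, ℤ)) (p : ℍ) :
    ptIdx N (QuotientGroup.mk g : SL(2, ℤ) ⧸ Gamma0 N).out p = ptIdx N g p :=
  ptIdx_of_mk_eq N (QuotientGroup.out_eq' _).symm p

/-- the places over `j = j p` are the point places at `p`. -/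
theorem coe_image_ptPlaceC (p : ℍ) [DecidableEq (Place ℂ (FC N))] :
    (↑(Finset.univ.image fun x : SL(2, ℤ) ⧸ Gamma0 N => ptPlaceC N x.out p) :
      Set (Place ℂ (FC N))) =
    {v : Place ℂ (FC N) | 0 < v.ord (jC N - algebraMap ℂ (FC N) (jFun p))} := by
  ext v
  simp only [Set.mem_ofPred_eq, Finset.coe_image, Finset.coe_univ, Set.image_univ,
    Set.mem_range]
  constructor
  · rintro ⟨x, rfl⟩
    exact ord_jC_sub_pos N x.out p
  · intro hv
    obtain ⟨g', rfl⟩ := CSurj25.exists_ptPlaceC_eq N p v hv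
    exact ⟨QuotientGroup.mk g', ptPlaceC_out_mk N g' p⟩

theorem mem_image_ptPlaceC_iff (p : ℍ) [DecidableEq (Place ℂ (FC N))] (v : Place ℂ (FC N)) :
    v ∈ (Finset.univ.image fun x : SL(2, ℤ) ⧸ Gamma0 N => ptPlaceC N x.out p) ↔
      0 < v.ord (jC N - algebraMap ℂ (FC N) (jFun p)) := by
  have := coe_image_ptPlaceC N p
  constructor
  · intro hv
    have hv' : v ∈ (↑(Finset.univ.image fun x : SL(2, ℤ) ⧸ Gamma0 N => ptPlaceC N x.out p) :
      Set (Place ℂ (FC N))) := hv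
    rw [this] at hv'
    exact hv'
  · intro hv
    have hv' : v ∈ {v : Place ℂ (FC N) | 0 < v.ord (jC N - algebraMap ℂ (FC N) (jFun p))} := hv
    rw [← this] at hv'
    exact hv'

/-- the fundamental identity over `j = j p`, on cosets. -/
theorem sum_toNat_ord_image (p : ℍ) [DecidableEq (Place ℂ (FC N))] :
    ∑ v ∈ (Finset.univ.image fun x : SL(2, ℤ) ⧸ Gamma0 N => ptPlaceC N x.out p),
      (v.ord (jC N - algebraMap ℂ (FC N) (jFun p))).toNat =
      Fintype.card (SL(2, ℤ) ⧸ Gamma0 N) := by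
  set c : ℂ := jFun p with hc
  set P : SL(2, ℤ) ⧸ Gamma0 N → Place ℂ (FC N) := fun x => ptPlaceC N x.out p with hP
  have h1 := FF.sum_ord_fibre (Fermat.Agent.ES.KUM.isGen_jC N) c
  rw [Fermat.Agent.ES.KUM.finrank_jC, ← card_quot N, Nat.card_eq_fintype_card] at h1
  have hset := coe_image_ptPlaceC N p
  have h2 : ∑ᶠ (v : Place ℂ (FC N)) (_ : 0 < v.ord (jC N - algebraMap ℂ (FC N) c)),
      v.ord (jC N - algebraMap ℂ (FC N) c)
      = ∑ v ∈ Finset.univ.image P, v.ord (jC N - algebraMap ℂ (FC N) c) := by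
    have : ∑ᶠ (v : Place ℂ (FC N)) (_ : 0 < v.ord (jC N - algebraMap ℂ (FC N) c)),
        v.ord (jC N - algebraMap ℂ (FC N) c)
        = ∑ᶠ (v : Place ℂ (FC N)) (_ : v ∈ (↑(Finset.univ.image P) : Set (Place ℂ (FC N)))),
          v.ord (jC N - algebraMap ℂ (FC N) c) := by
      refine finsum_congr fun v => ?_
      have : (0 < v.ord (jC N - algebraMap ℂ (FC N) c))
          = (v ∈ (↑(Finset.univ.image P) : Set (Place ℂ (FC N)))) := by
        rw [hset]
        rfl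
      rw [this]
    rw [this, finsum_mem_coe_finset]
  rw [h2] at h1
  have h3 : ∑ v ∈ Finset.univ.image P, v.ord (jC N - algebraMap ℂ (FC N) c)
      = ∑ v ∈ Finset.univ.image P,
        (((v.ord (jC N - algebraMap ℂ (FC N) c)).toNat : ℕ) : ℤ) := by
    refine Finset.sum_congr rfl fun v hv => ?_
    have hv' := (mem_image_ptPlaceC_iff N p v).mp hv
    exact (Int.toNat_of_nonneg (le_of_lt hv')).symm
  rw [h3] at h1
  exact_mod_cast h1

/-- `ptIdx · d = ellOrder` with `d = ord_v (j - j p)` as a natural number. -/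
theorem ptIdx_mul_toNat (p : ℍ) (x : SL(2, ℤ) ⧸ Gamma0 N) :
    ptIdx N x.out p *
      ((ptPlaceC N x.out p).ord (jC N - algebraMap ℂ (FC N) (jFun p))).toNat = ellOrder p := by
  have h1 := ptIdx_mul_ord_jC_sub N x.out p
  have h2 := ord_jC_sub_pos N x.out p
  have h3 : ((((ptPlaceC N x.out p).ord (jC N - algebraMap ℂ (FC N) (jFun p))).toNat : ℕ) : ℤ) =
      (ptPlaceC N x.out p).ord (jC N - algebraMap ℂ (FC N) (jFun p)) :=
    Int.toNat_of_nonneg h2.le
  have : ((ptIdx N x.out p *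
      ((ptPlaceC N x.out p).ord (jC N - algebraMap ℂ (FC N) (jFun p))).toNat : ℕ) : ℤ) =
      (ellOrder p : ℤ) := by
    push_cast
    rw [h3]
    exact h1
  exact_mod_cast this

/-- lower bound for the fibre at a point fixed by an elliptic element. -/
theorem le_card_fibre_of_ell (p : ℍ) [DecidableEq (Place ℂ (FC N))] (ε : SL(2, ℤ)) (e₀ : ℕ)
    (he₀ : e₀ = 2 ∨ e₀ = 3) (hfix : ε • p = p) (hpow : ε ^ e₀ = -1) (hell : ellOrder p = e₀)
    (hfixidx : ∀ g : SL(2, ℤ), g⁻¹ * ε * g ∈ Gamma0 N → ptIdx N g p = e₀)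
    (x : SL(2, ℤ) ⧸ Gamma0 N) :
    ((ptPlaceC N x.out p).ord (jC N - algebraMap ℂ (FC N) (jFun p))).toNat ≤
      (Finset.univ.filter (fun y : SL(2, ℤ) ⧸ Gamma0 N =>
        ptPlaceC N y.out p = ptPlaceC N x.out p)).card := by
  classical
  have he0 : 0 < e₀ := by rcases he₀ with h | h <;> omega
  have hidx := ptIdx_mul_toNat N p x
  rw [hell] at hidx
  have hPε : ∀ y : SL(2, ℤ) ⧸ Gamma0 N, ptPlaceC N (ε • y).out p = ptPlaceC N y.out p := by
    intro y
    induction y using QuotientGroup.induction_on with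
    | H g' =>
      rw [MulAction.Quotient.smul_mk, ptPlaceC_out_mk, ptPlaceC_out_mk]
      exact ptPlaceC_mul_left_of_fixed N ε g' p hfix
  by_cases hx : ε • x = x
  · -- fixed coset: the index is `e₀`, so `d = 1`
    have hidx' : ptIdx N x.out p = e₀ := by
      apply hfixidx
      have hx' : ε • (QuotientGroup.mk x.out : SL(2, ℤ) ⧸ Gamma0 N) = QuotientGroup.mk x.out := by
        rw [QuotientGroup.out_eq']
        exact hx
      rw [MulAction.Quotient.smul_mk, QuotientGroup.eq, smul_eq_mul] at hx'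
      have : x.out⁻¹ * ε * x.out = ((ε * x.out)⁻¹ * x.out)⁻¹ := by group
      rw [this]
      exact inv_mem hx'
    rw [hidx'] at hidx
    have hd : ((ptPlaceC N x.out p).ord (jC N - algebraMap ℂ (FC N) (jFun p))).toNat = 1 := by
      have : e₀ * ((ptPlaceC N x.out p).ord (jC N - algebraMap ℂ (FC N) (jFun p))).toNat =
          e₀ * 1 := by rw [hidx, mul_one]
      exact Nat.eq_of_mul_eq_mul_left he0 this
    rw [hd]
    exact Finset.card_pos.mpr ⟨x, by simp⟩
  · have hdle : ((ptPlaceC N x.out p).ord (jC N - algebraMap ℂ (FC N) (jFun p))).toNat ≤ e₀ :=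
      Nat.le_of_dvd he0 ⟨ptIdx N x.out p, by rw [← hidx, mul_comm]⟩
    refine hdle.trans ?_
    exact le_card_fibre_of_moved (fun y : SL(2, ℤ) ⧸ Gamma0 N => ε • y) (MulAction.injective ε)
      e₀ he₀ (fun y => by
        rw [smul_iterate, hpow]
        exact neg_one_smul_quot N y)
      (fun y : SL(2, ℤ) ⧸ Gamma0 N => ptPlaceC N y.out p) hPε x hx

theorem conj_pow_eq_neg_one {ε τ : SL(2, ℤ)} {e₀ : ℕ} (h : ε ^ e₀ = -1) :
    (τ * ε * τ⁻¹) ^ e₀ = -1 := by
  rw [conj_pow, h]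
  simp

/-- **the fibre of `x ↦ ptPlaceC N x.out p` over `v` has `ord_v (j - j p)` elements.** -/
theorem card_fibre_pt (p : ℍ) [DecidableEq (Place ℂ (FC N))] (x : SL(2, ℤ) ⧸ Gamma0 N) :
    ((ptPlaceC N x.out p).ord (jC N - algebraMap ℂ (FC N) (jFun p))).toNat =
      (Finset.univ.filter (fun y : SL(2, ℤ) ⧸ Gamma0 N =>
        ptPlaceC N y.out p = ptPlaceC N x.out p)).card := by
  refine fibre_card_eq (fun y : SL(2, ℤ) ⧸ Gamma0 N => ptPlaceC N y.out p)
    (fun v => (v.ord (jC N - algebraMap ℂ (FC N) (jFun p))).toNat) ?_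
    (sum_toNat_ord_image N p) x
  intro x
  by_cases h3 : ∃ τ : SL(2, ℤ), τ • ptRho = p
  · obtain ⟨τ, rfl⟩ := h3
    refine le_card_fibre_of_ell N (τ • ptRho) (τ * (ModularGroup.S * ModularGroup.T) * τ⁻¹) 3
      (Or.inr rfl) ?_ (conj_pow_eq_neg_one ST_cube_eq) ?_ ?_ x
    · rw [mul_smul, mul_smul, inv_smul_smul, ho_ST_smul_ptRho]
    · rw [ellOrder_smul, ellOrder_ptRho]
    · intro g hg
      have h1 := ptIdx_smul N τ (τ⁻¹ * g) ptRho
      rw [mul_inv_cancel_left] at h1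
      rw [h1]
      apply ptIdx_eq_three_of_fixed_ST
      have : (τ⁻¹ * g)⁻¹ * (ModularGroup.S * ModularGroup.T) * (τ⁻¹ * g) =
          g⁻¹ * (τ * (ModularGroup.S * ModularGroup.T) * τ⁻¹) * g := by group
      rw [this]
      exact hg
  by_cases h2 : ∃ τ : SL(2, ℤ), τ • ptI = p
  · obtain ⟨τ, rfl⟩ := h2
    refine le_card_fibre_of_ell N (τ • ptI) (τ * ModularGroup.S * τ⁻¹) 2
      (Or.inl rfl) ?_ (conj_pow_eq_neg_one S_sq_eq) ?_ ?_ x
    · rw [mul_smul, mul_smul, inv_smul_smul, ho_S_smul_ptI]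
    · rw [ellOrder_smul, ellOrder_ptI]
    · intro g hg
      have h1 := ptIdx_smul N τ (τ⁻¹ * g) ptI
      rw [mul_inv_cancel_left] at h1
      rw [h1]
      apply ptIdx_eq_two_of_fixed_S
      have : (τ⁻¹ * g)⁻¹ * ModularGroup.S * (τ⁻¹ * g) =
          g⁻¹ * (τ * ModularGroup.S * τ⁻¹) * g := by group
      rw [this]
      exact hg
  · have h1 : ellOrder p = 1 := by
      unfold ellOrder
      rw [if_neg h3, if_neg h2]
    have hidx := ptIdx_mul_toNat N p x
    rw [h1] at hidx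
    have hd : ((ptPlaceC N x.out p).ord (jC N - algebraMap ℂ (FC N) (jFun p))).toNat = 1 :=
      Nat.eq_one_of_mul_eq_one_left hidx
    show ((ptPlaceC N x.out p).ord (jC N - algebraMap ℂ (FC N) (jFun p))).toNat ≤ _
    rw [hd]
    exact Finset.card_pos.mpr ⟨x, by simp⟩

/-- **the weighted sum over cosets at a point.** -/
theorem sum_ptIdx (p : ℍ) [DecidableEq (Place ℂ (FC N))] (φ : Place ℂ (FC N) → ℤ) :
    ∑ x : SL(2, ℤ) ⧸ Gamma0 N, φ (ptPlaceC N x.out p) * (ptIdx N x.out p : ℤ) =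
      (ellOrder p : ℤ) *
        ∑ v ∈ (Finset.univ.image fun x : SL(2, ℤ) ⧸ Gamma0 N => ptPlaceC N x.out p), φ v := by
  refine sum_weighted_fibre (fun x : SL(2, ℤ) ⧸ Gamma0 N => ptPlaceC N x.out p) φ
    (fun x => (ptIdx N x.out p : ℤ)) (ellOrder p : ℤ) ?_
  intro x
  -- the index is constant on the fibre
  have hconst : ∀ y ∈ Finset.univ.filter (fun y : SL(2, ℤ) ⧸ Gamma0 N =>
      ptPlaceC N y.out p = ptPlaceC N x.out p), (ptIdx N y.out p : ℤ) = (ptIdx N x.out p : ℤ) := by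
    intro y hy
    have hy' := (Finset.mem_filter.mp hy).2
    have h1 := ptIdx_mul_toNat N p y
    have h2 := ptIdx_mul_toNat N p x
    rw [hy'] at h1
    have hd : 0 < ((ptPlaceC N x.out p).ord (jC N - algebraMap ℂ (FC N) (jFun p))).toNat := by
      have := ord_jC_sub_pos N x.out p
      omega
    have : ptIdx N y.out p = ptIdx N x.out p :=
      Nat.eq_of_mul_eq_mul_right hd (h1.trans h2.symm)
    exact_mod_cast this
  rw [Finset.sum_congr rfl hconst, Finset.sum_const, ← card_fibre_pt N p x, nsmul_eq_mul]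
  have h2 := ptIdx_mul_toNat N p x
  have : ((((ptPlaceC N x.out p).ord (jC N - algebraMap ℂ (FC N) (jFun p))).toNat : ℕ) : ℤ) *
      (ptIdx N x.out p : ℤ) = ((ellOrder p : ℕ) : ℤ) := by
    rw [← h2]
    push_cast
    ring
  exact this

end Points

/-! ### cusp places -/

section Cusps

variable [Fintype (SL(2, ℤ) ⧸ Gamma0 N)]

theorem cuspPlaceC_out (x : SL(2, ℤ) ⧸ Gamma0 N) : cuspPlaceC N x.out = cuspPlaceXC N x := by
  conv_rhs => rw [← QuotientGroup.out_eq' x]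
  rfl

theorem mem_image_cuspPlaceC_iff [DecidableEq (Place ℂ (FC N))] (v : Place ℂ (FC N)) :
    v ∈ (Finset.univ.image fun x : SL(2, ℤ) ⧸ Gamma0 N => cuspPlaceC N x.out) ↔
      v.ord (jC N) < 0 := by
  rw [Finset.mem_image]
  constructor
  · rintro ⟨x, -, rfl⟩
    exact cuspPlaceC_ord_jC_neg N x.out
  · intro hv
    obtain ⟨x, hx⟩ := exists_cuspPlaceXC_eq N v hv
    exact ⟨x, Finset.mem_univ _, by rw [cuspPlaceC_out, hx]⟩

/-- **the weighted sum over cosets at the cusps.** -/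
theorem sum_cuspIdx [DecidableEq (Place ℂ (FC N))] (φ : Place ℂ (FC N) → ℤ) :
    ∑ x : SL(2, ℤ) ⧸ Gamma0 N, φ (cuspPlaceC N x.out) * (cuspIdx N x.out : ℤ) =
      (N : ℤ) *
        ∑ v ∈ (Finset.univ.image fun x : SL(2, ℤ) ⧸ Gamma0 N => cuspPlaceC N x.out), φ v := by
  classical
  refine sum_weighted_fibre (fun x : SL(2, ℤ) ⧸ Gamma0 N => cuspPlaceC N x.out) φ
    (fun x => (cuspIdx N x.out : ℤ)) (N : ℤ) ?_
  intro x
  have hfib : Finset.univ.filter (fun y : SL(2, ℤ) ⧸ Gamma0 N =>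
      cuspPlaceC N y.out = cuspPlaceC N x.out) =
      Finset.univ.filter (fun y : SL(2, ℤ) ⧸ Gamma0 N => y ∈ orbit (zpowers ModularGroup.T) x) := by
    ext y
    simp only [Finset.mem_filter, Finset.mem_univ, true_and]
    rw [cuspPlaceC_out, cuspPlaceC_out, cuspPlaceXC_eq_iff]
  have hidx : ∀ y : SL(2, ℤ) ⧸ Gamma0 N, cuspIdx N y.out *
      Nat.card (orbit (zpowers ModularGroup.T) y) = N := by
    intro y
    have := cuspIdx_mul_card_orbit N y.out
    rwa [QuotientGroup.out_eq'] at this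
  have hcardpos : 0 < Nat.card (orbit (zpowers ModularGroup.T) x) := by
    have := hidx x
    rcases Nat.eq_zero_or_pos (Nat.card (orbit (zpowers ModularGroup.T) x)) with h0 | h0
    · rw [h0, mul_zero] at this
      exact absurd this.symm (NeZero.ne N)
    · exact h0
  have hconst : ∀ y ∈ Finset.univ.filter (fun y : SL(2, ℤ) ⧸ Gamma0 N =>
      y ∈ orbit (zpowers ModularGroup.T) x), (cuspIdx N y.out : ℤ) = (cuspIdx N x.out : ℤ) := by
    intro y hy
    have hy' := (Finset.mem_filter.mp hy).2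
    have horb : orbit (zpowers ModularGroup.T) y = orbit (zpowers ModularGroup.T) x :=
      MulAction.orbit_eq_iff.mpr hy'
    have h1 := hidx y
    rw [horb] at h1
    have : cuspIdx N y.out = cuspIdx N x.out :=
      Nat.eq_of_mul_eq_mul_right hcardpos (h1.trans (hidx x).symm)
    exact_mod_cast this
  rw [hfib, Finset.sum_congr rfl hconst, Finset.sum_const, nsmul_eq_mul]
  have hcard : (Finset.univ.filter (fun y : SL(2, ℤ) ⧸ Gamma0 N =>
      y ∈ orbit (zpowers ModularGroup.T) x)).card =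
      Nat.card (orbit (zpowers ModularGroup.T) x) := by
    rw [Nat.card_eq_fintype_card, Fintype.card_subtype]
  rw [hcard]
  have := hidx x
  have h2 : ((cuspIdx N x.out * Nat.card (orbit (zpowers ModularGroup.T) x) : ℕ) : ℤ) = (N : ℤ) := by
    rw [this]
  push_cast at h2
  linarith

end Cusps

/-! ### assembly -/

section Assembly

variable [Fintype (SL(2, ℤ) ⧸ Gamma0 N)]

/-- all places of `F_ℂ` have degree one: the degree is the sum of the coefficients. -/
theorem degree_eq_sum_support (Z : Divisor ℂ (FC N)) :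
    Divisor.degree Z = ∑ v ∈ Z.support, Z v := by
  rw [Divisor.degree, Finsupp.liftAddHom_apply, Finsupp.sum]
  refine Finset.sum_congr rfl fun v _ => ?_
  rw [AddMonoidHom.coe_mulRight, FF.deg_eq_one (Fermat.Agent.ES.KUM.isGen_jC N) v, Nat.cast_one]
  exact mul_one _

theorem sum_eq_sum_support_filter [DecidableEq (Place ℂ (FC N))] (Z : Divisor ℂ (FC N))
    (s : Finset (Place ℂ (FC N))) (P : Place ℂ (FC N) → Prop) [DecidablePred P]
    (hs : ∀ v, v ∈ s ↔ P v) : ∑ v ∈ s, Z v = ∑ v ∈ Z.support.filter P, Z v := by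
  symm
  refine Finset.sum_subset (fun v hv => (hs v).2 (Finset.mem_filter.mp hv).2) fun v hv hnv => ?_
  by_contra h
  exact hnv (Finset.mem_filter.mpr ⟨Finsupp.mem_support_iff.mpr h, (hs v).1 hv⟩)

theorem ordMer_out_eq {F : MerH} {Z : Divisor ℂ (FC N)} (hFZ : IsAutDiv N F Z)
    (x : SL(2, ℤ) ⧸ Gamma0 N) (p : ℍ) :
    ordMer ((x.out⁻¹ : SL(2, ℤ)) • p) F = Z (ptPlaceC N x.out p) * (ptIdx N x.out p : ℤ) := by
  obtain ⟨-, hpt, -⟩ := (isAutDiv_iff N F Z).mp hFZ
  rw [hpt, ← CSurj25.ptPlaceC_eq_one, ← CSurj25.ptIdx_eq_one]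

theorem ord_jC_nonneg_of_pos (v : Place ℂ (FC N)) (c : ℂ)
    (h : 0 < v.ord (jC N - algebraMap ℂ (FC N) c)) : 0 ≤ v.ord (jC N) := by
  obtain ⟨z₀, rfl⟩ := jFun_surjective c
  obtain ⟨g, rfl⟩ := CSurj25.exists_ptPlaceC_eq N z₀ v h
  exact CSurj25.ptPlaceC_ord_jC_nonneg N g z₀

theorem eq_of_ord_jC_sub_pos (v : Place ℂ (FC N)) {c c' : ℂ}
    (h : 0 < v.ord (jC N - algebraMap ℂ (FC N) c))
    (h' : 0 < v.ord (jC N - algebraMap ℂ (FC N) c')) : c = c' := by
  by_contra hne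
  have hsub : (jC N - algebraMap ℂ (FC N) c') - (jC N - algebraMap ℂ (FC N) c) =
      algebraMap ℂ (FC N) (c - c') := by
    rw [map_sub]
    ring
  have hne' : (jC N - algebraMap ℂ (FC N) c') - (jC N - algebraMap ℂ (FC N) c) ≠ 0 := by
    rw [hsub]
    exact (map_ne_zero _).2 (sub_ne_zero.2 hne)
  have h1 := FF.ord_sub_ge v hne'
  rw [hsub, FF.ord_algebraMap] at h1
  exact absurd (lt_of_lt_of_le (lt_min h' h) h1) (lt_irrefl 0)

/-- the local contribution of a place of the support: `1` at a point place (by (T5')), `0` at a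
cusp place. -/
theorem two_mul_sum_fibre (w : ℍ → ℝ)
    (hT5 : ∀ (c : ℂ) (Zc : Finset ℍ), (∀ p : ℍ, jFun p = c → w p ≠ 0 → p ∈ Zc) →
      (∀ p ∈ Zc, jFun p = c) → ∑ p ∈ Zc, (ellOrder p : ℝ) * w p = 1 / 2)
    {F : MerH} {Z : Divisor ℂ (FC N)} (hFZ : IsAutDiv N F Z) (Zf : Finset ℍ)
    (hZf : ∀ p : ℍ, w p ≠ 0 →
      (∃ x : SL(2, ℤ) ⧸ Gamma0 N, ordMer ((x.out⁻¹ : SL(2, ℤ)) • p) F ≠ 0) → p ∈ Zf)
    (v : Place ℂ (FC N)) (hv : v ∈ Z.support) :
    2 * ∑ p ∈ Zf.filter (fun p => 0 < v.ord (jC N - algebraMap ℂ (FC N) (jFun p))),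
      (ellOrder p : ℝ) * w p = if 0 ≤ v.ord (jC N) then 1 else 0 := by
  classical
  by_cases h : 0 ≤ v.ord (jC N)
  · rw [if_pos h]
    obtain ⟨z, rfl⟩ := CSurj25.exists_ptPlaceC_of_ord_jC_nonneg N v h
    have hz := ord_jC_sub_pos N 1 z
    have hfilter : Zf.filter (fun p =>
        0 < (ptPlaceC N 1 z).ord (jC N - algebraMap ℂ (FC N) (jFun p))) =
        Zf.filter (fun p => jFun p = jFun z) := by
      refine Finset.filter_congr fun p _ => ⟨fun hp => eq_of_ord_jC_sub_pos N _ hp hz, fun hp => ?_⟩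
      rw [hp]
      exact hz
    rw [hfilter, hT5 (jFun z) (Zf.filter (fun p => jFun p = jFun z)) ?_
      (fun p hp => (Finset.mem_filter.mp hp).2)]
    · norm_num
    · intro p hp hw
      refine Finset.mem_filter.mpr ⟨hZf p hw ?_, hp⟩
      have hpos : 0 < (ptPlaceC N 1 z).ord (jC N - algebraMap ℂ (FC N) (jFun p)) := by
        rw [hp]
        exact hz
      obtain ⟨g, hg⟩ := CSurj25.exists_ptPlaceC_eq N p _ hpos
      refine ⟨QuotientGroup.mk g, ?_⟩
      rw [ordMer_out_eq N hFZ, ptPlaceC_out_mk, ← hg]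
      exact mul_ne_zero (Finsupp.mem_support_iff.mp hv)
        (Int.natCast_ne_zero.mpr (ptIdx_pos N _ _).ne')
  · rw [if_neg h]
    have hfilter : Zf.filter (fun p =>
        0 < v.ord (jC N - algebraMap ℂ (FC N) (jFun p))) = ∅ := by
      refine Finset.filter_eq_empty_iff.mpr fun p _ hp => h (ord_jC_nonneg_of_pos N v _ hp)
    rw [hfilter, Finset.sum_empty, mul_zero]

theorem deg_count_aux (w : ℍ → ℝ)
    (hT5 : ∀ (c : ℂ) (Zc : Finset ℍ), (∀ p : ℍ, jFun p = c → w p ≠ 0 → p ∈ Zc) →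
      (∀ p ∈ Zc, jFun p = c) → ∑ p ∈ Zc, (ellOrder p : ℝ) * w p = 1 / 2)
    {F : MerH} {Z : Divisor ℂ (FC N)} (hFZ : IsAutDiv N F Z)
    (n : SL(2, ℤ) ⧸ Gamma0 N → ℤ) (hn : ∀ x, CuspOrdIs N F x.out (n x))
    (Zf : Finset ℍ)
    (hZf : ∀ p : ℍ, w p ≠ 0 →
      (∃ x : SL(2, ℤ) ⧸ Gamma0 N, ordMer ((x.out⁻¹ : SL(2, ℤ)) • p) F ≠ 0) → p ∈ Zf) :
    2 * ∑ p ∈ Zf, (∑ x : SL(2, ℤ) ⧸ Gamma0 N,
        (ordMer ((x.out⁻¹ : SL(2, ℤ)) • p) F : ℝ)) * w p
      + ∑ x : SL(2, ℤ) ⧸ Gamma0 N, (n x : ℝ) / N = (Divisor.degree Z : ℝ) := by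
  classical
  obtain ⟨hF0, hpt, hcusp⟩ := (isAutDiv_iff N F Z).mp hFZ
  have hN : (N : ℝ) ≠ 0 := Nat.cast_ne_zero.2 (NeZero.ne N)
  -- the cusp part
  have hcuspsum : ∑ x : SL(2, ℤ) ⧸ Gamma0 N, (n x : ℝ) / N =
      ∑ v ∈ Z.support.filter (fun v => ¬ 0 ≤ v.ord (jC N)), (Z v : ℝ) := by
    have h1 : ∀ x, n x = Z (cuspPlaceC N x.out) * (cuspIdx N x.out : ℤ) :=
      fun x => cuspOrdIs_unique N (hn x) (hcusp x.out)
    have h2 := sum_cuspIdx N (fun v => Z v)
    rw [sum_eq_sum_support_filter N Z _ (fun v => ¬ 0 ≤ v.ord (jC N))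
      (fun v => (mem_image_cuspPlaceC_iff N v).trans not_le.symm)] at h2
    rw [← Finset.sum_div, div_eq_iff hN]
    have h3 : ∑ x : SL(2, ℤ) ⧸ Gamma0 N, (n x : ℝ) =
        ((∑ x : SL(2, ℤ) ⧸ Gamma0 N, Z (cuspPlaceC N x.out) * (cuspIdx N x.out : ℤ) : ℤ) : ℝ) := by
      rw [Int.cast_sum]
      exact Finset.sum_congr rfl fun x _ => by rw [h1 x]
    rw [h3, h2]
    push_cast
    ring
  -- the point part, one point at a time
  have hptsum : ∀ p : ℍ, ∑ x : SL(2, ℤ) ⧸ Gamma0 N, (ordMer ((x.out⁻¹ : SL(2, ℤ)) • p) F : ℝ) =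
      (ellOrder p : ℝ) * ∑ v ∈ Z.support.filter
        (fun v => 0 < v.ord (jC N - algebraMap ℂ (FC N) (jFun p))), (Z v : ℝ) := by
    intro p
    have h2 := sum_ptIdx N p (fun v => Z v)
    rw [sum_eq_sum_support_filter N Z _ _ (mem_image_ptPlaceC_iff N p)] at h2
    have h3 : ∑ x : SL(2, ℤ) ⧸ Gamma0 N, (ordMer ((x.out⁻¹ : SL(2, ℤ)) • p) F : ℝ) =
        ((∑ x : SL(2, ℤ) ⧸ Gamma0 N, Z (ptPlaceC N x.out p) * (ptIdx N x.out p : ℤ) : ℤ) : ℝ) := by
      rw [Int.cast_sum]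
      exact Finset.sum_congr rfl fun x _ => by rw [ordMer_out_eq N hFZ x p]
    rw [h3, h2]
    push_cast
    rfl
  -- exchange the two sums
  have hL : ∀ p ∈ Zf, ((ellOrder p : ℝ) * ∑ v ∈ Z.support.filter
      (fun v => 0 < v.ord (jC N - algebraMap ℂ (FC N) (jFun p))), (Z v : ℝ)) * w p =
      ∑ v ∈ Z.support, if 0 < v.ord (jC N - algebraMap ℂ (FC N) (jFun p)) then
        (Z v : ℝ) * ((ellOrder p : ℝ) * w p) else 0 := by
    intro p _
    rw [Finset.sum_filter, Finset.mul_sum, Finset.sum_mul]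
    refine Finset.sum_congr rfl fun v _ => ?_
    split_ifs <;> ring
  have hR : ∀ v ∈ Z.support, (Z v : ℝ) * (2 * ∑ p ∈ Zf.filter
      (fun p => 0 < v.ord (jC N - algebraMap ℂ (FC N) (jFun p))), (ellOrder p : ℝ) * w p) =
      2 * ∑ p ∈ Zf, if 0 < v.ord (jC N - algebraMap ℂ (FC N) (jFun p)) then
        (Z v : ℝ) * ((ellOrder p : ℝ) * w p) else 0 := by
    intro v _
    rw [Finset.sum_filter, Finset.mul_sum, Finset.mul_sum, Finset.mul_sum]
    refine Finset.sum_congr rfl fun p _ => ?_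
    split_ifs <;> ring
  have hpts : 2 * ∑ p ∈ Zf, (∑ x : SL(2, ℤ) ⧸ Gamma0 N,
      (ordMer ((x.out⁻¹ : SL(2, ℤ)) • p) F : ℝ)) * w p =
      ∑ v ∈ Z.support.filter (fun v => 0 ≤ v.ord (jC N)), (Z v : ℝ) := by
    rw [Finset.sum_congr rfl (fun p _ => by rw [hptsum p]), Finset.sum_congr rfl hL,
      Finset.sum_comm, Finset.mul_sum, Finset.sum_filter]
    refine Finset.sum_congr rfl fun v hv => ?_
    rw [← hR v hv, two_mul_sum_fibre N w hT5 hFZ Zf hZf v hv]
    split_ifs <;> simp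
  rw [hpts, hcuspsum, Finset.sum_filter_add_sum_filter_not, degree_eq_sum_support N Z,
    Int.cast_sum]

end Assembly

/-- **(DEG-COUNT)**: the degree of an automorphic divisor as a weighted count over
`SL(2, ℤ) ⧸ Γ₀(N)` (helper5's statement of board 1169, literally). -/
theorem deg_count (w : ℍ → ℝ)
    (hT5 : ∀ (c : ℂ) (Zc : Finset ℍ), (∀ p : ℍ, jFun p = c → w p ≠ 0 → p ∈ Zc) →
      (∀ p ∈ Zc, jFun p = c) → ∑ p ∈ Zc, (ellOrder p : ℝ) * w p = 1 / 2)
    {F : MerH} {Z : Divisor ℂ (FC N)} (hFZ : IsAutDiv N F Z)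
    (n : SL(2, ℤ) ⧸ Gamma0 N → ℤ) (hn : ∀ x, CuspOrdIs N F x.out (n x))
    (Zf : Finset ℍ)
    (hZf : ∀ p : ℍ, w p ≠ 0 → (∃ x : SL(2, ℤ) ⧸ Gamma0 N, ordMer ((x.out⁻¹ : SL(2, ℤ)) • p) F ≠ 0) → p ∈ Zf) :
    letI : Fintype (SL(2, ℤ) ⧸ Gamma0 N) := Fintype.ofFinite _
    2 * ∑ p ∈ Zf, (∑ x : SL(2, ℤ) ⧸ Gamma0 N, (ordMer ((x.out⁻¹ : SL(2, ℤ)) • p) F : ℝ)) * w p
      + ∑ x : SL(2, ℤ) ⧸ Gamma0 N, (n x : ℝ) / N = (Divisor.degree Z : ℝ) := by
  letI : Fintype (SL(2, ℤ) ⧸ Gamma0 N) := Fintype.ofFinite _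
  exact deg_count_aux N w hT5 hFZ n hn Zf hZf

end Fermat.Agent.M17.DegCount4
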