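/-
M17 (helper1): **(D-a3), cusp behaviour for (DEG)**, generic part (Mathlib only).

* `tendsto_logDeriv_of_cusp_limit` : `f` holomorphic and `h`-periodic on `ℍ` with
  `f(τ) q_h^{-n} → ℓ ≠ 0` ⇒ `f'/f → 2πi n / h` as `Im τ → ∞` (and `f ≠ 0` high up).
-/
import Mathlib

set_option autoImplicit false

namespace Fermat.Agent.M17.DegCusp1

open UpperHalfPlane hiding I
open Complex Filter Topology Function
open scoped Manifold Real

/-- multiplying by `q_h^{-n}` preserves `h`-periodicity. -/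
theorem periodic_mul_exp {f : ℍ → ℂ} {h : ℝ} (hh : h ≠ 0) (hper : Periodic (f ∘ ofComplex) h)
    (n : ℤ) :
    Periodic ((fun τ : ℍ => f τ * cexp (-(2 * π * I * n * (τ : ℂ)) / h)) ∘ ofComplex) h := by
  intro w
  by_cases hw : 0 < im w
  · have hw' : 0 < im (w + (h : ℂ)) := by simpa using hw
    have h1 := hper w
    simp only [Function.comp_apply] at h1 ⊢
    rw [h1]
    congr 1
    rw [ofComplex_apply_of_im_pos hw', ofComplex_apply_of_im_pos hw]
    show cexp (-(2 * π * I * n * (w + h)) / h) = cexp (-(2 * π * I * n * w) / h)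
    have hhc : (h : ℂ) ≠ 0 := by exact_mod_cast hh
    have : -(2 * π * I * n * (w + h)) / h = -(2 * π * I * n * w) / h + ((-n : ℤ) : ℂ) * (2 * π * I) := by
      push_cast
      field_simp
      ring
    rw [this, Complex.exp_add, Complex.exp_int_mul_two_pi_mul_I, mul_one]
  · have hw0 : im w ≤ 0 := not_lt.mp hw
    have hw' : im (w + (h : ℂ)) ≤ 0 := by simpa using hw0
    simp only [Function.comp_apply, ofComplex_apply_of_im_nonpos hw',
      ofComplex_apply_of_im_nonpos hw0]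

theorem hasDerivAt_qParam (h : ℝ) (z : ℂ) :
    HasDerivAt (Periodic.qParam h) (Periodic.qParam h z * (2 * π * I / h)) z := by
  unfold Periodic.qParam
  have h1 : HasDerivAt (fun z : ℂ => 2 * π * I * z / h) (2 * π * I / h) z := by
    have := ((hasDerivAt_id z).const_mul (2 * π * I)).div_const (h : ℂ)
    simpa using this
  exact h1.cexp

/-- **logarithmic derivative at a cusp.** -/
theorem tendsto_logDeriv_of_cusp_limit {f : ℍ → ℂ} {h : ℝ} (hh : 0 < h)
    (hper : Periodic (f ∘ ofComplex) h) (hhol : MDiff f) (n : ℤ) {ℓ : ℂ} (hℓ : ℓ ≠ 0)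
    (hlim : Tendsto (fun τ : ℍ => f τ * cexp (-(2 * π * I * n * (τ : ℂ)) / h)) atImInfty (𝓝 ℓ)) :
    (∀ᶠ τ : ℍ in atImInfty, f τ ≠ 0) ∧
    Tendsto (fun τ : ℍ => deriv (f ∘ ofComplex) τ / f τ) atImInfty (𝓝 (2 * π * I * n / h)) := by
  have hhc : (h : ℂ) ≠ 0 := by exact_mod_cast hh.ne'
  set g : ℍ → ℂ := fun τ => f τ * cexp (-(2 * π * I * n * (τ : ℂ)) / h) with hg
  have hgper : Periodic (g ∘ ofComplex) h := periodic_mul_exp hh.ne' hper n
  have hghol : MDiff g := by
    rw [UpperHalfPlane.mdifferentiable_iff]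
    have h1 := UpperHalfPlane.mdifferentiable_iff.mp hhol
    have h2 : DifferentiableOn ℂ (fun z : ℂ => cexp (-(2 * π * I * n * z) / h)) {z | 0 < z.im} :=
      (by fun_prop : Differentiable ℂ fun z : ℂ => cexp (-(2 * π * I * n * z) / h)).differentiableOn
    refine (h1.mul h2).congr ?_
    intro z hz
    simp only [Function.comp_apply, hg, Pi.mul_apply, ofComplex_apply_of_im_pos hz]
  have hgbdd : IsBoundedAtImInfty g := hlim.isBigO_one ℝ
  set G := cuspFunction h g with hG
  have hGd : ∀ q : ℂ, ‖q‖ < 1 → DifferentiableAt ℂ G q := fun q hq =>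
    differentiableAt_cuspFunction hh hgper hghol hgbdd hq
  have hGan : AnalyticAt ℂ G 0 := analyticAt_cuspFunction_zero hh hgper hghol hgbdd
  have hq0 : Tendsto (fun τ : ℍ => Periodic.qParam h τ) atImInfty (𝓝 0) :=
    qParam_tendsto_atImInfty hh
  have hGq : ∀ τ : ℍ, G (Periodic.qParam h τ) = g τ := fun τ => eq_cuspFunction τ hh.ne' hgper
  have hG0 : G 0 = ℓ := by
    have h1 : Tendsto (fun τ : ℍ => G (Periodic.qParam h τ)) atImInfty (𝓝 (G 0)) :=
      hGan.continuousAt.tendsto.comp hq0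
    have h2 : Tendsto (fun τ : ℍ => G (Periodic.qParam h τ)) atImInfty (𝓝 ℓ) :=
      hlim.congr fun τ => (hGq τ).symm
    exact tendsto_nhds_unique h1 h2
  have hΦ : ContinuousAt (fun q : ℂ => q * deriv G q / G q) 0 := by
    have hd : ContinuousAt (deriv G) 0 := hGan.deriv.continuousAt
    exact (continuousAt_id.mul hd).div hGan.continuousAt (by rw [hG0]; exact hℓ)
  have hΦlim : Tendsto (fun τ : ℍ => Periodic.qParam h τ * deriv G (Periodic.qParam h τ) /
      G (Periodic.qParam h τ)) atImInfty (𝓝 0) := by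
    have := hΦ.tendsto.comp hq0
    simp only [zero_mul, zero_div] at this
    exact this
  have hgne : ∀ᶠ τ : ℍ in atImInfty, g τ ≠ 0 := hlim.eventually_ne hℓ
  have hfne : ∀ᶠ τ : ℍ in atImInfty, f τ ≠ 0 := by
    filter_upwards [hgne] with τ hτ h0
    exact hτ (by rw [hg]; simp only; rw [h0, zero_mul])
  refine ⟨hfne, ?_⟩
  have hformula : ∀ᶠ τ : ℍ in atImInfty, 2 * π * I * n / h + 2 * π * I / h *
      (Periodic.qParam h τ * deriv G (Periodic.qParam h τ) / G (Periodic.qParam h τ)) =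
      deriv (f ∘ ofComplex) τ / f τ := by
    filter_upwards [hgne] with τ hτ
    set q := Periodic.qParam h (τ : ℂ) with hq
    have hqlt : ‖q‖ < 1 := Periodic.norm_qParam_lt_one hh τ.im_pos
    have hGq0 : G q ≠ 0 := by rw [hq, hGq τ]; exact hτ
    set E := cexp (2 * π * I * n * (τ : ℂ) / h) with hE
    have hE0 : E ≠ 0 := Complex.exp_ne_zero _
    have hfE : f τ = G q * E := by
      rw [hq, hGq τ, hg, hE]
      simp only
      rw [mul_assoc, ← Complex.exp_add]
      have : -(2 * π * I * n * (τ : ℂ)) / h + 2 * π * I * n * (τ : ℂ) / h = 0 := by ring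
      rw [this, Complex.exp_zero, mul_one]
    have hev : (f ∘ ofComplex) =ᶠ[𝓝 (τ : ℂ)]
        fun z => G (Periodic.qParam h z) * cexp (2 * π * I * n * z / h) := by
      filter_upwards [isOpen_upperHalfPlaneSet.mem_nhds τ.im_pos] with z hz
      have hz' : 0 < z.im := hz
      have e1 : G (Periodic.qParam h z) = g ⟨z, hz'⟩ := hGq ⟨z, hz'⟩
      rw [e1, Function.comp_apply, ofComplex_apply_of_im_pos hz', hg]
      simp only
      rw [mul_assoc, ← Complex.exp_add]
      have : -(2 * π * I * n * ((⟨z, hz'⟩ : ℍ) : ℂ)) / h + 2 * π * I * n * z / h = 0 := by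
        show -(2 * π * I * n * z) / h + 2 * π * I * n * z / h = 0
        ring
      rw [this, Complex.exp_zero, mul_one]
    have hd1 : HasDerivAt (fun z : ℂ => G (Periodic.qParam h z))
        (deriv G q * (q * (2 * π * I / h))) (τ : ℂ) :=
      (hGd q hqlt).hasDerivAt.comp (τ : ℂ) (hasDerivAt_qParam h (τ : ℂ))
    have hd2 : HasDerivAt (fun z : ℂ => cexp (2 * π * I * n * z / h))
        (E * (2 * π * I * n / h)) (τ : ℂ) := by
      have h1 : HasDerivAt (fun z : ℂ => 2 * π * I * n * z / h) (2 * π * I * n / h) (τ : ℂ) := by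
        have := ((hasDerivAt_id (τ : ℂ)).const_mul (2 * π * I * n)).div_const (h : ℂ)
        simpa using this
      exact h1.cexp
    have hd := hd1.mul hd2
    have hderiv : deriv (f ∘ ofComplex) τ =
        deriv G q * (q * (2 * π * I / h)) * E + G q * (E * (2 * π * I * n / h)) := by
      rw [hev.deriv_eq]
      exact hd.deriv
    rw [hderiv, hfE]
    field_simp
    ring
  refine Tendsto.congr' hformula ?_
  have := (hΦlim.const_mul (2 * π * I / h)).const_add (2 * π * I * n / h)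
  simpa using this

/-- the `ε`-form. -/
theorem exists_forall_logDeriv_of_cusp_limit {f : ℍ → ℂ} {h : ℝ} (hh : 0 < h)
    (hper : Periodic (f ∘ ofComplex) h) (hhol : MDiff f) (n : ℤ) {ℓ : ℂ} (hℓ : ℓ ≠ 0)
    (hlim : Tendsto (fun τ : ℍ => f τ * cexp (-(2 * π * I * n * (τ : ℂ)) / h)) atImInfty (𝓝 ℓ))
    {ε : ℝ} (hε : 0 < ε) :
    ∃ Y : ℝ, ∀ τ : ℍ, Y ≤ τ.im →
      f τ ≠ 0 ∧ ‖deriv (f ∘ ofComplex) τ / f τ - 2 * π * I * n / h‖ < ε := by
  obtain ⟨h1, h2⟩ := tendsto_logDeriv_of_cusp_limit hh hper hhol n hℓ hlim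
  have h3 : ∀ᶠ τ : ℍ in atImInfty,
      ‖deriv (f ∘ ofComplex) τ / f τ - 2 * π * I * n / h‖ < ε := by
    have := Metric.tendsto_nhds.mp h2 ε hε
    filter_upwards [this] with τ hτ
    rwa [dist_eq_norm] at hτ
  obtain ⟨Y, hY⟩ := (atImInfty_mem _).mp (h1.and h3)
  exact ⟨Y, fun τ hτ => hY τ hτ⟩

end Fermat.Agent.M17.DegCusp1
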