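/-
M17 (helper1): **the zero divisor of `F_e = θ(A - e)`** (fields `Z`, `Z_spec`, `Z_nonneg` of
`Interfaces7.RTData`).

* `thetaLike_Fe` : if `F_e ≠ 0` then `F_e` is theta-like (`AutoDiv1.ThetaLike`);
* `Zdiv L e` : the divisor (`0` if `F_e = 0`), with `Zdiv_spec`, `Zdiv_nonneg`.
-/
import Mathlib
import Fermat.Agent.M17.ThetaPull1
import Fermat.Agent.M17.AutoDivC1
import Fermat.Agent.ES.J.TateChar11

set_option autoImplicit false
set_option linter.unusedSectionVars false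

namespace Fermat.Agent.M17.Theta1

open Complex Real Matrix UpperHalfPlane Filter Topology CongruenceSubgroup Function AlgebraicCurve
open Fermat.Agent.M17.Interfaces7 Fermat.Agent.X0 Fermat.Agent.X0.SurjPoint Fermat.Agent.ES.KUM
open Fermat.Agent.M17.AutoDiv1 Fermat.Agent.M17.AutDiv4 ModularCurve
open scoped Manifold MatrixGroups

variable {N : ℕ} [NeZero N] {g : ℕ} (L : LatData N g)

/-- the factor of automorphy as a function on `ℍ`. -/
noncomputable def facFun (c : ℂ) (m e : Fin g → ℂ) (τ : ℍ) : ℂ :=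
  cexp (c - 2 * π * Complex.I * (m ⬝ᵥ (L.A τ - e)))

theorem mdiff_facFun (c : ℂ) (m e : Fin g → ℂ) : MDiff (facFun L c m e) := by
  intro τ
  rw [UpperHalfPlane.mdifferentiableAt_iff]
  have h1 : DifferentiableAt ℂ (fun w : ℂ => L.A (ofComplex w) - e) (τ : ℂ) :=
    ((hasDerivAt_A L τ).differentiableAt).sub_const e
  have h2 : DifferentiableAt ℂ (fun w : ℂ => m ⬝ᵥ (L.A (ofComplex w) - e)) (τ : ℂ) := by
    simp only [dotProduct]
    refine DifferentiableAt.fun_sum fun k _ => ?_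
    exact (differentiableAt_const _).mul ((differentiableAt_pi.mp h1) k)
  exact ((differentiableAt_const c).sub ((differentiableAt_const _).mul h2)).cexp

/-- the factor of automorphy in `HolH`. -/
noncomputable def facHol (c : ℂ) (m e : Fin g → ℂ) : HolH := ⟨facFun L c m e, mdiff_facFun L c m e⟩

theorem facHol_ne_zero (c : ℂ) (m e : Fin g → ℂ) (τ : ℍ) : (facHol L c m e : ℍ → ℂ) τ ≠ 0 :=
  Complex.exp_ne_zero _

theorem exists_tendsto_facHol (c : ℂ) (m e : Fin g → ℂ) (δ : SL(2, ℤ)) :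
    ∃ c' : ℂ, c' ≠ 0 ∧ Tendsto (fun τ : ℍ => (facHol L c m e : ℍ → ℂ) (δ • τ)) atImInfty (𝓝 c') := by
  obtain ⟨Ac, hAc⟩ := exists_tendsto_A_cusp L δ
  refine ⟨cexp (c - 2 * π * Complex.I * (m ⬝ᵥ (Ac - e))), Complex.exp_ne_zero _, ?_⟩
  have hcont : Continuous fun v : Fin g → ℂ => cexp (c - 2 * π * Complex.I * (m ⬝ᵥ (v - e))) := by
    simp only [dotProduct]
    fun_prop
  exact (hcont.tendsto Ac).comp hAc

/-- trivial action of the elements with `|tr| ≤ 2` on `A`. -/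
theorem A_smul_of_abs_trace_le (γ : Gamma0 N)
    (hγ : |((γ : SL(2, ℤ)) : Matrix (Fin 2) (Fin 2) ℤ).trace| ≤ 2) (τ : ℍ) :
    L.A ((γ : SL(2, ℤ)) • τ) = L.A τ := by
  have hn : nVec L γ = 0 := by
    funext k
    exact Fermat.Agent.ES.J.TateChar11.parabolic_apply_eq_zero
      (ModularCurve.Period.mem_parabolicHoms_iff.mp (L.n k).2) γ hγ
  have hm : mVec L γ = 0 := by
    funext k
    exact Fermat.Agent.ES.J.TateChar11.parabolic_apply_eq_zero
      (ModularCurve.Period.mem_parabolicHoms_iff.mp (L.m k).2) γ hγ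
  rw [A_smul, hn, hm, intVec_zero, Siegel.ofRealVec_zero, mulVec_zero, add_zero, add_zero]

/-- the cusp orders of `F_e` in the shape of `AutoDiv1.HolCuspOrd`. -/
theorem exists_holCuspOrd_Fe (e : Fin g → ℂ) (hne : Fe L e ≠ 0) (δ : SL(2, ℤ)) :
    ∃ n : ℕ, HolCuspOrd N (Fe L e) δ (n : ℤ) := by
  have hN : (0 : ℝ) < (N : ℝ) := by exact_mod_cast Nat.pos_of_ne_zero (NeZero.ne N)
  have hhol : MDiff (fun τ : ℍ => FeFun L e (δ⁻¹ • τ)) := (compSLHom δ⁻¹ (Fe L e)).2
  obtain ⟨c, hc⟩ := exists_tendsto_FeFun_cusp L e δ⁻¹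
  have hbdd : IsBoundedAtImInfty (fun τ : ℍ => FeFun L e (δ⁻¹ • τ)) := hc.isBigO_one ℝ
  have hne' : (fun τ : ℍ => FeFun L e (δ⁻¹ • τ)) ≠ 0 := by
    intro h0
    apply hne
    apply Subtype.ext
    funext τ
    have := congrFun h0 (δ • τ)
    simp only [inv_smul_smul, Pi.zero_apply] at this
    exact this
  obtain ⟨n, ℓ, hℓ, hlim⟩ :=
    CuspOrder1.exists_cusp_order hN (periodic_FeFun_cusp L e δ) hhol hbdd hne'
  refine ⟨n, ℓ, hℓ, hlim.congr fun τ => ?_⟩
  unfold Efac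
  push_cast
  rfl

/-- **`F_e` is theta-like.** -/
theorem thetaLike_Fe (e : Fin g → ℂ) (hne : Fe L e ≠ 0) : ThetaLike N (Fe L e) where
  ne := hne
  aut := by
    intro γ hγ
    refine ⟨facHol L (-(π * Complex.I * (siegelOfLat L).Q
      (Siegel.ofRealVec (intVec (mVec L ⟨γ, hγ⟩))))) (Siegel.ofRealVec (intVec (mVec L ⟨γ, hγ⟩))) e,
      facHol_ne_zero L _ _ _, ?_, exists_tendsto_facHol L _ _ _⟩
    apply Subtype.ext
    funext τ
    exact FeFun_smul L e ⟨γ, hγ⟩ τ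
  stab := by
    intro γ hγ htr
    apply Subtype.ext
    funext τ
    show FeFun L e (γ • τ) = FeFun L e τ
    unfold FeFun
    rw [A_smul_of_abs_trace_le L ⟨γ, hγ⟩ htr τ]
  cusp := exists_holCuspOrd_Fe L e hne

open Classical in
/-- **the zero divisor of `F_e`** (`0` if `F_e = 0`). -/
noncomputable def Zdiv (e : Fin g → ℂ) : Divisor ℂ (FC N) :=
  if h : Fe L e ≠ 0 then (thetaLike_Fe L e h).div else 0

theorem Zdiv_spec (e : Fin g → ℂ) (h : Fe L e ≠ 0) :
    IsAutDiv N (algebraMap HolH MerH (Fe L e)) (Zdiv L e) := by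
  unfold Zdiv
  rw [dif_pos h]
  exact (thetaLike_Fe L e h).isAutDiv_div

theorem Zdiv_nonneg (e : Fin g → ℂ) (v : Place ℂ (FC N)) : 0 ≤ Zdiv L e v := by
  unfold Zdiv
  split_ifs with h
  · exact (thetaLike_Fe L e h).div_nonneg v
  · exact le_rfl

end Fermat.Agent.M17.Theta1
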