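/-
M17 (helper1): **(D-a3), cusp behaviour for (DEG)**, the two statements of helper5's plan (board
1169) for `F_e = θ(A - e)` and `S = Sfun N L e`:

* `tendsto_logDeriv_cusp` : `F_e'/F_e ∘ δ⁻¹ → 2πi n / N` where `n` is the order at the cusp `δ`;
* `tendsto_S_cusp` : `(S ∣[2] δ⁻¹) → 0`.
-/
import Mathlib
import Fermat.Agent.M17.DegDefs5
import Fermat.Agent.M17.DegCusp1
import Fermat.Agent.M17.ThetaDiv1

set_option autoImplicit false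
set_option linter.unusedSectionVars false

namespace Fermat.Agent.M17.DegCuspInst1

open UpperHalfPlane hiding I
open Complex Filter Topology Function CongruenceSubgroup
open Fermat.Agent.M17.Interfaces7 Fermat.Agent.M17.Theta1 Fermat.Agent.M17.DegDefs5
open Fermat.Agent.X0 Fermat.Agent.X0.SurjPoint Fermat.Agent.ES.KUM
open Fermat.Agent.M17.AutoDiv1 Fermat.Agent.M17.AutDiv4
open scoped Real MatrixGroups ModularForm Manifold

variable (N : ℕ) [NeZero N] {g : ℕ} (L : LatData N g) (e : Fin g → ℂ)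

/-- from the normalisation of `Interfaces7.CuspOrdIs` to a limit of `F_e` itself. -/
theorem holCuspOrd_Fe_of_cuspOrdIs (δ : SL(2, ℤ)) (n : ℤ)
    (hn : CuspOrdIs N (algebraMap HolH MerH (Fe L e)) δ n) : HolCuspOrd N (Fe L e) δ n := by
  have hne : Fe L e ≠ 0 := by
    intro h0
    apply cuspOrdIs_ne_zero N hn
    rw [h0, map_zero]
  obtain ⟨n', hn'⟩ := exists_holCuspOrd_Fe L e hne δ
  have := cuspOrdIs_unique N hn (cuspOrdIs_of_holCuspOrd N hn')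
  rw [this]
  exact hn'

/-- **(D-a3), first half.** -/
theorem tendsto_logDeriv_cusp (δ : SL(2, ℤ)) (n : ℤ)
    (hn : CuspOrdIs N (algebraMap HolH MerH (Fe L e)) δ n) :
    ∀ ε > 0, ∃ Y : ℝ, ∀ τ : ℍ, Y ≤ τ.im →
      FeFun L e (δ⁻¹ • τ) ≠ 0 ∧
      ‖deriv (fun z : ℂ => FeFun L e (δ⁻¹ • ofComplex z)) τ / FeFun L e (δ⁻¹ • τ)
        - 2 * π * Complex.I * n / N‖ < ε := by
  intro ε hε
  obtain ⟨ℓ, hℓ, hlim⟩ := holCuspOrd_Fe_of_cuspOrdIs N L e δ n hn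
  have hN : (0 : ℝ) < (N : ℝ) := by exact_mod_cast Nat.pos_of_ne_zero (NeZero.ne N)
  have hhol : MDiff (fun τ : ℍ => FeFun L e (δ⁻¹ • τ)) := (compSLHom δ⁻¹ (Fe L e)).2
  have hlim' : Tendsto (fun τ : ℍ => FeFun L e (δ⁻¹ • τ) *
      cexp (-(2 * π * I * n * (τ : ℂ)) / ((N : ℝ) : ℂ))) atImInfty (𝓝 ℓ) := by
    refine hlim.congr fun τ => ?_
    unfold Efac
    push_cast
    rfl
  obtain ⟨Y, hY⟩ := DegCusp1.exists_forall_logDeriv_of_cusp_limit hN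
    (periodic_FeFun_cusp L e δ) hhol n hℓ hlim' hε
  refine ⟨Y, fun τ hτ => ?_⟩
  obtain ⟨h1, h2⟩ := hY τ hτ
  refine ⟨h1, ?_⟩
  have h3 : ((N : ℝ) : ℂ) = (N : ℂ) := by push_cast; rfl
  rw [h3] at h2
  exact h2

/-- the weight `2` translates of a cusp form tend to `0` at `i∞`. -/
theorem tendsto_cusp_slash (f : CuspForm (Gamma0 N) 2) (δ : SL(2, ℤ)) :
    Tendsto (fun τ : ℍ => f (δ • τ) / denom δ τ ^ 2) atImInfty (𝓝 0) := by
  obtain ⟨a, ha, hO⟩ := Fermat.Agent.S21.PeriodPrim.cusp_slash_decay f δ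
  have h0 : Tendsto (fun τ : ℍ => Real.exp (-a * τ.im)) atImInfty (𝓝 0) := by
    refine Real.tendsto_exp_atBot.comp ?_
    have h1 : Tendsto (fun τ : ℍ => τ.im) atImInfty atTop := tendsto_comap
    exact (tendsto_const_mul_atBot_of_neg (neg_neg_of_pos ha)).mpr h1
  have h2 := hO.trans_tendsto h0
  refine h2.congr fun τ => ?_
  have h3 : ((f : ℍ → ℂ) ∣[(2 : ℤ)] (Matrix.SpecialLinearGroup.mapGL ℝ δ)) τ =
      f (δ • τ) * denom δ τ ^ (-(2 : ℤ)) := ModularForm.SL_slash_apply (f : ℍ → ℂ) δ τ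
  rw [h3, zpow_neg, div_eq_mul_inv]
  rfl

/-- **(D-a3), second half.** -/
theorem tendsto_S_cusp (δ : SL(2, ℤ)) :
    ∀ ε > 0, ∃ Y : ℝ, ∀ τ : ℍ, Y ≤ τ.im →
      ‖Sfun N L e (δ⁻¹ • τ) / denom δ⁻¹ τ ^ 2‖ < ε := by
  intro ε hε
  obtain ⟨Ac, hAc⟩ := exists_tendsto_A_cusp L δ⁻¹
  have hk : ∀ k, Tendsto (fun τ : ℍ => (((L.A (δ⁻¹ • τ) k - e k).im : ℝ) : ℂ)) atImInfty
      (𝓝 (((Ac k - e k).im : ℝ) : ℂ)) := by
    intro k
    have h1 : Tendsto (fun τ : ℍ => L.A (δ⁻¹ • τ) k - e k) atImInfty (𝓝 (Ac k - e k)) :=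
      ((tendsto_pi_nhds.mp hAc) k).sub_const _
    exact (Complex.continuous_ofReal.tendsto _).comp ((Complex.continuous_im.tendsto _).comp h1)
  have hlim : Tendsto (fun τ : ℍ => 2 * π * I * ∑ j, ∑ k, (((Ymat N L)⁻¹ j k : ℝ) : ℂ) *
      ((L.w j) (δ⁻¹ • τ) / denom δ⁻¹ τ ^ 2) * (((L.A (δ⁻¹ • τ) k - e k).im : ℝ) : ℂ))
      atImInfty (𝓝 (2 * π * I * ∑ j, ∑ k, (((Ymat N L)⁻¹ j k : ℝ) : ℂ) * 0 *
        (((Ac k - e k).im : ℝ) : ℂ))) := by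
    refine Tendsto.const_mul _ ?_
    refine tendsto_finsetSum _ fun j _ => ?_
    refine tendsto_finsetSum _ fun k _ => ?_
    have hj : Tendsto (fun τ : ℍ => (L.w j) (δ⁻¹ • τ) / denom δ⁻¹ τ ^ 2) atImInfty (𝓝 0) := by
      have hcoe : ((δ : GL (Fin 2) ℝ))⁻¹ = ((δ⁻¹ : SL(2, ℤ)) : GL (Fin 2) ℝ) := by simp
      rw [hcoe]
      exact tendsto_cusp_slash N (L.w j) δ⁻¹
    have hc : Tendsto (fun _ : ℍ => (((Ymat N L)⁻¹ j k : ℝ) : ℂ)) atImInfty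
        (𝓝 (((Ymat N L)⁻¹ j k : ℝ) : ℂ)) := tendsto_const_nhds
    exact (hc.mul hj).mul (hk k)
  have hzero : (2 * π * I * ∑ j, ∑ k, (((Ymat N L)⁻¹ j k : ℝ) : ℂ) * 0 *
      (((Ac k - e k).im : ℝ) : ℂ)) = 0 := by simp
  rw [hzero] at hlim
  have hev : ∀ᶠ τ : ℍ in atImInfty, ‖Sfun N L e (δ⁻¹ • τ) / denom δ⁻¹ τ ^ 2‖ < ε := by
    have := Metric.tendsto_nhds.mp hlim ε hε
    filter_upwards [this] with τ hτ
    rw [dist_eq_norm, sub_zero] at hτ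
    have heq : Sfun N L e (δ⁻¹ • τ) / denom δ⁻¹ τ ^ 2 =
        2 * π * I * ∑ j, ∑ k, (((Ymat N L)⁻¹ j k : ℝ) : ℂ) *
          ((L.w j) (δ⁻¹ • τ) / denom δ⁻¹ τ ^ 2) * (((L.A (δ⁻¹ • τ) k - e k).im : ℝ) : ℂ) := by
      unfold Sfun
      rw [mul_div_assoc, Finset.sum_div]
      congr 1
      refine Finset.sum_congr rfl fun j _ => ?_
      rw [Finset.sum_div]
      refine Finset.sum_congr rfl fun k _ => ?_
      ring
    rw [heq]
    exact hτ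
  obtain ⟨Y, hY⟩ := (atImInfty_mem _).mp hev
  exact ⟨Y, fun τ hτ => hY τ hτ⟩

end Fermat.Agent.M17.DegCuspInst1
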