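import Fermat.Agent.M17.DegCore5
import Fermat.Agent.X0.JOrderFinal
import Fermat.Agent.X0.JBasic
import Fermat.Agent.M17.DegCusp1

/-!
# (DEG): the weights of the elliptic points, analytically

`∑_{p ∈ j⁻¹(c)} ellOrder(p) · w(p) = 1/2` for an `SL(2, ℤ)`-partition `w`: this is `deg_core` for
`F = j - c` (`S = 0`, `F'/F → -2πi`).  It replaces the classification of the stabilisers.
The behaviour at `i∞` comes from `(j - c) q → 1` and helper1's generic `DegCusp1`.
-/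

set_option autoImplicit false
set_option linter.unusedSectionVars false

namespace Fermat.Agent.M17.DegEll5

open MeasureTheory Set Filter Topology UpperHalfPlane
open scoped Real MatrixGroups Manifold ModularForm
open Fermat.Agent.M17.CauchyPompeiu5 Fermat.Agent.M17.DegMoebius5 Fermat.Agent.M17.DegMeasure5
  Fermat.Agent.M17.DegUnfold5 Fermat.Agent.M17.DbarResidue5 Fermat.Agent.M17.DegCore5
  Fermat.Agent.M17.DbarLogDeriv5
open Fermat.Agent.X0 Fermat.Agent.X0.JOrder Fermat.Agent.X0.JOrderFinal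
  Fermat.Agent.X0.JOrderMain

noncomputable section

variable {w : ℂ → ℝ}

/-- zeros in the support of the partition are finitely many, if there are none high up -/
lemma finite_zeros_tsupport (hw : SLPartition w) {F : ℂ → ℂ} (hF : DifferentiableOn ℂ F UH)
    (hne : ∀ z ∈ UH, analyticOrderAt F z ≠ ⊤) {M₀ : ℝ} (hM₀ : ∀ z : ℂ, M₀ ≤ z.im → F z ≠ 0) :
    (tsupport w ∩ {z | F z = 0}).Finite := by
  obtain ⟨B, hB⟩ := hw.tsupp_re
  have hK : IsCompact (Icc (-B) B ×ℂ Icc (1 / 2 : ℝ) M₀) := isCompact_Icc.reProdIm isCompact_Icc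
  have hKU : (Icc (-B) B ×ℂ Icc (1 / 2 : ℝ) M₀) ⊆ UH := by
    intro z hz
    rw [Complex.mem_reProdIm] at hz
    show 0 < z.im
    linarith [hz.2.1]
  apply (finite_zeros isOpen_UH hK hKU hF hne).subset
  intro z ⟨hz, hz0⟩
  refine ⟨?_, hz0⟩
  rw [Complex.mem_reProdIm]
  refine ⟨mem_Icc.mpr (abs_le.mp (hB z hz)), mem_Icc.mpr ⟨(hw.tsupp_im z hz).le, ?_⟩⟩
  by_contra h
  exact hM₀ z (not_le.mp h).le hz0

/-- `j - c` on `ℂ` -/
def Fj (c : ℂ) (z : ℂ) : ℂ := jFun (ofComplex z) - c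

lemma differentiableOn_Fj (c : ℂ) : DifferentiableOn ℂ (Fj c) UH := by
  intro z hz
  have h := (analyticAt_jFun ⟨z, hz⟩).differentiableAt
  exact (h.sub_const c).differentiableWithinAt

lemma analyticOrderAt_Fj (c : ℂ) (p : ℍ) :
    analyticOrderAt (Fj c) (p : ℂ) = if jFun p = c then (ellOrder p : ℕ∞) else 0 := by
  have h : Fj c = (fun z => jFun z - c) ∘ ofComplex := rfl
  split_ifs with hc
  · have := ordH_jFun_sub_const p c hc
    unfold ordH at this
    rw [h, this]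
  · have := ordH_jFun_sub_const_of_ne p c hc
    unfold ordH at this
    rw [h, this]

lemma analyticOrderAt_Fj_ne_top (c : ℂ) (z : ℂ) (hz : z ∈ UH) :
    analyticOrderAt (Fj c) z ≠ ⊤ := by
  have := analyticOrderAt_Fj c ⟨z, hz⟩
  rw [this]
  split_ifs <;> simp

/-- weight `2` invariance of `(j - c)' / (j - c)` -/
lemma logDeriv_Fj_smul (c : ℂ) (g : SL(2, ℤ)) (z : ℍ) :
    deriv (Fj c) ↑(g • z) / Fj c ↑(g • z) + 0
      = denom g z ^ 2 * (deriv (Fj c) z / Fj c z + 0) := by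
  have hcomp : Fj c ∘ mob g =ᶠ[𝓝 (z : ℂ)] Fj c := by
    filter_upwards [isOpen_UH.mem_nhds z.im_pos] with u hu
    simp only [Function.comp_apply, Fj, mob, ofComplex_apply]
    rw [jFun_smul]
  have hd : DifferentiableAt ℂ (Fj c) ↑(g • z) :=
    (differentiableOn_Fj c).differentiableAt (isOpen_UH.mem_nhds (g • z).im_pos)
  have h1 : HasDerivAt (Fj c ∘ mob g) (deriv (Fj c) ↑(g • z) * (1 / denom g z ^ 2)) (z : ℂ) := by
    have h0 : HasDerivAt (Fj c) (deriv (Fj c) ↑(g • z)) (mob g (z : ℂ)) := by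
      rw [mob_coe]; exact hd.hasDerivAt
    exact h0.comp (z : ℂ) (hasDerivAt_mob g z)
  have h2 : deriv (Fj c) (z : ℂ) = deriv (Fj c) ↑(g • z) * (1 / denom g z ^ 2) := by
    rw [← hcomp.deriv_eq]
    exact h1.deriv
  have h3 : Fj c ↑(g • z) = Fj c z := by
    simp only [Fj, ofComplex_apply]
    rw [jFun_smul]
  have hden : denom g z ≠ 0 := denom_ne_zero g z
  rw [h3, h2, add_zero, add_zero]
  field_simp

/-- **the weights of the elliptic points**: `∑_{p ∈ j⁻¹(c)} ellOrder(p) w(p) = 1/2`, given the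
behaviour of `(j - c)'/(j - c)` at `i∞`. -/
theorem sum_ellOrder_mul (hw : SLPartition w) (hw0 : ∀ z, 0 ≤ w z) (c : ℂ)
    {M₀ : ℝ} (hM₀ : ∀ z : ℂ, M₀ ≤ z.im → Fj c z ≠ 0)
    (hL : ∀ ε > 0, ∃ Y : ℝ, ∀ z : ℂ, Y ≤ z.im →
      ‖deriv (Fj c) z / Fj c z + 0 - (-(2 * π * Complex.I))‖ < ε)
    (Zc : Finset ℍ) (h1 : ∀ p : ℍ, jFun p = c → w p ≠ 0 → p ∈ Zc)
    (h2 : ∀ p ∈ Zc, jFun p = c) :
    ∑ p ∈ Zc, (ellOrder p : ℝ) * w p = 1 / 2 := by
  classical
  have hfin := finite_zeros_tsupport hw (differentiableOn_Fj c) (analyticOrderAt_Fj_ne_top c) hM₀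
  set Z : Finset ℂ := hfin.toFinset ∪ Zc.image UpperHalfPlane.coe with hZ
  have hZmem : ∀ z ∈ tsupport w, Fj c z = 0 → z ∈ Z := by
    intro z hz h0
    rw [hZ, Finset.mem_union]
    left
    rw [Set.Finite.mem_toFinset]
    exact ⟨hz, h0⟩
  have hS : ContDiffOn ℝ 1 (fun _ : ℂ => (0 : ℂ)) UH := contDiffOn_const
  have hint : Integrable (fun z => W w z * dbar2 (fun _ : ℂ => (0 : ℂ)) z) := by
    have : ∀ z, dbar2 (fun _ : ℂ => (0 : ℂ)) z = 0 := by
      intro z; unfold dbar2; simp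
    simp only [this, mul_zero]
    exact integrable_zero _ _ _
  have key := deg_core hw hw0 (differentiableOn_Fj c) (analyticOrderAt_Fj_ne_top c) hS
    (Filter.Eventually.of_forall fun z g => logDeriv_Fj_smul c g z) hM₀ hL hint Z hZmem
  have hd0 : ∀ z, dbar2 (fun _ : ℂ => (0 : ℂ)) z = 0 := by
    intro z; unfold dbar2; simp
  simp only [hd0, mul_zero, integral_zero, sub_zero] at key
  -- the sum over `Z` reduces to the sum over `Zc`
  have hsum : ∑ p ∈ Z, (analyticOrderNatAt (Fj c) p : ℂ) * W w p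
      = ∑ p ∈ Zc.image UpperHalfPlane.coe, (analyticOrderNatAt (Fj c) p : ℂ) * W w p := by
    symm
    apply Finset.sum_subset (Finset.subset_union_right)
    intro z hz hzn
    rw [Finset.mem_union] at hz
    rcases hz with hz | hz
    · rw [Set.Finite.mem_toFinset] at hz
      obtain ⟨hzs, hz0⟩ := hz
      have hzU : z ∈ UH := tsupport_w_subset_UH hw hzs
      by_cases hwz : w z = 0
      · simp [W, hwz]
      · exfalso
        apply hzn
        rw [Finset.mem_image]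
        refine ⟨⟨z, hzU⟩, h1 ⟨z, hzU⟩ ?_ hwz, rfl⟩
        have : Fj c z = jFun (⟨z, hzU⟩ : ℍ) - c := by
          simp only [Fj]
          rw [ofComplex_apply_of_im_pos hzU]
        have hz0' : Fj c z = 0 := hz0
        rw [this] at hz0'
        exact sub_eq_zero.mp hz0'
    · exact absurd hz hzn
  rw [hsum, Finset.sum_image (fun a _ b _ h => UpperHalfPlane.ext h)] at key
  have hterm : ∀ p ∈ Zc, (analyticOrderNatAt (Fj c) (p : ℂ) : ℂ) * W w p
      = (((ellOrder p : ℝ) * w p : ℝ) : ℂ) := by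
    intro p hp
    unfold analyticOrderNatAt
    rw [analyticOrderAt_Fj, if_pos (h2 p hp)]
    simp [W]
  rw [Finset.sum_congr rfl hterm] at key
  have hI : Complex.I / 2 * -(2 * π * Complex.I) = (π : ℂ) := by
    have : Complex.I * Complex.I = -1 := Complex.I_mul_I
    linear_combination (-(π : ℂ)) * this
  rw [hI] at key
  have hπ : (π : ℂ) ≠ 0 := by exact_mod_cast Real.pi_ne_zero
  have key2 : ((∑ p ∈ Zc, (ellOrder p : ℝ) * w p : ℝ) : ℂ) = ((1 / 2 : ℝ) : ℂ) := by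
    push_cast
    push_cast at key
    have : (π : ℂ) * (2 * ∑ p ∈ Zc, ((ellOrder p : ℕ) : ℂ) * (w p : ℂ)) = π * 1 := by
      linear_combination key
    have := mul_left_cancel₀ hπ this
    linear_combination (1 / 2 : ℂ) * this
  exact_mod_cast key2


/-- `(j - c) q → 1` -/
lemma tendsto_jsub_mul_q (c : ℂ) :
    Tendsto (fun τ : ℍ => (jFun τ - c) * Complex.exp (-(2 * π * Complex.I * ((-1 : ℤ) : ℂ) * (τ : ℂ)) / ((1 : ℝ) : ℂ)))
      atImInfty (𝓝 1) := by
  have h1 := (jNumer_tendsto c).div ModularForm.tendsto_atImInfty_tprod_one_sub_eta_q_pow one_ne_zero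
  rw [div_one] at h1
  refine h1.congr fun τ => ?_
  have hΔ := ModularForm.discriminant_eq_q_prod τ
  have hne := ModularForm.discriminant_ne_zero τ
  have hj := jFun_sub_mul_discriminant c τ
  have hP : (∏' n, (1 - ModularForm.eta_q n τ) ^ 24) ≠ 0 := by
    intro h0
    rw [h0, mul_zero] at hΔ
    exact hne hΔ
  have hq : Function.Periodic.qParam 1 (τ : ℂ)
      = Complex.exp (-(2 * π * Complex.I * ((-1 : ℤ) : ℂ) * (τ : ℂ)) / ((1 : ℝ) : ℂ)) := by
    unfold Function.Periodic.qParam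
    congr 1
    push_cast
    ring
  rw [← hq]
  show jNumer c τ / (∏' n, (1 - ModularForm.eta_q n τ) ^ 24) = _
  have hj' : jNumer c τ = (jFun τ - c) * ModularForm.discriminant τ := hj.symm
  rw [hj', hΔ]
  field_simp

lemma periodic_jsub (c : ℂ) : Function.Periodic ((fun τ : ℍ => jFun τ - c) ∘ ofComplex) (1 : ℝ) := by
  intro z
  simp only [Function.comp_apply]
  by_cases hz : 0 < z.im
  · have hz' : 0 < (z + ((1 : ℝ) : ℂ)).im := by simpa using hz
    rw [ofComplex_apply_of_im_pos hz', ofComplex_apply_of_im_pos hz]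
    have : (⟨z + ((1 : ℝ) : ℂ), hz'⟩ : ℍ) = ModularGroup.T • (⟨z, hz⟩ : ℍ) := by
      rw [UpperHalfPlane.modular_T_smul]
      ext
      simp [add_comm]
    rw [this, jFun_smul]
  · have hz0 : z.im ≤ 0 := not_lt.mp hz
    have hz' : (z + ((1 : ℝ) : ℂ)).im ≤ 0 := by simpa using hz0
    rw [ofComplex_apply_of_im_nonpos hz', ofComplex_apply_of_im_nonpos hz0]

lemma mdiff_jsub (c : ℂ) : MDiff (fun τ : ℍ => jFun τ - c) := by
  rw [UpperHalfPlane.mdifferentiable_iff]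
  exact differentiableOn_Fj c

/-- the behaviour of `j - c` at `i∞` -/
theorem exists_Fj_cusp (c : ℂ) {ε : ℝ} (hε : 0 < ε) :
    ∃ Y : ℝ, 0 < Y ∧ ∀ z : ℂ, Y ≤ z.im →
      Fj c z ≠ 0 ∧ ‖deriv (Fj c) z / Fj c z + 0 - (-(2 * π * Complex.I))‖ < ε := by
  obtain ⟨Y, hY⟩ := DegCusp1.exists_forall_logDeriv_of_cusp_limit one_pos (periodic_jsub c)
    (mdiff_jsub c) (-1) one_ne_zero (tendsto_jsub_mul_q c) hε
  refine ⟨max Y 1, lt_of_lt_of_le one_pos (le_max_right _ _), fun z hz => ?_⟩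
  have hz0 : 0 < z.im := lt_of_lt_of_le one_pos (le_trans (le_max_right _ _) hz)
  have := hY ⟨z, hz0⟩ (le_trans (le_max_left _ _) hz)
  have hF : Fj c z = jFun (⟨z, hz0⟩ : ℍ) - c := by
    simp only [Fj]
    rw [ofComplex_apply_of_im_pos hz0]
  refine ⟨by rw [hF]; exact this.1, ?_⟩
  have h2 := this.2
  have hd : deriv ((fun τ : ℍ => jFun τ - c) ∘ ofComplex) ((⟨z, hz0⟩ : ℍ) : ℂ) = deriv (Fj c) z := rfl
  rw [hd, ← hF] at h2
  convert h2 using 2
  push_cast
  ring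

/-- **the weights of the elliptic points**, unconditionally. -/
theorem sum_ellOrder_mul' {w : ℂ → ℝ} (hw : SLPartition w) (hw0 : ∀ z, 0 ≤ w z) (c : ℂ)
    (Zc : Finset ℍ) (h1 : ∀ p : ℍ, jFun p = c → w p ≠ 0 → p ∈ Zc)
    (h2 : ∀ p ∈ Zc, jFun p = c) :
    ∑ p ∈ Zc, (ellOrder p : ℝ) * w p = 1 / 2 := by
  obtain ⟨M₀, -, hM₀⟩ := exists_Fj_cusp c one_pos
  exact sum_ellOrder_mul hw hw0 c (fun z hz => (hM₀ z hz).1)
    (fun ε hε => by
      obtain ⟨Y, -, hY⟩ := exists_Fj_cusp c hε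
      exact ⟨Y, fun z hz => (hY z hz).2⟩) Zc h1 h2

end

end Fermat.Agent.M17.DegEll5
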