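import Mathlib

/-!
# Hyperbolic versus Lebesgue integrals on the upper half plane

`∫_ℍ (im z)² h(z) dμ_hyp = ∫_{im > 0} h dA`.  Mathlib only.
-/

set_option autoImplicit false

namespace Fermat.Agent.M17.DegMeasure5

open MeasureTheory Set Filter Topology UpperHalfPlane
open scoped Real NNReal ENNReal

noncomputable section

/-- the open upper half plane as a subset of `ℂ` -/
def UH : Set ℂ := {z : ℂ | 0 < z.im}

lemma isOpen_UH : IsOpen UH := isOpen_lt continuous_const Complex.continuous_im

lemma range_coe_eq : Set.range UpperHalfPlane.coe = UH := by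
  ext z
  constructor
  · rintro ⟨w, rfl⟩; exact w.im_pos
  · intro hz; exact ⟨⟨z, hz⟩, rfl⟩

lemma measurePreserving_coe :
    MeasurePreserving UpperHalfPlane.coe (volume.comap UpperHalfPlane.coe) (volume.restrict UH) := by
  rw [← range_coe_eq]
  exact ⟨measurable_coe, by rw [measurableEmbedding_coe.map_comap]⟩

/-- the density `1 / y²` -/
def dens (z : ℍ) : ℝ≥0 := (1 / NNReal.mk z.im z.im_pos.le : ℝ≥0) ^ 2

lemma measurable_dens : Measurable dens := by
  unfold dens
  refine Measurable.pow_const (Measurable.const_div ?_ _) _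
  exact (UpperHalfPlane.continuous_im.subtype_mk _).measurable

lemma volume_eq : (volume : Measure ℍ) =
    (volume.comap UpperHalfPlane.coe).withDensity (fun z => (dens z : ℝ≥0∞)) := by
  rw [volume_def]; rfl

lemma dens_smul (z : ℍ) (c : ℂ) : dens z • (((z.im : ℂ)) ^ 2 * c) = c := by
  have hy : (z.im : ℂ) ≠ 0 := by exact_mod_cast z.im_pos.ne'
  rw [NNReal.smul_def, Complex.real_smul]
  unfold dens
  push_cast
  field_simp

/-- **hyperbolic ↔ Lebesgue** -/
theorem integral_UHP (h : ℂ → ℂ) :
    ∫ z : ℍ, ((z.im : ℂ) ^ 2 * h z) = ∫ z in UH, h z := by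
  rw [volume_eq, integral_withDensity_eq_integral_smul measurable_dens]
  simp only [dens_smul]
  exact measurePreserving_coe.integral_comp measurableEmbedding_coe h

theorem integrable_UHP {h : ℂ → ℂ} (hh : IntegrableOn h UH) :
    Integrable (fun z : ℍ => ((z.im : ℂ) ^ 2 * h z)) := by
  rw [volume_eq, integrable_withDensity_iff_integrable_smul measurable_dens]
  simp only [dens_smul]
  exact (measurePreserving_coe.integrable_comp_emb measurableEmbedding_coe).mpr hh

end

end Fermat.Agent.M17.DegMeasure5
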