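import Mathlib
import Fermat.Agent.ES.PET.Unfold12

/-!
# Unfolding: an integrable function whose orbit sums vanish has integral zero

`G` a countable group acting measure-preservingly on `(X, μ)` with a partition function `w`.
If `Ψ` is integrable and `∑_g Ψ (g • x) = 0` for a.e. `x`, then `∫ Ψ = 0`.
-/

set_option autoImplicit false
set_option linter.unusedSectionVars false

open MeasureTheory ENNReal
open scoped ENNReal

noncomputable section

namespace Fermat.Agent.M17.UnfoldZero5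

open Fermat.Agent.ES.PET.Unfold12

variable {G X : Type*} [Group G] [MeasurableSpace X] [MulAction G X]
variable [Countable G] [MeasurableConstSMul G X] {μ : Measure X} [SMulInvariantMeasure G X μ]

/-- Tonelli bound shared by the two interchanges. -/
theorem tsum_lintegral_enorm_le {w : X → ℝ≥0∞} (hw : IsPartition G μ w) {Ψ : X → ℂ}
    (hΨ : AEStronglyMeasurable Ψ μ) :
    ∑' g : G, ∫⁻ x, ‖wc w (g • x) * Ψ x‖ₑ ∂μ ≤ ∫⁻ x, ‖Ψ x‖ₑ ∂μ := by
  have h1 : ∀ g : G, ∫⁻ x, ‖wc w (g • x) * Ψ x‖ₑ ∂μ ≤ ∫⁻ x, w (g • x) * ‖Ψ x‖ₑ ∂μ := by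
    intro g
    refine lintegral_mono fun x => ?_
    rw [enorm_mul]
    exact mul_le_mul' (enorm_wc w (g • x)) le_rfl
  have hm : ∀ g : G, AEMeasurable (fun x => w (g • x) * ‖Ψ x‖ₑ) μ := fun g =>
    ((hw.1.comp (measurable_const_smul g)).aemeasurable).mul hΨ.enorm
  calc ∑' g : G, ∫⁻ x, ‖wc w (g • x) * Ψ x‖ₑ ∂μ
      ≤ ∑' g : G, ∫⁻ x, w (g • x) * ‖Ψ x‖ₑ ∂μ := ENNReal.tsum_le_tsum h1
    _ = ∫⁻ x, ∑' g : G, w (g • x) * ‖Ψ x‖ₑ ∂μ := (lintegral_tsum hm).symm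
    _ = ∫⁻ x, ‖Ψ x‖ₑ ∂μ := by
        refine lintegral_congr_ae ?_
        filter_upwards [hw.2] with x hx
        rw [ENNReal.tsum_mul_right, hx, one_mul]

/-- **Unfolding to zero.** -/
theorem integral_eq_zero_of_orbit_sum {w : X → ℝ≥0∞} (hw : IsPartition G μ w) {Ψ : X → ℂ}
    (hΨ : Integrable Ψ μ) (hsum : ∀ᵐ x ∂μ, HasSum (fun g : G => Ψ (g • x)) 0) :
    ∫ x, Ψ x ∂μ = 0 := by
  have hfin : ∫⁻ x, ‖Ψ x‖ₑ ∂μ ≠ ∞ := hΨ.2.ne
  -- step 1: insert the partition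
  have hmeas1 : ∀ g : G, AEStronglyMeasurable (fun x => wc w (g • x) * Ψ x) μ := fun g =>
    (((measurable_wc hw.1).comp (measurable_const_smul g)).aestronglyMeasurable).mul hΨ.1
  have hb1 : ∑' g : G, ∫⁻ x, ‖wc w (g • x) * Ψ x‖ₑ ∂μ ≠ ∞ :=
    ne_top_of_le_ne_top hfin (tsum_lintegral_enorm_le hw hΨ.1)
  have e1 : ∫ x, Ψ x ∂μ = ∑' g : G, ∫ x, wc w (g • x) * Ψ x ∂μ := by
    rw [← integral_tsum hmeas1 hb1]
    refine integral_congr_ae ?_
    filter_upwards [hw.tsum_wc] with x hx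
    rw [tsum_mul_right, hx, one_mul]
  -- step 2: change variables in each term
  have e2 : ∀ g : G, ∫ x, wc w (g • x) * Ψ x ∂μ = ∫ x, wc w x * Ψ (g⁻¹ • x) ∂μ := by
    intro g
    rw [← integral_smul_eq_self (μ := μ) (fun x => wc w (g • x) * Ψ x) (g := g⁻¹)]
    refine integral_congr_ae (Filter.Eventually.of_forall fun x => ?_)
    show wc w (g • g⁻¹ • x) * Ψ (g⁻¹ • x) = _
    rw [smul_inv_smul]
  -- step 3: interchange back
  have hmeas3 : ∀ g : G, AEStronglyMeasurable (fun x => wc w x * Ψ (g⁻¹ • x)) μ := fun g =>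
    ((measurable_wc hw.1).aestronglyMeasurable).mul
      (hΨ.1.comp_measurePreserving (measurePreserving_smul g⁻¹ μ))
  have hb3 : ∑' g : G, ∫⁻ x, ‖wc w x * Ψ (g⁻¹ • x)‖ₑ ∂μ ≠ ∞ := by
    have : ∀ g : G, ∫⁻ x, ‖wc w x * Ψ (g⁻¹ • x)‖ₑ ∂μ = ∫⁻ x, ‖wc w (g • x) * Ψ x‖ₑ ∂μ := by
      intro g
      have hmp := measurePreserving_smul g μ
      have := hmp.lintegral_comp_emb (measurableEmbedding_const_smul g)
        (fun x => ‖wc w x * Ψ (g⁻¹ • x)‖ₑ)
      rw [← this]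
      refine lintegral_congr fun x => ?_
      rw [inv_smul_smul]
    rw [tsum_congr this]
    exact hb1
  rw [e1, tsum_congr e2, ← integral_tsum hmeas3 hb3]
  refine integral_eq_zero_of_ae ?_
  -- the orbit sum vanishes a.e.
  have hsum' : ∀ᵐ x ∂μ, HasSum (fun g : G => Ψ (g⁻¹ • x)) 0 := by
    filter_upwards [hsum] with x hx
    exact (Equiv.inv G).hasSum_iff.mpr hx
  filter_upwards [hsum'] with x hx
  simp only [Pi.zero_apply]
  rw [tsum_mul_left, hx.tsum_eq, mul_zero]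

end Fermat.Agent.M17.UnfoldZero5
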