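import Fermat.Agent.M17.DegMoebius5
import Fermat.Agent.M17.DegMeasure5
import Fermat.Agent.M17.UnfoldZero5
import Fermat.Agent.ES.PET.PartitionGamma5

/-!
# (DEG), the unfolding step

For a smooth `SL(2, ℤ)`-partition of unity `w` and an `SL(2, ℤ)`-"weight 2" function `G`,
`∫_{ℍ} η(y - M) · 2∂̄w · G dA = 0`.
-/

set_option autoImplicit false

namespace Fermat.Agent.M17.DegUnfold5

open MeasureTheory Set Filter Topology UpperHalfPlane
open scoped Real MatrixGroups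
open Fermat.Agent.M17.CauchyPompeiu5 Fermat.Agent.M17.DegMoebius5 Fermat.Agent.M17.DegMeasure5

noncomputable section

/-- a `C¹` partition of unity for `SL(2, ℤ)` acting on `ℍ`, as a function on `ℂ` supported in a
vertical strip bounded away from the real axis.  (Normalisation of `SmoothPartition8.wt`: the sum
over `SL(2, ℤ)` is `1`, both `± g` counted, so the sum over the translations is `1 / 2`.) -/
structure SLPartition (w : ℂ → ℝ) : Prop where
  contDiff : ContDiff ℝ 1 w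
  tsupp_im : ∀ z ∈ tsupport w, 1 / 2 < z.im
  tsupp_re : ∃ B : ℝ, ∀ z ∈ tsupport w, |z.re| ≤ B
  locFin : ∀ z : ℍ, ∃ V ∈ 𝓝 (z : ℂ), {g : SL(2, ℤ) | ∃ z' ∈ V, w (mob g z') ≠ 0}.Finite
  sum_one : ∀ z : ℍ, HasSum (fun g : SL(2, ℤ) => w ↑(g • z)) 1
  cusp_sum : ∀ z : ℂ, 2 ≤ z.im → HasSum (fun n : ℤ => w (z + n)) (1 / 2)

/-- the complex-valued weight -/
def W (w : ℂ → ℝ) (z : ℂ) : ℂ := (w z : ℂ)

lemma contDiff_W {w : ℂ → ℝ} (hw : ContDiff ℝ 1 w) : ContDiff ℝ 1 (W w) :=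
  Complex.ofRealCLM.contDiff.comp hw

lemma tsupport_W (w : ℂ → ℝ) : tsupport (W w) = tsupport w := by
  unfold tsupport
  congr 1
  ext z
  simp [W]

/-- the cutoff `η`: `1` on `(-∞, 0]`, `0` on `[1, ∞)` -/
def eta (t : ℝ) : ℝ := Real.smoothTransition (1 - t)

lemma eta_of_nonpos {t : ℝ} (ht : t ≤ 0) : eta t = 1 :=
  Real.smoothTransition.one_of_one_le (by linarith)

lemma eta_of_one_le {t : ℝ} (ht : 1 ≤ t) : eta t = 0 :=
  Real.smoothTransition.zero_of_nonpos (by linarith)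

lemma contDiff_eta : ContDiff ℝ 1 eta :=
  Real.smoothTransition.contDiff.comp (contDiff_const.sub contDiff_id)

variable {w : ℂ → ℝ}

/-- differentiability of the translates of the weight -/
lemma differentiableAt_W_mob (hw : SLPartition w) (g : SL(2, ℤ)) (z : ℍ) :
    DifferentiableAt ℝ (W w ∘ mob g) (z : ℂ) :=
  ((contDiff_W hw.contDiff).differentiable one_ne_zero _).comp _
    ((hasDerivAt_mob g z).differentiableAt.restrictScalars ℝ)

/-- **the orbit sum of `2∂̄(w ∘ g)` vanishes** -/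
theorem hasSum_dbar2_orbit (hw : SLPartition w) (z : ℍ) :
    HasSum (fun g : SL(2, ℤ) => dbar2 (W w ∘ mob g) (z : ℂ)) 0 := by
  obtain ⟨V, hV, hfin⟩ := hw.locFin z
  set S := hfin.toFinset with hS
  have hUH : UH ∈ 𝓝 (z : ℂ) := isOpen_UH.mem_nhds z.im_pos
  -- (1) terms outside `S` vanish
  have h1 : ∀ g ∉ S, dbar2 (W w ∘ mob g) (z : ℂ) = 0 := by
    intro g hg
    have hev : (W w ∘ mob g) =ᶠ[𝓝 (z : ℂ)] fun _ => (0 : ℂ) := by
      filter_upwards [hV] with z' hz'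
      have : w (mob g z') = 0 := by
        by_contra h
        exact hg (by rw [hS, Set.Finite.mem_toFinset]; exact ⟨z', hz', h⟩)
      simp [W, this]
    unfold dbar2
    rw [hev.fderiv_eq]
    simp
  -- (2) the finite sum is locally constant
  have h2 : (fun z' => ∑ g ∈ S, (W w ∘ mob g) z') =ᶠ[𝓝 (z : ℂ)] fun _ => (1 : ℂ) := by
    filter_upwards [hV, hUH] with z' hz' hz'U
    set z'' : ℍ := ⟨z', hz'U⟩
    have hs := hw.sum_one z''
    have hzero : ∀ g ∉ S, w ↑(g • z'') = 0 := by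
      intro g hg
      by_contra h
      refine hg ?_
      rw [hS, Set.Finite.mem_toFinset]
      refine ⟨z', hz', ?_⟩
      have : mob g z' = ↑(g • z'') := mob_coe g z''
      rwa [this]
    have hs2 : HasSum (fun g : SL(2, ℤ) => w ↑(g • z'')) (∑ g ∈ S, w ↑(g • z'')) :=
      hasSum_sum_of_ne_finset_zero hzero
    have := hs.unique hs2
    have h3 : ∀ g, (W w ∘ mob g) z' = ((w ↑(g • z'') : ℝ) : ℂ) := by
      intro g
      have : mob g z' = ↑(g • z'') := mob_coe g z''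
      simp [W, this]
    simp only [h3]
    rw [← Complex.ofReal_sum, ← this]
    norm_num
  have h3 : dbar2 (fun z' => ∑ g ∈ S, (W w ∘ mob g) z') (z : ℂ) = 0 := by
    unfold dbar2
    rw [h2.fderiv_eq]
    simp
  have h4 : dbar2 (fun z' => ∑ g ∈ S, (W w ∘ mob g) z') (z : ℂ)
      = ∑ g ∈ S, dbar2 (W w ∘ mob g) (z : ℂ) := by
    unfold dbar2
    rw [fderiv_fun_sum (fun g _ => differentiableAt_W_mob hw g z)]
    simp only [FunLike.coe_sum, Finset.sum_apply, Finset.mul_sum,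
      Finset.sum_add_distrib]
  have h5 : HasSum (fun g : SL(2, ℤ) => dbar2 (W w ∘ mob g) (z : ℂ))
      (∑ g ∈ S, dbar2 (W w ∘ mob g) (z : ℂ)) := hasSum_sum_of_ne_finset_zero h1
  rw [← h4, h3] at h5
  exact h5


/-- if `im z₀ ≥ 2` and `im (h • z₀) > 1/2` then `im (h • z₀) = im z₀` (`h` is a translation). -/
lemma im_smul_eq_of_im_ge_two (h : SL(2, ℤ)) (z₀ : ℍ) (h2 : 2 ≤ z₀.im)
    (hh : 1 / 2 < (h • z₀).im) : (h • z₀).im = z₀.im := by
  have him := ModularGroup.im_smul_eq_div_normSq h z₀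
  have hy : 0 < z₀.im := z₀.im_pos
  by_cases hc : h 1 0 = 0
  · -- `c = 0`: `d = ± 1`
    have hdet := Matrix.det_fin_two (h : Matrix (Fin 2) (Fin 2) ℤ)
    rw [h.det_coe, hc] at hdet
    have hd : (h 1 1) ^ 2 = 1 := by
      have h1 : h 0 0 * h 1 1 = 1 := by linarith
      have := Int.isUnit_iff.mp (IsUnit.of_mul_eq_one _ (by rw [mul_comm]; exact h1))
      rcases this with h' | h' <;> rw [h'] <;> norm_num
    have hn : Complex.normSq (denom h z₀) = 1 := by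
      rw [ModularGroup.denom_apply, hc]
      simp only [Int.cast_zero, zero_mul, zero_add]
      rw [Complex.normSq_intCast]
      have : ((h 1 1 : ℤ) : ℝ) ^ 2 = 1 := by exact_mod_cast hd
      nlinarith [this]
    rw [him, hn, div_one]
  · exfalso
    have hc1 : (1 : ℝ) ≤ ((h 1 0 : ℤ) : ℝ) ^ 2 := by
      have : (1 : ℤ) ≤ (h 1 0) ^ 2 := by
        have := sq_nonneg (h 1 0)
        have h0 : (h 1 0) ^ 2 ≠ 0 := pow_ne_zero _ hc
        omega
      exact_mod_cast this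
    have hle : (((h : GL (Fin 2) ℝ) 1 0 : ℝ) * z₀.im) ^ 2 ≤ Complex.normSq (denom h z₀) :=
      UpperHalfPlane.c_mul_im_sq_le_normSq_denom (h : GL (Fin 2) ℝ) z₀
    have hcoe : ((h : GL (Fin 2) ℝ) 1 0 : ℝ) = ((h 1 0 : ℤ) : ℝ) := by simp
    rw [hcoe] at hle
    have hn : z₀.im ^ 2 ≤ Complex.normSq (denom h z₀) := by
      calc z₀.im ^ 2 ≤ ((h 1 0 : ℤ) : ℝ) ^ 2 * z₀.im ^ 2 := by nlinarith [sq_nonneg z₀.im]
        _ = (((h 1 0 : ℤ) : ℝ) * z₀.im) ^ 2 := by ring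
        _ ≤ _ := hle
    have hpos : 0 < Complex.normSq (denom h z₀) := by nlinarith [sq_pos_of_pos hy]
    rw [him, lt_div_iff₀ hpos] at hh
    nlinarith

/-- on the orbit of `z`, the cut-off `η (im - M)` is constant on the support of `w`. -/
lemma exists_cutoff_const (hw : SLPartition w) {M : ℝ} (hM : 2 ≤ M) (z : ℍ) :
    ∃ E : ℝ, ∀ g : SL(2, ℤ), ((g • z : ℍ) : ℂ) ∈ tsupport w → eta ((g • z).im - M) = E := by
  by_cases hA : ∃ g₀ : SL(2, ℤ), 2 ≤ (g₀ • z).im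
  · obtain ⟨g₀, hg₀⟩ := hA
    refine ⟨eta ((g₀ • z).im - M), fun g hg => ?_⟩
    have h1 : g • z = (g * g₀⁻¹) • (g₀ • z) := by
      rw [← mul_smul, inv_mul_cancel_right]
    have h2 : 1 / 2 < ((g * g₀⁻¹) • (g₀ • z)).im := by
      rw [← h1]
      have := hw.tsupp_im _ hg
      simpa using this
    rw [h1, im_smul_eq_of_im_ge_two (g * g₀⁻¹) (g₀ • z) hg₀ h2]
  · push Not at hA
    refine ⟨1, fun g _ => ?_⟩
    apply eta_of_nonpos
    linarith [hA g]


open Fermat.Agent.ES.PET.PartitionGamma5 Fermat.Agent.ES.PET.SLMeasure12 in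
/-- **Term A vanishes** (unfolding). -/
theorem integral_cutoff_dbar2_mul_eq_zero (hw : SLPartition w) {M : ℝ} (hM : 2 ≤ M) {G : ℂ → ℂ}
    (hG : ∀ᵐ z : ℍ, ∀ g : SL(2, ℤ), G ↑(g • z) = (denom g z) ^ 2 * G z)
    (hint : IntegrableOn (fun z : ℂ => (eta (z.im - M) : ℂ) * dbar2 (W w) z * G z) UH) :
    ∫ z in UH, (eta (z.im - M) : ℂ) * dbar2 (W w) z * G z = 0 := by
  have e := integral_UHP (fun z : ℂ => (eta (z.im - M) : ℂ) * dbar2 (W w) z * G z)
  rw [← e]
  have hΨ := integrable_UHP hint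
  have hpart := isPartition_w0
  suffices hsum : ∀ᵐ z : ℍ, HasSum (fun g : SL(2, ℤ) =>
      (((g • z : ℍ).im : ℂ) ^ 2 * ((eta (((g • z : ℍ) : ℂ).im - M) : ℂ)
        * dbar2 (W w) ((g • z : ℍ) : ℂ) * G ((g • z : ℍ) : ℂ)))) 0 from
    Fermat.Agent.M17.UnfoldZero5.integral_eq_zero_of_orbit_sum hpart hΨ hsum
  filter_upwards [hG] with z hz
  obtain ⟨E, hE⟩ := exists_cutoff_const hw hM z
  have key : ∀ g : SL(2, ℤ),
      (((g • z : ℍ).im : ℂ) ^ 2 * ((eta ((g • z : ℍ).im - M) : ℂ)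
        * dbar2 (W w) ((g • z : ℍ) : ℂ) * G ((g • z : ℍ) : ℂ)))
      = ((E : ℂ) * (z.im : ℂ) ^ 2 * G z) * dbar2 (W w ∘ mob g) (z : ℂ) := by
    intro g
    have hd : denom g z ≠ 0 := denom_ne_zero g z
    have hcomp : dbar2 (W w ∘ mob g) (z : ℂ)
        = dbar2 (W w) ((g • z : ℍ) : ℂ) * (starRingEnd ℂ) (1 / denom g z ^ 2) := by
      rw [dbar2_comp ((contDiff_W hw.contDiff).differentiable one_ne_zero _) (hasDerivAt_mob g z),
        mob_coe]
    rw [hcomp, hz g]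
    by_cases h0 : dbar2 (W w) ((g • z : ℍ) : ℂ) = 0
    · rw [h0]; ring
    · have hmem : ((g • z : ℍ) : ℂ) ∈ tsupport w := by
        rw [← tsupport_W]
        by_contra hn
        exact h0 (Fermat.Agent.M17.DbarResidue5.dbar2_eq_zero_of_notMem _ hn)
      rw [hE g hmem]
      have him : ((g • z : ℍ).im : ℂ) = (z.im : ℂ) / (denom g z * (starRingEnd ℂ) (denom g z)) := by
        rw [ModularGroup.im_smul_eq_div_normSq, Complex.mul_conj]
        push_cast
        rfl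
      have hcd : (starRingEnd ℂ) (denom g z) ≠ 0 := by
        simp [hd]
      rw [him, map_div₀, map_one, map_pow]
      field_simp
  have := (hasSum_dbar2_orbit hw z).mul_left ((E : ℂ) * (z.im : ℂ) ^ 2 * G z)
  rw [mul_zero] at this
  have hfun : (fun g : SL(2, ℤ) =>
      (((g • z : ℍ).im : ℂ) ^ 2 * ((eta (((g • z : ℍ) : ℂ).im - M) : ℂ)
        * dbar2 (W w) ((g • z : ℍ) : ℂ) * G ((g • z : ℍ) : ℂ))))
      = fun g => ((E : ℂ) * (z.im : ℂ) ^ 2 * G z) * dbar2 (W w ∘ mob g) (z : ℂ) := by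
    funext g
    exact key g
  rw [hfun]
  exact this

end

end Fermat.Agent.M17.DegUnfold5
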