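/-
Programme M17 (S17), block [LAT], leaf (dR), helper3: the path functional
`I(p) = ∫ a(p t) (b ∘ p)'(t) dt - K(p t₁) + K(p t₀)` on `ℍ`, its invariance under a group `Γ`
acting with `a ∘ γ = a + φ γ`, `b ∘ γ = b + ψ γ`, `K ∘ γ = K + φ γ • b + c γ`, and its behaviour
under reversal of the path.  `K` is an ARBITRARY function (no regularity).
-/
import Mathlib

set_option autoImplicit false

open MeasureTheory Set intervalIntegral UpperHalfPlane
open scoped Interval MatrixGroups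

namespace Fermat.Agent.M17.PathFun3

/-- line integral of `a db` along `p : ℝ → ℍ`, by composition. -/
noncomputable def lineIntH (a b : ℍ → ℂ) (p : ℝ → ℍ) (t₀ t₁ : ℝ) : ℂ :=
  ∫ t in t₀..t₁, a (p t) * deriv (fun t => b (p t)) t

/-- the path functional. -/
noncomputable def pathFun (a b K : ℍ → ℂ) (p : ℝ → ℍ) (t₀ t₁ : ℝ) : ℂ :=
  lineIntH a b p t₀ t₁ - K (p t₁) + K (p t₀)

/-- the equivariance package. -/
structure Equivariant (Γ : Subgroup SL(2, ℤ)) (a b K : ℍ → ℂ) (φ ψ c : Γ → ℂ) : Prop where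
  ha : ∀ (γ : Γ) (z : ℍ), a ((γ : SL(2, ℤ)) • z) = a z + φ γ
  hb : ∀ (γ : Γ) (z : ℍ), b ((γ : SL(2, ℤ)) • z) = b z + ψ γ
  hK : ∀ (γ : Γ) (z : ℍ), K ((γ : SL(2, ℤ)) • z) = K z + φ γ * b z + c γ

/-- regularity of `a`, `b` along a path, enough for the fundamental theorem of calculus. -/
structure Good (a b : ℍ → ℂ) (p : ℝ → ℍ) (t₀ t₁ : ℝ) : Prop where
  diff : ∀ t ∈ [[t₀, t₁]], DifferentiableAt ℝ (fun t => b (p t)) t
  int' : IntervalIntegrable (deriv (fun t => b (p t))) volume t₀ t₁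
  int : IntervalIntegrable (fun t => a (p t) * deriv (fun t => b (p t)) t) volume t₀ t₁

variable {Γ : Subgroup SL(2, ℤ)} {a b K : ℍ → ℂ} {φ ψ c : Γ → ℂ}

/-- **invariance** of the path functional. -/
theorem pathFun_smul (h : Equivariant Γ a b K φ ψ c) (γ : Γ) {p : ℝ → ℍ} {t₀ t₁ : ℝ}
    (hp : Good a b p t₀ t₁) :
    pathFun a b K (fun t => (γ : SL(2, ℤ)) • p t) t₀ t₁ = pathFun a b K p t₀ t₁ := by
  have hderiv : deriv (fun t => b ((γ : SL(2, ℤ)) • p t)) = deriv (fun t => b (p t)) := by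
    have : (fun t => b ((γ : SL(2, ℤ)) • p t)) = fun t => b (p t) + ψ γ := by
      funext t; exact h.hb γ (p t)
    rw [this]
    funext t
    exact deriv_add_const _
  have hline : lineIntH a b (fun t => (γ : SL(2, ℤ)) • p t) t₀ t₁ =
      lineIntH a b p t₀ t₁ + φ γ * (b (p t₁) - b (p t₀)) := by
    unfold lineIntH
    simp only [hderiv, h.ha γ, add_mul]
    rw [intervalIntegral.integral_add hp.int (hp.int'.const_mul _),
      intervalIntegral.integral_const_mul,
      intervalIntegral.integral_deriv_eq_sub hp.diff hp.int']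
  unfold pathFun
  rw [hline, h.hK γ, h.hK γ]
  ring

/-- **reversal** of the path. -/
theorem pathFun_comp_neg (p : ℝ → ℍ) (t₀ t₁ : ℝ) :
    pathFun a b K (fun t => p (-t)) (-t₁) (-t₀) = -pathFun a b K p t₀ t₁ := by
  have hderiv : ∀ t, deriv (fun t => b (p (-t))) t = -deriv (fun t => b (p t)) (-t) := by
    intro t
    exact deriv_comp_neg (fun t => b (p t)) t
  have hline : lineIntH a b (fun t => p (-t)) (-t₁) (-t₀) = -lineIntH a b p t₀ t₁ := by
    unfold lineIntH
    simp only [hderiv, mul_neg]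
    rw [intervalIntegral.integral_neg,
      intervalIntegral.integral_comp_neg (fun t => a (p t) * deriv (fun t => b (p t)) t)]
    simp
  unfold pathFun
  rw [hline]
  simp only [neg_neg]
  ring

/-- the path functional of a translated path, as a function of the group element: the "tile
function" `F_P g = I(g⁻¹ • P)`. -/
noncomputable def tileFun (a b K : ℍ → ℂ) (P : ℝ → ℍ) (t₀ t₁ : ℝ) (g : SL(2, ℤ)) : ℂ :=
  pathFun a b K (fun t => g⁻¹ • P t) t₀ t₁

/-- the tile function is right-`Γ`-invariant. -/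
theorem tileFun_mul_right (h : Equivariant Γ a b K φ ψ c) {P : ℝ → ℍ} {t₀ t₁ : ℝ}
    (hP : ∀ g : SL(2, ℤ), Good a b (fun t => g⁻¹ • P t) t₀ t₁) (g : SL(2, ℤ)) (δ : SL(2, ℤ))
    (hδ : δ ∈ Γ) : tileFun a b K P t₀ t₁ (g * δ) = tileFun a b K P t₀ t₁ g := by
  unfold tileFun
  have := pathFun_smul h ⟨δ⁻¹, Γ.inv_mem hδ⟩ (hP g)
  rw [← this]
  congr 1
  funext t
  rw [mul_inv_rev, mul_smul]

/-- translating the path on the left. -/
theorem tileFun_smul_path (P : ℝ → ℍ) (t₀ t₁ : ℝ) (s g : SL(2, ℤ)) :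
    tileFun a b K (fun t => s • P t) t₀ t₁ g = tileFun a b K P t₀ t₁ (s⁻¹ * g) := by
  unfold tileFun
  congr 1
  funext t
  rw [mul_inv_rev, inv_inv, mul_smul]

end Fermat.Agent.M17.PathFun3

namespace Fermat.Agent.M17.PathFun3

open scoped Topology

variable {a b K : ℍ → ℂ}

/-- the path functional only depends on the germ of the path along the interval. -/
theorem pathFun_congr {p q : ℝ → ℍ} {t₀ t₁ : ℝ} (h : ∀ t ∈ [[t₀, t₁]], p =ᶠ[𝓝 t] q) :
    pathFun a b K p t₀ t₁ = pathFun a b K q t₀ t₁ := by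
  have h0 : p t₀ = q t₀ := (h t₀ left_mem_uIcc).self_of_nhds
  have h1 : p t₁ = q t₁ := (h t₁ right_mem_uIcc).self_of_nhds
  unfold pathFun lineIntH
  rw [h0, h1]
  congr 2
  refine intervalIntegral.integral_congr (fun t ht => ?_)
  have hpt : p t = q t := (h t ht).self_of_nhds
  have hd : deriv (fun t => b (p t)) t = deriv (fun t => b (q t)) t := by
    apply Filter.EventuallyEq.deriv_eq
    filter_upwards [h t ht] with u hu
    rw [hu]
  show a (p t) * deriv (fun t => b (p t)) t = a (q t) * deriv (fun t => b (q t)) t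
  rw [hpt, hd]

theorem tileFun_congr {P Q : ℝ → ℍ} {t₀ t₁ : ℝ} (h : ∀ t ∈ [[t₀, t₁]], P =ᶠ[𝓝 t] Q)
    (g : SL(2, ℤ)) : tileFun a b K P t₀ t₁ g = tileFun a b K Q t₀ t₁ g := by
  unfold tileFun
  refine pathFun_congr (fun t ht => ?_)
  filter_upwards [h t ht] with u hu
  rw [hu]

end Fermat.Agent.M17.PathFun3
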