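/-
Programme M17 (S17), block [LAT], leaf (dR), helper3: the cochain `K` BY CHOICE.
Given `a, b : ℍ → ℂ` with `a ∘ γ = a + φ γ`, `b ∘ γ = b + ψ γ` and a group-theoretic primitive
`c (α β) = c α + c β + φ α ψ β`, there is a function `K : ℍ → ℂ` (no regularity) with
`K ∘ γ = K + φ γ • b + c γ`.  Needs: stabilisers of points of `ℍ` in `SL(2,ℤ)` are torsion.
-/
import Mathlib
import Fermat.Agent.M17.PathFun3
import Fermat.Agent.ES.J.TateChar11

set_option autoImplicit false

open UpperHalfPlane MulAction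
open scoped MatrixGroups

namespace Fermat.Agent.M17.Cochain3

open Fermat.Agent.M17.PathFun3

/-- an element of `SL(2,ℤ)` fixing a point of the upper half plane has order dividing `12`. -/
theorem pow_twelve_of_fixed (σ : SL(2, ℤ)) (z : ℍ) (h : σ • z = z) : σ ^ 12 = 1 := by
  have hz : (↑(σ • z) : ℂ) = (z : ℂ) := by rw [h]
  rw [UpperHalfPlane.coe_specialLinearGroup_apply] at hz
  have hden : ((algebraMap ℤ ℝ (σ 1 0) : ℝ) : ℂ) * z + ((algebraMap ℤ ℝ (σ 1 1) : ℝ) : ℂ) ≠ 0 := by
    have := UpperHalfPlane.denom_ne_zero (σ : GL (Fin 2) ℝ) z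
    simpa [UpperHalfPlane.denom] using this
  rw [div_eq_iff hden] at hz
  simp only [algebraMap_int_eq, eq_intCast] at hz
  have hy : 0 < z.im := z.im_pos
  set x : ℝ := z.re with hx
  set y : ℝ := z.im with hy'
  have hzz : (z : ℂ) = (x : ℂ) + (y : ℂ) * Complex.I := by
    apply Complex.ext <;> simp [hx, hy']
  set p : ℤ := σ 0 0 with hp
  set q : ℤ := σ 0 1 with hq
  set r : ℤ := σ 1 0 with hr
  set s : ℤ := σ 1 1 with hs
  have hdet : p * s - q * r = 1 := by
    have := σ.2
    rw [Matrix.det_fin_two] at this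
    exact this
  rw [hzz] at hz
  have him := congrArg Complex.im hz
  have hre := congrArg Complex.re hz
  simp at him hre
  -- imaginary part: `p y = y (r x + s) + x r y`
  have h1 : (p : ℝ) = 2 * r * x + s := by
    have : (p : ℝ) * y = (2 * r * x + s) * y := by linarith
    exact mul_right_cancel₀ hy.ne' this
  have h2 : (q : ℝ) = -(r : ℝ) * (x ^ 2 + y ^ 2) := by
    rw [h1] at hre
    nlinarith
  have hdetR : (p : ℝ) * s - q * r = 1 := by exact_mod_cast hdet
  have h3 : ((r : ℝ) * x + s) ^ 2 + (r : ℝ) ^ 2 * y ^ 2 = 1 := by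
    rw [h1, h2] at hdetR
    nlinarith
  by_cases hr0 : r = 0
  · -- `σ = ± 1`
    have hq0 : q = 0 := by
      have : (q : ℝ) = 0 := by rw [h2, hr0]; simp
      exact_mod_cast this
    have hps : p = s := by
      have : (p : ℝ) = s := by rw [h1, hr0]; simp
      exact_mod_cast this
    have hss : s * s = 1 := by
      rw [hps, hq0] at hdet
      linarith
    have hs1 : s = 1 ∨ s = -1 := by
      rcases Int.isUnit_eq_one_or (IsUnit.of_mul_eq_one s hss) with h | h
      · exact Or.inl h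
      · exact Or.inr h
    have hM : (σ : Matrix (Fin 2) (Fin 2) ℤ) = s • (1 : Matrix (Fin 2) (Fin 2) ℤ) := by
      ext i j
      fin_cases i <;> fin_cases j
      · show σ 0 0 = _
        rw [← hp, hps]; simp
      · show σ 0 1 = _
        rw [← hq, hq0]; simp
      · show σ 1 0 = _
        rw [← hr, hr0]; simp
      · show σ 1 1 = _
        rw [← hs]; simp
    apply Subtype.ext
    rw [Matrix.SpecialLinearGroup.coe_pow, Matrix.SpecialLinearGroup.coe_one, hM]
    rcases hs1 with h | h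
    · rw [h, one_smul, one_pow]
    · rw [h, smul_pow, one_pow]
      norm_num
  · have hr1 : (1 : ℝ) ≤ (r : ℝ) ^ 2 := by
      have : (1 : ℤ) ≤ r ^ 2 := by
        have := sq_nonneg r
        have h0 : r ^ 2 ≠ 0 := pow_ne_zero 2 hr0
        omega
      exact_mod_cast this
    have htr : ((p : ℝ) + s) ^ 2 < 4 := by
      have e : (p : ℝ) + s = 2 * (r * x + s) := by rw [h1]; ring
      rw [e]
      have : 0 < (r : ℝ) ^ 2 * y ^ 2 := by positivity
      nlinarith
    have htrZ : (p + s) ^ 2 < 4 := by exact_mod_cast htr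
    have habs : |(σ : Matrix (Fin 2) (Fin 2) ℤ).trace| ≤ 1 := by
      rw [Matrix.trace_fin_two]
      show |σ 0 0 + σ 1 1| ≤ 1
      rw [← hp, ← hs, abs_le]
      constructor <;> nlinarith
    apply Subtype.ext
    rw [Matrix.SpecialLinearGroup.coe_pow, Matrix.SpecialLinearGroup.coe_one]
    exact Fermat.Agent.ES.J.TateChar11.mat_pow_twelve _ σ.2 habs


variable {Γ : Subgroup SL(2, ℤ)} {a b : ℍ → ℂ} {φ ψ c : Γ → ℂ}

/-- the three cochains vanish on the stabilisers. -/
theorem vanish_of_fixed (ha : ∀ (γ : Γ) (z : ℍ), a ((γ : SL(2, ℤ)) • z) = a z + φ γ)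
    (hb : ∀ (γ : Γ) (z : ℍ), b ((γ : SL(2, ℤ)) • z) = b z + ψ γ)
    (hc : ∀ α β : Γ, c (α * β) = c α + c β + φ α * ψ β) (σ : Γ) (z : ℍ)
    (hσ : (σ : SL(2, ℤ)) • z = z) : φ σ = 0 ∧ ψ σ = 0 ∧ c σ = 0 := by
  have h1 : φ σ = 0 := by
    have := ha σ z
    rw [hσ] at this
    linear_combination -this
  have h2 : ψ σ = 0 := by
    have := hb σ z
    rw [hσ] at this
    linear_combination -this
  refine ⟨h1, h2, ?_⟩
  have hφ1 : φ 1 = 0 := by
    have := ha 1 z
    rw [Subgroup.coe_one, one_smul] at this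
    linear_combination -this
  have hc1 : c 1 = 0 := by
    have := hc 1 1
    rw [mul_one, hφ1, zero_mul, add_zero] at this
    linear_combination -this
  have hpow : ∀ k : ℕ, c (σ ^ k) = k * c σ := by
    intro k
    induction k with
    | zero => simp [hc1]
    | succ k ih =>
      rw [pow_succ, hc, ih, h2]
      push_cast
      ring
  have h12 : σ ^ 12 = 1 := by
    apply Subtype.ext
    rw [Subgroup.coe_pow, Subgroup.coe_one]
    exact pow_twelve_of_fixed _ z hσ
  have := hpow 12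
  rw [h12, hc1] at this
  have h : (12 : ℂ) * c σ = 0 := by
    rw [this]; push_cast; ring
  exact (mul_eq_zero.mp h).resolve_left (by norm_num)

/-- **the cochain by choice.** -/
theorem exists_cochain (ha : ∀ (γ : Γ) (z : ℍ), a ((γ : SL(2, ℤ)) • z) = a z + φ γ)
    (hb : ∀ (γ : Γ) (z : ℍ), b ((γ : SL(2, ℤ)) • z) = b z + ψ γ)
    (hc : ∀ α β : Γ, c (α * β) = c α + c β + φ α * ψ β) :
    ∃ K : ℍ → ℂ, Equivariant Γ a b K φ ψ c := by
  classical
  have hφmul : ∀ α β : Γ, φ (α * β) = φ α + φ β := by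
    intro α β
    have h1 := ha (α * β) UpperHalfPlane.I
    rw [Subgroup.coe_mul, mul_smul, ha, ha] at h1
    linear_combination -h1
  -- representatives of the orbits
  let rep : ℍ → ℍ := fun z => (Quotient.mk (orbitRel Γ ℍ) z).out
  have hrep : ∀ z, ∃ γ : Γ, (γ : SL(2, ℤ)) • rep z = z := by
    intro z
    have h1 : (orbitRel Γ ℍ) (rep z) z := Quotient.mk_out (s := orbitRel Γ ℍ) z
    rw [orbitRel_apply] at h1
    obtain ⟨g, hg⟩ := h1
    refine ⟨g⁻¹, ?_⟩
    rw [← hg]
    show (g⁻¹ : Γ) • (g • z) = z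
    rw [inv_smul_smul]
  have hrep_smul : ∀ (δ : Γ) (z : ℍ), rep ((δ : SL(2, ℤ)) • z) = rep z := by
    intro δ z
    show (Quotient.mk (orbitRel Γ ℍ) ((δ : SL(2, ℤ)) • z)).out = (Quotient.mk (orbitRel Γ ℍ) z).out
    congr 1
    apply Quotient.sound
    show (orbitRel Γ ℍ) ((δ : SL(2, ℤ)) • z) z
    rw [orbitRel_apply]
    exact ⟨δ, rfl⟩
  choose gam hgam using hrep
  refine ⟨fun z => φ (gam z) * b (rep z) + c (gam z), ha, hb, ?_⟩
  -- independence of the choice
  have key : ∀ (z : ℍ) (γ : Γ), (γ : SL(2, ℤ)) • rep z = z →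
      φ (gam z) * b (rep z) + c (gam z) = φ γ * b (rep z) + c γ := by
    intro z γ hγ
    set σ : Γ := (gam z)⁻¹ * γ with hσ
    have hfix : (σ : SL(2, ℤ)) • rep z = rep z := by
      rw [hσ, Subgroup.coe_mul, mul_smul, hγ, Subgroup.coe_inv]
      have := hgam z
      rw [inv_smul_eq_iff, this]
    obtain ⟨h1, h2, h3⟩ := vanish_of_fixed ha hb hc σ (rep z) hfix
    have e : γ = gam z * σ := by rw [hσ]; group
    rw [e, hφmul, hc, h1, h2, h3]
    ring
  intro δ z
  show φ (gam ((δ : SL(2, ℤ)) • z)) * b (rep ((δ : SL(2, ℤ)) • z)) + c (gam ((δ : SL(2, ℤ)) • z)) =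
    φ (gam z) * b (rep z) + c (gam z) + φ δ * b z + c δ
  have h1 := key ((δ : SL(2, ℤ)) • z) (δ * gam z) (by
    rw [hrep_smul, Subgroup.coe_mul, mul_smul, hgam z])
  rw [h1, hrep_smul, hφmul, hc]
  have h2 : b z = b (rep z) + ψ (gam z) := by
    nth_rewrite 1 [← hgam z]
    exact hb _ _
  rw [h2]
  ring

end Fermat.Agent.M17.Cochain3
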