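/-
Programme M17 (S17), block [LAT], leaf (dR), helper3: sums over a coset space
`G ⧸ H` of a right-`H`-invariant function evaluated at representatives: invariance under left
translation, and decomposition along the orbits of `⟨t⟩` (Mathlib's `quotientEquivSigmaZMod`).
-/
import Mathlib
import Fermat.Agent.ES.I2.Complete15

set_option autoImplicit false
set_option linter.unusedSectionVars false

open MulAction Subgroup Function

namespace Fermat.Agent.M17.Comb3

variable {G : Type*} [Group G] (H : Subgroup G) {M : Type*} [AddCommMonoid M]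

/-- a right-`H`-invariant function takes the same value at `(t • x).out` and `t * x.out`. -/
theorem apply_out_smul (F : G → M) (hF : ∀ g, ∀ h ∈ H, F (g * h) = F g) (t : G) (x : G ⧸ H) :
    F ((t • x).out) = F (t * x.out) := by
  have hx : t • x = ((t * x.out : G) : G ⧸ H) := by
    conv_lhs => rw [← QuotientGroup.out_eq' x]
    rfl
  rw [hx]
  obtain ⟨h, hh⟩ := QuotientGroup.mk_out_eq_mul H (t * x.out)
  rw [hh]
  exact hF _ _ h.2

/-- left translation permutes the cosets. -/
theorem sum_out_mul [Fintype (G ⧸ H)] (F : G → M) (hF : ∀ g, ∀ h ∈ H, F (g * h) = F g) (t : G) :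
    ∑ x : G ⧸ H, F (t * x.out) = ∑ x : G ⧸ H, F x.out := by
  rw [← Equiv.sum_comp (MulAction.toPerm t : Equiv.Perm (G ⧸ H)) (fun x => F x.out)]
  refine Finset.sum_congr rfl (fun x _ => ?_)
  exact (apply_out_smul H F hF t x).symm

/-- sum over `ZMod n` as a sum over `range n`. -/
theorem sum_zmod_eq_sum_range {n : ℕ} [NeZero n] (f : ℤ → M) :
    ∑ k : ZMod n, f (ZMod.cast k : ℤ) = ∑ k ∈ Finset.range n, f (k : ℤ) := by
  obtain ⟨m, rfl⟩ : ∃ m, n = m + 1 := Nat.exists_eq_succ_of_ne_zero (NeZero.ne n)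
  rw [← Fin.sum_univ_eq_sum_range (fun k => f (k : ℤ)) (m + 1)]
  refine Finset.sum_congr rfl (fun k _ => ?_)
  congr 1

/-- decomposition of the sum over cosets along the orbits of `⟨t⟩`. -/
theorem sum_out_eq_sum_orbits [H.FiniteIndex] [Fintype (G ⧸ H)] (t : G)
    [Fintype (orbitRel.Quotient (zpowers t) (G ⧸ H))]
    (F : G → M) (hF : ∀ g, ∀ h ∈ H, F (g * h) = F g) :
    ∑ x : G ⧸ H, F x.out =
      ∑ q : orbitRel.Quotient (zpowers t) (G ⧸ H),
        ∑ k ∈ Finset.range (minimalPeriod (t • ·) q.out), F (t ^ k * q.out.out) := by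
  classical
  have : ∀ q : orbitRel.Quotient (zpowers t) (G ⧸ H), NeZero (minimalPeriod (t • ·) q.out) :=
    fun q => ⟨(Fermat.Agent.ES.I2.Complete15.minimalPeriod_pos H t q.out).ne'⟩
  rw [← Equiv.sum_comp (quotientEquivSigmaZMod H t).symm (fun x => F x.out),
    ← Finset.univ_sigma_univ, Finset.sum_sigma]
  refine Finset.sum_congr rfl (fun q _ => ?_)
  have key := sum_zmod_eq_sum_range (n := minimalPeriod (t • ·) q.out)
    (fun k : ℤ => F (t ^ k * q.out.out))
  simp only [zpow_natCast] at key
  rw [← key]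
  refine Finset.sum_congr rfl (fun k _ => ?_)
  rw [quotientEquivSigmaZMod_symm_apply]
  exact apply_out_smul H F hF _ _

end Fermat.Agent.M17.Comb3
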