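/-
Programme M17 (S17), block [LAT], leaf (dR), helper3: Green's theorem for a form
`A dB` on a rectangle, from Mathlib's divergence theorem.  Pure Mathlib.
-/
import Mathlib

set_option autoImplicit false

open MeasureTheory Set intervalIntegral
open scoped Interval

namespace Fermat.Agent.M17.Green3

/-- the Jacobian `A_x B_s - A_s B_x` of two functions on the plane. -/
noncomputable def jac (A B : ℝ × ℝ → ℂ) (p : ℝ × ℝ) : ℂ :=
  fderiv ℝ A p (1, 0) * fderiv ℝ B p (0, 1) - fderiv ℝ A p (0, 1) * fderiv ℝ B p (1, 0)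

variable {A B : ℝ × ℝ → ℂ} {U : Set (ℝ × ℝ)}

theorem continuousOn_fderiv_apply (hU : IsOpen U) (hA : ContDiffOn ℝ 1 A U) (w : ℝ × ℝ) :
    ContinuousOn (fun p => fderiv ℝ A p w) U := by
  have h := hA.continuousOn_fderiv_of_isOpen hU le_rfl
  exact (ContinuousLinearMap.apply ℝ ℂ w).continuous.comp_continuousOn h

theorem continuousOn_jac (hU : IsOpen U) (hA : ContDiffOn ℝ 1 A U) (hB : ContDiffOn ℝ 1 B U) :
    ContinuousOn (jac A B) U := by
  unfold jac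
  exact ((continuousOn_fderiv_apply hU hA _).mul (continuousOn_fderiv_apply hU hB _)).sub
    ((continuousOn_fderiv_apply hU hA _).mul (continuousOn_fderiv_apply hU hB _))

/-- derivative of `q ↦ A q * fderiv B q w`. -/
theorem hasFDerivAt_mul_fderiv_apply (hU : IsOpen U) (hA : ContDiffOn ℝ 1 A U)
    (hB : ContDiffOn ℝ 2 B U) (w : ℝ × ℝ) {p : ℝ × ℝ} (hp : p ∈ U) :
    HasFDerivAt (fun q => A q * fderiv ℝ B q w)
      (A p • (fderiv ℝ (fderiv ℝ B) p).flip w + (fderiv ℝ B p w) • fderiv ℝ A p) p := by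
  have hAp : HasFDerivAt A (fderiv ℝ A p) p :=
    ((hA.contDiffAt (hU.mem_nhds hp)).differentiableAt one_ne_zero).hasFDerivAt
  have hBp : ContDiffAt ℝ 2 B p := hB.contDiffAt (hU.mem_nhds hp)
  have hB2 : HasFDerivAt (fderiv ℝ B) (fderiv ℝ (fderiv ℝ B) p) p := by
    have h1 : ContDiffAt ℝ 1 (fderiv ℝ B) p := hBp.fderiv_right (by norm_num)
    exact (h1.differentiableAt one_ne_zero).hasFDerivAt
  have hBw : HasFDerivAt (fun q => fderiv ℝ B q w) ((fderiv ℝ (fderiv ℝ B) p).flip w) p := by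
    have := hB2.clm_apply (hasFDerivAt_const w p)
    simpa using this
  exact hAp.mul hBw

theorem green_rect (hU : IsOpen U) (hA : ContDiffOn ℝ 1 A U) (hB : ContDiffOn ℝ 2 B U)
    {a₁ b₁ a₂ b₂ : ℝ} (hsub : [[a₁, b₁]] ×ˢ [[a₂, b₂]] ⊆ U) :
    (∫ x in a₁..b₁, ∫ s in a₂..b₂, jac A B (x, s)) =
      (((∫ x in a₁..b₁, -(A (x, b₂) * fderiv ℝ B (x, b₂) (1, 0))) -
          ∫ x in a₁..b₁, -(A (x, a₂) * fderiv ℝ B (x, a₂) (1, 0))) +
        ∫ s in a₂..b₂, A (b₁, s) * fderiv ℝ B (b₁, s) (0, 1)) -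
      ∫ s in a₂..b₂, A (a₁, s) * fderiv ℝ B (a₁, s) (0, 1) := by
  have hB1 : ContDiffOn ℝ 1 B U := hB.of_le (by norm_num)
  set f : ℝ × ℝ → ℂ := fun q => A q * fderiv ℝ B q (0, 1) with hf
  set g : ℝ × ℝ → ℂ := fun q => -(A q * fderiv ℝ B q (1, 0)) with hg
  set f' : ℝ × ℝ → ℝ × ℝ →L[ℝ] ℂ := fun p =>
    A p • (fderiv ℝ (fderiv ℝ B) p).flip (0, 1) + (fderiv ℝ B p (0, 1)) • fderiv ℝ A p with hf'
  set g' : ℝ × ℝ → ℝ × ℝ →L[ℝ] ℂ := fun p =>
    -(A p • (fderiv ℝ (fderiv ℝ B) p).flip (1, 0) + (fderiv ℝ B p (1, 0)) • fderiv ℝ A p) with hg'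
  have hAc : ContinuousOn A U := hA.continuousOn
  have key : ∀ p ∈ U, f' p (1, 0) + g' p (0, 1) = jac A B p := by
    intro p hp
    have hsymm : fderiv ℝ (fderiv ℝ B) p (1, 0) (0, 1) = fderiv ℝ (fderiv ℝ B) p (0, 1) (1, 0) := by
      have hBp : ContDiffAt ℝ 2 B p := hB.contDiffAt (hU.mem_nhds hp)
      exact (hBp.isSymmSndFDerivAt (by simp)).eq _ _
    simp only [hf', hg', jac, add_apply, smul_apply,
      neg_apply, ContinuousLinearMap.flip_apply, smul_eq_mul, hsymm]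
    ring
  have hmain := integral2_divergence_prod_of_hasFDerivAt f g f' g' a₁ a₂ b₁ b₂
    (((hAc.mul (continuousOn_fderiv_apply hU hB1 _))).mono hsub)
    (((hAc.mul (continuousOn_fderiv_apply hU hB1 _)).neg).mono hsub)
    (fun p hp => hasFDerivAt_mul_fderiv_apply hU hA hB (0, 1)
      (hsub ⟨Ioo_subset_Icc_self.trans (by rw [uIcc]) hp.1, Ioo_subset_Icc_self.trans (by rw [uIcc]) hp.2⟩))
    (fun p hp => (hasFDerivAt_mul_fderiv_apply hU hA hB (1, 0)
      (hsub ⟨Ioo_subset_Icc_self.trans (by rw [uIcc]) hp.1, Ioo_subset_Icc_self.trans (by rw [uIcc]) hp.2⟩)).neg)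
    ?_
  · rw [← hmain]
    refine intervalIntegral.integral_congr (fun x hx => ?_)
    refine intervalIntegral.integral_congr (fun s hs => ?_)
    exact (key (x, s) (hsub ⟨hx, hs⟩)).symm
  · have hcont : ContinuousOn (jac A B) ([[a₁, b₁]] ×ˢ [[a₂, b₂]]) :=
      (continuousOn_jac hU hA hB1).mono hsub
    have hcomp : IsCompact ([[a₁, b₁]] ×ˢ [[a₂, b₂]]) := isCompact_uIcc.prod isCompact_uIcc
    refine (hcont.integrableOn_compact hcomp).congr_fun (fun p hp => ?_) hcomp.measurableSet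
    exact (key p (hsub hp)).symm

end Fermat.Agent.M17.Green3
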