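/-
Programme M17 (S17), block [LAT], leaf (dR), helper3: the chart
`Φ (x, s) = x + i √(s - x²)` of the upper half plane, in which the truncated fundamental domain
`{|x| ≤ 1/2, 1 ≤ |z|² ≤ M}` of `SL(2,ℤ)` is the rectangle `[-1/2,1/2] × [1,M]`, and Green's theorem
for `α dβ` on it, with the boundary terms written as line integrals by composition.
-/
import Mathlib
import Fermat.Agent.M17.Green3

set_option autoImplicit false

open MeasureTheory Set intervalIntegral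
open scoped Interval

namespace Fermat.Agent.M17.Tile3

open Fermat.Agent.M17.Green3

/-- the chart. -/
noncomputable def Phi (p : ℝ × ℝ) : ℂ := (p.1 : ℂ) + (Real.sqrt (p.2 - p.1 ^ 2) : ℂ) * Complex.I

/-- the domain of the chart. -/
def dom : Set (ℝ × ℝ) := {p | 0 < p.2 - p.1 ^ 2}

/-- the (open) upper half plane as a subset of `ℂ`. -/
def UH : Set ℂ := {z | 0 < z.im}

theorem isOpen_dom : IsOpen dom := by
  have : Continuous fun p : ℝ × ℝ => p.2 - p.1 ^ 2 := by fun_prop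
  exact isOpen_lt continuous_const this

theorem isOpen_UH : IsOpen UH := isOpen_lt continuous_const Complex.continuous_im

theorem Phi_re (p : ℝ × ℝ) : (Phi p).re = p.1 := by simp [Phi]

theorem Phi_im (p : ℝ × ℝ) : (Phi p).im = Real.sqrt (p.2 - p.1 ^ 2) := by simp [Phi]

theorem Phi_mem_UH {p : ℝ × ℝ} (hp : p ∈ dom) : Phi p ∈ UH := by
  show 0 < (Phi p).im
  rw [Phi_im]
  exact Real.sqrt_pos.2 hp

theorem normSq_Phi {p : ℝ × ℝ} (hp : p ∈ dom) : Complex.normSq (Phi p) = p.2 := by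
  rw [Complex.normSq_apply, Phi_re, Phi_im, Real.mul_self_sqrt hp.le]
  ring

theorem contDiffOn_Phi : ContDiffOn ℝ ⊤ Phi dom := by
  have h1 : ContDiffOn ℝ ⊤ (fun p : ℝ × ℝ => p.2 - p.1 ^ 2) dom :=
    (contDiff_snd.sub (contDiff_fst.pow 2)).contDiffOn
  have h2 : ContDiffOn ℝ ⊤ (fun p : ℝ × ℝ => Real.sqrt (p.2 - p.1 ^ 2)) dom :=
    h1.sqrt (fun p hp => (ne_of_gt hp))
  have h3 : ContDiffOn ℝ ⊤ (fun p : ℝ × ℝ => ((Real.sqrt (p.2 - p.1 ^ 2) : ℝ) : ℂ)) dom :=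
    Complex.ofRealCLM.contDiff.comp_contDiffOn h2
  have h4 : ContDiffOn ℝ ⊤ (fun p : ℝ × ℝ => ((p.1 : ℝ) : ℂ)) dom :=
    (Complex.ofRealCLM.contDiff.comp contDiff_fst).contDiffOn
  exact h4.add (h3.mul contDiffOn_const)

/-- the rectangle `[-1/2,1/2] × [1,M]` lies in the domain of the chart. -/
theorem rect_subset_dom {a₁ b₁ a₂ b₂ : ℝ} (h1 : -1 ≤ a₁) (h1' : a₁ ≤ 1) (h2 : -1 ≤ b₁) (h2' : b₁ ≤ 1)
    (h3 : 1 < a₂) (h4 : 1 < b₂) : [[a₁, b₁]] ×ˢ [[a₂, b₂]] ⊆ dom := by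
  rintro ⟨x, s⟩ ⟨hx, hs⟩
  simp only [dom, mem_ofPred_eq]
  have hx1 : -1 ≤ x := le_trans (le_min h1 h2) hx.1
  have hx2 : x ≤ 1 := le_trans hx.2 (max_le h1' h2')
  have hs1 : 1 < s := lt_of_lt_of_le (lt_min h3 h4) hs.1
  nlinarith

/-- line integral of `α dβ` along a path given by a parametrisation `p : ℝ → ℂ`, by composition. -/
noncomputable def lineInt (α β : ℂ → ℂ) (p : ℝ → ℂ) (t₀ t₁ : ℝ) : ℂ :=
  ∫ t in t₀..t₁, α (p t) * deriv (fun t => β (p t)) t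

/-- a partial derivative is the derivative of the restriction: first variable. -/
theorem fderiv_apply_fst {B : ℝ × ℝ → ℂ} {x s : ℝ} (hB : DifferentiableAt ℝ B (x, s)) :
    fderiv ℝ B (x, s) (1, 0) = deriv (fun x' => B (x', s)) x := by
  have h1 : HasDerivAt (fun x' : ℝ => (x', s)) ((1 : ℝ), (0 : ℝ)) x :=
    (hasDerivAt_id x).prodMk (hasDerivAt_const x s)
  have := hB.hasFDerivAt.comp_hasDerivAt x h1
  exact this.deriv.symm

/-- a partial derivative is the derivative of the restriction: second variable. -/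
theorem fderiv_apply_snd {B : ℝ × ℝ → ℂ} {x s : ℝ} (hB : DifferentiableAt ℝ B (x, s)) :
    fderiv ℝ B (x, s) (0, 1) = deriv (fun s' => B (x, s')) s := by
  have h1 : HasDerivAt (fun s' : ℝ => (x, s')) ((0 : ℝ), (1 : ℝ)) s :=
    (hasDerivAt_const s x).prodMk (hasDerivAt_id s)
  have := hB.hasFDerivAt.comp_hasDerivAt s h1
  exact this.deriv.symm

variable {α β : ℂ → ℂ}

/-- **Green's theorem on a tile**, in the chart: the integral of the Jacobian of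
`(α ∘ Φ, β ∘ Φ)` over a rectangle is the sum of the four line integrals of `α dβ`. -/
theorem green_tile (hα : ContDiffOn ℝ 1 α UH) (hβ : ContDiffOn ℝ 2 β UH)
    {a₁ b₁ a₂ b₂ : ℝ} (hsub : [[a₁, b₁]] ×ˢ [[a₂, b₂]] ⊆ dom) :
    (∫ x in a₁..b₁, ∫ s in a₂..b₂, jac (α ∘ Phi) (β ∘ Phi) (x, s)) =
      ((-(lineInt α β (fun x => Phi (x, b₂)) a₁ b₁) + lineInt α β (fun x => Phi (x, a₂)) a₁ b₁) +
        lineInt α β (fun s => Phi (b₁, s)) a₂ b₂) - lineInt α β (fun s => Phi (a₁, s)) a₂ b₂ := by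
  have hA : ContDiffOn ℝ 1 (α ∘ Phi) dom :=
    hα.comp (contDiffOn_Phi.of_le le_top) (fun p hp => Phi_mem_UH hp)
  have hB : ContDiffOn ℝ 2 (β ∘ Phi) dom :=
    hβ.comp (contDiffOn_Phi.of_le le_top) (fun p hp => Phi_mem_UH hp)
  have hdiff : ∀ p ∈ dom, DifferentiableAt ℝ (β ∘ Phi) p := fun p hp =>
    (hB.contDiffAt (isOpen_dom.mem_nhds hp)).differentiableAt (by norm_num)
  rw [green_rect isOpen_dom hA hB hsub]
  have e1 : ∀ c ∈ [[a₂, b₂]], (∫ x in a₁..b₁, -((α ∘ Phi) (x, c) * fderiv ℝ (β ∘ Phi) (x, c) (1, 0))) =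
      -(lineInt α β (fun x => Phi (x, c)) a₁ b₁) := by
    intro c hc
    rw [lineInt, ← intervalIntegral.integral_neg]
    refine intervalIntegral.integral_congr (fun x hx => ?_)
    show -((α ∘ Phi) (x, c) * fderiv ℝ (β ∘ Phi) (x, c) (1, 0)) = _
    rw [fderiv_apply_fst (hdiff _ (hsub ⟨hx, hc⟩))]
    rfl
  have e2 : ∀ c ∈ [[a₁, b₁]], (∫ s in a₂..b₂, (α ∘ Phi) (c, s) * fderiv ℝ (β ∘ Phi) (c, s) (0, 1)) =
      lineInt α β (fun s => Phi (c, s)) a₂ b₂ := by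
    intro c hc
    rw [lineInt]
    refine intervalIntegral.integral_congr (fun s hs => ?_)
    show (α ∘ Phi) (c, s) * fderiv ℝ (β ∘ Phi) (c, s) (0, 1) = _
    rw [fderiv_apply_snd (hdiff _ (hsub ⟨hc, hs⟩))]
    rfl
  rw [e1 b₂ right_mem_uIcc, e1 a₂ left_mem_uIcc, e2 b₁ right_mem_uIcc, e2 a₁ left_mem_uIcc]
  ring

end Fermat.Agent.M17.Tile3
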