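/-
Programme M17 (S17), block [LAT], leaf (dR), helper3: the four sides of the
truncated fundamental domain as paths in `ℍ`, and how `T`, `S` act on them.
-/
import Mathlib
import Fermat.Agent.M17.Tile3
import Fermat.Agent.M17.PathFun3

set_option autoImplicit false

open MeasureTheory Set intervalIntegral UpperHalfPlane
open scoped Interval MatrixGroups Topology

namespace Fermat.Agent.M17.Paths3

open Fermat.Agent.M17.Tile3 Fermat.Agent.M17.PathFun3

/-- the path `t ↦ Φ (t, s)` (horizontal in the chart) in `ℍ`. -/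
noncomputable def hor (s : ℝ) (x : ℝ) : ℍ := ofComplex (Phi (x, s))

/-- the path `s ↦ Φ (x, s)` (vertical in the chart) in `ℍ`. -/
noncomputable def ver (x : ℝ) (s : ℝ) : ℍ := ofComplex (Phi (x, s))

theorem coe_hor {s x : ℝ} (h : (x, s) ∈ dom) : ((hor s x : ℍ) : ℂ) = Phi (x, s) := by
  have := Phi_mem_UH h
  rw [hor, ofComplex_apply_of_im_pos this]

theorem coe_ver {s x : ℝ} (h : (x, s) ∈ dom) : ((ver x s : ℍ) : ℂ) = Phi (x, s) := coe_hor h

/-- `T` maps the left side to the right side. -/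
theorem T_smul_ver {s : ℝ} (hs : 1 / 4 < s) :
    ModularGroup.T • ver (-1 / 2) s = ver (1 / 2) s := by
  have h1 : ((-1 / 2 : ℝ), s) ∈ dom := by simp only [dom, mem_ofPred_eq]; nlinarith
  have h2 : ((1 / 2 : ℝ), s) ∈ dom := by simp only [dom, mem_ofPred_eq]; nlinarith
  apply UpperHalfPlane.ext
  rw [modular_T_smul, coe_vadd, coe_ver h1, coe_ver h2]
  simp only [Phi]
  have : ((-1 / 2 : ℝ)) ^ 2 = ((1 / 2 : ℝ)) ^ 2 := by norm_num
  rw [this]
  push_cast
  ring

/-- `T` maps the top left corner to the top right corner. -/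
theorem T_smul_hor {s : ℝ} (hs : 1 / 4 < s) :
    ModularGroup.T • hor s (-1 / 2) = hor s (1 / 2) := T_smul_ver hs

/-- `S` reverses the bottom arc. -/
theorem S_smul_hor_one {x : ℝ} (hx : x ^ 2 < 1) :
    ModularGroup.S • hor 1 x = hor 1 (-x) := by
  have h1 : (x, (1 : ℝ)) ∈ dom := by simp only [dom, mem_ofPred_eq]; linarith
  have h2 : (-x, (1 : ℝ)) ∈ dom := by simp only [dom, mem_ofPred_eq]; nlinarith
  apply UpperHalfPlane.ext
  rw [modular_S_smul, UpperHalfPlane.coe_mk, coe_hor h1, coe_hor h2]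
  have hn : Complex.normSq (Phi (x, 1)) = 1 := normSq_Phi h1
  have hne : Phi (x, 1) ≠ 0 := by
    intro h0; rw [h0, map_zero] at hn; exact zero_ne_one hn
  rw [inv_neg, Complex.inv_def, hn]
  apply Complex.ext
  · simp [Phi_re]
  · simp [Phi_im]

end Fermat.Agent.M17.Paths3
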