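/-
Programme M17 (S17), block [LAT], leaf (dR), helper3: the exact form of (dR) at
truncation level `M`: the sum over the cosets of `Γ` in `SL(2,ℤ)` of the tile integrals of the
Jacobian of `(a, b)` equals the cusp sum of the group-theoretic primitive `c`, up to the line
integrals of `a db` over the top arcs.
-/
import Mathlib
import Fermat.Agent.M17.Paths3
import Fermat.Agent.M17.Comb3

set_option autoImplicit false

open MeasureTheory Set intervalIntegral UpperHalfPlane MulAction Subgroup Function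
open scoped Interval MatrixGroups Topology

namespace Fermat.Agent.M17.DR3

open Fermat.Agent.M17.Green3 Fermat.Agent.M17.Tile3 Fermat.Agent.M17.PathFun3
  Fermat.Agent.M17.Paths3 Fermat.Agent.M17.Comb3

/-- the function `a` transported to the tile of `g`, as a function on `ℂ`. -/
noncomputable def al (a : ℍ → ℂ) (g : SL(2, ℤ)) (w : ℂ) : ℂ := a (g⁻¹ • ofComplex w)

/-- the regularity package. -/
structure Smooth (a b : ℍ → ℂ) : Prop where
  ha : ∀ g : SL(2, ℤ), ContDiffOn ℝ 1 (al a g) UH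
  hb : ∀ g : SL(2, ℤ), ContDiffOn ℝ 2 (al b g) UH

variable {a b K : ℍ → ℂ}

theorem good_of_smooth (hs : Smooth a b) (g : SL(2, ℤ)) {q : ℝ → ℂ} {V : Set ℝ} (hV : IsOpen V)
    (hq : ContDiffOn ℝ 2 q V) (hmaps : MapsTo q V UH) {t₀ t₁ : ℝ} (hsub : [[t₀, t₁]] ⊆ V) :
    Good a b (fun t => g⁻¹ • ofComplex (q t)) t₀ t₁ := by
  have hB : ContDiffOn ℝ 2 (fun t => b (g⁻¹ • ofComplex (q t))) V := (hs.hb g).comp hq hmaps
  have hA : ContinuousOn (fun t => a (g⁻¹ • ofComplex (q t))) V :=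
    ((hs.ha g).comp (hq.of_le (by norm_num)) hmaps).continuousOn
  have hd : ContinuousOn (deriv (fun t => b (g⁻¹ • ofComplex (q t)))) V :=
    hB.continuousOn_deriv_of_isOpen hV (by norm_num)
  refine ⟨fun t ht => ?_, (hd.mono hsub).intervalIntegrable, ((hA.mul hd).mono hsub).intervalIntegrable⟩
  exact (hB.contDiffAt (hV.mem_nhds (hsub ht))).differentiableAt (by norm_num)

/-- horizontal chart lines are smooth paths in the upper half plane. -/
theorem hor_data (s : ℝ) :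
    IsOpen {x : ℝ | (x, s) ∈ dom} ∧ ContDiffOn ℝ 2 (fun x : ℝ => Phi (x, s)) {x : ℝ | (x, s) ∈ dom} ∧
      MapsTo (fun x : ℝ => Phi (x, s)) {x : ℝ | (x, s) ∈ dom} UH := by
  have hc : Continuous fun x : ℝ => (x, s) := by fun_prop
  refine ⟨isOpen_dom.preimage hc, ?_, fun x hx => Phi_mem_UH hx⟩
  have h1 : ContDiff ℝ 2 fun x : ℝ => (x, s) := contDiff_id.prodMk contDiff_const
  exact (contDiffOn_Phi.of_le le_top).comp h1.contDiffOn (fun x hx => hx)

/-- vertical chart lines are smooth paths in the upper half plane. -/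
theorem ver_data (x : ℝ) :
    IsOpen {s : ℝ | (x, s) ∈ dom} ∧ ContDiffOn ℝ 2 (fun s : ℝ => Phi (x, s)) {s : ℝ | (x, s) ∈ dom} ∧
      MapsTo (fun s : ℝ => Phi (x, s)) {s : ℝ | (x, s) ∈ dom} UH := by
  have hc : Continuous fun s : ℝ => (x, s) := by fun_prop
  refine ⟨isOpen_dom.preimage hc, ?_, fun s hs => Phi_mem_UH hs⟩
  have h1 : ContDiff ℝ 2 fun s : ℝ => (x, s) := contDiff_const.prodMk contDiff_id
  exact (contDiffOn_Phi.of_le le_top).comp h1.contDiffOn (fun s hs => hs)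

theorem mem_dom_of {x s : ℝ} (hx : -1 / 2 ≤ x) (hx' : x ≤ 1 / 2) (hs : 1 ≤ s) : (x, s) ∈ dom := by
  simp only [dom, mem_ofPred_eq]
  nlinarith

theorem good_hor (hs : Smooth a b) (g : SL(2, ℤ)) {s : ℝ} (h1 : 1 ≤ s) :
    Good a b (fun x => g⁻¹ • hor s x) (-1 / 2) (1 / 2) := by
  obtain ⟨hV, hq, hm⟩ := hor_data s
  refine good_of_smooth hs g hV hq hm (fun x hx => ?_)
  rw [uIcc_of_le (by norm_num)] at hx
  exact mem_dom_of hx.1 hx.2 h1

theorem good_ver (hs : Smooth a b) (g : SL(2, ℤ)) {x M : ℝ} (hx : -1 / 2 ≤ x) (hx' : x ≤ 1 / 2)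
    (hM : 1 ≤ M) : Good a b (fun s => g⁻¹ • ver x s) 1 M := by
  obtain ⟨hV, hq, hm⟩ := ver_data x
  refine good_of_smooth hs g hV hq hm (fun s hs' => ?_)
  rw [uIcc_of_le hM] at hs'
  exact mem_dom_of hx hx' hs'.1

/-- the tile integral in the chart. -/
noncomputable def tileInt (a b : ℍ → ℂ) (M : ℝ) (g : SL(2, ℤ)) : ℂ :=
  ∫ x in (-1 / 2 : ℝ)..(1 / 2), ∫ s in (1 : ℝ)..M, jac (al a g ∘ Phi) (al b g ∘ Phi) (x, s)

/-- **Green on one tile**, in terms of the path functional: the `K`-terms telescope around the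
closed loop for ANY function `K`. -/
theorem tileInt_eq (hs : Smooth a b) (K : ℍ → ℂ) {M : ℝ} (hM : 1 ≤ M) (g : SL(2, ℤ)) :
    tileInt a b M g =
      ((-(tileFun a b K (hor M) (-1 / 2) (1 / 2) g) + tileFun a b K (hor 1) (-1 / 2) (1 / 2) g) +
        tileFun a b K (ver (1 / 2)) 1 M g) - tileFun a b K (ver (-1 / 2)) 1 M g := by
  have hsub : [[(-1 / 2 : ℝ), 1 / 2]] ×ˢ [[(1 : ℝ), M]] ⊆ dom := by
    rintro ⟨x, s⟩ ⟨hx, hs'⟩
    rw [uIcc_of_le (by norm_num)] at hx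
    rw [uIcc_of_le hM] at hs'
    exact mem_dom_of hx.1 hx.2 hs'.1
  have := green_tile (hs.ha g) (hs.hb g) hsub
  rw [tileInt, this]
  simp only [tileFun, pathFun, lineIntH, lineInt, hor, ver, al]
  ring


/-! ### sums over the cosets -/

section sums

variable {Γ : Subgroup SL(2, ℤ)} [Γ.FiniteIndex] {φ ψ c : Γ → ℂ}

local notation "T" => (ModularGroup.T : SL(2, ℤ))
local notation "S" => (ModularGroup.S : SL(2, ℤ))

/-- the vertical sides cancel. -/
theorem sum_ver_eq [Fintype (SL(2, ℤ) ⧸ Γ)] (h : Equivariant Γ a b K φ ψ c) (hs : Smooth a b)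
    {M : ℝ} (hM : 1 ≤ M) :
    ∑ x : SL(2, ℤ) ⧸ Γ, tileFun a b K (ver (1 / 2)) 1 M x.out =
      ∑ x : SL(2, ℤ) ⧸ Γ, tileFun a b K (ver (-1 / 2)) 1 M x.out := by
  have hinv : ∀ g, ∀ δ ∈ Γ, tileFun a b K (ver (-1 / 2)) 1 M (g * δ) =
      tileFun a b K (ver (-1 / 2)) 1 M g := fun g δ hδ =>
    tileFun_mul_right h (fun g => good_ver hs g le_rfl (by norm_num) hM) g δ hδ
  rw [← sum_out_mul Γ _ hinv T⁻¹]
  refine Finset.sum_congr rfl (fun x _ => ?_)
  rw [← tileFun_smul_path]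
  refine tileFun_congr (fun s hs' => ?_) _
  rw [uIcc_of_le hM] at hs'
  have : ∀ᶠ u in 𝓝 s, (1 / 4 : ℝ) < u := lt_mem_nhds (by linarith [hs'.1])
  filter_upwards [this] with u hu
  exact (T_smul_ver hu).symm

/-- the bottom arc contributes nothing. -/
theorem sum_bot_eq_zero [Fintype (SL(2, ℤ) ⧸ Γ)] (h : Equivariant Γ a b K φ ψ c)
    (hs : Smooth a b) :
    ∑ x : SL(2, ℤ) ⧸ Γ, tileFun a b K (hor 1) (-1 / 2) (1 / 2) x.out = 0 := by
  have hinv : ∀ g, ∀ δ ∈ Γ, tileFun a b K (hor 1) (-1 / 2) (1 / 2) (g * δ) =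
      tileFun a b K (hor 1) (-1 / 2) (1 / 2) g := fun g δ hδ =>
    tileFun_mul_right h (fun g => good_hor hs g le_rfl) g δ hδ
  have key : ∀ g, tileFun a b K (hor 1) (-1 / 2) (1 / 2) (S⁻¹ * g) =
      -tileFun a b K (hor 1) (-1 / 2) (1 / 2) g := by
    intro g
    rw [← tileFun_smul_path]
    have h1 : tileFun a b K (fun t => S • hor 1 t) (-1 / 2) (1 / 2) g =
        tileFun a b K (fun t => hor 1 (-t)) (-1 / 2) (1 / 2) g := by
      refine tileFun_congr (fun x hx => ?_) _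
      rw [uIcc_of_le (by norm_num)] at hx
      have : ∀ᶠ u in 𝓝 x, u ^ 2 < 1 := by
        have hc : ContinuousAt (fun u : ℝ => u ^ 2) x := by fun_prop
        exact hc.eventually_lt continuousAt_const (by nlinarith [hx.1, hx.2])
      filter_upwards [this] with u hu
      exact S_smul_hor_one hu
    rw [h1]
    have h2 := pathFun_comp_neg (a := a) (b := b) (K := K) (fun t => g⁻¹ • hor 1 t) (-1 / 2) (1 / 2)
    have e1 : (-(1 / 2) : ℝ) = -1 / 2 := by norm_num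
    have e2 : (-(-1 / 2) : ℝ) = 1 / 2 := by norm_num
    rw [e1, e2] at h2
    exact h2
  have h2 := sum_out_mul Γ _ hinv S⁻¹
  simp only [key, Finset.sum_neg_distrib] at h2
  have h3 : (2 : ℂ) * ∑ x : SL(2, ℤ) ⧸ Γ, tileFun a b K (hor 1) (-1 / 2) (1 / 2) x.out = 0 := by
    linear_combination -h2
  exact (mul_eq_zero.mp h3).resolve_left two_ne_zero


/-- the `K`-terms of the top arcs of one `⟨T⟩`-orbit of cosets telescope. -/
theorem sum_top_orbit (h : Equivariant Γ a b K φ ψ c) {M : ℝ} (hM : 1 ≤ M) (g : SL(2, ℤ)) (n : ℕ)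
    (π : Γ) (hπ : (π : SL(2, ℤ)) = g⁻¹ * T ^ n * g) :
    ∑ k ∈ Finset.range n, tileFun a b K (hor M) (-1 / 2) (1 / 2) (T ^ k * g) =
      ∑ k ∈ Finset.range n, lineIntH a b (fun x => (T ^ k * g)⁻¹ • hor M x) (-1 / 2) (1 / 2)
        - (φ π * b ((g⁻¹ * T ^ (1 - (n : ℤ))) • hor M (-1 / 2)) + c π) := by
  set e : ℕ → ℍ := fun j => (g⁻¹ * T ^ (1 - (j : ℤ))) • hor M (-1 / 2) with he
  have hstart : ∀ k : ℕ, (T ^ k * g)⁻¹ • hor M (-1 / 2) = e (k + 1) := by
    intro k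
    simp only [he]
    congr 1
    rw [mul_inv_rev]
    congr 1
    rw [← zpow_natCast, ← zpow_neg]
    congr 1
    push_cast
    ring
  have hend : ∀ k : ℕ, (T ^ k * g)⁻¹ • hor M (1 / 2) = e k := by
    intro k
    simp only [he]
    rw [← T_smul_hor (by linarith : (1 / 4 : ℝ) < M), ← mul_smul]
    congr 1
    rw [mul_inv_rev, mul_assoc]
    congr 1
    rw [← zpow_natCast, ← zpow_neg, ← zpow_add_one]
    congr 1
    ring
  have hterm : ∀ k : ℕ, tileFun a b K (hor M) (-1 / 2) (1 / 2) (T ^ k * g) =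
      lineIntH a b (fun x => (T ^ k * g)⁻¹ • hor M x) (-1 / 2) (1 / 2) + (K (e (k + 1)) - K (e k)) := by
    intro k
    simp only [tileFun, pathFun]
    rw [hstart k, hend k]
    ring
  simp only [hterm, Finset.sum_add_distrib, Finset.sum_range_sub (fun k => K (e k))]
  have hgrp : (π : SL(2, ℤ)) * (g⁻¹ * T ^ (1 - (n : ℤ))) = g⁻¹ * T ^ (1 - ((0 : ℕ) : ℤ)) := by
    rw [hπ, mul_assoc, mul_assoc, ← mul_assoc g, mul_inv_cancel, one_mul, ← zpow_natCast T n,
      ← zpow_add]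
    congr 2
    push_cast
    ring
  have h0 : e 0 = (π : SL(2, ℤ)) • e n := by
    simp only [he]
    rw [← mul_smul, hgrp]
  rw [h0, h.hK π]
  ring

/-- **(dR), exact form at truncation level `M`**: the sum of the tile integrals is the cusp sum of
the primitive `c` (plus `φ`-terms which vanish for parabolic `φ`) minus the line integrals of
`a db` over the top arcs. -/
theorem dR_exact [Fintype (SL(2, ℤ) ⧸ Γ)] [Fintype (orbitRel.Quotient (zpowers T) (SL(2, ℤ) ⧸ Γ))]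
    (h : Equivariant Γ a b K φ ψ c) (hs : Smooth a b) {M : ℝ} (hM : 1 ≤ M)
    (π : orbitRel.Quotient (zpowers T) (SL(2, ℤ) ⧸ Γ) → Γ)
    (hπ : ∀ q, ((π q : Γ) : SL(2, ℤ)) =
      q.out.out⁻¹ * T ^ minimalPeriod (T • ·) q.out * q.out.out) :
    ∑ x : SL(2, ℤ) ⧸ Γ, tileInt a b M x.out =
      ∑ q, (φ (π q) * b ((q.out.out⁻¹ * T ^ (1 - (minimalPeriod (T • ·) q.out : ℤ))) •
          hor M (-1 / 2)) + c (π q))
      - ∑ q : orbitRel.Quotient (zpowers T) (SL(2, ℤ) ⧸ Γ),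
          ∑ k ∈ Finset.range (minimalPeriod (T • ·) q.out),
            lineIntH a b (fun x => (T ^ k * q.out.out)⁻¹ • hor M x) (-1 / 2) (1 / 2) := by
  have hinv : ∀ g, ∀ δ ∈ Γ, tileFun a b K (hor M) (-1 / 2) (1 / 2) (g * δ) =
      tileFun a b K (hor M) (-1 / 2) (1 / 2) g := fun g δ hδ =>
    tileFun_mul_right h (fun g => good_hor hs g hM) g δ hδ
  have e1 : ∑ x : SL(2, ℤ) ⧸ Γ, tileInt a b M x.out =
      ∑ x : SL(2, ℤ) ⧸ Γ,
        (((-(tileFun a b K (hor M) (-1 / 2) (1 / 2) x.out) +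
              tileFun a b K (hor 1) (-1 / 2) (1 / 2) x.out) +
            tileFun a b K (ver (1 / 2)) 1 M x.out) - tileFun a b K (ver (-1 / 2)) 1 M x.out) :=
    Finset.sum_congr rfl (fun x _ => tileInt_eq hs K hM x.out)
  have e2 : ∑ x : SL(2, ℤ) ⧸ Γ, tileFun a b K (hor M) (-1 / 2) (1 / 2) x.out =
      ∑ q : orbitRel.Quotient (zpowers T) (SL(2, ℤ) ⧸ Γ),
        (∑ k ∈ Finset.range (minimalPeriod (T • ·) q.out),
            lineIntH a b (fun x => (T ^ k * q.out.out)⁻¹ • hor M x) (-1 / 2) (1 / 2)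
          - (φ (π q) * b ((q.out.out⁻¹ * T ^ (1 - (minimalPeriod (T • ·) q.out : ℤ))) •
              hor M (-1 / 2)) + c (π q))) := by
    rw [sum_out_eq_sum_orbits Γ T _ hinv]
    exact Finset.sum_congr rfl (fun q _ =>
      sum_top_orbit h hM q.out.out (minimalPeriod (T • ·) q.out) (π q) (hπ q))
  rw [e1, Finset.sum_sub_distrib, Finset.sum_add_distrib, Finset.sum_add_distrib,
    Finset.sum_neg_distrib, sum_ver_eq h hs hM, sum_bot_eq_zero h hs, e2, Finset.sum_sub_distrib]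
  ring

end sums

end Fermat.Agent.M17.DR3
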