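/-
Programme M17 (target S17), block [LAT], leaf (RB1) (helper2): **the first Riemann bilinear
relation in the tree's own pairing**: for weight-2 cusp forms `f, h` on `Γ₀(N)`,

  `E2 (cuspFam (Gamma0 N)) (fn (periodMap N f)) (fn (periodMap N h)) = 0`     (over `ℂ`).

Proof (the holomorphic-primitive trick, no Stokes): with `A_f = prim f` (`A_f ∘ γ = A_f + P_f γ`)
let `K := primInfty (A_f * h)`.  Then `K (γ z) = K z + P_f γ * A_h z + c γ` and
`c (γ δ) = c γ + c δ + P_f γ * P_h δ`, so `κ := -2 c` is a primitive of `(2 P_f, P_h)`; on a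
parabolic element `π = g⁻¹ Tⁿ g` of `Γ₀(N)` the constant `c π = K (π z) - K z` is the limit, as
`w → i∞`, of `primInfty ((A_f * h) ∣[2] g⁻¹) (w + n) - primInfty (…) w = 0`.
-/
import Mathlib
import Fermat.Agent.S21.Primitive
import Fermat.Agent.ES.I2.EDef25

set_option autoImplicit false
set_option linter.unusedSectionVars false
set_option linter.unusedVariables false
set_option linter.style.longLine false

noncomputable section

namespace Fermat.Agent.M17.RiemannBilinearOne2

open UpperHalfPlane hiding I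
open Complex Filter Topology Asymptotics CongruenceSubgroup ModularCurve ModularCurve.Period
open scoped MatrixGroups ModularForm Manifold
open Fermat.Agent.S22 Fermat.Agent.S22.Sep Fermat.Agent.S21.Primitive
open Fermat.Agent.ES.I2 Fermat.Agent.ES.I2.CuspPairing25 Fermat.Agent.ES.I2.CuspPairingTwo25
open Fermat.Agent.ES.I2.CuspSys13 Fermat.Agent.ES.I2.DegAdj3

variable {N : ℕ} [NeZero N]

/-! ### holomorphy of `prim f` -/

theorem mdiff_prim (f : CuspForm (Gamma0 N) 2) : MDiff (prim f) := by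
  rw [UpperHalfPlane.mdifferentiable_iff]
  intro w hw
  exact ((prim_hasDerivAt f ⟨w, hw⟩).differentiableAt).differentiableWithinAt

/-! ### `NiceDecay` of (bounded holomorphic) × (nice decay) -/

theorem niceDecay_bdd_mul {A φ : ℍ → ℂ} (hA : MDiff A) (hbd : IsBoundedAtImInfty A)
    (hφ : NiceDecay φ) : NiceDecay (A * φ) := by
  obtain ⟨hφd, a, ha, hO⟩ := hφ
  refine ⟨hA.mul hφd, a, ha, ?_⟩
  have h1 : A =O[atImInfty] (fun _ : ℍ => (1 : ℝ)) := by
    have := hbd
    unfold IsBoundedAtImInfty BoundedAtFilter at this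
    exact this
  have h2 : (fun x => A x * φ x) =O[atImInfty] fun x : ℍ => (1 : ℝ) * Real.exp (-a * x.im) :=
    h1.mul hO
  simp only [one_mul] at h2
  exact h2

theorem isBoundedAtImInfty_of_tendsto {F : ℍ → ℂ} {L : ℂ} (h : Tendsto F atImInfty (𝓝 L)) :
    IsBoundedAtImInfty F := by
  unfold IsBoundedAtImInfty BoundedAtFilter
  exact h.isBigO_one ℝ

/-- `prim f ∘ δ` as a weight `0` slash. -/
theorem slash_zero_apply (A : ℍ → ℂ) (δ : SL(2, ℤ)) (z : ℍ) : (A ∣[(0 : ℤ)] δ) z = A (δ • z) := by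
  rw [ModularForm.SL_slash_apply]
  simp

theorem mdiff_prim_slash (f : CuspForm (Gamma0 N) 2) (δ : SL(2, ℤ)) :
    MDiff (prim f ∣[(0 : ℤ)] δ) :=
  (mdiff_prim f).slash 0 _

theorem isBoundedAtImInfty_prim_slash (f : CuspForm (Gamma0 N) 2) (δ : SL(2, ℤ)) :
    IsBoundedAtImInfty (prim f ∣[(0 : ℤ)] δ) := by
  obtain ⟨c, hc⟩ := prim_SL f δ
  have h := (tendsto_primInfty_slash f δ).const_add c
  refine isBoundedAtImInfty_of_tendsto (L := c + 0) (h.congr fun w => ?_)
  rw [slash_zero_apply, hc w]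

/-! ### the integrand `A_f * h` and its primitive `K` -/

/-- the integrand `A_f * h`. -/
def integrand (f h : CuspForm (Gamma0 N) 2) : ℍ → ℂ := prim f * ⇑h

theorem integrand_slash (f h : CuspForm (Gamma0 N) 2) (δ : SL(2, ℤ)) :
    integrand f h ∣[(2 : ℤ)] δ = (prim f ∣[(0 : ℤ)] δ) * (⇑h ∣[(2 : ℤ)] δ) := by
  have := ModularForm.mul_slash_SL2 0 2 δ (prim f) (⇑h)
  simpa [integrand] using this

theorem niceDecay_integrand_slash (f h : CuspForm (Gamma0 N) 2) (δ : SL(2, ℤ)) :
    NiceDecay (integrand f h ∣[(2 : ℤ)] δ) := by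
  rw [integrand_slash]
  exact niceDecay_bdd_mul (mdiff_prim_slash f δ) (isBoundedAtImInfty_prim_slash f δ)
    (niceDecay_slash h δ)

theorem niceDecay_integrand (f h : CuspForm (Gamma0 N) 2) : NiceDecay (integrand f h) := by
  have := niceDecay_integrand_slash f h 1
  simpa using this

/-- the primitive of `A_f * h` vanishing at `i∞`. -/
def K (f h : CuspForm (Gamma0 N) 2) : ℍ → ℂ := primInfty (integrand f h)

/-- `K (δ • w) = C_δ + primInfty ((A_f h) ∣[2] δ) w`. -/
theorem K_SL (f h : CuspForm (Gamma0 N) 2) (δ : SL(2, ℤ)) :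
    ∃ c : ℂ, ∀ w : ℍ, K f h (δ • w) = c + primInfty (integrand f h ∣[(2 : ℤ)] δ) w := by
  have h1 : NiceDecay (integrand f h) := niceDecay_integrand f h
  have h2 : NiceDecay (integrand f h ∣[((0 : ℕ) : ℤ) + 2] δ) := by
    have := niceDecay_integrand_slash f h δ
    simpa using this
  refine ⟨K f h (δ • UpperHalfPlane.I) - primInfty (integrand f h ∣[(2 : ℤ)] δ) UpperHalfPlane.I,
    fun w => ?_⟩
  have key := eichF_SL_sub_const (n := 0) δ h1 h2 0 0 w UpperHalfPlane.I
  simp only [Fermat.Agent.S21.Primitive.eichF_zero_eq] at key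
  have e : (integrand f h ∣[((0 : ℕ) : ℤ) + 2] δ) = (integrand f h ∣[(2 : ℤ)] δ) := by
    norm_num
  rw [e] at key
  unfold K
  linear_combination key

/-! ### equivariance of `K` under `Γ₀(N)` -/

/-- the period `P_f γ`. -/
def P (f : CuspForm (Gamma0 N) 2) (γ : Gamma0 N) : ℂ := periodMap N f (Additive.ofMul γ)

theorem P_mul (f : CuspForm (Gamma0 N) 2) (γ δ : Gamma0 N) : P f (γ * δ) = P f γ + P f δ := by
  unfold P
  rw [ofMul_mul, map_add]

theorem prim_smul (f : CuspForm (Gamma0 N) 2) (γ : Gamma0 N) (z : ℍ) :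
    prim f ((γ : SL(2, ℤ)) • z) = prim f z + P f γ := by
  rw [P, periodMap_apply_prim f γ z]
  ring

theorem integrand_slash_Gamma0 (f h : CuspForm (Gamma0 N) 2) (γ : Gamma0 N) :
    integrand f h ∣[(2 : ℤ)] (γ : SL(2, ℤ)) = integrand f h + fun w => P f γ * h w := by
  rw [integrand_slash, slash_eq_of_mem_Gamma0 h γ.2]
  funext z
  simp only [Pi.mul_apply, Pi.add_apply, slash_zero_apply, integrand, prim_smul]
  ring

theorem primInfty_integrand_slash_Gamma0 (f h : CuspForm (Gamma0 N) 2) (γ : Gamma0 N) (w : ℍ) :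
    primInfty (integrand f h ∣[(2 : ℤ)] (γ : SL(2, ℤ))) w = K f h w + P f γ * prim h w := by
  rw [integrand_slash_Gamma0]
  have h1 := niceDecay_integrand f h
  have h2 := niceDecay_cuspForm h
  have hc : NiceDecay (fun w => P f γ * h w) := by
    obtain ⟨hd, a, ha, hO⟩ := h2
    refine ⟨?_, a, ha, ?_⟩
    · exact (mdifferentiable_const (c := P f γ)).mul hd
    · exact hO.const_mul_left (P f γ)
  rw [primInfty_add_of_integrable w
    ((vertDecay_of_niceDecay h1).integrableOn h1.1 w)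
    ((vertDecay_of_niceDecay hc).integrableOn hc.1 w), primInfty_const_mul]
  rfl

/-- the constant `c γ`. -/
def cst (f h : CuspForm (Gamma0 N) 2) (γ : Gamma0 N) : ℂ :=
  K f h ((γ : SL(2, ℤ)) • UpperHalfPlane.I) - K f h UpperHalfPlane.I
    - P f γ * prim h UpperHalfPlane.I

/-- **equivariance of `K`**: `K (γ w) = K w + P_f γ * A_h w + c γ`. -/
theorem K_smul (f h : CuspForm (Gamma0 N) 2) (γ : Gamma0 N) (w : ℍ) :
    K f h ((γ : SL(2, ℤ)) • w) = K f h w + P f γ * prim h w + cst f h γ := by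
  obtain ⟨c, hc⟩ := K_SL f h (γ : SL(2, ℤ))
  have e1 := hc w
  have e2 := hc UpperHalfPlane.I
  rw [primInfty_integrand_slash_Gamma0] at e1 e2
  unfold cst
  rw [e1, e2]
  ring

/-- the cocycle identity `c (γ δ) = c γ + c δ + P_f γ * P_h δ`. -/
theorem cst_mul (f h : CuspForm (Gamma0 N) 2) (γ δ : Gamma0 N) :
    cst f h (γ * δ) = cst f h γ + cst f h δ + P f γ * P h δ := by
  have e1 := K_smul f h (γ * δ) UpperHalfPlane.I
  have e2 := K_smul f h γ ((δ : SL(2, ℤ)) • UpperHalfPlane.I)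
  have e3 := K_smul f h δ UpperHalfPlane.I
  have e4 := prim_smul h δ UpperHalfPlane.I
  have hsmul : ((γ * δ : Gamma0 N) : SL(2, ℤ)) • UpperHalfPlane.I
      = (γ : SL(2, ℤ)) • ((δ : SL(2, ℤ)) • UpperHalfPlane.I) := by
    rw [← mul_smul]; rfl
  rw [hsmul, e2, e3, e4, P_mul] at e1
  linear_combination (-1 : ℂ) * e1

/-! ### parabolic vanishing -/

/-- the period of a trace-`2` element vanishes. -/
theorem P_eq_zero_of_trace (f : CuspForm (Gamma0 N) 2) (γ : Gamma0 N)
    (h : ((γ : SL(2, ℤ)) : Matrix (Fin 2) (Fin 2) ℤ).trace = 2) : P f γ = 0 := by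
  have hmem := Fermat.Agent.S21.Parabolic.periodMap_mem_parabolicHoms N f
  rw [mem_parabolicHoms_iff] at hmem
  apply hmem γ
  rw [h]
  norm_num

/-- **parabolic vanishing**: `c π = 0` for `π = g⁻¹ Tⁿ g ∈ Γ₀(N)`. -/
theorem cst_eq_zero_of_conj (f h : CuspForm (Gamma0 N) 2) (π : Gamma0 N) (g : SL(2, ℤ)) (n : ℕ)
    (hπ : (π : SL(2, ℤ)) = g⁻¹ * ModularGroup.T ^ n * g) : cst f h π = 0 := by
  have hP : P f π = 0 := by
    apply P_eq_zero_of_trace
    rw [hπ]
    exact EDef25.trace_inv_T_pow_mul g n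
  have hK : ∀ z : ℍ, K f h ((π : SL(2, ℤ)) • z) - K f h z = cst f h π := by
    intro z
    rw [K_smul, hP]
    ring
  obtain ⟨c, hc⟩ := K_SL f h g⁻¹
  set G : ℍ → ℂ := primInfty (integrand f h ∣[(2 : ℤ)] g⁻¹) with hG
  have hG0 : Tendsto G atImInfty (𝓝 0) :=
    tendsto_primInfty_atImInfty (niceDecay_integrand_slash f h g⁻¹)
  have hT : Tendsto (fun w : ℍ => (ModularGroup.T ^ n : SL(2, ℤ)) • w) atImInfty atImInfty := by
    apply Fermat.Agent.S21.Parabolic.tendsto_SL_smul_atImInfty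
    have : (ModularGroup.T ^ n : SL(2, ℤ)) = ModularGroup.T ^ (n : ℤ) := by
      rw [zpow_natCast]
    rw [this, ModularGroup.coe_T_zpow]
    simp
  have h1 : ∀ w : ℍ, G ((ModularGroup.T ^ n : SL(2, ℤ)) • w) - G w = cst f h π := by
    intro w
    have e := hK (g⁻¹ • w)
    have hsm : (π : SL(2, ℤ)) • (g⁻¹ • w) = g⁻¹ • ((ModularGroup.T ^ n : SL(2, ℤ)) • w) := by
      rw [hπ, ← mul_smul, ← mul_smul]
      congr 1
      group
    rw [hsm, hc, hc] at e
    rw [← e]
    ring
  have h2 : Tendsto (fun w : ℍ => G ((ModularGroup.T ^ n : SL(2, ℤ)) • w) - G w) atImInfty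
      (𝓝 (0 - 0)) := (hG0.comp hT).sub hG0
  simp only [h1, sub_self] at h2
  exact tendsto_nhds_unique tendsto_const_nhds h2

/-! ### the relation `(REL)` over `ℂ` and the first bilinear relation -/

/-- **(REL)** for the canonical cusp family, with complex coefficients. -/
theorem rel_cuspFam_complex (Γ : Subgroup SL(2, ℤ)) [Γ.FiniteIndex] : Rel ℂ (cuspFam Γ) := by
  intro χ hχ
  have htriv : ∀ f : SL(2, ℤ) →* Multiplicative ℂ, f = 1 :=
    CuspRel15.sl2z_hom_multiplicative_eq_one (fun a n hn han => by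
      rcases smul_eq_zero.mp han with h0 | h0
      · omega
      · exact h0)
  let χ' : Γ →* Multiplicative ℂ :=
    { toFun := fun g => Multiplicative.ofAdd (χ g)
      map_one' := by rw [hχ.map_one]; rfl
      map_mul' := fun a b => by rw [hχ a b]; rfl }
  have key := CuspRel15.prod_orbit_eq_one Γ htriv χ' (ModularGroup.T : SL(2, ℤ))
  have h2 := congrArg Multiplicative.toAdd key
  rw [toAdd_prod] at h2
  exact h2

/-- the primitive `κ_{f,h} = -2 c`. -/
def kap (f h : CuspForm (Gamma0 N) 2) (γ : Gamma0 N) : ℂ := -2 * cst f h γ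

theorem isPrimitive_kap (f h : CuspForm (Gamma0 N) 2) :
    IsPrimitive ((2 : ℂ) • fn (periodMap N f)) (fn (periodMap N h)) (kap f h) := by
  intro a b
  have := cst_mul f h a b
  simp only [kap, Pi.smul_apply, fn_apply, smul_eq_mul]
  unfold P at this
  rw [this]
  ring

theorem kap_cuspFam (f h : CuspForm (Gamma0 N) 2)
    (q : MulAction.orbitRel.Quotient (Subgroup.zpowers (ModularGroup.T : SL(2, ℤ)))
      (SL(2, ℤ) ⧸ Gamma0 N)) : kap f h (cuspFam (Gamma0 N) q) = 0 := by
  unfold kap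
  rw [cst_eq_zero_of_conj f h _ _ _ (coe_cuspFam (Gamma0 N) q)]
  ring

/-- **(RB1), the first Riemann bilinear relation** in the tree's pairing. -/
theorem rb1 (N : ℕ) [NeZero N] (f h : CuspForm (Gamma0 N) 2) :
    E2 (cuspFam (Gamma0 N)) (fn (periodMap N f)) (fn (periodMap N h)) = 0 := by
  rw [E2_eq (rel_cuspFam_complex (Gamma0 N)) (isPrimitive_kap f h)]
  exact Finset.sum_eq_zero fun q _ => kap_cuspFam f h q

end Fermat.Agent.M17.RiemannBilinearOne2
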