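/-
Programme M17 (target S17), block [LAT], consumer kit for (RB1)/(RB2) (helper2).

* `EC Γ : LinearMap.BilinForm ℂ ↥(parabolicHoms ℂ Γ ℂ)`: the doubled cusp pairing `E2` with complex
  coefficients as a bilinear form (`EC_apply`, `EC_eq_sum`, `EC_alt`, `EC_skew`), and the base
  change `EC_castPar : EC Γ (castPar x) (castPar y) = (EΓ Γ x y : ℂ)`.
* `perC N f : ↥(parabolicHoms ℂ (Gamma0 N) ℂ)` the period homomorphism of a cusp form and
  `EC_perC : EC (Gamma0 N) (perC N f) (perC N h) = 0` (RB1).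
* `conjPar` the complex conjugate of a parabolic hom.
* `omega_symm`: the period matrix is symmetric (convention (C4)/(C5) of the M17 board).
* `EC_perC_conj`: `EC (per (w k)) (conj (per (w l))) = s * (Ω l k - conj (Ω k l))`.
-/
import Mathlib
import Fermat.Agent.M17.RiemannBilinearOne2
import Fermat.Agent.ES.I2.CuspPairingMap5

set_option autoImplicit false
set_option linter.unusedSectionVars false
set_option linter.unusedVariables false
set_option linter.style.longLine false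

noncomputable section

namespace Fermat.Agent.M17.RiemannSymmetric2

open Complex CongruenceSubgroup ModularCurve ModularCurve.Period
open scoped MatrixGroups ModularForm
open Fermat.Agent.ES.I2 Fermat.Agent.ES.I2.CuspPairing25 Fermat.Agent.ES.I2.CuspPairingTwo25
open Fermat.Agent.ES.I2.CuspSys13 Fermat.Agent.ES.I2.DegAdj3 Fermat.Agent.ES.I2.EDef25
open Fermat.Agent.ES.HEQ.ParLattice11 Fermat.Agent.M17.RiemannBilinearOne2

section General

variable (Γ : Subgroup SL(2, ℤ)) [Γ.FiniteIndex]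

/-- (K2) with complex coefficients. -/
theorem hasPrim2_complex {ι : Type*} [Fintype ι] (c : ι → Γ) : HasPrim2 (R := ℂ) c :=
  HasPrimGamma25.hasPrim2 Γ (fun r hr => by simpa using hr) (fun r hr => by simpa using hr) c

theorem isPar_cuspFam_memC {x : Additive Γ →+ ℂ} (hx : x ∈ parabolicHoms ℂ Γ ℂ) :
    IsPar (cuspFam Γ) (fn x) :=
  isPar_cuspFam Γ (mem_parabolicHoms_iff.mp hx)

/-- **the complex alternating form** on `parabolicHoms ℂ Γ ℂ`. -/
def EC : LinearMap.BilinForm ℂ ↥(parabolicHoms ℂ Γ ℂ) :=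
  LinearMap.mk₂ ℂ (fun x y => E2 (cuspFam Γ) (fn (x : Additive Γ →+ ℂ)) (fn (y : Additive Γ →+ ℂ)))
    (fun x x' y => by
      show E2 (cuspFam Γ) (fn ((x : Additive Γ →+ ℂ) + (x' : Additive Γ →+ ℂ))) _ = _
      rw [fn_add]
      exact E2_add_left (rel_cuspFam_complex Γ) (hasPrim2_complex Γ _)
        (isPar_cuspFam_memC Γ x.2) (isPar_cuspFam_memC Γ x'.2) (isPar_cuspFam_memC Γ y.2))
    (fun r x y => by
      show E2 (cuspFam Γ) (fn (r • (x : Additive Γ →+ ℂ))) _ = r • _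
      rw [fn_smul, smul_eq_mul]
      exact E2_smul_left (rel_cuspFam_complex Γ) (hasPrim2_complex Γ _)
        (isPar_cuspFam_memC Γ x.2) (isPar_cuspFam_memC Γ y.2) r)
    (fun x y y' => by
      show E2 (cuspFam Γ) _ (fn ((y : Additive Γ →+ ℂ) + (y' : Additive Γ →+ ℂ))) = _
      rw [fn_add]
      exact E2_add_right (rel_cuspFam_complex Γ) (hasPrim2_complex Γ _)
        (isPar_cuspFam_memC Γ x.2) (isPar_cuspFam_memC Γ y.2) (isPar_cuspFam_memC Γ y'.2))
    (fun r x y => by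
      show E2 (cuspFam Γ) _ (fn (r • (y : Additive Γ →+ ℂ))) = r • _
      rw [fn_smul, smul_eq_mul]
      exact E2_smul_right (rel_cuspFam_complex Γ) (hasPrim2_complex Γ _)
        (isPar_cuspFam_memC Γ x.2) (isPar_cuspFam_memC Γ y.2) r)

theorem EC_apply (x y : ↥(parabolicHoms ℂ Γ ℂ)) :
    EC Γ x y = E2 (cuspFam Γ) (fn (x : Additive Γ →+ ℂ)) (fn (y : Additive Γ →+ ℂ)) := rfl

/-- `EC` can be computed with ANY primitive of `(2 • fn x, fn y)`. -/
theorem EC_eq_sum (x y : ↥(parabolicHoms ℂ Γ ℂ)) {κ : Γ → ℂ}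
    (hκ : IsPrimitive ((2 : ℂ) • fn (x : Additive Γ →+ ℂ)) (fn (y : Additive Γ →+ ℂ)) κ) :
    EC Γ x y = ∑ q, κ (cuspFam Γ q) := by
  rw [EC_apply, E2_eq (rel_cuspFam_complex Γ) hκ]

theorem EC_alt (x : ↥(parabolicHoms ℂ Γ ℂ)) : EC Γ x x = 0 := by
  rw [EC_apply]
  exact E2_self (rel_cuspFam_complex Γ) (isPar_cuspFam_memC Γ x.2)

theorem EC_skew (x y : ↥(parabolicHoms ℂ Γ ℂ)) : EC Γ y x = -EC Γ x y := by
  rw [EC_apply, EC_apply]
  exact E2_swap (rel_cuspFam_complex Γ) (hasPrim2_complex Γ _) (isPar_cuspFam_memC Γ x.2)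
    (isPar_cuspFam_memC Γ y.2)

/-- **base change**: on the lattice `parabolicHoms ℤ Γ ℤ` the complex form is the integral one. -/
theorem EC_castPar (x y : ↥(parabolicHoms ℤ Γ ℤ)) :
    EC Γ (castPar Γ ℂ x) (castPar Γ ℂ y) = ((EΓ Γ x y : ℤ) : ℂ) := by
  rw [EC_apply, EΓ_apply]
  obtain ⟨κ, hκ⟩ := HasPrimGamma25.hasPrim2_int Γ (cuspFam Γ) _ _
    (isPar_cuspFam_mem Γ x.2) (isPar_cuspFam_mem Γ y.2)
  exact (CuspPairingMap5.cast_E2_eq Γ ℂ (cuspFam Γ) (rel_cuspFam Γ) (rel_cuspFam_complex Γ) x y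
    hκ).symm

/-! ### complex conjugation of parabolic homs -/

/-- the complex conjugate of a parabolic hom. -/
def conjPar (x : ↥(parabolicHoms ℂ Γ ℂ)) : ↥(parabolicHoms ℂ Γ ℂ) :=
  ⟨((starRingEnd ℂ : ℂ →+* ℂ) : ℂ →+ ℂ).comp (x : Additive Γ →+ ℂ), by
    rw [mem_parabolicHoms_iff]
    intro γ hγ
    have := (mem_parabolicHoms_iff.mp x.2) γ hγ
    show (starRingEnd ℂ) ((x : Additive Γ →+ ℂ) (Additive.ofMul γ)) = 0
    rw [this, map_zero]⟩

theorem conjPar_apply (x : ↥(parabolicHoms ℂ Γ ℂ)) (g : Additive Γ) :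
    ((conjPar Γ x : ↥(parabolicHoms ℂ Γ ℂ)) : Additive Γ →+ ℂ) g
      = (starRingEnd ℂ) ((x : Additive Γ →+ ℂ) g) := rfl

theorem conjPar_add (x y : ↥(parabolicHoms ℂ Γ ℂ)) :
    conjPar Γ (x + y) = conjPar Γ x + conjPar Γ y := by
  apply Subtype.ext
  refine AddMonoidHom.ext fun g => ?_
  show (starRingEnd ℂ) (((x + y : ↥(parabolicHoms ℂ Γ ℂ)) : Additive Γ →+ ℂ) g) = _
  rw [Submodule.coe_add, AddMonoidHom.add_apply, map_add]
  rfl

theorem conjPar_smul (r : ℂ) (x : ↥(parabolicHoms ℂ Γ ℂ)) :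
    conjPar Γ (r • x) = (starRingEnd ℂ) r • conjPar Γ x := by
  apply Subtype.ext
  refine AddMonoidHom.ext fun g => ?_
  show (starRingEnd ℂ) (((r • x : ↥(parabolicHoms ℂ Γ ℂ)) : Additive Γ →+ ℂ) g) = _
  rw [Submodule.coe_smul, AddMonoidHom.smul_apply, smul_eq_mul, map_mul]
  rfl

theorem conjPar_sum {ι : Type*} (s : Finset ι) (x : ι → ↥(parabolicHoms ℂ Γ ℂ)) :
    conjPar Γ (∑ i ∈ s, x i) = ∑ i ∈ s, conjPar Γ (x i) := by
  classical
  induction s using Finset.induction_on with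
  | empty =>
    simp only [Finset.sum_empty]
    apply Subtype.ext
    refine AddMonoidHom.ext fun g => ?_
    show (starRingEnd ℂ) (0 : ℂ) = 0
    rw [map_zero]
  | insert a s ha ih => rw [Finset.sum_insert ha, Finset.sum_insert ha, conjPar_add, ih]

theorem conjPar_castPar (x : ↥(parabolicHoms ℤ Γ ℤ)) :
    conjPar Γ (castPar Γ ℂ x) = castPar Γ ℂ x := by
  apply Subtype.ext
  refine AddMonoidHom.ext fun g => ?_
  rw [conjPar_apply, castPar_apply]
  exact map_intCast (starRingEnd ℂ) _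

end General

section Gamma0

variable (N : ℕ) [NeZero N]

/-- the period homomorphism of a weight-2 cusp form, as a complex parabolic hom. -/
def perC (f : CuspForm (Gamma0 N) 2) : ↥(parabolicHoms ℂ (Gamma0 N) ℂ) :=
  ⟨periodMap N f, Fermat.Agent.S21.Parabolic.periodMap_mem_parabolicHoms N f⟩

theorem perC_apply (f : CuspForm (Gamma0 N) 2) (γ : Gamma0 N) :
    ((perC N f : ↥(parabolicHoms ℂ (Gamma0 N) ℂ)) : Additive (Gamma0 N) →+ ℂ) (Additive.ofMul γ)
      = periodMap N f (Additive.ofMul γ) := rfl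

/-- **(RB1)** in terms of the bilinear form `EC`. -/
theorem EC_perC (f h : CuspForm (Gamma0 N) 2) : EC (Gamma0 N) (perC N f) (perC N h) = 0 :=
  rb1 N f h

variable {N}

/-- expansion of `EC` on two vectors written in a 'symplectic' system `(n, m)` of the lattice
(`EE (n j) (n k) = 0 = EE (m j) (m k)`, `EE (m j) (n k) = s δ_jk`). -/
theorem EC_expand {g : ℕ} (n m : Fin g → ↥(parabolicHoms ℤ (Gamma0 N) ℤ)) (s : ℤ)
    (hnn : ∀ j k, EE N (n j) (n k) = 0) (hmm : ∀ j k, EE N (m j) (m k) = 0)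
    (hmn : ∀ j k, EE N (m j) (n k) = if j = k then s else 0)
    (A B : Matrix (Fin g) (Fin g) ℂ) (k l : Fin g) :
    EC (Gamma0 N)
      (castPar (Gamma0 N) ℂ (n k) + ∑ j, A j k • castPar (Gamma0 N) ℂ (m j))
      (castPar (Gamma0 N) ℂ (n l) + ∑ i, B i l • castPar (Gamma0 N) ℂ (m i))
      = (s : ℂ) * (A l k - B k l) := by
  classical
  have hnm : ∀ j k, EE N (n j) (m k) = if j = k then -s else 0 := by
    intro j k
    rw [EE_skew, hmn]
    by_cases h : j = k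
    · simp [h]
    · simp [h, Ne.symm h]
  have c1 : ∀ j k, EC (Gamma0 N) (castPar (Gamma0 N) ℂ (n j)) (castPar (Gamma0 N) ℂ (n k)) = 0 := by
    intro j k
    rw [EC_castPar]
    have := hnn j k
    unfold EE at this
    rw [this]; simp
  have c2 : ∀ j k, EC (Gamma0 N) (castPar (Gamma0 N) ℂ (m j)) (castPar (Gamma0 N) ℂ (m k)) = 0 := by
    intro j k
    rw [EC_castPar]
    have := hmm j k
    unfold EE at this
    rw [this]; simp
  have c3 : ∀ j k, EC (Gamma0 N) (castPar (Gamma0 N) ℂ (m j)) (castPar (Gamma0 N) ℂ (n k))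
      = if j = k then (s : ℂ) else 0 := by
    intro j k
    rw [EC_castPar]
    have := hmn j k
    unfold EE at this
    rw [this]
    split_ifs <;> simp
  have c4 : ∀ j k, EC (Gamma0 N) (castPar (Gamma0 N) ℂ (n j)) (castPar (Gamma0 N) ℂ (m k))
      = if j = k then -(s : ℂ) else 0 := by
    intro j k
    rw [EC_castPar]
    have := hnm j k
    unfold EE at this
    rw [this]
    split_ifs <;> simp
  simp only [map_add, LinearMap.add_apply, map_sum, LinearMap.sum_apply, map_smul,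
    LinearMap.smul_apply, smul_eq_mul, c1, c2, c3, c4, mul_zero, Finset.sum_const_zero, add_zero,
    zero_add, mul_ite, Finset.sum_ite_eq, Finset.sum_ite_eq', Finset.mem_univ, if_true]
  ring

/-- **the period matrix is symmetric** (from (RB1)).  Conventions (C4)/(C5) of the M17 board:
`per (w k) = n k + ∑ j, Ω j k • m j` with `EE (m j) (n k) = s δ_jk` (`s ≠ 0`, e.g. `s = 2`),
`EE (n j) (n k) = 0 = EE (m j) (m k)`. -/
theorem omega_symm {g : ℕ} (n m : Fin g → ↥(parabolicHoms ℤ (Gamma0 N) ℤ)) (s : ℤ) (hs : s ≠ 0)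
    (hnn : ∀ j k, EE N (n j) (n k) = 0) (hmm : ∀ j k, EE N (m j) (m k) = 0)
    (hmn : ∀ j k, EE N (m j) (n k) = if j = k then s else 0)
    (w : Fin g → CuspForm (Gamma0 N) 2) (Ω : Matrix (Fin g) (Fin g) ℂ)
    (hper : ∀ k, perC N (w k)
      = castPar (Gamma0 N) ℂ (n k) + ∑ j, Ω j k • castPar (Gamma0 N) ℂ (m j)) (k l : Fin g) :
    Ω k l = Ω l k := by
  have h0 := EC_perC N (w k) (w l)
  rw [hper k, hper l, EC_expand n m s hnn hmm hmn Ω Ω k l] at h0
  have hs' : (s : ℂ) ≠ 0 := by exact_mod_cast hs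
  have := (mul_eq_zero.mp h0).resolve_left hs'
  linear_combination (-1 : ℂ) * this

/-- the (RB2)-side expansion: `EC (per (w k)) (conj (per (w l))) = s (Ω l k - conj (Ω k l))`. -/
theorem EC_perC_conj {g : ℕ} (n m : Fin g → ↥(parabolicHoms ℤ (Gamma0 N) ℤ)) (s : ℤ)
    (hnn : ∀ j k, EE N (n j) (n k) = 0) (hmm : ∀ j k, EE N (m j) (m k) = 0)
    (hmn : ∀ j k, EE N (m j) (n k) = if j = k then s else 0)
    (w : Fin g → CuspForm (Gamma0 N) 2) (Ω : Matrix (Fin g) (Fin g) ℂ)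
    (hper : ∀ k, perC N (w k)
      = castPar (Gamma0 N) ℂ (n k) + ∑ j, Ω j k • castPar (Gamma0 N) ℂ (m j)) (k l : Fin g) :
    EC (Gamma0 N) (perC N (w k)) (conjPar (Gamma0 N) (perC N (w l)))
      = (s : ℂ) * (Ω l k - (starRingEnd ℂ) (Ω k l)) := by
  have hc : conjPar (Gamma0 N) (perC N (w l))
      = castPar (Gamma0 N) ℂ (n l)
        + ∑ i, (Ω.map (starRingEnd ℂ)) i l • castPar (Gamma0 N) ℂ (m i) := by
    rw [hper l, conjPar_add, conjPar_sum, conjPar_castPar]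
    congr 1
    refine Finset.sum_congr rfl fun i _ => ?_
    rw [conjPar_smul, conjPar_castPar]
    rfl
  rw [hc, hper k, EC_expand n m s hnn hmm hmn Ω (Ω.map (starRingEnd ℂ)) k l]
  rfl

/-- `perC` as a `ℂ`-linear map. -/
def perCLin (N : ℕ) [NeZero N] : CuspForm (Gamma0 N) 2 →ₗ[ℂ] ↥(parabolicHoms ℂ (Gamma0 N) ℂ) :=
  (Fermat.Agent.S21.Primitive.periodMapLinear N).codRestrict (parabolicHoms ℂ (Gamma0 N) ℂ)
    (fun f => Fermat.Agent.S21.Parabolic.periodMap_mem_parabolicHoms N f)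

theorem perCLin_apply (f : CuspForm (Gamma0 N) 2) : perCLin N f = perC N f := rfl

/-- the sesquilinear expansion: for `f = ∑ a_k w_k`, `h = ∑ b_l w_l`,
`EC (per f) (conj (per h)) = s ∑_{k,l} a_k conj(b_l) (Ω l k - conj (Ω k l))`. -/
theorem EC_perC_conj_sum {g : ℕ} (n m : Fin g → ↥(parabolicHoms ℤ (Gamma0 N) ℤ)) (s : ℤ)
    (hnn : ∀ j k, EE N (n j) (n k) = 0) (hmm : ∀ j k, EE N (m j) (m k) = 0)
    (hmn : ∀ j k, EE N (m j) (n k) = if j = k then s else 0)
    (w : Fin g → CuspForm (Gamma0 N) 2) (Ω : Matrix (Fin g) (Fin g) ℂ)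
    (hper : ∀ k, perC N (w k)
      = castPar (Gamma0 N) ℂ (n k) + ∑ j, Ω j k • castPar (Gamma0 N) ℂ (m j))
    (a b : Fin g → ℂ) :
    EC (Gamma0 N) (perC N (∑ k, a k • w k)) (conjPar (Gamma0 N) (perC N (∑ l, b l • w l)))
      = (s : ℂ) * ∑ k, ∑ l, a k * (starRingEnd ℂ) (b l) * (Ω l k - (starRingEnd ℂ) (Ω k l)) := by
  have e1 : perC N (∑ k, a k • w k) = ∑ k, a k • perC N (w k) := by
    rw [← perCLin_apply, map_sum]
    simp only [map_smul, perCLin_apply]
  have e2 : conjPar (Gamma0 N) (perC N (∑ l, b l • w l))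
      = ∑ l, (starRingEnd ℂ) (b l) • conjPar (Gamma0 N) (perC N (w l)) := by
    rw [← perCLin_apply, map_sum, conjPar_sum]
    simp only [map_smul, perCLin_apply, conjPar_smul]
  rw [e1, e2]
  simp only [map_sum, LinearMap.sum_apply, map_smul, LinearMap.smul_apply, smul_eq_mul,
    EC_perC_conj n m s hnn hmm hmn w Ω hper]
  rw [Finset.sum_comm, Finset.mul_sum]
  refine Finset.sum_congr rfl fun k _ => ?_
  rw [Finset.mul_sum, Finset.mul_sum]
  refine Finset.sum_congr rfl fun l _ => ?_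
  ring

/-- **the (RB2) consumer**: if `EC (per f) (conj (per f)) = 4 i · pet f` for every `f` (e.g. `pet` the
Petersson norm `∫_{Γ\ℍ} |f|²`) then, in the conventions (C4)/(C5), the quadratic form of `Im Ω` is
`(2 / s) · pet`: `s ∑_{k,l} v_k v_l Im Ω_kl = 2 pet (∑ v_k w_k)` for real `v`. -/
theorem im_omega_quadratic {g : ℕ} (n m : Fin g → ↥(parabolicHoms ℤ (Gamma0 N) ℤ)) (s : ℤ)
    (hs : s ≠ 0)
    (hnn : ∀ j k, EE N (n j) (n k) = 0) (hmm : ∀ j k, EE N (m j) (m k) = 0)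
    (hmn : ∀ j k, EE N (m j) (n k) = if j = k then s else 0)
    (w : Fin g → CuspForm (Gamma0 N) 2) (Ω : Matrix (Fin g) (Fin g) ℂ)
    (hper : ∀ k, perC N (w k)
      = castPar (Gamma0 N) ℂ (n k) + ∑ j, Ω j k • castPar (Gamma0 N) ℂ (m j))
    (pet : CuspForm (Gamma0 N) 2 → ℝ)
    (hRB2 : ∀ f, EC (Gamma0 N) (perC N f) (conjPar (Gamma0 N) (perC N f)) = 4 * I * (pet f : ℂ))
    (v : Fin g → ℝ) :
    (s : ℝ) * ∑ k, ∑ l, v k * v l * (Ω k l).im = 2 * pet (∑ k, (v k : ℂ) • w k) := by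
  have hsymm := omega_symm n m s hs hnn hmm hmn w Ω hper
  have h1 := EC_perC_conj_sum n m s hnn hmm hmn w Ω hper (fun k => (v k : ℂ)) (fun k => (v k : ℂ))
  rw [hRB2] at h1
  have h2 : ∀ k l, ((v k : ℂ)) * (starRingEnd ℂ) ((v l : ℂ)) * (Ω l k - (starRingEnd ℂ) (Ω k l))
      = 2 * I * ((v k * v l * (Ω k l).im : ℝ) : ℂ) := by
    intro k l
    rw [hsymm l k, Complex.conj_ofReal]
    have h3 : Ω k l - (starRingEnd ℂ) (Ω k l) = 2 * I * ((Ω k l).im : ℂ) := by
      have := Complex.sub_conj (Ω k l)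
      rw [this]
      push_cast
      ring
    rw [h3]
    push_cast
    ring
  simp only [h2] at h1
  simp only [← Finset.mul_sum] at h1
  have h4 : (4 * I) * ((pet (∑ k, (v k : ℂ) • w k) : ℝ) : ℂ)
      = (4 * I) * (((s : ℝ) * ∑ k, ∑ l, v k * v l * (Ω k l).im) / 2 : ℝ) := by
    rw [h1]
    push_cast
    ring
  have h5 : (4 * I : ℂ) ≠ 0 := by
    simp
  have h6 := Complex.ofReal_injective (mul_left_cancel₀ h5 h4)
  linarith

/-- positivity of `Im Ω` (for `s > 0`, e.g. the (C5) normalisation `s = 2`), from a positive `pet`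
and the linear independence of the `w k`. -/
theorem im_omega_pos {g : ℕ} (n m : Fin g → ↥(parabolicHoms ℤ (Gamma0 N) ℤ)) (s : ℤ) (hs : 0 < s)
    (hnn : ∀ j k, EE N (n j) (n k) = 0) (hmm : ∀ j k, EE N (m j) (m k) = 0)
    (hmn : ∀ j k, EE N (m j) (n k) = if j = k then s else 0)
    (w : Fin g → CuspForm (Gamma0 N) 2) (hw : LinearIndependent ℂ w)
    (Ω : Matrix (Fin g) (Fin g) ℂ)
    (hper : ∀ k, perC N (w k)
      = castPar (Gamma0 N) ℂ (n k) + ∑ j, Ω j k • castPar (Gamma0 N) ℂ (m j))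
    (pet : CuspForm (Gamma0 N) 2 → ℝ) (hpet : ∀ f, f ≠ 0 → 0 < pet f)
    (hRB2 : ∀ f, EC (Gamma0 N) (perC N f) (conjPar (Gamma0 N) (perC N f)) = 4 * I * (pet f : ℂ))
    (v : Fin g → ℝ) (hv : v ≠ 0) :
    0 < ∑ k, ∑ l, v k * v l * (Ω k l).im := by
  have h := im_omega_quadratic n m s hs.ne' hnn hmm hmn w Ω hper pet hRB2 v
  have hne : (∑ k, (v k : ℂ) • w k) ≠ 0 := by
    intro h0
    have := (Fintype.linearIndependent_iff.mp hw) (fun k => (v k : ℂ)) h0
    apply hv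
    funext k
    exact_mod_cast this k
  have hp := hpet _ hne
  have hs' : (0 : ℝ) < (s : ℝ) := by exact_mod_cast hs
  by_contra hcon
  have : (s : ℝ) * ∑ k, ∑ l, v k * v l * (Ω k l).im ≤ 0 :=
    mul_nonpos_of_nonneg_of_nonpos hs'.le (not_lt.mp hcon)
  linarith

end Gamma0

end Fermat.Agent.M17.RiemannSymmetric2
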