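/-
Programme M17 (S17), block [LAT], leaf (dR), helper3: (dR) for the complex cusp pairing `EC`.
For parabolic homs `x, y` and functions `a, b` on `ℍ` with periods `x, y`, smooth in the sense
of `DR3.Smooth`:  `EC Γ x y = -2 (∑ tile integrals of the Jacobian + ∑ top line integrals)`.
-/
import Mathlib
import Fermat.Agent.M17.DR3
import Fermat.Agent.M17.Cochain3
import Fermat.Agent.M17.RiemannSymmetric2

set_option autoImplicit false

open MeasureTheory Set intervalIntegral UpperHalfPlane MulAction Subgroup Function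
open scoped Interval MatrixGroups Topology

namespace Fermat.Agent.M17.DRCup3

open Fermat.Agent.M17.PathFun3 Fermat.Agent.M17.Paths3 Fermat.Agent.M17.DR3
  Fermat.Agent.M17.Cochain3 Fermat.Agent.M17.RiemannSymmetric2
open Fermat.Agent.ES.I2.CuspPairing25 Fermat.Agent.ES.I2.CuspPairingTwo25
  Fermat.Agent.ES.I2.CuspSys13 Fermat.Agent.ES.I2.DegAdj3
open ModularCurve.Period

local notation "T" => (ModularGroup.T : SL(2, ℤ))

variable (Γ : Subgroup SL(2, ℤ)) [Γ.FiniteIndex]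

/-- **(dR) for `EC`**, exact form at truncation level `M`. -/
theorem EC_eq_tile [Fintype (SL(2, ℤ) ⧸ Γ)] (x y : ↥(parabolicHoms ℂ Γ ℂ)) {a b : ℍ → ℂ}
    (ha : ∀ (γ : Γ) (z : ℍ), a ((γ : SL(2, ℤ)) • z) = a z + fn (x : Additive Γ →+ ℂ) γ)
    (hb : ∀ (γ : Γ) (z : ℍ), b ((γ : SL(2, ℤ)) • z) = b z + fn (y : Additive Γ →+ ℂ) γ)
    (hs : Smooth a b) {M : ℝ} (hM : 1 ≤ M) :
    EC Γ x y = -2 * (∑ g : SL(2, ℤ) ⧸ Γ, tileInt a b M g.out
      + ∑ q : orbitRel.Quotient (zpowers T) (SL(2, ℤ) ⧸ Γ),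
          ∑ k ∈ Finset.range (minimalPeriod (T • ·) q.out),
            lineIntH a b (fun t => (T ^ k * q.out.out)⁻¹ • hor M t) (-1 / 2) (1 / 2)) := by
  have hx := isPar_cuspFam_memC Γ x.2
  have hy := isPar_cuspFam_memC Γ y.2
  obtain ⟨κ, hκ⟩ := hasPrim2_complex Γ (cuspFam Γ) _ _ hx hy
  set c : Γ → ℂ := fun γ => -κ γ / 2 with hcdef
  have hc : ∀ α β : Γ, c (α * β) = c α + c β
      + fn (x : Additive Γ →+ ℂ) α * fn (y : Additive Γ →+ ℂ) β := by
    intro α β
    have := hκ α β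
    simp only [Pi.smul_apply, smul_eq_mul] at this
    simp only [hcdef]
    rw [this]
    ring
  obtain ⟨K, hK⟩ := exists_cochain (c := c) ha hb hc
  have h := dR_exact hK hs hM (cuspFam Γ) (coe_cuspFam Γ)
  have h0 : ∀ q, fn (x : Additive Γ →+ ℂ) (cuspFam Γ q) = 0 := hx.2
  simp only [h0, zero_mul, zero_add] at h
  rw [EC_eq_sum Γ x y hκ]
  have e : ∑ q, c (cuspFam Γ q) = -(∑ q, κ (cuspFam Γ q)) / 2 := by
    rw [← Finset.sum_neg_distrib, Finset.sum_div]
  rw [e] at h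
  linear_combination (2 : ℂ) * h

end Fermat.Agent.M17.DRCup3
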