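/-
Programme M17 (S17), block [LAT], leaf (RB2), helper3: regularity of the primitive `prim f`
of a weight-2 cusp form transported to all tiles (`DR3.Smooth`), and the Jacobian of
`(prim f, conj ∘ prim f)` in the chart `Φ`:  `jac = -i |f∣g⁻¹|² / y`.
-/
import Mathlib
import Fermat.Agent.M17.DR3
import Fermat.Agent.S21.Primitive

set_option autoImplicit false

open UpperHalfPlane hiding I
open Complex CongruenceSubgroup
open scoped MatrixGroups ModularForm Manifold Topology ComplexConjugate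

namespace Fermat.Agent.M17.PrimSmooth3

open Fermat.Agent.M17.Green3 Fermat.Agent.M17.Tile3 Fermat.Agent.M17.DR3
open Fermat.Agent.S21.Primitive

variable {N : ℕ} [NeZero N]

/-- the form slashed by `g⁻¹`, as a function on `ℂ`: the derivative of the transported
primitive. -/
noncomputable def Fg (f : CuspForm (Gamma0 N) 2) (g : SL(2, ℤ)) (w : ℂ) : ℂ :=
  ((f : ℍ → ℂ) ∣[(2 : ℤ)] g⁻¹) (ofComplex w)

theorem hasDerivAt_al (f : CuspForm (Gamma0 N) 2) (g : SL(2, ℤ)) {w : ℂ} (hw : w ∈ UH) :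
    HasDerivAt (al (prim f) g) (Fg f g w) w := by
  obtain ⟨c, hc⟩ := prim_SL f g⁻¹
  have h := Fermat.Agent.S22.Sep.niceDecay_slash f g⁻¹
  have h1 := Fermat.Agent.S22.primInfty_hasDerivAt h.1 (vertDecay_of_niceDecay h) ⟨w, hw⟩
  have e : al (prim f) g = fun w : ℂ => c + Fermat.Agent.S22.primInfty
      ((f : ℍ → ℂ) ∣[(2 : ℤ)] g⁻¹) (ofComplex w) := by
    funext w
    exact hc _
  rw [e]
  have h2 := h1.const_add c
  have e2 : Fg f g w = ((f : ℍ → ℂ) ∣[(2 : ℤ)] g⁻¹) ⟨w, hw⟩ := by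
    unfold Fg
    rw [ofComplex_apply_of_im_pos hw]
  rw [e2]
  exact h2

theorem differentiableOn_al (f : CuspForm (Gamma0 N) 2) (g : SL(2, ℤ)) :
    DifferentiableOn ℂ (al (prim f) g) UH := fun _ hw =>
  (hasDerivAt_al f g hw).differentiableAt.differentiableWithinAt

theorem contDiffOn_al (f : CuspForm (Gamma0 N) 2) (g : SL(2, ℤ)) (n : WithTop ℕ∞) :
    ContDiffOn ℝ n (al (prim f) g) UH :=
  ((differentiableOn_al f g).contDiffOn isOpen_UH).restrict_scalars ℝ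

theorem al_conj (a : ℍ → ℂ) (g : SL(2, ℤ)) :
    al (fun z => conj (a z)) g = fun w => conj (al a g w) := rfl

theorem contDiffOn_al_conj (f : CuspForm (Gamma0 N) 2) (g : SL(2, ℤ)) (n : WithTop ℕ∞) :
    ContDiffOn ℝ n (al (fun z => conj (prim f z)) g) UH := by
  rw [al_conj]
  exact Complex.conjCLE.contDiff.comp_contDiffOn (contDiffOn_al f g n)

/-- **regularity**. -/
theorem smooth_prim (f h : CuspForm (Gamma0 N) 2) :
    Smooth (prim f) (fun z => conj (prim h z)) :=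
  ⟨fun g => contDiffOn_al f g 1, fun g => contDiffOn_al_conj h g 2⟩

/-! ### partial derivatives of the chart -/

theorem hasDerivAt_Phi_fst {x s : ℝ} (hp : (x, s) ∈ dom) :
    HasDerivAt (fun x' : ℝ => Phi (x', s))
      (1 + ((-x / Real.sqrt (s - x ^ 2) : ℝ) : ℂ) * I) x := by
  have hpos : 0 < s - x ^ 2 := hp
  have h1 : HasDerivAt (fun x' : ℝ => s - x' ^ 2) (-(2 * x)) x := by
    have := ((hasDerivAt_id x).pow 2).const_sub s
    simpa using this
  have h2 := h1.sqrt hpos.ne'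
  have h3 : HasDerivAt (fun x' : ℝ => ((Real.sqrt (s - x' ^ 2) : ℝ) : ℂ))
      ((-(2 * x) / (2 * Real.sqrt (s - x ^ 2)) : ℝ) : ℂ) x := h2.ofReal_comp
  have h4 : HasDerivAt (fun x' : ℝ => ((x' : ℝ) : ℂ)) ((1 : ℝ) : ℂ) x :=
    (hasDerivAt_id x).ofReal_comp
  have h5 : HasDerivAt (fun x' : ℝ => ((x' : ℝ) : ℂ) + ((Real.sqrt (s - x' ^ 2) : ℝ) : ℂ) * I)
      (((1 : ℝ) : ℂ) + ((-(2 * x) / (2 * Real.sqrt (s - x ^ 2)) : ℝ) : ℂ) * I) x :=
    h4.add (h3.mul_const I)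
  have e : (-(2 * x) / (2 * Real.sqrt (s - x ^ 2)) : ℝ) = -x / Real.sqrt (s - x ^ 2) := by
    have : Real.sqrt (s - x ^ 2) ≠ 0 := (Real.sqrt_pos.2 hpos).ne'
    field_simp
  rw [e, Complex.ofReal_one] at h5
  exact h5

theorem hasDerivAt_Phi_snd {x s : ℝ} (hp : (x, s) ∈ dom) :
    HasDerivAt (fun s' : ℝ => Phi (x, s'))
      (((1 / (2 * Real.sqrt (s - x ^ 2)) : ℝ) : ℂ) * I) s := by
  have hpos : 0 < s - x ^ 2 := hp
  have h1 : HasDerivAt (fun s' : ℝ => s' - x ^ 2) 1 s := (hasDerivAt_id s).sub_const _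
  have h2 := h1.sqrt hpos.ne'
  have h3 : HasDerivAt (fun s' : ℝ => ((Real.sqrt (s' - x ^ 2) : ℝ) : ℂ))
      ((1 / (2 * Real.sqrt (s - x ^ 2)) : ℝ) : ℂ) s := h2.ofReal_comp
  have h5 : HasDerivAt (fun s' : ℝ => ((x : ℝ) : ℂ) + ((Real.sqrt (s' - x ^ 2) : ℝ) : ℂ) * I)
      (((1 / (2 * Real.sqrt (s - x ^ 2)) : ℝ) : ℂ) * I) s :=
    (h3.mul_const I).const_add ((x : ℝ) : ℂ)
  exact h5

/-- the density of the tile integral in the chart. -/
noncomputable def dens (f : CuspForm (Gamma0 N) 2) (g : SL(2, ℤ)) (p : ℝ × ℝ) : ℝ :=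
  normSq (Fg f g (Phi p)) / Real.sqrt (p.2 - p.1 ^ 2)

omit [NeZero N] in
theorem dens_nonneg (f : CuspForm (Gamma0 N) 2) (g : SL(2, ℤ)) (p : ℝ × ℝ) : 0 ≤ dens f g p :=
  div_nonneg (normSq_nonneg _) (Real.sqrt_nonneg _)

/-- **the Jacobian** of `(prim f, conj ∘ prim f)` on the tile of `g`, in the chart. -/
theorem jac_prim (f : CuspForm (Gamma0 N) 2) (g : SL(2, ℤ)) {p : ℝ × ℝ} (hp : p ∈ dom) :
    jac (al (prim f) g ∘ Phi) (al (fun z => conj (prim f z)) g ∘ Phi) p =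
      -I * ((dens f g p : ℝ) : ℂ) := by
  obtain ⟨x, s⟩ := p
  have hpos : 0 < s - x ^ 2 := hp
  have hy : 0 < Real.sqrt (s - x ^ 2) := Real.sqrt_pos.2 hpos
  set y : ℝ := Real.sqrt (s - x ^ 2) with hy'
  have hmem : Phi (x, s) ∈ UH := Phi_mem_UH hp
  set F : ℂ := Fg f g (Phi (x, s)) with hF
  have hA := hasDerivAt_al f g hmem
  -- differentiability of the two functions on the chart
  have hdA : DifferentiableAt ℝ (al (prim f) g ∘ Phi) (x, s) := by
    have h1 : ContDiffOn ℝ 1 (al (prim f) g ∘ Phi) dom :=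
      (contDiffOn_al f g 1).comp (contDiffOn_Phi.of_le le_top) (fun p hp => Phi_mem_UH hp)
    exact (h1.contDiffAt (isOpen_dom.mem_nhds hp)).differentiableAt one_ne_zero
  have hdB : DifferentiableAt ℝ (al (fun z => conj (prim f z)) g ∘ Phi) (x, s) := by
    have h1 : ContDiffOn ℝ 1 (al (fun z => conj (prim f z)) g ∘ Phi) dom :=
      (contDiffOn_al_conj f g 1).comp (contDiffOn_Phi.of_le le_top) (fun p hp => Phi_mem_UH hp)
    exact (h1.contDiffAt (isOpen_dom.mem_nhds hp)).differentiableAt one_ne_zero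
  -- the four partial derivatives
  have a1 : HasDerivAt (fun x' : ℝ => al (prim f) g (Phi (x', s)))
      ((1 + ((-x / y : ℝ) : ℂ) * I) • F) x :=
    HasDerivAt.scomp (g₁ := al (prim f) g) (h := fun x' : ℝ => Phi (x', s)) x hA
      (hasDerivAt_Phi_fst hp)
  have a2 : HasDerivAt (fun s' : ℝ => al (prim f) g (Phi (x, s')))
      ((((1 / (2 * y) : ℝ) : ℂ) * I) • F) s :=
    HasDerivAt.scomp (g₁ := al (prim f) g) (h := fun s' : ℝ => Phi (x, s')) s hA
      (hasDerivAt_Phi_snd hp)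
  have b1 : HasDerivAt (fun x' : ℝ => al (fun z => conj (prim f z)) g (Phi (x', s)))
      (conj ((1 + ((-x / y : ℝ) : ℂ) * I) • F)) x := a1.star
  have b2 : HasDerivAt (fun s' : ℝ => al (fun z => conj (prim f z)) g (Phi (x, s')))
      (conj ((((1 / (2 * y) : ℝ) : ℂ) * I) • F)) s := a2.star
  unfold jac
  rw [fderiv_apply_fst hdA, fderiv_apply_snd hdA, fderiv_apply_fst hdB, fderiv_apply_snd hdB]
  have e1 : deriv (fun x' => (al (prim f) g ∘ Phi) (x', s)) x = _ := a1.deriv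
  have e2 : deriv (fun s' => (al (prim f) g ∘ Phi) (x, s')) s = _ := a2.deriv
  have e3 : deriv (fun x' => (al (fun z => conj (prim f z)) g ∘ Phi) (x', s)) x = _ := b1.deriv
  have e4 : deriv (fun s' => (al (fun z => conj (prim f z)) g ∘ Phi) (x, s')) s = _ := b2.deriv
  rw [e1, e2, e3, e4]
  have hn : (F * conj F) = ((normSq F : ℝ) : ℂ) := Complex.mul_conj F
  have hd : ((dens f g (x, s) : ℝ) : ℂ) = ((normSq F : ℝ) : ℂ) / ((y : ℝ) : ℂ) := by
    unfold dens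
    push_cast
    rfl
  rw [hd, ← hn]
  have hyc : ((y : ℝ) : ℂ) ≠ 0 := by exact_mod_cast hy.ne'
  simp only [smul_eq_mul, map_mul, map_add, map_one, conj_I, conj_ofReal]
  push_cast
  field_simp
  ring

end Fermat.Agent.M17.PrimSmooth3
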