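/-
Programme M17 (S17), block [LAT], leaf (RB2), helper3: the mass of a tile,
`tileMass f M g = ∫∫_{[-1/2,1/2] × [1,M]} |f∣g⁻¹|² / y` in the chart (`= 2 ∫∫ |f∣g⁻¹|² dx dy`),
the tile integral of the Jacobian of `(prim f, conj prim f)` is `-i tileMass`, monotonicity in `M`
and strict positivity for `f ≠ 0`.
-/
import Mathlib
import Fermat.Agent.M17.PrimSmooth3

set_option autoImplicit false

open UpperHalfPlane hiding I
open Complex CongruenceSubgroup Filter Set MeasureTheory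
open scoped MatrixGroups ModularForm Manifold Topology ComplexConjugate Interval

namespace Fermat.Agent.M17.TileMass3

open Fermat.Agent.M17.Green3 Fermat.Agent.M17.Tile3 Fermat.Agent.M17.DR3
  Fermat.Agent.M17.PrimSmooth3
open Fermat.Agent.S21.Primitive

variable {N : ℕ} [NeZero N]

/-- the mass of the tile of `g`, truncated at `|z|² ≤ M`, in the chart. -/
noncomputable def tileMass (f : CuspForm (Gamma0 N) 2) (M : ℝ) (g : SL(2, ℤ)) : ℝ :=
  ∫ x in (-1 / 2 : ℝ)..(1 / 2), ∫ s in (1 : ℝ)..M, dens f g (x, s)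

/-- the tile integral is `-i` times the mass. -/
theorem tileInt_prim (f : CuspForm (Gamma0 N) 2) {M : ℝ} (hM : 1 ≤ M) (g : SL(2, ℤ)) :
    tileInt (prim f) (fun z => conj (prim f z)) M g = -I * ((tileMass f M g : ℝ) : ℂ) := by
  unfold tileInt tileMass
  have h1 : ∀ x ∈ [[(-1 / 2 : ℝ), 1 / 2]],
      (∫ s in (1 : ℝ)..M, jac (al (prim f) g ∘ Phi) (al (fun z => conj (prim f z)) g ∘ Phi) (x, s))
        = -I * ((∫ s in (1 : ℝ)..M, dens f g (x, s) : ℝ) : ℂ) := by
    intro x hx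
    rw [uIcc_of_le (by norm_num)] at hx
    rw [← intervalIntegral.integral_ofReal, ← intervalIntegral.integral_const_mul]
    refine intervalIntegral.integral_congr (fun s hs => ?_)
    rw [uIcc_of_le hM] at hs
    exact jac_prim f g (mem_dom_of hx.1 hx.2 hs.1)
  rw [intervalIntegral.integral_congr h1, intervalIntegral.integral_const_mul,
    intervalIntegral.integral_ofReal]

theorem differentiableOn_Fg (f : CuspForm (Gamma0 N) 2) (g : SL(2, ℤ)) :
    DifferentiableOn ℂ (Fg f g) UH := by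
  have h := (Fermat.Agent.S22.Sep.niceDecay_slash f g⁻¹).1
  exact UpperHalfPlane.mdifferentiable_iff.mp h

theorem continuousOn_dens (f : CuspForm (Gamma0 N) 2) (g : SL(2, ℤ)) :
    ContinuousOn (dens f g) dom := by
  unfold dens
  have h1 : ContinuousOn (fun p => Fg f g (Phi p)) dom :=
    (differentiableOn_Fg f g).continuousOn.comp contDiffOn_Phi.continuousOn
      (fun p hp => Phi_mem_UH hp)
  have h2 : ContinuousOn (fun p => normSq (Fg f g (Phi p))) dom :=
    Complex.continuous_normSq.comp_continuousOn h1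
  have h3 : ContinuousOn (fun p : ℝ × ℝ => Real.sqrt (p.2 - p.1 ^ 2)) dom := by
    apply Continuous.continuousOn
    fun_prop
  refine h2.div h3 (fun p hp => ?_)
  exact (Real.sqrt_pos.2 hp).ne'

theorem rect_subset_dom' {M : ℝ} : Icc (-1 / 2 : ℝ) (1 / 2) ×ˢ Icc (1 : ℝ) M ⊆ dom := by
  rintro ⟨x, s⟩ ⟨hx, hs⟩
  exact mem_dom_of hx.1 hx.2 hs.1

theorem integrableOn_dens (f : CuspForm (Gamma0 N) 2) (g : SL(2, ℤ)) (M : ℝ) :
    IntegrableOn (dens f g) (Icc (-1 / 2 : ℝ) (1 / 2) ×ˢ Icc (1 : ℝ) M) volume :=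
  ((continuousOn_dens f g).mono rect_subset_dom').integrableOn_compact
    (isCompact_Icc.prod isCompact_Icc)

theorem integrableOn_dens' (f : CuspForm (Gamma0 N) 2) (g : SL(2, ℤ)) (M : ℝ) :
    IntegrableOn (dens f g) (Ioc (-1 / 2 : ℝ) (1 / 2) ×ˢ Ioc (1 : ℝ) M) volume :=
  (integrableOn_dens f g M).mono_set (Set.prod_mono Ioc_subset_Icc_self Ioc_subset_Icc_self)

/-- the mass as an integral over the rectangle for the product measure. -/
theorem tileMass_eq_setIntegral (f : CuspForm (Gamma0 N) 2) {M : ℝ} (hM : 1 ≤ M) (g : SL(2, ℤ)) :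
    tileMass f M g = ∫ p in Ioc (-1 / 2 : ℝ) (1 / 2) ×ˢ Ioc (1 : ℝ) M, dens f g p := by
  unfold tileMass
  rw [intervalIntegral.integral_of_le (by norm_num)]
  simp only [intervalIntegral.integral_of_le hM]
  have h := integrableOn_dens' f g M
  rw [Measure.volume_eq_prod] at h ⊢
  exact (setIntegral_prod _ h).symm

/-- monotonicity in the truncation level. -/
theorem tileMass_mono (f : CuspForm (Gamma0 N) 2) {M M' : ℝ} (hM : 1 ≤ M) (hMM' : M ≤ M')
    (g : SL(2, ℤ)) : tileMass f M g ≤ tileMass f M' g := by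
  rw [tileMass_eq_setIntegral f hM, tileMass_eq_setIntegral f (hM.trans hMM')]
  refine setIntegral_mono_set (integrableOn_dens' f g M') ?_ ?_
  · exact Eventually.of_forall (fun p => dens_nonneg f g p)
  · exact (Set.prod_mono le_rfl (Ioc_subset_Ioc_right hMM')).eventuallyLE

theorem tileMass_nonneg (f : CuspForm (Gamma0 N) 2) {M : ℝ} (hM : 1 ≤ M) (g : SL(2, ℤ)) :
    0 ≤ tileMass f M g := by
  rw [tileMass_eq_setIntegral f hM]
  exact setIntegral_nonneg (measurableSet_Ioc.prod measurableSet_Ioc)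
    (fun p _ => dens_nonneg f g p)


/-- a point of the upper half plane is the image of its chart coordinates. -/
theorem Phi_re_normSq {w : ℂ} (hw : 0 < w.im) : Phi (w.re, normSq w) = w := by
  have e : normSq w - w.re ^ 2 = w.im ^ 2 := by
    rw [normSq_apply]; ring
  apply Complex.ext
  · rw [Phi_re]
  · rw [Phi_im]
    show Real.sqrt (normSq w - w.re ^ 2) = w.im
    rw [e, Real.sqrt_sq hw.le]

/-- if the density vanishes on the open rectangle `(-1/2,1/2) × (1,2)` then `f = 0`. -/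
theorem eq_zero_of_dens_eq_zero (f : CuspForm (Gamma0 N) 2) (g : SL(2, ℤ))
    (h : ∀ p ∈ Ioo (-1 / 2 : ℝ) (1 / 2) ×ˢ Ioo (1 : ℝ) 2, dens f g p = 0) : f = 0 := by
  have hF : ∀ p ∈ Ioo (-1 / 2 : ℝ) (1 / 2) ×ˢ Ioo (1 : ℝ) 2, Fg f g (Phi p) = 0 := by
    intro p hp
    have hpd : p ∈ dom := by
      obtain ⟨x, s⟩ := p
      exact mem_dom_of hp.1.1.le hp.1.2.le hp.2.1.le
    have h1 := h p hp
    unfold dens at h1
    rw [div_eq_zero_iff] at h1
    rcases h1 with h1 | h1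
    · exact normSq_eq_zero.mp h1
    · exact absurd h1 (Real.sqrt_pos.2 hpd).ne'
  -- the base point `z₀ = Φ (0, 3/2)`
  set z₀ : ℂ := Phi (0, 3 / 2) with hz₀
  have hz₀mem : z₀ ∈ UH := Phi_mem_UH (by simp only [dom, mem_ofPred_eq]; norm_num)
  have hre : z₀.re = 0 := Phi_re _
  have hns : normSq z₀ = 3 / 2 := normSq_Phi (by simp only [dom, mem_ofPred_eq]; norm_num)
  have hev : Fg f g =ᶠ[𝓝 z₀] 0 := by
    have hc : ContinuousAt (fun w : ℂ => (w.re, normSq w)) z₀ :=
      (Complex.continuous_re.prodMk Complex.continuous_normSq).continuousAt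
    have hopen : IsOpen (Ioo (-1 / 2 : ℝ) (1 / 2) ×ˢ Ioo (1 : ℝ) 2) := isOpen_Ioo.prod isOpen_Ioo
    have hmem : (z₀.re, normSq z₀) ∈ Ioo (-1 / 2 : ℝ) (1 / 2) ×ˢ Ioo (1 : ℝ) 2 := by
      rw [hre, hns]
      constructor <;> constructor <;> norm_num
    have h1 := hc.preimage_mem_nhds (hopen.mem_nhds hmem)
    have h2 := isOpen_UH.mem_nhds hz₀mem
    filter_upwards [h1, h2] with w hw1 hw2
    have := hF _ hw1
    rw [Phi_re_normSq hw2] at this
    exact this
  have han : AnalyticOnNhd ℂ (Fg f g) UH := (differentiableOn_Fg f g).analyticOnNhd isOpen_UH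
  have hpre : IsPreconnected UH := (convex_halfSpace_im_gt 0).isPreconnected
  have hzero := han.eqOn_zero_of_preconnected_of_eventuallyEq_zero hpre hz₀mem hev
  -- so `f ∣ g⁻¹ = 0`
  have h0 : ((f : ℍ → ℂ) ∣[(2 : ℤ)] g⁻¹) = 0 := by
    funext z
    have := hzero z.im_pos
    simp only [Fg, ofComplex_apply, Pi.zero_apply] at this
    exact this
  have h1 : (f : ℍ → ℂ) = 0 := by
    have e : (f : ℍ → ℂ) = ((f : ℍ → ℂ) ∣[(2 : ℤ)] g⁻¹) ∣[(2 : ℤ)] g := by
      rw [← SlashAction.slash_mul, inv_mul_cancel, SlashAction.slash_one]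
    rw [e, h0, SlashAction.zero_slash]
  exact DFunLike.coe_injective h1

/-- **strict positivity** of the mass of every tile for `f ≠ 0`. -/
theorem tileMass_pos (f : CuspForm (Gamma0 N) 2) (hf : f ≠ 0) (g : SL(2, ℤ)) :
    0 < tileMass f 2 g := by
  rw [tileMass_eq_setIntegral f (by norm_num)]
  rw [setIntegral_pos_iff_support_of_nonneg_ae
    (Eventually.of_forall (fun p => dens_nonneg f g p)) (integrableOn_dens' f g 2)]
  -- a point of the open rectangle where the density does not vanish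
  have hex : ∃ p ∈ Ioo (-1 / 2 : ℝ) (1 / 2) ×ˢ Ioo (1 : ℝ) 2, dens f g p ≠ 0 := by
    by_contra hcon
    refine hf (eq_zero_of_dens_eq_zero f g (fun p hp => ?_))
    by_contra hne
    exact hcon ⟨p, hp, hne⟩
  obtain ⟨p₀, hp₀, hne⟩ := hex
  have hopen : IsOpen (Ioo (-1 / 2 : ℝ) (1 / 2) ×ˢ Ioo (1 : ℝ) 2) := isOpen_Ioo.prod isOpen_Ioo
  have hsub : Ioo (-1 / 2 : ℝ) (1 / 2) ×ˢ Ioo (1 : ℝ) 2 ⊆ dom :=
    (Set.prod_mono Ioo_subset_Icc_self Ioo_subset_Icc_self).trans rect_subset_dom'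
  have hU : IsOpen ((Ioo (-1 / 2 : ℝ) (1 / 2) ×ˢ Ioo (1 : ℝ) 2) ∩ dens f g ⁻¹' {0}ᶜ) :=
    ((continuousOn_dens f g).mono hsub).isOpen_inter_preimage hopen isOpen_compl_singleton
  have hne' : ((Ioo (-1 / 2 : ℝ) (1 / 2) ×ˢ Ioo (1 : ℝ) 2) ∩ dens f g ⁻¹' {0}ᶜ).Nonempty :=
    ⟨p₀, hp₀, hne⟩
  refine lt_of_lt_of_le (hU.measure_pos volume hne') (measure_mono ?_)
  rintro p ⟨hp1, hp2⟩
  exact ⟨hp2, Set.prod_mono Ioo_subset_Ioc_self Ioo_subset_Ioc_self hp1⟩

end Fermat.Agent.M17.TileMass3
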