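/-
Programme M17 (S17), block [LAT], leaf (RB2), helper3: the line integrals of
`prim f · d(conj prim f)` over the top arcs `|z|² = M` of the tiles tend to `0` as `M → ∞`.
-/
import Mathlib
import Fermat.Agent.M17.PrimSmooth3

set_option autoImplicit false

open UpperHalfPlane hiding I
open Complex CongruenceSubgroup Filter Set
open scoped MatrixGroups ModularForm Manifold Topology ComplexConjugate Interval

namespace Fermat.Agent.M17.TopArc3

open Fermat.Agent.M17.Green3 Fermat.Agent.M17.Tile3 Fermat.Agent.M17.DR3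
  Fermat.Agent.M17.PathFun3 Fermat.Agent.M17.Paths3 Fermat.Agent.M17.PrimSmooth3
open Fermat.Agent.S21.Primitive

variable {N : ℕ} [NeZero N]

/-- derivative of the transported primitive along a horizontal chart line. -/
theorem hasDerivAt_al_hor (f : CuspForm (Gamma0 N) 2) (g : SL(2, ℤ)) {x s : ℝ}
    (hp : (x, s) ∈ dom) :
    HasDerivAt (fun x' : ℝ => al (prim f) g (Phi (x', s)))
      ((1 + ((-x / Real.sqrt (s - x ^ 2) : ℝ) : ℂ) * I) * Fg f g (Phi (x, s))) x := by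
  have hA := hasDerivAt_al f g (Phi_mem_UH hp)
  exact HasDerivAt.scomp (g₁ := al (prim f) g) (h := fun x' : ℝ => Phi (x', s)) x hA
    (hasDerivAt_Phi_fst hp)

theorem hasDerivAt_al_conj_hor (f : CuspForm (Gamma0 N) 2) (g : SL(2, ℤ)) {x s : ℝ}
    (hp : (x, s) ∈ dom) :
    HasDerivAt (fun x' : ℝ => al (fun z => conj (prim f z)) g (Phi (x', s)))
      (conj ((1 + ((-x / Real.sqrt (s - x ^ 2) : ℝ) : ℂ) * I) * Fg f g (Phi (x, s)))) x :=
  (hasDerivAt_al_hor f g hp).star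

/-- the speed of the top arc is at most `2`. -/
theorem norm_speed_le {t M : ℝ} (ht : t ∈ Icc (-1 / 2 : ℝ) (1 / 2)) (hM : 1 ≤ M) :
    ‖(1 + ((-t / Real.sqrt (M - t ^ 2) : ℝ) : ℂ) * I)‖ ≤ 2 := by
  have ht2 : t ^ 2 ≤ 1 / 4 := by nlinarith [ht.1, ht.2]
  have hy : (1 / 2 : ℝ) ≤ Real.sqrt (M - t ^ 2) := by
    apply Real.le_sqrt_of_sq_le
    nlinarith
  have hy0 : 0 < Real.sqrt (M - t ^ 2) := by linarith
  have h1 : ‖((-t / Real.sqrt (M - t ^ 2) : ℝ) : ℂ) * I‖ ≤ 1 := by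
    rw [norm_mul, Complex.norm_I, mul_one, Complex.norm_real, Real.norm_eq_abs, abs_div,
      abs_neg, abs_of_pos hy0, div_le_one hy0]
    have : |t| ≤ 1 / 2 := abs_le.mpr ⟨by linarith [ht.1], ht.2⟩
    linarith
  calc ‖(1 + ((-t / Real.sqrt (M - t ^ 2) : ℝ) : ℂ) * I)‖
      ≤ ‖(1 : ℂ)‖ + ‖((-t / Real.sqrt (M - t ^ 2) : ℝ) : ℂ) * I‖ := norm_add_le _ _
    _ ≤ 1 + 1 := by rw [norm_one]; linarith
    _ = 2 := by norm_num

/-- the basic estimate of a top line integral. -/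
theorem norm_lineInt_top_le (f : CuspForm (Gamma0 N) 2) (g : SL(2, ℤ)) {M C ε : ℝ} (hM : 1 ≤ M)
    (hC : ∀ t ∈ Icc (-1 / 2 : ℝ) (1 / 2), ‖al (prim f) g (Phi (t, M))‖ ≤ C)
    (hε : ∀ t ∈ Icc (-1 / 2 : ℝ) (1 / 2), ‖Fg f g (Phi (t, M))‖ ≤ ε) (hC0 : 0 ≤ C) :
    ‖lineIntH (prim f) (fun z => conj (prim f z)) (fun t => g⁻¹ • hor M t) (-1 / 2) (1 / 2)‖
      ≤ C * (2 * ε) := by
  unfold lineIntH
  have h := intervalIntegral.norm_integral_le_of_norm_le_const (a := (-1 / 2 : ℝ)) (b := 1 / 2)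
    (C := C * (2 * ε))
    (f := fun t => prim f (g⁻¹ • hor M t) * deriv (fun t => conj (prim f (g⁻¹ • hor M t))) t) ?_
  · have e : |(1 / 2 : ℝ) - (-1 / 2)| = 1 := by norm_num
    rw [e, mul_one] at h
    exact h
  · intro t ht
    rw [uIoc_of_le (by norm_num)] at ht
    have ht' : t ∈ Icc (-1 / 2 : ℝ) (1 / 2) := ⟨ht.1.le, ht.2⟩
    have hp : (t, M) ∈ dom := mem_dom_of ht'.1 ht'.2 hM
    have hd : deriv (fun t => conj (prim f (g⁻¹ • hor M t))) t =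
        conj ((1 + ((-t / Real.sqrt (M - t ^ 2) : ℝ) : ℂ) * I) * Fg f g (Phi (t, M))) :=
      (hasDerivAt_al_conj_hor f g hp).deriv
    rw [hd, norm_mul, RCLike.norm_conj, norm_mul]
    have h1 : ‖prim f (g⁻¹ • hor M t)‖ ≤ C := hC t ht'
    have h2 := norm_speed_le ht' hM
    have h3 := hε t ht'
    have h4 : ‖(1 + ((-t / Real.sqrt (M - t ^ 2) : ℝ) : ℂ) * I)‖ * ‖Fg f g (Phi (t, M))‖ ≤ 2 * ε :=
      mul_le_mul h2 h3 (norm_nonneg _) (by norm_num)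
    exact mul_le_mul h1 h4 (by positivity) hC0


/-- the transported primitive is bounded near the cusp. -/
theorem exists_bound_al (f : CuspForm (Gamma0 N) 2) (g : SL(2, ℤ)) :
    ∃ C Y : ℝ, 0 ≤ C ∧ ∀ w : ℂ, 0 < w.im → Y ≤ w.im → ‖al (prim f) g w‖ ≤ C := by
  obtain ⟨c, hc⟩ := prim_SL f g⁻¹
  have h0 := tendsto_primInfty_slash f g⁻¹
  have h1 : ∀ᶠ z in atImInfty, ‖Fermat.Agent.S22.primInfty ((f : ℍ → ℂ) ∣[(2 : ℤ)] g⁻¹) z‖ < 1 := by
    have := h0.eventually (Metric.ball_mem_nhds (0 : ℂ) one_pos)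
    filter_upwards [this] with z hz
    simpa using hz
  obtain ⟨Y, hY⟩ := (atImInfty_mem _).mp h1
  refine ⟨‖c‖ + 1, Y, by positivity, fun w hw hYw => ?_⟩
  have e : al (prim f) g w = c + Fermat.Agent.S22.primInfty ((f : ℍ → ℂ) ∣[(2 : ℤ)] g⁻¹)
      (ofComplex w) := hc _
  rw [e]
  have him : (ofComplex w).im = w.im := by
    rw [ofComplex_apply_of_im_pos hw]
    rfl
  have h2 := hY (ofComplex w) (by rw [him]; exact hYw)
  calc ‖c + Fermat.Agent.S22.primInfty ((f : ℍ → ℂ) ∣[(2 : ℤ)] g⁻¹) (ofComplex w)‖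
      ≤ ‖c‖ + ‖Fermat.Agent.S22.primInfty ((f : ℍ → ℂ) ∣[(2 : ℤ)] g⁻¹) (ofComplex w)‖ :=
        norm_add_le _ _
    _ ≤ ‖c‖ + 1 := by
        have : ‖Fermat.Agent.S22.primInfty ((f : ℍ → ℂ) ∣[(2 : ℤ)] g⁻¹) (ofComplex w)‖ < 1 := h2
        linarith

/-- the slashed form is small near the cusp. -/
theorem exists_small_Fg (f : CuspForm (Gamma0 N) 2) (g : SL(2, ℤ)) {ε : ℝ} (hε : 0 < ε) :
    ∃ Y : ℝ, ∀ w : ℂ, 0 < w.im → Y ≤ w.im → ‖Fg f g w‖ ≤ ε := by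
  obtain ⟨-, a, ha, hfd⟩ := Fermat.Agent.S22.Sep.niceDecay_slash f g⁻¹
  have hlim : Tendsto (fun z : ℍ => Real.exp (-a * z.im)) atImInfty (𝓝 0) := by
    have h1 : Tendsto (fun z : ℍ => z.im) atImInfty atTop := tendsto_comap
    have h2 : Tendsto (fun y : ℝ => Real.exp (-a * y)) atTop (𝓝 0) := by
      have : Tendsto (fun y : ℝ => -a * y) atTop atBot :=
        tendsto_id.const_mul_atTop_of_neg (by linarith)
      exact Real.tendsto_exp_atBot.comp this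
    exact h2.comp h1
  have h0 : IsZeroAtImInfty ((f : ℍ → ℂ) ∣[(2 : ℤ)] g⁻¹) := hfd.trans_tendsto hlim
  obtain ⟨Y, hY⟩ := (isZeroAtImInfty_iff.mp h0) ε hε
  refine ⟨Y, fun w hw hYw => ?_⟩
  have him : (ofComplex w).im = w.im := by
    rw [ofComplex_apply_of_im_pos hw]
    rfl
  exact hY (ofComplex w) (by rw [him]; exact hYw)

/-- **the top arcs do not contribute in the limit.** -/
theorem tendsto_lineInt_top (f : CuspForm (Gamma0 N) 2) (g : SL(2, ℤ)) :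
    Tendsto (fun M : ℝ => lineIntH (prim f) (fun z => conj (prim f z))
      (fun t => g⁻¹ • hor M t) (-1 / 2) (1 / 2)) atTop (𝓝 0) := by
  obtain ⟨C, Y₁, hC0, hC⟩ := exists_bound_al f g
  rw [Metric.tendsto_atTop]
  intro ε hε
  have hε' : 0 < ε / (4 * (C + 1)) := by positivity
  obtain ⟨Y₂, hY₂⟩ := exists_small_Fg f g hε'
  refine ⟨max 1 (max (Y₁ ^ 2 + 1) (Y₂ ^ 2 + 1)), fun M hM => ?_⟩
  have hM1 : 1 ≤ M := le_trans (le_max_left _ _) hM
  have hMY₁ : Y₁ ^ 2 + 1 ≤ M := le_trans (le_trans (le_max_left _ _) (le_max_right _ _)) hM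
  have hMY₂ : Y₂ ^ 2 + 1 ≤ M := le_trans (le_trans (le_max_right _ _) (le_max_right _ _)) hM
  have him : ∀ t ∈ Icc (-1 / 2 : ℝ) (1 / 2), 0 < (Phi (t, M)).im ∧ Y₁ ≤ (Phi (t, M)).im ∧
      Y₂ ≤ (Phi (t, M)).im := by
    intro t ht
    have ht2 : t ^ 2 ≤ 1 / 4 := by nlinarith [ht.1, ht.2]
    rw [Phi_im]
    refine ⟨Real.sqrt_pos.2 (by show 0 < M - t ^ 2; linarith), ?_, ?_⟩
    · refine le_trans (le_abs_self _) (Real.abs_le_sqrt ?_)
      show Y₁ ^ 2 ≤ M - t ^ 2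
      linarith
    · refine le_trans (le_abs_self _) (Real.abs_le_sqrt ?_)
      show Y₂ ^ 2 ≤ M - t ^ 2
      linarith
  have h := norm_lineInt_top_le f g hM1 (C := C) (ε := ε / (4 * (C + 1)))
    (fun t ht => hC _ (him t ht).1 (him t ht).2.1)
    (fun t ht => hY₂ _ (him t ht).1 (him t ht).2.2) hC0
  rw [dist_zero_right]
  refine lt_of_le_of_lt h ?_
  have hC1 : 0 < C + 1 := by linarith
  have e : C * (2 * (ε / (4 * (C + 1)))) = ε * (C / (2 * (C + 1))) := by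
    field_simp
    ring
  rw [e]
  have : C / (2 * (C + 1)) < 1 := by
    rw [div_lt_one (by positivity)]
    linarith
  calc ε * (C / (2 * (C + 1))) < ε * 1 := mul_lt_mul_of_pos_left this hε
    _ = ε := mul_one ε

end Fermat.Agent.M17.TopArc3
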