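/-
Programme M17 (S17), block [LAT], leaf (RB2) = PET=CUP, helper3: the second Riemann bilinear
relation for `Γ₀(N)`: `EC (per f) (conj per f) = 4 i · pet f` with `pet f > 0` for `f ≠ 0`
(`pet f = ∫_{Γ₀(N)\ℍ} |f|² dx dy`, obtained as the limit of the truncated masses), in the exact
shape consumed by `RiemannSymmetric2.im_omega_pos`.
-/
import Mathlib
import Fermat.Agent.M17.DRCup3
import Fermat.Agent.M17.TopArc3
import Fermat.Agent.M17.TileMass3

set_option autoImplicit false

open UpperHalfPlane hiding I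
open Complex CongruenceSubgroup Filter Set MeasureTheory MulAction Subgroup Function
open scoped MatrixGroups ModularForm Manifold Topology ComplexConjugate Interval

namespace Fermat.Agent.M17.PetCup3

open Fermat.Agent.M17.Green3 Fermat.Agent.M17.Tile3 Fermat.Agent.M17.DR3
  Fermat.Agent.M17.PathFun3 Fermat.Agent.M17.Paths3 Fermat.Agent.M17.PrimSmooth3
  Fermat.Agent.M17.TopArc3 Fermat.Agent.M17.TileMass3 Fermat.Agent.M17.DRCup3
  Fermat.Agent.M17.RiemannSymmetric2
open Fermat.Agent.S21.Primitive Fermat.Agent.ES.I2.DegAdj3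
open ModularCurve ModularCurve.Period

local notation "T" => (ModularGroup.T : SL(2, ℤ))

variable {N : ℕ} [NeZero N]

/-- the total truncated mass. -/
noncomputable def mass [Fintype (SL(2, ℤ) ⧸ Gamma0 N)] (f : CuspForm (Gamma0 N) 2) (M : ℝ) : ℝ :=
  ∑ x : SL(2, ℤ) ⧸ Gamma0 N, tileMass f M x.out

/-- the sum of the top line integrals. -/
noncomputable def topSum (f : CuspForm (Gamma0 N) 2) (M : ℝ) : ℂ :=
  ∑ q : orbitRel.Quotient (zpowers T) (SL(2, ℤ) ⧸ Gamma0 N),
    ∑ k ∈ Finset.range (minimalPeriod (T • ·) q.out),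
      lineIntH (prim f) (fun z => conj (prim f z)) (fun t => (T ^ k * q.out.out)⁻¹ • hor M t)
        (-1 / 2) (1 / 2)

theorem tendsto_topSum (f : CuspForm (Gamma0 N) 2) : Tendsto (topSum f) atTop (𝓝 0) := by
  unfold topSum
  have : (0 : ℂ) = ∑ q : orbitRel.Quotient (zpowers T) (SL(2, ℤ) ⧸ Gamma0 N),
      ∑ k ∈ Finset.range (minimalPeriod (T • ·) q.out), (0 : ℂ) := by simp
  rw [this]
  exact tendsto_finsetSum _ (fun q _ => tendsto_finsetSum _ (fun k _ =>
    tendsto_lineInt_top f (T ^ k * q.out.out)))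

/-- **(dR) for the pair `(prim f, conj prim f)`**, exact at every truncation level. -/
theorem EC_eq_mass [Fintype (SL(2, ℤ) ⧸ Gamma0 N)] (f : CuspForm (Gamma0 N) 2) {M : ℝ}
    (hM : 1 ≤ M) :
    EC (Gamma0 N) (perC N f) (conjPar (Gamma0 N) (perC N f)) =
      2 * I * ((mass f M : ℝ) : ℂ) - 2 * topSum f M := by
  have ha : ∀ (γ : Gamma0 N) (z : ℍ), prim f ((γ : SL(2, ℤ)) • z) =
      prim f z + fn ((perC N f : ↥(parabolicHoms ℂ (Gamma0 N) ℂ)) : Additive (Gamma0 N) →+ ℂ) γ := by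
    intro γ z
    have := periodMap_apply_prim f γ z
    show _ = _ + periodMap N f (Additive.ofMul γ)
    rw [this]
    ring
  have hb : ∀ (γ : Gamma0 N) (z : ℍ), (fun z => conj (prim f z)) ((γ : SL(2, ℤ)) • z) =
      (fun z => conj (prim f z)) z + fn ((conjPar (Gamma0 N) (perC N f) :
        ↥(parabolicHoms ℂ (Gamma0 N) ℂ)) : Additive (Gamma0 N) →+ ℂ) γ := by
    intro γ z
    show conj (prim f ((γ : SL(2, ℤ)) • z)) = conj (prim f z) +
      conj (periodMap N f (Additive.ofMul γ))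
    rw [periodMap_apply_prim f γ z, map_sub]
    ring
  have h := EC_eq_tile (Gamma0 N) (perC N f) (conjPar (Gamma0 N) (perC N f)) ha hb
    (smooth_prim f f) hM
  rw [h]
  have e : ∑ g : SL(2, ℤ) ⧸ Gamma0 N, tileInt (prim f) (fun z => conj (prim f z)) M g.out =
      -I * ((mass f M : ℝ) : ℂ) := by
    unfold mass
    push_cast
    rw [Finset.mul_sum]
    exact Finset.sum_congr rfl (fun x _ => tileInt_prim f hM x.out)
  rw [e]
  unfold topSum
  ring


/-- the Petersson norm `∫_{Γ₀(N)\ℍ} |f|² dx dy`, defined through the cusp pairing. -/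
noncomputable def pet (f : CuspForm (Gamma0 N) 2) : ℝ :=
  (EC (Gamma0 N) (perC N f) (conjPar (Gamma0 N) (perC N f)) / (4 * I)).re

/-- the basic relation: `E / 4i = mass / 2 - topSum / 2i` at every level. -/
theorem quot_eq [Fintype (SL(2, ℤ) ⧸ Gamma0 N)] (f : CuspForm (Gamma0 N) 2) {M : ℝ}
    (hM : 1 ≤ M) :
    EC (Gamma0 N) (perC N f) (conjPar (Gamma0 N) (perC N f)) / (4 * I) =
      ((mass f M / 2 : ℝ) : ℂ) - topSum f M / (2 * I) := by
  rw [EC_eq_mass f hM]
  have hI : (I : ℂ) ≠ 0 := I_ne_zero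
  push_cast
  field_simp
  ring

theorem tendsto_topSum_div (f : CuspForm (Gamma0 N) 2) :
    Tendsto (fun M => topSum f M / (2 * I)) atTop (𝓝 0) := by
  have := (tendsto_topSum f).div_const (2 * I)
  rwa [zero_div] at this

/-- **(RB2)**: `EC (per f) (conj per f) = 4 i · pet f`. -/
theorem hRB2 (f : CuspForm (Gamma0 N) 2) :
    EC (Gamma0 N) (perC N f) (conjPar (Gamma0 N) (perC N f)) = 4 * I * ((pet f : ℝ) : ℂ) := by
  have : Fintype (SL(2, ℤ) ⧸ Gamma0 N) := Fintype.ofFinite _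
  set e : ℂ := EC (Gamma0 N) (perC N f) (conjPar (Gamma0 N) (perC N f)) / (4 * I) with he
  -- the imaginary part of `e` vanishes
  have him : e.im = 0 := by
    have h1 : Tendsto (fun M => -(topSum f M / (2 * I)).im) atTop (𝓝 (-(0 : ℂ).im)) :=
      ((Complex.continuous_im.tendsto _).comp (tendsto_topSum_div f)).neg
    have h2 : (fun _ : ℝ => e.im) =ᶠ[atTop] fun M => -(topSum f M / (2 * I)).im := by
      filter_upwards [eventually_ge_atTop (1 : ℝ)] with M hM
      rw [he, quot_eq f hM, Complex.sub_im, Complex.ofReal_im, zero_sub]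
    have h3 : Tendsto (fun _ : ℝ => e.im) atTop (𝓝 (-(0 : ℂ).im)) := h1.congr' h2.symm
    have := tendsto_nhds_unique tendsto_const_nhds h3
    rw [this]
    simp
  have hpet : ((pet f : ℝ) : ℂ) = e := by
    apply Complex.ext
    · rw [Complex.ofReal_re]
      rfl
    · rw [Complex.ofReal_im, him]
  rw [hpet, he]
  have hI : (4 * I : ℂ) ≠ 0 := by simp
  field_simp

/-- lower bound of `pet` by the truncated mass. -/
theorem mass_le_pet [Fintype (SL(2, ℤ) ⧸ Gamma0 N)] (f : CuspForm (Gamma0 N) 2) :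
    mass f 2 / 2 ≤ pet f := by
  have h1 : Tendsto (fun M => mass f 2 / 2 - (topSum f M / (2 * I)).re) atTop
      (𝓝 (mass f 2 / 2 - (0 : ℂ).re)) :=
    ((Complex.continuous_re.tendsto _).comp (tendsto_topSum_div f)).const_sub _
  rw [Complex.zero_re, sub_zero] at h1
  refine le_of_tendsto h1 ?_
  filter_upwards [eventually_ge_atTop (2 : ℝ)] with M hM
  have hM1 : (1 : ℝ) ≤ M := by linarith
  have h2 : pet f = mass f M / 2 - (topSum f M / (2 * I)).re := by
    unfold pet
    rw [quot_eq f hM1, Complex.sub_re, Complex.ofReal_re]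
  rw [h2]
  have h3 : mass f 2 ≤ mass f M := by
    unfold mass
    exact Finset.sum_le_sum (fun x _ => tileMass_mono f (by norm_num) hM x.out)
  linarith

/-- **positivity of the Petersson norm**. -/
theorem pet_pos (f : CuspForm (Gamma0 N) 2) (hf : f ≠ 0) : 0 < pet f := by
  have : Fintype (SL(2, ℤ) ⧸ Gamma0 N) := Fintype.ofFinite _
  refine lt_of_lt_of_le ?_ (mass_le_pet f)
  have h0 : 0 < mass f 2 := by
    unfold mass
    have : Nonempty (SL(2, ℤ) ⧸ Gamma0 N) := ⟨QuotientGroup.mk 1⟩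
    exact Finset.sum_pos (fun x _ => tileMass_pos f hf x.out) Finset.univ_nonempty
  linarith


/-- **`Im Ω` is positive definite** (conventions (C4)/(C5) of the M17 board): helper2's consumer
`RiemannSymmetric2.im_omega_pos` with (RB2) discharged. -/
theorem im_omega_pos_final {g : ℕ} (n m : Fin g → ↥(parabolicHoms ℤ (Gamma0 N) ℤ)) (s : ℤ)
    (hs : 0 < s)
    (hnn : ∀ j k, Fermat.Agent.ES.I2.EDef25.EE N (n j) (n k) = 0)
    (hmm : ∀ j k, Fermat.Agent.ES.I2.EDef25.EE N (m j) (m k) = 0)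
    (hmn : ∀ j k, Fermat.Agent.ES.I2.EDef25.EE N (m j) (n k) = if j = k then s else 0)
    (w : Fin g → CuspForm (Gamma0 N) 2) (hw : LinearIndependent ℂ w)
    (Ω : Matrix (Fin g) (Fin g) ℂ)
    (hper : ∀ k, perC N (w k) = Fermat.Agent.ES.HEQ.ParLattice11.castPar (Gamma0 N) ℂ (n k)
      + ∑ j, Ω j k • Fermat.Agent.ES.HEQ.ParLattice11.castPar (Gamma0 N) ℂ (m j))
    (v : Fin g → ℝ) (hv : v ≠ 0) :
    0 < ∑ k, ∑ l, v k * v l * (Ω k l).im :=
  im_omega_pos n m s hs hnn hmm hmn w hw Ω hper pet pet_pos hRB2 v hv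

end Fermat.Agent.M17.PetCup3
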