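/-
Programme M17 (S17), block [LAT]/(RL), helper3: the tile integral of (dR) in the standard
coordinates of `ℂ`.  `jacC A B = A_x B_y - A_y B_x`; in the chart `Φ` the Jacobian of
`(A ∘ Φ, B ∘ Φ)` is `jacC A B ∘ Φ / (2 y)`, and the substitution `s = x² + y²` turns the
tile integral into the iterated integral of `jacC A B` over `|x| ≤ 1/2`, `1 ≤ x² + y² ≤ M`.
-/
import Mathlib
import Fermat.Agent.M17.PrimSmooth3

set_option autoImplicit false

open Complex Set MeasureTheory intervalIntegral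
open scoped Interval Topology

namespace Fermat.Agent.M17.TileStd3

open Fermat.Agent.M17.Green3 Fermat.Agent.M17.Tile3 Fermat.Agent.M17.DR3
  Fermat.Agent.M17.PrimSmooth3

/-- the Jacobian `A_x B_y - A_y B_x` of two functions on `ℂ`. -/
noncomputable def jacC (A B : ℂ → ℂ) (w : ℂ) : ℂ :=
  fderiv ℝ A w 1 * fderiv ℝ B w I - fderiv ℝ A w I * fderiv ℝ B w 1

theorem differentiableAt_Phi {p : ℝ × ℝ} (hp : p ∈ dom) : DifferentiableAt ℝ Phi p :=
  (contDiffOn_Phi.contDiffAt (isOpen_dom.mem_nhds hp)).differentiableAt (by simp)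

theorem fderiv_Phi_fst {x s : ℝ} (hp : (x, s) ∈ dom) :
    fderiv ℝ Phi (x, s) (1, 0) = 1 + ((-x / Real.sqrt (s - x ^ 2) : ℝ) : ℂ) * I := by
  rw [fderiv_apply_fst (differentiableAt_Phi hp)]
  exact (hasDerivAt_Phi_fst hp).deriv

theorem fderiv_Phi_snd {x s : ℝ} (hp : (x, s) ∈ dom) :
    fderiv ℝ Phi (x, s) (0, 1) = ((1 / (2 * Real.sqrt (s - x ^ 2)) : ℝ) : ℂ) * I := by
  rw [fderiv_apply_snd (differentiableAt_Phi hp)]
  exact (hasDerivAt_Phi_snd hp).deriv

/-- **the Jacobian in the chart.** -/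
theorem jac_comp_Phi {A B : ℂ → ℂ} {x s : ℝ} (hp : (x, s) ∈ dom)
    (hA : DifferentiableAt ℝ A (Phi (x, s))) (hB : DifferentiableAt ℝ B (Phi (x, s))) :
    jac (A ∘ Phi) (B ∘ Phi) (x, s) =
      ((1 / (2 * Real.sqrt (s - x ^ 2)) : ℝ) : ℂ) * jacC A B (Phi (x, s)) := by
  have hΦ := differentiableAt_Phi hp
  unfold jac jacC
  rw [fderiv_comp _ hA hΦ, fderiv_comp _ hB hΦ]
  simp only [ContinuousLinearMap.comp_apply, fderiv_Phi_fst hp, fderiv_Phi_snd hp]
  set LA := fderiv ℝ A (Phi (x, s))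
  set LB := fderiv ℝ B (Phi (x, s))
  set c : ℝ := -x / Real.sqrt (s - x ^ 2)
  set d : ℝ := 1 / (2 * Real.sqrt (s - x ^ 2))
  have e1 : ∀ L : ℂ →L[ℝ] ℂ, L (1 + (c : ℂ) * I) = L 1 + (c : ℂ) * L I := by
    intro L
    have : (1 : ℂ) + (c : ℂ) * I = (1 : ℂ) + c • I := by simp
    rw [this, map_add, map_smul]
    simp
  have e2 : ∀ L : ℂ →L[ℝ] ℂ, L ((d : ℂ) * I) = (d : ℂ) * L I := by
    intro L
    have : (d : ℂ) * I = d • I := by simp
    rw [this, map_smul]
    simp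
  rw [e1 LA, e1 LB, e2 LA, e2 LB]
  ring


/-- the chart at the point with coordinates `(x, x² + y²)`, `y > 0`. -/
theorem Phi_sq_add {x y : ℝ} (hy : 0 < y) : Phi (x, x ^ 2 + y ^ 2) = (x : ℂ) + (y : ℂ) * I := by
  unfold Phi
  have : Real.sqrt (x ^ 2 + y ^ 2 - x ^ 2) = y := by
    rw [add_sub_cancel_left, Real.sqrt_sq hy.le]
  simp only [this]

theorem continuousOn_comp_Phi_snd {G : ℂ → ℂ} (hG : ContinuousOn G UH) (x : ℝ) :
    ContinuousOn (fun s : ℝ => G (Phi (x, s))) {s : ℝ | (x, s) ∈ dom} := by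
  obtain ⟨-, h2, h3⟩ := ver_data x
  exact hG.comp h2.continuousOn h3

/-- **the substitution `s = x² + y²`** in the inner integral. -/
theorem inner_subst {G : ℂ → ℂ} (hG : ContinuousOn G UH) {x M : ℝ} (hx : x ^ 2 < 1)
    (hM : 1 ≤ M) :
    (∫ s in (1 : ℝ)..M, ((1 / (2 * Real.sqrt (s - x ^ 2)) : ℝ) : ℂ) * G (Phi (x, s))) =
      ∫ y in Real.sqrt (1 - x ^ 2)..Real.sqrt (M - x ^ 2), G ((x : ℂ) + (y : ℂ) * I) := by
  set y₀ : ℝ := Real.sqrt (1 - x ^ 2) with hy₀
  set y₁ : ℝ := Real.sqrt (M - x ^ 2) with hy₁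
  have hy₀pos : 0 < y₀ := Real.sqrt_pos.2 (by linarith)
  have hy01 : y₀ ≤ y₁ := Real.sqrt_le_sqrt (by linarith)
  set f : ℝ → ℝ := fun y => x ^ 2 + y ^ 2 with hf
  set f' : ℝ → ℝ := fun y => 2 * y with hf'
  set g : ℝ → ℂ := fun s => ((1 / (2 * Real.sqrt (s - x ^ 2)) : ℝ) : ℂ) * G (Phi (x, s)) with hg
  have hfa : f y₀ = 1 := by
    simp only [hf, hy₀]
    rw [Real.sq_sqrt (by linarith)]
    ring
  have hfb : f y₁ = M := by
    simp only [hf, hy₁]
    rw [Real.sq_sqrt (by linarith)]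
    ring
  have hder : ∀ y ∈ uIcc y₀ y₁, HasDerivAt f (f' y) y := by
    intro y _
    have := ((hasDerivAt_id y).pow 2).const_add (x ^ 2)
    simpa [hf, hf'] using this
  have hf'c : ContinuousOn f' (uIcc y₀ y₁) := by
    apply Continuous.continuousOn
    fun_prop
  have himg : f '' [[y₀, y₁]] ⊆ {s : ℝ | (x, s) ∈ dom} := by
    rintro s ⟨y, hy, rfl⟩
    rw [uIcc_of_le hy01] at hy
    have : 0 < y := lt_of_lt_of_le hy₀pos hy.1
    show 0 < x ^ 2 + y ^ 2 - x ^ 2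
    rw [add_sub_cancel_left]
    positivity
  have hgc : ContinuousOn g (f '' [[y₀, y₁]]) := by
    have h1 : ContinuousOn (fun s : ℝ => ((1 / (2 * Real.sqrt (s - x ^ 2)) : ℝ) : ℂ))
        {s : ℝ | (x, s) ∈ dom} := by
      refine Complex.continuous_ofReal.comp_continuousOn ?_
      have hc : Continuous fun s : ℝ => 2 * Real.sqrt (s - x ^ 2) := by fun_prop
      refine continuousOn_const.div hc.continuousOn (fun s hs => ?_)
      have : 0 < Real.sqrt (s - x ^ 2) := Real.sqrt_pos.2 hs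
      positivity
    exact (h1.mul (continuousOn_comp_Phi_snd hG x)).mono himg
  have key := intervalIntegral.integral_deriv_smul_comp' hder hf'c hgc
  rw [hfa, hfb] at key
  rw [← key]
  refine intervalIntegral.integral_congr (fun y hy => ?_)
  rw [uIcc_of_le hy01] at hy
  have hypos : 0 < y := lt_of_lt_of_le hy₀pos hy.1
  show f' y • (g ∘ f) y = G ((x : ℂ) + (y : ℂ) * I)
  simp only [hg, hf, hf', Function.comp_apply]
  rw [Phi_sq_add hypos, add_sub_cancel_left, Real.sqrt_sq hypos.le, Complex.real_smul]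
  push_cast
  have : (y : ℂ) ≠ 0 := by exact_mod_cast hypos.ne'
  field_simp


theorem continuousOn_jacC {A B : ℂ → ℂ} (hA : ContDiffOn ℝ 1 A UH) (hB : ContDiffOn ℝ 1 B UH) :
    ContinuousOn (jacC A B) UH := by
  have h1 : ∀ (F : ℂ → ℂ), ContDiffOn ℝ 1 F UH → ∀ v : ℂ,
      ContinuousOn (fun w => fderiv ℝ F w v) UH := by
    intro F hF v
    have h := hF.continuousOn_fderiv_of_isOpen isOpen_UH le_rfl
    exact (ContinuousLinearMap.apply ℝ ℂ v).continuous.comp_continuousOn h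
  unfold jacC
  exact ((h1 A hA 1).mul (h1 B hB I)).sub ((h1 A hA I).mul (h1 B hB 1))

variable {a b : UpperHalfPlane → ℂ}

/-- **the tile integral in the standard coordinates**, as an iterated integral. -/
theorem tileInt_eq_iterated (hs : Smooth a b) {M : ℝ} (hM : 1 ≤ M) (g : Matrix.SpecialLinearGroup (Fin 2) ℤ) :
    tileInt a b M g = ∫ x in (-1 / 2 : ℝ)..(1 / 2),
      ∫ y in Real.sqrt (1 - x ^ 2)..Real.sqrt (M - x ^ 2),
        jacC (al a g) (al b g) ((x : ℂ) + (y : ℂ) * I) := by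
  have hA := hs.ha g
  have hB : ContDiffOn ℝ 1 (al b g) UH := (hs.hb g).of_le (by norm_num)
  have hG := continuousOn_jacC hA hB
  unfold tileInt
  refine intervalIntegral.integral_congr (fun x hx => ?_)
  rw [uIcc_of_le (by norm_num)] at hx
  have hx2 : x ^ 2 < 1 := by nlinarith [hx.1, hx.2]
  show (∫ s in (1 : ℝ)..M, jac (al a g ∘ Phi) (al b g ∘ Phi) (x, s)) = _
  rw [← inner_subst hG hx2 hM]
  refine intervalIntegral.integral_congr (fun s hs' => ?_)
  rw [uIcc_of_le hM] at hs'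
  have hp : (x, s) ∈ dom := mem_dom_of hx.1 hx.2 hs'.1
  have hmem := Phi_mem_UH hp
  exact jac_comp_Phi hp
    ((hA.contDiffAt (isOpen_UH.mem_nhds hmem)).differentiableAt one_ne_zero)
    ((hB.contDiffAt (isOpen_UH.mem_nhds hmem)).differentiableAt one_ne_zero)

end Fermat.Agent.M17.TileStd3
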