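/-
Programme M17 (S17), block [LAT]/(RL), helper3: the truncated standard fundamental domain
`tileSet M = {|re| ≤ 1/2, 1 ≤ |w|² ≤ M, im ≥ 0} ⊂ ℂ` and Fubini on it: a set integral over it is
the iterated integral `∫_{x=-1/2}^{1/2} ∫_{y=√(1-x²)}^{√(M-x²)}`.
-/
import Mathlib
import Fermat.Agent.M17.TileStd3

set_option autoImplicit false

open Complex Set MeasureTheory intervalIntegral
open scoped Interval Topology

namespace Fermat.Agent.M17.TileSet3

open Fermat.Agent.M17.Tile3

/-- the truncated standard fundamental domain as a subset of `ℂ`. -/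
def tileSet (M : ℝ) : Set ℂ := {w | |w.re| ≤ 1 / 2 ∧ 1 ≤ normSq w ∧ normSq w ≤ M ∧ 0 ≤ w.im}

theorem isClosed_tileSet (M : ℝ) : IsClosed (tileSet M) := by
  have h1 : IsClosed {w : ℂ | |w.re| ≤ 1 / 2} :=
    isClosed_le (continuous_abs.comp continuous_re) continuous_const
  have h2 : IsClosed {w : ℂ | 1 ≤ normSq w} := isClosed_le continuous_const continuous_normSq
  have h3 : IsClosed {w : ℂ | normSq w ≤ M} := isClosed_le continuous_normSq continuous_const
  have h4 : IsClosed {w : ℂ | 0 ≤ w.im} := isClosed_le continuous_const continuous_im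
  exact h1.inter (h2.inter (h3.inter h4))

theorem isCompact_tileSet (M : ℝ) : IsCompact (tileSet M) := by
  refine Metric.isCompact_of_isClosed_isBounded (isClosed_tileSet M) ?_
  refine (Metric.isBounded_closedBall (x := (0 : ℂ)) (r := Real.sqrt M)).subset ?_
  intro w hw
  rw [mem_closedBall_zero_iff]
  have h := Real.sqrt_le_sqrt hw.2.2.1
  rwa [Complex.normSq_eq_norm_sq, Real.sqrt_sq (norm_nonneg _)] at h

theorem tileSet_subset_UH (M : ℝ) : tileSet M ⊆ UH := by
  intro w hw
  obtain ⟨h1, h2, -, h4⟩ := hw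
  show 0 < w.im
  rcases h4.lt_or_eq with h | h
  · exact h
  · exfalso
    rw [normSq_apply, ← h] at h2
    have : w.re * w.re ≤ 1 / 4 := by
      have := abs_le.mp h1
      nlinarith [this.1, this.2]
    linarith

theorem measurableSet_tileSet (M : ℝ) : MeasurableSet (tileSet M) :=
  (isClosed_tileSet M).measurableSet

theorem integrableOn_tileSet {G : ℂ → ℂ} (hG : ContinuousOn G UH) (M : ℝ) :
    IntegrableOn G (tileSet M) volume :=
  (hG.mono (tileSet_subset_UH M)).integrableOn_compact (isCompact_tileSet M)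

/-- the vertical slices of the tile. -/
theorem mem_tileSet_iff {M x y : ℝ} (hM : 1 ≤ M) :
    (x : ℂ) + (y : ℂ) * I ∈ tileSet M ↔
      x ∈ Icc (-1 / 2 : ℝ) (1 / 2) ∧ y ∈ Icc (Real.sqrt (1 - x ^ 2)) (Real.sqrt (M - x ^ 2)) := by
  have hre : ((x : ℂ) + (y : ℂ) * I).re = x := by simp
  have him : ((x : ℂ) + (y : ℂ) * I).im = y := by simp
  have hns : normSq ((x : ℂ) + (y : ℂ) * I) = x ^ 2 + y ^ 2 := by
    rw [normSq_apply, hre, him]; ring
  unfold tileSet
  simp only [mem_ofPred_eq, hre, him, hns, mem_Icc]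
  constructor
  · rintro ⟨h1, h2, h3, h4⟩
    have hx := abs_le.mp h1
    refine ⟨⟨by linarith [hx.1], hx.2⟩, ?_, ?_⟩
    · apply Real.sqrt_le_iff.mpr
      exact ⟨h4, by linarith⟩
    · apply Real.le_sqrt_of_sq_le
      linarith
  · rintro ⟨⟨hx1, hx2⟩, hy1, hy2⟩
    have hx2' : x ^ 2 ≤ 1 / 4 := by nlinarith
    have hy0 : 0 ≤ y := le_trans (Real.sqrt_nonneg _) hy1
    refine ⟨abs_le.mpr ⟨by linarith, hx2⟩, ?_, ?_, hy0⟩
    · have := (Real.sqrt_le_iff.mp hy1).2
      linarith
    · have h1 : y ^ 2 ≤ Real.sqrt (M - x ^ 2) ^ 2 := pow_le_pow_left₀ hy0 hy2 2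
      rw [Real.sq_sqrt (by linarith)] at h1
      linarith


theorem symm_apply_eq (x y : ℝ) :
    Complex.measurableEquivRealProd.symm (x, y) = (x : ℂ) + (y : ℂ) * I := by
  rw [Complex.measurableEquivRealProd_symm_apply]
  exact Complex.mk_eq_add_mul_I x y

/-- **Fubini on the tile.** -/
theorem setIntegral_tileSet {G : ℂ → ℂ} (hG : ContinuousOn G UH) {M : ℝ} (hM : 1 ≤ M) :
    ∫ w in tileSet M, G w = ∫ x in (-1 / 2 : ℝ)..(1 / 2),
      ∫ y in Real.sqrt (1 - x ^ 2)..Real.sqrt (M - x ^ 2), G ((x : ℂ) + (y : ℂ) * I) := by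
  have hint := integrableOn_tileSet hG M
  rw [← MeasureTheory.integral_indicator (measurableSet_tileSet M)]
  have hmp := Complex.volume_preserving_equiv_real_prod.symm
  have h1 : ∫ w, (tileSet M).indicator G w =
      ∫ p : ℝ × ℝ, (tileSet M).indicator G (Complex.measurableEquivRealProd.symm p) :=
    (hmp.integral_comp' ((tileSet M).indicator G)).symm
  have hI : Integrable (fun p : ℝ × ℝ =>
      (tileSet M).indicator G (Complex.measurableEquivRealProd.symm p)) (volume.prod volume) := by
    have h2 : Integrable ((tileSet M).indicator G) volume :=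
      (integrable_indicator_iff (measurableSet_tileSet M)).mpr hint
    have := (hmp.integrable_comp_emb Complex.measurableEquivRealProd.symm.measurableEmbedding).mpr h2
    rwa [Measure.volume_eq_prod] at this
  rw [h1, Measure.volume_eq_prod, integral_prod _ hI]
  -- the slices
  have hslice : ∀ x : ℝ,
      (∫ y : ℝ, (tileSet M).indicator G (Complex.measurableEquivRealProd.symm (x, y))) =
        (Icc (-1 / 2 : ℝ) (1 / 2)).indicator (fun x => ∫ y in
          Real.sqrt (1 - x ^ 2)..Real.sqrt (M - x ^ 2), G ((x : ℂ) + (y : ℂ) * I)) x := by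
    intro x
    by_cases hx : x ∈ Icc (-1 / 2 : ℝ) (1 / 2)
    · rw [indicator_of_mem hx]
      have hy01 : Real.sqrt (1 - x ^ 2) ≤ Real.sqrt (M - x ^ 2) :=
        Real.sqrt_le_sqrt (by linarith)
      have e : (fun y : ℝ => (tileSet M).indicator G (Complex.measurableEquivRealProd.symm (x, y)))
          = (Icc (Real.sqrt (1 - x ^ 2)) (Real.sqrt (M - x ^ 2))).indicator
            (fun y : ℝ => G ((x : ℂ) + (y : ℂ) * I)) := by
        funext y
        rw [symm_apply_eq]
        by_cases hy : y ∈ Icc (Real.sqrt (1 - x ^ 2)) (Real.sqrt (M - x ^ 2))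
        · rw [indicator_of_mem hy, indicator_of_mem ((mem_tileSet_iff hM).mpr ⟨hx, hy⟩)]
        · rw [indicator_of_notMem hy, indicator_of_notMem]
          intro hmem
          exact hy ((mem_tileSet_iff hM).mp hmem).2
      rw [e, MeasureTheory.integral_indicator measurableSet_Icc, integral_Icc_eq_integral_Ioc,
        ← intervalIntegral.integral_of_le hy01]
    · rw [indicator_of_notMem hx]
      have e : (fun y : ℝ => (tileSet M).indicator G (Complex.measurableEquivRealProd.symm (x, y)))
          = fun _ => 0 := by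
        funext y
        rw [symm_apply_eq, indicator_of_notMem]
        intro hmem
        exact hx ((mem_tileSet_iff hM).mp hmem).1
      rw [e, integral_zero]
  simp only [hslice]
  rw [MeasureTheory.integral_indicator measurableSet_Icc, integral_Icc_eq_integral_Ioc,
    ← intervalIntegral.integral_of_le (by norm_num)]

end Fermat.Agent.M17.TileSet3
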