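/-
Programme M17 (S17), block [LAT]/(RL), helper3: the tile integrals of (dR) as integrals over
the upper half plane `ℍ` for the hyperbolic volume:
`tileInt a b M g = ∫_ℍ 1_{tileSetH M}(g • z) · jacH a b z dμ(z)`, where
`jacH a b z = (im z)² · jacC (a ∘ ofComplex) (b ∘ ofComplex) z` is the (equivariant) density of
the 2-form `da ∧ db` with respect to the hyperbolic volume.
-/
import Mathlib
import Fermat.Agent.M17.TileSet3
import Fermat.Agent.M17.DegMoebius5
import Fermat.Agent.M17.DegMeasure5
import Fermat.Agent.ES.PET.SLMeasure12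
import Fermat.Agent.ES.PET.PartitionSL5

set_option autoImplicit false

open UpperHalfPlane hiding I
open Complex Set MeasureTheory
open scoped Interval Topology MatrixGroups

namespace Fermat.Agent.M17.TileHyp3

open Fermat.Agent.M17.Green3 Fermat.Agent.M17.Tile3 Fermat.Agent.M17.DR3
  Fermat.Agent.M17.TileStd3 Fermat.Agent.M17.TileSet3 Fermat.Agent.M17.DegMoebius5

/-- chain rule for the Jacobian under a holomorphic change of variables. -/
theorem jacC_comp {A B m : ℂ → ℂ} {w m' : ℂ} (hA : DifferentiableAt ℝ A (m w))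
    (hB : DifferentiableAt ℝ B (m w)) (hm : HasDerivAt m m' w) :
    jacC (A ∘ m) (B ∘ m) w = (normSq m' : ℂ) * jacC A B (m w) := by
  have hm' : HasFDerivAt m ((ContinuousLinearMap.toSpanSingleton ℂ m').restrictScalars ℝ) w :=
    hm.hasFDerivAt.restrictScalars ℝ
  have hcA : HasFDerivAt (A ∘ m)
      ((fderiv ℝ A (m w)).comp ((ContinuousLinearMap.toSpanSingleton ℂ m').restrictScalars ℝ)) w :=
    hA.hasFDerivAt.comp w hm'
  have hcB : HasFDerivAt (B ∘ m)
      ((fderiv ℝ B (m w)).comp ((ContinuousLinearMap.toSpanSingleton ℂ m').restrictScalars ℝ)) w :=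
    hB.hasFDerivAt.comp w hm'
  unfold jacC
  rw [hcA.fderiv, hcB.fderiv]
  simp only [ContinuousLinearMap.comp_apply, ContinuousLinearMap.coe_restrictScalars',
    ContinuousLinearMap.toSpanSingleton_apply, smul_eq_mul, one_mul]
  have h1 : ∀ L : ℂ →L[ℝ] ℂ, L m' = (m'.re : ℂ) * L 1 + (m'.im : ℂ) * L I := by
    intro L
    conv_lhs => rw [← Complex.re_add_im m']
    rw [map_add]
    congr 1
    · rw [show (m'.re : ℂ) = m'.re • (1 : ℂ) by simp, map_smul]; simp
    · rw [show (m'.im : ℂ) * I = m'.im • I by simp, map_smul]; simp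
  have h2 : ∀ L : ℂ →L[ℝ] ℂ, L (I * m') = -(m'.im : ℂ) * L 1 + (m'.re : ℂ) * L I := by
    intro L
    have : I * m' = (-m'.im) • (1 : ℂ) + m'.re • I := by
      apply Complex.ext <;> simp
    rw [this, map_add, map_smul, map_smul]
    simp
  rw [h1 (fderiv ℝ A (m w)), h1 (fderiv ℝ B (m w)), h2 (fderiv ℝ A (m w)),
    h2 (fderiv ℝ B (m w)), normSq_apply]
  push_cast
  ring

/-- the density of `da ∧ db` with respect to the hyperbolic volume. -/
noncomputable def jacH (a b : ℍ → ℂ) (z : ℍ) : ℂ :=
  ((z.im : ℂ)) ^ 2 * jacC (fun w => a (ofComplex w)) (fun w => b (ofComplex w)) (z : ℂ)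

theorem al_eq_comp_mob (a : ℍ → ℂ) (g : SL(2, ℤ)) :
    al a g = (fun w => a (ofComplex w)) ∘ mob g⁻¹ := by
  funext w
  show a (g⁻¹ • ofComplex w) = a (ofComplex (mob g⁻¹ w))
  unfold mob
  rw [ofComplex_apply]

theorem al_one (a : ℍ → ℂ) : al a 1 = fun w => a (ofComplex w) := by
  funext w
  show a ((1 : SL(2, ℤ))⁻¹ • ofComplex w) = _
  rw [inv_one, one_smul]

variable {a b : ℍ → ℂ}

/-- **Möbius invariance** of the density, general form. -/
theorem jacH_mob (hs : Smooth a b) (h : SL(2, ℤ)) (z : ℍ) :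
    ((z.im : ℂ)) ^ 2 * jacC ((fun w => a (ofComplex w)) ∘ mob h) ((fun w => b (ofComplex w)) ∘ mob h)
      (z : ℂ) = jacH a b (h • z) := by
  have hA1 : ContDiffOn ℝ 1 (fun w => a (ofComplex w)) UH := by
    have := hs.ha 1
    rwa [al_one] at this
  have hB1 : ContDiffOn ℝ 1 (fun w => b (ofComplex w)) UH := by
    have := (hs.hb 1).of_le (by norm_num : (1 : WithTop ℕ∞) ≤ 2)
    rwa [al_one] at this
  have hmob : mob h (z : ℂ) = ((h • z : ℍ) : ℂ) := mob_coe h z
  have hmem : mob h (z : ℂ) ∈ UH := by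
    rw [hmob]
    exact (h • z).im_pos
  have hdA : DifferentiableAt ℝ (fun w => a (ofComplex w)) (mob h (z : ℂ)) :=
    (hA1.contDiffAt (isOpen_UH.mem_nhds hmem)).differentiableAt one_ne_zero
  have hdB : DifferentiableAt ℝ (fun w => b (ofComplex w)) (mob h (z : ℂ)) :=
    (hB1.contDiffAt (isOpen_UH.mem_nhds hmem)).differentiableAt one_ne_zero
  rw [jacC_comp hdA hdB (hasDerivAt_mob h z), hmob]
  unfold jacH
  rw [← mul_assoc]
  congr 1
  -- `(im z)² |m'|² = (im (h z))²`
  have him : (h • z).im = z.im / normSq (denom h z) := ModularGroup.im_smul_eq_div_normSq h z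
  have hne : normSq (denom h z) ≠ 0 := by
    rw [Ne, normSq_eq_zero]
    exact denom_ne_zero _ z
  have hne' : ((normSq (denom h z) : ℝ) : ℂ) ≠ 0 := by exact_mod_cast hne
  rw [him, one_div, normSq_inv, map_pow]
  push_cast
  field_simp

/-- **Möbius invariance** of the density. -/
theorem jacH_smul (hs : Smooth a b) (g : SL(2, ℤ)) (z : ℍ) :
    ((z.im : ℂ)) ^ 2 * jacC (al a g) (al b g) (z : ℂ) = jacH a b (g⁻¹ • z) := by
  rw [al_eq_comp_mob a g, al_eq_comp_mob b g]
  exact jacH_mob hs g⁻¹ z


/-- the truncated standard fundamental domain in `ℍ`. -/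
def tileSetH (M : ℝ) : Set ℍ := {z | (z : ℂ) ∈ tileSet M}

theorem measurableSet_tileSetH (M : ℝ) : MeasurableSet (tileSetH M) :=
  (measurableSet_tileSet M).preimage UpperHalfPlane.measurable_coe

theorem continuousOn_jacC_al (hs : Smooth a b) (g : SL(2, ℤ)) :
    ContinuousOn (jacC (al a g) (al b g)) UH :=
  continuousOn_jacC (hs.ha g) ((hs.hb g).of_le (by norm_num))

/-- the integrand of a tile on `ℍ`. -/
theorem tile_integrand_eq (hs : Smooth a b) (M : ℝ) (g : SL(2, ℤ)) (z : ℍ) :
    ((z.im : ℂ)) ^ 2 * (tileSet M).indicator (jacC (al a g) (al b g)) (z : ℂ) =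
      (tileSetH M).indicator (fun z => jacH a b (g⁻¹ • z)) z := by
  by_cases hz : z ∈ tileSetH M
  · rw [indicator_of_mem hz, indicator_of_mem (show (z : ℂ) ∈ tileSet M from hz), jacH_smul hs]
  · rw [indicator_of_notMem hz, indicator_of_notMem (show (z : ℂ) ∉ tileSet M from hz), mul_zero]

theorem integrable_tile (hs : Smooth a b) (M : ℝ) (g : SL(2, ℤ)) :
    Integrable (fun z : ℍ => (tileSetH M).indicator (fun z => jacH a b (g⁻¹ • z)) z) := by
  have h1 : IntegrableOn (jacC (al a g) (al b g)) (tileSet M) volume :=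
    integrableOn_tileSet (continuousOn_jacC_al hs g) M
  have h2 : Integrable ((tileSet M).indicator (jacC (al a g) (al b g))) volume :=
    (integrable_indicator_iff (measurableSet_tileSet M)).mpr h1
  have h3 := Fermat.Agent.M17.DegMeasure5.integrable_UHP h2.integrableOn
  refine h3.congr (Filter.Eventually.of_forall (fun z => ?_))
  exact tile_integrand_eq hs M g z

/-- **a tile integral as an integral over `ℍ`** for the hyperbolic volume. -/
theorem tileInt_eq_integral_H (hs : Smooth a b) {M : ℝ} (hM : 1 ≤ M) (g : SL(2, ℤ)) :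
    tileInt a b M g = ∫ z : ℍ, (tileSetH M).indicator (fun z => jacH a b (g⁻¹ • z)) z := by
  have hG := continuousOn_jacC_al hs g
  rw [tileInt_eq_iterated hs hM g, ← setIntegral_tileSet hG hM]
  have h1 : ∫ w in tileSet M, jacC (al a g) (al b g) w =
      ∫ w in Fermat.Agent.M17.DegMeasure5.UH, (tileSet M).indicator (jacC (al a g) (al b g)) w := by
    rw [setIntegral_indicator (measurableSet_tileSet M)]
    congr 2
    exact (inter_eq_right.mpr (tileSet_subset_UH M)).symm
  rw [h1, ← Fermat.Agent.M17.DegMeasure5.integral_UHP]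
  exact integral_congr_ae (Filter.Eventually.of_forall (fun z => tile_integrand_eq hs M g z))

open Fermat.Agent.ES.PET.PartitionSL5 in
/-- the same, with the translation moved to the indicator (invariance of the volume). -/
theorem tileInt_eq_integral_H' (hs : Smooth a b) {M : ℝ} (hM : 1 ≤ M) (g : SL(2, ℤ)) :
    tileInt a b M g =
      ∫ z : ℍ, (tileSetH M).indicator (fun _ => (1 : ℂ)) (g • z) * jacH a b z := by
  rw [tileInt_eq_integral_H hs hM g]
  have hmp := measurePreserving_smul_SL g
  have hemb : MeasurableEmbedding (fun z : ℍ => g • z) :=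
    (MeasurableEquiv.smul g).measurableEmbedding
  rw [← hmp.integral_comp hemb]
  refine integral_congr_ae (Filter.Eventually.of_forall (fun z => ?_))
  show (tileSetH M).indicator (fun z => jacH a b (g⁻¹ • z)) (g • z) =
    (tileSetH M).indicator (fun _ => (1 : ℂ)) (g • z) * jacH a b z
  by_cases hz : g • z ∈ tileSetH M
  · rw [indicator_of_mem hz, indicator_of_mem hz, one_mul, inv_smul_smul]
  · rw [indicator_of_notMem hz, indicator_of_notMem hz, zero_mul]

open Fermat.Agent.ES.PET.PartitionSL5 in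
theorem integrable_tile' (hs : Smooth a b) (M : ℝ) (g : SL(2, ℤ)) :
    Integrable (fun z : ℍ => (tileSetH M).indicator (fun _ => (1 : ℂ)) (g • z) * jacH a b z) := by
  have h := integrable_tile hs M g
  have hmp := measurePreserving_smul_SL g
  have hemb : MeasurableEmbedding (fun z : ℍ => g • z) :=
    (MeasurableEquiv.smul g).measurableEmbedding
  have h2 := (hmp.integrable_comp_emb hemb).mpr h
  refine h2.congr (Filter.Eventually.of_forall (fun z => ?_))
  show (tileSetH M).indicator (fun z => jacH a b (g⁻¹ • z)) (g • z) =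
    (tileSetH M).indicator (fun _ => (1 : ℂ)) (g • z) * jacH a b z
  by_cases hz : g • z ∈ tileSetH M
  · rw [indicator_of_mem hz, indicator_of_mem hz, one_mul, inv_smul_smul]
  · rw [indicator_of_notMem hz, indicator_of_notMem hz, zero_mul]

/-- **the sum of the tile integrals over the cosets** as one integral over `ℍ`. -/
theorem sum_tileInt_eq_integral {Γ : Subgroup SL(2, ℤ)} [Fintype (SL(2, ℤ) ⧸ Γ)]
    (hs : Smooth a b) {M : ℝ} (hM : 1 ≤ M) :
    ∑ q : SL(2, ℤ) ⧸ Γ, tileInt a b M q.out =
      ∫ z : ℍ, (∑ q : SL(2, ℤ) ⧸ Γ, (tileSetH M).indicator (fun _ => (1 : ℂ)) (q.out • z)) *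
        jacH a b z := by
  simp only [Finset.sum_mul]
  rw [integral_finsetSum _ (fun q _ => integrable_tile' hs M q.out)]
  exact Finset.sum_congr rfl (fun q _ => tileInt_eq_integral_H' hs hM q.out)

end Fermat.Agent.M17.TileHyp3
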