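/-
Programme M17 (S17), block [LAT]/(RL), helper3: the sum of the tile integrals of (dR) in
the vocabulary of the tree's partition functions: if the density `jacH a b` vanishes above
height `M` in every tile then `∑_q tileInt a b M q.out = 2 · Ipart volume (wΓ Γ) (jacH a b)`,
hence `EC Γ x y = -4 · Ipart volume (wΓ Γ) (jacH a b) - 2 · (top line integrals)`.
-/
import Mathlib
import Fermat.Agent.M17.TileHyp3
import Fermat.Agent.M17.DRCup3
import Fermat.Agent.ES.PET.PartitionGamma5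

set_option autoImplicit false

open UpperHalfPlane hiding I
open Complex Set MeasureTheory
open scoped Interval Topology MatrixGroups Modular ENNReal

namespace Fermat.Agent.M17.TileGamma3

open Fermat.Agent.M17.Tile3 Fermat.Agent.M17.DR3 Fermat.Agent.M17.TileStd3
  Fermat.Agent.M17.TileSet3 Fermat.Agent.M17.TileHyp3
open Fermat.Agent.ES.PET.PartitionSL5 Fermat.Agent.ES.PET.PartitionGamma5
  Fermat.Agent.ES.PET.Unfold12

theorem mem_tileSetH_iff {M : ℝ} {z : ℍ} :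
    z ∈ tileSetH M ↔ z ∈ (𝒟 : Set ℍ) ∧ normSq (z : ℂ) ≤ M := by
  show (|(z : ℂ).re| ≤ 1 / 2 ∧ 1 ≤ normSq (z : ℂ) ∧ normSq (z : ℂ) ≤ M ∧ 0 ≤ (z : ℂ).im) ↔
    ((1 ≤ normSq (z : ℂ) ∧ |z.re| ≤ (1 : ℝ) / 2) ∧ normSq (z : ℂ) ≤ M)
  constructor
  · rintro ⟨h1, h2, h3, -⟩
    exact ⟨⟨h2, h1⟩, h3⟩
  · rintro ⟨⟨h2, h1⟩, h3⟩
    exact ⟨h1, h2, h3, z.im_pos.le⟩

/-- off the exceptional null set, under the support condition, the indicator of a truncated
tile is twice the tree's partition function. -/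
theorem indicator_eq_w0 {M : ℝ} {z : ℍ} (hz : z ∉ excSet) (g : SL(2, ℤ))
    (hM : g • z ∈ (𝒟 : Set ℍ) → normSq ((g • z : ℍ) : ℂ) ≤ M) :
    (tileSetH M).indicator (fun _ => (1 : ℂ)) (g • z) = 2 * ((w0 (g • z)).toReal : ℂ) := by
  have hexc : g • z ∈ (𝒟 : Set ℍ) → g • z ∈ (𝒟ᵒ : Set ℍ) := by
    intro h
    by_contra hcon
    exact hz (mem_iUnion.mpr ⟨g, ⟨h, hcon⟩⟩)
  by_cases h : g • z ∈ (𝒟 : Set ℍ)
  · have h1 : g • z ∈ tileSetH M := mem_tileSetH_iff.mpr ⟨h, hM h⟩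
    rw [indicator_of_mem h1]
    unfold w0
    rw [indicator_of_mem (hexc h)]
    simp
  · have h1 : g • z ∉ tileSetH M := fun hmem => h (mem_tileSetH_iff.mp hmem).1
    have h2 : g • z ∉ (𝒟ᵒ : Set ℍ) := fun hmem => h (ModularGroup.fdo_subset_fd hmem)
    rw [indicator_of_notMem h1]
    unfold w0
    rw [indicator_of_notMem h2]
    simp

variable {a b : ℍ → ℂ} (Γ : Subgroup SL(2, ℤ)) [Γ.FiniteIndex]

/-- **the sum of the tile integrals as a partition integral.** -/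
theorem sum_tileInt_eq_ipart [Fintype (SL(2, ℤ) ⧸ Γ)] (hs : Smooth a b) {M : ℝ} (hM : 1 ≤ M)
    (hsupp : ∀ z : ℍ, jacH a b z ≠ 0 → ∀ g : SL(2, ℤ), g • z ∈ (𝒟 : Set ℍ) →
      normSq ((g • z : ℍ) : ℂ) ≤ M) :
    ∑ q : SL(2, ℤ) ⧸ Γ, tileInt a b M q.out = 2 * Ipart volume (wΓ Γ) (jacH a b) := by
  rw [sum_tileInt_eq_integral hs hM]
  unfold Ipart
  rw [← integral_const_mul]
  refine integral_congr_ae ?_
  filter_upwards [ae_notMem_excSet] with z hz
  by_cases h0 : jacH a b z = 0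
  · rw [h0, mul_zero, mul_zero, mul_zero]
  · have h1 : ∀ q : SL(2, ℤ) ⧸ Γ, (tileSetH M).indicator (fun _ => (1 : ℂ)) (q.out • z) =
        2 * ((w0 (q.out • z)).toReal : ℂ) := fun q =>
      indicator_eq_w0 hz q.out (hsupp z h0 q.out)
    simp only [h1]
    rw [← Finset.mul_sum, mul_assoc]
    congr 2
    -- the sum of the weights is `wΓ`
    unfold wc
    rw [wΓ_apply]
    have hfin : ∀ q : SL(2, ℤ) ⧸ Γ, w0 (q.out • z) ≠ ∞ := by
      intro q
      unfold w0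
      by_cases hq : q.out • z ∈ (𝒟ᵒ : Set ℍ)
      · rw [indicator_of_mem hq]; simp
      · rw [indicator_of_notMem hq]; simp
    have e : (inferInstance : Fintype (SL(2, ℤ) ⧸ Γ)) = Subgroup.fintypeQuotientOfFiniteIndex :=
      Subsingleton.elim _ _
    rw [ENNReal.toReal_sum (fun q _ => hfin q)]
    push_cast
    congr 1
    exact congrArg (fun i => @Finset.univ _ i) e


open Fermat.Agent.M17.PathFun3 Fermat.Agent.M17.Paths3 Fermat.Agent.M17.RiemannSymmetric2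
  Fermat.Agent.ES.I2.DegAdj3 ModularCurve.Period MulAction Subgroup Function in
/-- **(dR) in the partition vocabulary**: for parabolic `x, y`, smooth `a, b` with these periods
and density `jacH a b` vanishing above height `M` in every tile,
`EC Γ x y = -4 · Ipart volume (wΓ Γ) (jacH a b) - 2 · (top line integrals at level M)`. -/
theorem EC_eq_ipart [Fintype (SL(2, ℤ) ⧸ Γ)] (x y : ↥(parabolicHoms ℂ Γ ℂ))
    (ha : ∀ (γ : Γ) (z : ℍ), a ((γ : SL(2, ℤ)) • z) = a z + fn (x : Additive Γ →+ ℂ) γ)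
    (hb : ∀ (γ : Γ) (z : ℍ), b ((γ : SL(2, ℤ)) • z) = b z + fn (y : Additive Γ →+ ℂ) γ)
    (hs : Smooth a b) {M : ℝ} (hM : 1 ≤ M)
    (hsupp : ∀ z : ℍ, jacH a b z ≠ 0 → ∀ g : SL(2, ℤ), g • z ∈ (𝒟 : Set ℍ) →
      normSq ((g • z : ℍ) : ℂ) ≤ M) :
    EC Γ x y = -4 * Ipart volume (wΓ Γ) (jacH a b) - 2 *
      ∑ q : orbitRel.Quotient (zpowers (ModularGroup.T : SL(2, ℤ))) (SL(2, ℤ) ⧸ Γ),
        ∑ k ∈ Finset.range (minimalPeriod ((ModularGroup.T : SL(2, ℤ)) • ·) q.out),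
          lineIntH a b (fun t => ((ModularGroup.T : SL(2, ℤ)) ^ k * q.out.out)⁻¹ • hor M t)
            (-1 / 2) (1 / 2) := by
  rw [Fermat.Agent.M17.DRCup3.EC_eq_tile Γ x y ha hb hs hM, sum_tileInt_eq_ipart Γ hs hM hsupp]
  ring

/-- the Jacobian when the first function is holomorphic: `jacC A B = -i A' · 2∂̄B`. -/
theorem jacC_of_hasDerivAt {A B : ℂ → ℂ} {w A' : ℂ} (hA : HasDerivAt A A' w) :
    jacC A B w = -I * A' * Fermat.Agent.M17.CauchyPompeiu5.dbar2 B w := by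
  have h := (hA.hasFDerivAt.restrictScalars ℝ).fderiv
  unfold jacC Fermat.Agent.M17.CauchyPompeiu5.dbar2
  rw [h]
  simp only [ContinuousLinearMap.coe_restrictScalars', ContinuousLinearMap.toSpanSingleton_apply,
    smul_eq_mul, one_mul]
  ring_nf
  rw [I_sq]
  ring

/-- the density for `a = prim f`, `f` a weight 2 cusp form:
`jacH (prim f) b z = -i (im z)² f(z) · 2∂̄(b ∘ ofComplex)(z)`. -/
theorem jacH_prim {N : ℕ} [NeZero N] (f : CuspForm (CongruenceSubgroup.Gamma0 N) 2) (b : ℍ → ℂ)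
    (z : ℍ) :
    jacH (Fermat.Agent.S21.Primitive.prim f) b z =
      -I * ((z.im : ℂ)) ^ 2 * f z *
        Fermat.Agent.M17.CauchyPompeiu5.dbar2 (fun w => b (ofComplex w)) (z : ℂ) := by
  unfold jacH
  have h : HasDerivAt (fun w => Fermat.Agent.S21.Primitive.prim f (ofComplex w)) (f z) (z : ℂ) :=
    Fermat.Agent.S21.Primitive.prim_hasDerivAt f z
  rw [jacC_of_hasDerivAt h]
  ring

end Fermat.Agent.M17.TileGamma3
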