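/-
Programme M17 (S17), block [LAT]/(RL), helper3: the top line integrals of (dR) tend to `0`
for a general pair `(a, b)`: `a` bounded near every cusp, the real derivative of `b` small near
every cusp.  Consequence: the limit form of (dR),
`EC Γ x y = -4 · Ipart volume (wΓ Γ) (jacH a b)`.
-/
import Mathlib
import Fermat.Agent.M17.TopArc3
import Fermat.Agent.M17.TileGamma3

set_option autoImplicit false

open UpperHalfPlane hiding I
open Complex Filter Set MeasureTheory MulAction Subgroup Function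
open scoped MatrixGroups Topology Interval Modular

namespace Fermat.Agent.M17.TopArcGen3

open Fermat.Agent.M17.Green3 Fermat.Agent.M17.Tile3 Fermat.Agent.M17.DR3
  Fermat.Agent.M17.PathFun3 Fermat.Agent.M17.Paths3 Fermat.Agent.M17.TopArc3
  Fermat.Agent.M17.TileStd3 Fermat.Agent.M17.TileHyp3 Fermat.Agent.M17.TileGamma3

local notation "T" => (ModularGroup.T : SL(2, ℤ))

variable {a b : ℍ → ℂ}

/-- `a` is bounded near the cusp of the tile of `g`. -/
def BoundedAtCusp (a : ℍ → ℂ) (g : SL(2, ℤ)) : Prop :=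
  ∃ C Y : ℝ, ∀ w : ℂ, 0 < w.im → Y ≤ w.im → ‖al a g w‖ ≤ C

/-- the real derivative of `b` is small near the cusp of the tile of `g`. -/
def SmallDerivAtCusp (b : ℍ → ℂ) (g : SL(2, ℤ)) : Prop :=
  ∀ ε : ℝ, 0 < ε → ∃ Y : ℝ, ∀ w : ℂ, 0 < w.im → Y ≤ w.im → ‖fderiv ℝ (al b g) w‖ ≤ ε

/-- derivative of `b` along a top arc. -/
theorem hasDerivAt_al_top {g : SL(2, ℤ)} {x s : ℝ} (hp : (x, s) ∈ dom)
    (hb : DifferentiableAt ℝ (al b g) (Phi (x, s))) :
    HasDerivAt (fun x' : ℝ => al b g (Phi (x', s)))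
      (fderiv ℝ (al b g) (Phi (x, s)) (1 + ((-x / Real.sqrt (s - x ^ 2) : ℝ) : ℂ) * I)) x := by
  have h1 := Fermat.Agent.M17.PrimSmooth3.hasDerivAt_Phi_fst hp
  have h2 : HasFDerivAt (al b g) (fderiv ℝ (al b g) (Phi (x, s)))
      ((fun x' : ℝ => Phi (x', s)) x) := hb.hasFDerivAt
  exact h2.comp_hasDerivAt x h1

/-- **a top line integral tends to `0`.** -/
theorem tendsto_lineIntH_top (hs : Smooth a b) (g : SL(2, ℤ)) (ha : BoundedAtCusp a g)
    (hb : SmallDerivAtCusp b g) :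
    Tendsto (fun M : ℝ => lineIntH a b (fun t => g⁻¹ • hor M t) (-1 / 2) (1 / 2)) atTop (𝓝 0) := by
  obtain ⟨C₀, Y₁, hC₀⟩ := ha
  set C : ℝ := max C₀ 0 with hC
  have hC0 : 0 ≤ C := le_max_right _ _
  rw [Metric.tendsto_atTop]
  intro ε hε
  have hε' : 0 < ε / (4 * (C + 1)) := by positivity
  obtain ⟨Y₂, hY₂⟩ := hb _ hε'
  refine ⟨max 1 (max (Y₁ ^ 2 + 1) (Y₂ ^ 2 + 1)), fun M hM => ?_⟩
  have hM1 : 1 ≤ M := le_trans (le_max_left _ _) hM
  have hMY₁ : Y₁ ^ 2 + 1 ≤ M := le_trans (le_trans (le_max_left _ _) (le_max_right _ _)) hM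
  have hMY₂ : Y₂ ^ 2 + 1 ≤ M := le_trans (le_trans (le_max_right _ _) (le_max_right _ _)) hM
  have him : ∀ t ∈ Icc (-1 / 2 : ℝ) (1 / 2), 0 < (Phi (t, M)).im ∧ Y₁ ≤ (Phi (t, M)).im ∧
      Y₂ ≤ (Phi (t, M)).im := by
    intro t ht
    have ht2 : t ^ 2 ≤ 1 / 4 := by nlinarith [ht.1, ht.2]
    rw [Phi_im]
    refine ⟨Real.sqrt_pos.2 (by show 0 < M - t ^ 2; linarith), ?_, ?_⟩
    · refine le_trans (le_abs_self _) (Real.abs_le_sqrt ?_)
      show Y₁ ^ 2 ≤ M - t ^ 2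
      linarith
    · refine le_trans (le_abs_self _) (Real.abs_le_sqrt ?_)
      show Y₂ ^ 2 ≤ M - t ^ 2
      linarith
  rw [dist_zero_right]
  unfold lineIntH
  have h := intervalIntegral.norm_integral_le_of_norm_le_const (a := (-1 / 2 : ℝ)) (b := 1 / 2)
    (C := C * (2 * (ε / (4 * (C + 1)))))
    (f := fun t => a (g⁻¹ • hor M t) * deriv (fun t => b (g⁻¹ • hor M t)) t) ?_
  · have e : |(1 / 2 : ℝ) - (-1 / 2)| = 1 := by norm_num
    rw [e, mul_one] at h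
    refine lt_of_le_of_lt h ?_
    have hC1 : 0 < C + 1 := by linarith
    have e2 : C * (2 * (ε / (4 * (C + 1)))) = ε * (C / (2 * (C + 1))) := by
      field_simp
      ring
    rw [e2]
    have : C / (2 * (C + 1)) < 1 := by
      rw [div_lt_one (by positivity)]
      linarith
    calc ε * (C / (2 * (C + 1))) < ε * 1 := mul_lt_mul_of_pos_left this hε
      _ = ε := mul_one ε
  · intro t ht
    rw [uIoc_of_le (by norm_num)] at ht
    have ht' : t ∈ Icc (-1 / 2 : ℝ) (1 / 2) := ⟨ht.1.le, ht.2⟩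
    have hp : (t, M) ∈ dom := mem_dom_of ht'.1 ht'.2 hM1
    have hmem : Phi (t, M) ∈ UH := Phi_mem_UH hp
    have hdb : DifferentiableAt ℝ (al b g) (Phi (t, M)) :=
      ((hs.hb g).contDiffAt (isOpen_UH.mem_nhds hmem)).differentiableAt (by norm_num)
    have hd : deriv (fun t => b (g⁻¹ • hor M t)) t =
        fderiv ℝ (al b g) (Phi (t, M)) (1 + ((-t / Real.sqrt (M - t ^ 2) : ℝ) : ℂ) * I) :=
      (hasDerivAt_al_top hp hdb).deriv
    rw [hd, norm_mul]
    have h1 : ‖a (g⁻¹ • hor M t)‖ ≤ C :=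
      le_trans (hC₀ _ (him t ht').1 (him t ht').2.1) (le_max_left _ _)
    have h2 := norm_speed_le ht' hM1
    have h3 := hY₂ _ (him t ht').1 (him t ht').2.2
    have h4 : ‖fderiv ℝ (al b g) (Phi (t, M)) (1 + ((-t / Real.sqrt (M - t ^ 2) : ℝ) : ℂ) * I)‖ ≤
        2 * (ε / (4 * (C + 1))) := by
      calc _ ≤ ‖fderiv ℝ (al b g) (Phi (t, M))‖ *
            ‖(1 + ((-t / Real.sqrt (M - t ^ 2) : ℝ) : ℂ) * I)‖ :=
            ContinuousLinearMap.le_opNorm _ _
        _ ≤ (ε / (4 * (C + 1))) * 2 := mul_le_mul h3 h2 (norm_nonneg _) hε'.le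
        _ = 2 * (ε / (4 * (C + 1))) := by ring
    exact mul_le_mul h1 h4 (norm_nonneg _) hC0


open Fermat.Agent.M17.RiemannSymmetric2 Fermat.Agent.ES.I2.DegAdj3 ModularCurve.Period
  Fermat.Agent.ES.PET.PartitionGamma5 Fermat.Agent.ES.PET.Unfold12 in
/-- **(dR), limit form**: parabolic `x, y`; smooth `a, b` with these periods; the density
`jacH a b` vanishes above some height in every tile; `a` bounded and `db` small near every cusp.
Then `EC Γ x y = -4 · Ipart volume (wΓ Γ) (jacH a b)`. -/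
theorem EC_eq_ipart_limit (Γ : Subgroup SL(2, ℤ)) [Γ.FiniteIndex] [Fintype (SL(2, ℤ) ⧸ Γ)]
    (x y : ↥(parabolicHoms ℂ Γ ℂ))
    (ha : ∀ (γ : Γ) (z : ℍ), a ((γ : SL(2, ℤ)) • z) = a z + fn (x : Additive Γ →+ ℂ) γ)
    (hb : ∀ (γ : Γ) (z : ℍ), b ((γ : SL(2, ℤ)) • z) = b z + fn (y : Additive Γ →+ ℂ) γ)
    (hs : Smooth a b) {M₀ : ℝ} (hM₀ : 1 ≤ M₀)
    (hsupp : ∀ z : ℍ, jacH a b z ≠ 0 → ∀ g : SL(2, ℤ), g • z ∈ (𝒟 : Set ℍ) →
      normSq ((g • z : ℍ) : ℂ) ≤ M₀)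
    (hca : ∀ g : SL(2, ℤ), BoundedAtCusp a g) (hcb : ∀ g : SL(2, ℤ), SmallDerivAtCusp b g) :
    EC Γ x y = -4 * Ipart volume (wΓ Γ) (jacH a b) := by
  set top : ℝ → ℂ := fun M =>
    ∑ q : orbitRel.Quotient (zpowers T) (SL(2, ℤ) ⧸ Γ),
      ∑ k ∈ Finset.range (minimalPeriod (T • ·) q.out),
        lineIntH a b (fun t => (T ^ k * q.out.out)⁻¹ • hor M t) (-1 / 2) (1 / 2) with htop
  have h0 : Tendsto top atTop (𝓝 0) := by
    have : (0 : ℂ) = ∑ q : orbitRel.Quotient (zpowers T) (SL(2, ℤ) ⧸ Γ),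
        ∑ k ∈ Finset.range (minimalPeriod (T • ·) q.out), (0 : ℂ) := by simp
    rw [this]
    exact tendsto_finsetSum _ (fun q _ => tendsto_finsetSum _ (fun k _ =>
      tendsto_lineIntH_top hs (T ^ k * q.out.out) (hca _) (hcb _)))
  have h1 : ∀ᶠ M in atTop, EC Γ x y + 4 * Ipart volume (wΓ Γ) (jacH a b) = -2 * top M := by
    filter_upwards [eventually_ge_atTop M₀] with M hM
    have := EC_eq_ipart Γ x y ha hb hs (hM₀.trans hM)
      (fun z hz g hg => (hsupp z hz g hg).trans hM)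
    rw [this]
    simp only [htop]
    ring
  have h2 : Tendsto (fun M => -2 * top M) atTop (𝓝 (-2 * 0)) := h0.const_mul (-2)
  rw [mul_zero] at h2
  have h3 : Tendsto (fun _ : ℝ => EC Γ x y + 4 * Ipart volume (wΓ Γ) (jacH a b)) atTop (𝓝 0) :=
    h2.congr' (h1.mono (fun M hM => hM.symm))
  have h4 := tendsto_nhds_unique tendsto_const_nhds h3
  linear_combination h4


/-- the primitive of a weight 2 cusp form is bounded near every cusp. -/
theorem boundedAtCusp_prim {N : ℕ} [NeZero N] (f : CuspForm (CongruenceSubgroup.Gamma0 N) 2)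
    (g : SL(2, ℤ)) : BoundedAtCusp (Fermat.Agent.S21.Primitive.prim f) g := by
  obtain ⟨C, Y, -, h⟩ := exists_bound_al f g
  exact ⟨C, Y, h⟩

/-- a function whose transport to the tile of `g` is holomorphic near the cusp, with complex
derivative tending to `0`, has small real derivative at the cusp. -/
theorem smallDerivAtCusp_of_hasDerivAt {b : ℍ → ℂ} {g : SL(2, ℤ)} {B' : ℂ → ℂ} {Y₀ : ℝ}
    (hder : ∀ w : ℂ, 0 < w.im → Y₀ ≤ w.im → HasDerivAt (al b g) (B' w) w)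
    (hsmall : ∀ ε : ℝ, 0 < ε → ∃ Y : ℝ, ∀ w : ℂ, 0 < w.im → Y ≤ w.im → ‖B' w‖ ≤ ε) :
    SmallDerivAtCusp b g := by
  intro ε hε
  obtain ⟨Y, hY⟩ := hsmall ε hε
  refine ⟨max Y Y₀, fun w hw hYw => ?_⟩
  have h1 := hder w hw ((le_max_right _ _).trans hYw)
  have h2 := hY w hw ((le_max_left _ _).trans hYw)
  have h3 := (h1.hasFDerivAt.restrictScalars ℝ).fderiv
  rw [h3, ContinuousLinearMap.norm_restrictScalars]
  refine le_trans ?_ h2
  rw [ContinuousLinearMap.norm_toSpanSingleton]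

end Fermat.Agent.M17.TopArcGen3
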