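/-
Programme M17 (S17), helper3: PET=CUP in integral form, sesquilinear, in the tree's Petersson
form: `EC (per f) (conj per h) = 8 i · petB N 2 h f`
(`petB N 2 h f = ∫ wΓ · conj h · f · y² dμ_hyp`).
-/
import Mathlib
import Fermat.Agent.M17.TopArcGen3
import Fermat.Agent.M17.PetCup3
import Fermat.Agent.ES.PET.PetGamma10
import Fermat.Agent.M17.Interfaces7

set_option autoImplicit false

open UpperHalfPlane hiding I
open Complex CongruenceSubgroup Filter Set MeasureTheory MulAction Subgroup Function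
open scoped MatrixGroups ModularForm Topology ComplexConjugate Interval Modular

namespace Fermat.Agent.M17.PetInt3

open Fermat.Agent.M17.Green3 Fermat.Agent.M17.Tile3 Fermat.Agent.M17.DR3
  Fermat.Agent.M17.PathFun3 Fermat.Agent.M17.Paths3 Fermat.Agent.M17.PrimSmooth3
  Fermat.Agent.M17.TopArc3 Fermat.Agent.M17.TopArcGen3 Fermat.Agent.M17.TileStd3
  Fermat.Agent.M17.TileHyp3 Fermat.Agent.M17.TileGamma3 Fermat.Agent.M17.RiemannSymmetric2
open Fermat.Agent.S21.Primitive Fermat.Agent.ES.I2.DegAdj3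
open ModularCurve ModularCurve.Period

local notation "T" => (ModularGroup.T : SL(2, ℤ))

variable {N : ℕ} [NeZero N]

/-- `2∂̄` of the conjugate of a holomorphic function. -/
theorem dbar2_conj {H : ℂ → ℂ} {w H' : ℂ} (hH : HasDerivAt H H' w) :
    Fermat.Agent.M17.CauchyPompeiu5.dbar2 (fun w => conj (H w)) w = 2 * conj H' := by
  have h1 : HasFDerivAt H ((ContinuousLinearMap.toSpanSingleton ℂ H').restrictScalars ℝ) w :=
    hH.hasFDerivAt.restrictScalars ℝ
  have h2 : HasFDerivAt (fun w => conj (H w))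
      ((Complex.conjCLE : ℂ →L[ℝ] ℂ).comp
        ((ContinuousLinearMap.toSpanSingleton ℂ H').restrictScalars ℝ)) w :=
    (Complex.conjCLE : ℂ →L[ℝ] ℂ).hasFDerivAt.comp w h1
  unfold Fermat.Agent.M17.CauchyPompeiu5.dbar2
  rw [h2.fderiv]
  simp only [ContinuousLinearMap.comp_apply, ContinuousLinearMap.coe_restrictScalars',
    ContinuousLinearMap.toSpanSingleton_apply, smul_eq_mul, one_mul, ContinuousLinearEquiv.coe_coe,
    Complex.conjCLE_apply, map_mul, conj_I]
  ring_nf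
  rw [I_sq]
  ring

/-- the density of `d(prim f) ∧ d(conj prim h)` is `-2i` times the Petersson function. -/
theorem jacH_prim_conj (f h : CuspForm (Gamma0 N) 2) (z : ℍ) :
    jacH (prim f) (fun z => conj (prim h z)) z =
      -2 * I * UpperHalfPlane.petersson 2 (h : ℍ → ℂ) (f : ℍ → ℂ) z := by
  rw [jacH_prim]
  have hd : HasDerivAt (fun w => prim h (ofComplex w)) (h z) (z : ℂ) := prim_hasDerivAt h z
  rw [dbar2_conj hd]
  unfold UpperHalfPlane.petersson
  rw [zpow_ofNat]
  ring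


/-- `conj ∘ prim h` has small derivative near every cusp. -/
theorem smallDerivAtCusp_conj_prim (h : CuspForm (Gamma0 N) 2) (g : SL(2, ℤ)) :
    SmallDerivAtCusp (fun z => conj (prim h z)) g := by
  intro ε hε
  obtain ⟨Y, hY⟩ := exists_small_Fg h g hε
  refine ⟨Y, fun w hw hYw => ?_⟩
  have h1 := hasDerivAt_al h g (show w ∈ UH from hw)
  have h2 : HasFDerivAt (al (prim h) g)
      ((ContinuousLinearMap.toSpanSingleton ℂ (Fg h g w)).restrictScalars ℝ) w :=
    h1.hasFDerivAt.restrictScalars ℝ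
  have h3 : HasFDerivAt (al (fun z => conj (prim h z)) g)
      ((Complex.conjCLE : ℂ →L[ℝ] ℂ).comp
        ((ContinuousLinearMap.toSpanSingleton ℂ (Fg h g w)).restrictScalars ℝ)) w := by
    rw [al_conj]
    exact (Complex.conjCLE : ℂ →L[ℝ] ℂ).hasFDerivAt.comp w h2
  rw [h3.fderiv]
  refine le_trans (ContinuousLinearMap.opNorm_comp_le _ _) ?_
  have e1 : ‖(Complex.conjCLE : ℂ →L[ℝ] ℂ)‖ = 1 := Complex.conjCLE_norm
  rw [e1, one_mul, ContinuousLinearMap.norm_restrictScalars,
    ContinuousLinearMap.norm_toSpanSingleton]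
  exact hY w hw hYw


open Fermat.Agent.ES.PET.PartitionSL5 Fermat.Agent.ES.PET.PartitionGamma5
  Fermat.Agent.ES.PET.PetGamma10 Fermat.Agent.ES.PET.PetForm10

section Weights

variable (Γ : Subgroup SL(2, ℤ)) [Fintype (SL(2, ℤ) ⧸ Γ)]

/-- the number of truncated tiles containing `z`. -/
noncomputable def Wtr (M : ℝ) (z : ℍ) : ℝ :=
  ∑ q : SL(2, ℤ) ⧸ Γ, (tileSetH M).indicator (fun _ => (1 : ℝ)) (q.out • z)

/-- the number of tiles containing `z`. -/
noncomputable def Wfd (z : ℍ) : ℝ :=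
  ∑ q : SL(2, ℤ) ⧸ Γ, (𝒟 : Set ℍ).indicator (fun _ => (1 : ℝ)) (q.out • z)

theorem Wtr_nonneg (M : ℝ) (z : ℍ) : 0 ≤ Wtr Γ M z :=
  Finset.sum_nonneg (fun _ _ => indicator_nonneg (fun _ _ => zero_le_one) _)

theorem Wtr_le_Wfd (M : ℝ) (z : ℍ) : Wtr Γ M z ≤ Wfd Γ z := by
  refine Finset.sum_le_sum (fun q _ => ?_)
  refine indicator_le_indicator_of_subset (fun w hw => (mem_tileSetH_iff.mp hw).1)
    (fun _ => zero_le_one) _

theorem eventually_Wtr_eq (z : ℍ) : ∀ᶠ M in atTop, Wtr Γ M z = Wfd Γ z := by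
  have hbd : ∃ B : ℝ, ∀ q : SL(2, ℤ) ⧸ Γ, normSq ((q.out • z : ℍ) : ℂ) ≤ B := by
    refine ⟨∑ q : SL(2, ℤ) ⧸ Γ, normSq ((q.out • z : ℍ) : ℂ), fun q => ?_⟩
    exact Finset.single_le_sum (f := fun q : SL(2, ℤ) ⧸ Γ => normSq ((q.out • z : ℍ) : ℂ))
      (fun _ _ => normSq_nonneg _) (Finset.mem_univ q)
  obtain ⟨B, hB⟩ := hbd
  filter_upwards [eventually_ge_atTop B] with M hM
  refine Finset.sum_congr rfl (fun q _ => ?_)
  by_cases hq : q.out • z ∈ (𝒟 : Set ℍ)
  · rw [indicator_of_mem hq, indicator_of_mem (mem_tileSetH_iff.mpr ⟨hq, (hB q).trans hM⟩)]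
  · rw [indicator_of_notMem hq, indicator_of_notMem (fun h => hq (mem_tileSetH_iff.mp h).1)]

theorem measurable_Wtr (M : ℝ) : Measurable (Wtr Γ M) := by
  refine Finset.measurable_sum _ (fun q _ => ?_)
  exact (measurable_const.indicator (measurableSet_tileSetH M)).comp (measurable_smul_SL q.out)

theorem coe_Wtr (M : ℝ) (z : ℍ) :
    ((Wtr Γ M z : ℝ) : ℂ) =
      ∑ q : SL(2, ℤ) ⧸ Γ, (tileSetH M).indicator (fun _ => (1 : ℂ)) (q.out • z) := by
  unfold Wtr
  push_cast
  refine Finset.sum_congr rfl (fun q _ => ?_)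
  by_cases hq : q.out • z ∈ tileSetH M
  · rw [indicator_of_mem hq, indicator_of_mem hq]; simp
  · rw [indicator_of_notMem hq, indicator_of_notMem hq]; simp

end Weights

/-- off the exceptional null set, the number of tiles containing `z` is `2 wR z`. -/
theorem Wfd_eq_wR {z : ℍ} (hz : z ∉ excSet) [Fintype (SL(2, ℤ) ⧸ Gamma0 N)] :
    Wfd (Gamma0 N) z = 2 * wR N z := by
  unfold Wfd wR
  rw [wΓ_apply]
  have hfin : ∀ q : SL(2, ℤ) ⧸ Gamma0 N, w0 (q.out • z) ≠ ⊤ := by
    intro q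
    unfold w0
    by_cases hq : q.out • z ∈ (𝒟ᵒ : Set ℍ)
    · rw [indicator_of_mem hq]; simp
    · rw [indicator_of_notMem hq]; simp
  have e : (inferInstance : Fintype (SL(2, ℤ) ⧸ Gamma0 N)) =
      Subgroup.fintypeQuotientOfFiniteIndex := Subsingleton.elim _ _
  rw [ENNReal.toReal_sum (fun q _ => hfin q), Finset.mul_sum]
  have h1 : ∀ q : SL(2, ℤ) ⧸ Gamma0 N, (𝒟 : Set ℍ).indicator (fun _ => (1 : ℝ)) (q.out • z) =
      2 * (w0 (q.out • z)).toReal := by
    intro q
    have hexc : q.out • z ∈ (𝒟 : Set ℍ) → q.out • z ∈ (𝒟ᵒ : Set ℍ) := by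
      intro h
      by_contra hcon
      exact hz (mem_iUnion.mpr ⟨q.out, ⟨h, hcon⟩⟩)
    unfold w0
    by_cases h : q.out • z ∈ (𝒟 : Set ℍ)
    · rw [indicator_of_mem h, indicator_of_mem (hexc h)]
      simp
    · rw [indicator_of_notMem h,
        indicator_of_notMem (fun hmem => h (ModularGroup.fdo_subset_fd hmem))]
      simp
  simp only [h1]
  exact congrArg (fun i => ∑ q ∈ @Finset.univ _ i, 2 * (w0 (Quotient.out q • z)).toReal) e


/-- **PET=CUP, integral form**: the complex cusp pairing of `per f` and `conj per h` is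
`8 i` times the Petersson product `⟨h, f⟩ = ∫ wΓ · conj h · f · y² dμ`. -/
theorem EC_perC_conj_eq_petB (f h : CuspForm (Gamma0 N) 2) :
    EC (Gamma0 N) (perC N f) (conjPar (Gamma0 N) (perC N h)) = 8 * I * petB N 2 h f := by
  have hft : Fintype (SL(2, ℤ) ⧸ Gamma0 N) := Fintype.ofFinite _
  have ha : ∀ (γ : Gamma0 N) (z : ℍ), prim f ((γ : SL(2, ℤ)) • z) =
      prim f z + fn ((perC N f : ↥(parabolicHoms ℂ (Gamma0 N) ℂ)) : Additive (Gamma0 N) →+ ℂ) γ := by
    intro γ z
    have := periodMap_apply_prim f γ z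
    show _ = _ + periodMap N f (Additive.ofMul γ)
    rw [this]
    ring
  have hb : ∀ (γ : Gamma0 N) (z : ℍ), (fun z => conj (prim h z)) ((γ : SL(2, ℤ)) • z) =
      (fun z => conj (prim h z)) z + fn ((conjPar (Gamma0 N) (perC N h) :
        ↥(parabolicHoms ℂ (Gamma0 N) ℂ)) : Additive (Gamma0 N) →+ ℂ) γ := by
    intro γ z
    show conj (prim h ((γ : SL(2, ℤ)) • z)) = conj (prim h z) +
      conj (periodMap N h (Additive.ofMul γ))
    rw [periodMap_apply_prim h γ z, map_sub]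
    ring
  have hs := smooth_prim f h
  set J : ℍ → ℂ := jacH (prim f) (fun z => conj (prim h z)) with hJdef
  have hJ : ∀ z, J z = -2 * I * UpperHalfPlane.petersson 2 (h : ℍ → ℂ) (f : ℍ → ℂ) z :=
    jacH_prim_conj f h
  have hpc : Continuous (UpperHalfPlane.petersson 2 (h : ℍ → ℂ) (f : ℍ → ℂ)) :=
    UpperHalfPlane.petersson_continuous 2 (cuspForm_continuous N 2 h) (cuspForm_continuous N 2 f)
  have hJc : Continuous J := by
    have : J = fun z => -2 * I * UpperHalfPlane.petersson 2 (h : ℍ → ℂ) (f : ℍ → ℂ) z :=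
      funext hJ
    rw [this]
    exact continuous_const.mul hpc
  obtain ⟨C, hC⟩ := cuspForm_petersson_bounded N 2 h f
  have hJb : ∀ z, ‖J z‖ ≤ 2 * C := by
    intro z
    rw [hJ z, norm_mul, norm_mul, norm_neg, Complex.norm_ofNat, Complex.norm_I, mul_one]
    exact mul_le_mul_of_nonneg_left (hC z) (by norm_num)
  -- the top sums
  set top : ℝ → ℂ := fun M =>
    ∑ q : orbitRel.Quotient (zpowers T) (SL(2, ℤ) ⧸ Gamma0 N),
      ∑ k ∈ Finset.range (minimalPeriod (T • ·) q.out),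
        lineIntH (prim f) (fun z => conj (prim h z))
          (fun t => (T ^ k * q.out.out)⁻¹ • hor M t) (-1 / 2) (1 / 2) with htop
  have h0 : Tendsto top atTop (𝓝 0) := by
    have : (0 : ℂ) = ∑ q : orbitRel.Quotient (zpowers T) (SL(2, ℤ) ⧸ Gamma0 N),
        ∑ k ∈ Finset.range (minimalPeriod (T • ·) q.out), (0 : ℂ) := by simp
    rw [this]
    exact tendsto_finsetSum _ (fun q _ => tendsto_finsetSum _ (fun k _ =>
      tendsto_lineIntH_top hs (T ^ k * q.out.out) (boundedAtCusp_prim f _)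
        (smallDerivAtCusp_conj_prim h _)))
  -- the exact identity
  have hex : ∀ M : ℝ, 1 ≤ M →
      EC (Gamma0 N) (perC N f) (conjPar (Gamma0 N) (perC N h)) =
        -2 * ((∫ z : ℍ, ((Wtr (Gamma0 N) M z : ℝ) : ℂ) * J z) + top M) := by
    intro M hM
    rw [Fermat.Agent.M17.DRCup3.EC_eq_tile (Gamma0 N) (perC N f) (conjPar (Gamma0 N) (perC N h))
      ha hb hs hM, sum_tileInt_eq_integral hs hM]
    simp only [coe_Wtr, htop, hJdef]
  -- dominated convergence
  have hlim : Tendsto (fun M : ℝ => ∫ z : ℍ, ((Wtr (Gamma0 N) M z : ℝ) : ℂ) * J z) atTop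
      (𝓝 (∫ z : ℍ, ((Wfd (Gamma0 N) z : ℝ) : ℂ) * J z)) := by
    refine tendsto_integral_filter_of_dominated_convergence
      (fun z => Wfd (Gamma0 N) z * ‖J z‖) ?_ ?_ ?_ ?_
    · refine Eventually.of_forall (fun M => ?_)
      exact ((Complex.measurable_ofReal.comp (measurable_Wtr (Gamma0 N) M)).aestronglyMeasurable).mul
        hJc.aestronglyMeasurable
    · refine Eventually.of_forall (fun M => Eventually.of_forall (fun z => ?_))
      rw [norm_mul, Complex.norm_real, Real.norm_eq_abs, abs_of_nonneg (Wtr_nonneg _ M z)]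
      exact mul_le_mul_of_nonneg_right (Wtr_le_Wfd _ M z) (norm_nonneg _)
    · have h1 : Integrable (fun z : ℍ => 2 * wR N z * ‖J z‖) volume :=
        ((integrable_wR N).const_mul 2).mul_bdd hJc.norm.aestronglyMeasurable (c := 2 * C)
          (Eventually.of_forall (fun z => by
            rw [Real.norm_eq_abs, abs_of_nonneg (norm_nonneg _)]; exact hJb z))
      refine h1.congr ?_
      filter_upwards [ae_notMem_excSet] with z hz
      rw [Wfd_eq_wR hz]
    · refine Eventually.of_forall (fun z => ?_)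
      have := eventually_Wtr_eq (Gamma0 N) z
      refine tendsto_const_nhds.congr' ?_
      filter_upwards [this] with M hM
      rw [hM]
  -- the limit integral
  have hfin : (∫ z : ℍ, ((Wfd (Gamma0 N) z : ℝ) : ℂ) * J z) = -4 * I * petB N 2 h f := by
    unfold petB
    rw [← integral_const_mul]
    refine integral_congr_ae ?_
    filter_upwards [ae_notMem_excSet] with z hz
    rw [Wfd_eq_wR hz, hJ z, Complex.real_smul]
    push_cast
    ring
  -- conclusion
  have h1 : Tendsto (fun M : ℝ => -2 * ((∫ z : ℍ, ((Wtr (Gamma0 N) M z : ℝ) : ℂ) * J z) + top M))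
      atTop (𝓝 (-2 * ((∫ z : ℍ, ((Wfd (Gamma0 N) z : ℝ) : ℂ) * J z) + 0))) :=
    (hlim.add h0).const_mul (-2)
  have h2 : Tendsto (fun _ : ℝ => EC (Gamma0 N) (perC N f) (conjPar (Gamma0 N) (perC N h))) atTop
      (𝓝 (-2 * ((∫ z : ℍ, ((Wfd (Gamma0 N) z : ℝ) : ℂ) * J z) + 0))) := by
    refine h1.congr' ?_
    filter_upwards [eventually_ge_atTop (1 : ℝ)] with M hM
    exact (hex M hM).symm
  have h3 := tendsto_nhds_unique tendsto_const_nhds h2
  rw [h3, hfin]
  ring


/-- the EC-defined Petersson norm `pet` of `PetCup3` is `2 ⟨f, f⟩`. -/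
theorem pet_eq_petB (f : CuspForm (Gamma0 N) 2) :
    ((Fermat.Agent.M17.PetCup3.pet f : ℝ) : ℂ) = 2 * petB N 2 f f := by
  have h1 : EC (Gamma0 N) (perC N f) (conjPar (Gamma0 N) (perC N f)) / (4 * I) =
      2 * petB N 2 f f := by
    rw [EC_perC_conj_eq_petB f f]
    have hI : (I : ℂ) ≠ 0 := I_ne_zero
    field_simp
    ring
  have h2 : (petB N 2 f f).im = 0 := (petB_self_nonneg 2 f).2
  unfold Fermat.Agent.M17.PetCup3.pet
  rw [h1]
  apply Complex.ext
  · simp
  · simp [h2]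

section Lat

open Fermat.Agent.M17.Interfaces7 Fermat.Agent.ES.HEQ.ParLattice11

variable {g : ℕ} (L : LatData N g)

/-- the period relations of `L` as an identity in `H¹_par(Γ, ℂ)`. -/
theorem perC_eq (k : Fin g) :
    perC N (L.w k) = castPar (Gamma0 N) ℂ (L.n k)
      + ∑ j, L.Om j k • castPar (Gamma0 N) ℂ (L.m j) := by
  apply Subtype.ext
  refine AddMonoidHom.ext fun γ => ?_
  have h := L.per_eq k (Additive.toMul γ)
  have e1 : ((perC N (L.w k) : ↥(parabolicHoms ℂ (Gamma0 N) ℂ)) : Additive (Gamma0 N) →+ ℂ) γ =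
      per N (L.w k) (Additive.toMul γ) := rfl
  rw [e1, h]
  simp only [Submodule.coe_add, Submodule.coe_sum, Submodule.coe_smul, AddMonoidHom.add_apply,
    AddMonoidHom.coe_finset_sum, Finset.sum_apply, AddMonoidHom.smul_apply, castPar_apply,
    smul_eq_mul]
  rfl

/-- **the Gram matrix of the Petersson product in the normalised basis is `Im Ω / 2`**
(in the tree's normalisation `petB N 2 h f = ∫ wΓ · conj h · f · y² dμ_hyp`). -/
theorem petB_w (k l : Fin g) :
    petB N 2 (L.w l) (L.w k) = (((L.Om k l).im / 2 : ℝ) : ℂ) := by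
  have h1 := EC_perC_conj L.n L.m 2 L.cup_nn L.cup_mm L.cup_mn (fun k => L.w k) L.Om
    (perC_eq L) k l
  rw [EC_perC_conj_eq_petB] at h1
  have hsym : L.Om l k = L.Om k l := L.om_symm l k
  have hI : (I : ℂ) ≠ 0 := I_ne_zero
  have h2 : L.Om k l - conj (L.Om k l) = 2 * I * (((L.Om k l).im : ℝ) : ℂ) := by
    apply Complex.ext <;> simp
    ring
  rw [hsym, h2] at h1
  have h3 : I * (8 * petB N 2 (L.w l) (L.w k)) = I * (4 * (((L.Om k l).im : ℝ) : ℂ)) := by
    push_cast at h1 ⊢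
    linear_combination h1
  have h4 := mul_left_cancel₀ hI h3
  push_cast
  linear_combination h4 / 8

end Lat

end Fermat.Agent.M17.PetInt3
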