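/-
Programme M17 (S17), helper3: (PETW-sesq) - the Petersson Gram matrix against an arbitrary
`SL(2, ℤ)`-partition of unity (helper5's `DegUnfold5.SLPartition`), in Lebesgue form on `ℂ`:
`∑_x ∫_ℂ w · (f∣x⁻¹) · conj (h∣x⁻¹) dA = petB N 2 h f`, and for the normalised basis of a `LatData`
the value `Im Ω_{jk} / 2`.
-/
import Mathlib
import Fermat.Agent.M17.PetInt3
import Fermat.Agent.M17.DegUnfold5
import Fermat.Agent.M17.DegMeasure5

set_option autoImplicit false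

open UpperHalfPlane hiding I
open Complex CongruenceSubgroup Filter Set MeasureTheory MulAction Subgroup Function
open scoped MatrixGroups ModularForm Topology ComplexConjugate ENNReal

namespace Fermat.Agent.M17.PetPart3

open Fermat.Agent.ES.PET.Unfold12 Fermat.Agent.ES.PET.PartitionSL5
  Fermat.Agent.ES.PET.PartitionGamma5 Fermat.Agent.ES.PET.SLMeasure12
  Fermat.Agent.ES.PET.PetGamma10 Fermat.Agent.ES.PET.PetForm10
open Fermat.Agent.M17.DegUnfold5 Fermat.Agent.M17.DegMeasure5 Fermat.Agent.M17.Interfaces7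

variable {N : ℕ} [NeZero N]

/-- the `ℝ≥0∞`-valued form of `w` on `ℍ`. -/
noncomputable def wE (w : ℂ → ℝ) (z : ℍ) : ℝ≥0∞ := ENNReal.ofReal (w z)

theorem measurable_wE {w : ℂ → ℝ} (hw : Continuous w) : Measurable (wE w) :=
  ENNReal.measurable_ofReal.comp (hw.measurable.comp measurable_coe)

theorem isPartition_wE {w : ℂ → ℝ} (hw : SLPartition w) (hw0 : ∀ z, 0 ≤ w z) :
    IsPartition SL(2, ℤ) (volume : Measure ℍ) (wE w) := by
  refine ⟨measurable_wE hw.contDiff.continuous, Eventually.of_forall (fun z => ?_)⟩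
  have h := hw.sum_one z
  unfold wE
  rw [← ENNReal.ofReal_tsum_of_nonneg (fun g => hw0 _) h.summable, h.tsum_eq, ENNReal.ofReal_one]

/-- the reverse of `DegMeasure5.integrable_UHP`. -/
theorem integrableOn_of_integrable_UHP {h : ℂ → ℂ}
    (hh : Integrable (fun z : ℍ => ((z.im : ℂ) ^ 2 * h z))) : IntegrableOn h UH := by
  rw [volume_eq, integrable_withDensity_iff_integrable_smul measurable_dens] at hh
  simp only [dens_smul] at hh
  exact (measurePreserving_coe.integrable_comp_emb measurableEmbedding_coe).mp hh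

section Restrict

variable [Fintype (SL(2, ℤ) ⧸ Gamma0 N)]

/-- the `Γ₀(N)`-partition obtained from `w`. -/
noncomputable def WG (N : ℕ) [NeZero N] [Fintype (SL(2, ℤ) ⧸ Gamma0 N)] (w : ℂ → ℝ) : ℍ → ℝ≥0∞ :=
  restrictPartition (Gamma0 N) Quotient.out (wE w)

theorem isPartition_WG {w : ℂ → ℝ} (hw : SLPartition w) (hw0 : ∀ z, 0 ≤ w z) :
    IsPartition (Gamma0 N) (volume : Measure ℍ) (WG N w) :=
  (isPartition_wE hw hw0).restrict (Gamma0 N) Quotient.out (fun q => Quotient.out_eq' q)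

theorem lintegral_WG_ne_top {w : ℂ → ℝ} (hw : SLPartition w) (hw0 : ∀ z, 0 ≤ w z) :
    ∫⁻ z, WG N w z ∂(volume : Measure ℍ) ≠ ∞ := by
  have h := lintegral_mul_eq_of_isPartition (isPartition_WG (N := N) hw hw0)
    (isPartition_wΓ (Gamma0 N)) (φ := fun _ => 1) measurable_const (fun _ _ => rfl)
  simp only [mul_one] at h
  rw [h]
  exact lintegral_wΓ_ne_top (Gamma0 N)

omit [NeZero N] [Fintype (SL(2, ℤ) ⧸ Gamma0 N)] in
theorem lintegral_wE_ne_top {w : ℂ → ℝ} (hw : SLPartition w) (hw0 : ∀ z, 0 ≤ w z) :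
    ∫⁻ z, wE w z ∂(volume : Measure ℍ) ≠ ∞ := by
  haveI : Fintype (SL(2, ℤ) ⧸ Gamma0 1) := Fintype.ofFinite _
  have h1 := lintegral_WG_ne_top (N := 1) hw hw0
  unfold WG at h1
  rw [lintegral_restrictPartition (Gamma0 1) Quotient.out
    (measurable_wE hw.contDiff.continuous)] at h1
  intro htop
  rw [htop] at h1
  have hcard : (Fintype.card (SL(2, ℤ) ⧸ Gamma0 1) : ℝ≥0∞) ≠ 0 := by
    have : 0 < Fintype.card (SL(2, ℤ) ⧸ Gamma0 1) := Fintype.card_pos
    exact_mod_cast this.ne'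
  exact h1 (ENNReal.mul_top hcard)

theorem coe_WG {w : ℂ → ℝ} (hw0 : ∀ z, 0 ≤ w z) (z : ℍ) :
    wc (WG N w) z = ∑ q : SL(2, ℤ) ⧸ Gamma0 N, ((w ((q.out • z : ℍ) : ℂ) : ℝ) : ℂ) := by
  unfold wc WG restrictPartition wE
  rw [ENNReal.toReal_sum (fun q _ => ENNReal.ofReal_ne_top)]
  push_cast
  refine Finset.sum_congr rfl (fun q _ => ?_)
  rw [ENNReal.toReal_ofReal (hw0 _)]

end Restrict

/-- `w` is integrable for the hyperbolic measure. -/
theorem integrable_w {w : ℂ → ℝ} (hw : SLPartition w) (hw0 : ∀ z, 0 ≤ w z) :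
    Integrable (fun z : ℍ => ((w (z : ℂ) : ℝ) : ℂ)) (volume : Measure ℍ) := by
  have h1 := lintegral_wE_ne_top hw hw0
  have h2 : Integrable (fun z : ℍ => (wE w z).toReal) (volume : Measure ℍ) :=
    integrable_toReal_of_lintegral_ne_top (measurable_wE hw.contDiff.continuous).aemeasurable h1
  have h3 : (fun z : ℍ => (wE w z).toReal) = fun z : ℍ => w (z : ℂ) := by
    funext z
    exact ENNReal.toReal_ofReal (hw0 _)
  rw [h3] at h2
  exact h2.ofReal


/-- the integrand in Lebesgue form. -/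
noncomputable def Hx (w : ℂ → ℝ) (f h : ℍ → ℂ) (γ : SL(2, ℤ)) (z : ℂ) : ℂ :=
  (w z : ℂ) * (f ∣[(2 : ℤ)] γ) (ofComplex z) * conj ((h ∣[(2 : ℤ)] γ) (ofComplex z))

theorem Hx_coe (w : ℂ → ℝ) (f h : ℍ → ℂ) (γ : SL(2, ℤ)) (z : ℍ) :
    ((z.im : ℂ) ^ 2 * Hx w f h γ z) = (w z : ℂ) * UpperHalfPlane.petersson 2 h f (γ • z) := by
  rw [← UpperHalfPlane.petersson_slash_SL]
  unfold UpperHalfPlane.petersson Hx
  rw [ofComplex_apply, zpow_ofNat]
  ring

theorem support_Hx {w : ℂ → ℝ} (hw : SLPartition w) (f h : ℍ → ℂ) (γ : SL(2, ℤ)) :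
    Function.support (Hx w f h γ) ⊆ UH := by
  intro z hz
  have hwz : w z ≠ 0 := by
    intro h0
    apply hz
    unfold Hx
    rw [h0]
    simp
  have h1 : z ∈ tsupport w := subset_tsupport _ hwz
  have h2 := hw.tsupp_im z h1
  show 0 < z.im
  linarith

theorem integrable_hyp {w : ℂ → ℝ} (hw : SLPartition w) (hw0 : ∀ z, 0 ≤ w z)
    (f h : CuspForm (Gamma0 N) 2) (γ : SL(2, ℤ)) :
    Integrable (fun z : ℍ => ((w (z : ℂ) : ℝ) : ℂ) *
      UpperHalfPlane.petersson 2 (h : ℍ → ℂ) (f : ℍ → ℂ) (γ • z)) (volume : Measure ℍ) := by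
  obtain ⟨C, hC⟩ := cuspForm_petersson_bounded N 2 h f
  have hpc : Continuous (UpperHalfPlane.petersson 2 (h : ℍ → ℂ) (f : ℍ → ℂ)) :=
    UpperHalfPlane.petersson_continuous 2 (cuspForm_continuous N 2 h) (cuspForm_continuous N 2 f)
  refine (integrable_w hw hw0).mul_bdd (c := C)
    (hpc.measurable.comp (measurable_const_smul γ)).aestronglyMeasurable
    (Eventually.of_forall (fun z => hC _))

/-- integrability of the Lebesgue integrand. -/
theorem integrable_Hx {w : ℂ → ℝ} (hw : SLPartition w) (hw0 : ∀ z, 0 ≤ w z)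
    (f h : CuspForm (Gamma0 N) 2) (γ : SL(2, ℤ)) :
    Integrable (Hx w (f : ℍ → ℂ) (h : ℍ → ℂ) γ) := by
  have h1 := integrable_hyp hw hw0 f h γ
  have h2 : Integrable (fun z : ℍ => ((z.im : ℂ) ^ 2 * Hx w (f : ℍ → ℂ) (h : ℍ → ℂ) γ z)) := by
    refine h1.congr (Eventually.of_forall (fun z => ?_))
    exact (Hx_coe w _ _ γ z).symm
  exact (integrableOn_iff_integrable_of_support_subset (support_Hx hw _ _ γ)).mp
    (integrableOn_of_integrable_UHP h2)

/-- each Lebesgue term as a hyperbolic integral. -/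
theorem integral_Hx {w : ℂ → ℝ} (hw : SLPartition w)
    (f h : CuspForm (Gamma0 N) 2) (γ : SL(2, ℤ)) :
    ∫ z : ℂ, Hx w (f : ℍ → ℂ) (h : ℍ → ℂ) γ⁻¹ z =
      ∫ z : ℍ, ((w ((γ • z : ℍ) : ℂ) : ℝ) : ℂ) *
        UpperHalfPlane.petersson 2 (h : ℍ → ℂ) (f : ℍ → ℂ) z := by
  have e1 : ∫ z : ℂ, Hx w (f : ℍ → ℂ) (h : ℍ → ℂ) γ⁻¹ z =
      ∫ z in UH, Hx w (f : ℍ → ℂ) (h : ℍ → ℂ) γ⁻¹ z := by
    symm
    refine setIntegral_eq_integral_of_forall_compl_eq_zero (fun z hz => ?_)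
    by_contra hne
    exact hz (support_Hx hw _ _ γ⁻¹ hne)
  rw [e1, ← integral_UHP]
  simp only [Hx_coe]
  rw [← integral_smul_eq_self (μ := (volume : Measure ℍ))
    (fun z : ℍ => ((w (z : ℂ) : ℝ) : ℂ) *
      UpperHalfPlane.petersson 2 (h : ℍ → ℂ) (f : ℍ → ℂ) (γ⁻¹ • z)) (g := γ)]
  refine integral_congr_ae (Eventually.of_forall (fun z => ?_))
  show ((w ((γ • z : ℍ) : ℂ) : ℝ) : ℂ) * _ = _
  rw [inv_smul_smul]

section Main

variable [Fintype (SL(2, ℤ) ⧸ Gamma0 N)]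

/-- **independence of the partition**: the sum of the Lebesgue integrals against `w` of the
translates is the Petersson product of record. -/
theorem sum_integral_eq_petB {w : ℂ → ℝ} (hw : SLPartition w) (hw0 : ∀ z, 0 ≤ w z)
    (f h : CuspForm (Gamma0 N) 2) :
    ∑ x : SL(2, ℤ) ⧸ Gamma0 N, ∫ z : ℂ, Hx w (f : ℍ → ℂ) (h : ℍ → ℂ) (x.out⁻¹ : SL(2, ℤ)) z =
      petB N 2 h f := by
  set φ : ℍ → ℂ := UpperHalfPlane.petersson 2 (h : ℍ → ℂ) (f : ℍ → ℂ) with hφ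
  obtain ⟨C, hC⟩ := cuspForm_petersson_bounded N 2 h f
  have hpc : Continuous φ :=
    UpperHalfPlane.petersson_continuous 2 (cuspForm_continuous N 2 h) (cuspForm_continuous N 2 f)
  have hinv : ∀ (g : Gamma0 N) (z : ℍ), φ (g • z) = φ z := fun g z =>
    cuspForm_petersson_smul N 2 h f (g : SL(2, ℤ)) g.2 z
  have hmain := ipart_eq_of_isPartition (isPartition_WG (N := N) hw hw0)
    (isPartition_wΓ (Gamma0 N)) (lintegral_WG_ne_top hw hw0) (lintegral_wΓ_ne_top (Gamma0 N))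
    hpc.measurable hinv hC
  have hR : Ipart (volume : Measure ℍ) (wΓ (Gamma0 N)) φ = petB N 2 h f := by
    unfold Ipart petB wc wR
    refine integral_congr_ae (Eventually.of_forall (fun z => ?_))
    exact (Complex.real_smul).symm
  rw [← hR, ← hmain]
  unfold Ipart
  simp only [integral_Hx hw, coe_WG hw0, Finset.sum_mul]
  rw [integral_finset_sum]
  intro q _
  have := integrable_hyp hw hw0 f h q.out⁻¹
  have h2 := (measurePreserving_smul (q.out : SL(2, ℤ)) (volume : Measure ℍ)).integrable_comp_of_integrable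
    this
  refine h2.congr (Eventually.of_forall (fun z => ?_))
  show ((w ((q.out • z : ℍ) : ℂ) : ℝ) : ℂ) * φ ((q.out)⁻¹ • (q.out • z)) = _
  rw [inv_smul_smul]

end Main


/-- **(PETW-sesq)**, helper5's literal statement (board 1169): the Petersson Gram matrix of the
normalised basis against an arbitrary `SL(2, ℤ)`-partition of unity is `Im Ω / 2`. -/
theorem pet_partition (N : ℕ) [NeZero N] {g : ℕ} (L : LatData N g) {w : ℂ → ℝ}
    (hw : SLPartition w) (hw0 : ∀ z, 0 ≤ w z) (j k : Fin g) :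
    (∀ x : SL(2, ℤ) ⧸ Gamma0 N, MeasureTheory.Integrable (fun z : ℂ => (w z : ℂ) *
        ((⇑(L.w j)) ∣[(2 : ℤ)] (x.out⁻¹ : SL(2, ℤ))) (ofComplex z) *
        (starRingEnd ℂ) (((⇑(L.w k)) ∣[(2 : ℤ)] (x.out⁻¹ : SL(2, ℤ))) (ofComplex z)))) ∧
    letI : Fintype (SL(2, ℤ) ⧸ Gamma0 N) := Fintype.ofFinite _
    ∑ x : SL(2, ℤ) ⧸ Gamma0 N, ∫ z : ℂ, (w z : ℂ) *
        ((⇑(L.w j)) ∣[(2 : ℤ)] (x.out⁻¹ : SL(2, ℤ))) (ofComplex z) *
        (starRingEnd ℂ) (((⇑(L.w k)) ∣[(2 : ℤ)] (x.out⁻¹ : SL(2, ℤ))) (ofComplex z))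
      = (1 / 2 : ℂ) * (((L.Om j k).im : ℝ) : ℂ) := by
  refine ⟨fun x => integrable_Hx hw hw0 (L.w j) (L.w k) (x.out⁻¹ : SL(2, ℤ)), ?_⟩
  letI : Fintype (SL(2, ℤ) ⧸ Gamma0 N) := Fintype.ofFinite _
  have h1 := sum_integral_eq_petB hw hw0 (L.w j) (L.w k)
  rw [Fermat.Agent.M17.PetInt3.petB_w L j k] at h1
  unfold Hx at h1
  rw [h1]
  push_cast
  ring

end Fermat.Agent.M17.PetPart3
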