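import Fermat.Agent.M17.SmoothPartition8
import Fermat.Agent.M17.DegUnfold5

/-!
# The smooth partition of unity `wt` as an instance of `DegUnfold5.SLPartition`

`wC z := if 0 < z.im then wt (ofComplex z) else 0` is a `C¹` (indeed `C^∞`) function on `ℂ`,
supported in `{|re| ≤ 5/8, im > 1/2}`, whose `SL(2, ℤ)`-translates sum to `1` on `ℍ` and whose
integer translates sum to `1/2` above height `2`.
-/

set_option autoImplicit false

namespace Fermat.Agent.M17.SmoothPartitionInst8

open Set Filter Topology UpperHalfPlane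
open scoped Real MatrixGroups ContDiff
open Fermat.Agent.M17.SmoothPartition8

noncomputable section

/-- the weight of `SmoothPartition8`, extended by zero to the complex plane. -/
def wC (z : ℂ) : ℝ := if 0 < z.im then wt (ofComplex z) else 0

theorem wC_of_pos {z : ℂ} (hz : 0 < z.im) : wC z = wt (ofComplex z) := if_pos hz

theorem wC_coe (z : ℍ) : wC (z : ℂ) = wt z := by
  rw [wC_of_pos z.im_pos, ofComplex_apply]

theorem wC_ne_zero {z : ℂ} (h : wC z ≠ 0) : 0 < z.im ∧ rho z ≠ 0 := by
  unfold wC at h
  split_ifs at h with hz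
  · refine ⟨hz, ?_⟩
    have h1 := (wt_ne_zero_iff _).1 h
    rwa [ofComplex_apply_of_im_pos hz] at h1
  · exact absurd rfl h

/-- a closed set containing the support of `wC`. -/
def Kset : Set ℂ := {z : ℂ | 0 ≤ z.im ∧ |z.re| ≤ 5 / 8 ∧ 3 / 4 ≤ Complex.normSq z}

theorem isClosed_Kset : IsClosed Kset :=
  (isClosed_le continuous_const Complex.continuous_im).inter
    ((isClosed_le (continuous_abs.comp Complex.continuous_re) continuous_const).inter
      (isClosed_le continuous_const Complex.continuous_normSq))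

theorem tsupport_wC_subset : tsupport wC ⊆ Kset := by
  refine closure_minimal ?_ isClosed_Kset
  intro z hz
  obtain ⟨h1, h2⟩ := wC_ne_zero hz
  obtain ⟨h3, h4⟩ := of_rho_ne_zero h2
  exact ⟨h1.le, h3.le, h4.le⟩

theorem half_lt_im_of_mem_Kset {z : ℂ} (hz : z ∈ Kset) : 1 / 2 < z.im := by
  obtain ⟨h1, h2, h3⟩ := hz
  rw [Complex.normSq_apply] at h3
  have h4 : z.re * z.re ≤ 25 / 64 := by
    have := abs_le.1 h2
    nlinarith
  nlinarith

theorem abs_re_le_of_mem_Kset {z : ℂ} (hz : z ∈ Kset) : |z.re| ≤ 5 / 8 := hz.2.1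

theorem wC_eq_zero_of_im_lt {z : ℂ} (hz : z.im < 1 / 2) : wC z = 0 := by
  by_contra h
  obtain ⟨h1, h2⟩ := wC_ne_zero h
  have := half_lt_im_of_rho_ne_zero h1 h2
  linarith

theorem contDiff_wC : ContDiff ℝ 1 wC := by
  rw [contDiff_iff_contDiffAt]
  intro z
  by_cases hz : 0 < z.im
  · have h1 : ContDiffAt ℝ 1 (fun z : ℂ => wt (ofComplex z)) z :=
      (contDiffAt_wt hz).of_le (by exact_mod_cast le_top)
    refine h1.congr_of_eventuallyEq ?_
    filter_upwards [(isOpen_lt continuous_const Complex.continuous_im).mem_nhds hz] with z' hz'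
    exact wC_of_pos hz'
  · have h1 : ContDiffAt ℝ 1 (fun _ : ℂ => (0 : ℝ)) z := contDiffAt_const
    refine h1.congr_of_eventuallyEq ?_
    have h2 : z.im < 1 / 2 := by linarith
    filter_upwards [(isOpen_lt Complex.continuous_im continuous_const).mem_nhds h2] with z' hz'
    exact wC_eq_zero_of_im_lt hz'

theorem wC_mob (g : SL(2, ℤ)) (z : ℂ) :
    wC (DegMoebius5.mob g z) = wt (g • ofComplex z) := by
  unfold DegMoebius5.mob
  exact wC_coe _

/-- **`wC` is an `SLPartition`** (helper5's interface of `DegUnfold5`). -/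
theorem slPartition_wt :
    DegUnfold5.SLPartition (fun z : ℂ => if 0 < z.im then wt (ofComplex z) else 0) := by
  change DegUnfold5.SLPartition wC
  refine ⟨contDiff_wC, fun z hz => half_lt_im_of_mem_Kset (tsupport_wC_subset hz),
    ⟨5 / 8, fun z hz => abs_re_le_of_mem_Kset (tsupport_wC_subset hz)⟩, ?_, ?_, ?_⟩
  · intro z
    refine ⟨box (z : ℂ), (isOpen_box _).mem_nhds (mem_box z.im_pos), ?_⟩
    refine (finite_box_wt (z : ℂ) z.im_pos).subset ?_
    rintro g ⟨z', hz', hne⟩
    have hpos := im_pos_of_mem_box z.im_pos hz'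
    refine ⟨ofComplex z', ?_, ?_⟩
    · rw [ofComplex_apply_of_im_pos hpos]
      exact hz'
    · rwa [wC_mob g z'] at hne
  · intro z
    simp only [wC_coe]
    exact hasSum_wt_smul z
  · intro z hz
    have hpos : 0 < z.im := by linarith
    set z'' : ℍ := ⟨z, hpos⟩ with hz''
    have h1 : ∀ n : ℤ, wC (z + n) = wt ((n : ℝ) +ᵥ z'') := by
      intro n
      rw [← wC_coe]
      congr 1
      rw [UpperHalfPlane.coe_vadd, hz'']
      simp [add_comm]
    simp only [h1]
    have hfin : (Function.support fun n : ℤ => wt ((n : ℝ) +ᵥ z'')).Finite := by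
      have h2 := (finite_support_wt_smul z'').preimage
        (f := fun n : ℤ => psi (n, false)) (fun a _ b _ hab => by
          have := psi_injective hab
          simpa using this)
      refine h2.subset ?_
      intro n hn
      simp only [Set.mem_preimage, Function.mem_support, psi_smul] at hn ⊢
      exact hn
    have h3 : HasSum (fun n : ℤ => wt ((n : ℝ) +ᵥ z''))
        (∑ n ∈ hfin.toFinset, wt ((n : ℝ) +ᵥ z'')) :=
      hasSum_sum_of_ne_finset_zero (fun n hn => by
        rw [Set.Finite.mem_toFinset, Function.mem_support, not_not] at hn; exact hn)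
    rw [← finsum_eq_sum_of_support_subset _ (by simp), finsum_wt_vadd (z := z'') hz] at h3
    exact h3

end

end Fermat.Agent.M17.SmoothPartitionInst8
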