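import Fermat.Agent.M17.DegInst5
import Fermat.Agent.M17.DegEll5
import Fermat.Agent.M17.DegAut0
import Fermat.Agent.M17.DegCuspInst1
import Fermat.Agent.M17.PetPart3
import Fermat.Agent.M17.SmoothPartitionInst8
import Fermat.Agent.M17.DegCount4
import Fermat.Agent.M17.ThetaDiv1

/-!
# (DEG): `deg Z(e) = g`

The final assembly: the analytic degree formula `DegInst5.deg_analytic_real` with all its
hypotheses discharged ((D-a1) `DegAut0`, (D-a3) `DegCuspInst1`, (PETW-sesq) `PetPart3`, the smooth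
partition `SmoothPartitionInst8`), compared with the counting formula `DegCount4.deg_count`
(whose hypothesis (T5) is `DegEll5.sum_ellOrder_mul'`).
-/

set_option autoImplicit false
set_option linter.unusedSectionVars false

namespace Fermat.Agent.M17.DegFinal5

open MeasureTheory Set Filter Topology UpperHalfPlane CongruenceSubgroup AlgebraicCurve
open scoped Real MatrixGroups
open Fermat.Agent.M17.CauchyPompeiu5 Fermat.Agent.M17.DegMoebius5 Fermat.Agent.M17.DegMeasure5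
  Fermat.Agent.M17.DegUnfold5 Fermat.Agent.M17.DegCore5
  Fermat.Agent.M17.DegTrace5 Fermat.Agent.M17.DegDefs5 Fermat.Agent.M17.DegInst5
  Fermat.Agent.M17.DegEll5
open Fermat.Agent.M17.Interfaces7 Fermat.Agent.M17.Theta1
open Fermat.Agent.M17.SmoothPartitionInst8 Fermat.Agent.M17.SmoothPartition8
open Fermat.Agent.X0 Fermat.Agent.X0.SurjPoint Fermat.Agent.ES.KUM

noncomputable section

variable (N : ℕ) [NeZero N] {g : ℕ} (L : LatData N g) (e : Fin g → ℂ)

lemma wC_nonneg (z : ℂ) : 0 ≤ wC z := by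
  unfold wC
  split_ifs
  · exact wt_nonneg _
  · exact le_rfl

lemma slPartition_wC : SLPartition wC := slPartition_wt

/-- a nonzero order of a holomorphic function is a zero -/
lemma FeFun_eq_zero_of_ordMer_ne_zero (hFe : Fe L e ≠ 0) (p : ℍ)
    (h : ordMer p (algebraMap HolH MerH (Fe L e)) ≠ 0) : FeFun L e p = 0 := by
  rw [ordMer_algebraMap _ hFe] at h
  have h1 : ordH (Fe L e : ℍ → ℂ) p ≠ 0 := by
    intro h0
    apply h
    rw [h0]
    rfl
  unfold ordH at h1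
  have h2 := apply_eq_zero_of_analyticOrderAt_ne_zero h1
  simp only [Function.comp_apply, ofComplex_apply] at h2
  exact h2

local instance fintypeQuot' : Fintype (SL(2, ℤ) ⧸ Gamma0 N) := Fintype.ofFinite _

/-- the zeros of the `F_x` in the support of the partition -/
lemma finite_zeros_Fx (hFe : Fe L e ≠ 0)
    (hlog : ∀ x : SL(2, ℤ) ⧸ Gamma0 N, ∃ Y : ℝ, ∀ τ : ℍ, Y ≤ τ.im →
      FeFun L e (rep N x • τ) ≠ 0) :
    {p : ℍ | (p : ℂ) ∈ tsupport wC ∧
      ∃ x : SL(2, ℤ) ⧸ Gamma0 N, FeFun L e (rep N x • p) = 0}.Finite := by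
  have hfin : ∀ x : SL(2, ℤ) ⧸ Gamma0 N,
      (tsupport wC ∩ {z | Fx N L e x z = 0}).Finite := by
    intro x
    obtain ⟨Y, hY⟩ := hlog x
    refine finite_zeros_tsupport slPartition_wC (differentiableOn_Fx N L e x)
      (analyticOrderAt_Fx_ne_top N L e hFe x) (M₀ := max Y 1) ?_
    intro z hz
    have hz0 : 0 < z.im := lt_of_lt_of_le one_pos (le_trans (le_max_right _ _) hz)
    have := hY ⟨z, hz0⟩ (le_trans (le_max_left _ _) hz)
    simp only [Fx]
    rw [ofComplex_apply_of_im_pos hz0]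
    exact this
  have hU : (⋃ x : SL(2, ℤ) ⧸ Gamma0 N, (tsupport wC ∩ {z | Fx N L e x z = 0})).Finite :=
    Set.finite_iUnion hfin
  apply Set.Finite.of_finite_image (f := UpperHalfPlane.coe) _
    (fun a _ b _ h => UpperHalfPlane.ext h)
  apply hU.subset
  rintro _ ⟨p, ⟨hp, x, hx⟩, rfl⟩
  rw [Set.mem_iUnion]
  refine ⟨x, hp, ?_⟩
  show Fx N L e x (p : ℂ) = 0
  simp only [Fx, ofComplex_apply]
  exact hx

/-- **(DEG)**: `deg Z(e) = g`. -/
theorem z_degree (hFe : Fe L e ≠ 0) : Divisor.degree (Zdiv L e) = (g : ℤ) := by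
  classical
  -- the cusp orders
  have hex : ∀ x : SL(2, ℤ) ⧸ Gamma0 N, ∃ n : ℤ,
      CuspOrdIs N (algebraMap HolH MerH (Fe L e)) x.out n := fun x => by
    obtain ⟨n, hn⟩ := exists_cuspOrdIs_Fe L e hFe x.out
    exact ⟨n, hn⟩
  choose n hn using hex
  have hlog : ∀ x : SL(2, ℤ) ⧸ Gamma0 N, ∀ ε > 0, ∃ Y : ℝ, ∀ τ : ℍ, Y ≤ τ.im →
      FeFun L e (rep N x • τ) ≠ 0 ∧
      ‖deriv (fun z : ℂ => FeFun L e (rep N x • ofComplex z)) τ / FeFun L e (rep N x • τ)
        - 2 * π * Complex.I * n x / N‖ < ε := fun x =>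
    DegCuspInst1.tendsto_logDeriv_cusp N L e x.out (n x) (hn x)
  have hScusp : ∀ x : SL(2, ℤ) ⧸ Gamma0 N, ∀ ε > 0, ∃ Y : ℝ, ∀ τ : ℍ, Y ≤ τ.im →
      ‖Sfun N L e (rep N x • τ) / denom (rep N x) τ ^ 2‖ < ε := by
    intro x ε hε
    obtain ⟨Y, hY⟩ := DegCuspInst1.tendsto_S_cusp N L e x.out ε hε
    refine ⟨Y, fun τ hτ => ?_⟩
    have := hY τ hτ
    have hb : ((x.out : SL(2, ℤ)) : GL (Fin 2) ℝ)⁻¹ = ((x.out⁻¹ : SL(2, ℤ)) : GL (Fin 2) ℝ) := by
      simp
    rw [hb] at this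
    exact this
  -- the finite set of zeros
  have hfin := finite_zeros_Fx N L e hFe (fun x => by
    obtain ⟨Y, hY⟩ := hlog x 1 one_pos
    exact ⟨Y, fun τ hτ => (hY τ hτ).1⟩)
  set Zf : Finset ℍ := hfin.toFinset with hZf
  have h1 : ∀ p : ℍ, (p : ℂ) ∈ tsupport wC →
      (∃ x : SL(2, ℤ) ⧸ Gamma0 N, FeFun L e (rep N x • p) = 0) → p ∈ Zf := by
    intro p hp hx
    rw [hZf, Set.Finite.mem_toFinset]
    exact ⟨hp, hx⟩
  have h2 : ∀ p : ℍ, wC p ≠ 0 → (∃ x : SL(2, ℤ) ⧸ Gamma0 N,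
      ordMer ((x.out⁻¹ : SL(2, ℤ)) • p) (algebraMap HolH MerH (Fe L e)) ≠ 0) → p ∈ Zf := by
    intro p hp ⟨x, hx⟩
    refine h1 p (subset_tsupport _ hp) ⟨x, ?_⟩
    exact FeFun_eq_zero_of_ordMer_ne_zero N L e hFe _ hx
  have hA := deg_analytic_real N L e hFe (DegAut0.Gfun_smul N L e) (DegAut0.contDiffOn_Sfun N L e)
    (DegAut0.dbar2_Sfun N L e) n hlog hScusp slPartition_wC wC_nonneg
    (fun j k => PetPart3.pet_partition N L slPartition_wC wC_nonneg j k) Zf h1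
  have hC := DegCount4.deg_count N (fun p : ℍ => wC p)
    (fun c Zc hc1 hc2 => sum_ellOrder_mul' slPartition_wC wC_nonneg c Zc hc1 hc2)
    (Zdiv_spec L e hFe) n hn Zf h2
  have : ((Divisor.degree (Zdiv L e) : ℤ) : ℝ) = ((g : ℤ) : ℝ) := by
    rw [← hC]
    push_cast
    rw [← hA]
    rfl
  exact_mod_cast this

end

end Fermat.Agent.M17.DegFinal5
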