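import Fermat.Agent.M17.RTAssembly1
import Fermat.Agent.M17.DegFinal5

/-!
# I-RT closed: the `RTData` literal, unconditionally (given `LatData` and `AJData`)

`rtDataFinal L AJ : RTData N L AJ (thetaA (siegelOfLat L) 0)` = helper1's `RTAssembly1.rtData` fed
with (DEG) `DegFinal5.z_degree`.
-/

set_option autoImplicit false

namespace Fermat.Agent.M17.RTFinal5

open Fermat.Agent.M17.Interfaces7 Fermat.Agent.M17.Theta1

variable {N : ℕ} [NeZero N] {g : ℕ} (L : LatData N g) (AJ : AJData N L)

/-- **I-RT**: Riemann's theorem data for `θ(A - e)` on `X₀(N)`. -/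
noncomputable def rtDataFinal : RTData N L AJ (thetaA (siegelOfLat L) 0) :=
  Fermat.Agent.M17.RTAssembly1.rtData L AJ (fun e he => Fermat.Agent.M17.DegFinal5.z_degree N L e he)

@[simp] theorem rtDataFinal_Fe : (rtDataFinal L AJ).Fe = Fe L := rfl

@[simp] theorem rtDataFinal_Z : (rtDataFinal L AJ).Z = Zdiv L := rfl

theorem nonempty_rtData : Nonempty (RTData N L AJ (thetaA (siegelOfLat L) 0)) :=
  ⟨rtDataFinal L AJ⟩

end Fermat.Agent.M17.RTFinal5
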