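/-
M17 (helper1): **the analytic facts about `th0 = thetaA (siegelOfLat L) 0`** in the literal shapes
in which the consumers (SpecialA0, RiemannVanishing2, KappaCanonical2, AbelOpen6, Connect6, ...)
carry them as hypotheses.
-/
import Mathlib
import Fermat.Agent.M17.ThetaLat1
import Fermat.Agent.M17.ThetaNonzero1

set_option autoImplicit false

namespace Fermat.Agent.M17.Theta1

open Complex Real Matrix
open Fermat.Agent.M17.Interfaces7

variable {N : ℕ} [NeZero N] {g : ℕ} (L : LatData N g)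

theorem th0_continuous : Continuous (thetaA (siegelOfLat L) 0) :=
  continuous_thetaA (siegelOfLat L) 0

theorem th0_differentiable : Differentiable ℂ (thetaA (siegelOfLat L) 0) :=
  differentiable_thetaA (siegelOfLat L) 0

/-- `θ` is even. -/
theorem th0_even : ∀ z, thetaA (siegelOfLat L) 0 (-z) = thetaA (siegelOfLat L) 0 z := by
  intro z
  have := thetaA_neg (siegelOfLat L) 0 z
  rwa [neg_zero] at this

/-- `θ ≢ 0`. -/
theorem th0_ne : ∃ z, thetaA (siegelOfLat L) 0 z ≠ 0 :=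
  exists_thetaA_ne_zero' (siegelOfLat L) 0

/-- the quasi-periodicity with its factor. -/
theorem th0_add_lattice (l : Fin g → ℂ) (hl : l ∈ L.lattice) (z : Fin g → ℂ) :
    ∃ c : ℂ, c ≠ 0 ∧ thetaA (siegelOfLat L) 0 (z + l) = c * thetaA (siegelOfLat L) 0 z := by
  rw [← latticeSubgroup_siegelOfLat, mem_latticeSubgroup] at hl
  obtain ⟨m, n, rfl⟩ := hl
  rw [← add_assoc, thetaA_add_mulVec_int, thetaA_add_int, ← mul_assoc]
  exact ⟨_, mul_ne_zero (Complex.exp_ne_zero _) (Complex.exp_ne_zero _), rfl⟩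

/-- the zero set of `θ` is stable under the lattice. -/
theorem th0_per : ∀ l ∈ L.lattice, ∀ z,
    thetaA (siegelOfLat L) 0 (z + l) = 0 ↔ thetaA (siegelOfLat L) 0 z = 0 := by
  intro l hl z
  obtain ⟨c, hc, h⟩ := th0_add_lattice L l hl z
  rw [h]
  constructor
  · intro h0
    rcases mul_eq_zero.mp h0 with h1 | h1
    · exact absurd h1 hc
    · exact h1
  · intro h0
    rw [h0, mul_zero]

/-- **quasi-periodicity** in the shape `th0 (z + l) = c * exp (χ z) * th0 z` with `χ` additive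
(helper7's `hqp` of (CH-2)). -/
theorem th0_qp : ∀ l ∈ L.lattice, ∃ (c : ℂ) (χ : (Fin g → ℂ) →+ ℂ), c ≠ 0 ∧
    ∀ z, thetaA (siegelOfLat L) 0 (z + l) = c * Complex.exp (χ z) * thetaA (siegelOfLat L) 0 z := by
  intro l hl
  rw [← latticeSubgroup_siegelOfLat, mem_latticeSubgroup] at hl
  obtain ⟨m, n, rfl⟩ := hl
  refine ⟨cexp (-(π * I * (siegelOfLat L).Q (Siegel.ofRealVec (intVec n)))),
    { toFun := fun z => -(2 * π * I * (Siegel.ofRealVec (intVec n) ⬝ᵥ z))
      map_zero' := by simp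
      map_add' := fun z z' => by rw [dotProduct_add]; ring },
    Complex.exp_ne_zero _, fun z => ?_⟩
  rw [← add_assoc, thetaA_add_mulVec_int, thetaA_add_int, dotProduct_add]
  have h1 : cexp (2 * π * I * ((((0 : Fin g → ℝ) ⬝ᵥ intVec m : ℝ)) : ℂ)) = 1 := by simp
  have h2 : cexp (2 * π * I * (Siegel.ofRealVec (intVec n) ⬝ᵥ Siegel.ofRealVec (intVec m))) = 1 := by
    rw [Siegel.ofRealVec_dotProduct]
    exact exp_int_dotProduct n m
  rw [h1, one_mul]
  show _ = cexp (-(π * I * (siegelOfLat L).Q (Siegel.ofRealVec (intVec n)))) *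
    cexp (-(2 * π * I * (Siegel.ofRealVec (intVec n) ⬝ᵥ z))) * _
  rw [← Complex.exp_add]
  congr 1
  have h3 : -(π * I * (siegelOfLat L).Q (Siegel.ofRealVec (intVec n))) -
      2 * π * I * (Siegel.ofRealVec (intVec n) ⬝ᵥ z +
        Siegel.ofRealVec (intVec n) ⬝ᵥ Siegel.ofRealVec (intVec m)) =
      (-(π * I * (siegelOfLat L).Q (Siegel.ofRealVec (intVec n))) +
        -(2 * π * I * (Siegel.ofRealVec (intVec n) ⬝ᵥ z))) +
      -(2 * π * I * (Siegel.ofRealVec (intVec n) ⬝ᵥ Siegel.ofRealVec (intVec m))) := by ring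
  rw [h3, Complex.exp_add, Complex.exp_neg
    (2 * π * I * (Siegel.ofRealVec (intVec n) ⬝ᵥ Siegel.ofRealVec (intVec m))), h2, inv_one, mul_one]

end Fermat.Agent.M17.Theta1
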