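/-
M17 (target S17), leaf (TORS) (lead): **every torsion point of `ℂ^g / Λ` is the Abel-Jacobi image of a
torsion class of `Pic⁰(F_ℂ)`**, which moreover is `ℚ̄`-rational.  Imported by no statement.

Proof by counting, against the interfaces `LatData` / `AJData` of `Interfaces7` as hypotheses:
* the `n`-torsion of `ℂ^g / (ℤ^g + Om ℤ^g)` is covered by the `n^{2g}` classes `[(r + Om s) / n]`,
  `r s : Fin g → Fin n`  (`exists_rep`);
* the `n^{2g}` characters `γ ↦ ζ_n ^ (∑ r_j n_j(γ) + s_j m_j(γ))` are pairwise distinct Kummer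
  characters (`charOf_mem`, `charOf_injective`), so through the Kummer isomorphism
  `EisSurjFinal10.kummerEquivFinal` they give `n^{2g}` distinct classes of `Pic⁰(F_ℂ)[n]`;
* `AJ.iota` is an injective homomorphism, so it maps these onto the whole `n`-torsion.
-/
import Mathlib
import Fermat.Agent.M17.Interfaces7
import Fermat.Agent.ES.KUM.EisSurjFinal10
import Fermat.Agent.ES.KUM.FiniteTorsion15
import Fermat.Agent.ES.J.TateChar11

set_option autoImplicit false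
set_option linter.unusedSectionVars false

namespace Fermat.Agent.M17.TorsionOnto0

open ModularCurve ModularCurve.Period CongruenceSubgroup UpperHalfPlane AlgebraicCurve
open Fermat.Agent.M17.Interfaces7 Fermat.Agent.X0 Fermat.Agent.X0.SurjPoint
open scoped MatrixGroups

variable {N : ℕ} [NeZero N] {g : ℕ} (L : LatData N g)

/-! ### the torsion of `ℂ^g / Λ` -/

/-- the vector `(r + Om s) / n`. -/
noncomputable def tvec (n : ℕ) (r s : Fin g → ℤ) : Fin g → ℂ :=
  fun k => ((r k : ℂ) + ∑ j, L.Om j k * (s j : ℂ)) / n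

theorem mem_lattice (p q : Fin g → ℤ) :
    (fun k => (p k : ℂ) + ∑ j, L.Om j k * (q j : ℂ)) ∈ L.lattice := ⟨p, q, rfl⟩

/-- every `n`-torsion class of `ℂ^g / Λ` is `[(r + Om s) / n]` with `0 ≤ r_k, s_k < n`. -/
theorem exists_rep (n : ℕ) (hn : 0 < n) (t : (Fin g → ℂ) ⧸ L.lattice) (ht : n • t = 0) :
    ∃ r s : Fin g → Fin n, t = QuotientAddGroup.mk
      (tvec L n (fun k => ((r k : ℕ) : ℤ)) (fun k => ((s k : ℕ) : ℤ))) := by
  obtain ⟨v, rfl⟩ := QuotientAddGroup.mk_surjective t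
  have h1 : n • v ∈ L.lattice := by
    rw [← QuotientAddGroup.eq_zero_iff]
    exact ht
  obtain ⟨p, q, hpq⟩ := h1
  have hnZ : (0 : ℤ) < n := by exact_mod_cast hn
  have hlt : ∀ x : ℤ, (x % n).toNat < n := fun x => by
    have h1 := Int.emod_lt_of_pos x hnZ
    have h2 := Int.emod_nonneg x hnZ.ne'
    omega
  have hcast : ∀ x : ℤ, (((x % n).toNat : ℕ) : ℤ) = x % n := fun x =>
    Int.toNat_of_nonneg (Int.emod_nonneg x hnZ.ne')
  refine ⟨fun k => ⟨(p k % n).toNat, hlt _⟩, fun k => ⟨(q k % n).toNat, hlt _⟩, ?_⟩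
  rw [QuotientAddGroup.eq_iff_sub_mem] 
  refine ⟨fun k => p k / n, fun k => q k / n, ?_⟩
  funext k
  have hk : (n : ℂ) * v k = (p k : ℂ) + ∑ j, L.Om j k * (q j : ℂ) := by
    have := congrFun hpq k
    simpa [nsmul_eq_mul] using this
  have hn0 : (n : ℂ) ≠ 0 := Nat.cast_ne_zero.mpr hn.ne'
  have hp : ∀ x : ℤ, (x : ℂ) = (n : ℂ) * ((x / n : ℤ) : ℂ) + ((x % n : ℤ) : ℂ) := fun x => by
    have := Int.mul_ediv_add_emod x n
    have h2 : ((n : ℤ) : ℂ) * ((x / n : ℤ) : ℂ) + ((x % n : ℤ) : ℂ) = (x : ℂ) := by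
      exact_mod_cast this
    rw [← h2]; simp
  simp only [Pi.sub_apply, tvec, hcast]
  have hv : v k = ((p k : ℂ) + ∑ j, L.Om j k * (q j : ℂ)) / n := by
    rw [← hk]; field_simp
  rw [hv, hp (p k)]
  have hsum : ∑ j, L.Om j k * (q j : ℂ)
      = (n : ℂ) * ∑ j, L.Om j k * ((q j / n : ℤ) : ℂ) + ∑ j, L.Om j k * ((q j % n : ℤ) : ℂ) := by
    rw [Finset.mul_sum, ← Finset.sum_add_distrib]
    refine Finset.sum_congr rfl fun j _ => ?_
    rw [hp (q j)]; ring
  rw [hsum]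
  field_simp
  ring

/-! ### the `n^{2g}` Kummer characters -/

open Fermat.Agent.ES.KUM

/-- the parabolic character `∑ r_j n_j + ∑ s_j m_j`. -/
noncomputable def lamOf (r s : Fin g → ℤ) : ↥(parabolicHoms ℤ (Gamma0 N) ℤ) :=
  ∑ j, r j • L.n j + ∑ j, s j • L.m j

theorem lamOf_a (r s : Fin g → ℤ) (k : Fin g) :
    (lamOf L r s : Additive (Gamma0 N) →+ ℤ) (Additive.ofMul (L.a k)) = r k := by
  classical
  simp only [lamOf, Submodule.coe_add, Submodule.coe_sum, Submodule.coe_smul,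
    AddMonoidHom.add_apply, AddMonoidHom.finsetSum_apply, AddMonoidHom.smul_apply, L.n_a, L.m_a,
    smul_eq_mul, mul_zero, Finset.sum_const_zero, add_zero, mul_ite, mul_one,
    Finset.sum_ite_eq', Finset.mem_univ, if_true]

theorem lamOf_b (r s : Fin g → ℤ) (k : Fin g) :
    (lamOf L r s : Additive (Gamma0 N) →+ ℤ) (Additive.ofMul (L.b k)) = s k := by
  classical
  simp only [lamOf, Submodule.coe_add, Submodule.coe_sum, Submodule.coe_smul,
    AddMonoidHom.add_apply, AddMonoidHom.finsetSum_apply, AddMonoidHom.smul_apply, L.n_b, L.m_b,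
    smul_eq_mul, mul_zero, Finset.sum_const_zero, zero_add, mul_ite, mul_one,
    Finset.sum_ite_eq', Finset.mem_univ, if_true]

/-- `ζ_n = exp (2πi / n)` as a complex unit. -/
noncomputable def zetaN (n : ℕ) : ℂˣ :=
  Units.mk0 (Complex.exp (2 * Real.pi * Complex.I / (n : ℂ))) (Complex.exp_ne_zero _)

theorem zetaN_isPrimitiveRoot (n : ℕ) (hn : n ≠ 0) : IsPrimitiveRoot (zetaN n) n := by
  have h := Complex.isPrimitiveRoot_exp n hn
  rw [← IsPrimitiveRoot.coe_units_iff]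
  exact h

/-- the character `γ ↦ ζ_n ^ φ(γ)` attached to an integral character `φ`. -/
noncomputable def charOf (n : ℕ) (φ : Additive (Gamma0 N) →+ ℤ) : ↥(Gamma0 N) →* ℂˣ :=
  MonoidHom.mk' (fun γ => zetaN n ^ φ (Additive.ofMul γ)) (by
    intro x y
    rw [ofMul_mul, map_add, zpow_add])

theorem charOf_apply (n : ℕ) (φ : Additive (Gamma0 N) →+ ℤ) (γ : ↥(Gamma0 N)) :
    charOf n φ γ = zetaN n ^ φ (Additive.ofMul γ) := rfl

theorem charOf_mem (n : ℕ) (hn : n ≠ 0) (φ : ↥(parabolicHoms ℤ (Gamma0 N) ℤ)) :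
    charOf n (φ : Additive (Gamma0 N) →+ ℤ) ∈ KumInst18.KumChar N n := by
  refine ⟨fun γ => ?_, fun γ hγ => ?_⟩
  · rw [charOf_apply, ← zpow_natCast, ← zpow_mul, mul_comm, zpow_mul, zpow_natCast,
      (zetaN_isPrimitiveRoot n hn).pow_eq_one, one_zpow]
  · rw [charOf_apply, Fermat.Agent.ES.J.TateChar11.parabolic_apply_eq_zero φ.2 γ hγ, zpow_zero]

theorem charOf_eq_iff (n : ℕ) (hn : n ≠ 0) (φ ψ : Additive (Gamma0 N) →+ ℤ) :
    charOf n φ = charOf n ψ ↔ ∀ γ : ↥(Gamma0 N),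
      (n : ℤ) ∣ φ (Additive.ofMul γ) - ψ (Additive.ofMul γ) := by
  have key : ∀ γ : ↥(Gamma0 N), charOf n φ γ = charOf n ψ γ ↔
      (n : ℤ) ∣ φ (Additive.ofMul γ) - ψ (Additive.ofMul γ) := fun γ => by
    rw [charOf_apply, charOf_apply, ← (zetaN_isPrimitiveRoot n hn).zpow_eq_one_iff_dvd, zpow_sub,
      mul_inv_eq_one]
  constructor
  · intro h γ
    exact (key γ).mp (by rw [h])
  · intro h
    exact MonoidHom.ext fun γ => (key γ).mpr (h γ)

theorem fin_eq_of_dvd {n : ℕ} {x y : Fin n} (h : (n : ℤ) ∣ ((x : ℕ) : ℤ) - ((y : ℕ) : ℤ)) :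
    x = y := by
  have hx := x.2
  have hy := y.2
  obtain ⟨c, hc⟩ := h
  apply Fin.ext
  have hc0 : c = 0 := by
    by_contra hne
    rcases lt_or_gt_of_ne hne with hlt | hgt
    · have : (n : ℤ) * c ≤ (n : ℤ) * (-1) := mul_le_mul_of_nonneg_left (by omega) (by omega)
      omega
    · have : (n : ℤ) * 1 ≤ (n : ℤ) * c := mul_le_mul_of_nonneg_left (by omega) (by omega)
      omega
  rw [hc0, mul_zero] at hc
  omega

/-- the `n^{2g}` Kummer characters attached to `(r, s)`, `r s : Fin g → Fin n`. -/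
noncomputable def kumOf (n : ℕ) (hn : n ≠ 0) (rs : (Fin g → Fin n) × (Fin g → Fin n)) :
    ↥(KumInst18.KumChar N n) :=
  ⟨charOf n (lamOf L (fun k => ((rs.1 k : ℕ) : ℤ)) (fun k => ((rs.2 k : ℕ) : ℤ)) :
    Additive (Gamma0 N) →+ ℤ), charOf_mem n hn _⟩

theorem kumOf_injective (n : ℕ) (hn : n ≠ 0) : Function.Injective (kumOf L n hn) := by
  rintro ⟨r, s⟩ ⟨r', s'⟩ h
  have h1 := (charOf_eq_iff n hn _ _).mp (congrArg Subtype.val h)
  refine Prod.ext (funext fun k => ?_) (funext fun k => ?_)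
  · have := h1 (L.a k)
    rw [lamOf_a, lamOf_a] at this
    exact fin_eq_of_dvd this
  · have := h1 (L.b k)
    rw [lamOf_b, lamOf_b] at this
    exact fin_eq_of_dvd this

/-! ### the counting argument -/

variable (AJ : AJData N L)

/-- the class of `Pic⁰(F_ℂ)[n]` with Kummer character `kumOf (r, s)`. -/
noncomputable def classOf (n : ℕ) [NeZero n] (rs : (Fin g → Fin n) × (Fin g → Fin n)) :
    ↥(Pic0.torsion ℂ (FC N) n) :=
  (EisSurjFinal10.kummerEquivFinal N n).symm (Additive.ofMul (kumOf L n (NeZero.ne n) rs))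

theorem classOf_injective (n : ℕ) [NeZero n] : Function.Injective (classOf L n) := by
  intro x y h
  have h1 := (EisSurjFinal10.kummerEquivFinal N n).symm.injective h
  exact kumOf_injective L n (NeZero.ne n) (Additive.ofMul.injective h1)

theorem nsmul_iota_eq_zero (n : ℕ) (x : Pic0 ℂ (FC N)) (hx : x ∈ Pic0.torsion ℂ (FC N) n) :
    n • AJ.iota x = 0 := by
  have h1 : (n : ℤ) • x = 0 := Pic0.mem_torsion.mp hx
  rw [← map_nsmul, ← natCast_zsmul, h1, map_zero]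

/-- **(TORS)**: every `n`-torsion point of `ℂ^g / Λ` is the Abel-Jacobi image of an `n`-torsion
class of `Pic⁰(F_ℂ)`. -/
theorem torsion_onto (n : ℕ) (hn : 0 < n) (t : (Fin g → ℂ) ⧸ L.lattice) (ht : n • t = 0) :
    ∃ x : Pic0 ℂ (FC N), x ∈ Pic0.torsion ℂ (FC N) n ∧ AJ.iota x = t := by
  have : NeZero n := ⟨hn.ne'⟩
  set φ : (Fin g → Fin n) × (Fin g → Fin n) → (Fin g → ℂ) ⧸ L.lattice :=
    fun rs => AJ.iota (classOf L n rs : Pic0 ℂ (FC N)) with hφ
  set ψ : (Fin g → Fin n) × (Fin g → Fin n) → (Fin g → ℂ) ⧸ L.lattice :=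
    fun rs => QuotientAddGroup.mk
      (tvec L n (fun k => ((rs.1 k : ℕ) : ℤ)) (fun k => ((rs.2 k : ℕ) : ℤ))) with hψ
  have hφinj : Function.Injective φ := fun x y h =>
    classOf_injective L n (Subtype.ext (AJ.iota_injective h))
  have hsub : φ '' Set.univ ⊆ ψ '' Set.univ := by
    rintro _ ⟨rs, -, rfl⟩
    obtain ⟨r, s, h⟩ := exists_rep L n hn (φ rs)
      (nsmul_iota_eq_zero L AJ n _ (classOf L n rs).2)
    exact ⟨(r, s), Set.mem_univ _, h.symm⟩
  have hcard : (ψ '' Set.univ).ncard ≤ (φ '' Set.univ).ncard := by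
    rw [Set.ncard_image_of_injective _ hφinj]
    exact Set.ncard_image_le (Set.toFinite _)
  have heq : φ '' Set.univ = ψ '' Set.univ :=
    Set.eq_of_subset_of_ncard_le hsub hcard (Set.toFinite _)
  obtain ⟨r, s, h⟩ := exists_rep L n hn t ht
  have ht' : t ∈ φ '' Set.univ := by
    rw [heq]
    exact ⟨(r, s), Set.mem_univ _, h.symm⟩
  obtain ⟨rs, -, rfl⟩ := ht'
  exact ⟨(classOf L n rs : Pic0 ℂ (FC N)), (classOf L n rs).2, rfl⟩

/-- the same with `n • x = 0`. -/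
theorem torsion_onto' (n : ℕ) (hn : 0 < n) (t : (Fin g → ℂ) ⧸ L.lattice) (ht : n • t = 0) :
    ∃ x : Pic0 ℂ (FC N), n • x = 0 ∧ AJ.iota x = t := by
  obtain ⟨x, hx, h⟩ := torsion_onto L AJ n hn t ht
  refine ⟨x, ?_, h⟩
  have h1 : (n : ℤ) • x = 0 := Pic0.mem_torsion.mp hx
  rwa [natCast_zsmul] at h1

/-- **(TORS), rational form**: every `n`-torsion point of `ℂ^g / Λ` is the Abel-Jacobi image of
(the base change of) an `n`-torsion point of `J₀(N)(ℚ̄)`. -/
theorem torsion_onto_bar (n : ℕ) (hn : 0 < n) (t : (Fin g → ℂ) ⧸ L.lattice) (ht : n • t = 0) :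
    ∃ y : JZero N, n • y = 0 ∧
      AJ.iota (Fermat.Agent.J.DESC.DescentFinal24.extPic0C N y) = t := by
  have : NeZero n := ⟨hn.ne'⟩
  obtain ⟨x, hx, h⟩ := torsion_onto L AJ n hn t ht
  have : Finite (Pic0.torsion ℂ (Fermat.Agent.J.DESC.DescentFinal24.FCx N) n) :=
    FiniteTorsion15.finite_torsionC N n
  obtain ⟨y, hy, hyx⟩ := Fermat.Agent.J.DESC.DescentFinal24.exists_extPic0C_eq N n hx
  refine ⟨y, ?_, by rw [hyx]; exact h⟩
  have h1 : (n : ℤ) • y = 0 := Pic0.mem_torsion.mp hy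
  rwa [natCast_zsmul] at h1

/-- consumer form (helper9): a vector of `ℂ^g` with a multiple in `Λ` differs from a lift of a
point of `J₀(N)(ℚ̄)` by an element of `Λ`. -/
theorem exists_sub_lift_mem (lift : JZero N → Fin g → ℂ)
    (hlift : ∀ y : JZero N, (QuotientAddGroup.mk (lift y) : (Fin g → ℂ) ⧸ L.lattice) =
      AJ.iota (Fermat.Agent.J.DESC.DescentFinal24.extPic0C N y))
    (z : Fin g → ℂ) (hz : ∃ n : ℕ, 0 < n ∧ n • z ∈ L.lattice) :
    ∃ y : JZero N, (∃ n : ℕ, 0 < n ∧ n • y = 0) ∧ z - lift y ∈ L.lattice := by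
  obtain ⟨n, hn, hnz⟩ := hz
  have ht : n • (QuotientAddGroup.mk z : (Fin g → ℂ) ⧸ L.lattice) = 0 := by
    rw [← QuotientAddGroup.mk_nsmul]
    exact (QuotientAddGroup.eq_zero_iff _).mpr hnz
  obtain ⟨y, hy, h⟩ := torsion_onto_bar L AJ n hn _ ht
  refine ⟨y, ⟨n, hn, hy⟩, ?_⟩
  rw [← hlift y] at h
  have := (QuotientAddGroup.eq_iff_sub_mem.mp h)
  have h2 : z - lift y = -(lift y - z) := by abel
  rw [h2]
  exact L.lattice.neg_mem this

end Fermat.Agent.M17.TorsionOnto0
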