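import Fermat.Agent.M17.ChainTop7
import Fermat.Agent.M17.Connect6
import Fermat.Agent.M17.Generic9
import Fermat.Agent.M17.ThetaFacts1
import Fermat.Agent.M17.Assembly9
import Fermat.Agent.M17.KappaFinal2
import Fermat.Agent.M17.TorsionOnto0
import Fermat.Agent.M17.RTFinal5

/-!
# A4', last glue: the chain theorem (`hchain` of `Assembly9.s17_of_chain`) from the edge step

Inputs: `ChainTop7.exists_ratEqOn` (graph argument), `Connect6.connected` (connectivity of the good
set), `Generic9.exists_lift_ne_zero` (the good set is not empty, by (TORS)), and the conjugate edge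
step (CH-2) as an explicit hypothesis `EdgeStepAll`, in the literal shape of helper2's `edgeStep`
(board 1193) with its analytic hypotheses discharged.
-/

set_option autoImplicit false
set_option linter.unusedSectionVars false

namespace Fermat.Agent.M17.ChainFinal5

open ModularCurve AlgebraicCurve UpperHalfPlane
open Fermat.Agent.J.DESC.DescentFinal24
open Fermat.Agent.M17.Interfaces7 Fermat.Agent.M17.EdgeLemma2 Fermat.Agent.M17.CuspMove0
open Fermat.Agent.M17.Chain7 Fermat.Agent.M17.ThetaRigidity9 Fermat.Agent.M17.ChainTop7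
open Fermat.Agent.M17.Theta1 Fermat.Agent.M17.FiniteFibres9 Fermat.Agent.M17.ThetaGlue9

attribute [local instance] instAlgebraQbarComplex instTowerQbarComplex

noncomputable section

variable {N : ℕ} [NeZero N] {g : ℕ} {L : LatData N g} {AJ : AJData N L}
  {th0 : (Fin g → ℂ) → ℂ}

/-- **(CH-2)**, the output shape of the conjugate edge lemma: the edge step for every finite family
of balanced lists whose entries are `k + (algebraic)`, over every number field over which the
algebraic parts are rational. -/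
def EdgeStepAll (RT : RTData N L AJ th0) (lift : JZero N → Fin g → ℂ) (ι' : Type*) : Prop :=
  ∀ (T : ι' → List (Fin g → ℂ)) (i0 : ι'), (∀ i, (T i).length = (T i0).length) →
    (∀ i, (T i).sum = (T i0).sum) →
    ∀ xs : (Fin g → ℂ) → JZero N,
      (∀ i, ∀ s ∈ T i, AJ.iota (extPic0C N (xs s)) = QuotientAddGroup.mk (s - RT.k)) →
      ∀ K1 : IntermediateField ℚ Qb,
        (∀ σ : ↥K1.fixingSubgroup, ∀ i, ∀ s ∈ T i, σ • xs s = xs s) →
        EdgeStep N th0 lift T i0 K1

variable (RT : RTData N L AJ th0) (lift : JZero N → Fin g → ℂ)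
  (hlift : ∀ x : JZero N,
    (QuotientAddGroup.mk (lift x) : (Fin g → ℂ) ⧸ L.lattice) = AJ.iota (extPic0C N x))

/-- the finite set of all translation vectors -/
def entries {ι' : Type*} [Fintype ι'] [DecidableEq (Fin g → ℂ)] (T : ι' → List (Fin g → ℂ)) :
    Finset (Fin g → ℂ) :=
  Finset.univ.biUnion fun i => (T i).toFinset

theorem mem_entries {ι' : Type*} [Fintype ι'] [DecidableEq (Fin g → ℂ)]
    (T : ι' → List (Fin g → ℂ)) (s : Fin g → ℂ) : s ∈ entries T ↔ ∃ i, s ∈ T i := by
  unfold entries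
  simp

theorem Vset_eq {ι' : Type*} [Fintype ι'] [DecidableEq (Fin g → ℂ)] (T : ι' → List (Fin g → ℂ)) :
    Vset N th0 lift T = Connect6.V th0 lift (entries T) := by
  ext x
  unfold Vset Connect6.V
  simp only [Set.mem_ofPred_eq, mem_entries]
  constructor
  · rintro h s ⟨i, hs⟩
    exact h i s hs
  · intro h i s hs
    exact h s ⟨i, hs⟩

include RT hlift in
/-- **the chain theorem from the edge step.** -/
theorem hchain_of_edgeStep {ι' : Type*} [Fintype ι'] [Nonempty ι']
    (hper : ∀ l ∈ L.lattice, ∀ z, th0 (z + l) = 0 ↔ th0 z = 0)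
    (hdiff : Differentiable ℂ th0) (hne : ∃ z, th0 z ≠ 0)
    (hTORS : ∀ n : ℕ, 0 < n → ∀ t : (Fin g → ℂ) ⧸ L.lattice, n • t = 0 →
      ∃ x : JZero N, AJ.iota (extPic0C N x) = t)
    (hedge : EdgeStepAll RT lift ι')
    (T : ι' → List (Fin g → ℂ)) (hlen : ∀ i, (T i).length = 4) (hsum : ∀ i, (T i).sum = 0)
    (halg : ∀ i, ∀ s ∈ T i, ∃ x : JZero N,
      AJ.iota (extPic0C N x) = QuotientAddGroup.mk (s - RT.k)) :
    ∃ (K1 : IntermediateField ℚ Qb) (_ : FiniteDimensional ℚ ↥K1)
      (c : ι' → ℂ) (r : JZero N → ι' → Qb), (∀ i, c i ≠ 0) ∧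
      RatEqOn (Γ := ↥K1.fixingSubgroup) (complexEmbedding : Qb →+* ℂ)
        (fun x i => c i * psiT th0 (T i) (lift x))
        {x | ∀ i, ∀ s ∈ T i, th0 (lift x + s) ≠ 0} r := by
  classical
  obtain ⟨i0⟩ := ‹Nonempty ι'›
  -- the algebraic parts
  let xs : (Fin g → ℂ) → JZero N := fun s =>
    if h : ∃ x : JZero N, AJ.iota (extPic0C N x) = QuotientAddGroup.mk (s - RT.k) then h.choose
    else 0
  have hxs : ∀ i, ∀ s ∈ T i, AJ.iota (extPic0C N (xs s)) = QuotientAddGroup.mk (s - RT.k) := by
    intro i s hs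
    have h := halg i s hs
    simp only [xs, dif_pos h]
    exact h.choose_spec
  let S₀ : Set (JZero N) := xs '' (entries T : Set (Fin g → ℂ))
  have hS₀ : S₀.Finite := (Finset.finite_toSet _).image _
  -- the edge step
  have hE : ∀ K1 : IntermediateField ℚ Qb, (∀ σ : ↥K1.fixingSubgroup, ∀ y ∈ S₀, σ • y = y) →
      EdgeStep N th0 lift T i0 K1 := by
    intro K1 hK1
    refine hedge T i0 (fun i => by rw [hlen i, hlen i0]) (fun i => by rw [hsum i, hsum i0]) xs hxs
      K1 ?_
    intro σ i s hs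
    exact hK1 σ (xs s) ⟨s, Finset.mem_coe.mpr ((mem_entries T s).mpr ⟨i, hs⟩), rfl⟩
  -- connectivity
  have hconn : Connected N th0 lift T := by
    intro x0 hx0 x hx
    rw [Vset_eq] at hx0 hx
    have := Connect6.connected RT lift hlift (entries T) hper hx0 hx
    rw [Vset_eq]
    exact this
  -- the good set is not empty
  have hne' : (Vset N th0 lift T).Nonempty := by
    set τ := siegelOfLat L with hτ
    have hΛ : latticeSubgroup τ = L.lattice := latticeSubgroup_siegelOfLat L
    have hTORS' : ∀ z, z ∈ torsionSet (latticeSubgroup τ) →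
        ∃ x : JZero N, z - lift x ∈ latticeSubgroup τ := by
      rintro z ⟨n, hn, hnz⟩
      rw [hΛ] at hnz ⊢
      obtain ⟨x, hx⟩ := hTORS n hn (QuotientAddGroup.mk z) (by
        rw [← QuotientAddGroup.mk_nsmul]
        exact (QuotientAddGroup.eq_zero_iff _).mpr hnz)
      refine ⟨x, ?_⟩
      rw [← QuotientAddGroup.eq_zero_iff, QuotientAddGroup.mk_sub, hlift, hx, sub_self]
    let W : (Fin g → ℂ) → ℂ := fun z => ∏ s ∈ entries T, th0 (z + s)
    have hWd : Differentiable ℂ W :=
      Generic9.differentiable_finset_prod (entries T) (fun s z => th0 (z + s))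
        fun s _ => hdiff.comp (differentiable_id.add_const _)
    have hW0 : ∃ z, W z ≠ 0 := by
      obtain ⟨z, hz⟩ := Generic9.exists_forall_ne_zero (entries T) (fun s z => th0 (z + s))
        (fun s _ => hdiff.comp (differentiable_id.add_const _))
        (fun s _ => by
          obtain ⟨z₀, hz₀⟩ := hne
          exact ⟨z₀ - s, by rwa [sub_add_cancel]⟩)
      exact ⟨z, Finset.prod_ne_zero_iff.mpr hz⟩
    have hWΛ : ∀ l ∈ latticeSubgroup τ, ∀ z, W z = 0 → W (z + l) = 0 := by
      intro l hl z hz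
      rw [hΛ] at hl
      obtain ⟨s, hs, hp⟩ := Finset.prod_eq_zero_iff.mp hz
      refine Finset.prod_eq_zero hs ?_
      rw [add_right_comm]
      exact (hper l hl _).mpr hp
    obtain ⟨x, hx⟩ := Generic9.exists_lift_ne_zero τ lift hTORS' W hWd hW0 hWΛ
    refine ⟨x, ?_⟩
    rw [Vset_eq]
    intro s hs
    exact Finset.prod_ne_zero_iff.mp hx s hs
  exact exists_ratEqOn N th0 lift T i0 S₀ hS₀ hE hconn hne'

/-- **S17 for `g`-dimensional data from the conjugate edge step**: everything of programme M17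
except (RL) (which produces `AJ`) and (CH-2) (which produces `hedge`). -/
theorem s17_of_edgeStep (N : ℕ) [NeZero N] {g : ℕ} (L : LatData N g) (AJ : AJData N L)
    (lift : JZero N → Fin g → ℂ)
    (hlift : ∀ x : JZero N,
      (QuotientAddGroup.mk (lift x) : (Fin g → ℂ) ⧸ L.lattice) = AJ.iota (extPic0C N x))
    (hedge : EdgeStepAll (Fermat.Agent.M17.RTFinal5.rtDataFinal L AJ) lift (Char2 g × Char2 g)) :
    AddGroup.FG ↥(FixedPoints.addSubgroup (Qb ≃ₐ[ℚ] Qb) (JZero N)) := by
  set RT := Fermat.Agent.M17.RTFinal5.rtDataFinal L AJ with hRT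
  have hTORS : ∀ n : ℕ, 0 < n → ∀ t : (Fin g → ℂ) ⧸ L.lattice, n • t = 0 →
      ∃ x : JZero N, AJ.iota (extPic0C N x) = t := by
    intro n hn t ht
    obtain ⟨y, -, hy⟩ := Fermat.Agent.M17.TorsionOnto0.torsion_onto_bar L AJ n hn t ht
    exact ⟨y, hy⟩
  refine Fermat.Agent.M17.Assembly9.s17_of_chain N L AJ lift hlift hTORS RT.k
    (Fermat.Agent.M17.KappaFinal2.two_k_rational' RT (th0_differentiable L) (th0_even L)
      (th0_ne L)) ?_
  intro T hlen hsum halg
  exact hchain_of_edgeStep RT lift hlift (th0_per L) (th0_differentiable L) (th0_ne L) hTORS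
    hedge T hlen hsum halg

end

end Fermat.Agent.M17.ChainFinal5
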