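/-
M17 (helper6), programme M17 (target S17); imported by no statement.

**The integral symplectic (Frobenius) normal form** (leaf (T3) of report 132): a nondegenerate
alternating bilinear form on a free `ℤ`-module of finite rank has a basis `a_i, b_i` with
`E(a_i, a_j) = E(b_i, b_j) = 0`, `E(a_i, b_j) = d_i δ_ij`, `d_i > 0`.  Mathlib only.
-/
import Mathlib

set_option autoImplicit false
set_option linter.style.haveILetI false
set_option linter.unusedSectionVars false
set_option linter.unusedVariables false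

namespace Fermat.Agent.M17.SymplecticBasis6

open Module

universe u

section Step

variable {M : Type u} [AddCommGroup M] (E : M →ₗ[ℤ] M →ₗ[ℤ] ℤ)

theorem skew (halt : ∀ x, E x x = 0) (x y : M) : E x y = - E y x := by
  have h := halt (x + y)
  simp only [map_add, LinearMap.add_apply, halt, zero_add, add_zero] at h
  linarith

/-- the orthogonal complement of `{x, y}`. -/
def perp (x y : M) : Submodule ℤ M := LinearMap.ker (E x) ⊓ LinearMap.ker (E y)

theorem mem_perp {x y z : M} : z ∈ perp E x y ↔ E x z = 0 ∧ E y z = 0 := by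
  unfold perp
  rw [Submodule.mem_inf, LinearMap.mem_ker, LinearMap.mem_ker]

variable {E}

theorem dvd_left {d : ℕ} (hd : 0 < d) {x y : M} (hxy : E x y = d)
    (hmin : ∀ n : ℕ, 0 < n → (∃ u v, E u v = n) → d ≤ n) (z : M) : (d : ℤ) ∣ E x z := by
  have hd' : (0 : ℤ) < d := by exact_mod_cast hd
  by_contra hnd
  have hr0 : 0 ≤ E x z % d := Int.emod_nonneg (E x z) hd'.ne'
  have hr_pos : 0 < E x z % d := by
    rcases hr0.lt_or_eq with h | h
    · exact h
    · exact absurd (Int.dvd_of_emod_eq_zero h.symm) hnd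
  have hr_lt : E x z % d < d := Int.emod_lt_of_pos _ hd'
  have key : E x (z - (E x z / d) • y) = E x z % d := by
    rw [map_sub, map_smul, hxy, smul_eq_mul, Int.emod_def]
    ring
  have := hmin (E x z % d).toNat (by omega)
    ⟨x, _, by rw [key, Int.toNat_of_nonneg hr_pos.le]⟩
  omega

theorem dvd_right {d : ℕ} (hd : 0 < d) {x y : M} (hxy : E x y = d)
    (hmin : ∀ n : ℕ, 0 < n → (∃ u v, E u v = n) → d ≤ n) (z : M) : (d : ℤ) ∣ E z y := by
  have hd' : (0 : ℤ) < d := by exact_mod_cast hd
  by_contra hnd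
  have hr0 : 0 ≤ E z y % d := Int.emod_nonneg (E z y) hd'.ne'
  have hr_pos : 0 < E z y % d := by
    rcases hr0.lt_or_eq with h | h
    · exact h
    · exact absurd (Int.dvd_of_emod_eq_zero h.symm) hnd
  have hr_lt : E z y % d < d := Int.emod_lt_of_pos _ hd'
  have key : E (z - (E z y / d) • x) y = E z y % d := by
    rw [map_sub, map_smul, LinearMap.sub_apply, LinearMap.smul_apply, hxy, smul_eq_mul,
      Int.emod_def]
    ring
  have := hmin (E z y % d).toNat (by omega)
    ⟨_, y, by rw [key, Int.toNat_of_nonneg hr_pos.le]⟩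
  omega

/-- the splitting `ℤ x ⊕ ℤ y ⊕ {x, y}^⊥ → M`. -/
def splitMap (x y : M) : ((ℤ × ℤ) × perp E x y) →ₗ[ℤ] M :=
  LinearMap.coprod
    (LinearMap.coprod (LinearMap.toSpanSingleton ℤ M x) (LinearMap.toSpanSingleton ℤ M y))
    (perp E x y).subtype

theorem splitMap_apply (x y : M) (a b : ℤ) (w : perp E x y) :
    splitMap (E := E) x y ((a, b), w) = a • x + b • y + (w : M) := by
  simp [splitMap, LinearMap.toSpanSingleton_apply]

theorem splitMap_bijective (halt : ∀ x, E x x = 0) {d : ℕ} (hd : 0 < d) {x y : M}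
    (hxy : E x y = d) (hmin : ∀ n : ℕ, 0 < n → (∃ u v, E u v = n) → d ≤ n) :
    Function.Bijective (splitMap (E := E) x y) := by
  have hd' : (d : ℤ) ≠ 0 := by exact_mod_cast hd.ne'
  have hyx : E y x = -(d : ℤ) := by rw [skew E halt y x, hxy]
  constructor
  · rw [← LinearMap.ker_eq_bot, LinearMap.ker_eq_bot']
    rintro ⟨⟨a, b⟩, w⟩ h
    rw [splitMap_apply] at h
    obtain ⟨hw1, hw2⟩ := (mem_perp E).mp w.2
    have h1 : E x (a • x + b • y + (w : M)) = 0 := by rw [h, map_zero]
    have h2 : E y (a • x + b • y + (w : M)) = 0 := by rw [h, map_zero]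
    simp only [map_add, map_smul, halt, hxy, hyx, hw1, hw2, smul_eq_mul, mul_zero, zero_add,
      add_zero] at h1 h2
    have hb : b = 0 := by
      rcases mul_eq_zero.mp h1 with h | h
      · exact h
      · exact absurd h hd'
    have ha : a = 0 := by
      have : a * (d : ℤ) = 0 := by linarith
      rcases mul_eq_zero.mp this with h | h
      · exact h
      · exact absurd h hd'
    subst ha hb
    simp only [zero_smul, zero_add] at h
    have hw : w = 0 := Subtype.ext h
    rw [hw]
    rfl
  · intro z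
    obtain ⟨a, ha⟩ := dvd_right hd hxy hmin z
    obtain ⟨b, hb⟩ := dvd_left hd hxy hmin z
    have hz : z - a • x - b • y ∈ perp E x y := by
      rw [mem_perp E]
      constructor
      · simp only [map_sub, map_smul, halt, hxy, smul_eq_mul, mul_zero, sub_zero]
        rw [hb]; ring
      · simp only [map_sub, map_smul, halt, hyx, smul_eq_mul, mul_zero, sub_zero]
        rw [skew E halt y z, ha]; ring
    refine ⟨((a, b), ⟨_, hz⟩), ?_⟩
    rw [splitMap_apply]
    show a • x + b • y + (z - a • x - b • y) = z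
    abel

/-- the restriction of the form to `{x, y}^⊥`. -/
def restr (x y : M) : perp E x y →ₗ[ℤ] perp E x y →ₗ[ℤ] ℤ :=
  E.compl₁₂ (perp E x y).subtype (perp E x y).subtype

theorem restr_apply (x y : M) (u v : perp E x y) : restr (E := E) x y u v = E (u : M) (v : M) :=
  rfl

end Step

/-- the normal form, with an arbitrary finite index type. -/
def HasSB (M : Type u) [AddCommGroup M] (E : M →ₗ[ℤ] M →ₗ[ℤ] ℤ) : Prop :=
  ∃ (ι : Type) (_ : Fintype ι) (B : Basis (ι ⊕ ι) ℤ M) (d : ι → ℕ), (∀ i, 0 < d i) ∧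
    (∀ i j, E (B (.inl i)) (B (.inl j)) = 0) ∧ (∀ i j, E (B (.inr i)) (B (.inr j)) = 0) ∧
    (∀ i, E (B (.inl i)) (B (.inr i)) = d i) ∧
    (∀ i j, i ≠ j → E (B (.inl i)) (B (.inr j)) = 0)

theorem hasSB_aux : ∀ n : ℕ, ∀ (M : Type u) [AddCommGroup M] [Module.Free ℤ M]
    [Module.Finite ℤ M] (E : M →ₗ[ℤ] M →ₗ[ℤ] ℤ), finrank ℤ M = n → (∀ x, E x x = 0) →
    (∀ x, (∀ y, E x y = 0) → x = 0) → HasSB M E := by
  intro n
  induction n using Nat.strong_induction_on with
  | _ n ih =>
  intro M _ _ _ E hn halt hnd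
  classical
  by_cases h0 : ∀ x y, E x y = 0
  · -- trivial module
    haveI : Subsingleton M := ⟨fun a b => by rw [hnd a (h0 a), hnd b (h0 b)]⟩
    exact ⟨Empty, inferInstance, Basis.empty M, fun i => i.elim, fun i => i.elim,
      fun i => i.elim, fun i => i.elim, fun i => i.elim, fun i => i.elim⟩
  · push Not at h0
    obtain ⟨x0, y0, h00⟩ := h0
    -- a positive value
    have hex : ∃ m : ℕ, 0 < m ∧ ∃ u v, E u v = m := by
      rcases lt_or_gt_of_ne h00 with h | h
      · refine ⟨(E y0 x0).toNat, ?_, y0, x0, ?_⟩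
        · have := skew E halt y0 x0; omega
        · have := skew E halt y0 x0
          rw [Int.toNat_of_nonneg (by omega)]
      · exact ⟨(E x0 y0).toNat, by omega, x0, y0, by rw [Int.toNat_of_nonneg h.le]⟩
    let d := Nat.find hex
    obtain ⟨hd, x, y, hxy⟩ : 0 < d ∧ ∃ u v, E u v = d := Nat.find_spec hex
    have hmin : ∀ m : ℕ, 0 < m → (∃ u v, E u v = m) → d ≤ m :=
      fun m hm h => Nat.find_min' hex ⟨hm, h⟩
    have hyx : E y x = -(d : ℤ) := by rw [skew E halt y x, hxy]
    -- the splitting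
    let e : ((ℤ × ℤ) × perp E x y) ≃ₗ[ℤ] M :=
      LinearEquiv.ofBijective (splitMap (E := E) x y) (splitMap_bijective halt hd hxy hmin)
    have he : ∀ a b (w : perp E x y), e ((a, b), w) = a • x + b • y + (w : M) :=
      fun a b w => splitMap_apply x y a b w
    have hrank : finrank ℤ M = 2 + finrank ℤ (perp E x y) := by
      rw [← e.finrank_eq, Module.finrank_prod, Module.finrank_prod, Module.finrank_self]
    -- the induction hypothesis on the complement
    have halt' : ∀ u, restr (E := E) x y u u = 0 := fun u => halt _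
    have hnd' : ∀ u, (∀ v, restr (E := E) x y u v = 0) → u = 0 := by
      intro u hu
      refine Subtype.ext (hnd _ fun z => ?_)
      obtain ⟨⟨⟨a, b⟩, w⟩, rfl⟩ := e.surjective z
      obtain ⟨hu1, hu2⟩ := (mem_perp E).mp u.2
      rw [he, map_add, map_add, map_smul, map_smul, skew E halt _ x, hu1, skew E halt _ y, hu2]
      have := hu w
      rw [restr_apply] at this
      rw [this]
      simp
    obtain ⟨ι, hι, B', d', hd', h11, h22, h12, h12'⟩ :=
      ih (finrank ℤ (perp E x y)) (by omega) (perp E x y) (restr (E := E) x y) rfl halt' hnd'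
    -- assemble
    let b2 : Basis (Unit ⊕ Unit) ℤ (ℤ × ℤ) := (Basis.singleton Unit ℤ).prod (Basis.singleton Unit ℤ)
    let σ : (Unit ⊕ Unit) ⊕ (ι ⊕ ι) ≃ (Unit ⊕ ι) ⊕ (Unit ⊕ ι) := Equiv.sumSumSumComm _ _ _ _
    let B : Basis ((Unit ⊕ ι) ⊕ (Unit ⊕ ι)) ℤ M := ((b2.prod B').map e).reindex σ
    have hBx : B (.inl (.inl ())) = x := by
      show ((b2.prod B').map e).reindex σ _ = x
      rw [Basis.reindex_apply, Basis.map_apply]
      have : (b2.prod B') (σ.symm (.inl (.inl ()))) = ((1, 0), 0) := by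
        show (b2.prod B') (.inl (.inl ())) = _
        simp [b2, Basis.prod_apply]
      rw [this, he]
      simp
    have hBy : B (.inr (.inl ())) = y := by
      show ((b2.prod B').map e).reindex σ _ = y
      rw [Basis.reindex_apply, Basis.map_apply]
      have : (b2.prod B') (σ.symm (.inr (.inl ()))) = ((0, 1), 0) := by
        show (b2.prod B') (.inl (.inr ())) = _
        simp [b2, Basis.prod_apply]
      rw [this, he]
      simp
    have hBa : ∀ i, B (.inl (.inr i)) = (B' (.inl i) : M) := by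
      intro i
      show ((b2.prod B').map e).reindex σ _ = _
      rw [Basis.reindex_apply, Basis.map_apply]
      have : (b2.prod B') (σ.symm (.inl (.inr i))) = ((0, 0), B' (.inl i)) := by
        show (b2.prod B') (.inr (.inl i)) = _
        simp [Basis.prod_apply, Prod.ext_iff]
      rw [this, he]
      simp
    have hBb : ∀ i, B (.inr (.inr i)) = (B' (.inr i) : M) := by
      intro i
      show ((b2.prod B').map e).reindex σ _ = _
      rw [Basis.reindex_apply, Basis.map_apply]
      have : (b2.prod B') (σ.symm (.inr (.inr i))) = ((0, 0), B' (.inr i)) := by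
        show (b2.prod B') (.inr (.inr i)) = _
        simp [Basis.prod_apply, Prod.ext_iff]
      rw [this, he]
      simp
    have hperp : ∀ w : perp E x y, E x w = 0 ∧ E y w = 0 ∧ E w x = 0 ∧ E w y = 0 := by
      intro w
      obtain ⟨h1, h2⟩ := (mem_perp E).mp w.2
      exact ⟨h1, h2, by rw [skew E halt, h1, neg_zero], by rw [skew E halt, h2, neg_zero]⟩
    refine ⟨Unit ⊕ ι, inferInstance, B, Sum.elim (fun _ => d) d', ?_, ?_, ?_, ?_, ?_⟩
    · rintro (_ | i)
      · exact hd
      · exact hd' i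
    · rintro (_ | i) (_ | j)
      · rw [hBx]; exact halt x
      · rw [hBx, hBa]; exact (hperp _).1
      · rw [hBx, hBa]; exact (hperp _).2.2.1
      · rw [hBa, hBa]; exact h11 i j
    · rintro (_ | i) (_ | j)
      · rw [hBy]; exact halt y
      · rw [hBy, hBb]; exact (hperp _).2.1
      · rw [hBy, hBb]; exact (hperp _).2.2.2
      · rw [hBb, hBb]; exact h22 i j
    · rintro (_ | i)
      · rw [hBx, hBy]; exact hxy
      · rw [hBa, hBb]; exact h12 i
    · rintro (_ | i) (_ | j) hij
      · exact absurd rfl hij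
      · rw [hBx, hBb]; exact (hperp _).1
      · rw [hBa, hBy]; exact (hperp _).2.2.2
      · rw [hBa, hBb]
        exact h12' i j fun h => hij (by rw [h])

/-- **The integral symplectic normal form.** -/
theorem exists_symplectic_basis {M : Type u} [AddCommGroup M] [Module.Free ℤ M]
    [Module.Finite ℤ M] (E : M →ₗ[ℤ] M →ₗ[ℤ] ℤ) (halt : ∀ x, E x x = 0)
    (hnd : ∀ x, (∀ y, E x y = 0) → x = 0) :
    ∃ (g : ℕ) (B : Basis (Fin g ⊕ Fin g) ℤ M) (d : Fin g → ℕ), (∀ i, 0 < d i) ∧
      (∀ i j, E (B (.inl i)) (B (.inl j)) = 0) ∧ (∀ i j, E (B (.inr i)) (B (.inr j)) = 0) ∧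
      (∀ i j, E (B (.inl i)) (B (.inr j)) = if i = j then (d i : ℤ) else 0) := by
  obtain ⟨ι, hι, B, d, hd, h11, h22, h12, h12'⟩ := hasSB_aux _ M E rfl halt hnd
  let τ : ι ≃ Fin (Fintype.card ι) := Fintype.equivFin ι
  refine ⟨Fintype.card ι, B.reindex (τ.sumCongr τ), fun i => d (τ.symm i), fun i => hd _, ?_, ?_, ?_⟩
  · intro i j
    simp only [Basis.reindex_apply, Equiv.sumCongr_symm, Equiv.sumCongr_apply, Sum.map_inl]
    exact h11 _ _
  · intro i j
    simp only [Basis.reindex_apply, Equiv.sumCongr_symm, Equiv.sumCongr_apply, Sum.map_inr]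
    exact h22 _ _
  · intro i j
    simp only [Basis.reindex_apply, Equiv.sumCongr_symm, Equiv.sumCongr_apply, Sum.map_inl,
      Sum.map_inr]
    by_cases hij : i = j
    · subst hij
      rw [if_pos rfl]
      exact h12 _
    · rw [if_neg hij]
      exact h12' _ _ fun h => hij (τ.symm.injective h)

end Fermat.Agent.M17.SymplecticBasis6
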