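/-
M17 (helper6), programme M17 (target S17); imported by no statement.

**(UNI-1): the integral alternating form `EΓ Γ` (`EE M`) of ES/I2 takes EVEN values**, so that the
true cup product `P = EE / 2` is an integral, alternating, nondegenerate form on
`parabolicHoms ℤ Γ ℤ` - the input of `SymplecticBasis6.exists_symplectic_basis`.

Proof: `EΓ x y = ⟨2β + v_x, v_y⟩` (`ESeam13.EΓ_eq_model` + `ModelForm21.E2_eq_form`), and
`⟨v, v'⟩ = Σ_ω v(ω) v'(ω)` is even for two `S`-antisymmetric functions (`v(Sω) = -v(ω)`): the terms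
pair up under the involution `S`, and `v` vanishes at the fixed points of `S`.
-/
import Mathlib
import Fermat.Agent.ES.I2.ENondeg21
import Fermat.Agent.M17.SymplecticBasis6
import Fermat.Agent.ES.HEQ.ParLattice11

set_option autoImplicit false
set_option linter.unusedSectionVars false
set_option linter.unusedVariables false
set_option linter.style.haveILetI false

namespace Fermat.Agent.M17.EEven6

open Matrix MatrixGroups ModularCurve.Period
open Fermat.Agent.ES.I2 Fermat.Agent.ES.I2.PSL2Free11 Fermat.Agent.ES.I2.AdaptedSec21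
open Fermat.Agent.ES.I2.Gamma0Model11

/-- a sum of a function invariant under an involution and vanishing at its fixed points is even. -/
theorem two_dvd_sum_of_involution {X : Type*} [Fintype X] (s : X → X) (hs : ∀ x, s (s x) = x)
    (f : X → ℤ) (hf : ∀ x, f (s x) = f x) (hfix : ∀ x, s x = x → f x = 0) :
    (2 : ℤ) ∣ ∑ x, f x := by
  classical
  have h : ((∑ x, f x : ℤ) : ZMod 2) = 0 := by
    push_cast
    refine Finset.sum_involution (fun x _ => s x) ?_ ?_ (fun x _ => Finset.mem_univ _)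
      (fun x _ => hs x)
    · intro x _
      rw [hf x]
      have : ((f x : ℤ) : ZMod 2) + ((f x : ℤ) : ZMod 2) = ((2 * f x : ℤ) : ZMod 2) := by
        push_cast; ring
      rw [this]
      push_cast
      have h2 : (2 : ZMod 2) = 0 := by decide
      rw [h2, zero_mul]
    · intro x _ hne heq
      apply hne
      rw [hfix x heq]
      simp
  exact (ZMod.intCast_zmod_eq_zero_iff_dvd _ 2).mp h

section Model

variable {X : Type*} [MulAction Q X] [Fintype X]

/-- the dot product of two `S`-antisymmetric integral functions is even. -/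
theorem two_dvd_form {v v' : X → ℤ} (hv : v + Model13.act Sb v = 0)
    (hv' : v' + Model13.act Sb v' = 0) : (2 : ℤ) ∣ Model13.form v v' := by
  have hS : ∀ x : X, Sb⁻¹ • Sb⁻¹ • x = x := by
    intro x
    rw [← mul_smul, ← _root_.mul_inv_rev, ModelForm21.Sb_mul_self, inv_one, one_smul]
  have e : ∀ (w : X → ℤ), w + Model13.act Sb w = 0 → ∀ x, w (Sb⁻¹ • x) = - w x := by
    intro w hw x
    have := congrFun hw x
    have h2 : w x + w (Sb⁻¹ • x) = 0 := this
    linarith
  unfold Model13.form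
  refine two_dvd_sum_of_involution (fun x => Sb⁻¹ • x) hS (fun x => v x * v' x) ?_ ?_
  · intro x
    show v (Sb⁻¹ • x) * v' (Sb⁻¹ • x) = v x * v' x
    rw [e v hv, e v' hv']
    ring
  · intro x hx
    have h1 := e v hv x
    rw [hx] at h1
    have : v x = 0 := by omega
    show v x * v' x = 0
    rw [this, zero_mul]

end Model

variable {Γ : Subgroup SL(2, ℤ)} [Γ.FiniteIndex]

/-- **(UNI-1)**: `EΓ Γ` takes even values (`-1 ∈ Γ`). -/
theorem two_dvd_EΓ (hneg : (-1 : SL(2, ℤ)) ∈ Γ) (x y : ↥(parabolicHoms ℤ Γ ℤ)) :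
    (2 : ℤ) ∣ EDef25.EΓ Γ x y := by
  classical
  obtain ⟨D⟩ := exists_cuspData (G := Q) (X := XQ Γ) (Sb * Ub) (x0 Γ)
  have : Fintype (MulAction.orbitRel.Quotient (Subgroup.zpowers (Sb * Ub)) (XQ Γ)) :=
    Fintype.ofFinite _
  rw [ESeam13.EΓ_eq_model hneg D ENondeg21.two_torsion_free_int x y]
  set e := pullParEquiv Γ (R := ℤ) ENondeg21.two_torsion_free_int with he
  have hφ : ShapiroBridge1.IsPar (Sb * Ub)
      (push Γ ENondeg21.two_torsion_free_int (x : Additive Γ →+ ℤ)) := (e.symm x).2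
  have hψ : ShapiroBridge1.IsPar (Sb * Ub)
      (push Γ ENondeg21.two_torsion_free_int (y : Additive Γ →+ ℤ)) := (e.symm y).2
  obtain ⟨β, hβ⟩ := ModelForm21.exists_beta D
    (ModelForm21.three_torsion_free ModelNondeg21.six_torsion_free_int)
    (push Γ ENondeg21.two_torsion_free_int (x : Additive Γ →+ ℤ))
  rw [ModelForm21.E2_eq_form D ModelNondeg21.six_torsion_free_int _ _
    (ModelNondeg21.kills_c D hφ) (ModelNondeg21.kills_c D hψ) β hβ]
  have h1 := (ModelNondeg21.symbol_mem_symb D hφ).1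
  have h2 := (ModelNondeg21.symbol_mem_symb D hψ).1
  rw [Model13.form_add_left]
  refine dvd_add ?_ (two_dvd_form h1 h2)
  have : (2 : XQ Γ → ℤ) * β = (2 : ℤ) • β := by
    funext ω
    simp
  rw [this, Model13.form_smul_left]
  exact dvd_mul_right _ _

/-- `EE M` takes even values. -/
theorem two_dvd_EE (M : ℕ) [NeZero M] (x y : ↥(parabolicHoms ℤ (CongruenceSubgroup.Gamma0 M) ℤ)) :
    (2 : ℤ) ∣ EDef25.EE M x y :=
  two_dvd_EΓ (neg_one_mem_Gamma0 M) x y

/-- **the cup product `P = EE / 2`** as an integral bilinear form. -/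
noncomputable def cupP (M : ℕ) [NeZero M] :
    ↥(parabolicHoms ℤ (CongruenceSubgroup.Gamma0 M) ℤ) →ₗ[ℤ]
      ↥(parabolicHoms ℤ (CongruenceSubgroup.Gamma0 M) ℤ) →ₗ[ℤ] ℤ :=
  LinearMap.mk₂ ℤ (fun x y => EDef25.EE M x y / 2)
    (fun x x' y => by
      obtain ⟨a, ha⟩ := two_dvd_EE M x y
      obtain ⟨b, hb⟩ := two_dvd_EE M x' y
      rw [map_add, LinearMap.add_apply, ha, hb]
      omega)
    (fun r x y => by
      obtain ⟨a, ha⟩ := two_dvd_EE M x y
      rw [map_smul, LinearMap.smul_apply, ha, smul_eq_mul, smul_eq_mul]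
      rw [show r * (2 * a) = 2 * (r * a) by ring]
      simp)
    (fun x y y' => by
      obtain ⟨a, ha⟩ := two_dvd_EE M x y
      obtain ⟨b, hb⟩ := two_dvd_EE M x y'
      rw [map_add, ha, hb]
      omega)
    (fun r x y => by
      obtain ⟨a, ha⟩ := two_dvd_EE M x y
      rw [map_smul, ha, smul_eq_mul, smul_eq_mul]
      rw [show r * (2 * a) = 2 * (r * a) by ring]
      simp)

theorem two_mul_cupP (M : ℕ) [NeZero M] (x y : ↥(parabolicHoms ℤ (CongruenceSubgroup.Gamma0 M) ℤ)) :
    2 * cupP M x y = EDef25.EE M x y := by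
  obtain ⟨a, ha⟩ := two_dvd_EE M x y
  show 2 * (EDef25.EE M x y / 2) = _
  rw [ha]
  simp

theorem cupP_alt (M : ℕ) [NeZero M] (x : ↥(parabolicHoms ℤ (CongruenceSubgroup.Gamma0 M) ℤ)) :
    cupP M x x = 0 := by
  have h := two_mul_cupP M x x
  rw [EDef25.EE_alt] at h
  omega

theorem cupP_nondeg (M : ℕ) [NeZero M] (x : ↥(parabolicHoms ℤ (CongruenceSubgroup.Gamma0 M) ℤ))
    (H : ∀ y, cupP M x y = 0) : x = 0 := by
  refine ENondeg21.E_nondeg M x fun y => ?_
  rw [← two_mul_cupP, H y, mul_zero]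

/-- **the symplectic basis of `H¹_par(Γ₀(M), ℤ)` for the cup product `P = EE / 2`**: the integral
normal form; `2 g` is the rank, the `d i ≥ 1` are the elementary divisors (all `1` in truth, which
is not needed: the lattice `Λ₀ = ⊕ ℤ (a_i / d_i) ⊕ ℤ b_i` carries the SAME real form, principally). -/
theorem exists_symplectic_basis_cupP (M : ℕ) [NeZero M] :
    ∃ (g : ℕ) (B : Module.Basis (Fin g ⊕ Fin g) ℤ
        ↥(parabolicHoms ℤ (CongruenceSubgroup.Gamma0 M) ℤ)) (d : Fin g → ℕ),
      (∀ i, 0 < d i) ∧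
      (∀ i j, cupP M (B (.inl i)) (B (.inl j)) = 0) ∧
      (∀ i j, cupP M (B (.inr i)) (B (.inr j)) = 0) ∧
      (∀ i j, cupP M (B (.inl i)) (B (.inr j)) = if i = j then (d i : ℤ) else 0) :=
  Fermat.Agent.M17.SymplecticBasis6.exists_symplectic_basis (cupP M) (cupP_alt M) (cupP_nondeg M)

end Fermat.Agent.M17.EEven6
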