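/-
M17 (helper6), programme M17 (target S17); imported by no statement.

**The producer of I-LAT** (`Interfaces7.LatData`): from
* (UNI-2) `UNI2 N` : the cup product `P = EE / 2` is nondegenerate modulo `2`,
* (RB2)  `RB2 N`  : `E2_ℂ (per f, conj per f) = 4 i r`, `r > 0`, for `f ≠ 0`,
* (RB1)  `RiemannBilinearOne2.rb1` (proved),
the normalised basis of `S₂`, the symplectic generators, the dual basis of `H¹`, the period matrix
(symmetric, positive definite imaginary part).  Pure (multi)linear algebra on top of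
`ES/HEQ/ParLattice11`, `ES/I2`, `S21`, `M17/EEven6`, `M17/SymplecticBasis6`.
-/
import Mathlib
import Fermat.Agent.M17.EEven6
import Fermat.Agent.M17.Interfaces7
import Fermat.Agent.M17.RiemannBilinearOne2
import Fermat.Agent.S21
import Fermat.Agent.M15.DivAut1

set_option autoImplicit false
set_option linter.unusedSectionVars false
set_option linter.unusedVariables false
set_option linter.style.haveILetI false
set_option linter.style.longLine false

noncomputable section

namespace Fermat.Agent.M17.PeriodMatrix6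

open Complex CongruenceSubgroup ModularCurve ModularCurve.Period
open scoped MatrixGroups
open Fermat.Agent.ES.I2 Fermat.Agent.ES.I2.CuspPairing25 Fermat.Agent.ES.I2.CuspPairingTwo25
open Fermat.Agent.ES.I2.CuspSys13 Fermat.Agent.ES.I2.DegAdj3
open Fermat.Agent.ES.HEQ.ParLattice11
open Fermat.Agent.M17.EEven6

variable (N : ℕ) [NeZero N]

/-! ### the complex bilinear form `E2_ℂ` on `parabolicHoms ℂ Γ ℂ` -/

theorem two_torsion_free_complex : ∀ r : ℂ, 2 • r = 0 → r = 0 := by
  intro r hr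
  have h : (2 : ℂ) * r = 0 := by simpa [two_smul, two_mul] using hr
  rcases mul_eq_zero.mp h with h | h
  · norm_num at h
  · exact h

theorem three_torsion_free_complex : ∀ r : ℂ, 3 • r = 0 → r = 0 := by
  intro r hr
  have h : (3 : ℂ) * r = 0 := by
    have : (3 : ℕ) • r = (3 : ℂ) * r := by rw [nsmul_eq_mul]; norm_num
    rw [← this]; exact hr
  rcases mul_eq_zero.mp h with h | h
  · norm_num at h
  · exact h

theorem hasPrim2_complex : HasPrim2 (R := ℂ) (cuspFam (Gamma0 N)) :=
  HasPrimGamma25.hasPrim2 (Gamma0 N) two_torsion_free_complex three_torsion_free_complex _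

theorem rel_complex : Rel ℂ (cuspFam (Gamma0 N)) :=
  Fermat.Agent.M17.RiemannBilinearOne2.rel_cuspFam_complex (Gamma0 N)

theorem isPar_complex (x : ↥(parabolicHoms ℂ (Gamma0 N) ℂ)) :
    IsPar (cuspFam (Gamma0 N)) (fn (x : Additive (Gamma0 N) →+ ℂ)) :=
  EDef25.isPar_cuspFam (Gamma0 N) (mem_parabolicHoms_iff.mp x.2)

/-- **the complex (doubled) cup product** on `parabolicHoms ℂ Γ ℂ`. -/
def EC : LinearMap.BilinForm ℂ ↥(parabolicHoms ℂ (Gamma0 N) ℂ) :=
  LinearMap.mk₂ ℂ
    (fun x y => E2 (cuspFam (Gamma0 N)) (fn (x : Additive (Gamma0 N) →+ ℂ))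
      (fn (y : Additive (Gamma0 N) →+ ℂ)))
    (fun x x' y => by
      show E2 (cuspFam (Gamma0 N)) (fn ((x : Additive (Gamma0 N) →+ ℂ) + (x' : Additive (Gamma0 N) →+ ℂ))) _ = _
      rw [EDef25.fn_add]
      exact E2_add_left (rel_complex N) (hasPrim2_complex N) (isPar_complex N x)
        (isPar_complex N x') (isPar_complex N y))
    (fun r x y => by
      show E2 (cuspFam (Gamma0 N)) (fn (r • (x : Additive (Gamma0 N) →+ ℂ))) _ = r • _
      rw [EDef25.fn_smul, smul_eq_mul]
      exact E2_smul_left (rel_complex N) (hasPrim2_complex N) (isPar_complex N x)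
        (isPar_complex N y) r)
    (fun x y y' => by
      show E2 (cuspFam (Gamma0 N)) _ (fn ((y : Additive (Gamma0 N) →+ ℂ) + (y' : Additive (Gamma0 N) →+ ℂ))) = _
      rw [EDef25.fn_add]
      exact E2_add_right (rel_complex N) (hasPrim2_complex N) (isPar_complex N x)
        (isPar_complex N y) (isPar_complex N y'))
    (fun r x y => by
      show E2 (cuspFam (Gamma0 N)) _ (fn (r • (y : Additive (Gamma0 N) →+ ℂ))) = r • _
      rw [EDef25.fn_smul, smul_eq_mul]
      exact E2_smul_right (rel_complex N) (hasPrim2_complex N) (isPar_complex N x)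
        (isPar_complex N y) r)

theorem EC_apply (x y : ↥(parabolicHoms ℂ (Gamma0 N) ℂ)) :
    EC N x y = E2 (cuspFam (Gamma0 N)) (fn (x : Additive (Gamma0 N) →+ ℂ))
      (fn (y : Additive (Gamma0 N) →+ ℂ)) := rfl

/-- `E2_ℂ` on integral classes is the integral form `EE`. -/
theorem EC_castPar (x y : ↥(parabolicHoms ℤ (Gamma0 N) ℤ)) :
    EC N (castPar (Gamma0 N) ℂ x) (castPar (Gamma0 N) ℂ y) = ((EDef25.EE N x y : ℤ) : ℂ) := by
  obtain ⟨κ, hκ⟩ := HasPrimGamma25.hasPrim2_int (Gamma0 N) (cuspFam (Gamma0 N))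
    (fn (x : Additive (Gamma0 N) →+ ℤ)) (fn (y : Additive (Gamma0 N) →+ ℤ))
    (EDef25.isPar_cuspFam_mem (Gamma0 N) x.2) (EDef25.isPar_cuspFam_mem (Gamma0 N) y.2)
  have hκC : IsPrimitive ((2 : ℂ) • fn ((castPar (Gamma0 N) ℂ x : ↥(parabolicHoms ℂ (Gamma0 N) ℂ)) :
      Additive (Gamma0 N) →+ ℂ))
      (fn ((castPar (Gamma0 N) ℂ y : ↥(parabolicHoms ℂ (Gamma0 N) ℂ)) : Additive (Gamma0 N) →+ ℂ))
      (fun γ => ((κ γ : ℤ) : ℂ)) := by
    intro a b
    have h := hκ a b
    show ((κ (a * b) : ℤ) : ℂ) = _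
    rw [h]
    simp only [Pi.smul_apply, smul_eq_mul]
    push_cast
    rfl
  rw [EC_apply, E2_eq (rel_complex N) hκC]
  show _ = ((EDef25.EΓ (Gamma0 N) x y : ℤ) : ℂ)
  rw [EDef25.EΓ_eq_sum (Gamma0 N) x y hκ]
  push_cast
  rfl

/-! ### elements of `Γ` dual to a basis of `H¹` -/

/-- every integral functional on `H¹ = parabolicHoms ℤ Γ ℤ` is the evaluation at an element of
`Γ`. -/
theorem exists_eval_eq (ℓ : ↥(parabolicHoms ℤ (Gamma0 N) ℤ) →ₗ[ℤ] ℤ) :
    ∃ γ : Gamma0 N, ∀ x : ↥(parabolicHoms ℤ (Gamma0 N) ℤ),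
      (x : Additive (Gamma0 N) →+ ℤ) (Additive.ofMul γ) = ℓ x := by
  classical
  let S : AddSubgroup (↥(parabolicHoms ℤ (Gamma0 N) ℤ) →ₗ[ℤ] ℤ) :=
    { carrier := {ℓ | ∃ γ : Gamma0 N, ∀ x : ↥(parabolicHoms ℤ (Gamma0 N) ℤ),
        (x : Additive (Gamma0 N) →+ ℤ) (Additive.ofMul γ) = ℓ x}
      zero_mem' := ⟨1, fun x => by simp⟩
      add_mem' := by
        rintro ℓ ℓ' ⟨γ, hγ⟩ ⟨γ', hγ'⟩
        refine ⟨γ * γ', fun x => ?_⟩
        rw [ofMul_mul, map_add, hγ, hγ', LinearMap.add_apply]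
      neg_mem' := by
        rintro ℓ ⟨γ, hγ⟩
        refine ⟨γ⁻¹, fun x => ?_⟩
        rw [ofMul_inv, map_neg, hγ, LinearMap.neg_apply] }
  have hcoord : ∀ i, (lamBasis (fg_Gamma0 N)).coord i ∈ S := by
    intro i
    refine ⟨gen (fg_Gamma0 N) i, fun x => ?_⟩
    rw [Module.Basis.coord_apply, lamBasis_repr]
  have hℓ : ℓ ∈ S := by
    rw [← (lamBasis (fg_Gamma0 N)).sum_dual_apply_smul_coord ℓ]
    exact S.sum_mem fun i _ => S.zsmul_mem (hcoord i) _
  exact hℓ

variable {κ : Type*} [Fintype κ] (B : Module.Basis κ ℤ ↥(parabolicHoms ℤ (Gamma0 N) ℤ))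

/-- elements of `Γ` dual to a `ℤ`-basis of `H¹`. -/
theorem exists_dual_elements :
    ∃ c : κ → Gamma0 N, ∀ (k : κ) (x : ↥(parabolicHoms ℤ (Gamma0 N) ℤ)),
      (x : Additive (Gamma0 N) →+ ℤ) (Additive.ofMul (c k)) = B.repr x k := by
  choose c hc using fun k => exists_eval_eq N (B.coord k)
  exact ⟨c, fun k x => by rw [hc k x, Module.Basis.coord_apply]⟩

variable {B}

/-- **expansion of a complex parabolic hom** in a `ℤ`-basis of `H¹` with dual elements `c`. -/
theorem expand_complex {c : κ → Gamma0 N}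
    (hc : ∀ (k : κ) (x : ↥(parabolicHoms ℤ (Gamma0 N) ℤ)),
      (x : Additive (Gamma0 N) →+ ℤ) (Additive.ofMul (c k)) = B.repr x k)
    (φ : ↥(parabolicHoms ℂ (Gamma0 N) ℂ)) :
    φ = ∑ k, (φ : Additive (Gamma0 N) →+ ℂ) (Additive.ofMul (c k)) • castPar (Gamma0 N) ℂ (B k) := by
  have hmem : φ ∈ Submodule.span ℂ (Set.range (castPar (Gamma0 N) ℂ)) := by
    rw [span_range_castPar ℂ (fg_Gamma0 N)]
    exact Submodule.mem_top
  induction hmem using Submodule.span_induction with
  | mem φ h =>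
    obtain ⟨x, rfl⟩ := h
    conv_lhs => rw [← B.sum_repr x]
    rw [map_sum]
    refine Finset.sum_congr rfl fun k _ => ?_
    rw [castPar_apply, hc k x, map_zsmul]
    exact (Int.cast_smul_eq_zsmul ℂ _ _).symm
  | zero => simp
  | add φ ψ _ _ hφ hψ =>
    conv_lhs => rw [hφ, hψ]
    rw [← Finset.sum_add_distrib]
    refine Finset.sum_congr rfl fun k _ => ?_
    rw [← add_smul]
    rfl
  | smul a φ _ hφ =>
    conv_lhs => rw [hφ]
    rw [Finset.smul_sum]
    refine Finset.sum_congr rfl fun k _ => ?_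
    rw [smul_smul]
    rfl

/-- the values of a complex parabolic hom in terms of its values at the dual elements. -/
theorem expand_complex_apply {c : κ → Gamma0 N}
    (hc : ∀ (k : κ) (x : ↥(parabolicHoms ℤ (Gamma0 N) ℤ)),
      (x : Additive (Gamma0 N) →+ ℤ) (Additive.ofMul (c k)) = B.repr x k)
    (φ : ↥(parabolicHoms ℂ (Gamma0 N) ℂ)) (γ : Gamma0 N) :
    (φ : Additive (Gamma0 N) →+ ℂ) (Additive.ofMul γ) =
      ∑ k, (φ : Additive (Gamma0 N) →+ ℂ) (Additive.ofMul (c k)) *
        (((B k : ↥(parabolicHoms ℤ (Gamma0 N) ℤ)) : Additive (Gamma0 N) →+ ℤ) (Additive.ofMul γ) : ℂ) := by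
  conv_lhs => rw [expand_complex N hc φ]
  rw [Submodule.coe_sum, AddMonoidHom.finsetSum_apply]
  refine Finset.sum_congr rfl fun k _ => ?_
  rw [Submodule.coe_smul, AddMonoidHom.smul_apply, castPar_apply, smul_eq_mul]

/-- **bilinear expansion of `E2_ℂ`**. -/
theorem EC_expand {c : κ → Gamma0 N}
    (hc : ∀ (k : κ) (x : ↥(parabolicHoms ℤ (Gamma0 N) ℤ)),
      (x : Additive (Gamma0 N) →+ ℤ) (Additive.ofMul (c k)) = B.repr x k)
    (φ ψ : ↥(parabolicHoms ℂ (Gamma0 N) ℂ)) :
    EC N φ ψ = ∑ k, ∑ l, (φ : Additive (Gamma0 N) →+ ℂ) (Additive.ofMul (c k)) *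
      (ψ : Additive (Gamma0 N) →+ ℂ) (Additive.ofMul (c l)) * ((EDef25.EE N (B k) (B l) : ℤ) : ℂ) := by
  conv_lhs => rw [expand_complex N hc φ, expand_complex N hc ψ]
  simp only [map_sum, LinearMap.sum_apply, map_smul, LinearMap.smul_apply, smul_eq_mul,
    EC_castPar]
  simp only [Finset.mul_sum]
  rw [Finset.sum_comm]
  refine Finset.sum_congr rfl fun k _ => ?_
  refine Finset.sum_congr rfl fun l _ => ?_
  ring

/-! ### the two hypotheses: (UNI-2) and (RB2) -/

/-- **(UNI-2)**: the cup product `P = EE / 2` is nondegenerate modulo `2`. -/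
def UNI2 : Prop :=
  ∀ x : ↥(parabolicHoms ℤ (Gamma0 N) ℤ), (∀ y, (2 : ℤ) ∣ cupP N x y) → ∃ x', x = (2 : ℤ) • x'

/-- **(RB2)**, positivity form: `E2_ℂ (per f, conj per f) = 4 i r` with `r > 0` for `f ≠ 0`. -/
def RB2 : Prop :=
  ∀ f : CuspForm (Gamma0 N) 2, f ≠ 0 → ∃ r : ℝ, 0 < r ∧
    E2 (cuspFam (Gamma0 N)) (fn (periodMap N f))
      (fun γ => (starRingEnd ℂ) (periodMap N f (Additive.ofMul γ))) = 4 * Complex.I * (r : ℂ)

/-! ### unimodularity: the symplectic basis has all `d i = 1` -/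

theorem cupP_skew (x y : ↥(parabolicHoms ℤ (Gamma0 N) ℤ)) : cupP N y x = -cupP N x y := by
  have h1 := two_mul_cupP N y x
  have h2 := two_mul_cupP N x y
  rw [EDef25.EE_skew] at h1
  omega

/-- **the unimodular symplectic basis of `H¹`** from (UNI-2) and the nondegeneracy at odd primes. -/
theorem exists_unimodular_basis (hU : UNI2 N) :
    ∃ (g : ℕ) (B : Module.Basis (Fin g ⊕ Fin g) ℤ ↥(parabolicHoms ℤ (Gamma0 N) ℤ)),
      (∀ i j, cupP N (B (.inl i)) (B (.inl j)) = 0) ∧
      (∀ i j, cupP N (B (.inr i)) (B (.inr j)) = 0) ∧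
      (∀ i j, cupP N (B (.inl i)) (B (.inr j)) = if i = j then 1 else 0) := by
  classical
  obtain ⟨g, B, d, hd, h11, h22, h12⟩ := exists_symplectic_basis_cupP N
  have hd1 : ∀ i, d i = 1 := by
    intro i
    by_contra hne
    obtain ⟨p, hp, hpd⟩ := Nat.exists_prime_and_dvd hne
    have hpdZ : (p : ℤ) ∣ (d i : ℤ) := by exact_mod_cast hpd
    -- `p ∣ P (B (inl i)) y` for every `y`
    have hdiv : ∀ y, (p : ℤ) ∣ cupP N (B (.inl i)) y := by
      intro y
      rw [← B.sum_repr y, map_sum]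
      refine Finset.dvd_sum fun k _ => ?_
      rw [map_smul, smul_eq_mul]
      refine Dvd.dvd.mul_left ?_ _
      rcases k with j | j
      · rw [h11]; exact dvd_zero _
      · rw [h12]
        split_ifs
        · exact hpdZ
        · exact dvd_zero _
    have hx : ∃ x', B (.inl i) = (p : ℤ) • x' := by
      by_cases hp2 : p = 2
      · subst hp2
        exact hU _ hdiv
      · refine ENondeg21.E_nondeg_mod hp hp2 N _ fun y => ?_
        rw [← two_mul_cupP]
        exact Dvd.dvd.mul_left (hdiv y) _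
    obtain ⟨x', hx'⟩ := hx
    have h1 := congrArg (fun z => B.repr z (.inl i)) hx'
    simp only [Module.Basis.repr_self, Finsupp.single_eq_same, map_smul, Finsupp.smul_apply,
      smul_eq_mul] at h1
    have hp1 : (p : ℤ) ∣ 1 := ⟨_, h1⟩
    have : p ∣ 1 := by exact_mod_cast hp1
    exact hp.one_lt.ne' (Nat.dvd_one.mp this)
  refine ⟨g, B, h11, h22, fun i j => ?_⟩
  rw [h12, hd1]
  simp

/-! ### the rank: `2 g = rk Γ`, `g = dim S₂` -/

theorem finrank_parC : Module.finrank ℂ ↥(parabolicHoms ℂ (Gamma0 N) ℂ) = rk (Gamma0 N) := by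
  rw [Module.finrank_eq_card_basis (parBasis ℂ (fg_Gamma0 N)), Fintype.card_fin]

instance finite_parC : Module.Finite ℂ ↥(parabolicHoms ℂ (Gamma0 N) ℂ) :=
  Module.Finite.of_basis (parBasis ℂ (fg_Gamma0 N))

/-- the period pairing as a linear equivalence (S21). -/
def pairEquiv : (CuspForm (Gamma0 N) 2 × CuspForm (Gamma0 N) 2) ≃ₗ[ℂ]
    ↥(parabolicHoms ℂ (Gamma0 N) ℂ) :=
  (LinearEquiv.ofInjective (periodHomPair N) (Fermat.Agent.S21.result N).1).trans
    (LinearEquiv.ofEq _ _ (Fermat.Agent.S21.result N).2)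

instance finite_cuspForm : Module.Finite ℂ (CuspForm (Gamma0 N) 2) := by
  haveI : Module.Finite ℂ (CuspForm (Gamma0 N) 2 × CuspForm (Gamma0 N) 2) :=
    Module.Finite.equiv (pairEquiv N).symm
  exact Module.Finite.of_surjective (LinearMap.fst ℂ (CuspForm (Gamma0 N) 2) (CuspForm (Gamma0 N) 2))
    LinearMap.fst_surjective

theorem two_mul_finrank_cuspForm :
    2 * Module.finrank ℂ (CuspForm (Gamma0 N) 2) = rk (Gamma0 N) := by
  rw [← finrank_parC, ← (pairEquiv N).finrank_eq, Module.finrank_prod]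
  ring

theorem finrank_cuspForm_eq {g : ℕ}
    (B : Module.Basis (Fin g ⊕ Fin g) ℤ ↥(parabolicHoms ℤ (Gamma0 N) ℤ)) :
    Module.finrank ℂ (CuspForm (Gamma0 N) 2) = g := by
  have h1 : Module.finrank ℤ ↥(parabolicHoms ℤ (Gamma0 N) ℤ) = g + g := by
    rw [Module.finrank_eq_card_basis B, Fintype.card_sum, Fintype.card_fin]
  rw [finrank_par (fg_Gamma0 N)] at h1
  have h2 := two_mul_finrank_cuspForm N
  omega

/-! ### period homs as elements of `parabolicHoms ℂ Γ ℂ` -/

theorem isParabolicHom_periodMap (f : CuspForm (Gamma0 N) 2) :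
    IsParabolicHom (Gamma0 N) (periodMap N f) := by
  intro γ hγ
  refine Fermat.Agent.M15.DivAut1.periodMap_parabolic N f γ ?_
  rw [← Fermat.Agent.M15.DivAut1.trace_sq_eq_trSq]
  exact hγ

/-- the period map into `parabolicHoms ℂ Γ ℂ`. -/
def perC : CuspForm (Gamma0 N) 2 →ₗ[ℂ] ↥(parabolicHoms ℂ (Gamma0 N) ℂ) :=
  LinearMap.codRestrict (parabolicHoms ℂ (Gamma0 N) ℂ) (Fermat.Agent.S21.PeriodPrim.periodLin N)
    (fun f => isParabolicHom_periodMap N f)

theorem perC_apply (f : CuspForm (Gamma0 N) 2) (γ : Gamma0 N) :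
    (perC N f : Additive (Gamma0 N) →+ ℂ) (Additive.ofMul γ) = periodMap N f (Additive.ofMul γ) :=
  rfl

/-- complex conjugation on `parabolicHoms ℂ Γ ℂ`. -/
def conjC (φ : ↥(parabolicHoms ℂ (Gamma0 N) ℂ)) : ↥(parabolicHoms ℂ (Gamma0 N) ℂ) :=
  ⟨((starRingEnd ℂ : ℂ →+* ℂ) : ℂ →+ ℂ).comp (φ : Additive (Gamma0 N) →+ ℂ), fun γ hγ => by
    show (starRingEnd ℂ) ((φ : Additive (Gamma0 N) →+ ℂ) (Additive.ofMul γ)) = 0
    rw [φ.2 γ hγ, map_zero]⟩

theorem conjC_apply (φ : ↥(parabolicHoms ℂ (Gamma0 N) ℂ)) (γ : Gamma0 N) :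
    (conjC N φ : Additive (Gamma0 N) →+ ℂ) (Additive.ofMul γ) =
      (starRingEnd ℂ) ((φ : Additive (Gamma0 N) →+ ℂ) (Additive.ofMul γ)) := rfl

/-! ### the symplectic expansion of `E2_ℂ` -/

section Symplectic

variable {g : ℕ} {B : Module.Basis (Fin g ⊕ Fin g) ℤ ↥(parabolicHoms ℤ (Gamma0 N) ℤ)}
  (h11 : ∀ i j, cupP N (B (.inl i)) (B (.inl j)) = 0)
  (h22 : ∀ i j, cupP N (B (.inr i)) (B (.inr j)) = 0)
  (h12 : ∀ i j, cupP N (B (.inl i)) (B (.inr j)) = if i = j then 1 else 0)
  {c : Fin g ⊕ Fin g → Gamma0 N}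
  (hc : ∀ (k : Fin g ⊕ Fin g) (x : ↥(parabolicHoms ℤ (Gamma0 N) ℤ)),
      (x : Additive (Gamma0 N) →+ ℤ) (Additive.ofMul (c k)) = B.repr x k)

include h11 in
theorem EE_ll (i j : Fin g) : EDef25.EE N (B (.inl i)) (B (.inl j)) = 0 := by
  rw [← two_mul_cupP, h11, mul_zero]

include h22 in
theorem EE_rr (i j : Fin g) : EDef25.EE N (B (.inr i)) (B (.inr j)) = 0 := by
  rw [← two_mul_cupP, h22, mul_zero]

include h12 in
theorem EE_lr (i j : Fin g) :
    EDef25.EE N (B (.inl i)) (B (.inr j)) = if i = j then 2 else 0 := by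
  rw [← two_mul_cupP, h12]
  split_ifs <;> simp

include h12 in
theorem EE_rl (i j : Fin g) :
    EDef25.EE N (B (.inr i)) (B (.inl j)) = if i = j then -2 else 0 := by
  rw [EDef25.EE_skew, EE_lr N h12]
  by_cases h : i = j
  · subst h; simp
  · have h' : ¬ j = i := fun e => h e.symm
    simp [h, h']

include h11 h22 h12 hc in
/-- **`E2_ℂ` in a unimodular symplectic basis**: `a_j = c (inr j)`, `b_j = c (inl j)`. -/
theorem EC_symplectic (φ ψ : ↥(parabolicHoms ℂ (Gamma0 N) ℂ)) :
    EC N φ ψ = 2 * ∑ j, ((φ : Additive (Gamma0 N) →+ ℂ) (Additive.ofMul (c (.inl j))) *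
        (ψ : Additive (Gamma0 N) →+ ℂ) (Additive.ofMul (c (.inr j))) -
      (φ : Additive (Gamma0 N) →+ ℂ) (Additive.ofMul (c (.inr j))) *
        (ψ : Additive (Gamma0 N) →+ ℂ) (Additive.ofMul (c (.inl j)))) := by
  classical
  rw [EC_expand N hc φ ψ, Fintype.sum_sum_type]
  simp only [Fintype.sum_sum_type, EE_ll N h11, EE_rr N h22, EE_lr N h12, EE_rl N h12]
  simp only [Int.cast_zero, mul_zero, Finset.sum_const_zero, zero_add, add_zero, Int.cast_ite,
    Int.cast_ofNat, Int.cast_neg, mul_ite, Finset.sum_ite_eq, Finset.mem_univ, if_true]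
  rw [← Finset.sum_add_distrib, Finset.mul_sum]
  refine Finset.sum_congr rfl fun j _ => ?_
  ring

end Symplectic

/-! ### the producer of I-LAT -/

/-- evaluation of the period of `f` along a fixed `γ`, linear in `f`. -/
def perAt (γ : Gamma0 N) : CuspForm (Gamma0 N) 2 →ₗ[ℂ] ℂ where
  toFun f := periodMap N f (Additive.ofMul γ)
  map_add' f h := by
    rw [Fermat.Agent.S21.PeriodPrim.periodMap_add]
    rfl
  map_smul' r f := by
    have h := (Fermat.Agent.S21.PeriodPrim.periodLin N).map_smul r f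
    simp only [Fermat.Agent.S21.PeriodPrim.periodLin_apply] at h
    rw [h]
    rfl

theorem perAt_apply (γ : Gamma0 N) (f : CuspForm (Gamma0 N) 2) :
    perAt N γ f = periodMap N f (Additive.ofMul γ) := rfl

section Producer

variable {g : ℕ} {B : Module.Basis (Fin g ⊕ Fin g) ℤ ↥(parabolicHoms ℤ (Gamma0 N) ℤ)}
  (h11 : ∀ i j, cupP N (B (.inl i)) (B (.inl j)) = 0)
  (h22 : ∀ i j, cupP N (B (.inr i)) (B (.inr j)) = 0)
  (h12 : ∀ i j, cupP N (B (.inl i)) (B (.inr j)) = if i = j then 1 else 0)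
  {c : Fin g ⊕ Fin g → Gamma0 N}
  (hc : ∀ (k : Fin g ⊕ Fin g) (x : ↥(parabolicHoms ℤ (Gamma0 N) ℤ)),
      (x : Additive (Gamma0 N) →+ ℤ) (Additive.ofMul (c k)) = B.repr x k)

include h11 h22 h12 hc in
/-- (RB2) in the symplectic basis: the hermitian expression of the periods is `4 i r`, `r > 0`. -/
theorem rb2_symplectic (hR : RB2 N) (f : CuspForm (Gamma0 N) 2) (hf : f ≠ 0) :
    ∃ r : ℝ, 0 < r ∧
      2 * ∑ j, (perAt N (c (.inl j)) f * (starRingEnd ℂ) (perAt N (c (.inr j)) f) -
        perAt N (c (.inr j)) f * (starRingEnd ℂ) (perAt N (c (.inl j)) f)) =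
      4 * Complex.I * (r : ℂ) := by
  obtain ⟨r, hr, h⟩ := hR f hf
  refine ⟨r, hr, ?_⟩
  rw [← h]
  have h1 := EC_symplectic N h11 h22 h12 hc (perC N f) (conjC N (perC N f))
  rw [EC_apply] at h1
  exact h1.symm

/-- the `a`-periods as a linear map `S₂ → ℂ^g` (`a_j = c (inr j)`). -/
def aPer (c : Fin g ⊕ Fin g → Gamma0 N) : CuspForm (Gamma0 N) 2 →ₗ[ℂ] (Fin g → ℂ) :=
  LinearMap.pi fun j => perAt N (c (.inr j))

include h11 h22 h12 hc in
theorem aPer_injective (hR : RB2 N) : Function.Injective (aPer N c) := by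
  rw [← LinearMap.ker_eq_bot, LinearMap.ker_eq_bot']
  intro f hf
  by_contra hne
  obtain ⟨r, hr, h⟩ := rb2_symplectic N h11 h22 h12 hc hR f hne
  have ha : ∀ j, perAt N (c (.inr j)) f = 0 := fun j => congrFun hf j
  simp only [ha, map_zero, mul_zero, zero_mul, sub_zero, Finset.sum_const_zero] at h
  have h4 : (4 : ℂ) * Complex.I ≠ 0 := by
    simp [Complex.I_ne_zero]
  have : (r : ℂ) = 0 := by
    rcases mul_eq_zero.mp h.symm with h' | h'
    · exact absurd h' h4
    · exact h'
  have : r = 0 := by exact_mod_cast this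
  exact hr.ne' this

include h11 h22 h12 hc in
theorem aPer_bijective (hR : RB2 N) : Function.Bijective (aPer N c) := by
  have hinj := aPer_injective N h11 h22 h12 hc hR
  have hfin : Module.finrank ℂ (CuspForm (Gamma0 N) 2) = Module.finrank ℂ (Fin g → ℂ) := by
    rw [finrank_cuspForm_eq N B, Module.finrank_fin_fun]
  exact ⟨hinj, (LinearMap.injective_iff_surjective_of_finrank_eq_finrank hfin).mp hinj⟩

end Producer

/-- **I-LAT from (UNI-2) and (RB2)** (and (RB1), proved). -/
theorem exists_latData (hU : UNI2 N) (hR : RB2 N) :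
    ∃ g : ℕ, Nonempty (Fermat.Agent.M17.Interfaces7.LatData N g) := by
  classical
  obtain ⟨g, B, h11, h22, h12⟩ := exists_unimodular_basis N hU
  obtain ⟨c, hc⟩ := exists_dual_elements N B
  have hbij := aPer_bijective N h11 h22 h12 hc hR
  let e : CuspForm (Gamma0 N) 2 ≃ₗ[ℂ] (Fin g → ℂ) := LinearEquiv.ofBijective (aPer N c) hbij
  let w : Module.Basis (Fin g) ℂ (CuspForm (Gamma0 N) 2) := (Pi.basisFun ℂ (Fin g)).map e.symm
  have hw : ∀ k, e (w k) = Pi.single k 1 := by
    intro k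
    show e ((Pi.basisFun ℂ (Fin g)).map e.symm k) = _
    rw [Module.Basis.map_apply, LinearEquiv.apply_symm_apply, Pi.basisFun_apply]
  -- the `a`-periods of the normalised basis
  have hwa : ∀ j k, perAt N (c (.inr j)) (w k) = if j = k then 1 else 0 := by
    intro j k
    have := congrFun (hw k) j
    rw [Pi.single_apply] at this
    exact this
  -- (RB1): symmetry
  have hsymm : ∀ k l, perAt N (c (.inl l)) (w k) = perAt N (c (.inl k)) (w l) := by
    intro k l
    have h0 := Fermat.Agent.M17.RiemannBilinearOne2.rb1 N (w k) (w l)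
    have h1 := EC_symplectic N h11 h22 h12 hc (perC N (w k)) (perC N (w l))
    rw [EC_apply] at h1
    have h2 : E2 (cuspFam (Gamma0 N)) (fn ((perC N (w k) : ↥(parabolicHoms ℂ (Gamma0 N) ℂ)) :
        Additive (Gamma0 N) →+ ℂ))
        (fn ((perC N (w l) : ↥(parabolicHoms ℂ (Gamma0 N) ℂ)) : Additive (Gamma0 N) →+ ℂ)) = 0 := h0
    rw [h2] at h1
    simp only [perC_apply] at h1
    have h3 : ∀ j, periodMap N (w k) (Additive.ofMul (c (.inl j))) *
          periodMap N (w l) (Additive.ofMul (c (.inr j))) -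
        periodMap N (w k) (Additive.ofMul (c (.inr j))) *
          periodMap N (w l) (Additive.ofMul (c (.inl j))) =
        (if j = l then perAt N (c (.inl j)) (w k) else 0) -
          (if j = k then perAt N (c (.inl j)) (w l) else 0) := by
      intro j
      have e1 := hwa j l
      have e2 := hwa j k
      rw [perAt_apply] at e1 e2
      rw [e1, e2]
      split_ifs <;> simp [perAt_apply]
    simp only [h3, Finset.sum_sub_distrib, Finset.sum_ite_eq', Finset.mem_univ, if_true] at h1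
    have h4 : perAt N (c (.inl l)) (w k) - perAt N (c (.inl k)) (w l) = 0 := by
      rcases mul_eq_zero.mp h1.symm with h | h
      · norm_num at h
      · exact h
    exact sub_eq_zero.mp h4
  refine ⟨g, ⟨{
    w := w
    a := fun j => c (.inr j)
    b := fun j => c (.inl j)
    n := fun j => B (.inr j)
    m := fun j => B (.inl j)
    n_a := ?_
    n_b := ?_
    m_a := ?_
    m_b := ?_
    span := ?_
    per_a := ?_
    om_symm := ?_
    om_pos := ?_
    per_eq := ?_
    cup_mn := ?_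
    cup_nn := ?_
    cup_mm := ?_ }⟩⟩
  · intro j k
    rw [hc, Module.Basis.repr_self, Finsupp.single_apply]
    simp [Sum.inr.injEq]
  · intro j k
    rw [hc, Module.Basis.repr_self, Finsupp.single_apply]
    simp
  · intro j k
    rw [hc, Module.Basis.repr_self, Finsupp.single_apply]
    simp
  · intro j k
    rw [hc, Module.Basis.repr_self, Finsupp.single_apply]
    simp [Sum.inl.injEq]
  · intro φ
    conv_lhs => rw [← B.sum_repr φ]
    rw [Fintype.sum_sum_type, add_comm]
    congr 1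
    · exact Finset.sum_congr rfl fun j _ => by rw [hc]
    · exact Finset.sum_congr rfl fun j _ => by rw [hc]
  · intro j k
    exact hwa j k
  · intro j k
    exact hsymm k j
  · -- positivity of the imaginary part
    rw [Matrix.posDef_iff_dotProduct_mulVec]
    constructor
    · refine Matrix.IsHermitian.ext fun j k => ?_
      show star ((Fermat.Agent.M17.Interfaces7.per N (w j) (c (.inl k))).im) =
        (Fermat.Agent.M17.Interfaces7.per N (w k) (c (.inl j))).im
      rw [star_trivial]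
      exact congrArg Complex.im (hsymm j k)
    · intro x hx
      set f : CuspForm (Gamma0 N) 2 := ∑ k, (x k : ℂ) • w k with hf
      have hf0 : f ≠ 0 := by
        intro h0
        apply hx
        have h1 := w.repr_sum_self (fun k => (x k : ℂ))
        rw [← hf, h0, map_zero] at h1
        funext k
        have h2 := congrFun h1 k
        simp only [Finsupp.coe_zero, Pi.zero_apply] at h2
        have : (x k : ℂ) = 0 := h2.symm
        exact_mod_cast this
      obtain ⟨r, hr, h⟩ := rb2_symplectic N h11 h22 h12 hc hR f hf0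
      have hfa : ∀ j, perAt N (c (.inr j)) f = (x j : ℂ) := by
        intro j
        rw [hf, map_sum]
        simp only [map_smul, smul_eq_mul, hwa, mul_ite, mul_one, mul_zero, Finset.sum_ite_eq,
          Finset.mem_univ, if_true]
      have hfb : ∀ j, perAt N (c (.inl j)) f = ∑ k, (x k : ℂ) * perAt N (c (.inl j)) (w k) := by
        intro j
        rw [hf, map_sum]
        simp only [map_smul, smul_eq_mul]
      have hterm : ∀ j, perAt N (c (.inl j)) f * (starRingEnd ℂ) (perAt N (c (.inr j)) f) -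
          perAt N (c (.inr j)) f * (starRingEnd ℂ) (perAt N (c (.inl j)) f) =
          2 * Complex.I * ((x j * ∑ k, (perAt N (c (.inl j)) (w k)).im * x k : ℝ) : ℂ) := by
        intro j
        rw [hfa j, Complex.conj_ofReal]
        have him : (perAt N (c (.inl j)) f).im = ∑ k, (perAt N (c (.inl j)) (w k)).im * x k := by
          rw [hfb j, Complex.im_sum]
          refine Finset.sum_congr rfl fun k _ => ?_
          rw [Complex.im_ofReal_mul, mul_comm]
        have hsub : perAt N (c (.inl j)) f - (starRingEnd ℂ) (perAt N (c (.inl j)) f) =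
            ((2 * (perAt N (c (.inl j)) f).im : ℝ) : ℂ) * Complex.I := Complex.sub_conj _
        have : perAt N (c (.inl j)) f * (x j : ℂ) - (x j : ℂ) * (starRingEnd ℂ) (perAt N (c (.inl j)) f) =
            (x j : ℂ) * (perAt N (c (.inl j)) f - (starRingEnd ℂ) (perAt N (c (.inl j)) f)) := by ring
        rw [this, hsub, him]
        push_cast
        ring
      simp only [hterm] at h
      rw [← Finset.mul_sum, ← Complex.ofReal_sum] at h
      have h4 : (4 : ℂ) * Complex.I ≠ 0 := by simp [Complex.I_ne_zero]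
      have h5 : ((∑ j, x j * ∑ k, (perAt N (c (.inl j)) (w k)).im * x k : ℝ) : ℂ) = (r : ℂ) := by
        have : (4 : ℂ) * Complex.I * ((∑ j, x j * ∑ k, (perAt N (c (.inl j)) (w k)).im * x k : ℝ) : ℂ)
            = 4 * Complex.I * (r : ℂ) := by
          rw [← h]; ring
        exact mul_left_cancel₀ h4 this
      have h6 : (∑ j, x j * ∑ k, (perAt N (c (.inl j)) (w k)).im * x k) = r := by
        exact_mod_cast h5
      show 0 < star x ⬝ᵥ (Matrix.mulVec (Matrix.of fun j k =>
        (Fermat.Agent.M17.Interfaces7.per N (w k) (c (.inl j))).im) x)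
      have h7 : star x ⬝ᵥ (Matrix.mulVec (Matrix.of fun j k =>
          (Fermat.Agent.M17.Interfaces7.per N (w k) (c (.inl j))).im) x) =
          ∑ j, x j * ∑ k, (perAt N (c (.inl j)) (w k)).im * x k := by
        simp only [dotProduct, Matrix.mulVec, Matrix.of_apply, star_trivial]
        rfl
      rw [h7, h6]
      exact hr
  · -- all periods in terms of the coordinates
    intro k γ
    have h := expand_complex_apply N hc (perC N (w k)) γ
    rw [Fintype.sum_sum_type] at h
    simp only [perC_apply] at h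
    show periodMap N (w k) (Additive.ofMul γ) = _
    rw [h, add_comm]
    congr 1
    · have h3 : ∀ j, periodMap N (w k) (Additive.ofMul (c (.inr j))) *
          (((B (.inr j) : ↥(parabolicHoms ℤ (Gamma0 N) ℤ)) : Additive (Gamma0 N) →+ ℤ)
            (Additive.ofMul γ) : ℂ) =
          if j = k then (((B (.inr j) : ↥(parabolicHoms ℤ (Gamma0 N) ℤ)) : Additive (Gamma0 N) →+ ℤ)
            (Additive.ofMul γ) : ℂ) else 0 := by
        intro j
        have e1 := hwa j k
        rw [perAt_apply] at e1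
        rw [e1]
        split_ifs <;> simp
      simp only [h3, Finset.sum_ite_eq', Finset.mem_univ, if_true]
  · intro j k
    exact EE_lr N h12 j k
  · intro j k
    exact EE_rr N h22 j k
  · intro j k
    exact EE_ll N h11 j k

end Fermat.Agent.M17.PeriodMatrix6
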