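/-
Programme M17 (S17), block [LAT], helper3: (RB2) in the literal shape of helper6's producer
`PeriodMatrix6.exists_latData`: I-LAT now depends on (UNI-2) only.
-/
import Mathlib
import Fermat.Agent.M17.PetCup3
import Fermat.Agent.M17.PeriodMatrix6

set_option autoImplicit false

open CongruenceSubgroup

namespace Fermat.Agent.M17.RB2Inst3

open Fermat.Agent.M17.PetCup3 Fermat.Agent.M17.PeriodMatrix6

variable (N : ℕ) [NeZero N]

/-- **(RB2)** in the shape of `PeriodMatrix6`. -/
theorem rb2 : RB2 N := fun f hf => ⟨pet f, pet_pos f hf, hRB2 f⟩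

/-- **I-LAT from (UNI-2) alone.** -/
theorem exists_latData_of_uni2 (hU : UNI2 N) :
    ∃ g : ℕ, Nonempty (Fermat.Agent.M17.Interfaces7.LatData N g) :=
  exists_latData N hU (rb2 N)

end Fermat.Agent.M17.RB2Inst3
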