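/-
M17 (helper6), programme M17 (target S17); imported by no statement.

**(UNI-2): the cup product `P = EE / 2` on `parabolicHoms ℤ (Γ₀(N)) ℤ` is UNIMODULAR at the
prime `2`**:  `(∀ y, 2 ∣ cupP N x y) → ∃ x', x = 2 • x'`, i.e. `PeriodMatrix6.UNI2 N`
(with `ENondeg21.E_nondeg_mod` at the odd primes this is full unimodularity of `P`).

Proof: the halves-free form of the integral Manin duality of `PermManinInt20`.
`Ω` finite, `S² = 1`, `U³ = 1`, `⟨S, U⟩` transitive, `v = β∘U - β` a symbol.  Write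
`v = u₀ - u₀∘S` (possible integrally: `v ⊥ V^S`).  Then `⟨2β + v, v'⟩ = 2 ⟨β + u₀, v'⟩` for all
symbols `v'`, and if `p ∣ ⟨β + u₀, v'⟩` for all symbols `v'` then `β + u₀ = s + t + p g` with
`s∘S = s`, `t∘U = t` (Step 1 of `PermManinInt20`); `w = β - t` satisfies `w∘U - w = v` and
`w∘S - w∘U = p (g∘S - g)`, so `w = w' + p h` with `w'∘S = w'∘U` (Step 2) and
`v = (w'∘S - w') + p (h∘U - h) ∈ Bdry + p • Symb`.  No division by `2` anywhere, so `p = 2` is
allowed.  The rest is the tail of `ModelNondeg21.nondeg_mod` and the seam of `ENondeg21`.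
-/
import Mathlib
import Fermat.Agent.ES.I2.PermManinInt20
import Fermat.Agent.ES.I2.ModelN20
import Fermat.Agent.ES.I2.ENondeg21
import Fermat.Agent.M17.EEven6
import Fermat.Agent.M17.PeriodMatrix6

set_option autoImplicit false
set_option linter.unusedSectionVars false
set_option linter.unusedVariables false
set_option linter.style.haveILetI false

namespace Fermat.Agent.M17.UniTwo6

open Matrix
open Fermat.Agent.ES.I2 Fermat.Agent.ES.I2.PermManin29 Fermat.Agent.ES.I2.PermManinInt20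

section Perm

variable {Ω : Type*} {R : Type*} [CommRing R] {S U : Equiv.Perm Ω}

/-- **halves-free integral Manin duality**: `v = β∘U - β = u₀ - u₀∘S` a symbol; if
`p ∣ ⟨β + u₀, v'⟩` for all symbols `v'` then `v ∈ Bdry + p • Symb`.  (`p ≠ 0` arbitrary.) -/
theorem exists_bdry_add_smul_of_dvd_half [Fintype Ω] [IsDomain R] [IsPrincipalIdealRing R]
    (hS : ∀ x, S (S x) = x) (hU : ∀ x, U (U (U x)) = x) (hconn : IsConn S U)
    {p : R} (hp0 : p ≠ 0) (β v u₀ : Ω → R) (hv : v ∈ Symb R S U)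
    (hβ : β ∘ U - β = v) (hu₀ : ∀ y, v y = u₀ y - u₀ (S y))
    (H : ∀ v' ∈ Symb R S U, p ∣ (β + u₀) ⬝ᵥ v') :
    ∃ b ∈ Bdry R S U, ∃ u ∈ Symb R S U, v = b + p • u := by
  obtain ⟨hv1, hv2⟩ := mem_Symb.1 hv
  have hβ' : ∀ y, β (U y) - β y = v y := fun y => congrFun hβ y
  obtain ⟨s, t, g, hs, ht, hst⟩ := exists_inv_add_inv_add_smul hS hU hconn hp0 (β + u₀) H
  simp only [Pi.add_apply] at hst
  -- `w = β - t`
  obtain ⟨w', h', hw', hw⟩ := exists_lift_of_comp_sub (S := S) (U := U) hp0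
    (fun y => β y - t y) (fun y => g (S y) - g y) (fun y => by
      have e1 := hst (S y)
      have e2 := hst y
      have e3 := hu₀ y
      have e4 := hβ' y
      have e5 := hu₀ (S y)
      rw [hs] at e1
      rw [hS] at e5
      rw [ht]
      linear_combination e1 - e2 - e4 - e3)
  -- `v = (w'∘S - w') + p (h'∘U - h')`
  have h2v : ∀ y, v y = (w' (S y) - w' y) + p * (h' (U y) - h' y) := fun y => by
    have e1 := hw (U y)
    have e2 := hw y
    have e4 := hβ' y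
    rw [ht] at e1
    rw [hw' y]
    linear_combination e1 - e2 - e4
  have hb : (fun y => w' (S y) - w' y) ∈ Bdry R S U := mem_Bdry.2 ⟨w', hw', fun _ => rfl⟩
  have hu0 : (fun y => h' (U y) - h' y) ∈ Symb R S U := by
    refine Symb_sat p hp0 _ ?_
    have e : p • (fun y => h' (U y) - h' y) = v - fun y => w' (S y) - w' y := by
      funext y
      simp only [Pi.smul_apply, smul_eq_mul, Pi.sub_apply]
      linear_combination - h2v y
    rw [e]
    exact (Symb R S U).sub_mem hv (Bdry_le_Symb hS hU hb)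
  refine ⟨_, hb, _, hu0, ?_⟩
  funext y
  simp only [Pi.add_apply, Pi.smul_apply, smul_eq_mul]
  exact h2v y

/-- an `S`-antisymmetric integral function is `u₀ - u₀∘S`. -/
theorem exists_sub_comp_int [Fintype Ω] (hS : ∀ x, S (S x) = x) (v : Ω → ℤ)
    (hv : ∀ x, v x + v (S x) = 0) : ∃ u₀ : Ω → ℤ, ∀ y, v y = u₀ y - u₀ (S y) := by
  obtain ⟨y, hy⟩ := exists_comp_sub_of_orth S v (fun w hw => by
    have h1 : (v ∘ S) ⬝ᵥ (w ∘ S) = v ⬝ᵥ w := comp_dot_comp S v w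
    have h2 : v ∘ S = -v := by
      funext x
      have := hv x
      simp only [Function.comp_apply, Pi.neg_apply]
      omega
    rw [hw, h2, neg_dotProduct] at h1
    omega)
  refine ⟨-y, fun x => ?_⟩
  have := congrFun hy x
  simp only [Pi.sub_apply, Function.comp_apply] at this
  simp only [Pi.neg_apply]
  omega

/-- the doubled pairing is twice the halves-free pairing. -/
theorem dot_two_smul_add [Fintype Ω] (hS : ∀ x, S (S x) = x) (β v u₀ v' : Ω → ℤ)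
    (hu₀ : ∀ y, v y = u₀ y - u₀ (S y)) (hv' : ∀ x, v' x + v' (S x) = 0) :
    (2 • β + v) ⬝ᵥ v' = 2 * ((β + u₀) ⬝ᵥ v') := by
  have h1 : v = u₀ - u₀ ∘ S := funext fun y => by
    simp only [Pi.sub_apply, Function.comp_apply]; exact hu₀ y
  have h2 : (u₀ ∘ S) ⬝ᵥ v' = - (u₀ ⬝ᵥ v') := by
    have h3 : v' = -(v' ∘ S) := funext fun x => by
      have := hv' x
      simp only [Pi.neg_apply, Function.comp_apply]
      omega
    conv_lhs => rw [h3]
    rw [dotProduct_neg, comp_dot_comp]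
  rw [h1, add_dotProduct, add_dotProduct, sub_dotProduct, h2, smul_dotProduct]
  simp only [nsmul_eq_mul, Nat.cast_ofNat]
  ring

/-- **`[N₂']`, permutation form**: if `2p ∣ ⟨2β + v, v'⟩` for all symbols `v'` then
`v ∈ Bdry + p • Symb` (`p ≠ 0` any integer, e.g. `p = 2`). -/
theorem exists_bdry_add_smul_of_two_mul_dvd [Fintype Ω]
    (hS : ∀ x, S (S x) = x) (hU : ∀ x, U (U (U x)) = x) (hconn : IsConn S U)
    {p : ℤ} (hp0 : p ≠ 0) (β v : Ω → ℤ) (hv : v ∈ Symb ℤ S U)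
    (hβ : β ∘ U - β = v)
    (H : ∀ v' ∈ Symb ℤ S U, 2 * p ∣ (2 • β + v) ⬝ᵥ v') :
    ∃ b ∈ Bdry ℤ S U, ∃ u ∈ Symb ℤ S U, v = b + p • u := by
  obtain ⟨u₀, hu₀⟩ := exists_sub_comp_int hS v (mem_Symb.1 hv).1
  refine exists_bdry_add_smul_of_dvd_half hS hU hconn hp0 β v u₀ hv hβ hu₀ (fun v' hv' => ?_)
  have h := H v' hv'
  rw [dot_two_smul_add hS β v u₀ v' hu₀ (mem_Symb.1 hv').1] at h
  exact (mul_dvd_mul_iff_left (by norm_num : (2 : ℤ) ≠ 0)).1 h

end Perm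

/-! ### `Model13` vocabulary -/

section Model

open Fermat.Agent.ES.I2.Model13 Fermat.Agent.ES.I2.PermManinModel29 PSL2Free11

/-- **`[N₂']` in `Model13` vocabulary** for `Q = PSL(2,ℤ)` acting transitively on a finite `X`:
if `2p ∣ ⟨2β + v, v'⟩` for all symbols `v'` then `v ∈ bdry + p • symb`. -/
theorem hN_two {X : Type*} [MulAction Q X] [Fintype X] [MulAction.IsPretransitive Q X]
    {p : ℤ} (hp0 : p ≠ 0) :
    ∀ β v : X → ℤ, v ∈ Model13.symb ℤ Sb Ub → Model13.act Ub β - β = v →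
      (∀ v' ∈ Model13.symb ℤ Sb Ub, 2 * p ∣ Model13.form (2 * β + v) v') →
      ∃ b ∈ Model13.bdry ℤ Sb Ub, ∃ u ∈ Model13.symb ℤ Sb Ub, v = b + p • u := by
  intro β v hv hβ H
  have h3 : (3 : ℤ) ≠ 0 := by norm_num
  rw [symb_eq_Symb h3 Sb Ub_cube] at hv
  have h2 : (2 : X → ℤ) * β = 2 • β := by
    funext x
    simp
  obtain ⟨b, hb, u, hu, hvu⟩ := exists_bdry_add_smul_of_two_mul_dvd
    (S := pm Sb) (U := pm Ub) (pm_sq Sb_sq) (pm_cube Ub_cube)
    (isConn_pm Sb_sq Ub_cube closure_Sb_Ub) hp0 β v hv hβ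
    (fun v' hv' => by
      have := H v' (by rw [symb_eq_Symb h3 Sb Ub_cube]; exact hv')
      rwa [form_eq_dot, h2] at this)
  refine ⟨b, ?_, u, ?_, hvu⟩
  · rw [bdry_eq_Bdry Sb_sq Ub]; exact hb
  · rw [symb_eq_Symb h3 Sb Ub_cube]; exact hu

end Model

/-! ### the model statement with two moduli -/

section PSL2

open Fermat.Agent.ES.I2.PSL2Free11 Fermat.Agent.ES.I2.AdaptedSec21
open Fermat.Agent.ES.I2.Model13 Fermat.Agent.ES.I2.ShapiroBridge1 Fermat.Agent.ES.I2.ModelForm21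
open Fermat.Agent.ES.I2.ModelNondeg21
open MulAction

variable {X : Type*} [MulAction Q X] [Fintype X] [MulAction.IsPretransitive Q X] {x0 : X}
  {J : Type*} [Fintype J] (D : CuspData (Sb * Ub) x0 J)

/-- `ModelNondeg21.nondeg_mod` with two moduli: hypothesis mod `q`, conclusion mod `p`. -/
theorem nondeg_mod_two (q p : ℤ)
    (hN : ∀ β v : X → ℤ, v ∈ Model13.symb ℤ Sb Ub → Model13.act Ub β - β = v →
      (∀ v' ∈ Model13.symb ℤ Sb Ub, q ∣ Model13.form (2 * β + v) v') →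
      ∃ b ∈ Model13.bdry ℤ Sb Ub, ∃ u ∈ Model13.symb ℤ Sb Ub, v = b + p • u)
    {φ : Additive (stabilizer Q x0) →+ ℤ} (hφ : IsPar (Sb * Ub) φ)
    (H : ∀ ψ : Additive (stabilizer Q x0) →+ ℤ, IsPar (Sb * Ub) ψ →
      q ∣ CuspPairingTwo25.E2 D.c (fn φ) (fn ψ)) :
    ∃ φ' : Additive (stabilizer Q x0) →+ ℤ, IsPar (Sb * Ub) φ' ∧ φ = p • φ' := by
  obtain ⟨β, hβ⟩ := exists_beta D (three_torsion_free six_torsion_free_int) φ
  have hβ' : Model13.act Ub β - β = Model13.sh D.sec φ Sb := by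
    rw [← hβ, D.sh_U_eq_sh_S Sb_mul_self φ (kills_c D hφ)]
  obtain ⟨b, hb, u, hu, hvu⟩ := hN β _ (symbol_mem_symb D hφ) hβ'
    (fun v' hv' => dvd_form_of_dvd_E2 D q hφ β hβ H hv')
  obtain ⟨φu, hφu, -, hub⟩ := exists_hom_of_mem_symb' (σ := Sb) (τ := Ub) Ub_cube
    (fun a b ha hb => hext_PSL2 a b ha hb) hu (s := D.sec)
    (fun ψ hψ => sh_T_of_isPar D hψ)
  refine ⟨φu, hφu, ?_⟩
  have hpar : IsPar (Sb * Ub) (φ + (-p) • φu) := hφ.add (hφu.smul (-p))
  have hsymb : Model13.sh D.sec (φ + (-p) • φu) Sb ∈ Model13.bdry ℤ Sb Ub := by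
    have e : Model13.sh D.sec (φ + (-p) • φu) Sb
        = b - p • (Model13.sh D.sec φu Sb - u) := by
      rw [ShapiroBridge1.sh_add, ShapiroBridge1.sh_smul, Pi.add_apply, Pi.smul_apply, hvu]
      simp only [smul_sub, neg_smul]
      abel
    rw [e]
    exact Submodule.sub_mem _ hb (Submodule.smul_mem _ p hub)
  have h0 := eq_zero_of_sh_σ_mem_bdry (σ := Sb) (τ := Ub) closure_Sb_Ub Sb_sq
    (sh_T_of_isPar D hpar) hsymb
  have : φ = -((-p) • φu) := eq_neg_of_add_eq_zero_left h0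
  rw [this, neg_smul, neg_neg]

end PSL2

/-! ### the seam -/

section Seam

open Matrix MatrixGroups ModularCurve.Period
open Fermat.Agent.ES.I2.PSL2Free11 Fermat.Agent.ES.I2.AdaptedSec21
open Fermat.Agent.ES.I2.Gamma0Model11 Fermat.Agent.ES.I2.ENondeg21

variable (Γ : Subgroup SL(2, ℤ)) [Γ.FiniteIndex]

/-- `(∀ y, 2p ∣ EΓ Γ x y) → x ∈ p • parabolicHoms`, from the seam. -/
theorem nondeg_two_mul_of_seam {J : Type*} [Fintype J] (D : CuspData (Sb * Ub) (x0 Γ) J)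
    (hseam : ∀ x y : ↥(parabolicHoms ℤ Γ ℤ),
      EDef25.EΓ Γ x y = CuspPairingTwo25.E2 D.c
        (ModelForm21.fn (push Γ two_torsion_free_int (x : Additive Γ →+ ℤ)))
        (ModelForm21.fn (push Γ two_torsion_free_int (y : Additive Γ →+ ℤ))))
    {p : ℤ} (hp0 : p ≠ 0) (x : ↥(parabolicHoms ℤ Γ ℤ))
    (H : ∀ y : ↥(parabolicHoms ℤ Γ ℤ), 2 * p ∣ EDef25.EΓ Γ x y) :
    ∃ x' : ↥(parabolicHoms ℤ Γ ℤ), x = p • x' := by
  set e := pullParEquiv Γ (R := ℤ) two_torsion_free_int with he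
  have hφ : ShapiroBridge1.IsPar (Sb * Ub) (push Γ two_torsion_free_int (x : Additive Γ →+ ℤ)) :=
    (e.symm x).2
  obtain ⟨φ', hφ', hx⟩ := nondeg_mod_two D (2 * p) p (hN_two hp0) hφ
    (fun ψ hψ => by
      have h := H (e ⟨ψ, hψ⟩)
      rw [hseam] at h
      have e1 : push Γ two_torsion_free_int ((e ⟨ψ, hψ⟩ : ↥(parabolicHoms ℤ Γ ℤ)) :
          Additive Γ →+ ℤ) = ψ := push_pull Γ two_torsion_free_int ψ
      rw [e1] at h
      exact h)
  refine ⟨e ⟨φ', hφ'⟩, ?_⟩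
  have h1 : x = e (e.symm x) := (e.apply_symm_apply x).symm
  rw [h1, ← map_smul]
  congr 1
  apply Subtype.ext
  exact hx

variable {Γ}

/-- **unimodularity of `EΓ / 2` at every modulus**: for `Γ ∋ -1` of finite index,
`(∀ y, 2p ∣ EΓ Γ x y) → x = p • x'`. -/
theorem EΓ_nondeg_two_mul (hneg : (-1 : SL(2, ℤ)) ∈ Γ) {p : ℤ} (hp0 : p ≠ 0)
    (x : ↥(parabolicHoms ℤ Γ ℤ))
    (H : ∀ y : ↥(parabolicHoms ℤ Γ ℤ), 2 * p ∣ EDef25.EΓ Γ x y) :
    ∃ x' : ↥(parabolicHoms ℤ Γ ℤ), x = p • x' := by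
  classical
  obtain ⟨D⟩ := exists_cuspData (G := Q) (X := XQ Γ) (Sb * Ub) (x0 Γ)
  have : Fintype (MulAction.orbitRel.Quotient (Subgroup.zpowers (Sb * Ub)) (XQ Γ)) :=
    Fintype.ofFinite _
  exact nondeg_two_mul_of_seam Γ D
    (fun x y => ESeam13.EΓ_eq_model hneg D two_torsion_free_int x y) hp0 x H

/-- **the cup product `cupP M = EE M / 2` is unimodular**: `(∀ y, p ∣ cupP M x y) → x = p • x'`
for every integer `p ≠ 0`. -/
theorem cupP_unimodular (M : ℕ) [NeZero M] {p : ℤ} (hp0 : p ≠ 0)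
    (x : ↥(parabolicHoms ℤ (CongruenceSubgroup.Gamma0 M) ℤ))
    (H : ∀ y, p ∣ EEven6.cupP M x y) : ∃ x', x = p • x' := by
  refine EΓ_nondeg_two_mul (neg_one_mem_Gamma0 M) hp0 x (fun y => ?_)
  have h : EDef25.EΓ (CongruenceSubgroup.Gamma0 M) x y = 2 * EEven6.cupP M x y :=
    (EEven6.two_mul_cupP M x y).symm
  rw [h]
  exact mul_dvd_mul_left 2 (H y)

/-- **(UNI-2)**: the hypothesis `UNI2 N` of `PeriodMatrix6.exists_latData`. -/
theorem uni2 (N : ℕ) [NeZero N] : PeriodMatrix6.UNI2 N :=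
  fun x H => cupP_unimodular N (by norm_num) x H

/-- **I-LAT from (RB2) alone**: `PeriodMatrix6.exists_latData` with its hypothesis `UNI2`
discharged. -/
theorem exists_latData_of_RB2 (N : ℕ) [NeZero N] (hR : PeriodMatrix6.RB2 N) :
    ∃ g, Nonempty (Interfaces7.LatData N g) :=
  PeriodMatrix6.exists_latData N (uni2 N) hR

end Seam

end Fermat.Agent.M17.UniTwo6
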