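/-
M17 (helper6), programme M17 (target S17); imported by no statement.

**I-LAT, UNCONDITIONAL**: the period lattice datum `Interfaces7.LatData N g` exists for every
level `N`: `PeriodMatrix6.exists_latData` with both hypotheses discharged,
`UNI2 N` by `UniTwo6.uni2` (unimodularity of the cup product, combinatorial) and
`RB2 N` by helper3's `RB2Inst3.rb2` (PET = CUP).  The `g` is `finrank ℂ (CuspForm (Γ₀(N)) 2)`.
-/
import Mathlib
import Fermat.Agent.M17.UniTwo6
import Fermat.Agent.M17.RB2Inst3

set_option autoImplicit false

namespace Fermat.Agent.M17.LatFinal6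

open CongruenceSubgroup

/-- **I-LAT**: a period lattice datum of `X₀(N)` exists. -/
theorem exists_latData (N : ℕ) [NeZero N] :
    ∃ g : ℕ, Nonempty (Fermat.Agent.M17.Interfaces7.LatData N g) :=
  PeriodMatrix6.exists_latData N (UniTwo6.uni2 N) (RB2Inst3.rb2 N)

end Fermat.Agent.M17.LatFinal6
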