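/-
M17 (target S17), [FIN] skeleton (lead).  Imported by no statement.

**The final assembly of S17 from the landed blocks**, with the two inputs that are still in progress
as HYPOTHESES:

* `(RL)` : `AJAssembly7.RLPair L (AcOf L)` (the pair form of the reciprocity law), for every
  period lattice datum `L`;
* `(CHAIN)` : the chain theorem `ChainHyp` (= the `hchain` hypothesis of `Assembly9.s17_of_chain`,
  literally), for every `L`, `AJ`, `RT`, `lift`.

Everything else is plugged in unconditionally: I-LAT (`LatFinal6.exists_latData`), I-AJ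
(`AJAssembly7.ajDataOf`), I-RT (`RTFinal5.rtDataFinal`), (TORS) (`TorsionOnto0.torsion_onto_bar`),
(KAPPA) (`KappaFinal2.two_k_rational'` + `ThetaFacts1`), the top level `Assembly9.s17_of_chain`.
-/
import Mathlib
import Fermat.Agent.M17.Assembly9
import Fermat.Agent.M17.AJAssembly7
import Fermat.Agent.M17.RTFinal5
import Fermat.Agent.M17.KappaFinal2
import Fermat.Agent.M17.TorsionOnto0
import Fermat.Agent.M17.LatFinal6
import Fermat.Agent.M17.ThetaFacts1

set_option autoImplicit false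

namespace Fermat.Agent.M17.Fin0

open ModularCurve Fermat.Agent.M17.Theta1 Fermat.Agent.M17.ThetaRigidity9
  Fermat.Agent.M17.Interfaces7 Fermat.Agent.M17.Basis9 Fermat.Agent.M17.EdgeLemma2
  Fermat.Agent.M17.AJAssembly7

/-- `ℚ̄` -/
local notation "Qb" => AlgebraicClosure ℚ

/-- `extPic0C` -/
local notation "extPic0C" => Fermat.Agent.J.DESC.DescentFinal24.extPic0C

/-- **the chain theorem**, as a statement (the `hchain` hypothesis of `Assembly9.s17_of_chain`
literally, with `th0 = thetaA (siegelOfLat L) 0`). -/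
def ChainHyp (N : ℕ) [NeZero N] {g : ℕ} (L : LatData N g) (AJ : AJData N L)
    (lift : JZero N → Fin g → ℂ) (k : Fin g → ℂ) : Prop :=
  ∀ T : Char2 g × Char2 g → List (Fin g → ℂ), (∀ i, (T i).length = 4) →
    (∀ i, (T i).sum = 0) →
    (∀ i, ∀ s ∈ T i, ∃ x : JZero N, AJ.iota (extPic0C N x) = QuotientAddGroup.mk (s - k)) →
    ∃ (K1 : IntermediateField ℚ Qb) (_ : FiniteDimensional ℚ ↥K1)
      (c : Char2 g × Char2 g → ℂ) (r : JZero N → Char2 g × Char2 g → Qb), (∀ i, c i ≠ 0) ∧
      RatEqOn (Γ := ↥K1.fixingSubgroup) (complexEmbedding : Qb →+* ℂ)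
        (fun x i => c i * psiT (thetaA (siegelOfLat L) 0) (T i) (lift x))
        {x | ∀ i, ∀ s ∈ T i, thetaA (siegelOfLat L) 0 (lift x + s) ≠ 0} r

/-- the canonical lift `J₀(N)(ℚ̄) → ℂ^g` of the Abel-Jacobi map. -/
noncomputable def liftOf {N : ℕ} [NeZero N] {g : ℕ} {L : LatData N g} (AJ : AJData N L)
    (x : JZero N) : Fin g → ℂ :=
  Quotient.out (AJ.iota (extPic0C N x))

theorem liftOf_spec {N : ℕ} [NeZero N] {g : ℕ} {L : LatData N g} (AJ : AJData N L)
    (x : JZero N) :
    (QuotientAddGroup.mk (liftOf AJ x) : (Fin g → ℂ) ⧸ L.lattice) = AJ.iota (extPic0C N x) :=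
  QuotientAddGroup.out_eq' _

/-- **S17 from `LatData`, `AJData` and the chain theorem** (everything else plugged in). -/
theorem s17_of_aj_chain (N : ℕ) [NeZero N] {g : ℕ} (L : LatData N g) (AJ : AJData N L)
    (hchain : ChainHyp N L AJ (liftOf AJ) (RTFinal5.rtDataFinal L AJ).k) :
    AddGroup.FG ↥(FixedPoints.addSubgroup (Qb ≃ₐ[ℚ] Qb) (JZero N)) := by
  refine Assembly9.s17_of_chain N L AJ (liftOf AJ) (liftOf_spec AJ) ?_
    (RTFinal5.rtDataFinal L AJ).k ?_ hchain
  · intro n hn t ht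
    obtain ⟨y, -, hy⟩ := TorsionOnto0.torsion_onto_bar L AJ n hn t ht
    exact ⟨y, hy⟩
  · exact KappaFinal2.two_k_rational' (RTFinal5.rtDataFinal L AJ) (th0_differentiable L)
      (th0_even L) (th0_ne L)

/-- **[FIN] skeleton**: S17 from (RL) and (CHAIN). -/
theorem s17_of_RL_chain (N : ℕ) [NeZero N]
    (hRL : ∀ (g : ℕ) (L : LatData N g), RLPair L (AcOf L))
    (hchain : ∀ (g : ℕ) (L : LatData N g) (AJ : AJData N L),
      ChainHyp N L AJ (liftOf AJ) (RTFinal5.rtDataFinal L AJ).k) :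
    AddGroup.FG ↥(FixedPoints.addSubgroup (Qb ≃ₐ[ℚ] Qb) (JZero N)) := by
  obtain ⟨g, ⟨L⟩⟩ := LatFinal6.exists_latData N
  exact s17_of_aj_chain N L (ajDataOf L (AcOf L) (hRL g L) (AcOf_spec L))
    (hchain g L _)

end Fermat.Agent.M17.Fin0
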