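import Fermat.Agent.M17.ChainFinal5
import Fermat.Agent.M17.Fin0

/-!
# (CHAIN) in lead's literal shape `Fin0.ChainHyp`, from the conjugate edge step (CH-2)
-/

set_option autoImplicit false

namespace Fermat.Agent.M17.ChainInst5

open ModularCurve Fermat.Agent.M17.Interfaces7 Fermat.Agent.M17.Theta1
open Fermat.Agent.M17.ChainFinal5

/-- **(CHAIN)** for any lift, from the edge step. -/
theorem chainHyp_of_edgeStep' (N : ℕ) [NeZero N] {g : ℕ} (L : LatData N g) (AJ : AJData N L)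
    (lift : JZero N → Fin g → ℂ)
    (hlift : ∀ x : JZero N, (QuotientAddGroup.mk (lift x) : (Fin g → ℂ) ⧸ L.lattice) =
      AJ.iota (Fermat.Agent.J.DESC.DescentFinal24.extPic0C N x))
    (hedge : EdgeStepAll (Fermat.Agent.M17.RTFinal5.rtDataFinal L AJ) lift
      (Char2 g × Char2 g)) :
    Fermat.Agent.M17.Fin0.ChainHyp N L AJ lift (Fermat.Agent.M17.RTFinal5.rtDataFinal L AJ).k := by
  intro T hlen hsum halg
  have hTORS : ∀ n : ℕ, 0 < n → ∀ t : (Fin g → ℂ) ⧸ L.lattice, n • t = 0 →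
      ∃ x : JZero N, AJ.iota (Fermat.Agent.J.DESC.DescentFinal24.extPic0C N x) = t := by
    intro n hn t ht
    obtain ⟨y, -, hy⟩ := Fermat.Agent.M17.TorsionOnto0.torsion_onto_bar L AJ n hn t ht
    exact ⟨y, hy⟩
  exact hchain_of_edgeStep (Fermat.Agent.M17.RTFinal5.rtDataFinal L AJ) lift hlift (th0_per L)
    (th0_differentiable L) (th0_ne L) hTORS hedge T hlen hsum halg

/-- **(CHAIN)** in lead's literal shape (`Fin0.liftOf`). -/
theorem chainHyp_of_edgeStep (N : ℕ) [NeZero N] {g : ℕ} (L : LatData N g) (AJ : AJData N L)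
    (hedge : EdgeStepAll (Fermat.Agent.M17.RTFinal5.rtDataFinal L AJ)
      (Fermat.Agent.M17.Fin0.liftOf AJ) (Char2 g × Char2 g)) :
    Fermat.Agent.M17.Fin0.ChainHyp N L AJ (Fermat.Agent.M17.Fin0.liftOf AJ)
      (Fermat.Agent.M17.RTFinal5.rtDataFinal L AJ).k :=
  chainHyp_of_edgeStep' N L AJ _ (Fermat.Agent.M17.Fin0.liftOf_spec AJ) hedge

end Fermat.Agent.M17.ChainInst5
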