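/-
M17 (helper6), programme M17 (target S17); imported by no statement.

**(CH-2a): the auxiliary lemmas of the conjugate edge (board 1208)**, for helper2's `edgeStep`.

* (i)   `smul_pairClass`    : `σ • [a − b] = [σ a − σ b]` in `J₀(N)(ℚ̄)`;
* (ii)  `isPointPlace_smul` : Galois conjugates of point places are point places;
* (iii) `psiT_add_lattice`, `psiT_ratio_periodic`, `th0_add_lattice_eq_zero_iff` : the ratios
        `ψ_T / ψ_{T'}` of products of translates of a quasi-periodic `th0` are lattice-periodic for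
        lists of equal length and equal sum;
* (iv)  `valAt_galQ_smul` : values are Galois-equivariant; `ord_galQ_smul`, `ord_galQ_smul_eq`,
        `ord_galQ_smul_lists` : the divisor of `σ • r` is `σ • div r`.
-/
import Mathlib
import Fermat.Agent.M17.RatZero3
import Fermat.Agent.M17.CuspMove0
import Fermat.Agent.M17.EdgeLemma2
import Fermat.Agent.ES.GAL.OpenStab12

set_option autoImplicit false
set_option linter.unusedSectionVars false
set_option linter.unusedVariables false

namespace Fermat.Agent.M17.ConjEdgeAux6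

open ModularCurve AlgebraicCurve UpperHalfPlane
open Fermat.Agent.J.DESC.DescentFinal24
open Fermat.Agent.M17.Interfaces7 Fermat.Agent.M17.CuspMove0 Fermat.Agent.M17.RatZero3
open Fermat.Agent.M17.AlgGlue7 Fermat.Agent.M17.EdgeLemma2
open Fermat.Agent.M15.DivDefs4 Fermat.Agent.ES.KUM.FieldL25

attribute [local instance] instAlgebraQbarComplex instTowerQbarComplex

variable {N : ℕ} [NeZero N]

/-! ### (i), (ii): Galois conjugates of edges -/

/-- **(i)** `σ • [a − b] = [σ a − σ b]`. -/
theorem smul_pairClass (σ : GQ) (a b : Place Qb (FQ N)) :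
    σ • (pairClass N a b : JZero N) = pairClass N (galQ N σ • a) (galQ N σ • b) := by
  unfold pairClass
  rw [galois_smul_pic0_def, SemilinearAut.pic0_smul_mk]
  congr 1
  apply Subtype.ext
  rw [SemilinearAut.coe_degZeroSMulHom]
  show galQ N σ • (Finsupp.single a (1 : ℤ) - Finsupp.single b 1)
    = Finsupp.single (galQ N σ • a) 1 - Finsupp.single (galQ N σ • b) 1
  rw [smul_sub, SemilinearAut.smul_single, SemilinearAut.smul_single]

/-- the formal `j` is Galois-fixed. -/
theorem galQ_smul_jL (σ : GQ) : galQ N σ • jL Qb N = jL Qb N := by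
  have h := Fermat.Agent.ES.GAL.OpenStab12.arithmeticGalois_smul_jF (N := N) σ
  rw [Fermat.Agent.M17.GenusComplex2.jF_eq_jL] at h
  exact h

/-- **(ii)** Galois conjugates of point places are point places. -/
theorem isPointPlace_smul (σ : GQ) {a : Place Qb (FQ N)} (ha : IsPointPlace N a) :
    IsPointPlace N (galQ N σ • a) := by
  rw [isPointPlace_iff] at ha ⊢
  have h := SemilinearAut.ord_smul (galQ N σ) a (jL Qb N)
  rw [galQ_smul_jL] at h
  rw [h]
  exact ha

/-- the conjugate of an edge is an edge. -/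
theorem smul_edge (σ : GQ) {y y' : JZero N} {a b : Place Qb (FQ N)}
    (h : y' = y + pairClass N a b) :
    σ • y' = σ • y + pairClass N (galQ N σ • a) (galQ N σ • b) := by
  rw [h, smul_add, smul_pairClass]

/-! ### (iii): ratios of products of translates are lattice-periodic -/

section Periodic

variable {g : ℕ} {th0 : (Fin g → ℂ) → ℂ}

/-- the multiplier of a product of translates. -/
theorem psiT_add_lattice {l : Fin g → ℂ} {c : ℂ} {χ : (Fin g → ℂ) →+ ℂ}
    (h : ∀ z, th0 (z + l) = c * Complex.exp (χ z) * th0 z) (T : List (Fin g → ℂ))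
    (z : Fin g → ℂ) :
    psiT th0 T (z + l)
      = c ^ T.length * Complex.exp ((T.length : ℂ) * χ z + χ T.sum) * psiT th0 T z := by
  unfold psiT
  induction T with
  | nil => simp
  | cons t T ih =>
    rw [List.map_cons, List.prod_cons, List.map_cons, List.prod_cons, ih, List.length_cons,
      List.sum_cons]
    have h1 : z + l + t = (z + t) + l := by abel
    rw [h1, h (z + t), map_add, map_add, pow_succ]
    have h2 : Complex.exp (((T.length + 1 : ℕ) : ℂ) * χ z + (χ t + χ T.sum))
        = Complex.exp (χ z + χ t) * Complex.exp ((T.length : ℂ) * χ z + χ T.sum) := by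
      rw [← Complex.exp_add]
      congr 1
      push_cast
      ring
    rw [h2]
    ring

/-- **(iii)** for lists of equal length and equal sum, `ψ_T / ψ_{T'}` is periodic (cross-multiplied
form). -/
theorem psiT_ratio_periodic {l : Fin g → ℂ} {c : ℂ} {χ : (Fin g → ℂ) →+ ℂ}
    (h : ∀ z, th0 (z + l) = c * Complex.exp (χ z) * th0 z) (T T' : List (Fin g → ℂ))
    (hlen : T.length = T'.length) (hsum : T.sum = T'.sum) (z : Fin g → ℂ) :
    psiT th0 T (z + l) * psiT th0 T' z = psiT th0 T z * psiT th0 T' (z + l) := by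
  rw [psiT_add_lattice h T z, psiT_add_lattice h T' z, hlen, hsum]
  ring

/-- **(iii)**, from the quasi-periodicity hypothesis `hqp` of `edgeStep`. -/
theorem psiT_ratio_periodic_of_hqp {Λ : AddSubgroup (Fin g → ℂ)}
    (hqp : ∀ l ∈ Λ, ∃ (c : ℂ) (χ : (Fin g → ℂ) →+ ℂ), c ≠ 0 ∧
      ∀ z, th0 (z + l) = c * Complex.exp (χ z) * th0 z)
    (T T' : List (Fin g → ℂ)) (hlen : T.length = T'.length) (hsum : T.sum = T'.sum)
    {l : Fin g → ℂ} (hl : l ∈ Λ) (z : Fin g → ℂ) :
    psiT th0 T (z + l) * psiT th0 T' z = psiT th0 T z * psiT th0 T' (z + l) := by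
  obtain ⟨c, χ, -, h⟩ := hqp l hl
  exact psiT_ratio_periodic h T T' hlen hsum z

/-- the zero set of a quasi-periodic function is lattice-invariant (`hper` from `hqp`). -/
theorem th0_add_lattice_eq_zero_iff {Λ : AddSubgroup (Fin g → ℂ)}
    (hqp : ∀ l ∈ Λ, ∃ (c : ℂ) (χ : (Fin g → ℂ) →+ ℂ), c ≠ 0 ∧
      ∀ z, th0 (z + l) = c * Complex.exp (χ z) * th0 z) :
    ∀ l ∈ Λ, ∀ z, th0 (z + l) = 0 ↔ th0 z = 0 := by
  intro l hl z
  obtain ⟨c, χ, hc, h⟩ := hqp l hl
  rw [h z, mul_eq_zero, mul_eq_zero]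
  constructor
  · rintro ((h1 | h1) | h1)
    · exact absurd h1 hc
    · exact absurd h1 (Complex.exp_ne_zero _)
    · exact h1
  · exact fun h1 => Or.inr h1

/-- the ratio `ψ_T / ψ_{T'}` itself, when the denominators do not vanish. -/
theorem psiT_div_periodic {Λ : AddSubgroup (Fin g → ℂ)}
    (hqp : ∀ l ∈ Λ, ∃ (c : ℂ) (χ : (Fin g → ℂ) →+ ℂ), c ≠ 0 ∧
      ∀ z, th0 (z + l) = c * Complex.exp (χ z) * th0 z)
    (T T' : List (Fin g → ℂ)) (hlen : T.length = T'.length) (hsum : T.sum = T'.sum)
    {l : Fin g → ℂ} (hl : l ∈ Λ) (z : Fin g → ℂ) (h0 : psiT th0 T' z ≠ 0)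
    (h1 : psiT th0 T' (z + l) ≠ 0) :
    psiT th0 T (z + l) / psiT th0 T' (z + l) = psiT th0 T z / psiT th0 T' z := by
  rw [div_eq_div_iff h1 h0]
  exact psiT_ratio_periodic_of_hqp hqp T T' hlen hsum hl z

end Periodic

/-! ### (iv): values and divisors under the Galois action -/

/-- **(iv)** values are Galois-equivariant. -/
theorem valAt_galQ_smul (σ : GQ) (w : Place Qb (FQ N)) {r : FQ N}
    (hr : r ∈ w.toValuationSubring) :
    valAt (lHypQ N) (galQ N σ • w) (galQ N σ • r) = σ (valAt (lHypQ N) w r) := by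
  have h := valAt_smul (lHypQ N) w (galQ N σ) hr
  rw [h]
  rfl

/-- membership in the valuation ring is Galois-equivariant. -/
theorem galQ_smul_mem (σ : GQ) (w : Place Qb (FQ N)) {r : FQ N}
    (hr : r ∈ w.toValuationSubring) : galQ N σ • r ∈ (galQ N σ • w).toValuationSubring := by
  rw [SemilinearAut.smul_toValuationSubring]
  exact ValuationSubring.smul_mem_pointwise_smul _ _ _ hr

theorem ord_galQ_smul (σ : GQ) (w : Place Qb (FQ N)) (r : FQ N) :
    (galQ N σ • w).ord (galQ N σ • r) = w.ord r :=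
  SemilinearAut.ord_smul (galQ N σ) w r

theorem galQ_smul_ne_zero (σ : GQ) {r : FQ N} (hr : r ≠ 0) : galQ N σ • r ≠ 0 := by
  intro h
  apply hr
  have := congrArg (fun x => (galQ N σ)⁻¹ • x) h
  simpa using this

/-- **(iv)** the divisor of `σ • r` is `σ • div r`. -/
theorem ord_galQ_smul_eq (σ : GQ) {r : FQ N} {D : Divisor Qb (FQ N)}
    (hD : ∀ w : Place Qb (FQ N), (w.ord r : ℤ) = D w) (w : Place Qb (FQ N)) :
    (w.ord (galQ N σ • r) : ℤ) = (galQ N σ • D) w := by
  rw [SemilinearAut.divisor_smul_apply, ← hD]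
  have h := SemilinearAut.ord_smul (galQ N σ) ((galQ N σ)⁻¹ • w) r
  rw [smul_inv_smul] at h
  exact h

/-- **(iv)**, list form (the shape of `EdgeLemma2.edge`): if
`div r = ∑_{t ∈ T} D t − ∑_{t ∈ T'} D t` then `div (σ • r) = ∑_{t ∈ T} σ • D t − ∑_{t ∈ T'} σ • D t`. -/
theorem ord_galQ_smul_lists {α : Type*} (σ : GQ) {r : FQ N} (T T' : List α)
    (D : α → Divisor Qb (FQ N))
    (hD : ∀ w : Place Qb (FQ N),
      (w.ord r : ℤ) = (T.map fun t => D t w).sum - (T'.map fun t => D t w).sum)
    (w : Place Qb (FQ N)) :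
    (w.ord (galQ N σ • r) : ℤ)
      = (T.map fun t => (galQ N σ • D t) w).sum - (T'.map fun t => (galQ N σ • D t) w).sum := by
  have h := SemilinearAut.ord_smul (galQ N σ) ((galQ N σ)⁻¹ • w) r
  rw [smul_inv_smul] at h
  rw [h, hD]
  simp only [SemilinearAut.divisor_smul_apply]

end Fermat.Agent.M17.ConjEdgeAux6
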