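/-
Programme M17 (target S17), block [ALG], leaf (CH-2), final forms (helper2):

* `edgeStep` = helper7's literal target (board 1193): `ConjEdge2.edgeStep_of` with the two (CH-1)
  statements discharged by helper3's `RatZero3` (`Z_eq_extDivC`, `exists_effective_rep`) and
  `(S-A)` by lead's `SpecialA0.eq_Z_of_principal`;
* `edgeStepAll` = helper5's `ChainFinal5.EdgeStepAll RT lift ι'`;
* `edgeStepAll_final` = the same for `RT := RTFinal5.rtDataFinal L AJ`, all analytic hypotheses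
  discharged by `ThetaFacts1`; `s17_of_ajData` = `ChainFinal5`'s conclusion with (CH-2) plugged in.
-/
import Mathlib
import Fermat.Agent.M17.ConjEdge2
import Fermat.Agent.M17.RatZero3
import Fermat.Agent.M17.SpecialA0
import Fermat.Agent.M17.ChainFinal5
import Fermat.Agent.M17.ChainInst5

set_option autoImplicit false
set_option linter.unusedSectionVars false
set_option linter.unusedVariables false
set_option linter.style.longLine false

namespace Fermat.Agent.M17.ConjEdgeFinal2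

open ModularCurve AlgebraicCurve UpperHalfPlane
open Fermat.Agent.J.DESC.DescentFinal24
open Fermat.Agent.U44.DescInst1
open Fermat.Agent.M17.Interfaces7 Fermat.Agent.M17.ChainTop7 Fermat.Agent.M17.ConjEdge2
open Fermat.Agent.M17.Theta1

noncomputable section

attribute [local instance] instAlgebraQbarComplex instTowerQbarComplex

variable {N : ℕ} [NeZero N] {g : ℕ} {L : LatData N g} {AJ : AJData N L}
  {th0 : (Fin g → ℂ) → ℂ} {ι' : Type*}

/-- the zero set is lattice-periodic, from quasi-periodicity. -/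
theorem hper_of_hqp
    (hqp : ∀ l ∈ L.lattice, ∃ (c : ℂ) (χ : (Fin g → ℂ) →+ ℂ), c ≠ 0 ∧
      ∀ z, th0 (z + l) = c * Complex.exp (χ z) * th0 z) :
    ∀ l ∈ L.lattice, ∀ z, th0 (z + l) = 0 ↔ th0 z = 0 := fun l hl z =>
  not_iff_not.mp (ne_zero_add_iff (hqp l hl) z)

/-- **(CH-2)**, helper7's literal target (board 1193). -/
theorem edgeStep (RT : RTData N L AJ th0) {lift : JZero N → Fin g → ℂ}
    (hlift : ∀ x, (QuotientAddGroup.mk (lift x) : (Fin g → ℂ) ⧸ L.lattice)
      = AJ.iota (extPic0C N x))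
    (hcont : Continuous th0) (heven : ∀ z, th0 (-z) = th0 z)
    (hqp : ∀ l ∈ L.lattice, ∃ (c : ℂ) (χ : (Fin g → ℂ) →+ ℂ), c ≠ 0 ∧
      ∀ z, th0 (z + l) = c * Complex.exp (χ z) * th0 z)
    (T : ι' → List (Fin g → ℂ)) (i0 : ι') (hlen : ∀ i, (T i).length = (T i0).length)
    (hsum : ∀ i, (T i).sum = (T i0).sum)
    (xs : (Fin g → ℂ) → JZero N)
    (hxs : ∀ i, ∀ s ∈ T i, AJ.iota (extPic0C N (xs s)) = QuotientAddGroup.mk (s - RT.k))
    (K1 : IntermediateField ℚ Qb)
    (hK1 : ∀ σ : ↥K1.fixingSubgroup, ∀ i, ∀ s ∈ T i, σ • xs s = xs s) :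
    EdgeStep N th0 lift T i0 K1 :=
  edgeStep_of RT hlift hqp
    (fun e he D hD hdeg hx => RatZero3.Z_eq_extDivC RT
      (fun e he D' h0 hp => SpecialA0.eq_Z_of_principal RT hcont heven (hper_of_hqp hqp) e he D' h0 hp)
      e he D hD hdeg hx)
    (RatZero3.exists_effective_rep L) T i0 hlen hsum xs hxs K1 hK1

/-- **(CH-2)** in the shape consumed by `ChainFinal5`. -/
theorem edgeStepAll (RT : RTData N L AJ th0) {lift : JZero N → Fin g → ℂ}
    (hlift : ∀ x, (QuotientAddGroup.mk (lift x) : (Fin g → ℂ) ⧸ L.lattice)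
      = AJ.iota (extPic0C N x))
    (hcont : Continuous th0) (heven : ∀ z, th0 (-z) = th0 z)
    (hqp : ∀ l ∈ L.lattice, ∃ (c : ℂ) (χ : (Fin g → ℂ) →+ ℂ), c ≠ 0 ∧
      ∀ z, th0 (z + l) = c * Complex.exp (χ z) * th0 z) :
    ChainFinal5.EdgeStepAll RT lift ι' :=
  fun T i0 hlen hsum xs hxs K1 hK1 =>
    edgeStep RT hlift hcont heven hqp T i0 hlen hsum xs hxs K1 hK1

/-- **(CH-2)** for the final `RTData`, no hypothesis left but `hlift`. -/
theorem edgeStepAll_final (L : LatData N g) (AJ : AJData N L) {lift : JZero N → Fin g → ℂ}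
    (hlift : ∀ x, (QuotientAddGroup.mk (lift x) : (Fin g → ℂ) ⧸ L.lattice)
      = AJ.iota (extPic0C N x)) :
    ChainFinal5.EdgeStepAll (Fermat.Agent.M17.RTFinal5.rtDataFinal L AJ) lift ι' :=
  edgeStepAll _ hlift (th0_continuous L) (th0_even L) (th0_qp L)

/-- **(CHAIN), unconditional**: lead's `Fin0.ChainHyp` for every `L`, `AJ`. -/
theorem chainHyp (N : ℕ) [NeZero N] {g : ℕ} (L : LatData N g) (AJ : AJData N L) :
    Fermat.Agent.M17.Fin0.ChainHyp N L AJ (Fermat.Agent.M17.Fin0.liftOf AJ)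
      (Fermat.Agent.M17.RTFinal5.rtDataFinal L AJ).k :=
  Fermat.Agent.M17.ChainInst5.chainHyp_of_edgeStep N L AJ
    (edgeStepAll_final L AJ (Fermat.Agent.M17.Fin0.liftOf_spec AJ))

/-- **S17 from (RL) alone**: `J₀(N)(ℚ)` is finitely generated as soon as the reciprocity law
`RLPair L (AcOf L)` holds for every period lattice datum. -/
theorem s17_of_RL (N : ℕ) [NeZero N]
    (hRL : ∀ (g : ℕ) (L : LatData N g),
      Fermat.Agent.M17.AJAssembly7.RLPair L (Fermat.Agent.M17.AJAssembly7.AcOf L)) :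
    AddGroup.FG ↥(FixedPoints.addSubgroup (AlgebraicClosure ℚ ≃ₐ[ℚ] AlgebraicClosure ℚ) (JZero N)) :=
  Fermat.Agent.M17.Fin0.s17_of_RL_chain N hRL (fun g L AJ => chainHyp N L AJ)

end

end Fermat.Agent.M17.ConjEdgeFinal2
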