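/-
M17 (helper6), programme M17 (target S17); imported by no statement.

**(CH-3) in the literal vocabulary of `ChainTop7`**: `ChainTop7.Connected N th0 lift T` for a
finite family `T i` of lists of translation vectors, from `Connect6.connected` with
`S := all entries of all `T i``.
-/
import Mathlib
import Fermat.Agent.M17.Connect6
import Fermat.Agent.M17.ChainTop7

set_option autoImplicit false
set_option linter.unusedSectionVars false
set_option linter.unusedVariables false

namespace Fermat.Agent.M17.ConnectTop6

open ModularCurve AlgebraicCurve UpperHalfPlane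
open Fermat.Agent.J.DESC.DescentFinal24
open Fermat.Agent.M17.Interfaces7 Fermat.Agent.M17.CuspMove0

attribute [local instance] instAlgebraQbarComplex instTowerQbarComplex

variable {N : ℕ} [NeZero N] {g : ℕ} {L : LatData N g} {AJ : AJData N L} {th0 : (Fin g → ℂ) → ℂ}

/-- **`ChainTop7.Connected`** from `Connect6.connected`. -/
theorem connected_chainTop (RT : RTData N L AJ th0) (lift : JZero N → Fin g → ℂ)
    (hlift : ∀ x : JZero N,
      (QuotientAddGroup.mk (lift x) : (Fin g → ℂ) ⧸ L.lattice) = AJ.iota (extPic0C N x))
    (hper : ∀ l ∈ L.lattice, ∀ z, th0 (z + l) = 0 ↔ th0 z = 0)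
    {ι' : Type*} [Finite ι'] (T : ι' → List (Fin g → ℂ)) :
    ChainTop7.Connected N th0 lift T := by
  classical
  have : Fintype ι' := Fintype.ofFinite ι'
  set S : Finset (Fin g → ℂ) := Finset.univ.biUnion fun i => (T i).toFinset with hS
  have hV : ChainTop7.Vset N th0 lift T = Connect6.V th0 lift S := by
    ext x
    simp only [ChainTop7.Vset, Connect6.V, Set.mem_ofPred_eq, hS, Finset.mem_biUnion,
      Finset.mem_univ, true_and, List.mem_toFinset]
    constructor
    · rintro h s ⟨i, hi⟩
      exact h i s hi
    · intro h i s hi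
      exact h s ⟨i, hi⟩
  intro x0 hx0 x hx
  rw [hV] at hx0 hx
  have h := Connect6.connected RT lift hlift S hper hx0 hx
  refine Relation.ReflTransGen.mono ?_ _ _ h
  rintro y y' ⟨h1, h2, a, b, ha, hb, he⟩
  rw [hV]
  exact ⟨h1, h2, a, b, ha, hb, he⟩

end Fermat.Agent.M17.ConnectTop6
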