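import Fermat.Agent.M17.CauchyPompeiu5

/-!
# Weighted residue formulas from Cauchy–Pompeiu

Sandbox prototype for S17 (route K).  Mathlib only (via `CauchyPompeiu5`).
-/

namespace Fermat.Agent.M17.DbarResidue5

open MeasureTheory Set Filter Topology
open scoped Real ENNReal
open Fermat.Agent.M17.CauchyPompeiu5

noncomputable section

variable {φ : ℂ → ℂ}

lemma continuous_dbar2 (hφ : ContDiff ℝ 1 φ) : Continuous (dbar2 φ) := by
  unfold dbar2
  exact ((hφ.continuous_fderiv one_ne_zero).clm_apply continuous_const).add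
    (continuous_const.mul ((hφ.continuous_fderiv one_ne_zero).clm_apply continuous_const))

lemma dbar2_eq_zero_of_notMem (z : ℂ) (hz : z ∉ tsupport φ) : dbar2 φ z = 0 := by
  unfold dbar2
  have : fderiv ℝ φ z = 0 := by
    by_contra h
    exact hz (support_fderiv_subset ℝ (Function.mem_support.mpr h))
  simp [this]

lemma integrable_dbar2_div (hφ : ContDiff ℝ 1 φ) (hc : HasCompactSupport φ) :
    Integrable (fun z : ℂ => dbar2 φ z / z) := by
  obtain ⟨R, hR0, hRφ, hRd⟩ := exists_radius hc
  have hcont : Continuous (dbar2 φ) := continuous_dbar2 hφ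
  have hd0 : ∀ z : ℂ, R ≤ ‖z‖ → dbar2 φ z = 0 := by
    intro z hz
    unfold dbar2
    simp [hRd z hz]
  have hcs : HasCompactSupport (dbar2 φ) := by
    apply HasCompactSupport.intro (isCompact_closedBall (0 : ℂ) R)
    intro z hz
    apply hd0
    simp only [Metric.mem_closedBall, dist_zero_right, not_le] at hz
    exact le_of_lt hz
  obtain ⟨M, hM⟩ := hcont.bounded_above_of_compact_support hcs
  refine ⟨(hcont.measurable.div measurable_id).aestronglyMeasurable, ?_⟩
  unfold HasFiniteIntegral
  rw [← Complex.lintegral_comp_polarCoord_symm]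
  have hK : MeasurableSet (Icc (0 : ℝ) R ×ˢ Icc (-π) π) := measurableSet_Icc.prod measurableSet_Icc
  calc ∫⁻ p in polarCoord.target, ENNReal.ofReal p.1 •
          ‖dbar2 φ (Complex.polarCoord.symm p) / Complex.polarCoord.symm p‖ₑ
      ≤ ∫⁻ p in polarCoord.target,
          indicator (Icc (0 : ℝ) R ×ˢ Icc (-π) π) (fun _ => ENNReal.ofReal M) p := by
        apply setLIntegral_mono' polarCoord.open_target.measurableSet
        intro p hp
        rw [polarCoord_target] at hp
        have hp1 : 0 < p.1 := hp.1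
        rw [polarCoord_symm_eq, ← ofReal_norm, norm_div, norm_pol, abs_of_pos hp1,
          smul_eq_mul, ← ENNReal.ofReal_mul hp1.le, mul_div_cancel₀ _ hp1.ne']
        by_cases hpR : p.1 ≤ R
        · have : p ∈ Icc (0 : ℝ) R ×ˢ Icc (-π) π :=
            ⟨⟨hp1.le, hpR⟩, ⟨le_of_lt hp.2.1, le_of_lt hp.2.2⟩⟩
          rw [indicator_of_mem this]
          exact ENNReal.ofReal_le_ofReal (hM _)
        · rw [hd0 (pol p) (by rw [norm_pol, abs_of_pos hp1]; exact le_of_lt (not_le.mp hpR))]
          simp
    _ ≤ ∫⁻ p, indicator (Icc (0 : ℝ) R ×ˢ Icc (-π) π) (fun _ => ENNReal.ofReal M) p :=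
        setLIntegral_le_lintegral _ _
    _ = ENNReal.ofReal M * volume (Icc (0 : ℝ) R ×ˢ Icc (-π) π) := by
        rw [lintegral_indicator hK, setLIntegral_const]
    _ < ⊤ := ENNReal.mul_lt_top ENNReal.ofReal_lt_top
        (isCompact_Icc.prod isCompact_Icc).measure_lt_top

lemma dbar2_comp_add_right (a z : ℂ) : dbar2 (fun z => φ (z + a)) z = dbar2 φ (z + a) := by
  unfold dbar2
  rw [fderiv_comp_add_right]

lemma integrable_dbar2_div_sub (hφ : ContDiff ℝ 1 φ) (hc : HasCompactSupport φ) (a : ℂ) :
    Integrable (fun z : ℂ => dbar2 φ z / (z - a)) := by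
  have hψ : ContDiff ℝ 1 (fun z => φ (z + a)) := hφ.comp (contDiff_id.add contDiff_const)
  have hψc : HasCompactSupport (fun z => φ (z + a)) := hc.comp_homeomorph (Homeomorph.addRight a)
  have h := (integrable_dbar2_div hψ hψc).comp_sub_right a
  simpa [dbar2_comp_add_right] using h


lemma integrable_of_continuousOn_of_support {K : Set ℂ} (hK : IsCompact K) {f : ℂ → ℂ}
    (hf : ContinuousOn f K) (h0 : ∀ z, z ∉ K → f z = 0) : Integrable f := by
  have hs : Function.support f ⊆ K := by
    intro z hz
    by_contra h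
    exact hz (h0 z h)
  exact (integrableOn_iff_integrable_of_support_subset hs).mp (hf.integrableOn_compact hK)

lemma eq_zero_of_notMem_tsupport (z : ℂ) (hz : z ∉ tsupport φ) : φ z = 0 := by
  by_contra h
  exact hz (subset_tsupport φ (Function.mem_support.mpr h))

lemma fderiv_eq_zero_of_notMem_tsupport (z : ℂ) (hz : z ∉ tsupport φ) : fderiv ℝ φ z = 0 := by
  by_contra h
  exact hz (support_fderiv_subset ℝ (Function.mem_support.mpr h))

/-- Cauchy–Riemann in the form `2 ∂̄ h = 0`. -/
lemma dbar2_eq_zero_of_differentiableAt {h : ℂ → ℂ} {z : ℂ} (hz : DifferentiableAt ℂ h z) :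
    dbar2 h z = 0 := by
  unfold dbar2
  rw [hz.fderiv_restrictScalars ℝ]
  simp only [ContinuousLinearMap.coe_restrictScalars']
  have : (fderiv ℂ h z) Complex.I = Complex.I • (fderiv ℂ h z) 1 := by
    rw [← map_smul]; simp
  rw [this, smul_eq_mul, ← mul_assoc, Complex.I_mul_I]
  ring

/-- (HOLO) `∫ 2∂̄φ · h = 0` for `h` holomorphic near the support of `φ`. -/
theorem integral_dbar2_mul_holo (hφ : ContDiff ℝ 1 φ) (hc : HasCompactSupport φ)
    {U : Set ℂ} (hU : IsOpen U) (hsub : tsupport φ ⊆ U) {h : ℂ → ℂ}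
    (hh : DifferentiableOn ℂ h U) : ∫ z, dbar2 φ z * h z = 0 := by
  have hK : IsCompact (tsupport φ) := hc
  have hhc : ContinuousOn h (tsupport φ) := hh.continuousOn.mono hsub
  have hcd : ContDiffOn ℝ 1 h U := (hh.contDiffOn hU (n := 1)).restrict_scalars ℝ
  have hfd : ContinuousOn (fderiv ℝ h) U := hcd.continuousOn_fderiv_of_isOpen hU le_rfl
  have hdiff : ∀ x ∈ tsupport φ, DifferentiableAt ℝ h x := fun x hx =>
    ((hh.differentiableAt (hU.mem_nhds (hsub hx))).restrictScalars ℝ)
  have hφd : ∀ x ∈ tsupport h, DifferentiableAt ℝ φ x := fun x _ =>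
    hφ.differentiable one_ne_zero x
  have key : ∀ v : ℂ, ∫ z, h z * fderiv ℝ φ z v = - ∫ z, fderiv ℝ h z v * φ z := by
    intro v
    apply integral_mul_fderiv_eq_neg_fderiv_mul_of_integrable _ _ _ hdiff hφd
    · apply integrable_of_continuousOn_of_support hK
      · exact ((hfd.mono hsub).clm_apply continuousOn_const).mul hφ.continuous.continuousOn
      · intro z hz; simp [eq_zero_of_notMem_tsupport z hz]
    · apply integrable_of_continuousOn_of_support hK
      · exact hhc.mul ((hφ.continuous_fderiv one_ne_zero).clm_apply continuous_const).continuousOn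
      · intro z hz; simp [fderiv_eq_zero_of_notMem_tsupport z hz]
    · apply integrable_of_continuousOn_of_support hK
      · exact hhc.mul hφ.continuous.continuousOn
      · intro z hz; simp [eq_zero_of_notMem_tsupport z hz]
  have hI1 : ∀ v : ℂ, Integrable (fun z => h z * fderiv ℝ φ z v) := by
    intro v
    apply integrable_of_continuousOn_of_support hK
    · exact hhc.mul ((hφ.continuous_fderiv one_ne_zero).clm_apply continuous_const).continuousOn
    · intro z hz; simp [fderiv_eq_zero_of_notMem_tsupport z hz]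
  have hI2 : ∀ v : ℂ, Integrable (fun z => fderiv ℝ h z v * φ z) := by
    intro v
    apply integrable_of_continuousOn_of_support hK
    · exact ((hfd.mono hsub).clm_apply continuousOn_const).mul hφ.continuous.continuousOn
    · intro z hz; simp [eq_zero_of_notMem_tsupport z hz]
  have e1 : ∀ z, dbar2 φ z * h z
      = h z * fderiv ℝ φ z 1 + Complex.I * (h z * fderiv ℝ φ z Complex.I) := by
    intro z; unfold dbar2; ring
  simp only [e1]
  rw [integral_add (hI1 1) ((hI1 Complex.I).const_mul _), integral_const_mul, key, key]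
  have hz0 : ∫ z, (fderiv ℝ h z 1 * φ z + Complex.I * (fderiv ℝ h z Complex.I * φ z)) = 0 := by
    apply integral_eq_zero_of_ae
    apply Filter.Eventually.of_forall
    intro z
    by_cases hz : z ∈ tsupport φ
    · have := dbar2_eq_zero_of_differentiableAt (hh.differentiableAt (hU.mem_nhds (hsub hz)))
      unfold dbar2 at this
      simp only [Pi.zero_apply]
      linear_combination (φ z) * this
    · simp [eq_zero_of_notMem_tsupport z hz]
  rw [integral_add (hI2 1) ((hI2 Complex.I).const_mul _), integral_const_mul] at hz0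
  linear_combination (-1 : ℂ) * hz0

/-- (RES) weighted residue formula for simple poles. -/
theorem integral_dbar2_mul_simple_poles (hφ : ContDiff ℝ 1 φ) (hc : HasCompactSupport φ)
    {U : Set ℂ} (hU : IsOpen U) (hsub : tsupport φ ⊆ U) (Z : Finset ℂ) (c : ℂ → ℂ)
    {h h₀ : ℂ → ℂ} (hh₀ : DifferentiableOn ℂ h₀ U)
    (heq : ∀ z ∈ U, z ∉ Z → h z = ∑ p ∈ Z, c p / (z - p) + h₀ z) :
    ∫ z, dbar2 φ z * h z = -(2 * π) * ∑ p ∈ Z, c p * φ p := by
  have hK : IsCompact (tsupport φ) := hc
  have hae : (fun z => dbar2 φ z * h z) =ᵐ[volume]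
      fun z => ∑ p ∈ Z, c p * (dbar2 φ z / (z - p)) + dbar2 φ z * h₀ z := by
    have hZ : ∀ᵐ z : ℂ, z ∉ (Z : Set ℂ) := by
      rw [ae_iff]
      simp only [not_not]
      exact Z.finite_toSet.measure_zero _
    filter_upwards [hZ] with z hz
    by_cases hzU : z ∈ tsupport φ
    · rw [heq z (hsub hzU) (by simpa using hz), mul_add, Finset.mul_sum]
      congr 1
      apply Finset.sum_congr rfl
      intro p _
      ring
    · simp [dbar2_eq_zero_of_notMem z hzU]
  rw [integral_congr_ae hae]
  have hI1 : ∀ p ∈ Z, Integrable (fun z => c p * (dbar2 φ z / (z - p))) := fun p _ =>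
    (integrable_dbar2_div_sub hφ hc p).const_mul _
  have hI2 : Integrable (fun z => dbar2 φ z * h₀ z) := by
    apply integrable_of_continuousOn_of_support hK
    · exact (continuous_dbar2 hφ).continuousOn.mul (hh₀.continuousOn.mono hsub)
    · intro z hz; simp [dbar2_eq_zero_of_notMem z hz]
  rw [integral_add (integrable_finsetSum _ hI1) hI2, integral_finsetSum _ hI1,
    integral_dbar2_mul_holo hφ hc hU hsub hh₀, add_zero, Finset.mul_sum]
  apply Finset.sum_congr rfl
  intro p _
  rw [integral_const_mul, integral_dbar2_div_sub hφ hc p]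
  ring

/-- integrability version of (RES) -/
theorem integrable_dbar2_mul_simple_poles (hφ : ContDiff ℝ 1 φ) (hc : HasCompactSupport φ)
    {U : Set ℂ} (hsub : tsupport φ ⊆ U) (Z : Finset ℂ) (c : ℂ → ℂ)
    {h h₀ : ℂ → ℂ} (hh₀ : DifferentiableOn ℂ h₀ U)
    (heq : ∀ z ∈ U, z ∉ Z → h z = ∑ p ∈ Z, c p / (z - p) + h₀ z) :
    Integrable (fun z => dbar2 φ z * h z) := by
  have hK : IsCompact (tsupport φ) := hc
  have hae : (fun z => dbar2 φ z * h z) =ᵐ[volume]
      fun z => ∑ p ∈ Z, c p * (dbar2 φ z / (z - p)) + dbar2 φ z * h₀ z := by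
    have hZ : ∀ᵐ z : ℂ, z ∉ (Z : Set ℂ) := by
      rw [ae_iff]
      simp only [not_not]
      exact Z.finite_toSet.measure_zero _
    filter_upwards [hZ] with z hz
    by_cases hzU : z ∈ tsupport φ
    · rw [heq z (hsub hzU) (by simpa using hz), mul_add, Finset.mul_sum]
      congr 1
      apply Finset.sum_congr rfl
      intro p _
      ring
    · simp [dbar2_eq_zero_of_notMem z hzU]
  have hI1 : ∀ p ∈ Z, Integrable (fun z => c p * (dbar2 φ z / (z - p))) := fun p _ =>
    (integrable_dbar2_div_sub hφ hc p).const_mul _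
  have hI2 : Integrable (fun z => dbar2 φ z * h₀ z) := by
    apply integrable_of_continuousOn_of_support hK
    · exact (continuous_dbar2 hφ).continuousOn.mul (hh₀.continuousOn.mono hsub)
    · intro z hz; simp [dbar2_eq_zero_of_notMem z hz]
  exact ((integrable_finsetSum _ hI1).add hI2).congr hae.symm

end

end Fermat.Agent.M17.DbarResidue5
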