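/-
Leaf (RL-1/RL-2) of the reciprocity law (RL) of the S17 design: the local model of a small divisor
`(t₁) - (t₂)` and the local integral.  Mathlib + helper5's weighted residue toolkit.

Main statements (namespace `Fermat.Agent.M17.LocalModel8`; `dbar2 φ = φ_x + i φ_y` is helper5's
`CauchyPompeiu5.dbar2`, `d2 v = v_x - i v_y`):
* `integral_dbar2_mul_d2` (IBP2): `∫ 2∂̄u · 2∂v = ∫ 2∂u · 2∂̄v` (`u ∈ C¹`, `v ∈ C²` compactly
  supported);
* for `t₁ ≠ t₂`: `sfun t = |t - t₂|² / |t₁ - t₂|²`, `phi = 1 - θ` (`= 1` for `s ≤ 4`, `= 0` for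
  `s ≥ 16`; `phi_contDiff`, `hasCompactSupport_phi`, `tsupport_phi_subset`),
  `Rfun t = (t - t₁) / (t - t₂)` (`Rfun_mem_slitPlane` for `s > 1`, `deriv_log_Rfun`),
  `ell = (1 - phi) · Log ∘ Rfun` (`ell_contDiff : ContDiff ℝ ∞`, `dbar2_ell`);
* `integral_dbar2_ell_mul_deriv`: for `A` holomorphic on an open `U ⊇ sball t₁ t₂ 25`
  (`= {|t - t₂| ≤ 5 |t₁ - t₂|}`):  `∫ dbar2 ℓ · A' = -2π (A t₁ - A t₂)`.
-/
import Mathlib
import Fermat.Agent.M17.DbarResidue5

namespace Fermat.Agent.M17.LocalModel8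

open MeasureTheory Set Filter Topology Complex
open scoped Real ContDiff
open Fermat.Agent.M17.CauchyPompeiu5 Fermat.Agent.M17.DbarResidue5

noncomputable section

/-! ### Double integration by parts -/

/-- `2 ∂v = v_x - i v_y`. -/
def d2 (v : ℂ → ℂ) (z : ℂ) : ℂ := fderiv ℝ v z 1 - I * fderiv ℝ v z I

theorem d2_eq_of_differentiableAt {h : ℂ → ℂ} {z : ℂ} (hz : DifferentiableAt ℂ h z) :
    d2 h z = 2 * deriv h z := by
  unfold d2
  rw [hz.fderiv_restrictScalars ℝ]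
  simp only [ContinuousLinearMap.coe_restrictScalars']
  have h1 : (fderiv ℂ h z) 1 = deriv h z := rfl
  have h2 : (fderiv ℂ h z) I = I • (fderiv ℂ h z) 1 := by
    rw [← map_smul]; simp
  rw [h2, h1, smul_eq_mul, ← mul_assoc, I_mul_I]
  ring

/-- the mixed second derivatives agree -/
theorem fderiv_fderiv_apply_comm {v : ℂ → ℂ} (hv : ContDiff ℝ 2 v) (z a b : ℂ) :
    fderiv ℝ (fun w => fderiv ℝ v w a) z b = fderiv ℝ (fun w => fderiv ℝ v w b) z a := by
  have hd : DifferentiableAt ℝ (fderiv ℝ v) z :=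
    ((hv.fderiv_right (m := 1) (by norm_num)).differentiable one_ne_zero) z
  have e : ∀ c : ℂ, fderiv ℝ (fun w => fderiv ℝ v w c) z = (fderiv ℝ (fderiv ℝ v) z).flip c := by
    intro c
    have := fderiv_clm_apply (𝕜 := ℝ) (c := fderiv ℝ v) (u := fun _ => c) hd
      (differentiableAt_const c)
    simpa using this
  rw [e a, e b]
  simp only [ContinuousLinearMap.flip_apply]
  exact (hv.contDiffAt.isSymmSndFDerivAt (by simp)).eq b a

theorem integrable_mul_of_hasCompactSupport {f g : ℂ → ℂ} (hf : Continuous f) (hg : Continuous g)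
    (hc : HasCompactSupport g) : Integrable (fun z => f z * g z) :=
  (hf.mul hg).integrable_of_hasCompactSupport (hc.mul_left)

/-- **(IBP2)** `∫ 2∂̄u · 2∂v = ∫ 2∂u · 2∂̄v` for `v` of class `C²` with compact support. -/
theorem integral_dbar2_mul_d2 {u v : ℂ → ℂ} (hu : ContDiff ℝ 1 u) (hv : ContDiff ℝ 2 v)
    (hvc : HasCompactSupport v) :
    ∫ z, dbar2 u z * d2 v z = ∫ z, d2 u z * dbar2 v z := by
  -- notation
  have hv1 : ContDiff ℝ 1 v := hv.of_le (by norm_num)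
  have hdv : ContDiff ℝ 1 (fderiv ℝ v) := hv.fderiv_right (m := 1) (by norm_num)
  have hvc' : ∀ c : ℂ, HasCompactSupport (fun w => fderiv ℝ v w c) := fun c =>
    hvc.fderiv_apply ℝ c
  have hvcont : ∀ c : ℂ, Continuous (fun w => fderiv ℝ v w c) := fun c =>
    (hv1.continuous_fderiv one_ne_zero).clm_apply continuous_const
  have hucont : ∀ c : ℂ, Continuous (fun w => fderiv ℝ u w c) := fun c =>
    (hu.continuous_fderiv one_ne_zero).clm_apply continuous_const
  have hvd : ∀ c : ℂ, ContDiff ℝ 1 (fun w => fderiv ℝ v w c) := fun c =>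
    hdv.clm_apply contDiff_const
  have hvvcont : ∀ a b : ℂ, Continuous (fun w => fderiv ℝ (fun w => fderiv ℝ v w a) w b) :=
    fun a b => ((hvd a).continuous_fderiv one_ne_zero).clm_apply continuous_const
  have hvvc : ∀ a b : ℂ, HasCompactSupport (fun w => fderiv ℝ (fun w => fderiv ℝ v w a) w b) :=
    fun a b => (hvc' a).fderiv_apply ℝ b
  -- integration by parts in direction `b` against `∂_a v`
  have key : ∀ a b : ℂ, ∫ z, fderiv ℝ v z a * fderiv ℝ u z b
      = - ∫ z, fderiv ℝ (fun w => fderiv ℝ v w a) z b * u z := by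
    intro a b
    apply integral_mul_fderiv_eq_neg_fderiv_mul_of_integrable
    · have := integrable_mul_of_hasCompactSupport hu.continuous (hvvcont a b) (hvvc a b)
      simpa [mul_comm] using this
    · have := integrable_mul_of_hasCompactSupport (hucont b) (hvcont a) (hvc' a)
      simpa [mul_comm] using this
    · have := integrable_mul_of_hasCompactSupport hu.continuous (hvcont a) (hvc' a)
      simpa [mul_comm] using this
    · intro x _; exact (hvd a).differentiable one_ne_zero x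
    · intro x _; exact hu.differentiable one_ne_zero x
  have hsymm : ∫ z, fderiv ℝ v z 1 * fderiv ℝ u z I = ∫ z, fderiv ℝ v z I * fderiv ℝ u z 1 := by
    rw [key 1 I, key I 1]
    congr 2
    funext z
    rw [fderiv_fderiv_apply_comm hv z 1 I]
  -- integrability of the four products
  have hI : ∀ a b : ℂ, Integrable (fun z => fderiv ℝ v z a * fderiv ℝ u z b) := fun a b => by
    have := integrable_mul_of_hasCompactSupport (hucont b) (hvcont a) (hvc' a)
    simpa [mul_comm] using this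
  have e1 : ∀ z, dbar2 u z * d2 v z =
      (fderiv ℝ v z 1 * fderiv ℝ u z 1 + fderiv ℝ v z I * fderiv ℝ u z I)
        + I * (fderiv ℝ v z 1 * fderiv ℝ u z I - fderiv ℝ v z I * fderiv ℝ u z 1) := by
    intro z; unfold dbar2 d2
    linear_combination (-(fderiv ℝ u z I * fderiv ℝ v z I)) * I_mul_I
  have e2 : ∀ z, d2 u z * dbar2 v z =
      (fderiv ℝ v z 1 * fderiv ℝ u z 1 + fderiv ℝ v z I * fderiv ℝ u z I)
        - I * (fderiv ℝ v z 1 * fderiv ℝ u z I - fderiv ℝ v z I * fderiv ℝ u z 1) := by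
    intro z; unfold dbar2 d2
    linear_combination (-(fderiv ℝ u z I * fderiv ℝ v z I)) * I_mul_I
  have hint1 : Integrable (fun z => dbar2 u z * d2 v z) := by
    simp only [e1]
    exact ((hI 1 1).add (hI I I)).add (((hI 1 I).sub (hI I 1)).const_mul _)
  have hint2 : Integrable (fun z => d2 u z * dbar2 v z) := by
    simp only [e2]
    exact ((hI 1 1).add (hI I I)).sub (((hI 1 I).sub (hI I 1)).const_mul _)
  rw [← sub_eq_zero, ← integral_sub hint1 hint2]
  have e3 : ∀ z, dbar2 u z * d2 v z - d2 u z * dbar2 v z =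
      (2 * I) * (fderiv ℝ v z 1 * fderiv ℝ u z I - fderiv ℝ v z I * fderiv ℝ u z 1) := by
    intro z; rw [e1, e2]; ring
  simp only [e3]
  rw [integral_const_mul, integral_sub (hI 1 I) (hI I 1), hsymm, sub_self, mul_zero]

/-! ### The cut-offs -/

variable (t₁ t₂ : ℂ)

/-- the squared distance to `t₂` in units of `|t₁ - t₂|`. -/
def sfun (t : ℂ) : ℝ := normSq (t - t₂) / normSq (t₁ - t₂)

theorem sfun_contDiff : ContDiff ℝ ∞ (sfun t₁ t₂) := by
  unfold sfun
  have h : (fun t : ℂ => normSq (t - t₂)) =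
      fun t : ℂ => (t.re - t₂.re) * (t.re - t₂.re) + (t.im - t₂.im) * (t.im - t₂.im) := by
    ext t; rw [normSq_apply]; simp
  have h2 : ContDiff ℝ ∞ (fun t : ℂ => normSq (t - t₂)) := by
    rw [h]
    have hre : ContDiff ℝ ∞ (fun t : ℂ => t.re - t₂.re) := reCLM.contDiff.sub contDiff_const
    have him : ContDiff ℝ ∞ (fun t : ℂ => t.im - t₂.im) := imCLM.contDiff.sub contDiff_const
    exact (hre.mul hre).add (him.mul him)
  exact h2.div_const _

theorem sfun_nonneg (t : ℂ) : 0 ≤ sfun t₁ t₂ t := div_nonneg (normSq_nonneg _) (normSq_nonneg _)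

variable {t₁ t₂}

theorem sfun_self_left (h : t₁ ≠ t₂) : sfun t₁ t₂ t₁ = 1 :=
  div_self (fun h0 => h (sub_eq_zero.1 (normSq_eq_zero.1 h0)))

theorem sfun_self_right : sfun t₁ t₂ t₂ = 0 := by simp [sfun]

theorem ne_of_sfun_pos {t : ℂ} (h : 0 < sfun t₁ t₂ t) : t ≠ t₂ := by
  rintro rfl
  rw [sfun_self_right] at h
  exact lt_irrefl _ h

variable (t₁ t₂)

/-- the radial cut-off around `t₂`: `0` for `|t - t₂| ≤ 2 d`, `1` for `|t - t₂| ≥ 4 d`. -/
def theta (t : ℂ) : ℝ := Real.smoothTransition ((sfun t₁ t₂ t - 4) / 12)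

/-- `1 - θ`, complex valued: the compactly supported weight. -/
def phi (t : ℂ) : ℂ := ((1 - theta t₁ t₂ t : ℝ) : ℂ)

/-- the auxiliary cut-off: `1` for `3 ≤ s ≤ 24`, `0` outside `2 < s < 25`. -/
def lam (t : ℂ) : ℝ :=
  Real.smoothTransition (sfun t₁ t₂ t - 2) * Real.smoothTransition (25 - sfun t₁ t₂ t)

theorem theta_contDiff : ContDiff ℝ ∞ (theta t₁ t₂) :=
  Real.smoothTransition.contDiff.comp (((sfun_contDiff t₁ t₂).sub contDiff_const).div_const _)

theorem phi_contDiff : ContDiff ℝ ∞ (phi t₁ t₂) :=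
  ofRealCLM.contDiff.comp (contDiff_const.sub (theta_contDiff t₁ t₂))

theorem lam_contDiff : ContDiff ℝ ∞ (lam t₁ t₂) :=
  (Real.smoothTransition.contDiff.comp ((sfun_contDiff t₁ t₂).sub contDiff_const)).mul
    (Real.smoothTransition.contDiff.comp (contDiff_const.sub (sfun_contDiff t₁ t₂)))

variable {t₁ t₂}

theorem theta_eq_zero {t : ℂ} (h : sfun t₁ t₂ t ≤ 4) : theta t₁ t₂ t = 0 :=
  Real.smoothTransition.zero_of_nonpos (by linarith)

theorem theta_eq_one {t : ℂ} (h : 16 ≤ sfun t₁ t₂ t) : theta t₁ t₂ t = 1 :=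
  Real.smoothTransition.one_of_one_le (by linarith)

theorem phi_eq_one {t : ℂ} (h : sfun t₁ t₂ t ≤ 4) : phi t₁ t₂ t = 1 := by
  unfold phi; rw [theta_eq_zero h]; simp

theorem phi_eq_zero {t : ℂ} (h : 16 ≤ sfun t₁ t₂ t) : phi t₁ t₂ t = 0 := by
  unfold phi; rw [theta_eq_one h]; simp

theorem lam_eq_one {t : ℂ} (h1 : 3 ≤ sfun t₁ t₂ t) (h2 : sfun t₁ t₂ t ≤ 24) : lam t₁ t₂ t = 1 := by
  unfold lam
  rw [Real.smoothTransition.one_of_one_le (by linarith),
    Real.smoothTransition.one_of_one_le (by linarith), one_mul]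

theorem of_lam_ne_zero {t : ℂ} (h : lam t₁ t₂ t ≠ 0) : 2 < sfun t₁ t₂ t ∧ sfun t₁ t₂ t < 25 := by
  unfold lam at h
  constructor
  · by_contra hc
    exact h (by rw [Real.smoothTransition.zero_of_nonpos (x := sfun t₁ t₂ t - 2) (by linarith),
      zero_mul])
  · by_contra hc
    exact h (by rw [Real.smoothTransition.zero_of_nonpos (x := 25 - sfun t₁ t₂ t) (by linarith),
      mul_zero])

/-! ### Supports -/

variable (t₁ t₂)

/-- the closed ball `{|t - t₂| ≤ √c |t₁ - t₂|}`. -/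
def sball (c : ℝ) : Set ℂ := {t | sfun t₁ t₂ t ≤ c}

theorem isClosed_sball (c : ℝ) : IsClosed (sball t₁ t₂ c) :=
  isClosed_le (sfun_contDiff t₁ t₂).continuous continuous_const

variable {t₁ t₂}

theorem isCompact_sball (h : t₁ ≠ t₂) (c : ℝ) : IsCompact (sball t₁ t₂ c) := by
  have hD : 0 < normSq (t₁ - t₂) := normSq_pos.2 (sub_ne_zero.2 h)
  refine Metric.isCompact_of_isClosed_isBounded (isClosed_sball t₁ t₂ c) ?_
  refine (Metric.isBounded_closedBall (x := t₂) (r := Real.sqrt (c * normSq (t₁ - t₂)))).subset ?_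
  intro t ht
  rw [Metric.mem_closedBall, dist_eq_norm]
  have h1 : normSq (t - t₂) ≤ c * normSq (t₁ - t₂) := by
    have : sfun t₁ t₂ t ≤ c := ht
    unfold sfun at this
    rwa [div_le_iff₀ hD] at this
  rw [← Real.sqrt_sq (norm_nonneg (t - t₂))]
  apply Real.sqrt_le_sqrt
  rw [← normSq_eq_norm_sq]
  exact h1

theorem tsupport_phi_subset : tsupport (phi t₁ t₂) ⊆ sball t₁ t₂ 16 := by
  refine closure_minimal ?_ (isClosed_sball t₁ t₂ 16)
  intro t ht
  by_contra hc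
  exact ht (phi_eq_zero (le_of_lt (not_le.1 hc)))

theorem hasCompactSupport_phi (h : t₁ ≠ t₂) : HasCompactSupport (phi t₁ t₂) :=
  (isCompact_sball h 16).of_isClosed_subset (isClosed_tsupport _) tsupport_phi_subset

/-- `φ` is locally constant off the annulus `4 ≤ s ≤ 16`. -/
theorem fderiv_phi_eq_zero {t : ℂ} (h : sfun t₁ t₂ t < 4 ∨ 16 < sfun t₁ t₂ t) :
    fderiv ℝ (phi t₁ t₂) t = 0 := by
  rcases h with h | h
  · have : phi t₁ t₂ =ᶠ[𝓝 t] fun _ => (1 : ℂ) := by
      have ho : IsOpen {t | sfun t₁ t₂ t < 4} :=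
        isOpen_lt (sfun_contDiff t₁ t₂).continuous continuous_const
      filter_upwards [ho.mem_nhds h] with w hw
      exact phi_eq_one (le_of_lt hw)
    rw [this.fderiv_eq]; simp
  · have : phi t₁ t₂ =ᶠ[𝓝 t] fun _ => (0 : ℂ) := by
      have ho : IsOpen {t | 16 < sfun t₁ t₂ t} :=
        isOpen_lt continuous_const (sfun_contDiff t₁ t₂).continuous
      filter_upwards [ho.mem_nhds h] with w hw
      exact phi_eq_zero (le_of_lt hw)
    rw [this.fderiv_eq]; simp

theorem dbar2_phi_eq_zero {t : ℂ} (h : sfun t₁ t₂ t < 4 ∨ 16 < sfun t₁ t₂ t) :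
    dbar2 (phi t₁ t₂) t = 0 := by
  unfold dbar2; rw [fderiv_phi_eq_zero h]; simp

theorem d2_phi_eq_zero {t : ℂ} (h : sfun t₁ t₂ t < 4 ∨ 16 < sfun t₁ t₂ t) :
    d2 (phi t₁ t₂) t = 0 := by
  unfold d2; rw [fderiv_phi_eq_zero h]; simp

/-! ### The model function -/

variable (t₁ t₂)

/-- the local model `R t = (t - t₁) / (t - t₂)`. -/
def Rfun (t : ℂ) : ℂ := (t - t₁) / (t - t₂)

variable {t₁ t₂}

theorem Rfun_sub_one {t : ℂ} (ht : t ≠ t₂) : Rfun t₁ t₂ t - 1 = (t₂ - t₁) / (t - t₂) := by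
  unfold Rfun
  have : t - t₂ ≠ 0 := sub_ne_zero.2 ht
  field_simp
  ring

theorem normSq_Rfun_sub_one {t : ℂ} (ht : t ≠ t₂) :
    normSq (Rfun t₁ t₂ t - 1) = (sfun t₁ t₂ t)⁻¹ := by
  rw [Rfun_sub_one ht, map_div₀]
  unfold sfun
  rw [inv_div, ← normSq_neg (t₂ - t₁), neg_sub]

theorem Rfun_mem_slitPlane {t : ℂ} (hs : 1 < sfun t₁ t₂ t) :
    Rfun t₁ t₂ t ∈ slitPlane := by
  have ht : t ≠ t₂ := ne_of_sfun_pos (lt_trans one_pos hs)
  have h1 : normSq (Rfun t₁ t₂ t - 1) < 1 := by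
    rw [normSq_Rfun_sub_one ht]
    exact inv_lt_one_of_one_lt₀ hs
  rw [mem_slitPlane_iff]
  left
  have h2 : (Rfun t₁ t₂ t - 1).re * (Rfun t₁ t₂ t - 1).re < 1 := by
    rw [normSq_apply] at h1
    nlinarith [mul_self_nonneg (Rfun t₁ t₂ t - 1).im]
  have h3 : -1 < (Rfun t₁ t₂ t - 1).re := by nlinarith
  simpa using h3

theorem differentiableAt_Rfun {t : ℂ} (ht : t ≠ t₂) : DifferentiableAt ℂ (Rfun t₁ t₂) t := by
  unfold Rfun
  exact (differentiableAt_id.sub_const _).div (differentiableAt_id.sub_const _) (sub_ne_zero.2 ht)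

/-- `Log ∘ R` is holomorphic on `s > 1`. -/
theorem differentiableAt_log_Rfun {t : ℂ} (hs : 1 < sfun t₁ t₂ t) :
    DifferentiableAt ℂ (fun t => Complex.log (Rfun t₁ t₂ t)) t :=
  (differentiableAt_Rfun (ne_of_sfun_pos (lt_trans one_pos hs))).clog (Rfun_mem_slitPlane hs)

theorem deriv_log_Rfun {t : ℂ} (h : t₁ ≠ t₂) (hs : 1 < sfun t₁ t₂ t) :
    deriv (fun t => Complex.log (Rfun t₁ t₂ t)) t = 1 / (t - t₁) - 1 / (t - t₂) := by
  have ht : t ≠ t₂ := ne_of_sfun_pos (lt_trans one_pos hs)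
  have ht2 : t - t₂ ≠ 0 := sub_ne_zero.2 ht
  have ht1 : t - t₁ ≠ 0 := by
    intro h0
    have : t = t₁ := sub_eq_zero.1 h0
    rw [this, sfun_self_left h] at hs
    exact lt_irrefl _ hs
  have hR : HasDerivAt (Rfun t₁ t₂) (((1 : ℂ) * (t - t₂) - (t - t₁) * 1) / (t - t₂) ^ 2) t := by
    unfold Rfun
    exact ((hasDerivAt_id t).sub_const t₁).div ((hasDerivAt_id t).sub_const t₂) ht2
  have := (hR.clog (Rfun_mem_slitPlane hs)).deriv
  rw [this]
  unfold Rfun
  field_simp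

/-! ### Calculus of `dbar2` and `d2` -/

theorem dbar2_congr {u v : ℂ → ℂ} {z : ℂ} (h : u =ᶠ[𝓝 z] v) : dbar2 u z = dbar2 v z := by
  unfold dbar2; rw [h.fderiv_eq]

theorem d2_congr {u v : ℂ → ℂ} {z : ℂ} (h : u =ᶠ[𝓝 z] v) : d2 u z = d2 v z := by
  unfold d2; rw [h.fderiv_eq]

/-- product rule for `2∂̄` against a holomorphic factor. -/
theorem dbar2_mul_holo {u h : ℂ → ℂ} {z : ℂ} (hu : DifferentiableAt ℝ u z)
    (hh : DifferentiableAt ℂ h z) : dbar2 (fun w => u w * h w) z = dbar2 u z * h z := by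
  have h0 := dbar2_eq_zero_of_differentiableAt hh
  have hhr : DifferentiableAt ℝ h z := hh.restrictScalars ℝ
  unfold dbar2 at h0 ⊢
  rw [fderiv_fun_mul hu hhr]
  simp only [_root_.add_apply, _root_.smul_apply, smul_eq_mul]
  linear_combination (u z) * h0

theorem dbar2_const_sub {u : ℂ → ℂ} {z : ℂ} (c : ℂ) :
    dbar2 (fun w => c - u w) z = -dbar2 u z := by
  unfold dbar2
  rw [fderiv_const_sub]
  simp only [_root_.neg_apply]
  ring

/-! ### The smooth function `ℓ = θ · Log R` -/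

variable (t₁ t₂ : ℂ)

/-- `ℓ = θ · Log R`, a smooth function on `ℂ` (zero near `t₁, t₂`, equal to `Log R` far away). -/
def ell (t : ℂ) : ℂ := (1 - phi t₁ t₂ t) * Complex.log (Rfun t₁ t₂ t)

variable {t₁ t₂}

theorem isOpen_sfun_lt (c : ℝ) : IsOpen {t | sfun t₁ t₂ t < c} :=
  isOpen_lt (sfun_contDiff t₁ t₂).continuous continuous_const

theorem isOpen_lt_sfun (c : ℝ) : IsOpen {t | c < sfun t₁ t₂ t} :=
  isOpen_lt continuous_const (sfun_contDiff t₁ t₂).continuous

theorem ell_eventuallyEq_zero {t : ℂ} (h : sfun t₁ t₂ t < 4) : ell t₁ t₂ =ᶠ[𝓝 t] fun _ => 0 := by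
  filter_upwards [(isOpen_sfun_lt 4).mem_nhds h] with w hw
  unfold ell
  rw [phi_eq_one (le_of_lt hw), sub_self, zero_mul]

theorem contDiffAt_log_Rfun {t : ℂ} (hs : 1 < sfun t₁ t₂ t) :
    ContDiffAt ℝ ∞ (fun t => Complex.log (Rfun t₁ t₂ t)) t := by
  have ht : t ≠ t₂ := ne_of_sfun_pos (lt_trans one_pos hs)
  have hR : ContDiffAt ℂ ∞ (Rfun t₁ t₂) t := by
    unfold Rfun
    exact (contDiffAt_id.sub contDiffAt_const).div (contDiffAt_id.sub contDiffAt_const)
      (sub_ne_zero.2 ht)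
  have : ContDiffAt ℂ ∞ (fun t => Complex.log (Rfun t₁ t₂ t)) t :=
    (Complex.contDiffAt_log (Rfun_mem_slitPlane hs)).comp t hR
  exact this.restrict_scalars ℝ

theorem ell_contDiff : ContDiff ℝ ∞ (ell t₁ t₂) := by
  rw [contDiff_iff_contDiffAt]
  intro t
  by_cases h : sfun t₁ t₂ t < 4
  · exact (contDiffAt_const (c := (0 : ℂ))).congr_of_eventuallyEq (ell_eventuallyEq_zero h)
  · have hs : 1 < sfun t₁ t₂ t := by linarith [not_lt.1 h]
    unfold ell
    exact (contDiffAt_const.sub (phi_contDiff t₁ t₂).contDiffAt).mul (contDiffAt_log_Rfun hs)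

/-- `2∂̄ℓ = -(2∂̄φ) · Log R` everywhere. -/
theorem dbar2_ell (t : ℂ) :
    dbar2 (ell t₁ t₂) t = -dbar2 (phi t₁ t₂) t * Complex.log (Rfun t₁ t₂ t) := by
  by_cases h : sfun t₁ t₂ t < 4
  · rw [dbar2_congr (ell_eventuallyEq_zero h), dbar2_phi_eq_zero (Or.inl h)]
    unfold dbar2; simp
  · have hs : 1 < sfun t₁ t₂ t := by linarith [not_lt.1 h]
    have hu : DifferentiableAt ℝ (fun w => 1 - phi t₁ t₂ w) t :=
      (differentiableAt_const _).sub ((phi_contDiff t₁ t₂).differentiable (by simp) t)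
    have := dbar2_mul_holo (u := fun w => 1 - phi t₁ t₂ w) hu (differentiableAt_log_Rfun hs)
    unfold ell
    rw [this, dbar2_const_sub]

/-! ### The auxiliary function `G = A · Log R` and its cut-off -/

variable (t₁ t₂)

/-- `G = A · Log R`. -/
def Gfun (A : ℂ → ℂ) (t : ℂ) : ℂ := A t * Complex.log (Rfun t₁ t₂ t)

/-- `λ · G`, compactly supported. -/
def Gcut (A : ℂ → ℂ) (t : ℂ) : ℂ := (lam t₁ t₂ t : ℂ) * Gfun t₁ t₂ A t

/-- the meromorphic function `A · R'/R`. -/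
def hfun (A : ℂ → ℂ) (t : ℂ) : ℂ := A t * (1 / (t - t₁) - 1 / (t - t₂))

variable {t₁ t₂} {U : Set ℂ} {A : ℂ → ℂ}

theorem differentiableAt_Gfun (hU : IsOpen U) (hA : DifferentiableOn ℂ A U) {t : ℂ} (htU : t ∈ U)
    (hs : 1 < sfun t₁ t₂ t) : DifferentiableAt ℂ (Gfun t₁ t₂ A) t :=
  (hA.differentiableAt (hU.mem_nhds htU)).mul (differentiableAt_log_Rfun hs)

theorem deriv_Gfun (h : t₁ ≠ t₂) (hU : IsOpen U) (hA : DifferentiableOn ℂ A U) {t : ℂ}
    (htU : t ∈ U) (hs : 1 < sfun t₁ t₂ t) :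
    deriv (Gfun t₁ t₂ A) t = deriv A t * Complex.log (Rfun t₁ t₂ t) + hfun t₁ t₂ A t := by
  have hA' := hA.differentiableAt (hU.mem_nhds htU)
  have := deriv_fun_mul hA' (differentiableAt_log_Rfun (t₁ := t₁) (t₂ := t₂) hs)
  unfold Gfun hfun
  rw [this, deriv_log_Rfun h hs]

theorem Gcut_eventuallyEq_Gfun {t : ℂ} (h1 : 3 < sfun t₁ t₂ t) (h2 : sfun t₁ t₂ t < 24) :
    Gcut t₁ t₂ A =ᶠ[𝓝 t] Gfun t₁ t₂ A := by
  filter_upwards [(isOpen_lt_sfun 3).mem_nhds h1, (isOpen_sfun_lt 24).mem_nhds h2] with w hw1 hw2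
  unfold Gcut
  rw [lam_eq_one (le_of_lt hw1) (le_of_lt hw2)]
  simp

theorem Gcut_eventuallyEq_zero {t : ℂ} (h : sfun t₁ t₂ t < 2 ∨ 25 < sfun t₁ t₂ t) :
    Gcut t₁ t₂ A =ᶠ[𝓝 t] fun _ => 0 := by
  have hz : ∀ w, (sfun t₁ t₂ w < 2 ∨ 25 < sfun t₁ t₂ w) → Gcut t₁ t₂ A w = 0 := by
    intro w hw
    have : lam t₁ t₂ w = 0 := by
      by_contra hne
      obtain ⟨h1, h2⟩ := of_lam_ne_zero hne
      rcases hw with hw | hw <;> linarith
    unfold Gcut
    rw [this]; simp
  rcases h with h | h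
  · filter_upwards [(isOpen_sfun_lt 2).mem_nhds h] with w hw
    exact hz w (Or.inl hw)
  · filter_upwards [(isOpen_lt_sfun 25).mem_nhds h] with w hw
    exact hz w (Or.inr hw)

theorem Gcut_contDiff (hU : IsOpen U) (hsub : sball t₁ t₂ 25 ⊆ U) (hA : DifferentiableOn ℂ A U) :
    ContDiff ℝ 2 (Gcut t₁ t₂ A) := by
  rw [contDiff_iff_contDiffAt]
  intro t
  by_cases h : sfun t₁ t₂ t < 2 ∨ 25 < sfun t₁ t₂ t
  · exact (contDiffAt_const (c := (0 : ℂ))).congr_of_eventuallyEq (Gcut_eventuallyEq_zero h)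
  · rw [not_or, not_lt, not_lt] at h
    have htU : t ∈ U := hsub h.2
    have hs : 1 < sfun t₁ t₂ t := by linarith [h.1]
    have hAc : ContDiffAt ℝ 2 A t :=
      ((hA.contDiffOn hU (n := 2)).contDiffAt (hU.mem_nhds htU)).restrict_scalars ℝ
    have hlam : ContDiffAt ℝ 2 (fun t => (lam t₁ t₂ t : ℂ)) t :=
      (ofRealCLM.contDiff.comp ((lam_contDiff t₁ t₂).of_le (by decide))).contDiffAt
    unfold Gcut Gfun
    exact hlam.mul (hAc.mul ((contDiffAt_log_Rfun hs).of_le (by decide)))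

theorem hasCompactSupport_Gcut (h : t₁ ≠ t₂) : HasCompactSupport (Gcut t₁ t₂ A) := by
  refine HasCompactSupport.of_support_subset_isCompact (isCompact_sball h 25) ?_
  intro t ht
  by_contra hc
  have : 25 < sfun t₁ t₂ t := not_le.1 hc
  exact ht (Gcut_eventuallyEq_zero (A := A) (Or.inr this)).self_of_nhds

/-! ### The local integral -/

theorem continuous_d2 {v : ℂ → ℂ} (hv : ContDiff ℝ 1 v) : Continuous (d2 v) := by
  unfold d2
  have h := hv.continuous_fderiv one_ne_zero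
  exact (h.clm_apply continuous_const).sub (continuous_const.mul (h.clm_apply continuous_const))

theorem hasCompactSupport_d2 {v : ℂ → ℂ} (hvc : HasCompactSupport v) :
    HasCompactSupport (d2 v) := by
  unfold d2
  exact (hvc.fderiv_apply ℝ 1).sub ((hvc.fderiv_apply ℝ I).mul_left)

theorem hasCompactSupport_dbar2 {v : ℂ → ℂ} (hvc : HasCompactSupport v) :
    HasCompactSupport (dbar2 v) := by
  unfold dbar2
  exact (hvc.fderiv_apply ℝ 1).add ((hvc.fderiv_apply ℝ I).mul_left)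

/-- the annulus `4 ≤ s ≤ 16` carrying the derivatives of `φ`. -/
def annulus (t₁ t₂ : ℂ) : Set ℂ := {t | 4 ≤ sfun t₁ t₂ t ∧ sfun t₁ t₂ t ≤ 16}

theorem isCompact_annulus (h : t₁ ≠ t₂) : IsCompact (annulus t₁ t₂) := by
  refine (isCompact_sball h 16).of_isClosed_subset ?_ (fun t ht => ht.2)
  exact (isClosed_le continuous_const (sfun_contDiff t₁ t₂).continuous).inter
    (isClosed_sball t₁ t₂ 16)

theorem dbar2_phi_eq_zero_of_notMem {t : ℂ} (ht : t ∉ annulus t₁ t₂) :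
    dbar2 (phi t₁ t₂) t = 0 := by
  apply dbar2_phi_eq_zero
  by_contra hc
  rw [not_or, not_lt, not_lt] at hc
  exact ht hc

theorem d2_phi_eq_zero_of_notMem {t : ℂ} (ht : t ∉ annulus t₁ t₂) :
    d2 (phi t₁ t₂) t = 0 := by
  apply d2_phi_eq_zero
  by_contra hc
  rw [not_or, not_lt, not_lt] at hc
  exact ht hc

/-- the exact part integrates to zero. -/
theorem integral_dbar2_phi_mul_d2_Gcut (h : t₁ ≠ t₂) (hU : IsOpen U) (hsub : sball t₁ t₂ 25 ⊆ U)
    (hA : DifferentiableOn ℂ A U) :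
    ∫ t, dbar2 (phi t₁ t₂) t * d2 (Gcut t₁ t₂ A) t = 0 := by
  rw [integral_dbar2_mul_d2 ((phi_contDiff t₁ t₂).of_le (by decide)) (Gcut_contDiff hU hsub hA)
    (hasCompactSupport_Gcut h)]
  apply integral_eq_zero_of_ae
  apply Filter.Eventually.of_forall
  intro t
  simp only [Pi.zero_apply]
  by_cases ht : t ∈ annulus t₁ t₂
  · have h1 : 3 < sfun t₁ t₂ t := by linarith [ht.1]
    have h2 : sfun t₁ t₂ t < 24 := by linarith [ht.2]
    have htU : t ∈ U := hsub (by show sfun t₁ t₂ t ≤ 25; linarith)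
    rw [dbar2_congr (Gcut_eventuallyEq_Gfun h1 h2),
      dbar2_eq_zero_of_differentiableAt (differentiableAt_Gfun hU hA htU (by linarith)), mul_zero]
  · rw [d2_phi_eq_zero_of_notMem ht, zero_mul]

theorem integrable_dbar2_phi_mul_hfun (h : t₁ ≠ t₂) (hsub : sball t₁ t₂ 25 ⊆ U)
    (hA : DifferentiableOn ℂ A U) :
    Integrable (fun t => dbar2 (phi t₁ t₂) t * hfun t₁ t₂ A t) := by
  apply integrable_of_continuousOn_of_support (isCompact_annulus h)
  · have hne1 : ∀ t ∈ annulus t₁ t₂, t - t₁ ≠ 0 := by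
      intro t ht h0
      have : t = t₁ := sub_eq_zero.1 h0
      have h4 := ht.1
      rw [this, sfun_self_left h] at h4
      linarith
    have hne2 : ∀ t ∈ annulus t₁ t₂, t - t₂ ≠ 0 := by
      intro t ht h0
      have : t = t₂ := sub_eq_zero.1 h0
      have h4 := ht.1
      rw [this, sfun_self_right] at h4
      linarith
    have hAc : ContinuousOn A (annulus t₁ t₂) :=
      hA.continuousOn.mono (fun t ht => hsub (by show sfun t₁ t₂ t ≤ 25; linarith [ht.2]))
    have hcd : Continuous (dbar2 (phi t₁ t₂)) :=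
      continuous_dbar2 ((phi_contDiff t₁ t₂).of_le (by decide))
    unfold hfun
    refine hcd.continuousOn.mul (hAc.mul ?_)
    exact (continuousOn_const.div (continuousOn_id.sub continuousOn_const) hne1).sub
      (continuousOn_const.div (continuousOn_id.sub continuousOn_const) hne2)
  · intro t ht
    rw [dbar2_phi_eq_zero_of_notMem ht, zero_mul]

/-- the residue part. -/
theorem integral_dbar2_phi_mul_hfun (h : t₁ ≠ t₂) (hU : IsOpen U) (hsub : sball t₁ t₂ 25 ⊆ U)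
    (hA : DifferentiableOn ℂ A U) :
    ∫ t, dbar2 (phi t₁ t₂) t * hfun t₁ t₂ A t = -(2 * π) * (A t₁ - A t₂) := by
  have ht1U : t₁ ∈ U := hsub (by show sfun t₁ t₂ t₁ ≤ 25; rw [sfun_self_left h]; norm_num)
  have ht2U : t₂ ∈ U := hsub (by show sfun t₁ t₂ t₂ ≤ 25; rw [sfun_self_right]; norm_num)
  have hh₀ : DifferentiableOn ℂ (fun t => dslope A t₁ t - dslope A t₂ t) U :=
    ((Complex.differentiableOn_dslope (hU.mem_nhds ht1U)).2 hA).sub
      ((Complex.differentiableOn_dslope (hU.mem_nhds ht2U)).2 hA)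
  have hsupp : tsupport (phi t₁ t₂) ⊆ U := by
    intro t ht
    have h16 : sfun t₁ t₂ t ≤ 16 := tsupport_phi_subset ht
    exact hsub (by show sfun t₁ t₂ t ≤ 25; linarith)
  have := integral_dbar2_mul_simple_poles ((phi_contDiff t₁ t₂).of_le (by decide))
    (hasCompactSupport_phi h) hU hsupp {t₁, t₂} (fun p => if p = t₁ then A t₁ else -A t₂)
    (h := hfun t₁ t₂ A) hh₀ ?_
  · rw [this, Finset.sum_pair h]
    simp only [if_true, if_neg (Ne.symm h)]
    rw [phi_eq_one (by rw [sfun_self_left h]; norm_num),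
      phi_eq_one (by rw [sfun_self_right]; norm_num)]
    ring
  · intro z _ hzZ
    rw [Finset.mem_insert, Finset.mem_singleton, not_or] at hzZ
    rw [Finset.sum_pair h]
    simp only [if_true, if_neg (Ne.symm h)]
    rw [dslope_of_ne _ hzZ.1, dslope_of_ne _ hzZ.2, slope_def_field, slope_def_field]
    unfold hfun
    have e1 : z - t₁ ≠ 0 := sub_ne_zero.2 hzZ.1
    have e2 : z - t₂ ≠ 0 := sub_ne_zero.2 hzZ.2
    field_simp
    ring

/-- **The local integral.**  For `A` holomorphic near the closed ball `|t - t₂| ≤ 5 |t₁ - t₂|`: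
`∫ 2∂̄ℓ · A' = -2π (A t₁ - A t₂)`. -/
theorem integral_dbar2_ell_mul_deriv (h : t₁ ≠ t₂) (hU : IsOpen U) (hsub : sball t₁ t₂ 25 ⊆ U)
    (hA : DifferentiableOn ℂ A U) :
    ∫ t, dbar2 (ell t₁ t₂) t * deriv A t = -(2 * π) * (A t₁ - A t₂) := by
  have hφ1 : ContDiff ℝ 1 (phi t₁ t₂) := (phi_contDiff t₁ t₂).of_le (by decide)
  have key : ∀ t, dbar2 (ell t₁ t₂) t * deriv A t =
      -(1 / 2) * (dbar2 (phi t₁ t₂) t * d2 (Gcut t₁ t₂ A) t)
        + dbar2 (phi t₁ t₂) t * hfun t₁ t₂ A t := by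
    intro t
    rw [dbar2_ell]
    by_cases ht : t ∈ annulus t₁ t₂
    · have h1 : 3 < sfun t₁ t₂ t := by linarith [ht.1]
      have h2 : sfun t₁ t₂ t < 24 := by linarith [ht.2]
      have hs : 1 < sfun t₁ t₂ t := by linarith
      have htU : t ∈ U := hsub (by show sfun t₁ t₂ t ≤ 25; linarith)
      rw [d2_congr (Gcut_eventuallyEq_Gfun h1 h2),
        d2_eq_of_differentiableAt (differentiableAt_Gfun hU hA htU hs),
        deriv_Gfun h hU hA htU hs]
      ring
    · rw [dbar2_phi_eq_zero_of_notMem ht]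
      ring
  have hI1 : Integrable (fun t => dbar2 (phi t₁ t₂) t * d2 (Gcut t₁ t₂ A) t) :=
    integrable_mul_of_hasCompactSupport (continuous_dbar2 hφ1)
      (continuous_d2 ((Gcut_contDiff hU hsub hA).of_le (by decide)))
      (hasCompactSupport_d2 (hasCompactSupport_Gcut h))
  simp only [key]
  rw [integral_add (hI1.const_mul _) (integrable_dbar2_phi_mul_hfun h hsub hA),
    integral_const_mul, integral_dbar2_phi_mul_d2_Gcut h hU hsub hA,
    integral_dbar2_phi_mul_hfun h hU hsub hA]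
  ring

end

end Fermat.Agent.M17.LocalModel8
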