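/-
M17 (target S17), block (RL), leaf (P2) (helper4): **the cusp model of the reciprocity law.**
The local model `LocalModel8` for a small divisor `(t₁) - (t₂)` is used in the `q`-disc of a cusp of
width `h` with `t₁ = 0` (the cusp) and `t₂ = q₂ = q(τ₂)`, and pulled back to the half strip
`{-h/2 < Re τ ≤ h/2, Im τ > Y}` by `q = exp(2πiτ/h)`.

* `qh h τ = exp(2πiτ/h)` : `hasDerivAt_qh`, `qh_add`, `norm_qh`, `injOn_qh`, `image_qh_strip`;
* `integral_strip_comp_qh` : change of variables strip ↔ punctured disc;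
* `ellc h q₂ = ell 0 q₂ ∘ qh h` : smooth, `h`-periodic, `= 0` near the cusp and near `τ₂ + hℤ`,
  `= Log (q/(q - q₂))` below;
* `integral_strip_dbar2_ellc_mul_deriv` : `∫_strip 2∂̄ℓ_c · A' = -2π (Â 0 - Â q₂)` for `A = Â ∘ q`.

Imported by no statement.
-/
import Mathlib
import Fermat.Agent.M17.LocalModel8
import Fermat.Agent.M17.DegMoebius5

set_option autoImplicit false

namespace Fermat.Agent.M17.CuspModel4

open MeasureTheory Set Filter Topology Complex
open scoped Real ContDiff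
open Fermat.Agent.M17.CauchyPompeiu5 Fermat.Agent.M17.DbarResidue5 Fermat.Agent.M17.LocalModel8

noncomputable section

/-! ### the local parameter -/

/-- the local parameter `q_h = exp(2πiτ/h)` at a cusp of width `h`. -/
def qh (h : ℝ) (τ : ℂ) : ℂ := Complex.exp (2 * π * I * τ / h)

variable {h : ℝ}

theorem qh_ne_zero (τ : ℂ) : qh h τ ≠ 0 := Complex.exp_ne_zero _

theorem hasDerivAt_qh (τ : ℂ) : HasDerivAt (qh h) (2 * π * I / h * qh h τ) τ := by
  unfold qh
  have h1 : HasDerivAt (fun τ : ℂ => 2 * π * I * τ / h) (2 * π * I / h) τ := by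
    have := ((hasDerivAt_id τ).const_mul (2 * π * I)).div_const (h : ℂ)
    simpa using this
  have h2 := h1.cexp
  have e : 2 * (π : ℂ) * I / h * Complex.exp (2 * π * I * τ / h) =
      Complex.exp (2 * π * I * τ / h) * (2 * π * I / h) := mul_comm _ _
  rw [e]
  exact h2

theorem differentiable_qh : Differentiable ℂ (qh h) := fun τ => (hasDerivAt_qh τ).differentiableAt

theorem qh_add_mul (hh : h ≠ 0) (τ : ℂ) (n : ℤ) : qh h (τ + n * h) = qh h τ := by
  unfold qh
  have hc : (h : ℂ) ≠ 0 := by exact_mod_cast hh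
  have : 2 * π * I * (τ + n * h) / h = 2 * π * I * τ / h + n * (2 * π * I) := by
    field_simp
  rw [this, Complex.exp_add, Complex.exp_int_mul_two_pi_mul_I, mul_one]

theorem qh_add (hh : h ≠ 0) (τ : ℂ) : qh h (τ + h) = qh h τ := by
  have := qh_add_mul hh τ 1
  simpa using this

theorem norm_qh (τ : ℂ) : ‖qh h τ‖ = Real.exp (-(2 * π * τ.im / h)) := by
  unfold qh
  rw [Complex.norm_exp]
  congr 1
  have : (2 * (π : ℂ) * I * τ / (h : ℂ)).re = -(2 * π * τ.im / h) := by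
    rw [Complex.div_ofReal_re]
    simp only [Complex.mul_re, Complex.mul_im, Complex.ofReal_re, Complex.ofReal_im, Complex.I_re,
      Complex.I_im, Complex.re_ofNat, Complex.im_ofNat]
    ring
  exact this

theorem qh_eq_iff (hh : h ≠ 0) (τ τ' : ℂ) : qh h τ = qh h τ' ↔ ∃ n : ℤ, τ = τ' + n * h := by
  unfold qh
  have hc : (h : ℂ) ≠ 0 := by exact_mod_cast hh
  rw [Complex.exp_eq_exp_iff_exists_int]
  constructor
  · rintro ⟨n, hn⟩
    refine ⟨n, ?_⟩
    have h2 : (2 * (π : ℂ) * I) ≠ 0 := by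
      simp [Real.pi_ne_zero]
    field_simp at hn
    rw [hn]
    ring
  · rintro ⟨n, rfl⟩
    refine ⟨n, ?_⟩
    field_simp

/-! ### the half strip and the punctured disc -/

/-- the half strip `{-h/2 < Re τ ≤ h/2, Im τ > Y}`. -/
def strip (h Y : ℝ) : Set ℂ := {τ | -h / 2 < τ.re ∧ τ.re ≤ h / 2 ∧ Y < τ.im}

/-- the punctured disc `{0 < |q| < exp(-2πY/h)}`. -/
def pdisc (h Y : ℝ) : Set ℂ := {q | q ≠ 0 ∧ ‖q‖ < Real.exp (-(2 * π * Y / h))}

variable {Y : ℝ}

theorem measurableSet_strip : MeasurableSet (strip h Y) := by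
  have h1 : MeasurableSet {τ : ℂ | -h / 2 < τ.re} :=
    measurableSet_lt measurable_const Complex.measurable_re
  have h2 : MeasurableSet {τ : ℂ | τ.re ≤ h / 2} :=
    measurableSet_le Complex.measurable_re measurable_const
  have h3 : MeasurableSet {τ : ℂ | Y < τ.im} :=
    measurableSet_lt measurable_const Complex.measurable_im
  exact h1.inter (h2.inter h3)

theorem injOn_qh (hh : 0 < h) : InjOn (qh h) (strip h Y) := by
  intro τ hτ τ' hτ' heq
  obtain ⟨n, hn⟩ := (qh_eq_iff hh.ne' τ τ').mp heq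
  have hre : τ.re = τ'.re + n * h := by
    rw [hn]
    simp
  have hn0 : n = 0 := by
    by_contra h0
    rcases lt_or_gt_of_ne h0 with hneg | hpos
    · have h1 : (n : ℝ) ≤ -1 := by exact_mod_cast Int.le_sub_one_of_lt hneg
      nlinarith [hτ.1, hτ.2.1, hτ'.1, hτ'.2.1]
    · have h1 : (1 : ℝ) ≤ n := by exact_mod_cast hpos
      nlinarith [hτ.1, hτ.2.1, hτ'.1, hτ'.2.1]
  rw [hn, hn0]
  simp

theorem tauOf_eq (h : ℝ) (q : ℂ) : h * Complex.log q / (2 * π * I) =
    ((h * Complex.arg q / (2 * π) : ℝ) : ℂ) + ((-(h * Real.log ‖q‖ / (2 * π)) : ℝ) : ℂ) * I := by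
  have hI : I ≠ 0 := I_ne_zero
  have hpi : (π : ℂ) ≠ 0 := by exact_mod_cast Real.pi_ne_zero
  have hl : Complex.log q = ((Real.log ‖q‖ : ℝ) : ℂ) + ((Complex.arg q : ℝ) : ℂ) * I := by
    apply Complex.ext <;> simp [Complex.log_re, Complex.log_im]
  rw [hl]
  push_cast
  field_simp
  ring_nf
  rw [I_sq]
  ring

theorem tauOf_re (h : ℝ) (q : ℂ) :
    (h * Complex.log q / (2 * π * I)).re = h * Complex.arg q / (2 * π) := by
  rw [tauOf_eq]
  simp only [Complex.add_re, Complex.ofReal_re, Complex.mul_re, Complex.ofReal_im, Complex.I_re,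
    Complex.I_im]
  ring

theorem tauOf_im (h : ℝ) (q : ℂ) :
    (h * Complex.log q / (2 * π * I)).im = -(h * Real.log ‖q‖ / (2 * π)) := by
  rw [tauOf_eq]
  simp only [Complex.add_im, Complex.ofReal_re, Complex.mul_im, Complex.ofReal_im, Complex.I_re,
    Complex.I_im]
  ring

theorem image_qh_strip (hh : 0 < h) : qh h '' strip h Y = pdisc h Y := by
  ext q
  constructor
  · rintro ⟨τ, hτ, rfl⟩
    refine ⟨qh_ne_zero τ, ?_⟩
    rw [norm_qh, Real.exp_lt_exp, neg_lt_neg_iff]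
    have : 0 < 2 * π / h := by positivity
    have h3 := hτ.2.2
    calc 2 * π * Y / h = 2 * π / h * Y := by ring
      _ < 2 * π / h * τ.im := mul_lt_mul_of_pos_left h3 this
      _ = 2 * π * τ.im / h := by ring
  · rintro ⟨hq0, hq⟩
    have hc : (h : ℂ) ≠ 0 := by exact_mod_cast hh.ne'
    have hpi : (π : ℂ) ≠ 0 := by exact_mod_cast Real.pi_ne_zero
    refine ⟨h * Complex.log q / (2 * π * I), ⟨?_, ?_, ?_⟩, ?_⟩
    · -- real part
      have hre := tauOf_re h q
      rw [hre]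
      have := Complex.neg_pi_lt_arg q
      have h2 : 0 < h / (2 * π) := by positivity
      calc -h / 2 = h / (2 * π) * (-π) := by field_simp
        _ < h / (2 * π) * Complex.arg q := mul_lt_mul_of_pos_left this h2
        _ = h * Complex.arg q / (2 * π) := by ring
    · have hre := tauOf_re h q
      rw [hre]
      have := Complex.arg_le_pi q
      have h2 : 0 < h / (2 * π) := by positivity
      calc h * Complex.arg q / (2 * π) = h / (2 * π) * Complex.arg q := by ring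
        _ ≤ h / (2 * π) * π := mul_le_mul_of_nonneg_left this h2.le
        _ = h / 2 := by field_simp
    · have him := tauOf_im h q
      rw [him]
      have hq' : Real.log ‖q‖ < -(2 * π * Y / h) := by
        rw [Real.log_lt_iff_lt_exp (norm_pos_iff.mpr hq0)]
        exact hq
      have h2 : 0 < h / (2 * π) := by positivity
      calc Y = -(h / (2 * π) * (-(2 * π * Y / h))) := by field_simp
        _ < -(h / (2 * π) * Real.log ‖q‖) := by
          rw [neg_lt_neg_iff]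
          exact mul_lt_mul_of_pos_left hq' h2
        _ = -(h * Real.log ‖q‖ / (2 * π)) := by ring
    · unfold qh
      have : 2 * π * I * (h * Complex.log q / (2 * π * I)) / h = Complex.log q := by
        field_simp
      rw [this, Complex.exp_log hq0]

/-! ### change of variables -/

/-- the real derivative of `q_h`. -/
def qhDeriv (h : ℝ) (τ : ℂ) : ℂ →L[ℝ] ℂ :=
  (ContinuousLinearMap.toSpanSingleton ℂ (2 * π * I / h * qh h τ)).restrictScalars ℝ

theorem hasFDerivAt_qh (τ : ℂ) : HasFDerivAt (qh h) (qhDeriv h τ) τ :=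
  (hasDerivAt_qh τ).hasFDerivAt.restrictScalars ℝ

theorem det_qhDeriv (τ : ℂ) : (qhDeriv h τ).det = ‖2 * π * I / h * qh h τ‖ ^ 2 := by
  simp [qhDeriv, ContinuousLinearMap.det, LinearMap.det_restrictScalars,
    Algebra.norm_complex_eq, Complex.normSq_eq_norm_sq]

/-- **change of variables** `q = q_h(τ)` from the half strip to the punctured disc. -/
theorem integral_strip_comp_qh (hh : 0 < h) (F : ℂ → ℂ) :
    ∫ τ in strip h Y, (‖2 * π * I / h * qh h τ‖ ^ 2 : ℝ) • F (qh h τ) = ∫ q in pdisc h Y, F q := by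
  rw [← image_qh_strip hh]
  rw [integral_image_eq_integral_abs_det_fderiv_smul volume measurableSet_strip
    (fun τ _ => (hasFDerivAt_qh τ).hasFDerivWithinAt) (injOn_qh hh) F]
  refine setIntegral_congr_fun measurableSet_strip fun τ _ => ?_
  show _ = |(qhDeriv h τ).det| • F (qh h τ)
  rw [det_qhDeriv, abs_of_nonneg (by positivity)]

/-! ### the pulled back model -/

variable (h) (q₂ : ℂ)

/-- the cusp model `ℓ_c = ℓ(0, q₂) ∘ q_h`: zero near the cusp and near `τ₂ + hℤ`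
(`q_h τ₂ = q₂`), equal to `Log (q/(q - q₂))` for `|q - q₂| ≥ 4 |q₂|`. -/
def ellc (τ : ℂ) : ℂ := ell 0 q₂ (qh h τ)

variable {h} {q₂}

theorem contDiff_qh : ContDiff ℝ ∞ (qh h) := by
  have : ContDiff ℂ ∞ (qh h) := by
    unfold qh
    exact ((contDiff_const.mul contDiff_id).div_const _).cexp
  exact this.restrict_scalars ℝ

theorem ellc_contDiff : ContDiff ℝ ∞ (ellc h q₂) := ell_contDiff.comp contDiff_qh

theorem ellc_add (hh : h ≠ 0) (τ : ℂ) : ellc h q₂ (τ + h) = ellc h q₂ τ := by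
  unfold ellc
  rw [qh_add hh]

theorem ellc_add_mul (hh : h ≠ 0) (τ : ℂ) (n : ℤ) : ellc h q₂ (τ + n * h) = ellc h q₂ τ := by
  unfold ellc
  rw [qh_add_mul hh]

theorem dbar2_ellc (τ : ℂ) : dbar2 (ellc h q₂) τ =
    dbar2 (ell 0 q₂) (qh h τ) * (starRingEnd ℂ) (2 * π * I / h * qh h τ) :=
  Fermat.Agent.M17.DegMoebius5.dbar2_comp
    ((ell_contDiff (t₁ := 0) (t₂ := q₂)).differentiable (by simp) _) (hasDerivAt_qh τ)

theorem sball_subset_ball {q₂ : ℂ} (hq₂ : q₂ ≠ 0) {c r : ℝ} (hc : 0 ≤ c)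
    (hr : (Real.sqrt c + 1) * ‖q₂‖ < r) : sball 0 q₂ c ⊆ Metric.ball 0 r := by
  intro t ht
  have hD : 0 < normSq (0 - q₂) := normSq_pos.2 (sub_ne_zero.2 hq₂.symm)
  have h1 : normSq (t - q₂) ≤ c * normSq (0 - q₂) := by
    have : sfun 0 q₂ t ≤ c := ht
    unfold sfun at this
    rwa [div_le_iff₀ hD] at this
  have h2 : ‖t - q₂‖ ≤ Real.sqrt c * ‖q₂‖ := by
    rw [← Real.sqrt_sq (norm_nonneg (t - q₂)), ← Real.sqrt_sq (norm_nonneg q₂),
      ← Real.sqrt_mul hc]
    apply Real.sqrt_le_sqrt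
    rw [← normSq_eq_norm_sq, ← normSq_eq_norm_sq]
    simpa using h1
  rw [Metric.mem_ball, dist_zero_right]
  calc ‖t‖ = ‖(t - q₂) + q₂‖ := by rw [sub_add_cancel]
    _ ≤ ‖t - q₂‖ + ‖q₂‖ := norm_add_le _ _
    _ ≤ Real.sqrt c * ‖q₂‖ + ‖q₂‖ := by linarith
    _ = (Real.sqrt c + 1) * ‖q₂‖ := by ring
    _ < r := hr

/-! ### where the model is trivial -/

theorem sfun_zero_eq (q₂ q : ℂ) : sfun 0 q₂ q = ‖q - q₂‖ ^ 2 / ‖q₂‖ ^ 2 := by
  unfold sfun
  rw [zero_sub, normSq_neg, normSq_eq_norm_sq, normSq_eq_norm_sq]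

/-- above the height of `τ₂` (`|q| ≤ |q₂|`) we are in the inner ball. -/
theorem sfun_le_four_of_norm_le (hq₂ : q₂ ≠ 0) {q : ℂ} (hq : ‖q‖ ≤ ‖q₂‖) : sfun 0 q₂ q ≤ 4 := by
  have h0 : 0 < ‖q₂‖ := norm_pos_iff.mpr hq₂
  rw [sfun_zero_eq q₂, div_le_iff₀ (by positivity)]
  have h1 : ‖q - q₂‖ ≤ 2 * ‖q₂‖ := by
    calc ‖q - q₂‖ ≤ ‖q‖ + ‖q₂‖ := norm_sub_le _ _
      _ ≤ 2 * ‖q₂‖ := by linarith
  nlinarith [norm_nonneg (q - q₂)]

/-- below the height `Im τ₂ - h log 5 / 2π` (`|q| ≥ 5 |q₂|`) we are outside the outer ball. -/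
theorem sixteen_le_sfun_of_le_norm (hq₂ : q₂ ≠ 0) {q : ℂ} (hq : 5 * ‖q₂‖ ≤ ‖q‖) :
    16 ≤ sfun 0 q₂ q := by
  have h0 : 0 < ‖q₂‖ := norm_pos_iff.mpr hq₂
  rw [sfun_zero_eq q₂, le_div_iff₀ (by positivity)]
  have h1 : 4 * ‖q₂‖ ≤ ‖q - q₂‖ := by
    have := norm_sub_norm_le q q₂
    linarith
  nlinarith [norm_nonneg (q - q₂)]

theorem ellc_eventuallyEq_zero {τ : ℂ} (hs : sfun 0 q₂ (qh h τ) < 4) :
    ellc h q₂ =ᶠ[𝓝 τ] fun _ => 0 := by
  have hopen : IsOpen {w : ℂ | sfun 0 q₂ (qh h w) < 4} :=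
    (isOpen_sfun_lt (t₁ := 0) (t₂ := q₂) 4).preimage differentiable_qh.continuous
  filter_upwards [hopen.mem_nhds hs] with w hw
  unfold ellc ell
  rw [phi_eq_one (le_of_lt hw), sub_self, zero_mul]

theorem ellc_eq_log {τ : ℂ} (hs : 16 ≤ sfun 0 q₂ (qh h τ)) :
    ellc h q₂ τ = Complex.log (Rfun 0 q₂ (qh h τ)) := by
  unfold ellc ell
  rw [phi_eq_zero hs, sub_zero, one_mul]

/-- `2∂̄ℓ_c` lives on the band `|q₂| ≤ |q| ≤ 5 |q₂|`. -/
theorem dbar2_ellc_eq_zero (hq₂ : q₂ ≠ 0) {τ : ℂ}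
    (hτ : ‖qh h τ‖ < ‖q₂‖ ∨ 5 * ‖q₂‖ < ‖qh h τ‖) : dbar2 (ellc h q₂) τ = 0 := by
  rw [dbar2_ellc, dbar2_ell]
  have : qh h τ ∉ annulus 0 q₂ := by
    rintro ⟨h4, h16⟩
    have h0 : 0 < ‖q₂‖ := norm_pos_iff.mpr hq₂
    rw [sfun_zero_eq q₂] at h4 h16
    rw [le_div_iff₀ (by positivity)] at h4
    rw [div_le_iff₀ (by positivity)] at h16
    have h2 : 2 * ‖q₂‖ ≤ ‖qh h τ - q₂‖ := by
      by_contra hc
      rw [not_le] at hc
      nlinarith [norm_nonneg (qh h τ - q₂)]
    have h3 : ‖qh h τ - q₂‖ ≤ 4 * ‖q₂‖ := by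
      by_contra hc
      rw [not_le] at hc
      nlinarith [norm_nonneg (qh h τ - q₂)]
    rcases hτ with hτ | hτ
    · have := norm_sub_le (qh h τ) q₂
      linarith
    · have := norm_le_norm_add_norm_sub' (qh h τ) q₂
      linarith
  rw [dbar2_phi_eq_zero_of_notMem this]
  ring

/-- **The local integral at a cusp.**  For `A = Â ∘ q_h` on `{Im τ > Y}` with `Â` holomorphic on the
disc `|q| < exp(-2πY/h)` containing `|q - q₂| ≤ 5 |q₂|`:
`∫_{strip} 2∂̄ℓ_c · A' = -2π (Â 0 - Â q₂)`. -/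
theorem integral_strip_dbar2_ellc_mul_deriv (hh : 0 < h) (hq₂ : q₂ ≠ 0)
    (hsmall : 6 * ‖q₂‖ < Real.exp (-(2 * π * Y / h)))
    {A Â : ℂ → ℂ} (hÂ : DifferentiableOn ℂ Â (Metric.ball 0 (Real.exp (-(2 * π * Y / h)))))
    (hA : ∀ τ : ℂ, Y < τ.im → A τ = Â (qh h τ)) :
    ∫ τ in strip h Y, dbar2 (ellc h q₂) τ * deriv A τ = -(2 * π) * (Â 0 - Â q₂) := by
  set r := Real.exp (-(2 * π * Y / h)) with hr
  have hsub : sball 0 q₂ 25 ⊆ Metric.ball 0 r := by
    apply sball_subset_ball hq₂ (by norm_num)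
    have : Real.sqrt 25 = 5 := by
      rw [show (25 : ℝ) = 5 ^ 2 by norm_num, Real.sqrt_sq (by norm_num)]
    rw [this]
    linarith
  -- the integrand in the `q`-variable
  set G : ℂ → ℂ := fun q => dbar2 (ell 0 q₂) q * deriv Â q with hG
  have hpt : ∀ τ ∈ strip h Y, dbar2 (ellc h q₂) τ * deriv A τ =
      (‖2 * π * I / h * qh h τ‖ ^ 2 : ℝ) • G (qh h τ) := by
    intro τ hτ
    have hτY : Y < τ.im := hτ.2.2
    have hopen : IsOpen {w : ℂ | Y < w.im} := isOpen_lt continuous_const Complex.continuous_im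
    have hev : A =ᶠ[𝓝 τ] fun w => Â (qh h w) := by
      filter_upwards [hopen.mem_nhds hτY] with w hw using hA w hw
    have hqmem : qh h τ ∈ Metric.ball (0 : ℂ) r := by
      rw [Metric.mem_ball, dist_zero_right, norm_qh, hr, Real.exp_lt_exp, neg_lt_neg_iff]
      have : 0 < 2 * π / h := by positivity
      calc 2 * π * Y / h = 2 * π / h * Y := by ring
        _ < 2 * π / h * τ.im := mul_lt_mul_of_pos_left hτY this
        _ = 2 * π * τ.im / h := by ring
    have hÂd : DifferentiableAt ℂ Â (qh h τ) :=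
      hÂ.differentiableAt (Metric.isOpen_ball.mem_nhds hqmem)
    have hderiv : deriv A τ = deriv Â (qh h τ) * (2 * π * I / h * qh h τ) := by
      rw [hev.deriv_eq]
      exact (hÂd.hasDerivAt.comp τ (hasDerivAt_qh τ)).deriv
    rw [dbar2_ellc, hderiv, hG, Complex.real_smul]
    have hnorm : (starRingEnd ℂ) (2 * π * I / h * qh h τ) * (2 * π * I / h * qh h τ) =
        ((‖2 * π * I / h * qh h τ‖ ^ 2 : ℝ) : ℂ) := by
      rw [Complex.conj_mul']
      push_cast
      rfl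
    simp only
    linear_combination (dbar2 (ell 0 q₂) (qh h τ) * deriv Â (qh h τ)) * hnorm
  rw [setIntegral_congr_fun measurableSet_strip hpt, integral_strip_comp_qh hh G]
  -- extend to the whole plane
  have hzero : ∀ q ∉ pdisc h Y, G q = 0 := by
    intro q hq
    have : q ∉ annulus 0 q₂ := by
      intro hqa
      apply hq
      have h4 := hqa.1
      have h16 := hqa.2
      refine ⟨?_, ?_⟩
      · rintro rfl
        rw [sfun_self_left hq₂.symm] at h4
        linarith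
      · have : q ∈ Metric.ball (0 : ℂ) r := hsub (by show sfun 0 q₂ q ≤ 25; linarith)
        rwa [Metric.mem_ball, dist_zero_right] at this
    rw [hG]
    simp only
    rw [dbar2_ell, dbar2_phi_eq_zero_of_notMem this]
    ring
  rw [setIntegral_eq_integral_of_forall_compl_eq_zero hzero]
  exact integral_dbar2_ell_mul_deriv hq₂.symm Metric.isOpen_ball hsub hÂ

end

end Fermat.Agent.M17.CuspModel4
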