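/-
M17 (target S17), block [RL], point-to-cusp half (helper4): **the neighbourhood of a cusp of
`Γ₀(N)`** (group theory and geometry only).

* `im_smul_mul_im_le_one`, `exists_T_zpow_of_one_lt_im` : precise invariance of `{Im > 1}`;
* `width`, `width_mul_cuspIdx`, `conj_T_zpow_mem_iff` : the width of the cusp of `cuspPlaceC N δ`;
* `exists_conj_eq_of_one_lt_im` : two points of a `Γ₀(N)`-orbit above height `1` in the
  coordinate `τ = δ • z` differ by `± T ^ (h m)`.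

Imported by no statement.
-/
import Mathlib
import Fermat.Agent.ES.KUM.CCuspExact16

set_option autoImplicit false
set_option linter.unusedSectionVars false

open UpperHalfPlane Filter Topology MulAction Subgroup
open scoped MatrixGroups
open CongruenceSubgroup

noncomputable section

namespace Fermat.Agent.M17.CuspNbhd4

open Fermat.Agent.ES.KUM Fermat.Agent.ES.KUM.CCusp16

local notation "T" => (ModularGroup.T : SL(2, ℤ))

/-! ### precise invariance -/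

theorem normSq_denom_eq (g : SL(2, ℤ)) (z : ℍ) :
    Complex.normSq (denom g z) =
      ((g 1 0 : ℝ) * z.re + g 1 1) ^ 2 + ((g 1 0 : ℝ) * z.im) ^ 2 := by
  rw [ModularGroup.denom_apply, Complex.normSq_apply]
  simp
  ring

/-- a matrix with `c ≠ 0` cannot keep a point high. -/
theorem im_smul_mul_im_le_one {γ : SL(2, ℤ)} (hc : γ 1 0 ≠ 0) (z : ℍ) :
    (γ • z).im * z.im ≤ 1 := by
  have h1 : (1 : ℝ) ≤ ((γ 1 0 : ℤ) : ℝ) ^ 2 := by
    have : (1 : ℤ) ≤ (γ 1 0) ^ 2 := by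
      have := Int.one_le_abs hc
      calc (1 : ℤ) ≤ |γ 1 0| ^ 2 := by nlinarith
        _ = (γ 1 0) ^ 2 := sq_abs _
    exact_mod_cast this
  have hN : z.im ^ 2 ≤ Complex.normSq (denom γ z) := by
    rw [normSq_denom_eq]
    have : z.im ^ 2 ≤ ((γ 1 0 : ℤ) : ℝ) ^ 2 * z.im ^ 2 := by nlinarith [sq_nonneg z.im]
    nlinarith [sq_nonneg ((γ 1 0 : ℝ) * z.re + γ 1 1)]
  have hNpos : 0 < Complex.normSq (denom γ z) := normSq_denom_pos γ z.im_ne_zero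
  rw [ModularGroup.im_smul_eq_div_normSq, div_mul_eq_mul_div, div_le_one hNpos]
  nlinarith [z.im_pos]

theorem c_eq_zero_of_one_lt {γ : SL(2, ℤ)} {z : ℍ} (h : 1 < (γ • z).im * z.im) : γ 1 0 = 0 := by
  by_contra hc
  exact absurd (im_smul_mul_im_le_one hc z) (not_le.mpr h)

/-- an upper triangular element of `SL(2, ℤ)` is `± T ^ k`. -/
theorem eq_T_zpow_or_neg {γ : SL(2, ℤ)} (h : γ 1 0 = 0) : ∃ k : ℤ, γ = T ^ k ∨ γ = -T ^ k := by
  have hd : γ 0 0 * γ 1 1 = 1 := by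
    have := γ.det_coe
    rw [Matrix.det_fin_two, h, mul_zero, sub_zero] at this
    exact this
  rcases Int.eq_one_or_neg_one_of_mul_eq_one' hd with ⟨h1, h2⟩ | ⟨h1, h2⟩
  · refine ⟨γ 0 1, Or.inl ?_⟩
    apply Subtype.ext
    rw [ModularGroup.coe_T_zpow]
    ext i j
    fin_cases i <;> fin_cases j <;> simp [h, h1, h2]
  · refine ⟨-γ 0 1, Or.inr ?_⟩
    apply Subtype.ext
    rw [Matrix.SpecialLinearGroup.coe_neg, ModularGroup.coe_T_zpow]
    ext i j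
    fin_cases i <;> fin_cases j <;> simp [h, h1, h2]

/-- **precise invariance**: two points of an `SL(2, ℤ)`-orbit above height `1` differ by a
translation. -/
theorem exists_T_zpow_of_one_lt_im {γ : SL(2, ℤ)} {z : ℍ} (h1 : 1 < z.im) (h2 : 1 < (γ • z).im) :
    ∃ k : ℤ, γ = T ^ k ∨ γ = -T ^ k := by
  apply eq_T_zpow_or_neg
  apply c_eq_zero_of_one_lt (z := z)
  nlinarith

theorem T_zpow_smul (k : ℤ) (z : ℍ) : (T ^ k) • z = (k : ℝ) +ᵥ z := modular_T_zpow_smul z k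

theorem neg_T_zpow_smul (k : ℤ) (z : ℍ) : (-T ^ k) • z = (k : ℝ) +ᵥ z := by
  rw [ModularGroup.SL_neg_smul, T_zpow_smul]

/-! ### the width of a cusp -/

variable (N : ℕ) [NeZero N]

/-- the width of the cusp attached to `cuspPlaceC N δ` (coordinate `τ = δ • z`). -/
def width (δ : SL(2, ℤ)) : ℕ :=
  Nat.card (orbit (zpowers T) (QuotientGroup.mk δ : SL(2, ℤ) ⧸ Gamma0 N))

theorem cuspIdx_mul_width (δ : SL(2, ℤ)) : cuspIdx N δ * width N δ = N :=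
  cuspIdx_mul_card_orbit N δ

theorem width_pos (δ : SL(2, ℤ)) : 0 < width N δ := by
  rcases Nat.eq_zero_or_pos (width N δ) with h | h
  · have := cuspIdx_mul_width N δ
    rw [h, mul_zero] at this
    exact absurd this.symm (NeZero.ne N)
  · exact h

theorem width_eq_minimalPeriod (δ : SL(2, ℤ)) :
    width N δ = Function.minimalPeriod (T • ·) (QuotientGroup.mk δ : SL(2, ℤ) ⧸ Gamma0 N) := by
  unfold width
  exact (Nat.card_congr (MulAction.orbitZPowersEquiv T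
    (QuotientGroup.mk δ : SL(2, ℤ) ⧸ Gamma0 N))).trans (Nat.card_zmod _)

theorem T_zpow_smul_mk_eq_iff (δ : SL(2, ℤ)) (k : ℤ) :
    T ^ k • (QuotientGroup.mk δ : SL(2, ℤ) ⧸ Gamma0 N) = QuotientGroup.mk δ ↔
      (width N δ : ℤ) ∣ k := by
  rw [width_eq_minimalPeriod]
  exact MulAction.zpow_smul_eq_iff_minimalPeriod_dvd

/-- **the stabiliser of the cusp in `Γ₀(N)`**, in the coordinate `τ = δ • z`. -/
theorem conj_T_zpow_mem_iff (δ : SL(2, ℤ)) (k : ℤ) :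
    δ⁻¹ * T ^ k * δ ∈ Gamma0 N ↔ (width N δ : ℤ) ∣ k := by
  rw [← T_zpow_smul_mk_eq_iff, MulAction.Quotient.smul_mk, eq_comm, QuotientGroup.eq,
    smul_eq_mul, mul_assoc]

theorem neg_mem_Gamma0_iff (γ : SL(2, ℤ)) : -γ ∈ Gamma0 N ↔ γ ∈ Gamma0 N := by
  rw [Gamma0_mem, Gamma0_mem]
  simp

/-- **two points of a `Γ₀(N)`-orbit above height `1` in the coordinate `τ = δ • z` differ by
`± T ^ (h m)`.** -/
theorem exists_conj_eq_of_one_lt_im {γ : SL(2, ℤ)} (hγ : γ ∈ Gamma0 N) (δ : SL(2, ℤ)) {z : ℍ}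
    (h1 : 1 < (δ • z).im) (h2 : 1 < (δ • γ • z).im) :
    ∃ m : ℤ, δ * γ * δ⁻¹ = T ^ ((width N δ : ℤ) * m) ∨
      δ * γ * δ⁻¹ = -T ^ ((width N δ : ℤ) * m) := by
  have h2' : 1 < ((δ * γ * δ⁻¹) • (δ • z)).im := by
    rw [mul_smul, mul_smul, inv_smul_smul]
    exact h2
  obtain ⟨k, hk⟩ := exists_T_zpow_of_one_lt_im h1 h2'
  have hmem : δ⁻¹ * T ^ k * δ ∈ Gamma0 N := by
    rcases hk with hk | hk
    · rw [← hk]
      have : δ⁻¹ * (δ * γ * δ⁻¹) * δ = γ := by group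
      rw [this]
      exact hγ
    · have h3 : T ^ k = -(δ * γ * δ⁻¹) := by rw [hk, neg_neg]
      rw [h3]
      have : δ⁻¹ * -(δ * γ * δ⁻¹) * δ = -γ := by
        rw [mul_neg, neg_mul]
        congr 1
        group
      rw [this]
      exact (neg_mem_Gamma0_iff N γ).2 hγ
  obtain ⟨m, rfl⟩ := (conj_T_zpow_mem_iff N δ k).1 hmem
  exact ⟨m, hk⟩

/-- the same, on points. -/
theorem exists_vadd_eq_of_one_lt_im {γ : SL(2, ℤ)} (hγ : γ ∈ Gamma0 N) (δ : SL(2, ℤ)) {z : ℍ}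
    (h1 : 1 < (δ • z).im) (h2 : 1 < (δ • γ • z).im) :
    ∃ m : ℤ, δ • γ • z = (((width N δ : ℤ) * m : ℤ) : ℝ) +ᵥ (δ • z) := by
  obtain ⟨m, hm⟩ := exists_conj_eq_of_one_lt_im N hγ δ h1 h2
  refine ⟨m, ?_⟩
  have : δ • γ • z = (δ * γ * δ⁻¹) • (δ • z) := by
    rw [mul_smul, mul_smul, inv_smul_smul]
  rw [this]
  rcases hm with hm | hm
  · rw [hm, T_zpow_smul]
  · rw [hm, neg_T_zpow_smul]

/-- the translations of the stabiliser come from `Γ₀(N)`. -/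
theorem exists_mem_Gamma0_of_dvd (δ : SL(2, ℤ)) (m : ℤ) :
    ∃ γ ∈ Gamma0 N, ∀ z : ℍ, δ • γ • z = (((width N δ : ℤ) * m : ℤ) : ℝ) +ᵥ (δ • z) := by
  refine ⟨δ⁻¹ * T ^ ((width N δ : ℤ) * m) * δ,
    (conj_T_zpow_mem_iff N δ _).2 (dvd_mul_right _ _), fun z => ?_⟩
  rw [mul_smul, mul_smul, smul_inv_smul, T_zpow_smul]

/-! ### the height function is upper semicontinuous, uniformly in the group element -/

omit [NeZero N] in
/-- `Im (g z) ≤ κ(z, z₀) Im (g z₀)` with `κ → 1` as `z → z₀`, uniformly in `g`. -/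
theorem im_smul_le_mul (g : SL(2, ℤ)) (z z₀ : ℍ) :
    (g • z).im ≤ (z.im / z₀.im) * (1 + ‖(z : ℂ) - z₀‖ / z.im) ^ 2 * (g • z₀).im := by
  have hz : 0 < z.im := z.im_pos
  have hz₀ : 0 < z₀.im := z₀.im_pos
  set r : ℝ := ‖(z : ℂ) - z₀‖ / z.im with hr
  have hr0 : 0 ≤ r := div_nonneg (norm_nonneg _) hz.le
  set D : ℂ := denom g z with hD
  set D₀ : ℂ := denom g z₀ with hD₀
  have hDpos : 0 < Complex.normSq D := normSq_denom_pos g z.im_ne_zero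
  have hD₀pos : 0 < Complex.normSq D₀ := normSq_denom_pos g z₀.im_ne_zero
  have hsub : D₀ = D + ((g 1 0 : ℤ) : ℂ) * ((z₀ : ℂ) - z) := by
    rw [hD, hD₀, ModularGroup.denom_apply, ModularGroup.denom_apply]
    ring
  have hc : |((g 1 0 : ℤ) : ℝ)| * z.im ≤ ‖D‖ := by
    have him : D.im = ((g 1 0 : ℤ) : ℝ) * z.im := by
      rw [hD, ModularGroup.denom_apply]
      simp
    have := Complex.abs_im_le_norm D
    rw [him, abs_mul, abs_of_pos hz] at this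
    exact this
  have hle : ‖D₀‖ ≤ ‖D‖ * (1 + r) := by
    have h1 : ‖D₀‖ ≤ ‖D‖ + |((g 1 0 : ℤ) : ℝ)| * ‖(z₀ : ℂ) - z‖ := by
      rw [hsub]
      refine (norm_add_le _ _).trans ?_
      rw [norm_mul]
      have : ‖(((g 1 0 : ℤ) : ℂ))‖ = |((g 1 0 : ℤ) : ℝ)| := by
        rw [← Complex.ofReal_intCast, Complex.norm_real, Real.norm_eq_abs]
      rw [this]
    have h2 : |((g 1 0 : ℤ) : ℝ)| * ‖(z₀ : ℂ) - z‖ ≤ ‖D‖ * r := by
      have h3 : ‖(z₀ : ℂ) - z‖ = r * z.im := by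
        rw [hr, norm_sub_rev, div_mul_cancel₀ _ hz.ne']
      rw [h3]
      calc |((g 1 0 : ℤ) : ℝ)| * (r * z.im) = (|((g 1 0 : ℤ) : ℝ)| * z.im) * r := by ring
        _ ≤ ‖D‖ * r := mul_le_mul_of_nonneg_right hc hr0
    calc ‖D₀‖ ≤ ‖D‖ + ‖D‖ * r := by linarith
      _ = ‖D‖ * (1 + r) := by ring
  have hsq : Complex.normSq D₀ ≤ Complex.normSq D * (1 + r) ^ 2 := by
    rw [Complex.normSq_eq_norm_sq, Complex.normSq_eq_norm_sq, ← mul_pow]
    exact pow_le_pow_left₀ (norm_nonneg _) hle 2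
  rw [ModularGroup.im_smul_eq_div_normSq, ModularGroup.im_smul_eq_div_normSq]
  rw [div_le_iff₀ hDpos]
  have e : z.im / z₀.im * (1 + r) ^ 2 * (z₀.im / Complex.normSq D₀) * Complex.normSq D =
      z.im * (Complex.normSq D * (1 + r) ^ 2) / Complex.normSq D₀ := by
    field_simp
  rw [e, le_div_iff₀ hD₀pos]
  exact mul_le_mul_of_nonneg_left hsq hz.le

omit [NeZero N] in
/-- **upper semicontinuity of the height, uniformly over a set of group elements.** -/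
theorem eventually_forall_im_lt {z₀ : ℍ} {Y Y' : ℝ} (hY : 0 < Y) (hYY' : Y < Y')
    (S : Set SL(2, ℤ)) (h : ∀ g ∈ S, (g • z₀).im ≤ Y) :
    ∀ᶠ z in 𝓝 z₀, ∀ g ∈ S, (g • z).im < Y' := by
  have hz₀ : 0 < z₀.im := z₀.im_pos
  have hcont : ContinuousAt (fun z : ℍ =>
      (z.im / z₀.im) * (1 + ‖(z : ℂ) - z₀‖ / z.im) ^ 2) z₀ := by
    have h1 : ContinuousAt (fun z : ℍ => z.im) z₀ := UpperHalfPlane.continuous_im.continuousAt
    have h2 : ContinuousAt (fun z : ℍ => ‖(z : ℂ) - z₀‖) z₀ :=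
      ((UpperHalfPlane.continuous_coe.sub continuous_const).norm).continuousAt
    exact (h1.div_const _).mul (((h2.div h1 hz₀.ne').const_add 1).pow 2)
  have hval : (z₀.im / z₀.im) * (1 + ‖(z₀ : ℂ) - z₀‖ / z₀.im) ^ 2 = 1 := by
    rw [div_self hz₀.ne', sub_self, norm_zero, zero_div, add_zero, one_pow, mul_one]
  have hlt : (z₀.im / z₀.im) * (1 + ‖(z₀ : ℂ) - z₀‖ / z₀.im) ^ 2 < Y' / Y := by
    rw [hval, lt_div_iff₀ hY, one_mul]
    exact hYY'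
  filter_upwards [hcont.eventually (gt_mem_nhds hlt)] with z hz g hg
  have h1 := im_smul_le_mul g z z₀
  have h2 : 0 ≤ (z.im / z₀.im) * (1 + ‖(z : ℂ) - z₀‖ / z.im) ^ 2 :=
    mul_nonneg (div_nonneg z.im_pos.le hz₀.le) (sq_nonneg _)
  calc (g • z).im ≤ (z.im / z₀.im) * (1 + ‖(z : ℂ) - z₀‖ / z.im) ^ 2 * (g • z₀).im := h1
    _ ≤ (z.im / z₀.im) * (1 + ‖(z : ℂ) - z₀‖ / z.im) ^ 2 * Y :=
        mul_le_mul_of_nonneg_left (h g hg) h2
    _ < Y' / Y * Y := mul_lt_mul_of_pos_right hz hY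
    _ = Y' := div_mul_cancel₀ _ hY.ne'

/-! ### gluing an equivariant function with a periodic function near the cusp -/

section Glue

variable (δ : SL(2, ℤ)) (Y : ℝ) (χ : ↥(Gamma0 N) → ℂ) (a Φ : ℍ → ℂ)

open Classical in
/-- the function equal to `χ(γ)⁻¹ Φ(δ γ z)` where `δ γ z` is above height `Y`, and to `a`
elsewhere. -/
def glue (z : ℍ) : ℂ :=
  if hz : ∃ γ : ↥(Gamma0 N), Y < (δ • (γ : SL(2, ℤ)) • z).im then
    (χ hz.choose)⁻¹ * Φ (δ • (hz.choose : SL(2, ℤ)) • z) else a z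

/-- the hypotheses of the gluing construction. -/
structure GlueHyp (Y' : ℝ) : Prop where
  hY : 1 ≤ Y
  hYY' : Y < Y'
  χ_mul : ∀ γ γ' : ↥(Gamma0 N), χ (γ * γ') = χ γ * χ γ'
  χ_ne : ∀ γ : ↥(Gamma0 N), χ γ ≠ 0
  χ_par : ∀ γ : ↥(Gamma0 N), (∃ k : ℤ, δ * (γ : SL(2, ℤ)) * δ⁻¹ = T ^ k ∨
    δ * (γ : SL(2, ℤ)) * δ⁻¹ = -T ^ k) → χ γ = 1
  Φ_per : ∀ (m : ℤ) (τ : ℍ), Φ ((((width N δ : ℤ) * m : ℤ) : ℝ) +ᵥ τ) = Φ τ
  a_smul : ∀ (γ : ↥(Gamma0 N)) (z : ℍ), a ((γ : SL(2, ℤ)) • z) = χ γ * a z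
  compat : ∀ τ : ℍ, Y < τ.im → τ.im ≤ Y' → Φ τ = a (δ⁻¹ • τ)

variable {N δ Y χ a Φ} {Y' : ℝ}

theorem glue_of_above (H : GlueHyp N δ Y χ a Φ Y') {γ : ↥(Gamma0 N)} {z : ℍ}
    (h : Y < (δ • (γ : SL(2, ℤ)) • z).im) :
    glue N δ Y χ a Φ z = (χ γ)⁻¹ * Φ (δ • (γ : SL(2, ℤ)) • z) := by
  have hz : ∃ γ : ↥(Gamma0 N), Y < (δ • (γ : SL(2, ℤ)) • z).im := ⟨γ, h⟩
  unfold glue
  rw [dif_pos hz]
  set γ' := hz.choose with hγ'
  have h' : Y < (δ • (γ' : SL(2, ℤ)) • z).im := hz.choose_spec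
  -- `σ = γ' γ⁻¹` stabilises the cusp
  set σ : ↥(Gamma0 N) := γ' * γ⁻¹ with hσ
  have hσz : ((σ : ↥(Gamma0 N)) : SL(2, ℤ)) • ((γ : SL(2, ℤ)) • z) = (γ' : SL(2, ℤ)) • z := by
    rw [hσ, Subgroup.coe_mul, Subgroup.coe_inv, mul_smul, inv_smul_smul]
  have h1 : 1 < (δ • ((γ : SL(2, ℤ)) • z)).im := lt_of_le_of_lt H.hY h
  have h2 : 1 < (δ • ((σ : ↥(Gamma0 N)) : SL(2, ℤ)) • ((γ : SL(2, ℤ)) • z)).im := by
    rw [hσz]
    exact lt_of_le_of_lt H.hY h'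
  obtain ⟨m, hm⟩ := exists_conj_eq_of_one_lt_im N σ.2 δ h1 h2
  have hχσ : χ σ = 1 := H.χ_par σ ⟨_, hm⟩
  have hχ : χ γ' = χ γ := by
    have : γ' = σ * γ := by rw [hσ, inv_mul_cancel_right]
    rw [this, H.χ_mul, hχσ, one_mul]
  obtain ⟨m', hm'⟩ := exists_vadd_eq_of_one_lt_im N σ.2 δ h1 h2
  rw [hσz] at hm'
  rw [hχ, hm', H.Φ_per]

theorem glue_of_below (H : GlueHyp N δ Y χ a Φ Y') {z : ℍ}
    (h : ∀ γ : ↥(Gamma0 N), (δ • (γ : SL(2, ℤ)) • z).im ≤ Y') : glue N δ Y χ a Φ z = a z := by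
  unfold glue
  split_ifs with hz
  · have h' : Y < (δ • (hz.choose : SL(2, ℤ)) • z).im := hz.choose_spec
    rw [H.compat _ h' (h _), inv_smul_smul, H.a_smul, ← mul_assoc, inv_mul_cancel₀ (H.χ_ne _),
      one_mul]
  · rfl

/-- the glued function is `χ`-equivariant. -/
theorem glue_smul (H : GlueHyp N δ Y χ a Φ Y') (γ : ↥(Gamma0 N)) (z : ℍ) :
    glue N δ Y χ a Φ ((γ : SL(2, ℤ)) • z) = χ γ * glue N δ Y χ a Φ z := by
  by_cases hz : ∃ γ' : ↥(Gamma0 N), Y < (δ • (γ' : SL(2, ℤ)) • (γ : SL(2, ℤ)) • z).im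
  · obtain ⟨γ', h'⟩ := hz
    have h'' : Y < (δ • ((γ' * γ : ↥(Gamma0 N)) : SL(2, ℤ)) • z).im := by
      rw [Subgroup.coe_mul, mul_smul]
      exact h'
    rw [glue_of_above H h', glue_of_above H h'', H.χ_mul, Subgroup.coe_mul, mul_smul, mul_inv]
    have h1 := H.χ_ne γ
    have h2 := H.χ_ne γ'
    field_simp
  · have hz' : ¬ ∃ γ'' : ↥(Gamma0 N), Y < (δ • (γ'' : SL(2, ℤ)) • z).im := by
      rintro ⟨γ'', h''⟩
      apply hz
      refine ⟨γ'' * γ⁻¹, ?_⟩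
      rw [Subgroup.coe_mul, Subgroup.coe_inv, mul_smul, inv_smul_smul]
      exact h''
    unfold glue
    rw [dif_neg hz, dif_neg hz', H.a_smul]

omit [NeZero N] in
theorem continuous_smul_SL (g : SL(2, ℤ)) : Continuous fun z : ℍ => g • z :=
  continuous_const_smul (g : GL (Fin 2) ℝ)

omit [NeZero N] in
theorem isOpen_above (g : SL(2, ℤ)) (Y : ℝ) : IsOpen {z : ℍ | Y < (g • z).im} :=
  isOpen_lt continuous_const (UpperHalfPlane.continuous_im.comp (continuous_smul_SL g))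

/-- near a point with a translate above height `Y`, the glued function is `χ(γ)⁻¹ Φ ∘ δγ`. -/
theorem eventually_glue_of_above (H : GlueHyp N δ Y χ a Φ Y') {γ : ↥(Gamma0 N)} {z₀ : ℍ}
    (h : Y < (δ • (γ : SL(2, ℤ)) • z₀).im) :
    ∀ᶠ z in 𝓝 z₀, glue N δ Y χ a Φ z = (χ γ)⁻¹ * Φ (δ • (γ : SL(2, ℤ)) • z) := by
  have hopen : IsOpen {z : ℍ | Y < (δ • (γ : SL(2, ℤ)) • z).im} := by
    have := isOpen_above (δ * (γ : SL(2, ℤ))) Y
    simpa only [mul_smul] using this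
  filter_upwards [hopen.mem_nhds h] with z hz
  exact glue_of_above H hz

/-- near a point with no translate above height `Y`, the glued function is `a`. -/
theorem eventually_glue_of_below (H : GlueHyp N δ Y χ a Φ Y') {z₀ : ℍ}
    (h : ∀ γ : ↥(Gamma0 N), (δ • (γ : SL(2, ℤ)) • z₀).im ≤ Y) :
    ∀ᶠ z in 𝓝 z₀, glue N δ Y χ a Φ z = a z := by
  have hY0 : 0 < Y := lt_of_lt_of_le one_pos H.hY
  have := eventually_forall_im_lt (z₀ := z₀) hY0 H.hYY'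
    {g : SL(2, ℤ) | ∃ γ : ↥(Gamma0 N), g = δ * (γ : SL(2, ℤ))} (by
      rintro g ⟨γ, rfl⟩
      rw [mul_smul]
      exact h γ)
  filter_upwards [this] with z hz
  apply glue_of_below H
  intro γ
  have := hz (δ * (γ : SL(2, ℤ))) ⟨γ, rfl⟩
  rw [mul_smul] at this
  exact this.le

/-- every point is of one of the two kinds. -/
theorem above_or_below (δ : SL(2, ℤ)) (Y : ℝ) (z₀ : ℍ) :
    (∃ γ : ↥(Gamma0 N), Y < (δ • (γ : SL(2, ℤ)) • z₀).im) ∨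
      ∀ γ : ↥(Gamma0 N), (δ • (γ : SL(2, ℤ)) • z₀).im ≤ Y := by
  by_cases h : ∃ γ : ↥(Gamma0 N), Y < (δ • (γ : SL(2, ℤ)) • z₀).im
  · exact Or.inl h
  · right
    intro γ
    by_contra hc
    exact h ⟨γ, not_le.mp hc⟩

end Glue

end Fermat.Agent.M17.CuspNbhd4
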