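import Mathlib

/-!
# Programme M17, block (RL): the group `Γ̄ = Γ / (Γ ∩ {±1})`

For a subgroup `Γ ≤ SL(2, ℤ)`, `Zsub Γ` is the subgroup `{γ ∈ Γ | γ = 1 ∨ γ = -1}` (normal), and
`Gbar Γ` the quotient group.  `rep q` is a representative in `SL(2, ℤ)` of a class `q`; functions
of `g : SL(2, ℤ)` which are even (`f (-g) = f g`) descend.

Imported by no statement.
-/

set_option autoImplicit false

open scoped MatrixGroups

noncomputable section

namespace Fermat.Agent.M17.GammaBar8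

variable (Γ : Subgroup SL(2, ℤ))

/-- the subgroup `Γ ∩ {±1}` of `Γ`. -/
def Zsub : Subgroup Γ where
  carrier := {γ | (γ : SL(2, ℤ)) = 1 ∨ (γ : SL(2, ℤ)) = -1}
  one_mem' := Or.inl rfl
  mul_mem' := by
    rintro a b (ha | ha) (hb | hb)
    · left; show (a : SL(2, ℤ)) * b = 1; rw [ha, hb, one_mul]
    · right; show (a : SL(2, ℤ)) * b = -1; rw [ha, hb, one_mul]
    · right; show (a : SL(2, ℤ)) * b = -1; rw [ha, hb, mul_one]
    · left; show (a : SL(2, ℤ)) * b = 1; rw [ha, hb, neg_mul_neg, one_mul]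
  inv_mem' := by
    rintro a (ha | ha)
    · left; show (a : SL(2, ℤ))⁻¹ = 1; rw [ha, inv_one]
    · right; show (a : SL(2, ℤ))⁻¹ = -1
      rw [ha, inv_eq_iff_eq_inv, eq_inv_iff_mul_eq_one, neg_mul_neg, one_mul]

theorem mem_Zsub {γ : Γ} : γ ∈ Zsub Γ ↔ (γ : SL(2, ℤ)) = 1 ∨ (γ : SL(2, ℤ)) = -1 := Iff.rfl

instance : (Zsub Γ).Normal := by
  refine ⟨fun n hn g => ?_⟩
  rcases hn with hn | hn
  · left
    show (g : SL(2, ℤ)) * n * (g : SL(2, ℤ))⁻¹ = 1
    rw [hn, mul_one, mul_inv_cancel]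
  · right
    show (g : SL(2, ℤ)) * n * (g : SL(2, ℤ))⁻¹ = -1
    rw [hn, mul_neg, mul_one, neg_mul, mul_inv_cancel]

/-- `Γ̄ = Γ / ±1`. -/
abbrev Gbar : Type := Γ ⧸ Zsub Γ

variable {Γ}

/-- the class of `γ`. -/
def cls (γ : Γ) : Gbar Γ := QuotientGroup.mk γ

/-- a representative of a class, as an element of `SL(2, ℤ)`. -/
def rep (q : Gbar Γ) : SL(2, ℤ) := ((Quotient.out q : Γ) : SL(2, ℤ))

theorem rep_mem (q : Gbar Γ) : rep q ∈ Γ := (Quotient.out q : Γ).2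

theorem cls_out (q : Gbar Γ) : cls (Quotient.out q : Γ) = q := QuotientGroup.out_eq' q

theorem cls_eq_iff {γ γ' : Γ} :
    cls γ = cls γ' ↔ (γ' : SL(2, ℤ)) = γ ∨ (γ' : SL(2, ℤ)) = -γ := by
  unfold cls
  rw [QuotientGroup.eq, mem_Zsub]
  constructor
  · rintro (h | h)
    · left
      have : ((γ⁻¹ * γ' : Γ) : SL(2, ℤ)) = (γ : SL(2, ℤ))⁻¹ * γ' := rfl
      rw [this, inv_mul_eq_one] at h
      exact h.symm
    · right
      have : ((γ⁻¹ * γ' : Γ) : SL(2, ℤ)) = (γ : SL(2, ℤ))⁻¹ * γ' := rfl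
      rw [this, inv_mul_eq_iff_eq_mul, mul_neg, mul_one] at h
      exact h
  · rintro (h | h)
    · left
      show (γ : SL(2, ℤ))⁻¹ * γ' = 1
      rw [h, inv_mul_cancel]
    · right
      show (γ : SL(2, ℤ))⁻¹ * γ' = -1
      rw [h, mul_neg, inv_mul_cancel]

theorem rep_cls (γ : Γ) : rep (cls γ) = γ ∨ rep (cls γ) = -(γ : SL(2, ℤ)) := by
  have h := cls_out (cls γ)
  exact cls_eq_iff.1 h.symm

/-- even functions of `g : SL(2, ℤ)` do not see the choice of the representative. -/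
theorem even_rep_cls {α : Type*} (f : SL(2, ℤ) → α) (hf : ∀ g, f (-g) = f g) (γ : Γ) :
    f (rep (cls γ)) = f γ := by
  rcases rep_cls γ with h | h
  · rw [h]
  · rw [h, hf]

theorem cls_mul (γ δ : Γ) : cls (γ * δ) = cls γ * cls δ := rfl

theorem even_rep_mul {α : Type*} (f : SL(2, ℤ) → α) (hf : ∀ g, f (-g) = f g) (q : Gbar Γ) (δ : Γ) :
    f (rep (q * cls δ)) = f (rep q * δ) := by
  have h1 : q * cls δ = cls ((Quotient.out q : Γ) * δ) := by
    rw [cls_mul, cls_out]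
  rw [h1, even_rep_cls f hf]
  rfl

theorem rep_injective : Function.Injective (rep : Gbar Γ → SL(2, ℤ)) := by
  intro q q' h
  have h1 : (Quotient.out q : Γ) = Quotient.out q' := Subtype.ext h
  rw [← cls_out q, ← cls_out q', h1]

/-- the classes with representatives `γ`, `-γ` only: the fibre of `cls` over `cls γ`. -/
theorem cls_eq_cls_iff' {γ γ' : Γ} (hneg : (-1 : SL(2, ℤ)) ∈ Γ) :
    cls γ' = cls γ ↔ γ' = γ ∨ γ' = ⟨-1, hneg⟩ * γ := by
  rw [cls_eq_iff]
  constructor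
  · rintro (h | h)
    · left; exact Subtype.ext h.symm
    · right
      apply Subtype.ext
      show (γ' : SL(2, ℤ)) = -1 * γ
      rw [h, neg_mul, one_mul, neg_neg]
  · rintro (h | h)
    · left; rw [h]
    · right
      rw [h]
      show (γ : SL(2, ℤ)) = -(-1 * (γ : SL(2, ℤ)))
      rw [neg_mul, one_mul, neg_neg]

end Fermat.Agent.M17.GammaBar8
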