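import Mathlib

/-!
# Programme M17, block (RL): local finiteness of the `SL(2, ℤ)`-action on `ℍ`

From Mathlib's `ProperlyDiscontinuousSMul 𝒮ℒ ℍ`.

Imported by no statement.
-/

set_option autoImplicit false

open UpperHalfPlane Filter Topology Set Matrix Matrix.SpecialLinearGroup
open scoped MatrixGroups Pointwise

noncomputable section

namespace Fermat.Agent.M17.LocFin8

/-- only finitely many `g ∈ SL(2, ℤ)` move a point of the compact `K` into the compact `L`. -/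
theorem finite_smul_inter {K L : Set ℍ} (hK : IsCompact K) (hL : IsCompact L) :
    {g : SL(2, ℤ) | ∃ z ∈ K, g • z ∈ L}.Finite := by
  have h := (Subgroup.properlyDiscontinuousSMul_iff (α := ℍ) 𝒮ℒ).1 inferInstance hK hL
  have h2 := h.preimage (f := (mapGL ℝ : SL(2, ℤ) →* GL (Fin 2) ℝ))
    (mapGL_injective.injOn)
  refine h2.subset ?_
  rintro g ⟨z, hz, hgz⟩
  refine ⟨⟨g, rfl⟩, (g • z), ⟨z, hz, rfl⟩, hgz⟩

/-- neighbourhood form. -/
theorem exists_nhds_finite_smul {L : Set ℍ} (hL : IsCompact L) (z₀ : ℍ) :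
    ∃ V ∈ 𝓝 z₀, {g : SL(2, ℤ) | ∃ z ∈ V, g • z ∈ L}.Finite := by
  obtain ⟨K, hK, hKz⟩ := exists_compact_mem_nhds z₀
  exact ⟨K, hKz, finite_smul_inter hK hL⟩

/-- for a closed `L`, membership `g • z ∉ L` is an open condition. -/
theorem eventually_smul_notMem {L : Set ℍ} (hL : IsClosed L) (g : SL(2, ℤ)) {z₀ : ℍ}
    (h : g • z₀ ∉ L) : ∀ᶠ z in 𝓝 z₀, g • z ∉ L := by
  have hc : Continuous fun z : ℍ => g • z :=
    continuous_const_smul ((mapGL ℝ : SL(2, ℤ) →* GL (Fin 2) ℝ) g)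
  exact hc.continuousAt.eventually (hL.isOpen_compl.mem_nhds h)

/-- **local constancy of the relevant set**: near `z₀`, every `g` with `g • z ∈ L` already has
`g • z₀ ∈ L`. -/
theorem eventually_forall_smul_mem {L : Set ℍ} (hL : IsCompact L) (z₀ : ℍ) :
    ∀ᶠ z in 𝓝 z₀, ∀ g : SL(2, ℤ), g • z ∈ L → g • z₀ ∈ L := by
  obtain ⟨V, hV, hfin⟩ := exists_nhds_finite_smul hL z₀
  have h1 : ∀ᶠ z in 𝓝 z₀, ∀ g ∈ hfin.toFinset, g • z₀ ∉ L → g • z ∉ L := by
    rw [Filter.eventually_all_finset]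
    intro g _
    by_cases hg : g • z₀ ∈ L
    · exact Filter.Eventually.of_forall fun z h => absurd hg h
    · exact (eventually_smul_notMem hL.isClosed g hg).mono fun z hz _ => hz
  filter_upwards [hV, h1] with z hzV hz g hgz
  by_contra hcon
  exact hz g (by rw [Set.Finite.mem_toFinset]; exact ⟨z, hzV, hgz⟩) hcon hgz

end Fermat.Agent.M17.LocFin8
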