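import Fermat.Agent.M17.ModelFam8
import Fermat.Agent.M17.GammaBar8
import Fermat.Agent.M17.LocFin8
import Fermat.Agent.M17.LocalModel8
import Fermat.Agent.M17.DegMoebius5
import Fermat.Agent.M17.DegMeasure5

/-!
# Programme M17, block (RL): the point-point family `T ∘ q`, `q ∈ Γ̄`

`p1 ≠ p2 : ℍ` with `sball p1 p2 16 ⊆ ℍ`; `T = R · exp(-ell)` is the model of `LocalModel8`
(`R = (t - p1)/(t - p2)`, `T ≡ 1` off `B = sball 16`, `T = R` near `p1, p2`).  `ppFamily` is the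
`ModelFam8.Family` indexed by `Γ̄ = Γ/±1` with `R q = R₀ ∘ q`, `l q z = ell (q z)`, `q` relevant at
`z` iff `q z ∈ B`.

Imported by no statement.
-/

set_option autoImplicit false
set_option linter.unusedSectionVars false

open UpperHalfPlane Filter Topology Set
open scoped Manifold MatrixGroups ContDiff

noncomputable section

namespace Fermat.Agent.M17.ModelProd8

open Fermat.Agent.X0 Fermat.Agent.X0.SurjPoint Fermat.Agent.ES.KUM Fermat.Agent.M15.DivLogMer1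
  Fermat.Agent.M15.DivLogPrim1 Fermat.Agent.M15.DivDlog1 Fermat.Agent.M17.MerEval8
  Fermat.Agent.M17.GammaBar8 Fermat.Agent.M17.LocFin8 Fermat.Agent.M17.LocalModel8
  Fermat.Agent.M17.ModelFam8 Fermat.Agent.M17.DegMoebius5 Fermat.Agent.M17.DegMeasure5

local notation "ι" => algebraMap HolH MerH

/-! ### `slMer` is even -/

theorem compSLHom_neg (γ : SL(2, ℤ)) (a : HolH) : compSLHom (-γ) a = compSLHom γ a := by
  apply Subtype.ext
  funext z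
  show (a : ℍ → ℂ) ((-γ) • z) = (a : ℍ → ℂ) (γ • z)
  rw [ModularGroup.SL_neg_smul]

theorem slMer_neg (γ : SL(2, ℤ)) (x : MerH) : slMer (-γ) x = slMer γ x := by
  obtain ⟨a, b, -, rfl⟩ := exists_div_MerH x
  rw [slMer_div, slMer_div, compSLHom_neg, compSLHom_neg]

/-! ### The rational function `R₀ = (z - p1)/(z - p2)` -/

variable (Γ : Subgroup SL(2, ℤ)) (p1 p2 : ℍ)

/-- `(z - p1) / (z - p2)` as an element of `MerH`. -/
def R0 : MerH := ι (wH p1) / ι (wH p2)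

theorem R0_ne_zero : R0 p1 p2 ≠ 0 :=
  div_ne_zero (iota_ne_zero (wH_ne_zero p1)) (iota_ne_zero (wH_ne_zero p2))

theorem wH_apply_ne {p z : ℍ} (h : z ≠ p) : ((wH p : HolH) : ℍ → ℂ) z ≠ 0 := by
  rw [wH_apply, sub_ne_zero]
  exact fun h' => h (UpperHalfPlane.ext h')

theorem ordMer_iota_wH_of_ne {p z : ℍ} (h : z ≠ p) : ordMer z (ι (wH p)) = 0 := by
  rw [ordMer_algebraMap z (wH_ne_zero p), ordH_eq_zero_of_ne (wH_apply_ne h)]
  rfl

open Classical in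
theorem ordMer_R0 (z : ℍ) :
    ordMer z (R0 p1 p2) = (if z = p1 then 1 else 0) - (if z = p2 then 1 else 0) := by
  unfold R0
  rw [ordMer_div z (iota_ne_zero (wH_ne_zero p1)) (iota_ne_zero (wH_ne_zero p2))]
  congr 1
  · split_ifs with h
    · rw [h, ordMer_iota_wH]
    · exact ordMer_iota_wH_of_ne h
  · split_ifs with h
    · rw [h, ordMer_iota_wH]
    · exact ordMer_iota_wH_of_ne h

theorem ordMer_R0_of_ne {z : ℍ} (h1 : z ≠ p1) (h2 : z ≠ p2) : ordMer z (R0 p1 p2) = 0 := by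
  rw [ordMer_R0, if_neg h1, if_neg h2, sub_zero]

theorem evM_R0 {z : ℍ} (h2 : z ≠ p2) :
    evM z (R0 p1 p2) = Rfun (p1 : ℂ) (p2 : ℂ) (z : ℂ) := by
  unfold R0
  rw [evM_div _ (wH_apply_ne h2), wH_apply, wH_apply]
  rfl

/-! ### The translates `R_q = R₀ ∘ q` -/

/-- `R₀ ∘ q`. -/
def Rq (q : Gbar Γ) : MerH := slMer (rep q) (R0 p1 p2)

theorem Rq_ne_zero (q : Gbar Γ) : Rq Γ p1 p2 q ≠ 0 := fun h =>
  R0_ne_zero p1 p2 ((slMer (rep q)).injective (by rw [map_zero]; exact h))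

theorem ordMer_Rq (q : Gbar Γ) (z : ℍ) :
    ordMer z (Rq Γ p1 p2 q) = ordMer (rep q • z) (R0 p1 p2) := ordMer_slMer _ _ _

theorem evM_Rq {q : Gbar Γ} {z : ℍ} (h1 : rep q • z ≠ p1) (h2 : rep q • z ≠ p2) :
    evM z (Rq Γ p1 p2 q) = Rfun (p1 : ℂ) (p2 : ℂ) ((rep q • z : ℍ) : ℂ) := by
  unfold Rq
  rw [evM_slMer _ (mem_valAt_of_ordMer_eq_zero (ordMer_R0_of_ne p1 p2 h1 h2)), evM_R0 p1 p2 h2]

theorem Rq_mul_cls (q : Gbar Γ) (δ : Γ) :
    Rq Γ p1 p2 (q * cls δ) = slMer (δ : SL(2, ℤ)) (Rq Γ p1 p2 q) := by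
  unfold Rq
  rw [even_rep_mul (fun g => slMer g (R0 p1 p2)) (fun g => slMer_neg g _) q δ, slMer_mul]

/-! ### The relevant set -/

/-- standing hypotheses on the two points. -/
structure Setup : Prop where
  ne : p1 ≠ p2
  ball : sball (p1 : ℂ) (p2 : ℂ) 16 ⊆ {z : ℂ | 0 < z.im}

/-- the ball `B = sball 16`, as a subset of `ℍ`. -/
def BH : Set ℍ := {z | (z : ℂ) ∈ sball (p1 : ℂ) (p2 : ℂ) 16}

variable {p1 p2}

theorem Setup.ne' (hS : Setup p1 p2) : (p1 : ℂ) ≠ (p2 : ℂ) := fun h => hS.ne (UpperHalfPlane.ext h)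

theorem isCompact_BH (hS : Setup p1 p2) : IsCompact (BH p1 p2) := by
  have h1 : IsCompact (sball (p1 : ℂ) (p2 : ℂ) 16) := isCompact_sball hS.ne' 16
  have h2 : sball (p1 : ℂ) (p2 : ℂ) 16 ⊆ Set.range UpperHalfPlane.coe := by
    intro z hz
    exact ⟨⟨z, hS.ball hz⟩, rfl⟩
  exact (UpperHalfPlane.isEmbedding_coe.isInducing.isCompact_preimage_iff h2).2 h1

theorem p1_mem_BH (hS : Setup p1 p2) : p1 ∈ BH p1 p2 := by
  show sfun (p1 : ℂ) (p2 : ℂ) (p1 : ℂ) ≤ 16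
  rw [sfun_self_left hS.ne']
  norm_num

theorem p2_mem_BH : p2 ∈ BH p1 p2 := by
  show sfun (p1 : ℂ) (p2 : ℂ) (p2 : ℂ) ≤ 16
  rw [sfun_self_right]
  norm_num

theorem ne_of_notMem_BH (hS : Setup p1 p2) {z : ℍ} (h : z ∉ BH p1 p2) : z ≠ p1 ∧ z ≠ p2 :=
  ⟨fun h1 => h (by rw [h1]; exact p1_mem_BH hS), fun h2 => h (by rw [h2]; exact p2_mem_BH)⟩

theorem finite_Q (hS : Setup p1 p2) (z : ℍ) : {q : Gbar Γ | rep q • z ∈ BH p1 p2}.Finite := by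
  have h := finite_smul_inter (K := {z}) isCompact_singleton (isCompact_BH hS)
  exact (h.preimage (rep_injective (Γ := Γ)).injOn).subset (fun q hq => ⟨z, rfl, hq⟩)

variable (p1 p2)

open Classical in
/-- the finitely many classes `q` with `q z ∈ B`. -/
def Qs (z : ℍ) : Finset (Gbar Γ) :=
  if h : {q : Gbar Γ | rep q • z ∈ BH p1 p2}.Finite then h.toFinset else ∅

variable {p1 p2}

theorem mem_Qs (hS : Setup p1 p2) {z : ℍ} {q : Gbar Γ} :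
    q ∈ Qs Γ p1 p2 z ↔ rep q • z ∈ BH p1 p2 := by
  unfold Qs
  rw [dif_pos (finite_Q Γ hS z), Set.Finite.mem_toFinset]
  rfl

theorem Qs_relevant (hS : Setup p1 p2) (z : ℍ) (q : Gbar Γ)
    (h : rep q • z = p1 ∨ rep q • z = p2) : q ∈ Qs Γ p1 p2 z := by
  rw [mem_Qs Γ hS]
  rcases h with h | h
  · rw [h]; exact p1_mem_BH hS
  · rw [h]; exact p2_mem_BH

/-- **local constancy of the relevant set.** -/
theorem eventually_Qs_subset (hS : Setup p1 p2) (z₀ : ℍ) :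
    ∀ᶠ z in 𝓝 z₀, Qs Γ p1 p2 z ⊆ Qs Γ p1 p2 z₀ := by
  filter_upwards [eventually_forall_smul_mem (isCompact_BH hS) z₀] with z hz q hq
  rw [mem_Qs Γ hS] at hq ⊢
  exact hz _ hq

/-! ### The family -/

theorem ordMer_Rq_of_notMem (hS : Setup p1 p2) {q : Gbar Γ} {z : ℍ}
    (h : rep q • z ∉ BH p1 p2) : ordMer z (Rq Γ p1 p2 q) = 0 := by
  obtain ⟨h1, h2⟩ := ne_of_notMem_BH hS h
  rw [ordMer_Rq, ordMer_R0_of_ne p1 p2 h1 h2]

theorem Rfun_ne_zero {t₁ t₂ t : ℂ} (h1 : t ≠ t₁) (h2 : t ≠ t₂) : Rfun t₁ t₂ t ≠ 0 :=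
  div_ne_zero (sub_ne_zero.2 h1) (sub_ne_zero.2 h2)

theorem exp_ell_of_notMem {t₁ t₂ t : ℂ} (h : t₁ ≠ t₂) (ht : t ∉ sball t₁ t₂ 16) :
    Complex.exp (ell t₁ t₂ t) = Rfun t₁ t₂ t := by
  have hs : 16 < sfun t₁ t₂ t := not_le.1 ht
  have h2 : t ≠ t₂ := ne_of_sfun_pos (lt_trans (by norm_num) hs)
  have h1 : t ≠ t₁ := by
    rintro rfl
    rw [sfun_self_left h] at hs
    norm_num at hs
  unfold ell
  rw [phi_eq_zero hs.le, sub_zero, one_mul, Complex.exp_log (Rfun_ne_zero h1 h2)]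

theorem smul_mem_BH_even (z : ℍ) (g : SL(2, ℤ)) :
    ((-g) • z ∈ BH p1 p2) = (g • z ∈ BH p1 p2) := by
  rw [ModularGroup.SL_neg_smul]

theorem UH_mem_nhds' (z₀ : ℍ) : UH ∈ 𝓝 (z₀ : ℂ) := isOpen_UH.mem_nhds z₀.im_pos

theorem contDiffAt_mob' (g : SL(2, ℤ)) (z₀ : ℍ) : ContDiffAt ℝ ∞ (mob g) (z₀ : ℂ) := by
  have hd : DifferentiableOn ℂ (mob g) UH := fun w hw =>
    (hasDerivAt_mob g ⟨w, hw⟩).differentiableAt.differentiableWithinAt
  have h : AnalyticAt ℂ (mob g) (z₀ : ℂ) := hd.analyticAt (UH_mem_nhds' z₀)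
  exact (h.contDiffAt (n := ∞)).restrict_scalars ℝ

theorem contDiffAt_ell_mob (g : SL(2, ℤ)) (z₀ : ℍ) :
    ContDiffAt ℝ ∞ (fun w => ell (p1 : ℂ) (p2 : ℂ) (mob g w)) (z₀ : ℂ) :=
  (ell_contDiff (t₁ := (p1 : ℂ)) (t₂ := (p2 : ℂ))).contDiffAt.comp (z₀ : ℂ) (contDiffAt_mob' g z₀)

/-- **the point-point family** `T ∘ q`, `q ∈ Γ̄`. -/
def ppFamily (hS : Setup p1 p2) : Family Γ (Gbar Γ) where
  R := Rq Γ p1 p2
  l q z := ell (p1 : ℂ) (p2 : ℂ) ((rep q • z : ℍ) : ℂ)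
  Brel q := {z | rep q • z ∈ BH p1 p2}
  R_ne := Rq_ne_zero Γ p1 p2
  finite_rel := finite_Q Γ hS
  loc_const z₀ := by
    filter_upwards [eventually_forall_smul_mem (isCompact_BH hS) z₀] with z hz q hq
    exact hz _ hq
  ord_off q z h := ordMer_Rq_of_notMem Γ hS h
  ev_off q z h := by
    obtain ⟨h1, h2⟩ := ne_of_notMem_BH hS h
    rw [evM_Rq Γ p1 p2 h1 h2]
    exact (exp_ell_of_notMem hS.ne' h).symm
  smooth q z₀ := contDiffAt_ell_mob (rep q) z₀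
  e δ := Equiv.mulRight (cls δ)⁻¹
  e_rel δ q z := by
    have h1 := even_rep_mul (fun g => g • z ∈ BH p1 p2) (smul_mem_BH_even z) (q * (cls δ)⁻¹) δ
    rw [inv_mul_cancel_right] at h1
    show rep (q * (cls δ)⁻¹) • (δ : SL(2, ℤ)) • z ∈ BH p1 p2 ↔ rep q • z ∈ BH p1 p2
    rw [← mul_smul]
    exact (Eq.to_iff h1).symm
  e_R δ q := by
    show slMer (δ : SL(2, ℤ)) (Rq Γ p1 p2 (q * (cls δ)⁻¹)) = Rq Γ p1 p2 q
    rw [← Rq_mul_cls, inv_mul_cancel_right]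
  e_l δ q z := by
    have h1 := even_rep_mul (fun g => ell (p1 : ℂ) (p2 : ℂ) ((g • z : ℍ) : ℂ))
      (fun g => by simp only [ModularGroup.SL_neg_smul]) (q * (cls δ)⁻¹) δ
    rw [inv_mul_cancel_right] at h1
    show ell (p1 : ℂ) (p2 : ℂ) ((rep (q * (cls δ)⁻¹) • (δ : SL(2, ℤ)) • z : ℍ) : ℂ) = _
    rw [← mul_smul]
    exact h1.symm

theorem ppFamily_R (hS : Setup p1 p2) (q : Gbar Γ) : (ppFamily Γ hS).R q = Rq Γ p1 p2 q := rfl

theorem ppFamily_l (hS : Setup p1 p2) (q : Gbar Γ) (z : ℍ) :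
    (ppFamily Γ hS).l q z = ell (p1 : ℂ) (p2 : ℂ) ((rep q • z : ℍ) : ℂ) := rfl

theorem mem_ppFamily_Qs (hS : Setup p1 p2) {q : Gbar Γ} {z : ℍ} :
    q ∈ (ppFamily Γ hS).Qs z ↔ rep q • z ∈ BH p1 p2 := Family.mem_Qs _

end Fermat.Agent.M17.ModelProd8
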