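/-
M17 (target S17), block [RL], point-to-cusp half, leaf (PC-3) (helper4): **the cusp family.**

For a cusp `δ : SL(2, ℤ)` of `Γ₀(N)` (coordinate `τ = δ • z`, width `h`), and a small `q₂ ≠ 0` in the
`q_h`-disc, `cuspFamily` is the `ModelFam8.Family (Gamma0 N)` of the factors
`T_u = R(u) · exp (- ell 0 q₂ ∘ u)`, `R(u) = u / (u - q₂)`, where `u` runs over the local parameters
`u = q_h ∘ (δ γ)`, `γ ∈ Γ₀(N)` (one for each cusp of the `Γ₀(N)`-orbit of `δ⁻¹∞`; the index type is the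
set of these functions, so no coset representatives are needed).  `u` is relevant at `z` iff
`sfun 0 q₂ (u z) ≤ 16`; at most one `u` is relevant at a given point (precise invariance).

Imported by no statement.
-/
import Fermat.Agent.M17.ModelProd8
import Fermat.Agent.M17.CuspNbhd4
import Fermat.Agent.M17.CuspModel4

set_option autoImplicit false
set_option linter.unusedSectionVars false

open UpperHalfPlane Filter Topology Set
open scoped Manifold MatrixGroups ContDiff Real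
open CongruenceSubgroup

noncomputable section

namespace Fermat.Agent.M17.CuspFam4

open Fermat.Agent.X0 Fermat.Agent.X0.SurjPoint Fermat.Agent.ES.KUM Fermat.Agent.M15.DivLogMer1
  Fermat.Agent.M15.DivLogPrim1 Fermat.Agent.M15.DivDlog1 Fermat.Agent.M17.MerEval8
  Fermat.Agent.M17.LocalModel8 Fermat.Agent.M17.ModelFam8 Fermat.Agent.M17.CuspNbhd4
  Fermat.Agent.M17.CuspModel4

local notation "ι" => algebraMap HolH MerH
local notation "T" => (ModularGroup.T : SL(2, ℤ))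

variable (N : ℕ) [NeZero N] (δ : SL(2, ℤ))

/-- the width of the cusp, as a real number. -/
def hw : ℝ := (width N δ : ℝ)

theorem hw_pos : 0 < hw N δ := by
  unfold hw
  exact_mod_cast width_pos N δ

/-- `q_h`, as a holomorphic function on `ℍ`. -/
def qH : HolH := ofC (qh (hw N δ)) differentiable_qh.differentiableOn

theorem qH_apply (z : ℍ) : ((qH N δ : HolH) : ℍ → ℂ) z = qh (hw N δ) (z : ℂ) := rfl

/-- the local parameter `q_h ∘ (δ γ)` at the cusp `γ⁻¹ δ⁻¹ ∞`. -/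
def uH (γ : SL(2, ℤ)) : HolH := compSLHom (δ * γ) (qH N δ)

theorem uH_apply (γ : SL(2, ℤ)) (z : ℍ) :
    ((uH N δ γ : HolH) : ℍ → ℂ) z = qh (hw N δ) (((δ * γ) • z : ℍ) : ℂ) := rfl

theorem uH_apply_ne_zero (γ : SL(2, ℤ)) (z : ℍ) : ((uH N δ γ : HolH) : ℍ → ℂ) z ≠ 0 := by
  rw [uH_apply]
  exact qh_ne_zero _

theorem compSLHom_uH (γ γ' : SL(2, ℤ)) : compSLHom γ' (uH N δ γ) = uH N δ (γ * γ') := by
  unfold uH
  rw [← compSLHom_mul, mul_assoc]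

theorem norm_uH (γ : SL(2, ℤ)) (z : ℍ) :
    ‖((uH N δ γ : HolH) : ℍ → ℂ) z‖ = Real.exp (-(2 * π * ((δ * γ) • z).im / hw N δ)) := by
  rw [uH_apply, norm_qh]
  rfl

/-- translation invariance. -/
theorem uH_eq_of_conj {γ γ' : SL(2, ℤ)} {m : ℤ}
    (h : δ * (γ' * γ⁻¹) * δ⁻¹ = T ^ ((width N δ : ℤ) * m) ∨
      δ * (γ' * γ⁻¹) * δ⁻¹ = -T ^ ((width N δ : ℤ) * m)) : uH N δ γ' = uH N δ γ := by
  apply Subtype.ext
  funext z
  show ((uH N δ γ' : HolH) : ℍ → ℂ) z = ((uH N δ γ : HolH) : ℍ → ℂ) z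
  rw [uH_apply, uH_apply]
  have e : (δ * γ') • z = (δ * (γ' * γ⁻¹) * δ⁻¹) • ((δ * γ) • z) := by
    rw [← mul_smul]
    congr 1
    group
  have e2 : (δ * γ') • z = ((((width N δ : ℤ) * m : ℤ)) : ℝ) +ᵥ ((δ * γ) • z) := by
    rw [e]
    rcases h with h | h
    · rw [h, T_zpow_smul]
    · rw [h, neg_T_zpow_smul]
  rw [e2, UpperHalfPlane.coe_vadd]
  have hh : hw N δ ≠ 0 := (hw_pos N δ).ne'
  have := qh_add_mul (h := hw N δ) hh (((δ * γ) • z : ℍ) : ℂ) m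
  rw [← this]
  congr 1
  unfold hw
  push_cast
  ring

/-! ### the index type -/

/-- the local parameters at the cusps of the `Γ₀(N)`-orbit of `δ⁻¹ ∞`. -/
def Q : Type := {u : HolH // ∃ γ : ↥(Gamma0 N), u = uH N δ (γ : SL(2, ℤ))}

/-- the parameter attached to `γ`. -/
def mkQ (γ : ↥(Gamma0 N)) : Q N δ := ⟨uH N δ (γ : SL(2, ℤ)), γ, rfl⟩

variable {N δ}

theorem Q.ext {q q' : Q N δ} (h : q.1 = q'.1) : q = q' := Subtype.ext h

theorem Q.exists_eq (q : Q N δ) : ∃ γ : ↥(Gamma0 N), q = mkQ N δ γ := by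
  obtain ⟨γ, hγ⟩ := q.2
  exact ⟨γ, Q.ext hγ⟩

theorem Q.apply_ne_zero (q : Q N δ) (z : ℍ) : (q.1 : ℍ → ℂ) z ≠ 0 := by
  obtain ⟨γ, rfl⟩ := q.exists_eq
  exact uH_apply_ne_zero N δ _ z

variable (N δ)

/-- the action of `Γ₀(N)` on the parameters: `u ↦ u ∘ γ'⁻¹`. -/
def actQ (γ' : ↥(Gamma0 N)) (q : Q N δ) : Q N δ :=
  ⟨compSLHom ((γ' : SL(2, ℤ))⁻¹) q.1, by
    obtain ⟨γ, hγ⟩ := q.2
    refine ⟨γ * γ'⁻¹, ?_⟩
    rw [hγ, compSLHom_uH, Subgroup.coe_mul, Subgroup.coe_inv]⟩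

theorem actQ_apply (γ' : ↥(Gamma0 N)) (q : Q N δ) (z : ℍ) :
    ((actQ N δ γ' q).1 : ℍ → ℂ) z = (q.1 : ℍ → ℂ) ((γ' : SL(2, ℤ))⁻¹ • z) := rfl

theorem actQ_apply_smul (γ' : ↥(Gamma0 N)) (q : Q N δ) (z : ℍ) :
    ((actQ N δ γ' q).1 : ℍ → ℂ) ((γ' : SL(2, ℤ)) • z) = (q.1 : ℍ → ℂ) z := by
  rw [actQ_apply, inv_smul_smul]

/-- the permutation of the parameters induced by `γ'`. -/
def eQ (γ' : ↥(Gamma0 N)) : Q N δ ≃ Q N δ where
  toFun := actQ N δ γ'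
  invFun := actQ N δ γ'⁻¹
  left_inv q := by
    apply Q.ext
    show compSLHom (((γ'⁻¹ : ↥(Gamma0 N)) : SL(2, ℤ))⁻¹) (compSLHom ((γ' : SL(2, ℤ))⁻¹) q.1) = q.1
    rw [Subgroup.coe_inv, inv_inv, compSLHom_inv_cancel]
  right_inv q := by
    apply Q.ext
    show compSLHom ((γ' : SL(2, ℤ))⁻¹) (compSLHom (((γ'⁻¹ : ↥(Gamma0 N)) : SL(2, ℤ))⁻¹) q.1) = q.1
    rw [Subgroup.coe_inv, inv_inv, compSLHom_cancel_inv]

/-! ### the factors -/

variable (q₂ : ℂ)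

/-- `R(u) = u / (u - q₂)`. -/
def Rq (q : Q N δ) : MerH := ι q.1 / ι (q.1 - algebraMap ℂ HolH q₂)

theorem sub_apply (q : Q N δ) (z : ℍ) :
    ((q.1 - algebraMap ℂ HolH q₂ : HolH) : ℍ → ℂ) z = (q.1 : ℍ → ℂ) z - q₂ := rfl

/-- the logarithmic correction `ell 0 q₂ ∘ u`. -/
def lq (q : Q N δ) (z : ℍ) : ℂ := ell 0 q₂ ((q.1 : ℍ → ℂ) z)

/-- `u` is relevant at `z`. -/
def Brel (q : Q N δ) : Set ℍ := {z | sfun 0 q₂ ((q.1 : ℍ → ℂ) z) ≤ 16}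

/-- the standing hypothesis: `q₂ ≠ 0` is small (the outer ball lies above height `1`). -/
structure Setup : Prop where
  ne : q₂ ≠ 0
  small : 6 * ‖q₂‖ < Real.exp (-(2 * π * 1 / hw N δ))

variable {N δ q₂}

theorem norm_le_of_sfun_le {q : ℂ} (hq₂ : q₂ ≠ 0) (h : sfun 0 q₂ q ≤ 16) : ‖q‖ ≤ 5 * ‖q₂‖ := by
  have h0 : 0 < ‖q₂‖ := norm_pos_iff.mpr hq₂
  rw [sfun_zero_eq q₂, div_le_iff₀ (by positivity)] at h
  have h1 : ‖q - q₂‖ ≤ 4 * ‖q₂‖ := by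
    by_contra hc
    rw [not_le] at hc
    nlinarith [norm_nonneg (q - q₂)]
  calc ‖q‖ = ‖(q - q₂) + q₂‖ := by rw [sub_add_cancel]
    _ ≤ ‖q - q₂‖ + ‖q₂‖ := norm_add_le _ _
    _ ≤ 5 * ‖q₂‖ := by linarith

/-- a relevant parameter is high. -/
theorem one_lt_im_of_mem_Brel (hS : Setup N δ q₂) {γ : ↥(Gamma0 N)} {z : ℍ}
    (h : z ∈ Brel N δ q₂ (mkQ N δ γ)) : 1 < ((δ * (γ : SL(2, ℤ))) • z).im := by
  have h1 : ‖((uH N δ (γ : SL(2, ℤ)) : HolH) : ℍ → ℂ) z‖ ≤ 5 * ‖q₂‖ := norm_le_of_sfun_le hS.ne h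
  have h2 : ‖((uH N δ (γ : SL(2, ℤ)) : HolH) : ℍ → ℂ) z‖ < Real.exp (-(2 * π * 1 / hw N δ)) := by
    have := hS.small
    have h0 : 0 ≤ ‖q₂‖ := norm_nonneg _
    linarith
  rw [norm_uH, Real.exp_lt_exp, neg_lt_neg_iff] at h2
  have hh := hw_pos N δ
  rw [div_lt_div_iff_of_pos_right hh] at h2
  have hpi := Real.pi_pos
  nlinarith

/-- **at most one parameter is high at a given point.** -/
theorem mkQ_eq_of_one_lt_im {γ γ' : ↥(Gamma0 N)} {z : ℍ}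
    (h : 1 < ((δ * (γ : SL(2, ℤ))) • z).im) (h' : 1 < ((δ * (γ' : SL(2, ℤ))) • z).im) :
    mkQ N δ γ' = mkQ N δ γ := by
  apply Q.ext
  show uH N δ (γ' : SL(2, ℤ)) = uH N δ (γ : SL(2, ℤ))
  have h1 : 1 < (δ • ((γ : SL(2, ℤ)) • z)).im := by rwa [← mul_smul]
  have h2 : 1 < (δ • (((γ' * γ⁻¹ : ↥(Gamma0 N)) : SL(2, ℤ))) • ((γ : SL(2, ℤ)) • z)).im := by
    rw [Subgroup.coe_mul, Subgroup.coe_inv, mul_smul, inv_smul_smul, ← mul_smul]
    exact h'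
  obtain ⟨m, hm⟩ := exists_conj_eq_of_one_lt_im N (γ' * γ⁻¹ : ↥(Gamma0 N)).2 δ h1 h2
  rw [Subgroup.coe_mul, Subgroup.coe_inv] at hm
  exact uH_eq_of_conj N δ hm

theorem eq_of_mem_Brel (hS : Setup N δ q₂) {q q' : Q N δ} {z : ℍ}
    (h : z ∈ Brel N δ q₂ q) (h' : z ∈ Brel N δ q₂ q') : q' = q := by
  obtain ⟨γ, rfl⟩ := q.exists_eq
  obtain ⟨γ', rfl⟩ := q'.exists_eq
  exact mkQ_eq_of_one_lt_im (one_lt_im_of_mem_Brel hS h) (one_lt_im_of_mem_Brel hS h')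

theorem finite_rel (hS : Setup N δ q₂) (z : ℍ) : {q : Q N δ | z ∈ Brel N δ q₂ q}.Finite := by
  apply Set.Subsingleton.finite
  intro q hq q' hq'
  exact eq_of_mem_Brel hS hq' hq

theorem continuous_apply (u : HolH) : Continuous (u : ℍ → ℂ) := (mem_HolH.1 u.2).continuous

theorem isClosed_Brel (q : Q N δ) : IsClosed (Brel N δ q₂ q) :=
  isClosed_le ((sfun_contDiff 0 q₂).continuous.comp (continuous_apply q.1)) continuous_const

/-- the height below which a parameter is irrelevant. -/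
theorem exists_height (hS : Setup N δ q₂) :
    ∃ Yb : ℝ, 1 < Yb ∧ ∀ (γ : ↥(Gamma0 N)) (z : ℍ), z ∈ Brel N δ q₂ (mkQ N δ γ) →
      Yb ≤ ((δ * (γ : SL(2, ℤ))) • z).im := by
  have hh := hw_pos N δ
  have h0 : 0 < ‖q₂‖ := norm_pos_iff.mpr hS.ne
  refine ⟨-(hw N δ / (2 * π)) * Real.log (5 * ‖q₂‖), ?_, fun γ z h => ?_⟩
  · have h1 : 5 * ‖q₂‖ < Real.exp (-(2 * π * 1 / hw N δ)) := by
      have := hS.small
      linarith
    have h2 : Real.log (5 * ‖q₂‖) < -(2 * π * 1 / hw N δ) := by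
      rw [Real.log_lt_iff_lt_exp (by positivity)]
      exact h1
    have hpi := Real.pi_pos
    have h3 : 0 < hw N δ / (2 * π) := by positivity
    have h4 : hw N δ / (2 * π) * (2 * π * 1 / hw N δ) = 1 := by
      field_simp
    nlinarith
  · have h1 : ‖((uH N δ (γ : SL(2, ℤ)) : HolH) : ℍ → ℂ) z‖ ≤ 5 * ‖q₂‖ :=
      norm_le_of_sfun_le hS.ne h
    rw [norm_uH] at h1
    have h2 : -(2 * π * ((δ * (γ : SL(2, ℤ))) • z).im / hw N δ) ≤ Real.log (5 * ‖q₂‖) := by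
      rw [Real.le_log_iff_exp_le (by positivity)]
      exact h1
    have hpi := Real.pi_pos
    have h3 : 0 < hw N δ / (2 * π) := by positivity
    have h4 : hw N δ / (2 * π) * (2 * π * ((δ * (γ : SL(2, ℤ))) • z).im / hw N δ) =
        ((δ * (γ : SL(2, ℤ))) • z).im := by
      field_simp
    nlinarith

/-- **local constancy of the relevant set.** -/
theorem loc_const (hS : Setup N δ q₂) (z₀ : ℍ) :
    ∀ᶠ z in 𝓝 z₀, ∀ q : Q N δ, z ∈ Brel N δ q₂ q → z₀ ∈ Brel N δ q₂ q := by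
  obtain ⟨Yb, hYb, hheight⟩ := exists_height hS
  -- near `z₀`, a parameter relevant at `z` is high at `z₀`
  have h1 : ∀ᶠ z in 𝓝 z₀, ∀ γ : ↥(Gamma0 N), z ∈ Brel N δ q₂ (mkQ N δ γ) →
      1 < ((δ * (γ : SL(2, ℤ))) • z₀).im := by
    have := eventually_forall_im_lt (z₀ := z₀) one_pos hYb
      {g : SL(2, ℤ) | (∃ γ : ↥(Gamma0 N), g = δ * (γ : SL(2, ℤ))) ∧ (g • z₀).im ≤ 1}
      (fun g hg => hg.2)
    filter_upwards [this] with z hz γ hγ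
    by_contra hc
    rw [not_lt] at hc
    have h2 := hz (δ * (γ : SL(2, ℤ))) ⟨⟨γ, rfl⟩, hc⟩
    have h3 := hheight γ z hγ
    linarith
  by_cases hex : ∃ γ₁ : ↥(Gamma0 N), 1 < ((δ * (γ₁ : SL(2, ℤ))) • z₀).im
  · obtain ⟨γ₁, hγ₁⟩ := hex
    by_cases hz₀ : z₀ ∈ Brel N δ q₂ (mkQ N δ γ₁)
    · filter_upwards [h1] with z hz q hq
      obtain ⟨γ, rfl⟩ := q.exists_eq
      rw [mkQ_eq_of_one_lt_im hγ₁ (hz γ hq)]
      exact hz₀
    · have hopen : ∀ᶠ z in 𝓝 z₀, z ∉ Brel N δ q₂ (mkQ N δ γ₁) :=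
        (isClosed_Brel (mkQ N δ γ₁)).isOpen_compl.mem_nhds hz₀
      filter_upwards [h1, hopen] with z hz hz' q hq
      obtain ⟨γ, rfl⟩ := q.exists_eq
      rw [mkQ_eq_of_one_lt_im hγ₁ (hz γ hq)] at hq
      exact absurd hq hz'
  · filter_upwards [h1] with z hz q hq
    obtain ⟨γ, rfl⟩ := q.exists_eq
    exact absurd ⟨γ, hz γ hq⟩ hex

theorem ne_of_notMem_Brel {q : Q N δ} {z : ℍ} (h : z ∉ Brel N δ q₂ q) :
    (q.1 : ℍ → ℂ) z ≠ q₂ := by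
  have h1 : 16 < sfun 0 q₂ ((q.1 : ℍ → ℂ) z) := not_le.1 h
  exact ne_of_sfun_pos (lt_trans (by norm_num) h1)

theorem sub_ne_zero' (hS : Setup N δ q₂) (q : Q N δ) : q.1 - algebraMap ℂ HolH q₂ ≠ 0 := by
  obtain ⟨γ, rfl⟩ := q.exists_eq
  -- a point where `|u| < |q₂|`
  have hh := hw_pos N δ
  have h0 : 0 < ‖q₂‖ := norm_pos_iff.mpr hS.ne
  obtain ⟨t, ht0, ht⟩ : ∃ t : ℝ, 0 < t ∧ Real.exp (-(2 * π * t / hw N δ)) < ‖q₂‖ := by
    have hlim : Tendsto (fun t : ℝ => Real.exp (-(2 * π * t / hw N δ))) atTop (𝓝 0) := by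
      apply Real.tendsto_exp_atBot.comp
      apply tendsto_neg_atTop_atBot.comp
      have : (fun t : ℝ => 2 * π * t / hw N δ) = fun t : ℝ => (2 * π / hw N δ) * t := by
        funext t; ring
      rw [this]
      exact tendsto_id.const_mul_atTop (by positivity)
    have h1 := hlim.eventually (gt_mem_nhds h0)
    obtain ⟨t, ht⟩ := (h1.and (eventually_gt_atTop 0)).exists
    exact ⟨t, ht.2, ht.1⟩
  set τ : ℍ := ⟨⟨0, t⟩, ht0⟩ with hτ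
  set z : ℍ := (δ * (γ : SL(2, ℤ)))⁻¹ • τ with hz
  apply ne_zero_of_apply_ne (z₀ := z)
  rw [sub_apply]
  show ((uH N δ (γ : SL(2, ℤ)) : HolH) : ℍ → ℂ) z - q₂ ≠ 0
  intro h
  have h2 : ‖((uH N δ (γ : SL(2, ℤ)) : HolH) : ℍ → ℂ) z‖ = ‖q₂‖ := by
    rw [sub_eq_zero.1 h]
  rw [norm_uH, hz, smul_inv_smul] at h2
  have : τ.im = t := rfl
  rw [this] at h2
  linarith

theorem Rq_ne_zero (hS : Setup N δ q₂) (q : Q N δ) : Rq N δ q₂ q ≠ 0 :=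
  div_ne_zero (iota_ne_zero (ne_zero_of_apply_ne (q.apply_ne_zero UpperHalfPlane.I)))
    (iota_ne_zero (sub_ne_zero' hS q))

theorem ordMer_Rq_of_ne {q : Q N δ} {z : ℍ} (h : (q.1 : ℍ → ℂ) z ≠ q₂) :
    ordMer z (Rq N δ q₂ q) = 0 := by
  unfold Rq
  apply ordMer_div_of_ne (q.apply_ne_zero z)
  rw [sub_apply]
  exact sub_ne_zero.2 h

theorem evM_Rq {q : Q N δ} {z : ℍ} (h : (q.1 : ℍ → ℂ) z ≠ q₂) :
    evM z (Rq N δ q₂ q) = Rfun 0 q₂ ((q.1 : ℍ → ℂ) z) := by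
  unfold Rq
  rw [evM_div _ (by rw [sub_apply]; exact sub_ne_zero.2 h), sub_apply]
  unfold Rfun
  rw [sub_zero]

theorem contDiffAt_lq (q : Q N δ) (z₀ : ℍ) :
    ContDiffAt ℝ ∞ (fun w : ℂ => lq N δ q₂ q (ofComplex w)) (z₀ : ℂ) := by
  have h1 : ContDiffAt ℝ ∞ (toC q.1) (z₀ : ℂ) :=
    ((analyticAt_toC q.1 z₀.im_pos).contDiffAt (n := ∞)).restrict_scalars ℝ
  exact (ell_contDiff (t₁ := 0) (t₂ := q₂)).contDiffAt.comp (z₀ : ℂ) h1

variable (N δ q₂)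

/-- **the cusp family.** -/
def cuspFamily (hS : Setup N δ q₂) : Family (Gamma0 N) (Q N δ) where
  R := Rq N δ q₂
  l := lq N δ q₂
  Brel := Brel N δ q₂
  R_ne := Rq_ne_zero hS
  finite_rel := finite_rel hS
  loc_const := loc_const hS
  ord_off q z h := ordMer_Rq_of_ne (ne_of_notMem_Brel h)
  ev_off q z h := by
    rw [evM_Rq (ne_of_notMem_Brel h)]
    exact (Fermat.Agent.M17.ModelProd8.exp_ell_of_notMem hS.ne.symm h).symm
  smooth := contDiffAt_lq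
  e := eQ N δ
  e_rel γ' q z := by
    show sfun 0 q₂ (((actQ N δ γ' q).1 : ℍ → ℂ) ((γ' : SL(2, ℤ)) • z)) ≤ 16 ↔
      sfun 0 q₂ ((q.1 : ℍ → ℂ) z) ≤ 16
    rw [actQ_apply_smul]
  e_R γ' q := by
    show slMer (γ' : SL(2, ℤ)) (ι (actQ N δ γ' q).1 / ι ((actQ N δ γ' q).1 - algebraMap ℂ HolH q₂)) =
      ι q.1 / ι (q.1 - algebraMap ℂ HolH q₂)
    rw [slMer_div]
    have h1 : compSLHom (γ' : SL(2, ℤ)) (actQ N δ γ' q).1 = q.1 :=
      compSLHom_inv_cancel (γ' : SL(2, ℤ)) q.1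
    have h2 : compSLHom (γ' : SL(2, ℤ)) ((actQ N δ γ' q).1 - algebraMap ℂ HolH q₂) =
        q.1 - algebraMap ℂ HolH q₂ := by
      rw [map_sub, h1]
      congr 1
    rw [h1, h2]
  e_l γ' q z := by
    show ell 0 q₂ (((actQ N δ γ' q).1 : ℍ → ℂ) ((γ' : SL(2, ℤ)) • z)) = ell 0 q₂ ((q.1 : ℍ → ℂ) z)
    rw [actQ_apply_smul]

theorem cuspFamily_R (hS : Setup N δ q₂) (q : Q N δ) :
    (cuspFamily N δ q₂ hS).R q = Rq N δ q₂ q := rfl

theorem cuspFamily_l (hS : Setup N δ q₂) (q : Q N δ) (z : ℍ) :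
    (cuspFamily N δ q₂ hS).l q z = ell 0 q₂ ((q.1 : ℍ → ℂ) z) := rfl

theorem cuspFamily_l_mkQ (hS : Setup N δ q₂) (γ : ↥(Gamma0 N)) (z : ℍ) :
    (cuspFamily N δ q₂ hS).l (mkQ N δ γ) z =
      ellc (hw N δ) q₂ (((δ * (γ : SL(2, ℤ))) • z : ℍ) : ℂ) := rfl

variable {N δ q₂}

theorem mem_cuspFamily_Qs (hS : Setup N δ q₂) {q : Q N δ} {z : ℍ} :
    q ∈ (cuspFamily N δ q₂ hS).Qs z ↔ sfun 0 q₂ ((q.1 : ℍ → ℂ) z) ≤ 16 := Family.mem_Qs _

/-- the relevant set has at most one element. -/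
theorem Qs_subset_singleton (hS : Setup N δ q₂) {q : Q N δ} {z : ℍ}
    (hq : q ∈ (cuspFamily N δ q₂ hS).Qs z) : (cuspFamily N δ q₂ hS).Qs z = {q} := by
  ext q'
  rw [Finset.mem_singleton]
  constructor
  · intro hq'
    exact eq_of_mem_Brel hS ((Family.mem_Qs _).1 hq) ((Family.mem_Qs _).1 hq')
  · rintro rfl
    exact hq

/-- a point with no high translate has no relevant parameter. -/
theorem Qs_eq_empty_of_forall_le (hS : Setup N δ q₂) {z : ℍ}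
    (h : ∀ γ : ↥(Gamma0 N), ((δ * (γ : SL(2, ℤ))) • z).im ≤ 1) :
    (cuspFamily N δ q₂ hS).Qs z = ∅ := by
  rw [Finset.eq_empty_iff_forall_notMem]
  intro q hq
  obtain ⟨γ, rfl⟩ := q.exists_eq
  have := one_lt_im_of_mem_Brel hS ((Family.mem_Qs _).1 hq)
  exact absurd (h γ) (not_le.mpr this)

end Fermat.Agent.M17.CuspFam4
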