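/-
M17 (target S17), block [RL], leaf (CNT) (helper4): **the transporter in `Γ₀(N)` between two points
of `ℍ` has `2 · ptIdx` elements** (helper8's statement of board 1173).

* `exists_generator` : the stabiliser of `z₀` in `Γ₀(N)` contains an element whose multiplier at
  `z₀` is a primitive `ptIdx N 1 z₀`-th root of unity;
* `card_stabilizer` : `#Stab_{Γ₀(N)}(z₀) = 2 · ptIdx N 1 z₀`;
* `card_transporter` : the statement of (CNT).

Imported by no statement.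
-/
import Fermat.Agent.M17.Dict4
import Fermat.Agent.ES.KUM.EllStab14

set_option autoImplicit false
set_option linter.unusedSectionVars false

open UpperHalfPlane AlgebraicCurve Filter Topology MulAction Subgroup
open scoped Manifold MatrixGroups
open CongruenceSubgroup

noncomputable section

namespace Fermat.Agent.M17.StabCount4

open Fermat.Agent.X0 Fermat.Agent.ES.KUM Fermat.Agent.X0.SurjPoint
open Fermat.Agent.ES.KUM.EllMult14 Fermat.Agent.ES.KUM.EllStab14 ModularCurve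
open Fermat.Agent.M17.Dict4
open Fermat.Agent.X0.JOrderMain Fermat.Agent.X0.JOrderFinal

variable (N : ℕ) [NeZero N]

theorem pointSurj : PointSurj N := fun v z₀ hv => CSurj25.exists_ptPlaceC_eq N z₀ v hv

theorem neg_one_mem_Gamma0 : (-1 : SL(2, ℤ)) ∈ Gamma0 N := by
  rw [Gamma0_mem]
  simp

theorem neg_one_ne_one : (-1 : SL(2, ℤ)) ≠ 1 := by decide

theorem isPrimitiveRoot_mult_S : IsPrimitiveRoot (mult ModularGroup.S ptI) 2 := by
  haveI : Fact (Nat.Prime 2) := ⟨Nat.prime_two⟩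
  refine IsPrimitiveRoot.iff_orderOf.2 (orderOf_eq_prime ?_ ?_)
  · rw [← mult_pow_of_fixed ho_S_smul_ptI, S_sq_eq, mult_neg, mult_one]
  · intro h
    rcases (mult_eq_one_iff ho_S_smul_ptI).1 h with h | h
    · exact absurd h (by decide)
    · exact absurd h (by decide)

theorem isPrimitiveRoot_mult_ST :
    IsPrimitiveRoot (mult (ModularGroup.S * ModularGroup.T) ptRho) 3 := by
  haveI : Fact (Nat.Prime 3) := ⟨Nat.prime_three⟩
  refine IsPrimitiveRoot.iff_orderOf.2 (orderOf_eq_prime ?_ ?_)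
  · rw [← mult_pow_of_fixed ho_ST_smul_ptRho, ST_cube_eq, mult_neg, mult_one]
  · intro h
    rcases (mult_eq_one_iff ho_ST_smul_ptRho).1 h with h | h
    · exact absurd h (by decide)
    · exact absurd h (by decide)

/-- the stabiliser of `z₀` in `Γ₀(N)` contains an element whose multiplier is a primitive
`ptIdx`-th root of unity. -/
theorem exists_generator (z₀ : ℍ) : ∃ ε : SL(2, ℤ), ε ∈ Gamma0 N ∧ ε • z₀ = z₀ ∧
    IsPrimitiveRoot (mult ε z₀) (ptIdx N 1 z₀) := by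
  have hsurj := pointSurj N
  by_cases h3 : ∃ τ : SL(2, ℤ), τ • ptRho = z₀
  · obtain ⟨τ, rfl⟩ := h3
    have hidx : ptIdx N 1 (τ • ptRho) = ptIdx N τ⁻¹ ptRho := by
      rw [CSurj25.ptIdx_eq_one N τ⁻¹ ptRho, inv_inv]
    rcases ptIdx_ptRho N hsurj τ⁻¹ with h1 | hmem
    · refine ⟨1, one_mem _, one_smul _ _, ?_⟩
      rw [hidx, h1, mult_one]
      exact IsPrimitiveRoot.one
    · have hmem' : τ * (ModularGroup.S * ModularGroup.T) * τ⁻¹ ∈ Gamma0 N := by
        rwa [inv_inv] at hmem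
      refine ⟨τ * (ModularGroup.S * ModularGroup.T) * τ⁻¹, hmem', ?_, ?_⟩
      · rw [mul_smul, mul_smul, inv_smul_smul, ho_ST_smul_ptRho]
      · rw [hidx, ptIdx_eq_three_of_fixed_ST N τ⁻¹ hmem, mult_conj τ _ ho_ST_smul_ptRho]
        exact isPrimitiveRoot_mult_ST
  by_cases h2 : ∃ τ : SL(2, ℤ), τ • ptI = z₀
  · obtain ⟨τ, rfl⟩ := h2
    have hidx : ptIdx N 1 (τ • ptI) = ptIdx N τ⁻¹ ptI := by
      rw [CSurj25.ptIdx_eq_one N τ⁻¹ ptI, inv_inv]
    rcases ptIdx_ptI N hsurj τ⁻¹ with h1 | hmem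
    · refine ⟨1, one_mem _, one_smul _ _, ?_⟩
      rw [hidx, h1, mult_one]
      exact IsPrimitiveRoot.one
    · have hmem' : τ * ModularGroup.S * τ⁻¹ ∈ Gamma0 N := by
        rwa [inv_inv] at hmem
      refine ⟨τ * ModularGroup.S * τ⁻¹, hmem', ?_, ?_⟩
      · rw [mul_smul, mul_smul, inv_smul_smul, ho_S_smul_ptI]
      · rw [hidx, ptIdx_eq_two_of_fixed_S N τ⁻¹ hmem, mult_conj τ _ ho_S_smul_ptI]
        exact isPrimitiveRoot_mult_S
  · have h1 : ellOrder z₀ = 1 := by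
      unfold ellOrder
      rw [if_neg h3, if_neg h2]
    have hidx : ptIdx N 1 z₀ = 1 := by
      have := ptIdx_dvd_ellOrder N 1 z₀
      rw [h1] at this
      exact Nat.dvd_one.mp this
    refine ⟨1, one_mem _, one_smul _ _, ?_⟩
    rw [hidx, mult_one]
    exact IsPrimitiveRoot.one

/-- the sign `± 1`. -/
def sgn (b : Bool) : SL(2, ℤ) := if b then -1 else 1

theorem sgn_mem (b : Bool) : sgn b ∈ Gamma0 N := by
  unfold sgn
  split_ifs
  · exact neg_one_mem_Gamma0 N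
  · exact one_mem _

theorem sgn_smul (b : Bool) (z : ℍ) : sgn b • z = z := by
  unfold sgn
  split_ifs
  · rw [ModularGroup.SL_neg_smul, one_smul]
  · rw [one_smul]

theorem mult_sgn_mul (b : Bool) (γ : SL(2, ℤ)) (z : ℍ) : mult (sgn b * γ) z = mult γ z := by
  unfold sgn
  split_ifs
  · rw [neg_one_mul, mult_neg]
  · rw [one_mul]

theorem sgn_injective : Function.Injective sgn := by
  intro b b' h
  unfold sgn at h
  cases b <;> cases b' <;> simp_all [neg_one_ne_one, neg_one_ne_one.symm]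

/-- **the stabiliser of `z₀` in `Γ₀(N)` has `2 · ptIdx N 1 z₀` elements.** -/
theorem card_stabilizer (z₀ : ℍ) :
    Nat.card {γ : ↥(Gamma0 N) // (γ : SL(2, ℤ)) • z₀ = z₀} = 2 * ptIdx N 1 z₀ := by
  obtain ⟨ε, hε, hfix, hprim⟩ := exists_generator N z₀
  set e := ptIdx N 1 z₀ with he
  haveI : NeZero e := ⟨(ptIdx_pos N 1 z₀).ne'⟩
  have hfixpow : ∀ k : ℕ, (ε ^ k) • z₀ = z₀ := by
    intro k
    induction k with
    | zero => simp
    | succ k ih => rw [pow_succ, mul_smul, hfix, ih]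
  let f : Fin e × Bool → {γ : ↥(Gamma0 N) // (γ : SL(2, ℤ)) • z₀ = z₀} := fun kb =>
    ⟨⟨sgn kb.2 * ε ^ (kb.1 : ℕ), mul_mem (sgn_mem N kb.2) (pow_mem hε _)⟩, by
      show (sgn kb.2 * ε ^ (kb.1 : ℕ)) • z₀ = z₀
      rw [mul_smul, hfixpow, sgn_smul]⟩
  have hfval : ∀ kb, ((f kb : ↥(Gamma0 N)) : SL(2, ℤ)) = sgn kb.2 * ε ^ (kb.1 : ℕ) := fun _ => rfl
  have hinj : Function.Injective f := by
    rintro ⟨k, b⟩ ⟨k', b'⟩ h
    have h1 : sgn b * ε ^ (k : ℕ) = sgn b' * ε ^ (k' : ℕ) := by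
      have := congrArg (fun t : {γ : ↥(Gamma0 N) // (γ : SL(2, ℤ)) • z₀ = z₀} =>
        ((t : ↥(Gamma0 N)) : SL(2, ℤ))) h
      simpa only [hfval] using this
    have h2 : mult ε z₀ ^ (k : ℕ) = mult ε z₀ ^ (k' : ℕ) := by
      have := congrArg (fun t => mult t z₀) h1
      simp only [mult_sgn_mul, mult_pow_of_fixed hfix] at this
      exact this
    have hk : (k : ℕ) = (k' : ℕ) := hprim.pow_inj k.2 k'.2 h2
    have hk' : k = k' := Fin.ext hk
    subst hk'
    have hb : sgn b = sgn b' := mul_right_cancel h1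
    rw [sgn_injective hb]
  have hsurj : Function.Surjective f := by
    rintro ⟨⟨γ, hγ⟩, hγfix⟩
    have hγfix' : γ • z₀ = z₀ := hγfix
    have hpow : mult γ z₀ ^ e = 1 := mult_pow_ptIdx N γ hγ z₀ hγfix'
    obtain ⟨k, hk, hζ⟩ := hprim.eq_pow_of_pow_eq_one hpow
    have hfixinv : (ε ^ k)⁻¹ • z₀ = z₀ := by
      rw [inv_smul_eq_iff, hfixpow]
    have hone : mult (γ * (ε ^ k)⁻¹) z₀ = 1 := by
      rw [mult_mul_of_fixed hfixinv, mult_inv_of_fixed (hfixpow k), mult_pow_of_fixed hfix, hζ]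
      exact mul_inv_cancel₀ (mult_ne_zero γ z₀)
    have hfixprod : (γ * (ε ^ k)⁻¹) • z₀ = z₀ := by
      rw [mul_smul, hfixinv, hγfix']
    rcases (mult_eq_one_iff hfixprod).1 hone with h | h
    · refine ⟨(⟨k, hk⟩, false), ?_⟩
      apply Subtype.ext
      apply Subtype.ext
      rw [hfval]
      show sgn false * ε ^ k = γ
      have : γ = ε ^ k := by
        have := congrArg (· * ε ^ k) h
        simpa using this
      rw [this]
      simp [sgn]
    · refine ⟨(⟨k, hk⟩, true), ?_⟩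
      apply Subtype.ext
      apply Subtype.ext
      rw [hfval]
      show sgn true * ε ^ k = γ
      have : γ = -1 * ε ^ k := by
        have := congrArg (· * ε ^ k) h
        simpa using this
      rw [this]
      simp [sgn]
  rw [← Nat.card_congr (Equiv.ofBijective f ⟨hinj, hsurj⟩), Nat.card_prod, Nat.card_fin,
    Nat.card_eq_fintype_card, Fintype.card_bool, mul_comm]

/-- **(CNT)**: the transporter from `z₀` to `p` in `Γ₀(N)`. -/
theorem card_transporter (z₀ p : ℍ) [Decidable (ptPlaceC N 1 z₀ = ptPlaceC N 1 p)] :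
    Nat.card {γ : ↥(Gamma0 N) // (γ : SL(2, ℤ)) • z₀ = p} =
      if ptPlaceC N 1 z₀ = ptPlaceC N 1 p then 2 * ptIdx N 1 z₀ else 0 := by
  by_cases h : ptPlaceC N 1 z₀ = ptPlaceC N 1 p
  · rw [if_pos h]
    obtain ⟨γ₀, hγ₀, hp⟩ := (ptPlaceC_eq_iff N z₀ p).1 h
    rw [← card_stabilizer N z₀]
    refine Nat.card_congr
      { toFun := fun γ => ⟨⟨γ₀⁻¹ * (γ.1 : SL(2, ℤ)), mul_mem (inv_mem hγ₀) γ.1.2⟩, by
          show (γ₀⁻¹ * (γ.1 : SL(2, ℤ))) • z₀ = z₀
          rw [mul_smul, γ.2, ← hp, inv_smul_smul]⟩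
        invFun := fun γ => ⟨⟨γ₀ * (γ.1 : SL(2, ℤ)), mul_mem hγ₀ γ.1.2⟩, by
          show (γ₀ * (γ.1 : SL(2, ℤ))) • z₀ = p
          rw [mul_smul, γ.2, hp]⟩
        left_inv := fun γ => by
          apply Subtype.ext
          apply Subtype.ext
          show γ₀ * (γ₀⁻¹ * (γ.1 : SL(2, ℤ))) = γ.1
          rw [mul_inv_cancel_left]
        right_inv := fun γ => by
          apply Subtype.ext
          apply Subtype.ext
          show γ₀⁻¹ * (γ₀ * (γ.1 : SL(2, ℤ))) = γ.1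
          rw [inv_mul_cancel_left] }
  · rw [if_neg h]
    haveI : IsEmpty {γ : ↥(Gamma0 N) // (γ : SL(2, ℤ)) • z₀ = p} :=
      ⟨fun γ => h ((ptPlaceC_eq_iff N z₀ p).2 ⟨γ.1, γ.1.2, γ.2⟩)⟩
    exact Nat.card_of_isEmpty

/-- the transporter is finite. -/
theorem finite_transporter (z₀ p : ℍ) :
    Finite {γ : ↥(Gamma0 N) // (γ : SL(2, ℤ)) • z₀ = p} := by
  classical
  by_cases h : ptPlaceC N 1 z₀ = ptPlaceC N 1 p
  · have h1 := card_transporter N z₀ p
    rw [if_pos h] at h1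
    have h2 : Nat.card {γ : ↥(Gamma0 N) // (γ : SL(2, ℤ)) • z₀ = p} ≠ 0 := by
      rw [h1]
      exact (Nat.mul_pos two_pos (ptIdx_pos N 1 z₀)).ne'
    exact Nat.finite_of_card_ne_zero h2
  · haveI : IsEmpty {γ : ↥(Gamma0 N) // (γ : SL(2, ℤ)) • z₀ = p} :=
      ⟨fun γ => h ((ptPlaceC_eq_iff N z₀ p).2 ⟨γ.1, γ.1.2, γ.2⟩)⟩
    infer_instance

/-- the same count in `SL(2, ℤ)`. -/
theorem card_transporter' (z₀ p : ℍ) [Decidable (ptPlaceC N 1 z₀ = ptPlaceC N 1 p)] :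
    Nat.card {γ : SL(2, ℤ) // γ ∈ Gamma0 N ∧ γ • z₀ = p} =
      if ptPlaceC N 1 z₀ = ptPlaceC N 1 p then 2 * ptIdx N 1 z₀ else 0 := by
  rw [← card_transporter N z₀ p]
  exact Nat.card_congr
    { toFun := fun γ => ⟨⟨γ.1, γ.2.1⟩, γ.2.2⟩
      invFun := fun γ => ⟨γ.1.1, γ.1.2, γ.2⟩
      left_inv := fun _ => rfl
      right_inv := fun _ => rfl }

/-- the explicit form of the stabiliser: every element of `Γ₀(N)` fixing `z₀` is `± ε ^ k` with
`k < ptIdx N 1 z₀`, for the generator `ε` of `exists_generator`. -/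
theorem exists_pow_of_fixed {z₀ : ℍ} {ε : SL(2, ℤ)} (hfix : ε • z₀ = z₀)
    (hprim : IsPrimitiveRoot (mult ε z₀) (ptIdx N 1 z₀)) {γ : SL(2, ℤ)} (hγ : γ ∈ Gamma0 N)
    (hγfix : γ • z₀ = z₀) : ∃ k < ptIdx N 1 z₀, γ = ε ^ k ∨ γ = -(ε ^ k) := by
  haveI : NeZero (ptIdx N 1 z₀) := ⟨(ptIdx_pos N 1 z₀).ne'⟩
  have hfixpow : ∀ k : ℕ, (ε ^ k) • z₀ = z₀ := by
    intro k
    induction k with
    | zero => simp
    | succ k ih => rw [pow_succ, mul_smul, hfix, ih]
  have hpow : mult γ z₀ ^ ptIdx N 1 z₀ = 1 := mult_pow_ptIdx N γ hγ z₀ hγfix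
  obtain ⟨k, hk, hζ⟩ := hprim.eq_pow_of_pow_eq_one hpow
  have hfixinv : (ε ^ k)⁻¹ • z₀ = z₀ := by
    rw [inv_smul_eq_iff, hfixpow]
  have hone : mult (γ * (ε ^ k)⁻¹) z₀ = 1 := by
    rw [mult_mul_of_fixed hfixinv, mult_inv_of_fixed (hfixpow k), mult_pow_of_fixed hfix, hζ]
    exact mul_inv_cancel₀ (mult_ne_zero γ z₀)
  have hfixprod : (γ * (ε ^ k)⁻¹) • z₀ = z₀ := by
    rw [mul_smul, hfixinv, hγfix]
  refine ⟨k, hk, ?_⟩
  rcases (mult_eq_one_iff hfixprod).1 hone with h | h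
  · left
    have := congrArg (· * ε ^ k) h
    simpa using this
  · right
    have := congrArg (· * ε ^ k) h
    simpa using this

end Fermat.Agent.M17.StabCount4
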