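/-
M17 (target S17), block [RL], point-to-cusp half, leaf (PC-A) (helper4): **the cusp family is adapted
to an automorphic function with divisor `cusp(δ) − pt(z₁)`.**

`adapted_pc` : if `q_h (δ • z₁) = q₂` and `F` has divisor `(cuspPlaceC N δ) − (ptPlaceC N 1 z₁)`,
then `(cuspFamily N δ q₂ hS).Adapted F`.

Imported by no statement.
-/
import Fermat.Agent.M17.CuspFam4
import Fermat.Agent.M17.AutDiv4
import Fermat.Agent.M17.StabCount4
import Fermat.Agent.M17.DegMoebius5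

set_option autoImplicit false
set_option linter.unusedSectionVars false

open UpperHalfPlane Filter Topology Set
open scoped Manifold MatrixGroups ContDiff Real
open CongruenceSubgroup

noncomputable section

namespace Fermat.Agent.M17.CuspAdapted4

open Fermat.Agent.X0 Fermat.Agent.X0.SurjPoint Fermat.Agent.ES.KUM Fermat.Agent.M15.DivLogMer1
  Fermat.Agent.M15.DivLogPrim1 Fermat.Agent.M15.DivDlog1 Fermat.Agent.M17.MerEval8
  Fermat.Agent.M17.LocalModel8 Fermat.Agent.M17.ModelFam8 Fermat.Agent.M17.CuspNbhd4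
  Fermat.Agent.M17.CuspModel4 Fermat.Agent.M17.CuspFam4 Fermat.Agent.M17.Interfaces7
  Fermat.Agent.ES.KUM.CCusp16 ModularCurve AlgebraicCurve Fermat.Agent.M17.DegMoebius5
  Fermat.Agent.M17.StabCount4 Fermat.Agent.M17.AutDiv4 Fermat.Agent.M17.Dict4
  Fermat.Agent.ES.KUM.EllMult14 Fermat.Agent.ES.KUM.EllStab14

local notation "ι" => algebraMap HolH MerH
local notation "T" => (ModularGroup.T : SL(2, ℤ))

variable {N : ℕ} [NeZero N] {δ : SL(2, ℤ)} {q₂ : ℂ}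

/-! ### the simple zero of `u - q₂` -/

theorem toC_uH_sub (γ : SL(2, ℤ)) :
    toC (uH N δ γ - algebraMap ℂ HolH q₂) = fun w : ℂ => qh (hw N δ) (mob (δ * γ) w) - q₂ := rfl

theorem hasDerivAt_qh_mob (h : ℝ) (c : ℂ) (g : SL(2, ℤ)) (z : ℍ) :
    HasDerivAt (fun w : ℂ => qh h (mob g w) - c)
      (2 * π * Complex.I / h * qh h ((g • z : ℍ) : ℂ) * (1 / denom g z ^ 2)) (z : ℂ) := by
  have h1 := hasDerivAt_mob g z
  have h2 : HasDerivAt (qh h)
      (2 * π * Complex.I / h * qh h ((g • z : ℍ) : ℂ)) (mob g (z : ℂ)) := by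
    rw [mob_coe]
    exact hasDerivAt_qh _
  exact (h2.comp (z : ℂ) h1).sub_const c

theorem deriv_qh_mob_ne_zero {h : ℝ} (hh : h ≠ 0) (c : ℂ) (g : SL(2, ℤ)) (z : ℍ) :
    deriv (fun w : ℂ => qh h (mob g w) - c) (z : ℂ) ≠ 0 := by
  rw [(hasDerivAt_qh_mob h c g z).deriv]
  have hpi := Real.pi_ne_zero
  refine mul_ne_zero (mul_ne_zero (div_ne_zero ?_ (by exact_mod_cast hh)) (qh_ne_zero _)) ?_
  · exact mul_ne_zero (mul_ne_zero two_ne_zero (by exact_mod_cast hpi)) Complex.I_ne_zero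
  · exact one_div_ne_zero (pow_ne_zero 2 (denom_ne_zero _ z))

theorem ordH_sub_eq_one {q : Q N δ} {z : ℍ} (h : (q.1 : ℍ → ℂ) z = q₂) :
    ordH ((q.1 - algebraMap ℂ HolH q₂ : HolH) : ℍ → ℂ) z = 1 := by
  obtain ⟨γ, rfl⟩ := q.exists_eq
  show analyticOrderAt (toC (uH N δ (γ : SL(2, ℤ)) - algebraMap ℂ HolH q₂)) (z : ℂ) = 1
  apply (analyticAt_toC _ z.im_pos).analyticOrderAt_eq_one_of_zero_deriv_ne_zero
  · rw [toC_apply]
    show ((uH N δ (γ : SL(2, ℤ)) : HolH) : ℍ → ℂ) z - q₂ = 0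
    rw [sub_eq_zero]
    exact h
  · rw [toC_uH_sub]
    exact deriv_qh_mob_ne_zero (hw_pos N δ).ne' q₂ _ z

/-- **the factor has a simple pole on the fibre `u = q₂`.** -/
theorem ordMer_Rq_of_eq (hS : Setup N δ q₂) {q : Q N δ} {z : ℍ} (h : (q.1 : ℍ → ℂ) z = q₂) :
    ordMer z (Rq N δ q₂ q) = -1 := by
  unfold Rq
  rw [ordMer_div_algebraMap z (ne_zero_of_apply_ne (q.apply_ne_zero z)) (sub_ne_zero' hS q),
    ordH_eq_zero_of_ne (q.apply_ne_zero z), ordH_sub_eq_one h]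
  rfl

theorem mem_Brel_of_eq {q : Q N δ} {z : ℍ} (h : (q.1 : ℍ → ℂ) z = q₂) : z ∈ Brel N δ q₂ q := by
  show sfun 0 q₂ ((q.1 : ℍ → ℂ) z) ≤ 16
  rw [h, sfun_zero_eq, sub_self, norm_zero]
  norm_num

/-- **the sum of the orders of the factors.** -/
theorem sum_ordMer_Rq (hS : Setup N δ q₂) (z : ℍ) (S : Finset (Q N δ))
    (hQ : (cuspFamily N δ q₂ hS).Qs z ⊆ S) :
    ∑ q ∈ S, ordMer z ((cuspFamily N δ q₂ hS).R q) =
      by classical exact if ∃ q : Q N δ, (q.1 : ℍ → ℂ) z = q₂ then -1 else 0 := by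
  classical
  split_ifs with hex
  · obtain ⟨q₀, hq₀⟩ := hex
    have hq₀Qs : q₀ ∈ (cuspFamily N δ q₂ hS).Qs z := (Family.mem_Qs _).2 (mem_Brel_of_eq hq₀)
    rw [Finset.sum_eq_single_of_mem q₀ (hQ hq₀Qs)]
    · exact ordMer_Rq_of_eq hS hq₀
    · intro q _ hne
      apply ordMer_Rq_of_ne
      intro hq
      have : q ∈ (cuspFamily N δ q₂ hS).Qs z := (Family.mem_Qs _).2 (mem_Brel_of_eq hq)
      rw [Qs_subset_singleton hS hq₀Qs, Finset.mem_singleton] at this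
      exact hne this
  · apply Finset.sum_eq_zero
    intro q _
    apply ordMer_Rq_of_ne
    intro hq
    exact hex ⟨q, hq⟩

/-! ### the fibre `u = q₂` is the orbit of `z₁` -/

theorem hw_eq : (hw N δ : ℝ) = (width N δ : ℝ) := rfl

/-- a point of the fibre lies in the `Γ₀(N)`-orbit of `z₁`. -/
theorem exists_smul_eq_of_apply_eq {z₁ : ℍ} (hz₁ : qh (hw N δ) ((δ • z₁ : ℍ) : ℂ) = q₂) {γ : ↥(Gamma0 N)}
    {z : ℍ} (h : ((uH N δ (γ : SL(2, ℤ)) : HolH) : ℍ → ℂ) z = q₂) :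
    ∃ γ' ∈ Gamma0 N, γ' • z₁ = z := by
  rw [uH_apply, ← hz₁, qh_eq_iff (hw_pos N δ).ne'] at h
  obtain ⟨m, hm⟩ := h
  obtain ⟨γ', hγ', hγ'z⟩ := exists_mem_Gamma0_of_dvd N δ m
  refine ⟨(γ : SL(2, ℤ))⁻¹ * γ', mul_mem (inv_mem γ.2) hγ', ?_⟩
  have h1 : δ • γ' • z₁ = (δ * (γ : SL(2, ℤ))) • z := by
    rw [hγ'z z₁]
    apply UpperHalfPlane.ext
    rw [UpperHalfPlane.coe_vadd, hm, hw_eq]
    push_cast
    ring
  have h2 : γ' • z₁ = (γ : SL(2, ℤ)) • z := by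
    have := congrArg (fun w => δ⁻¹ • w) h1
    simp only [inv_smul_smul, mul_smul] at this
    exact this
  rw [mul_smul, h2, inv_smul_smul]

theorem exists_apply_eq_iff {z₁ : ℍ} (hz₁ : qh (hw N δ) ((δ • z₁ : ℍ) : ℂ) = q₂) (z : ℍ) :
    (∃ q : Q N δ, (q.1 : ℍ → ℂ) z = q₂) ↔ ptPlaceC N 1 z₁ = ptPlaceC N 1 z := by
  rw [ptPlaceC_eq_iff]
  constructor
  · rintro ⟨q, hq⟩
    obtain ⟨γ, rfl⟩ := q.exists_eq
    exact exists_smul_eq_of_apply_eq hz₁ hq
  · rintro ⟨γ, hγ, rfl⟩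
    refine ⟨mkQ N δ ⟨γ⁻¹, inv_mem hγ⟩, ?_⟩
    show ((uH N δ (γ⁻¹ : SL(2, ℤ)) : HolH) : ℍ → ℂ) (γ • z₁) = q₂
    rw [uH_apply, mul_smul, inv_smul_smul]
    exact hz₁

/-! ### a point above height one is not elliptic -/

theorem eq_one_or_neg_one_of_fixed {σ : SL(2, ℤ)} {w : ℍ} (hw1 : 1 < w.im) (hfix : σ • w = w) :
    σ = 1 ∨ σ = -1 := by
  obtain ⟨k, hk⟩ := exists_T_zpow_of_one_lt_im (γ := σ) hw1 (by rw [hfix]; exact hw1)
  have hk0 : k = 0 := by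
    have h1 : σ • w = (k : ℝ) +ᵥ w := by
      rcases hk with hk | hk
      · rw [hk, T_zpow_smul]
      · rw [hk, neg_T_zpow_smul]
    rw [hfix] at h1
    have h2 := congrArg UpperHalfPlane.re h1
    rw [UpperHalfPlane.vadd_re] at h2
    have : (k : ℝ) = 0 := by linarith
    exact_mod_cast this
  subst hk0
  simpa using hk

theorem ptIdx_eq_one_of_one_lt_im {g : SL(2, ℤ)} {z : ℍ} (h : 1 < (g • z).im) :
    ptIdx N 1 z = 1 := by
  obtain ⟨ε, hε, hfix, hprim⟩ := exists_generator N z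
  have hσ : (g * ε * g⁻¹) • (g • z) = g • z := by
    rw [mul_smul, mul_smul, inv_smul_smul, hfix]
  have h1 : ε = 1 ∨ ε = -1 := by
    rcases eq_one_or_neg_one_of_fixed h hσ with h1 | h1
    · left
      have := congrArg (fun x => g⁻¹ * x * g) h1
      simpa [mul_assoc] using this
    · right
      have := congrArg (fun x => g⁻¹ * x * g) h1
      simpa [mul_assoc] using this
  have hm : mult ε z = 1 := (mult_eq_one_iff hfix).2 h1
  rw [hm] at hprim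
  exact hprim.unique IsPrimitiveRoot.one

/-! ### the family is adapted -/

/-- **(PC-A)** the cusp family is adapted to any automorphic function with divisor
`cusp(δ) − pt(z₁)`, `q_h(δ z₁) = q₂`. -/
theorem adapted_pc (hS : Setup N δ q₂) {z₁ : ℍ} (hz₁ : qh (hw N δ) ((δ • z₁ : ℍ) : ℂ) = q₂)
    {F : MerH}
    (hF : IsAutDiv N F
      (Finsupp.single (cuspPlaceC N δ) 1 - Finsupp.single (ptPlaceC N 1 z₁) 1)) :
    (cuspFamily N δ q₂ hS).Adapted F := by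
  classical
  obtain ⟨hF0, hpt, -⟩ := (isAutDiv_iff N F _).1 hF
  refine ⟨hF0, fun z S hQ => ?_⟩
  rw [sum_ordMer_Rq hS z S hQ, hpt z, Finsupp.sub_apply, Finsupp.single_apply, Finsupp.single_apply,
    if_neg (fun h => CSurj25.ptPlaceC_ne_cuspPlaceC N 1 δ z h.symm)]
  by_cases hex : ∃ q : Q N δ, (q.1 : ℍ → ℂ) z = q₂
  · rw [if_pos hex, if_pos ((exists_apply_eq_iff hz₁ z).1 hex)]
    obtain ⟨q, hq⟩ := hex
    obtain ⟨γ, rfl⟩ := q.exists_eq
    have h1 : 1 < ((δ * (γ : SL(2, ℤ))) • z).im := one_lt_im_of_mem_Brel hS (mem_Brel_of_eq hq)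
    rw [ptIdx_eq_one_of_one_lt_im h1]
    norm_num
  · rw [if_neg hex, if_neg (fun h => hex ((exists_apply_eq_iff hz₁ z).2 h))]
    norm_num

end Fermat.Agent.M17.CuspAdapted4
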