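/-
M17 (target S17), block (RL), point-to-cusp half, leaf (PC-A) (helper6): **Adapted for the cusp
family.**  Imported by no statement.

For an automorphic function `F` on `Γ₀(N)\ℍ*` with divisor `(cusp δ) - (pt z₁)` (`IsAutDiv`), where
`q₂ = q_h (δ z₁)` is the parameter of `z₁` in the `q_h`-disc at the cusp, the orders of `F` on `ℍ` are
those of the product `∏_u R(u)`, `R(u) = u / (u - q₂)`, `u = q_h ∘ (δ γ)`:
`CuspFam4.cuspFamily N δ q₂ hS` is `Adapted` to `F`.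

Route: `ordMer z (R u) = -[u z = q₂]` (`u - q₂` has a simple zero: `u' ≠ 0`), at most one `u` is
relevant at `z`, `∃ u, u z = q₂ ↔ pt z = pt z₁` (translations by the width come from `Γ₀(N)`), and
`ptIdx N 1 z = 1` on the orbit of `z₁` because `Im (δ z₁) > 1` (the stabiliser is `± 1`).
-/
import Mathlib
import Fermat.Agent.M17.CuspFam4
import Fermat.Agent.M17.StabCount4
import Fermat.Agent.M17.Interfaces7

set_option autoImplicit false
set_option linter.unusedSectionVars false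

open UpperHalfPlane Filter Topology Set
open scoped Manifold MatrixGroups ContDiff Real
open CongruenceSubgroup

noncomputable section

namespace Fermat.Agent.M17.CuspAdapted6

open Fermat.Agent.X0 Fermat.Agent.X0.SurjPoint Fermat.Agent.ES.KUM Fermat.Agent.M15.DivLogMer1
  Fermat.Agent.M15.DivLogPrim1 Fermat.Agent.M15.DivDlog1 Fermat.Agent.M17.MerEval8
  Fermat.Agent.M17.LocalModel8 Fermat.Agent.M17.ModelFam8 Fermat.Agent.M17.CuspNbhd4
  Fermat.Agent.M17.CuspModel4 Fermat.Agent.M17.CuspFam4 Fermat.Agent.M17.Interfaces7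
  Fermat.Agent.M17.StabCount4 Fermat.Agent.ES.KUM.CCusp16

local notation "ι" => algebraMap HolH MerH
local notation "T" => (ModularGroup.T : SL(2, ℤ))

variable {N : ℕ} [NeZero N] {δ : SL(2, ℤ)}

/-! ### the simple zero of `q_h - c` -/

/-- `q_h - c` has a simple zero at a point where `q_h = c`. -/
theorem ordH_qH_sub {τ : ℍ} {c : ℂ} (h : qh (hw N δ) (τ : ℂ) = c) :
    ordH ((qH N δ - algebraMap ℂ HolH c : HolH) : ℍ → ℂ) τ = 1 := by
  show analyticOrderAt (toC (qH N δ - algebraMap ℂ HolH c)) (τ : ℂ) = 1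
  have hev : toC (qH N δ - algebraMap ℂ HolH c) =ᶠ[𝓝 (τ : ℂ)] fun w => qh (hw N δ) w - c := by
    filter_upwards [isOpen_upperHalfPlaneSet.mem_nhds τ.im_pos] with w hw
    rw [toC_apply_of_im_pos _ hw]
    rfl
  rw [analyticOrderAt_congr hev]
  have hd : HasDerivAt (fun w => qh (hw N δ) w - c)
      (2 * π * Complex.I / hw N δ * qh (hw N δ) (τ : ℂ)) (τ : ℂ) :=
    (hasDerivAt_qh (τ : ℂ)).sub_const c
  apply AnalyticAt.analyticOrderAt_eq_one_of_zero_deriv_ne_zero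
  · exact (differentiable_qh.sub_const c).analyticAt (τ : ℂ)
  · rw [h, sub_self]
  · rw [hd.deriv]
    have hh : (hw N δ : ℂ) ≠ 0 := by exact_mod_cast (hw_pos N δ).ne'
    have hpi : (π : ℂ) ≠ 0 := by exact_mod_cast Real.pi_ne_zero
    exact mul_ne_zero (div_ne_zero (mul_ne_zero (mul_ne_zero two_ne_zero hpi) Complex.I_ne_zero) hh)
      (qh_ne_zero _)

variable {q₂ : ℂ}

/-- `u - q₂ = (q_h - q₂) ∘ (δ γ)`. -/
theorem uH_sub_eq (γ : SL(2, ℤ)) :
    uH N δ γ - algebraMap ℂ HolH q₂ = compSLHom (δ * γ) (qH N δ - algebraMap ℂ HolH q₂) := by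
  unfold uH
  rw [map_sub]
  congr 1

/-- **the order of `R(u)` at a point where `u = q₂` is `-1`.** -/
theorem ordMer_Rq_of_eq (hS : Setup N δ q₂) {q : Q N δ} {z : ℍ} (h : (q.1 : ℍ → ℂ) z = q₂) :
    ordMer z (Rq N δ q₂ q) = -1 := by
  have hne := sub_ne_zero' hS q
  obtain ⟨γ, rfl⟩ := q.exists_eq
  unfold Rq
  rw [ordMer_div z (iota_ne_zero (ne_zero_of_apply_ne ((mkQ N δ γ).apply_ne_zero z)))
    (iota_ne_zero hne)]
  have h1 : ordMer z (ι (mkQ N δ γ).1) = 0 := by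
    rw [ordMer_algebraMap z (ne_zero_of_apply_ne ((mkQ N δ γ).apply_ne_zero z)),
      ordH_eq_zero_of_ne ((mkQ N δ γ).apply_ne_zero z)]
    rfl
  have h2 : ordMer z (ι ((mkQ N δ γ).1 - algebraMap ℂ HolH q₂)) = 1 := by
    show ordMer z (ι (uH N δ (γ : SL(2, ℤ)) - algebraMap ℂ HolH q₂)) = 1
    have hne' : qH N δ - algebraMap ℂ HolH q₂ ≠ 0 := by
      intro h0
      apply hne
      show uH N δ (γ : SL(2, ℤ)) - algebraMap ℂ HolH q₂ = 0
      rw [uH_sub_eq, h0, map_zero]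
    rw [uH_sub_eq, ← slMer_algebraMap, ordMer_slMer, ordMer_algebraMap _ hne', ordH_qH_sub]
    · rfl
    · exact h
  rw [h1, h2]
  norm_num

/-! ### which points carry the pole -/

/-- `u z = q_h (δ z₁)` for some parameter `u` iff `z` is `Γ₀(N)`-equivalent to `z₁`. -/
theorem exists_apply_eq_iff (z z₁ : ℍ) :
    (∃ q : Q N δ, (q.1 : ℍ → ℂ) z = qh (hw N δ) ((δ • z₁ : ℍ) : ℂ)) ↔
      ptPlaceC N 1 z = ptPlaceC N 1 z₁ := by
  rw [Fermat.Agent.M17.Dict4.ptPlaceC_eq_iff]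
  have hh : hw N δ ≠ 0 := (hw_pos N δ).ne'
  constructor
  · rintro ⟨q, hq⟩
    obtain ⟨γ, rfl⟩ := q.exists_eq
    change ((uH N δ (γ : SL(2, ℤ)) : HolH) : ℍ → ℂ) z = _ at hq
    rw [uH_apply, qh_eq_iff hh] at hq
    obtain ⟨n, hn⟩ := hq
    obtain ⟨γ', hγ', hγ'z⟩ := exists_mem_Gamma0_of_dvd N δ n
    have e1 : δ • γ' • z₁ = δ • (γ : SL(2, ℤ)) • z := by
      rw [hγ'z z₁, ← mul_smul]
      apply UpperHalfPlane.ext
      rw [UpperHalfPlane.coe_vadd, hn]
      unfold hw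
      push_cast
      ring
    have e2 : γ' • z₁ = (γ : SL(2, ℤ)) • z := by
      have := congrArg (fun w => δ⁻¹ • w) e1
      simpa only [inv_smul_smul] using this
    refine ⟨γ'⁻¹ * (γ : SL(2, ℤ)), mul_mem (inv_mem hγ') γ.2, ?_⟩
    rw [mul_smul, ← e2, inv_smul_smul]
  · rintro ⟨γ₀, hγ₀, rfl⟩
    refine ⟨mkQ N δ ⟨γ₀, hγ₀⟩, ?_⟩
    show ((uH N δ γ₀ : HolH) : ℍ → ℂ) z = _
    rw [uH_apply, mul_smul]

/-! ### the index on the orbit of a high point -/

/-- an element of `Γ₀(N)` fixing a point which is high in the coordinate `δ` is `± 1`. -/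
theorem eq_one_or_neg_one_of_fixed {γ : SL(2, ℤ)} (hγ : γ ∈ Gamma0 N) {z : ℍ}
    (h1 : 1 < (δ • z).im) (hfix : γ • z = z) : γ = 1 ∨ γ = -1 := by
  have h2 : 1 < (δ • γ • z).im := by rw [hfix]; exact h1
  obtain ⟨m, hm⟩ := exists_conj_eq_of_one_lt_im N hγ δ h1 h2
  -- the translation fixes `δ z`
  have hfix' : (δ * γ * δ⁻¹) • (δ • z) = δ • z := by
    rw [mul_smul, mul_smul, inv_smul_smul, hfix]
  have hzero : ((width N δ : ℤ) * m : ℤ) = 0 := by
    have h3 : ((((width N δ : ℤ) * m : ℤ)) : ℝ) +ᵥ (δ • z) = δ • z := by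
      rcases hm with hm | hm
      · rw [← T_zpow_smul, ← hm, hfix']
      · rw [← neg_T_zpow_smul, ← hm, hfix']
    have h4 := congrArg UpperHalfPlane.re h3
    rw [UpperHalfPlane.vadd_re] at h4
    have h5 : ((((width N δ : ℤ) * m : ℤ)) : ℝ) = 0 := by linarith
    exact_mod_cast h5
  rw [hzero, zpow_zero] at hm
  rcases hm with hm | hm
  · left
    have : γ = δ⁻¹ * (δ * γ * δ⁻¹) * δ := by group
    rw [this, hm]
    group
  · right
    have : γ = δ⁻¹ * (δ * γ * δ⁻¹) * δ := by group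
    rw [this, hm]
    simp

/-- **the index is `1` on the orbit of a point which is high in the coordinate `δ`.** -/
theorem ptIdx_eq_one_of_one_lt_im {z : ℍ} (h1 : 1 < (δ • z).im) : ptIdx N 1 z = 1 := by
  obtain ⟨ε, hε, hfix, hprim⟩ := exists_generator N z
  rcases eq_one_or_neg_one_of_fixed hε h1 hfix with rfl | rfl
  · rw [EllStab14.mult_one] at hprim
    exact hprim.unique IsPrimitiveRoot.one
  · rw [EllStab14.mult_neg, EllStab14.mult_one] at hprim
    exact hprim.unique IsPrimitiveRoot.one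

theorem ptIdx_eq_one_of_ptPlaceC_eq {z z₁ : ℍ} (h1 : 1 < (δ • z₁).im)
    (h : ptPlaceC N 1 z = ptPlaceC N 1 z₁) : ptIdx N 1 z = 1 := by
  obtain ⟨γ₀, hγ₀, rfl⟩ := (Fermat.Agent.M17.Dict4.ptPlaceC_eq_iff N z z₁).1 h
  have h1' : 1 < ((δ * γ₀) • z).im := by rwa [mul_smul]
  obtain ⟨ε, hε, hfix, hprim⟩ := exists_generator N z
  have hmem : γ₀ * ε * γ₀⁻¹ ∈ Gamma0 N := mul_mem (mul_mem hγ₀ hε) (inv_mem hγ₀)
  have hfix' : (γ₀ * ε * γ₀⁻¹) • (γ₀ • z) = γ₀ • z := by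
    rw [mul_smul, mul_smul, inv_smul_smul, hfix]
  have hε' : ε = 1 ∨ ε = -1 := by
    rcases eq_one_or_neg_one_of_fixed hmem h1 hfix' with h | h
    · left
      have : ε = γ₀⁻¹ * (γ₀ * ε * γ₀⁻¹) * γ₀ := by group
      rw [this, h]
      group
    · right
      have : ε = γ₀⁻¹ * (γ₀ * ε * γ₀⁻¹) * γ₀ := by group
      rw [this, h]
      simp
  rcases hε' with rfl | rfl
  · rw [EllStab14.mult_one] at hprim
    exact hprim.unique IsPrimitiveRoot.one
  · rw [EllStab14.mult_neg, EllStab14.mult_one] at hprim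
    exact hprim.unique IsPrimitiveRoot.one

/-! ### Adapted -/

/-- the point `z₁` is high in the coordinate `δ`. -/
theorem one_lt_im_of_setup (hS : Setup N δ q₂) {z₁ : ℍ}
    (hq : q₂ = qh (hw N δ) ((δ • z₁ : ℍ) : ℂ)) : 1 < (δ • z₁).im := by
  have h : z₁ ∈ Brel N δ q₂ (mkQ N δ (1 : ↥(Gamma0 N))) := by
    show sfun 0 q₂ (((uH N δ ((1 : ↥(Gamma0 N)) : SL(2, ℤ)) : HolH) : ℍ → ℂ) z₁) ≤ 16
    rw [uH_apply, Subgroup.coe_one, mul_one, ← hq, sfun_zero_eq, sub_self, norm_zero,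
      zero_pow two_ne_zero, zero_div]
    norm_num
  have := one_lt_im_of_mem_Brel hS h
  rwa [Subgroup.coe_one, mul_one] at this

/-- **(Adapted, pc)**: an automorphic function with divisor `(cusp δ) - (pt z₁)` has the orders of
the cusp family with `q₂ = q_h (δ z₁)`. -/
theorem adapted_cusp (hS : Setup N δ q₂) {z₁ : ℍ} (hq : q₂ = qh (hw N δ) ((δ • z₁ : ℍ) : ℂ))
    {F : MerH}
    (hF : IsAutDiv N F
      (Finsupp.single (cuspPlaceC N δ) 1 - Finsupp.single (ptPlaceC N 1 z₁) 1)) :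
    (cuspFamily N δ q₂ hS).Adapted F := by
  classical
  have him := one_lt_im_of_setup hS hq
  have hzero : ∀ q : ℂ, q = q₂ → sfun 0 q₂ q ≤ 16 := by
    rintro q rfl
    rw [sfun_zero_eq, sub_self, norm_zero, zero_pow two_ne_zero, zero_div]
    norm_num
  refine ⟨hF.1, fun z S hQ => ?_⟩
  rw [hF.2.1 z, Finsupp.sub_apply, Finsupp.single_apply, Finsupp.single_apply,
    if_neg (fun h => CSurj25.ptPlaceC_ne_cuspPlaceC N 1 δ z h.symm)]
  by_cases hz : ptPlaceC N 1 z = ptPlaceC N 1 z₁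
  · rw [if_pos hz.symm, ptIdx_eq_one_of_ptPlaceC_eq him hz]
    obtain ⟨q₀, hq₀⟩ := (exists_apply_eq_iff z z₁).2 hz
    rw [← hq] at hq₀
    have hq₀Q : q₀ ∈ (cuspFamily N δ q₂ hS).Qs z := by
      rw [mem_cuspFamily_Qs]
      exact hzero _ hq₀
    have hq₀S : q₀ ∈ S := hQ hq₀Q
    rw [Finset.sum_eq_single_of_mem q₀ hq₀S]
    · rw [cuspFamily_R, ordMer_Rq_of_eq hS hq₀]
      norm_num
    · intro q _ hne
      rw [cuspFamily_R]
      apply ordMer_Rq_of_ne
      intro hq'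
      apply hne
      have hqQ : q ∈ (cuspFamily N δ q₂ hS).Qs z := by
        rw [mem_cuspFamily_Qs]
        exact hzero _ hq'
      have := Qs_subset_singleton hS hq₀Q
      rw [this, Finset.mem_singleton] at hqQ
      exact hqQ
  · rw [if_neg (fun h => hz h.symm)]
    rw [Finset.sum_eq_zero]
    · simp
    · intro q _
      rw [cuspFamily_R]
      apply ordMer_Rq_of_ne
      intro hq'
      rw [hq] at hq'
      exact hz ((exists_apply_eq_iff z z₁).1 ⟨q, hq'⟩)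

/-- the same, in the coordinate `τ₁ = δ z₁` (helper7's literal shape, board 1231 (PC-A)). -/
theorem adapted_pc (hS : Setup N δ q₂) (τ₁ : ℍ) (hq : q₂ = qh (hw N δ) (τ₁ : ℂ)) {F : MerH}
    (hF : IsAutDiv N F
      (Finsupp.single (cuspPlaceC N δ) 1 - Finsupp.single (ptPlaceC N 1 (δ⁻¹ • τ₁)) 1)) :
    (cuspFamily N δ q₂ hS).Adapted F :=
  adapted_cusp hS (z₁ := δ⁻¹ • τ₁) (by rw [smul_inv_smul]; exact hq) hF

end Fermat.Agent.M17.CuspAdapted6
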