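/-
Programme M17 (S17), helper3: (CUSPLIM) for helper8's (RL) core - a function `b` which is
holomorphic near the cusp of the tile of `g` and whose exponential has a nonzero limit there has a
limit itself, and its derivative is small near the cusp.
-/
import Mathlib
import Fermat.Agent.M17.TopArcGen3

set_option autoImplicit false

open UpperHalfPlane hiding I
open Complex Filter Set Metric
open scoped MatrixGroups Topology

namespace Fermat.Agent.M17.CuspLim3

open Fermat.Agent.M17.DR3 Fermat.Agent.M17.TopArcGen3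

/-- the half plane `{Y < im}` as a subset of `ℂ`. -/
def above (Y : ℝ) : Set ℂ := {w : ℂ | Y < w.im}

theorem isOpen_above (Y : ℝ) : IsOpen (above Y) := isOpen_lt continuous_const continuous_im

theorem convex_above (Y : ℝ) : Convex ℝ (above Y) := by
  have : above Y = (Complex.imCLM : ℂ →L[ℝ] ℝ) ⁻¹' (Ioi Y) := rfl
  rw [this]
  exact (convex_Ioi Y).linear_preimage (Complex.imCLM : ℂ →L[ℝ] ℝ).toLinearMap

theorem closedBall_subset_above {Y : ℝ} {w : ℂ} (hw : Y + 1 < w.im) :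
    closedBall w 1 ⊆ above Y := by
  intro z hz
  have h1 : ‖z - w‖ ≤ 1 := by simpa [dist_eq_norm] using hz
  have h2 : |(z - w).im| ≤ ‖z - w‖ := Complex.abs_im_le_norm _
  have h3 : -(1 : ℝ) ≤ (z - w).im := by
    have := neg_abs_le (z - w).im
    linarith
  rw [Complex.sub_im] at h3
  show Y < z.im
  linarith

/-- **log-limit**: `exp ∘ B → l ≠ 0` along `im → ∞` with `B` holomorphic on a half plane forces
`B → c`. -/
theorem exists_tendsto_of_exp_tendsto {B : ℂ → ℂ} {Y₀ : ℝ}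
    (hhol : DifferentiableOn ℂ B (above Y₀)) {l : ℂ} (hl : l ≠ 0)
    (hlim : Tendsto (fun τ : ℍ => Complex.exp (B τ)) atImInfty (𝓝 l)) :
    ∃ c : ℂ, Tendsto (fun τ : ℍ => B τ) atImInfty (𝓝 c) := by
  have hlpos : 0 < ‖l‖ / 2 := by
    have : 0 < ‖l‖ := norm_pos_iff.mpr hl
    positivity
  have h1 : ∀ᶠ τ : ℍ in atImInfty, ‖Complex.exp (B τ) - l‖ < ‖l‖ / 2 := by
    have := hlim (Metric.ball_mem_nhds l hlpos)
    filter_upwards [this] with τ hτ
    simpa [dist_eq_norm] using hτ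
  obtain ⟨Y₁', hY₁'⟩ := (atImInfty_mem _).mp h1
  set Y₁ : ℝ := max Y₁' (max Y₀ 0) with hY₁def
  have hY₁a : Y₁' ≤ Y₁ := le_max_left _ _
  have hY₁b : Y₀ ≤ Y₁ := (le_max_left _ _).trans (le_max_right _ _)
  have hY₁c : 0 ≤ Y₁ := (le_max_right _ _).trans (le_max_right _ _)
  -- on `V`, `exp B / l` is in the slit plane
  have hV : ∀ w ∈ above Y₁, ‖Complex.exp (B w) / l - 1‖ < 1 / 2 := by
    intro w hw
    have hwpos : 0 < w.im := lt_of_le_of_lt hY₁c hw
    have h2 := hY₁' ⟨w, hwpos⟩ (hY₁a.trans (le_of_lt hw))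
    simp only [mem_setOf_eq] at h2
    have h3 : Complex.exp (B w) / l - 1 = (Complex.exp (B w) - l) / l := by
      field_simp
    rw [h3, norm_div]
    rw [div_lt_iff₀ (norm_pos_iff.mpr hl)]
    linarith
  have hslit : ∀ w ∈ above Y₁, Complex.exp (B w) / l ∈ slitPlane := by
    intro w hw
    have h2 := hV w hw
    have h3 : Complex.exp (B w) / l = 1 + (Complex.exp (B w) / l - 1) := by ring
    rw [h3]
    exact Complex.mem_slitPlane_of_norm_lt_one (lt_trans h2 (by norm_num))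
  have hBd : DifferentiableOn ℂ B (above Y₁) := hhol.mono (fun w hw => lt_of_le_of_lt hY₁b hw)
  have hBat : ∀ w ∈ above Y₁, DifferentiableAt ℂ B w := fun w hw =>
    hBd.differentiableAt ((isOpen_above Y₁).mem_nhds hw)
  -- the logarithm of `exp B / l`
  have hLd : ∀ w ∈ above Y₁,
      HasDerivAt (fun w => Complex.log (Complex.exp (B w) / l)) (deriv B w) w := by
    intro w hw
    have hB' := (hBat w hw).hasDerivAt
    have h2 : HasDerivAt (fun w => Complex.exp (B w) / l) (Complex.exp (B w) * deriv B w / l) w :=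
      (hB'.cexp).div_const l
    have h3 := h2.clog (hslit w hw)
    have hne : Complex.exp (B w) ≠ 0 := Complex.exp_ne_zero _
    convert h3 using 1
    field_simp
  obtain ⟨a, ha⟩ := (isOpen_above Y₁).exists_eq_add_of_deriv_eq (convex_above Y₁).isPreconnected hBd
    (fun w hw => (hLd w hw).differentiableAt.differentiableWithinAt)
    (fun w hw => ((hLd w hw).deriv).symm)
  refine ⟨a, ?_⟩
  -- `exp B / l → 1`, hence `log → 0`
  have h4 : Tendsto (fun τ : ℍ => Complex.exp (B τ) / l) atImInfty (𝓝 1) := by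
    have := hlim.div_const l
    rwa [div_self hl] at this
  have h5 : Tendsto (fun τ : ℍ => Complex.log (Complex.exp (B τ) / l)) atImInfty (𝓝 0) := by
    have hc : ContinuousAt Complex.log 1 := continuousAt_clog Complex.one_mem_slitPlane
    have := hc.tendsto.comp h4
    rwa [Complex.log_one] at this
  have h6 : Tendsto (fun τ : ℍ => Complex.log (Complex.exp (B τ) / l) + a) atImInfty (𝓝 (0 + a)) :=
    h5.add_const a
  rw [zero_add] at h6
  refine h6.congr' ?_
  have h7 : ∀ᶠ τ : ℍ in atImInfty, Y₁ + 1 ≤ τ.im :=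
    (atImInfty_mem _).mpr ⟨Y₁ + 1, fun z hz => hz⟩
  filter_upwards [h7] with τ hτ
  have hmem : (τ : ℂ) ∈ above Y₁ := by
    show Y₁ < (τ : ℂ).im
    have : (τ : ℂ).im = τ.im := rfl
    rw [this]
    linarith
  exact (ha hmem).symm

/-- **Cauchy estimate at the cusp**: a holomorphic function on a half plane with a limit along
`im → ∞` has small derivative there. -/
theorem deriv_small_of_tendsto {B : ℂ → ℂ} {Y₀ : ℝ}
    (hhol : DifferentiableOn ℂ B (above Y₀)) {c : ℂ}
    (hlim : Tendsto (fun τ : ℍ => B τ) atImInfty (𝓝 c)) :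
    ∀ ε : ℝ, 0 < ε → ∃ Y : ℝ, ∀ w : ℂ, 0 < w.im → Y ≤ w.im → ‖deriv B w‖ ≤ ε := by
  intro ε hε
  have h1 : ∀ᶠ τ : ℍ in atImInfty, ‖B τ - c‖ < ε := by
    have := hlim (Metric.ball_mem_nhds c hε)
    filter_upwards [this] with τ hτ
    simpa [dist_eq_norm] using hτ
  obtain ⟨Y₁', hY₁'⟩ := (atImInfty_mem _).mp h1
  set Y₁ : ℝ := max Y₁' (max Y₀ 0) with hY₁def
  have hY₁a : Y₁' ≤ Y₁ := le_max_left _ _
  have hY₁b : Y₀ ≤ Y₁ := (le_max_left _ _).trans (le_max_right _ _)
  have hY₁c : 0 ≤ Y₁ := (le_max_right _ _).trans (le_max_right _ _)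
  refine ⟨Y₁ + 2, fun w _ hw => ?_⟩
  have hsub : closedBall w 1 ⊆ above Y₁ := closedBall_subset_above (by linarith)
  have hBd : DifferentiableOn ℂ (fun z => B z - c) (above Y₁) :=
    (hhol.mono (fun w hw => lt_of_le_of_lt hY₁b hw)).sub_const c
  have hd : DiffContOnCl ℂ (fun z => B z - c) (ball w 1) := hBd.diffContOnCl_ball hsub
  have hC : ∀ z ∈ sphere w 1, ‖(fun z => B z - c) z‖ ≤ ε := by
    intro z hz
    have hz' : z ∈ above Y₁ := hsub (sphere_subset_closedBall hz)
    have hzpos : 0 < z.im := lt_of_le_of_lt hY₁c hz'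
    have h2 := hY₁' ⟨z, hzpos⟩ (hY₁a.trans (le_of_lt hz'))
    simp only [mem_setOf_eq] at h2
    exact le_of_lt h2
  have h3 := Complex.norm_deriv_le_of_forall_mem_sphere_norm_le one_pos hd hC
  rw [div_one] at h3
  have h4 : deriv (fun z => B z - c) w = deriv B w := deriv_sub_const c
  rwa [h4] at h3

/-- **(CUSPLIM)**, helper8's literal statement (board 1173). -/
theorem smallDeriv_of_exp_tendsto {b : ℍ → ℂ} {g : SL(2, ℤ)} {Y₀ : ℝ}
    (hhol : DifferentiableOn ℂ (al b g) {w : ℂ | Y₀ < w.im}) {l : ℂ} (hl : l ≠ 0)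
    (hlim : Tendsto (fun τ : ℍ => Complex.exp (b (g⁻¹ • τ))) atImInfty (𝓝 l)) :
    SmallDerivAtCusp b g ∧ ∃ c : ℂ, Tendsto (fun τ : ℍ => b (g⁻¹ • τ)) atImInfty (𝓝 c) := by
  have hB : ∀ τ : ℍ, al b g (τ : ℂ) = b (g⁻¹ • τ) := fun τ => by
    unfold al
    rw [ofComplex_apply]
  have hlim' : Tendsto (fun τ : ℍ => Complex.exp (al b g τ)) atImInfty (𝓝 l) := by
    simpa only [hB] using hlim
  obtain ⟨c, hc⟩ := exists_tendsto_of_exp_tendsto (B := al b g) (Y₀ := Y₀) hhol hl hlim'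
  refine ⟨?_, c, by simpa only [hB] using hc⟩
  refine smallDerivAtCusp_of_hasDerivAt (B' := deriv (al b g)) (Y₀ := Y₀ + 1) ?_
    (deriv_small_of_tendsto (Y₀ := Y₀) hhol hc)
  intro w _ hw
  have hmem : w ∈ above Y₀ := by
    show Y₀ < w.im
    linarith
  exact (hhol.differentiableAt ((isOpen_above Y₀).mem_nhds hmem)).hasDerivAt

end Fermat.Agent.M17.CuspLim3
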