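/-
M17 (target S17), block [RL], point-to-cusp half (helper4): **the local factor at a cusp, in the
`q`-disc.**  `f` is `h`-periodic and holomorphic above height `Y₀`, with a simple pole at the cusp
(`f · q → ℓ ≠ 0`) and, above height `Y`, simple zeros exactly on `τ₁ + hℤ`.  Then

* `Ahat h f = cuspFunction h (f · q)` is holomorphic on the disc, `Ahat 0 = ℓ`, with the only zero
  `q₁ = q(τ₁)`, simple;
* `Psi = dslope Ahat q₁` is holomorphic and nonvanishing on the disc;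
* `Phi w = Psi (q w) · exp (- ellc h q₁ w)` is smooth, `h`-periodic, nonvanishing above height `Y`,
  equal to `f` below the band of `ellc`, to `Psi ∘ q` above it (so `Phi → Psi 0 ≠ 0` at the cusp),
  and `2∂̄ Phi = - Phi · 2∂̄ ellc`.

Mathlib + `CuspModel4` only.  Imported by no statement.
-/
import Mathlib
import Fermat.Agent.M17.CuspModel4

set_option autoImplicit false
set_option linter.unusedSectionVars false

open Complex Filter Topology Set
open scoped Real ContDiff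

noncomputable section

namespace Fermat.Agent.M17.CuspPhi4

open Function.Periodic (qParam invQParam cuspFunction)
open Fermat.Agent.M17.CuspModel4 Fermat.Agent.M17.LocalModel8 Fermat.Agent.M17.CauchyPompeiu5

local notation "I∞" => comap Complex.im atTop

theorem qh_eq_qParam (h : ℝ) : qh h = qParam h := rfl

/-- `f · q`. -/
def mulQ (h : ℝ) (f : ℂ → ℂ) (w : ℂ) : ℂ := f w * qh h w

/-- the cusp function of `f · q`. -/
def Ahat (h : ℝ) (f : ℂ → ℂ) : ℂ → ℂ := cuspFunction h (mulQ h f)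

/-- `f` has a simple pole at the cusp. -/
structure PoleHyp (h : ℝ) (f : ℂ → ℂ) (Y₀ : ℝ) (ℓ : ℂ) : Prop where
  hh : 0 < h
  per : Function.Periodic f h
  hol : ∀ w : ℂ, Y₀ < w.im → DifferentiableAt ℂ f w
  lim : Tendsto (mulQ h f) I∞ (𝓝 ℓ)
  hℓ : ℓ ≠ 0

variable {h : ℝ} {f : ℂ → ℂ} {Y₀ Y : ℝ} {ℓ : ℂ}

namespace PoleHyp

variable (H : PoleHyp h f Y₀ ℓ)
include H

theorem periodic_mulQ : Function.Periodic (mulQ h f) h := by
  intro w
  unfold mulQ
  rw [H.per w, qh_add H.hh.ne']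

theorem differentiableAt_mulQ {w : ℂ} (hw : Y₀ < w.im) : DifferentiableAt ℂ (mulQ h f) w :=
  (H.hol w hw).mul differentiable_qh.differentiableAt

theorem eventually_differentiableAt_mulQ : ∀ᶠ w in I∞, DifferentiableAt ℂ (mulQ h f) w := by
  have : ∀ᶠ w in I∞, Y₀ < w.im := tendsto_comap.eventually (eventually_gt_atTop Y₀)
  filter_upwards [this] with w hw using H.differentiableAt_mulQ hw

theorem bounded_mulQ : BoundedAtFilter I∞ (mulQ h f) := by
  unfold Filter.BoundedAtFilter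
  exact H.lim.isBigO_one ℝ

theorem Ahat_zero : Ahat h f 0 = ℓ := by
  have h1 := Function.Periodic.tendsto_at_I_inf H.hh H.periodic_mulQ
    H.eventually_differentiableAt_mulQ H.bounded_mulQ
  haveI : (I∞).NeBot := by
    refine comap_neBot fun s hs => ?_
    obtain ⟨x, hx⟩ := (atTop_neBot (α := ℝ)).nonempty_of_mem hs
    exact ⟨⟨0, x⟩, hx⟩
  exact tendsto_nhds_unique h1 H.lim

theorem Ahat_qh (w : ℂ) : Ahat h f (qh h w) = f w * qh h w :=
  Function.Periodic.eq_cuspFunction H.hh.ne' H.periodic_mulQ w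

/-- a point of the punctured disc is `q(w)` with `w` high. -/
theorem exists_eq_qh {q : ℂ} (hq0 : q ≠ 0) {Y' : ℝ} (hq : ‖q‖ < Real.exp (-(2 * π * Y' / h))) :
    ∃ w : ℂ, Y' < w.im ∧ qh h w = q := by
  refine ⟨invQParam h q, ?_, Function.Periodic.qParam_right_inv H.hh.ne' hq0⟩
  have h1 := (Function.Periodic.norm_qParam_lt_iff H.hh Y' (invQParam h q)).1
  rw [Function.Periodic.qParam_right_inv H.hh.ne' hq0] at h1
  apply h1
  convert hq using 2
  ring

theorem differentiableAt_Ahat {q : ℂ} (hq : ‖q‖ < Real.exp (-(2 * π * Y₀ / h))) :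
    DifferentiableAt ℂ (Ahat h f) q := by
  rcases eq_or_ne q 0 with rfl | hq0
  · exact Function.Periodic.differentiableAt_cuspFunction_zero H.hh H.periodic_mulQ
      H.eventually_differentiableAt_mulQ H.bounded_mulQ
  · obtain ⟨w, hw, rfl⟩ := H.exists_eq_qh hq0 hq
    exact Function.Periodic.differentiableAt_cuspFunction H.hh.ne' H.periodic_mulQ
      (H.differentiableAt_mulQ hw)

end PoleHyp

/-- above height `Y`, `f` has simple zeros exactly on `τ₁ + hℤ`. -/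
structure ZeroHyp (h : ℝ) (f : ℂ → ℂ) (Y : ℝ) (τ₁ : ℂ) : Prop where
  hτ₁ : Y < τ₁.im
  zero_iff : ∀ w : ℂ, Y < w.im → (f w = 0 ↔ ∃ n : ℤ, w = τ₁ + n * h)
  simple : deriv f τ₁ ≠ 0

variable {τ₁ : ℂ}

section Zero

variable (H : PoleHyp h f Y₀ ℓ) (Z : ZeroHyp h f Y τ₁) (hY : Y₀ ≤ Y)
include H Z hY

theorem Ahat_eq_zero_iff {q : ℂ} (hq : ‖q‖ < Real.exp (-(2 * π * Y / h))) :
    Ahat h f q = 0 ↔ q = qh h τ₁ := by
  rcases eq_or_ne q 0 with rfl | hq0
  · rw [H.Ahat_zero]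
    constructor
    · intro h0
      exact absurd h0 H.hℓ
    · intro h0
      exact absurd h0.symm (qh_ne_zero τ₁)
  · obtain ⟨w, hw, rfl⟩ := H.exists_eq_qh hq0 hq
    rw [H.Ahat_qh, mul_eq_zero, or_iff_left (qh_ne_zero w), Z.zero_iff w hw, qh_eq_iff H.hh.ne']

theorem Ahat_q₁ : Ahat h f (qh h τ₁) = 0 := by
  rw [H.Ahat_qh, (Z.zero_iff τ₁ Z.hτ₁).2 ⟨0, by simp⟩, zero_mul]

theorem norm_q₁_lt : ‖qh h τ₁‖ < Real.exp (-(2 * π * Y / h)) := by
  rw [norm_qh]
  apply Real.exp_lt_exp.2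
  have := Z.hτ₁
  have hh := H.hh
  rw [neg_lt_neg_iff]
  apply div_lt_div_of_pos_right _ hh
  nlinarith [Real.pi_pos]

theorem exp_le_exp_of_le : Real.exp (-(2 * π * Y / h)) ≤ Real.exp (-(2 * π * Y₀ / h)) := by
  apply Real.exp_le_exp.2
  have hh := H.hh
  rw [neg_le_neg_iff]
  apply div_le_div_of_nonneg_right _ hh.le
  nlinarith [Real.pi_pos]

theorem deriv_Ahat_ne_zero : deriv (Ahat h f) (qh h τ₁) ≠ 0 := by
  intro h0
  have hτ₀ : Y₀ < τ₁.im := lt_of_le_of_lt hY Z.hτ₁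
  have hA : DifferentiableAt ℂ (Ahat h f) (qh h τ₁) :=
    H.differentiableAt_Ahat (lt_of_lt_of_le (norm_q₁_lt H Z hY) (exp_le_exp_of_le H Z hY))
  -- differentiate `f · q = Ahat ∘ q` at `τ₁`
  have h1 : HasDerivAt (fun w => Ahat h f (qh h w))
      (deriv (Ahat h f) (qh h τ₁) * (2 * π * I / h * qh h τ₁)) τ₁ :=
    hA.hasDerivAt.comp τ₁ (hasDerivAt_qh τ₁)
  have h2 : HasDerivAt (fun w => f w * qh h w)
      (deriv f τ₁ * qh h τ₁ + f τ₁ * (2 * π * I / h * qh h τ₁)) τ₁ :=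
    (H.hol τ₁ hτ₀).hasDerivAt.mul (hasDerivAt_qh τ₁)
  have h3 : (fun w => Ahat h f (qh h w)) = fun w => f w * qh h w := funext H.Ahat_qh
  rw [h3] at h1
  have h4 := h2.unique h1
  rw [h0, zero_mul, (Z.zero_iff τ₁ Z.hτ₁).2 ⟨0, by simp⟩, zero_mul, add_zero] at h4
  exact (mul_ne_zero Z.simple (qh_ne_zero τ₁)) h4

end Zero

/-- the holomorphic nonvanishing function `Ahat / (q - q₁)` on the disc. -/
def Psi (h : ℝ) (f : ℂ → ℂ) (τ₁ : ℂ) : ℂ → ℂ := dslope (Ahat h f) (qh h τ₁)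

section PsiSec

variable (H : PoleHyp h f Y₀ ℓ) (Z : ZeroHyp h f Y τ₁) (hY : Y₀ ≤ Y)
include H Z hY

theorem Psi_mul (q : ℂ) : Psi h f τ₁ q * (q - qh h τ₁) = Ahat h f q := by
  have := sub_smul_dslope (Ahat h f) (qh h τ₁) q
  rw [Ahat_q₁ H Z hY, sub_zero, smul_eq_mul] at this
  rw [mul_comm]
  exact this

theorem differentiableAt_Psi {q : ℂ} (hq : ‖q‖ < Real.exp (-(2 * π * Y₀ / h))) :
    DifferentiableAt ℂ (Psi h f τ₁) q := by
  set s : Set ℂ := Metric.ball 0 (Real.exp (-(2 * π * Y₀ / h))) with hs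
  have hsopen : IsOpen s := Metric.isOpen_ball
  have hq₁ : qh h τ₁ ∈ s := by
    rw [hs, Metric.mem_ball, dist_zero_right]
    exact lt_of_lt_of_le (norm_q₁_lt H Z hY) (exp_le_exp_of_le H Z hY)
  have hA : DifferentiableOn ℂ (Ahat h f) s := fun q' hq' =>
    (H.differentiableAt_Ahat (by
      rw [hs, Metric.mem_ball, dist_zero_right] at hq'
      exact hq')).differentiableWithinAt
  have hΨ : DifferentiableOn ℂ (Psi h f τ₁) s :=
    (differentiableOn_dslope (hsopen.mem_nhds hq₁)).2 hA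
  have hqs : q ∈ s := by
    rw [hs, Metric.mem_ball, dist_zero_right]
    exact hq
  exact hΨ.differentiableAt (hsopen.mem_nhds hqs)

theorem Psi_ne_zero {q : ℂ} (hq : ‖q‖ < Real.exp (-(2 * π * Y / h))) : Psi h f τ₁ q ≠ 0 := by
  rcases eq_or_ne q (qh h τ₁) with rfl | hne
  · unfold Psi
    rw [dslope_same]
    exact deriv_Ahat_ne_zero H Z hY
  · intro h0
    have h1 := Psi_mul H Z hY q
    rw [h0, zero_mul] at h1
    exact hne ((Ahat_eq_zero_iff H Z hY hq).1 h1.symm)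

theorem Psi_zero : Psi h f τ₁ 0 = -ℓ / qh h τ₁ := by
  have h1 := Psi_mul H Z hY 0
  rw [H.Ahat_zero, zero_sub] at h1
  rw [← h1]
  field_simp [qh_ne_zero (h := h) τ₁]

end PsiSec

/-- the local factor: `f · T_c` with `T_c = R(q) exp(-ellc)`. -/
def Phi (h : ℝ) (f : ℂ → ℂ) (τ₁ : ℂ) (w : ℂ) : ℂ :=
  Psi h f τ₁ (qh h w) * Complex.exp (-ellc h (qh h τ₁) w)

section PhiSec

variable (H : PoleHyp h f Y₀ ℓ) (Z : ZeroHyp h f Y τ₁) (hY : Y₀ ≤ Y)
include H Z hY

theorem norm_qh_lt {w : ℂ} {Y' : ℝ} (hw : Y' < w.im) :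
    ‖qh h w‖ < Real.exp (-(2 * π * Y' / h)) := by
  rw [norm_qh]
  apply Real.exp_lt_exp.2
  have hh := H.hh
  rw [neg_lt_neg_iff]
  apply div_lt_div_of_pos_right _ hh
  nlinarith [Real.pi_pos]

theorem Phi_periodic (w : ℂ) : Phi h f τ₁ (w + h) = Phi h f τ₁ w := by
  unfold Phi
  rw [qh_add H.hh.ne', ellc_add H.hh.ne']

theorem Phi_add_mul (w : ℂ) (n : ℤ) : Phi h f τ₁ (w + n * h) = Phi h f τ₁ w := by
  unfold Phi
  rw [qh_add_mul H.hh.ne', ellc_add_mul H.hh.ne']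

theorem Phi_ne_zero {w : ℂ} (hw : Y < w.im) : Phi h f τ₁ w ≠ 0 :=
  mul_ne_zero (Psi_ne_zero H Z hY (norm_qh_lt H Z hY hw)) (Complex.exp_ne_zero _)

/-- `Psi ∘ q` is holomorphic above height `Y₀`. -/
theorem differentiableAt_Psi_comp {w : ℂ} (hw : Y₀ < w.im) :
    DifferentiableAt ℂ (fun w => Psi h f τ₁ (qh h w)) w :=
  (differentiableAt_Psi H Z hY (norm_qh_lt H Z hY hw)).comp w differentiable_qh.differentiableAt

theorem contDiffAt_Phi {w : ℂ} (hw : Y₀ < w.im) : ContDiffAt ℝ ∞ (Phi h f τ₁) w := by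
  have hopen : IsOpen {w : ℂ | Y₀ < w.im} := isOpen_lt continuous_const Complex.continuous_im
  have h1 : ContDiffAt ℝ ∞ (fun w => Psi h f τ₁ (qh h w)) w := by
    have hd : DifferentiableOn ℂ (fun w => Psi h f τ₁ (qh h w)) {w : ℂ | Y₀ < w.im} :=
      fun w' hw' => (differentiableAt_Psi_comp H Z hY hw').differentiableWithinAt
    have := (hd.contDiffOn (n := ∞) hopen).contDiffAt (hopen.mem_nhds hw)
    exact this.restrict_scalars ℝ
  have h2 : ContDiffAt ℝ ∞ (fun w => Complex.exp (-ellc h (qh h τ₁) w)) w :=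
    (Complex.contDiff_exp (𝕜 := ℝ) (n := ∞)).contDiffAt.comp w
      (ellc_contDiff.neg.contDiffAt)
  exact h1.mul h2

/-- above the band, `Phi = Psi ∘ q`. -/
theorem Phi_eq_Psi_of_near {w : ℂ} (hs : sfun 0 (qh h τ₁) (qh h w) ≤ 4) :
    Phi h f τ₁ w = Psi h f τ₁ (qh h w) := by
  unfold Phi ellc ell
  rw [phi_eq_one hs, sub_self, zero_mul, neg_zero, Complex.exp_zero, mul_one]

/-- below the band, `Phi = f`. -/
theorem Phi_eq_of_far {w : ℂ} (hs : 16 ≤ sfun 0 (qh h τ₁) (qh h w)) : Phi h f τ₁ w = f w := by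
  have h1 : (1 : ℝ) < sfun 0 (qh h τ₁) (qh h w) := by linarith
  have hne : qh h w ≠ qh h τ₁ := ne_of_sfun_pos (by linarith)
  have hslit := Rfun_mem_slitPlane (t₁ := 0) (t₂ := qh h τ₁) h1
  have hR0 : Rfun 0 (qh h τ₁) (qh h w) ≠ 0 := Complex.slitPlane_ne_zero hslit
  unfold Phi
  rw [ellc_eq_log hs, Complex.exp_neg, Complex.exp_log hR0]
  have h2 := Psi_mul H Z hY (qh h w)
  rw [H.Ahat_qh] at h2
  unfold Rfun
  rw [sub_zero, inv_div]
  have hsub : qh h w - qh h τ₁ ≠ 0 := sub_ne_zero.2 hne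
  have hq : qh h w ≠ 0 := qh_ne_zero w
  field_simp
  linear_combination h2

/-- `2∂̄ Phi = - Phi · 2∂̄ ellc`. -/
theorem dbar2_Phi {w : ℂ} (hw : Y₀ < w.im) :
    dbar2 (Phi h f τ₁) w = -(Phi h f τ₁ w * dbar2 (ellc h (qh h τ₁)) w) := by
  have hΨ := differentiableAt_Psi_comp H Z hY hw
  have hE : DifferentiableAt ℝ (fun w => Complex.exp (-ellc h (qh h τ₁) w)) w :=
    ((Complex.contDiff_exp (𝕜 := ℝ) (n := ∞)).contDiffAt.comp w
      (ellc_contDiff (h := h) (q₂ := qh h τ₁)).neg.contDiffAt).differentiableAt (by simp)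
  have h1 : dbar2 (Phi h f τ₁) w =
      dbar2 (fun w => Complex.exp (-ellc h (qh h τ₁) w)) w * Psi h f τ₁ (qh h w) := by
    have : Phi h f τ₁ = fun w => Complex.exp (-ellc h (qh h τ₁) w) * Psi h f τ₁ (qh h w) := by
      funext w
      unfold Phi
      ring
    rw [this]
    exact dbar2_mul_holo hE hΨ
  -- chain rule for `exp`
  have hL : DifferentiableAt ℝ (ellc h (qh h τ₁)) w :=
    (ellc_contDiff (h := h) (q₂ := qh h τ₁)).differentiable (by simp) w
  have h2 : dbar2 (fun w => Complex.exp (-ellc h (qh h τ₁) w)) w =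
      -(Complex.exp (-ellc h (qh h τ₁) w) * dbar2 (ellc h (qh h τ₁)) w) := by
    have hd : HasFDerivAt (fun w => Complex.exp (-ellc h (qh h τ₁) w))
        (Complex.exp (-ellc h (qh h τ₁) w) • (-(fderiv ℝ (ellc h (qh h τ₁)) w))) w := by
      have := ((Complex.hasDerivAt_exp (-ellc h (qh h τ₁) w)).hasFDerivAt.restrictScalars ℝ).comp w
        hL.hasFDerivAt.neg
      refine this.congr_fderiv ?_
      ext v
      simp [mul_comm]
    unfold dbar2
    rw [hd.fderiv]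
    simp only [_root_.smul_apply, _root_.neg_apply, smul_eq_mul]
    ring
  rw [h1, h2]
  unfold Phi
  ring

theorem Psi_zero_ne : Psi h f τ₁ 0 ≠ 0 := by
  apply Psi_ne_zero H Z hY
  rw [norm_zero]
  exact Real.exp_pos _

/-- high above the band, `Phi = Psi ∘ q`. -/
theorem Phi_eq_Psi_of_im_le {w : ℂ} (hw : τ₁.im ≤ w.im) :
    Phi h f τ₁ w = Psi h f τ₁ (qh h w) := by
  apply Phi_eq_Psi_of_near H Z hY
  apply sfun_le_four_of_norm_le (qh_ne_zero τ₁)
  rw [norm_qh, norm_qh]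
  apply Real.exp_le_exp.2
  have hh := H.hh
  rw [neg_le_neg_iff]
  apply div_le_div_of_nonneg_right _ hh.le
  nlinarith [Real.pi_pos]

/-- **the cusp limit of the local factor.** -/
theorem tendsto_Phi : Tendsto (Phi h f τ₁) I∞ (𝓝 (Psi h f τ₁ 0)) := by
  have hcont : ContinuousAt (Psi h f τ₁) 0 :=
    (differentiableAt_Psi H Z hY (by rw [norm_zero]; exact Real.exp_pos _)).continuousAt
  have h1 : Tendsto (qh h) I∞ (𝓝 0) :=
    tendsto_nhdsWithin_iff.mp (Function.Periodic.qParam_tendsto H.hh) |>.1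
  have h2 : Tendsto (fun w => Psi h f τ₁ (qh h w)) I∞ (𝓝 (Psi h f τ₁ 0)) :=
    hcont.tendsto.comp h1
  refine h2.congr' ?_
  have : ∀ᶠ w in I∞, τ₁.im ≤ w.im := tendsto_comap.eventually (eventually_ge_atTop τ₁.im)
  filter_upwards [this] with w hw
  exact (Phi_eq_Psi_of_im_le H Z hY hw).symm

end PhiSec

end Fermat.Agent.M17.CuspPhi4
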