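/-
M17 (target S17), leaf (PC-2) of (RL) (lead): **the cusp function of the primitive**.

For `f : CuspForm (Gamma0 N) 2`, `δ : SL(2, ℤ)` and `h > 0` with `δ⁻¹ T^h δ ∈ Γ₀(N)` (e.g. `h = N`, or
the width of the cusp), the function `A_δ(z) = Fp f (δ⁻¹ • z)` (`Fp f` = the primitive of `f`
vanishing at `i∞`, `S21.PeriodPrim.Fp`; it is `LatData.A` coordinatewise) is `h`-periodic, holomorphic
on the upper half plane and has a limit at `i∞`; hence its cusp function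
`Â = Function.Periodic.cuspFunction h A_δ` is holomorphic on the unit disc, `Â (q_h z) = A_δ z` and
`Â 0 = lim_{i∞} A_δ`.  These are the hypotheses `hÂ`, `hA` of
`CuspModel4.integral_strip_dbar2_ellc_mul_deriv`.  Imported by no statement.
-/
import Mathlib
import Fermat.Agent.M17.Interfaces7
import Fermat.Agent.S21.Parabolic

set_option autoImplicit false
set_option linter.unusedSectionVars false

namespace Fermat.Agent.M17.CuspPrim0

open UpperHalfPlane CongruenceSubgroup Complex Filter Function Topology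
open Fermat.Agent.S21.PeriodPrim Fermat.Agent.M17.Interfaces7
open scoped Real MatrixGroups

variable {N : ℕ} [NeZero N]

/-- `A_δ(z) = Fp f (δ⁻¹ • z)` as a function on `ℂ` (junk outside the upper half plane). -/
noncomputable def Ad (f : CuspForm (Gamma0 N) 2) (δ : SL(2, ℤ)) (z : ℂ) : ℂ :=
  Fp (⇑f) (δ⁻¹ • ofComplex z)

theorem Ad_coe (f : CuspForm (Gamma0 N) 2) (δ : SL(2, ℤ)) (τ : ℍ) :
    Ad f δ (τ : ℂ) = Fp (⇑f) (δ⁻¹ • τ) := by
  unfold Ad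
  rw [ofComplex_apply]

/-- `Fp f` is invariant under the parabolic elements of `Γ₀(N)`. -/
theorem Fp_smul_of_trace (f : CuspForm (Gamma0 N) 2) (γ : Gamma0 N)
    (hγ : ((γ : SL(2, ℤ)) : Matrix (Fin 2) (Fin 2) ℤ).trace ^ 2 = 4) (τ : ℍ) :
    Fp (⇑f) ((γ : SL(2, ℤ)) • τ) = Fp (⇑f) τ := by
  have h1 := periodMap_apply f γ τ
  have h2 : ModularCurve.periodMap N f (Additive.ofMul γ) = 0 :=
    (ModularCurve.Period.mem_parabolicHoms_iff.mp
      (Fermat.Agent.S21.Parabolic.periodMap_mem_parabolicHoms N f)) γ hγ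
  rw [h2] at h1
  exact (sub_eq_zero.mp h1.symm)

theorem trace_conj_T_pow (δ : SL(2, ℤ)) (h : ℕ) :
    ((δ⁻¹ * ModularGroup.T ^ h * δ : SL(2, ℤ)) : Matrix (Fin 2) (Fin 2) ℤ).trace ^ 2 = 4 := by
  have hT : (↑(ModularGroup.T ^ h) : Matrix (Fin 2) (Fin 2) ℤ) = !![1, (h : ℤ); 0, 1] := by
    rw [← zpow_natCast, ModularGroup.coe_T_zpow]
  rw [Matrix.SpecialLinearGroup.coe_mul, Matrix.trace_mul_comm, ← Matrix.SpecialLinearGroup.coe_mul,
    mul_inv_cancel_left, hT]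
  simp [Matrix.trace_fin_two]

/-- `A_δ` is `h`-periodic as soon as `δ⁻¹ T^h δ ∈ Γ₀(N)`. -/
theorem periodic_Ad (f : CuspForm (Gamma0 N) 2) (δ : SL(2, ℤ)) (h : ℕ)
    (hmem : δ⁻¹ * ModularGroup.T ^ h * δ ∈ Gamma0 N) : Periodic (Ad f δ) ((h : ℝ) : ℂ) := by
  intro w
  unfold Ad
  by_cases hw : 0 < im w
  · have hw' : 0 < im (w + ((h : ℝ) : ℂ)) := by simpa using hw
    rw [ofComplex_apply_of_im_pos hw', ofComplex_apply_of_im_pos hw]
    have h1 : (⟨w + ((h : ℝ) : ℂ), hw'⟩ : ℍ) = ModularGroup.T ^ h • (⟨w, hw⟩ : ℍ) := by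
      rw [← zpow_natCast, UpperHalfPlane.modular_T_zpow_smul]
      ext
      simp [add_comm]
    rw [h1]
    have h2 : δ⁻¹ • ModularGroup.T ^ h • (⟨w, hw⟩ : ℍ) =
        (δ⁻¹ * ModularGroup.T ^ h * δ) • (δ⁻¹ • (⟨w, hw⟩ : ℍ)) := by
      rw [← mul_smul, ← mul_smul]
      congr 1
      group
    rw [h2]
    exact Fp_smul_of_trace f ⟨_, hmem⟩ (trace_conj_T_pow δ h) _
  · have hw0 : im w ≤ 0 := not_lt.mp hw
    have hw' : im (w + ((h : ℝ) : ℂ)) ≤ 0 := by simpa using hw0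
    rw [ofComplex_apply_of_im_nonpos hw', ofComplex_apply_of_im_nonpos hw0]

/-! ### holomorphy -/

/-- the Möbius map of `g ∈ SL(2, ℤ)` as a function on `ℂ` (junk outside the upper half plane). -/
noncomputable def mobC (g : SL(2, ℤ)) (z : ℂ) : ℂ := ↑(g • ofComplex z)

theorem mobC_coe (g : SL(2, ℤ)) (z : ℍ) : mobC g (z : ℂ) = ↑(g • z) := by
  unfold mobC; rw [ofComplex_apply]

theorem det_coe_GL (g : SL(2, ℤ)) : ((g : GL (Fin 2) ℝ)).val.det = 1 := by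
  have := (Matrix.SpecialLinearGroup.map (Int.castRingHom ℝ) g).det_coe
  simpa using this

theorem hasDerivAt_mobC (g : SL(2, ℤ)) (z : ℍ) :
    HasDerivAt (mobC g) (1 / denom g z ^ 2) (z : ℂ) := by
  have h := (hasStrictDerivAt_smul (g := (g : GL (Fin 2) ℝ))
    (by rw [det_coe_GL]; norm_num) z).hasDerivAt
  rw [det_coe_GL] at h
  have h2 : (fun w : ℂ => ((((g : GL (Fin 2) ℝ)) • ofComplex w : ℍ) : ℂ)) = mobC g := rfl
  rw [h2] at h
  exact h.congr_deriv (by simp)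

theorem Ad_eq_comp (f : CuspForm (Gamma0 N) 2) (δ : SL(2, ℤ)) :
    Ad f δ = (Fp (⇑f) ∘ ofComplex) ∘ mobC δ⁻¹ := by
  funext z
  simp only [Ad, Function.comp_apply, mobC, ofComplex_apply]

/-- `A_δ` is holomorphic on the upper half plane, with derivative `(f ∣[2] δ⁻¹)`. -/
theorem hasDerivAt_Ad (f : CuspForm (Gamma0 N) 2) (δ : SL(2, ℤ)) (τ : ℍ) :
    HasDerivAt (Ad f δ) (f (δ⁻¹ • τ) * (1 / denom (δ⁻¹ : SL(2, ℤ)) τ ^ 2)) (τ : ℂ) := by
  obtain ⟨a, ha, hfd⟩ := cusp_decay f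
  have h1 : HasDerivAt (Fp (⇑f) ∘ ofComplex) (f (δ⁻¹ • τ)) (mobC δ⁻¹ (τ : ℂ)) := by
    rw [mobC_coe]
    exact hasDerivAt_Fp ha (cusp_mdiff f) hfd (δ⁻¹ • τ)
  have h2 := h1.comp (τ : ℂ) (hasDerivAt_mobC δ⁻¹ τ)
  rw [Ad_eq_comp]
  exact h2

theorem differentiableAt_Ad (f : CuspForm (Gamma0 N) 2) (δ : SL(2, ℤ)) {z : ℂ} (hz : 0 < z.im) :
    DifferentiableAt ℂ (Ad f δ) z :=
  (hasDerivAt_Ad f δ ⟨z, hz⟩).differentiableAt

/-! ### the limit at `i∞` -/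

theorem tendsto_Ad (f : CuspForm (Gamma0 N) 2) (δ : SL(2, ℤ)) {c : ℂ}
    (hc : Tendsto (fun τ : ℍ => Fp (⇑f) (δ⁻¹ • τ)) atImInfty (𝓝 c)) :
    Tendsto (Ad f δ) (comap Complex.im atTop) (𝓝 c) :=
  hc.comp tendsto_comap_im_ofComplex

theorem exists_tendsto (f : CuspForm (Gamma0 N) 2) (δ : SL(2, ℤ)) :
    ∃ c : ℂ, Tendsto (fun τ : ℍ => Fp (⇑f) (δ⁻¹ • τ)) atImInfty (𝓝 c) :=
  Fp_cusp_limit f δ⁻¹

theorem eventually_differentiableAt_Ad (f : CuspForm (Gamma0 N) 2) (δ : SL(2, ℤ)) :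
    ∀ᶠ z in comap Complex.im atTop, DifferentiableAt ℂ (Ad f δ) z := by
  have h1 : ∀ᶠ z : ℂ in comap Complex.im atTop, 0 < z.im :=
    (tendsto_comap.eventually (eventually_gt_atTop 0))
  exact h1.mono fun z hz => differentiableAt_Ad f δ hz

theorem boundedAtFilter_Ad (f : CuspForm (Gamma0 N) 2) (δ : SL(2, ℤ)) :
    BoundedAtFilter (comap Complex.im atTop) (Ad f δ) := by
  obtain ⟨c, hc⟩ := exists_tendsto f δ
  exact (tendsto_Ad f δ hc).isBigO_one ℝ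

/-! ### the cusp function -/

section Cusp

variable (f : CuspForm (Gamma0 N) 2) (δ : SL(2, ℤ)) (h : ℕ) (hh : 0 < h)
  (hmem : δ⁻¹ * ModularGroup.T ^ h * δ ∈ Gamma0 N)

/-- the cusp function `Â` of `A_δ` in the parameter `q_h = exp (2πi z / h)`. -/
noncomputable def Ahat : ℂ → ℂ := Periodic.cuspFunction (h : ℝ) (Ad f δ)

include hh hmem

theorem Ahat_qParam (z : ℂ) : Ahat f δ h (Periodic.qParam (h : ℝ) z) = Ad f δ z :=
  Periodic.eq_cuspFunction (by exact_mod_cast hh.ne') (periodic_Ad f δ h hmem) z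

theorem Ahat_qParam_coe (τ : ℍ) :
    Ahat f δ h (Periodic.qParam (h : ℝ) (τ : ℂ)) = Fp (⇑f) (δ⁻¹ • τ) := by
  rw [Ahat_qParam f δ h hh hmem, Ad_coe]

theorem differentiableAt_Ahat_zero : DifferentiableAt ℂ (Ahat f δ h) 0 :=
  Periodic.differentiableAt_cuspFunction_zero (by exact_mod_cast hh) (periodic_Ad f δ h hmem)
    (eventually_differentiableAt_Ad f δ) (boundedAtFilter_Ad f δ)

/-- `Â` is holomorphic on the open unit disc. -/
theorem differentiableOn_Ahat : DifferentiableOn ℂ (Ahat f δ h) (Metric.ball 0 1) := by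
  intro q hq
  have hq1 : ‖q‖ < 1 := by simpa using hq
  have hhR : (0 : ℝ) < h := by exact_mod_cast hh
  by_cases hq0 : q = 0
  · rw [hq0]
    exact (differentiableAt_Ahat_zero f δ h hh hmem).differentiableWithinAt
  · have him := Periodic.im_invQParam_pos_of_norm_lt_one hhR hq1 hq0
    have h1 := Periodic.differentiableAt_cuspFunction hhR.ne' (periodic_Ad f δ h hmem)
      (differentiableAt_Ad f δ him)
    rw [Periodic.qParam_right_inv hhR.ne' hq0] at h1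
    exact h1.differentiableWithinAt

/-- `Â 0` is the value of `A` at the cusp. -/
theorem Ahat_zero {c : ℂ} (hc : Tendsto (fun τ : ℍ => Fp (⇑f) (δ⁻¹ • τ)) atImInfty (𝓝 c)) :
    Ahat f δ h 0 = c := by
  have h1 := Periodic.tendsto_at_I_inf (by exact_mod_cast hh) (periodic_Ad f δ h hmem)
    (eventually_differentiableAt_Ad f δ) (boundedAtFilter_Ad f δ)
  have : (comap Complex.im atTop).NeBot := by
    refine comap_neBot fun s hs => ?_
    obtain ⟨a, ha⟩ := mem_atTop_sets.mp hs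
    exact ⟨⟨0, a⟩, ha a le_rfl⟩
  exact tendsto_nhds_unique h1 (tendsto_Ad f δ hc)

end Cusp

/-! ### the coordinates of `LatData.A` -/

theorem qParam_eq (h : ℝ) (z : ℂ) :
    Periodic.qParam h z = Complex.exp (2 * π * Complex.I * z / h) := rfl

theorem Ad_w {g : ℕ} (L : LatData N g) (k : Fin g) (δ : SL(2, ℤ)) (z : ℂ) :
    Ad (L.w k) δ z = L.A (δ⁻¹ • ofComplex z) k := rfl

/-- **(PC-2)**: for `L : LatData N g`, a cusp `δ` and `h > 0` with `δ⁻¹ T^h δ ∈ Γ₀(N)`: the cusp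
functions `Â_k` of `τ ↦ A_k(δ⁻¹ τ)` are holomorphic on the unit disc, `Â_k (q_h τ) = A_k(δ⁻¹ τ)`,
`Â_k 0 = Ac_k` (the value of `A` at the cusp). -/
theorem cusp_data {g : ℕ} (L : LatData N g) (δ : SL(2, ℤ)) (h : ℕ) (hh : 0 < h)
    (hmem : δ⁻¹ * ModularGroup.T ^ h * δ ∈ Gamma0 N) {Ac : Fin g → ℂ}
    (hAc : Tendsto (fun τ : ℍ => L.A (δ⁻¹ • τ)) atImInfty (𝓝 Ac)) (k : Fin g) :
    DifferentiableOn ℂ (Ahat (L.w k) δ h) (Metric.ball 0 1) ∧
      (∀ τ : ℍ, Ahat (L.w k) δ h (Complex.exp (2 * π * Complex.I * (τ : ℂ) / (h : ℝ)))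
        = L.A (δ⁻¹ • τ) k) ∧
      (∀ z : ℂ, 0 < z.im → Ad (L.w k) δ z
        = Ahat (L.w k) δ h (Complex.exp (2 * π * Complex.I * z / (h : ℝ)))) ∧
      Ahat (L.w k) δ h 0 = Ac k := by
  refine ⟨differentiableOn_Ahat (L.w k) δ h hh hmem, fun τ => ?_, fun z _ => ?_, ?_⟩
  · rw [← qParam_eq]
    exact Ahat_qParam_coe (L.w k) δ h hh hmem τ
  · rw [← qParam_eq]
    exact (Ahat_qParam (L.w k) δ h hh hmem z).symm
  · exact Ahat_zero (L.w k) δ h hh hmem ((tendsto_pi_nhds.mp hAc) k)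

/-- `h = N` always works. -/
theorem conj_T_pow_mem_Gamma0 (δ : SL(2, ℤ)) : δ⁻¹ * ModularGroup.T ^ N * δ ∈ Gamma0 N := by
  rw [Gamma0_mem]
  have hT : (↑(ModularGroup.T ^ N) : Matrix (Fin 2) (Fin 2) ℤ) = !![1, (N : ℤ); 0, 1] := by
    rw [← zpow_natCast, ModularGroup.coe_T_zpow]
  have hinv0 : (↑(δ⁻¹) : Matrix (Fin 2) (Fin 2) ℤ) 1 0 = -δ 1 0 := by
    rw [Matrix.SpecialLinearGroup.SL2_inv_expl]; rfl
  have hinv1 : (↑(δ⁻¹) : Matrix (Fin 2) (Fin 2) ℤ) 1 1 = δ 0 0 := by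
    rw [Matrix.SpecialLinearGroup.SL2_inv_expl]; rfl
  have h00 : (↑(ModularGroup.T ^ N) : Matrix (Fin 2) (Fin 2) ℤ) 0 0 = 1 := by rw [hT]; rfl
  have h01 : (↑(ModularGroup.T ^ N) : Matrix (Fin 2) (Fin 2) ℤ) 0 1 = N := by rw [hT]; rfl
  have h10 : (↑(ModularGroup.T ^ N) : Matrix (Fin 2) (Fin 2) ℤ) 1 0 = 0 := by rw [hT]; rfl
  have h11 : (↑(ModularGroup.T ^ N) : Matrix (Fin 2) (Fin 2) ℤ) 1 1 = 1 := by rw [hT]; rfl
  have key : (δ⁻¹ * ModularGroup.T ^ N * δ) 1 0 = -((N : ℤ) * (δ 1 0) ^ 2) := by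
    show (↑(δ⁻¹ * ModularGroup.T ^ N * δ) : Matrix (Fin 2) (Fin 2) ℤ) 1 0 = _
    rw [Matrix.SpecialLinearGroup.coe_mul, Matrix.SpecialLinearGroup.coe_mul, Matrix.mul_apply,
      Fin.sum_univ_two, Matrix.mul_apply, Matrix.mul_apply, Fin.sum_univ_two, Fin.sum_univ_two,
      hinv0, hinv1, h00, h01, h10, h11]
    have hdet := Matrix.SpecialLinearGroup.det_coe δ
    rw [Matrix.det_fin_two] at hdet
    ring
  rw [key]
  push_cast
  simp

end Fermat.Agent.M17.CuspPrim0
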