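import Fermat.Agent.M17.DegUnfold5

/-!
# (DEG), the core theorem for `SL(2, ℤ)`

`2π ∑_p ord_p(F) w(p) = (i/2) L - ∫ w · 2∂̄S` for `G = F'/F + S` of weight `2`, `G → L` at `i∞`.
-/

set_option autoImplicit false

namespace Fermat.Agent.M17.DegCore5

open MeasureTheory Set Filter Topology UpperHalfPlane
open scoped Real MatrixGroups
open Fermat.Agent.M17.CauchyPompeiu5 Fermat.Agent.M17.DegMoebius5 Fermat.Agent.M17.DegMeasure5
  Fermat.Agent.M17.DegUnfold5 Fermat.Agent.M17.DbarResidue5

noncomputable section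

variable {w : ℂ → ℝ}

lemma mk_add_int (x y : ℝ) (n : ℤ) : (⟨x, y⟩ : ℂ) + (n : ℂ) = ⟨x + n, y⟩ := by
  apply Complex.ext <;> simp

lemma continuous_mk_left (y : ℝ) : Continuous (fun x : ℝ => (⟨x, y⟩ : ℂ)) := by
  have : (fun x : ℝ => (⟨x, y⟩ : ℂ)) = fun x : ℝ => (x : ℂ) + (y : ℂ) * Complex.I := by
    funext x; apply Complex.ext <;> simp
  rw [this]; fun_prop

/-- the horizontal integral of the partition is `1/2` high in the cusp -/
theorem integral_w_horizontal (hw : SLPartition w) {y : ℝ} (hy : 2 ≤ y) :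
    ∫ x : ℝ, w (⟨x, y⟩ : ℂ) = 1 / 2 := by
  obtain ⟨B, hB⟩ := hw.tsupp_re
  set f : ℝ → ℝ := fun x => w (⟨x, y⟩ : ℂ) with hf
  have hfc : Continuous f := hw.contDiff.continuous.comp (continuous_mk_left y)
  have hf0 : ∀ x : ℝ, B < |x| → f x = 0 := by
    intro x hx
    by_contra h
    have := hB _ (subset_tsupport w (Function.mem_support.mpr h))
    simp at this
    linarith
  have hfcs : HasCompactSupport f := by
    apply HasCompactSupport.intro (isCompact_Icc : IsCompact (Icc (-B) B))
    intro x hx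
    apply hf0
    simp only [mem_Icc, not_and_or, not_le] at hx
    rcases hx with hx | hx
    · exact lt_of_lt_of_le (by linarith) (neg_le_abs x)
    · exact lt_of_lt_of_le hx (le_abs_self x)
  have hfi : Integrable f := hfc.integrable_of_hasCompactSupport hfcs
  have h1 := hfi.hasSum_intervalIntegral_comp_add_int
  obtain ⟨K, hK⟩ := exists_nat_ge (B + 1)
  set S : Finset ℤ := Finset.Icc (-(K : ℤ)) K with hS
  have hout : ∀ n : ℤ, n ∉ S → ∀ x ∈ Icc (0 : ℝ) 1, f (x + n) = 0 := by
    intro n hn x hx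
    apply hf0
    simp only [hS, Finset.mem_Icc, not_and_or, not_le] at hn
    rcases hn with hn | hn
    · have : (n : ℝ) ≤ -(K : ℝ) - 1 := by
        have : n ≤ -(K : ℤ) - 1 := by omega
        exact_mod_cast this
      exact lt_of_lt_of_le (by linarith [hx.2]) (neg_le_abs _)
    · have : (K : ℝ) + 1 ≤ (n : ℝ) := by
        have : (K : ℤ) + 1 ≤ n := by omega
        exact_mod_cast this
      exact lt_of_lt_of_le (by linarith [hx.1]) (le_abs_self _)
  have hsumS : ∀ x ∈ Icc (0 : ℝ) 1, ∑ n ∈ S, f (x + n) = 1 / 2 := by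
    intro x hx
    have hs := hw.cusp_sum (⟨x, y⟩ : ℂ) (by simpa using hy)
    have hs' : HasSum (fun n : ℤ => f (x + n)) (1 / 2) := by
      convert hs using 2 with n
      rw [hf, mk_add_int]
    have hs2 : HasSum (fun n : ℤ => f (x + n)) (∑ n ∈ S, f (x + n)) :=
      hasSum_sum_of_ne_finset_zero (fun n hn => hout n hn x hx)
    exact hs2.unique hs'
  have h2 : HasSum (fun n : ℤ => ∫ x in (0 : ℝ)..1, f (x + n)) (1 / 2) := by
    have hz : ∀ n ∉ S, ∫ x in (0 : ℝ)..1, f (x + n) = 0 := by
      intro n hn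
      apply intervalIntegral.integral_zero_ae
      apply Filter.Eventually.of_forall
      intro x hx
      rw [uIoc_of_le zero_le_one] at hx
      exact hout n hn x ⟨hx.1.le, hx.2⟩
    have h3 : HasSum (fun n : ℤ => ∫ x in (0 : ℝ)..1, f (x + n))
        (∑ n ∈ S, ∫ x in (0 : ℝ)..1, f (x + n)) := hasSum_sum_of_ne_finset_zero hz
    have h4 : ∑ n ∈ S, ∫ x in (0 : ℝ)..1, f (x + n) = 1 / 2 := by
      rw [← intervalIntegral.integral_finsetSum]
      · have : ∫ x in (0 : ℝ)..1, ∑ n ∈ S, f (x + n) = ∫ x in (0 : ℝ)..1, (1 / 2 : ℝ) := by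
          apply intervalIntegral.integral_congr
          intro x hx
          rw [uIcc_of_le zero_le_one] at hx
          exact hsumS x hx
        rw [this]
        simp
      · intro n _
        exact (hfc.comp (continuous_id.add continuous_const)).intervalIntegrable _ _
    rw [h4] at h3
    exact h3
  exact h1.unique h2


/-! ### the cut-off -/

lemma differentiable_eta : Differentiable ℝ eta := contDiff_eta.differentiable one_ne_zero

lemma continuous_deriv_eta : Continuous (deriv eta) := contDiff_eta.continuous_deriv le_rfl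

lemma deriv_eta_of_neg {t : ℝ} (ht : t < 0) : deriv eta t = 0 := by
  have : eta =ᶠ[𝓝 t] fun _ => (1 : ℝ) := by
    filter_upwards [Iio_mem_nhds ht] with s hs
    exact eta_of_nonpos (le_of_lt hs)
  rw [this.deriv_eq]
  simp

lemma deriv_eta_of_one_lt {t : ℝ} (ht : 1 < t) : deriv eta t = 0 := by
  have : eta =ᶠ[𝓝 t] fun _ => (0 : ℝ) := by
    filter_upwards [Ioi_mem_nhds ht] with s hs
    exact eta_of_one_le (le_of_lt hs)
  rw [this.deriv_eq]
  simp

lemma integral_deriv_eta_interval : ∫ t in (0 : ℝ)..1, deriv eta t = -1 := by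
  rw [intervalIntegral.integral_eq_sub_of_hasDerivAt (f := eta)
    (fun t _ => (differentiable_eta t).hasDerivAt)
    (continuous_deriv_eta.intervalIntegrable _ _)]
  rw [eta_of_one_le le_rfl, eta_of_nonpos le_rfl]
  norm_num

/-- the complex-valued cut-off `z ↦ η (im z - M)` -/
def etaC (M : ℝ) (z : ℂ) : ℂ := ((eta (z.im - M) : ℝ) : ℂ)

/-- its `y`-derivative -/
def etaD (M : ℝ) (z : ℂ) : ℂ := ((deriv eta (z.im - M) : ℝ) : ℂ)

lemma contDiff_etaC (M : ℝ) : ContDiff ℝ 1 (etaC M) := by
  unfold etaC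
  exact Complex.ofRealCLM.contDiff.comp
    (contDiff_eta.comp (Complex.imCLM.contDiff.sub contDiff_const))

lemma continuous_etaD (M : ℝ) : Continuous (etaD M) := by
  unfold etaD
  exact Complex.continuous_ofReal.comp
    (continuous_deriv_eta.comp (Complex.continuous_im.sub continuous_const))

lemma hasFDerivAt_etaC (M : ℝ) (z : ℂ) :
    HasFDerivAt (etaC M)
      ((deriv eta (z.im - M)) • (Complex.ofRealCLM.comp Complex.imCLM)) z := by
  have h1 : HasFDerivAt (fun z : ℂ => z.im - M) Complex.imCLM z :=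
    Complex.imCLM.hasFDerivAt.sub_const M
  have h2 : HasDerivAt eta (deriv eta (z.im - M)) (z.im - M) :=
    (differentiable_eta _).hasDerivAt
  have h3 := h2.comp_hasFDerivAt z h1
  have h4 := Complex.ofRealCLM.hasFDerivAt.comp z h3
  have h5 : HasFDerivAt (etaC M)
      (Complex.ofRealCLM.comp ((deriv eta (z.im - M)) • Complex.imCLM)) z := h4
  refine h5.congr_fderiv ?_
  ext v
  simp

lemma dbar2_etaC (M : ℝ) (z : ℂ) : dbar2 (etaC M) z = Complex.I * etaD M z := by
  unfold dbar2
  rw [(hasFDerivAt_etaC M z).fderiv]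
  simp [etaD]

lemma dbar2_mul {f g : ℂ → ℂ} {z : ℂ} (hf : DifferentiableAt ℝ f z)
    (hg : DifferentiableAt ℝ g z) :
    dbar2 (fun z => f z * g z) z = dbar2 f z * g z + f z * dbar2 g z := by
  unfold dbar2
  have : fderiv ℝ (fun z => f z * g z) z = f z • fderiv ℝ g z + g z • fderiv ℝ f z :=
    fderiv_fun_mul hf hg
  rw [this]
  simp only [add_apply, smul_apply, smul_eq_mul]
  ring


/-! ### Fubini -/

lemma continuous_mk : Continuous (fun p : ℝ × ℝ => (⟨p.1, p.2⟩ : ℂ)) := by
  have : (fun p : ℝ × ℝ => (⟨p.1, p.2⟩ : ℂ))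
      = fun p : ℝ × ℝ => (p.1 : ℂ) + (p.2 : ℂ) * Complex.I := by
    funext p; apply Complex.ext <;> simp
  rw [this]; fun_prop

/-- integrals over `ℂ` as iterated integrals (`y` outside). -/
lemma integral_complex_eq (u : ℂ → ℝ)
    (hu : Integrable (fun p : ℝ × ℝ => u ⟨p.1, p.2⟩) (volume.prod volume)) :
    ∫ z : ℂ, u z = ∫ y : ℝ, ∫ x : ℝ, u ⟨x, y⟩ := by
  have h1 := (Complex.volume_preserving_equiv_real_prod.symm).integral_comp'
    (f := Complex.measurableEquivRealProd.symm) u
  rw [← h1]
  simp only [Complex.measurableEquivRealProd_symm_apply]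
  exact integral_prod_symm _ hu

/-- Fubini: integrating the partition against a function of the height. -/
theorem integral_w_mul_im (hw : SLPartition w) {h : ℝ → ℝ} (hh : Continuous h)
    (hh2 : ∀ y < 2, h y = 0) (hhc : HasCompactSupport h) :
    ∫ z : ℂ, w z * h z.im = (1 / 2) * ∫ y, h y := by
  obtain ⟨B, hB⟩ := hw.tsupp_re
  have hcont : Continuous (fun p : ℝ × ℝ => w ⟨p.1, p.2⟩ * h (⟨p.1, p.2⟩ : ℂ).im) := by
    exact (hw.contDiff.continuous.comp continuous_mk).mul (hh.comp continuous_snd)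
  have hcs : HasCompactSupport (fun p : ℝ × ℝ => w ⟨p.1, p.2⟩ * h (⟨p.1, p.2⟩ : ℂ).im) := by
    apply HasCompactSupport.intro ((isCompact_Icc (a := -B) (b := B)).prod hhc.isCompact)
    intro p hp
    rw [mem_prod, not_and_or] at hp
    rcases hp with hp | hp
    · have : w ⟨p.1, p.2⟩ = 0 := by
        by_contra h0
        have := hB _ (subset_tsupport w (Function.mem_support.mpr h0))
        simp only [abs_le] at this
        exact hp (mem_Icc.mpr this)
      rw [this, zero_mul]
    · have : h p.2 = 0 := by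
        by_contra h0
        exact hp (subset_tsupport h (Function.mem_support.mpr h0))
      simp [this]
  have hint : Integrable (fun p : ℝ × ℝ => w ⟨p.1, p.2⟩ * h (⟨p.1, p.2⟩ : ℂ).im)
      (volume.prod volume) := hcont.integrable_of_hasCompactSupport hcs
  rw [integral_complex_eq (fun z => w z * h z.im) hint]
  have hin : ∀ y : ℝ, ∫ x : ℝ, w ⟨x, y⟩ * h (⟨x, y⟩ : ℂ).im = (1 / 2) * h y := by
    intro y
    simp only
    rw [integral_mul_const]
    by_cases hy : 2 ≤ y
    · rw [integral_w_horizontal hw hy]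
    · rw [hh2 y (not_le.mp hy)]; simp
  simp only [hin]
  rw [integral_const_mul]


/-! ### Term B -/

lemma deriv_eta_of_nonpos {t : ℝ} (ht : t ≤ 0) : deriv eta t = 0 := by
  have hcl : IsClosed {t : ℝ | deriv eta t = 0} :=
    isClosed_eq continuous_deriv_eta continuous_const
  have hsub : Iio (0 : ℝ) ⊆ {t : ℝ | deriv eta t = 0} := fun s hs => deriv_eta_of_neg hs
  have := hcl.closure_subset_iff.mpr hsub
  rw [closure_Iio] at this
  exact this ht

lemma integral_deriv_eta : ∫ t, deriv eta t = -1 := by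
  rw [← integral_deriv_eta_interval]
  symm
  apply intervalIntegral.integral_eq_integral_of_support_subset
  intro t ht
  rw [Function.mem_support] at ht
  constructor
  · by_contra h
    exact ht (deriv_eta_of_nonpos (not_lt.mp h))
  · by_contra h
    exact ht (deriv_eta_of_one_lt (not_le.mp h))

/-- the constant `∫ |η'|` -/
def C1 : ℝ := ∫ t, |deriv eta t|

lemma C1_nonneg : 0 ≤ C1 := integral_nonneg fun _ => abs_nonneg _

lemma hasCompactSupport_shift {f : ℝ → ℝ} (hf : ∀ t, t < 0 ∨ 1 < t → f t = 0) (M : ℝ) :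
    HasCompactSupport (fun y => f (y - M)) := by
  apply HasCompactSupport.intro (isCompact_Icc (a := M) (b := M + 1))
  intro y hy
  apply hf
  simp only [mem_Icc, not_and_or, not_le] at hy
  rcases hy with hy | hy
  · left; linarith
  · right; linarith

lemma deriv_eta_zero (t : ℝ) (ht : t < 0 ∨ 1 < t) : deriv eta t = 0 := by
  rcases ht with h | h
  · exact deriv_eta_of_neg h
  · exact deriv_eta_of_one_lt h

/-- `∫ w · η'(y - M) = - 1/2`. -/
lemma integral_W_etaD (hw : SLPartition w) {M : ℝ} (hM : 2 ≤ M) :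
    ∫ z : ℂ, W w z * etaD M z = -(1 / 2 : ℂ) := by
  have h1 := integral_w_mul_im hw (h := fun y => deriv eta (y - M))
    (continuous_deriv_eta.comp (continuous_id.sub continuous_const))
    (fun y hy => deriv_eta_of_neg (by linarith))
    (hasCompactSupport_shift deriv_eta_zero M)
  rw [integral_sub_right_eq_self (fun t => deriv eta t) M, integral_deriv_eta] at h1
  have h2 : ∀ z : ℂ, W w z * etaD M z = ((w z * deriv eta (z.im - M) : ℝ) : ℂ) := by
    intro z; simp [W, etaD]
  simp only [h2]
  rw [integral_complex_ofReal, h1]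
  norm_num

/-- `∫ w · |η'(y - M)| = C1 / 2`. -/
lemma integral_w_abs_etaD (hw : SLPartition w) {M : ℝ} (hM : 2 ≤ M) :
    ∫ z : ℂ, w z * |deriv eta (z.im - M)| = (1 / 2) * C1 := by
  have h1 := integral_w_mul_im hw (h := fun y => |deriv eta (y - M)|)
    ((continuous_deriv_eta.comp (continuous_id.sub continuous_const)).abs)
    (fun y hy => by rw [deriv_eta_of_neg (by linarith)]; simp)
    (hasCompactSupport_shift (f := fun t => |deriv eta t|)
      (fun t ht => by simp [deriv_eta_zero t ht]) M)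
  rw [integral_sub_right_eq_self (fun t => |deriv eta t|) M] at h1
  exact h1


/-- outside the strip `|re| ≤ B`, `M ≤ im ≤ M + 1` the product `w · η'` vanishes -/
lemma W_mul_etaD_eq_zero {B : ℝ} (hB : ∀ z ∈ tsupport w, |z.re| ≤ B) (M : ℝ) (z : ℂ)
    (hz : z ∉ Icc (-B) B ×ℂ Icc M (M + 1)) : w z = 0 ∨ deriv eta (z.im - M) = 0 := by
  rw [Complex.mem_reProdIm, not_and_or] at hz
  rcases hz with hz | hz
  · left
    by_contra h0
    have := hB _ (subset_tsupport w (Function.mem_support.mpr h0))
    exact hz (mem_Icc.mpr (abs_le.mp this))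
  · right
    apply deriv_eta_zero
    simp only [mem_Icc, not_and_or, not_le] at hz
    rcases hz with hz | hz
    · left; linarith
    · right; linarith

/-- **Term B**: the horocycle term tends to `-(i/2) L`. -/
theorem tendsto_termB (hw : SLPartition w) (hw0 : ∀ z, 0 ≤ w z) {Gf : ℂ → ℂ} {M₁ : ℝ}
    (hGc : ContinuousOn Gf {z : ℂ | M₁ ≤ z.im}) {Lc : ℂ}
    (hL : ∀ ε > 0, ∃ Y : ℝ, ∀ z : ℂ, Y ≤ z.im → ‖Gf z - Lc‖ < ε) :
    Tendsto (fun M : ℝ => ∫ z : ℂ, W w z * (Complex.I * etaD M z) * Gf z) atTop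
      (𝓝 (-(Complex.I / 2) * Lc)) := by
  obtain ⟨B, hB⟩ := hw.tsupp_re
  rw [Metric.tendsto_atTop]
  intro ε hε
  have hC : 0 < C1 + 1 := by linarith [C1_nonneg]
  set ε' : ℝ := ε / (C1 + 1) with hε'
  have hε'pos : 0 < ε' := div_pos hε hC
  obtain ⟨Y, hY⟩ := hL ε' hε'pos
  refine ⟨max (max 2 M₁) Y, fun M hM => ?_⟩
  have hM2 : 2 ≤ M := le_trans (le_trans (le_max_left _ _) (le_max_left _ _)) hM
  have hM1 : M₁ ≤ M := le_trans (le_trans (le_max_right _ _) (le_max_left _ _)) hM
  have hMY : Y ≤ M := le_trans (le_max_right _ _) hM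
  set K : Set ℂ := Icc (-B) B ×ℂ Icc M (M + 1) with hK
  have hKc : IsCompact K := isCompact_Icc.reProdIm isCompact_Icc
  have hKsub : K ⊆ {z : ℂ | M₁ ≤ z.im} := by
    intro z hz
    rw [hK, Complex.mem_reProdIm] at hz
    exact le_trans hM1 hz.2.1
  have hWc : Continuous (W w) := (contDiff_W hw.contDiff).continuous
  have hsupp : ∀ z, z ∉ K → W w z * (Complex.I * etaD M z) = 0 := by
    intro z hz
    rcases W_mul_etaD_eq_zero hB M z hz with h | h
    · simp [W, h]
    · simp [etaD, h]
  have hI1 : Integrable (fun z => W w z * (Complex.I * etaD M z) * Gf z) := by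
    apply integrable_of_continuousOn_of_support hKc
    · exact ((hWc.mul (continuous_const.mul (continuous_etaD M))).continuousOn).mul
        (hGc.mono hKsub)
    · intro z hz; rw [hsupp z hz, zero_mul]
  have hI2 : Integrable (fun z => W w z * (Complex.I * etaD M z) * Lc) := by
    apply integrable_of_continuousOn_of_support hKc
    · exact ((hWc.mul (continuous_const.mul (continuous_etaD M))).mul
        continuous_const).continuousOn
    · intro z hz; rw [hsupp z hz, zero_mul]
  have hsplit : ∫ z, W w z * (Complex.I * etaD M z) * Gf z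
      = (∫ z, W w z * (Complex.I * etaD M z) * (Gf z - Lc))
        + ∫ z, W w z * (Complex.I * etaD M z) * Lc := by
    rw [← integral_add _ hI2]
    · congr 1; funext z; ring
    · have := hI1.sub hI2
      refine this.congr (Filter.Eventually.of_forall fun z => ?_)
      simp only [Pi.sub_apply]; ring
  have hconst : ∫ z, W w z * (Complex.I * etaD M z) * Lc = -(Complex.I / 2) * Lc := by
    have : ∀ z, W w z * (Complex.I * etaD M z) * Lc
        = (Complex.I * Lc) * (W w z * etaD M z) := by intro z; ring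
    simp only [this]
    rw [integral_const_mul, integral_W_etaD hw hM2]; ring
  rw [dist_eq_norm, hsplit, hconst, add_sub_cancel_right]
  have hbound : ∀ z, ‖W w z * (Complex.I * etaD M z) * (Gf z - Lc)‖
      ≤ ε' * (w z * |deriv eta (z.im - M)|) := by
    intro z
    by_cases h0 : deriv eta (z.im - M) = 0
    · simp [etaD, h0]
    · have hz : M ≤ z.im := by
        by_contra h
        exact h0 (deriv_eta_of_neg (by linarith))
      have hlt := hY z (le_trans hMY hz)
      rw [norm_mul, norm_mul, norm_mul, Complex.norm_I, one_mul]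
      have h1 : ‖W w z‖ = w z := by simp [W, abs_of_nonneg (hw0 z)]
      have h2 : ‖etaD M z‖ = |deriv eta (z.im - M)| := by simp [etaD]
      rw [h1, h2]
      have h3 : 0 ≤ w z * |deriv eta (z.im - M)| := mul_nonneg (hw0 z) (abs_nonneg _)
      calc w z * |deriv eta (z.im - M)| * ‖Gf z - Lc‖
          ≤ w z * |deriv eta (z.im - M)| * ε' := mul_le_mul_of_nonneg_left hlt.le h3
        _ = ε' * (w z * |deriv eta (z.im - M)|) := by ring
  have hgc : Continuous (fun z : ℂ => ε' * (w z * |deriv eta (z.im - M)|)) :=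
    continuous_const.mul (hw.contDiff.continuous.mul
      (continuous_deriv_eta.comp (Complex.continuous_im.sub continuous_const)).abs)
  have hIg : Integrable (fun z : ℂ => ε' * (w z * |deriv eta (z.im - M)|)) := by
    apply hgc.integrable_of_hasCompactSupport
    apply HasCompactSupport.intro hKc
    intro z hz
    rcases W_mul_etaD_eq_zero hB M z hz with h | h
    · simp [h]
    · simp [h]
  calc ‖∫ z, W w z * (Complex.I * etaD M z) * (Gf z - Lc)‖
      ≤ ∫ z, ε' * (w z * |deriv eta (z.im - M)|) :=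
        norm_integral_le_of_norm_le hIg (Filter.Eventually.of_forall hbound)
    _ = ε' * ((1 / 2) * C1) := by rw [integral_const_mul, integral_w_abs_etaD hw hM2]
    _ < ε' * (C1 + 1) := by
        apply mul_lt_mul_of_pos_left _ hε'pos
        linarith [C1_nonneg]
    _ = ε := by rw [hε']; field_simp


/-! ### removing the cut-off -/

lemma norm_etaC_le (M : ℝ) (z : ℂ) : ‖etaC M z‖ ≤ 1 := by
  unfold etaC eta
  rw [Complex.norm_real, Real.norm_eq_abs, abs_of_nonneg (Real.smoothTransition.nonneg _)]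
  exact Real.smoothTransition.le_one _

lemma etaC_eq_one {M : ℝ} {z : ℂ} (h : z.im ≤ M) : etaC M z = 1 := by
  unfold etaC
  rw [eta_of_nonpos (by linarith)]
  simp

lemma etaC_eq_zero {M : ℝ} {z : ℂ} (h : M + 1 ≤ z.im) : etaC M z = 0 := by
  unfold etaC
  rw [eta_of_one_le (by linarith)]
  simp

/-- `∫ w η_M H → ∫ w H` (dominated convergence). -/
theorem tendsto_integral_cutoff {H : ℂ → ℂ} (hint : Integrable (fun z => W w z * H z)) :
    Tendsto (fun M : ℝ => ∫ z, (W w z * etaC M z) * H z) atTop (𝓝 (∫ z, W w z * H z)) := by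
  apply tendsto_integral_filter_of_dominated_convergence (fun z => ‖W w z * H z‖)
  · refine Filter.Eventually.of_forall fun M => ?_
    have h1 : AEStronglyMeasurable (fun z => etaC M z * (W w z * H z)) :=
      ((contDiff_etaC M).continuous.aestronglyMeasurable).mul hint.aestronglyMeasurable
    refine h1.congr (Filter.Eventually.of_forall fun z => ?_)
    ring
  · refine Filter.Eventually.of_forall fun M => Filter.Eventually.of_forall fun z => ?_
    have : W w z * etaC M z * H z = etaC M z * (W w z * H z) := by ring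
    rw [this, norm_mul]
    calc ‖etaC M z‖ * ‖W w z * H z‖ ≤ 1 * ‖W w z * H z‖ :=
          mul_le_mul_of_nonneg_right (norm_etaC_le M z) (norm_nonneg _)
      _ = _ := one_mul _
  · exact hint.norm
  · refine Filter.Eventually.of_forall fun z => ?_
    apply tendsto_const_nhds.congr'
    filter_upwards [Filter.eventually_ge_atTop z.im] with M hM
    rw [etaC_eq_one hM, mul_one]


/-! ### the assembly -/

lemma integrable_termB (hw : SLPartition w) {Gf : ℂ → ℂ} {M₁ M : ℝ}
    (hGc : ContinuousOn Gf {z : ℂ | M₁ ≤ z.im}) (hM1 : M₁ ≤ M) :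
    Integrable (fun z => W w z * (Complex.I * etaD M z) * Gf z) := by
  obtain ⟨B, hB⟩ := hw.tsupp_re
  set K : Set ℂ := Icc (-B) B ×ℂ Icc M (M + 1) with hK
  have hKc : IsCompact K := isCompact_Icc.reProdIm isCompact_Icc
  have hKsub : K ⊆ {z : ℂ | M₁ ≤ z.im} := by
    intro z hz
    rw [hK, Complex.mem_reProdIm] at hz
    exact le_trans hM1 hz.2.1
  have hWc : Continuous (W w) := (contDiff_W hw.contDiff).continuous
  apply integrable_of_continuousOn_of_support hKc
  · exact ((hWc.mul (continuous_const.mul (continuous_etaD M))).continuousOn).mul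
      (hGc.mono hKsub)
  · intro z hz
    rcases W_mul_etaD_eq_zero hB M z hz with h | h
    · simp [W, h]
    · simp [etaD, h]

/-- the cut-off weight `φ_M = w · η(y - M)` -/
def phiM (w : ℂ → ℝ) (M : ℝ) (z : ℂ) : ℂ := W w z * etaC M z

lemma contDiff_phiM (hw : SLPartition w) (M : ℝ) : ContDiff ℝ 1 (phiM w M) :=
  (contDiff_W hw.contDiff).mul (contDiff_etaC M)

lemma tsupport_phiM_subset (M : ℝ) : tsupport (phiM w M) ⊆ tsupport w := by
  rw [← tsupport_W]
  exact tsupport_mul_subset_left

lemma hasCompactSupport_phiM (hw : SLPartition w) (M : ℝ) : HasCompactSupport (phiM w M) := by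
  obtain ⟨B, hB⟩ := hw.tsupp_re
  apply HasCompactSupport.intro
    ((isCompact_Icc (a := -B) (b := B)).reProdIm (isCompact_Icc (a := 1 / 2) (b := M + 1)))
  intro z hz
  rw [Complex.mem_reProdIm, not_and_or] at hz
  unfold phiM
  by_cases h0 : w z = 0
  · simp [W, h0]
  have hzs : z ∈ tsupport w := subset_tsupport w (Function.mem_support.mpr h0)
  rcases hz with hz | hz
  · exact absurd (mem_Icc.mpr (abs_le.mp (hB z hzs))) hz
  · have h1 := hw.tsupp_im z hzs
    simp only [mem_Icc, not_and_or, not_le] at hz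
    rcases hz with hz | hz
    · linarith
    · rw [etaC_eq_zero hz.le, mul_zero]

lemma tsupport_w_subset_UH (hw : SLPartition w) : tsupport w ⊆ UH := by
  intro z hz
  have := hw.tsupp_im z hz
  show 0 < z.im
  linarith

lemma dbar2_phiM (hw : SLPartition w) (M : ℝ) (z : ℂ) :
    dbar2 (phiM w M) z = dbar2 (W w) z * etaC M z + W w z * (Complex.I * etaD M z) := by
  unfold phiM
  rw [dbar2_mul ((contDiff_W hw.contDiff).differentiable one_ne_zero z)
    ((contDiff_etaC M).differentiable one_ne_zero z), dbar2_etaC]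


open Fermat.Agent.M17.DegLocal5 Fermat.Agent.M17.DbarLogDeriv5 in
/-- the identity at a fixed truncation level `M` -/
theorem termB_eq (hw : SLPartition w) {F S : ℂ → ℂ}
    (hF : DifferentiableOn ℂ F UH) (hne : ∀ z ∈ UH, analyticOrderAt F z ≠ ⊤)
    (hS : ContDiffOn ℝ 1 S UH)
    (hG : ∀ᵐ z : ℍ, ∀ g : SL(2, ℤ), (deriv F ↑(g • z) / F ↑(g • z) + S ↑(g • z))
        = (denom g z) ^ 2 * (deriv F z / F z + S z))
    {M₀ : ℝ} (hM₀ : ∀ z : ℂ, M₀ ≤ z.im → F z ≠ 0)
    (Z : Finset ℂ) (hZ : ∀ z ∈ tsupport w, F z = 0 → z ∈ Z) {M : ℝ} (hM2 : 2 ≤ M)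
    (hMM : M₀ ≤ M) :
    ∫ z : ℂ, W w z * (Complex.I * etaD M z) * (deriv F z / F z + S z)
      = -(2 * π) * ∑ p ∈ Z, (analyticOrderNatAt F p : ℂ) * W w p
        - ∫ z, (W w z * etaC M z) * dbar2 S z := by
  set Gf : ℂ → ℂ := fun z => deriv F z / F z + S z with hGf
  have hφ := contDiff_phiM hw M
  have hc := hasCompactSupport_phiM hw M
  have hsub : tsupport (phiM w M) ⊆ UH :=
    (tsupport_phiM_subset M).trans (tsupport_w_subset_UH hw)
  have hZ' : ∀ z ∈ tsupport (phiM w M), F z = 0 → z ∈ Z := fun z hz =>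
    hZ z (tsupport_phiM_subset M hz)
  have hstar := integral_dbar2_mul_logDeriv_add hφ hc isOpen_UH hsub hF hne hS Z hZ'
  -- continuity of `Gf` high up
  have hGc : ContinuousOn Gf {z : ℂ | max M₀ 1 ≤ z.im} := by
    have hsubU : {z : ℂ | max M₀ 1 ≤ z.im} ⊆ UH := by
      intro z hz
      have : (1 : ℝ) ≤ z.im := le_trans (le_max_right _ _) hz
      show 0 < z.im
      linarith
    have h1 : ContinuousOn (deriv F) UH := (hF.deriv isOpen_UH).continuousOn
    refine ((h1.mono hsubU).div (hF.continuousOn.mono hsubU) ?_).add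
      (hS.continuousOn.mono hsubU)
    intro z hz
    exact hM₀ z (le_trans (le_max_left _ _) hz)
  have hIB : Integrable (fun z => W w z * (Complex.I * etaD M z) * Gf z) :=
    integrable_termB hw hGc (max_le hMM (by linarith))
  -- integrability of the full integrand
  have hIfull : Integrable (fun z => dbar2 (phiM w M) z * Gf z) := by
    have h1 : Integrable (fun z => dbar2 (phiM w M) z * (deriv F z / F z)) :=
      integrable_dbar2_mul_logDeriv hφ hc isOpen_UH hsub hF hne
    have h2 : Integrable (fun z => dbar2 (phiM w M) z * S z) := by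
      apply integrable_of_continuousOn_of_support (hc : IsCompact (tsupport (phiM w M)))
      · exact (continuous_dbar2 hφ).continuousOn.mul (hS.continuousOn.mono hsub)
      · intro z hz; simp [dbar2_eq_zero_of_notMem z hz]
    refine (h1.add h2).congr (Filter.Eventually.of_forall fun z => ?_)
    simp only [Pi.add_apply, hGf]; ring
  -- Term A
  have hIA : Integrable (fun z => (eta (z.im - M) : ℂ) * dbar2 (W w) z * Gf z) := by
    refine (hIfull.sub hIB).congr (Filter.Eventually.of_forall fun z => ?_)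
    simp only [Pi.sub_apply]
    rw [dbar2_phiM hw M z]
    unfold etaC
    ring
  have hA : ∫ z, (eta (z.im - M) : ℂ) * dbar2 (W w) z * Gf z = 0 := by
    rw [← integral_cutoff_dbar2_mul_eq_zero hw hM2 (G := Gf) hG hIA.integrableOn]
    symm
    apply setIntegral_eq_integral_of_forall_compl_eq_zero
    intro z hz
    have : z ∉ tsupport (W w) := by
      rw [tsupport_W]
      exact fun h => hz (tsupport_w_subset_UH hw h)
    rw [dbar2_eq_zero_of_notMem z this]
    ring
  -- split the left-hand side of (★)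
  have hsplit : ∫ z, dbar2 (phiM w M) z * Gf z
      = (∫ z, (eta (z.im - M) : ℂ) * dbar2 (W w) z * Gf z)
        + ∫ z, W w z * (Complex.I * etaD M z) * Gf z := by
    rw [← integral_add hIA hIB]
    congr 1
    funext z
    rw [dbar2_phiM hw M z]
    unfold etaC
    ring
  rw [hA, zero_add] at hsplit
  -- the zeros
  have hsum : ∑ p ∈ Z, (analyticOrderNatAt F p : ℂ) * phiM w M p
      = ∑ p ∈ Z, (analyticOrderNatAt F p : ℂ) * W w p := by
    apply Finset.sum_congr rfl
    intro p _
    by_cases h0 : w p = 0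
    · simp [phiM, W, h0]
    have hps : p ∈ tsupport w := subset_tsupport w (Function.mem_support.mpr h0)
    have hpU : p ∈ UH := tsupport_w_subset_UH hw hps
    by_cases hFp : F p = 0
    · have : p.im ≤ M := by
        by_contra h
        exact hM₀ p (by linarith) hFp
      unfold phiM
      rw [etaC_eq_one this, mul_one]
    · have han : AnalyticAt ℂ F p := hF.analyticAt (isOpen_UH.mem_nhds hpU)
      have : analyticOrderNatAt F p = 0 := by
        unfold analyticOrderNatAt
        rw [han.analyticOrderAt_eq_zero.mpr hFp]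
        rfl
      simp [this]
  rw [← hsplit, hstar, hsum]
  rfl


/-- **(DEG), core theorem for `SL(2, ℤ)`**: for `G = F'/F + S` of weight `2` tending to `L` at
`i∞`, `2π ∑_p ord_p(F) w(p) = (i/2) L - ∫ w · 2∂̄S`. -/
theorem deg_core (hw : SLPartition w) (hw0 : ∀ z, 0 ≤ w z) {F S : ℂ → ℂ}
    (hF : DifferentiableOn ℂ F UH) (hne : ∀ z ∈ UH, analyticOrderAt F z ≠ ⊤)
    (hS : ContDiffOn ℝ 1 S UH)
    (hG : ∀ᵐ z : ℍ, ∀ g : SL(2, ℤ), (deriv F ↑(g • z) / F ↑(g • z) + S ↑(g • z))
        = (denom g z) ^ 2 * (deriv F z / F z + S z))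
    {M₀ : ℝ} (hM₀ : ∀ z : ℂ, M₀ ≤ z.im → F z ≠ 0)
    {Lc : ℂ} (hL : ∀ ε > 0, ∃ Y : ℝ, ∀ z : ℂ, Y ≤ z.im → ‖deriv F z / F z + S z - Lc‖ < ε)
    (hint : Integrable (fun z => W w z * dbar2 S z))
    (Z : Finset ℂ) (hZ : ∀ z ∈ tsupport w, F z = 0 → z ∈ Z) :
    2 * π * ∑ p ∈ Z, (analyticOrderNatAt F p : ℂ) * W w p
      = (Complex.I / 2) * Lc - ∫ z, W w z * dbar2 S z := by
  set Gf : ℂ → ℂ := fun z => deriv F z / F z + S z with hGf
  have hGc : ContinuousOn Gf {z : ℂ | max M₀ 1 ≤ z.im} := by
    have hsubU : {z : ℂ | max M₀ 1 ≤ z.im} ⊆ UH := by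
      intro z hz
      have : (1 : ℝ) ≤ z.im := le_trans (le_max_right _ _) hz
      show 0 < z.im
      linarith
    have h1 : ContinuousOn (deriv F) UH := (hF.deriv isOpen_UH).continuousOn
    refine ((h1.mono hsubU).div (hF.continuousOn.mono hsubU) ?_).add
      (hS.continuousOn.mono hsubU)
    intro z hz
    exact hM₀ z (le_trans (le_max_left _ _) hz)
  have hlim1 := tendsto_termB hw hw0 hGc (Lc := Lc) hL
  have hlim2 : Tendsto (fun M : ℝ => -(2 * π) * ∑ p ∈ Z, (analyticOrderNatAt F p : ℂ) * W w p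
        - ∫ z, (W w z * etaC M z) * dbar2 S z) atTop
      (𝓝 (-(2 * π) * ∑ p ∈ Z, (analyticOrderNatAt F p : ℂ) * W w p
        - ∫ z, W w z * dbar2 S z)) :=
    tendsto_const_nhds.sub (tendsto_integral_cutoff hint)
  have hev : (fun M : ℝ => ∫ z : ℂ, W w z * (Complex.I * etaD M z) * Gf z) =ᶠ[atTop]
      fun M : ℝ => -(2 * π) * ∑ p ∈ Z, (analyticOrderNatAt F p : ℂ) * W w p
        - ∫ z, (W w z * etaC M z) * dbar2 S z := by
    filter_upwards [Filter.eventually_ge_atTop (max 2 M₀)] with M hM
    exact termB_eq hw hF hne hS hG hM₀ Z hZ (le_trans (le_max_left _ _) hM)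
      (le_trans (le_max_right _ _) hM)
  have := tendsto_nhds_unique (hlim1.congr' hev) hlim2
  linear_combination this

end

end Fermat.Agent.M17.DegCore5
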