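import Fermat.Agent.M17.DegCore5

/-!
# (DEG), the trace step

`deg_core` for a finite family `(F_x, S_x)_{x ∈ X}` that is permuted by `SL(2, ℤ)`
(`F = ∏ F_x`, `S = ∑ S_x`): the form in which it is applied to the translates of a
`Γ₀(N)`-automorphic function by coset representatives.
-/

set_option autoImplicit false

namespace Fermat.Agent.M17.DegTrace5

open MeasureTheory Set Filter Topology UpperHalfPlane
open scoped Real MatrixGroups
open Fermat.Agent.M17.CauchyPompeiu5 Fermat.Agent.M17.DegMoebius5 Fermat.Agent.M17.DegMeasure5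
  Fermat.Agent.M17.DegUnfold5 Fermat.Agent.M17.DbarResidue5 Fermat.Agent.M17.DegCore5
  Fermat.Agent.M17.DbarLogDeriv5

noncomputable section

/-! ### orders of finite products -/

section Order

variable {X : Type*}

lemma analyticAt_prod {Fx : X → ℂ → ℂ} {z : ℂ} (s : Finset X)
    (hA : ∀ x, AnalyticAt ℂ (Fx x) z) : AnalyticAt ℂ (fun z => ∏ x ∈ s, Fx x z) z := by
  classical
  induction s using Finset.induction_on with
  | empty => simpa using analyticAt_const
  | insert a s ha ih =>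
    simp only [Finset.prod_insert ha]
    exact (hA a).mul ih

lemma analyticOrderAt_prod_ne_top {Fx : X → ℂ → ℂ} {z : ℂ} (s : Finset X)
    (hA : ∀ x, AnalyticAt ℂ (Fx x) z) (hne : ∀ x, analyticOrderAt (Fx x) z ≠ ⊤) :
    analyticOrderAt (fun z => ∏ x ∈ s, Fx x z) z ≠ ⊤ := by
  classical
  induction s using Finset.induction_on with
  | empty =>
    simp only [Finset.prod_empty]
    have : analyticOrderAt (fun _ : ℂ => (1 : ℂ)) z = 0 :=
      (analyticAt_const.analyticOrderAt_eq_zero).mpr one_ne_zero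
    rw [this]; simp
  | insert a s ha ih =>
    have h1 : (fun z => ∏ x ∈ insert a s, Fx x z) = Fx a * fun z => ∏ x ∈ s, Fx x z := by
      funext z; simp [Finset.prod_insert ha]
    rw [h1, analyticOrderAt_mul (hA a) (analyticAt_prod s hA)]
    exact WithTop.add_ne_top.mpr ⟨hne a, ih⟩

lemma analyticOrderNatAt_prod {Fx : X → ℂ → ℂ} {z : ℂ} (s : Finset X)
    (hA : ∀ x, AnalyticAt ℂ (Fx x) z) (hne : ∀ x, analyticOrderAt (Fx x) z ≠ ⊤) :
    analyticOrderNatAt (fun z => ∏ x ∈ s, Fx x z) z = ∑ x ∈ s, analyticOrderNatAt (Fx x) z := by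
  classical
  induction s using Finset.induction_on with
  | empty =>
    simp only [Finset.prod_empty, Finset.sum_empty]
    have : analyticOrderAt (fun _ : ℂ => (1 : ℂ)) z = 0 :=
      (analyticAt_const.analyticOrderAt_eq_zero).mpr one_ne_zero
    unfold analyticOrderNatAt
    rw [this]; rfl
  | insert a s ha ih =>
    have h1 : (fun z => ∏ x ∈ insert a s, Fx x z) = Fx a * fun z => ∏ x ∈ s, Fx x z := by
      funext z; simp [Finset.prod_insert ha]
    rw [h1, analyticOrderNatAt_mul (hA a) (analyticAt_prod s hA) (hne a)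
      (analyticOrderAt_prod_ne_top s hA hne), ih, Finset.sum_insert ha]

end Order

/-! ### null sets -/

lemma volume_eq_zero_of_countable {B : Set ℍ} (hB : B.Countable) : volume B = 0 := by
  rw [volume_eq]
  apply withDensity_absolutelyContinuous
  rw [measurableEmbedding_coe.comap_apply]
  exact (hB.image _).measure_zero _

lemma countable_zeros {F : ℂ → ℂ} (hF : DifferentiableOn ℂ F UH)
    (hne : ∀ z ∈ UH, analyticOrderAt F z ≠ ⊤) : (UH ∩ {z | F z = 0}).Countable := by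
  -- exhaustion by compact boxes
  have hcov : UH ∩ {z | F z = 0} ⊆ ⋃ n : ℕ,
      ((Icc (-(n : ℝ)) n ×ℂ Icc (1 / ((n : ℝ) + 1)) n) ∩ {z | F z = 0}) := by
    intro z ⟨hz, hz0⟩
    have hzim : 0 < z.im := hz
    obtain ⟨n1, hn1⟩ := exists_nat_ge |z.re|
    obtain ⟨n2, hn2⟩ := exists_nat_ge z.im
    obtain ⟨n3, hn3⟩ := exists_nat_ge (1 / z.im)
    set n := max n1 (max n2 n3) with hn
    refine mem_iUnion.mpr ⟨n, ⟨?_, hz0⟩⟩
    rw [Complex.mem_reProdIm]
    have h1 : (n1 : ℝ) ≤ n := by exact_mod_cast le_max_left _ _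
    have h2 : (n2 : ℝ) ≤ n := by
      exact_mod_cast le_trans (le_max_left _ _) (le_max_right _ _)
    have h3 : (n3 : ℝ) ≤ n := by
      exact_mod_cast le_trans (le_max_right _ _) (le_max_right _ _)
    refine ⟨mem_Icc.mpr (abs_le.mp (le_trans hn1 h1)), mem_Icc.mpr ⟨?_, le_trans hn2 h2⟩⟩
    rw [div_le_iff₀ (by positivity)]
    have : 1 / z.im ≤ n := le_trans hn3 h3
    rw [div_le_iff₀ hzim] at this
    nlinarith
  apply Countable.mono hcov
  apply countable_iUnion
  intro n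
  apply Set.Finite.countable
  apply finite_zeros isOpen_UH (isCompact_Icc.reProdIm isCompact_Icc) _ hF hne
  intro z hz
  rw [Complex.mem_reProdIm] at hz
  have : 0 < 1 / ((n : ℝ) + 1) := by positivity
  exact lt_of_lt_of_le this hz.2.1


/-! ### the trace theorem -/

section Trace

variable {X : Type*} [Fintype X] {w : ℂ → ℝ}

lemma dbar2_sum {Sx : X → ℂ → ℂ} {z : ℂ} (h : ∀ x, DifferentiableAt ℝ (Sx x) z) :
    dbar2 (fun z => ∑ x, Sx x z) z = ∑ x, dbar2 (Sx x) z := by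
  unfold dbar2
  rw [fderiv_fun_sum (fun x _ => h x)]
  simp only [FunLike.coe_sum, Finset.sum_apply, Finset.mul_sum, Finset.sum_add_distrib]

lemma W_eq_zero_of_notMem_UH (hw : SLPartition w) {z : ℂ} (hz : z ∉ UH) : W w z = 0 := by
  have : z ∉ tsupport w := fun h => hz (tsupport_w_subset_UH hw h)
  have h0 : w z = 0 := by
    by_contra h
    exact this (subset_tsupport w (Function.mem_support.mpr h))
  simp [W, h0]

/-- **(DEG), trace form**: `deg_core` for `F = ∏ F_x`, `S = ∑ S_x`, the family being permuted by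
`SL(2, ℤ)` (weight `2`), with limits `ℓ_x` of `F_x'/F_x + S_x` at `i∞`. -/
theorem deg_trace (hw : SLPartition w) (hw0 : ∀ z, 0 ≤ w z) {Fx Sx : X → ℂ → ℂ}
    (hF : ∀ x, DifferentiableOn ℂ (Fx x) UH)
    (hne : ∀ x, ∀ z ∈ UH, analyticOrderAt (Fx x) z ≠ ⊤)
    (hS : ∀ x, ContDiffOn ℝ 1 (Sx x) UH)
    (hperm : ∀ g : SL(2, ℤ), ∃ σ : Equiv.Perm X, ∀ x, ∀ z : ℍ,
        (Fx x ↑(g • z) = 0 ↔ Fx (σ x) ↑z = 0) ∧
        (Fx (σ x) ↑z ≠ 0 → deriv (Fx x) ↑(g • z) / Fx x ↑(g • z) + Sx x ↑(g • z)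
          = denom g z ^ 2 * (deriv (Fx (σ x)) ↑z / Fx (σ x) ↑z + Sx (σ x) ↑z)))
    (ℓ : X → ℂ)
    (hcusp : ∀ x, ∀ ε > 0, ∃ Y : ℝ, ∀ z : ℂ, Y ≤ z.im → Fx x z ≠ 0 ∧
        ‖deriv (Fx x) z / Fx x z + Sx x z - ℓ x‖ < ε)
    (hint : ∀ x, Integrable (fun z => W w z * dbar2 (Sx x) z))
    (Z : Finset ℂ) (hZ : ∀ z ∈ tsupport w, ∀ x, Fx x z = 0 → z ∈ Z) :
    2 * π * ∑ p ∈ Z, (∑ x, (analyticOrderNatAt (Fx x) p : ℂ)) * W w p
      = (Complex.I / 2) * ∑ x, ℓ x - ∑ x, ∫ z, W w z * dbar2 (Sx x) z := by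
  classical
  set F : ℂ → ℂ := fun z => ∏ x, Fx x z with hFdef
  set S : ℂ → ℂ := fun z => ∑ x, Sx x z with hSdef
  have hA : ∀ z ∈ UH, ∀ x, AnalyticAt ℂ (Fx x) z := fun z hz x =>
    (hF x).analyticAt (isOpen_UH.mem_nhds hz)
  have hF' : DifferentiableOn ℂ F UH := by
    rw [hFdef]
    exact DifferentiableOn.fun_finsetProd fun x _ => hF x
  have hne' : ∀ z ∈ UH, analyticOrderAt F z ≠ ⊤ := fun z hz =>
    analyticOrderAt_prod_ne_top Finset.univ (hA z hz) (fun x => hne x z hz)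
  have hS' : ContDiffOn ℝ 1 S UH := by
    rw [hSdef]
    exact ContDiffOn.sum fun x _ => hS x
  -- logarithmic derivative of the product where no factor vanishes
  have hlog : ∀ z ∈ UH, (∀ x, Fx x z ≠ 0) →
      deriv F z / F z = ∑ x, deriv (Fx x) z / Fx x z := by
    intro z hz h0
    have := logDeriv_prod (s := Finset.univ) (f := Fx) (x := z) (fun x _ => h0 x)
      (fun x _ => ((hF x).differentiableAt (isOpen_UH.mem_nhds hz)))
    simp only [logDeriv_apply] at this
    exact this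
  -- the a.e. invariance
  have hnull : volume {z : ℍ | ∃ x, Fx x ↑z = 0} = 0 := by
    apply volume_eq_zero_of_countable
    have : {z : ℍ | ∃ x, Fx x ↑z = 0}
        = ⋃ x, (UpperHalfPlane.coe ⁻¹' (UH ∩ {z | Fx x z = 0})) := by
      ext z
      simp only [Set.mem_ofPred_eq, mem_iUnion, mem_preimage, mem_inter_iff]
      constructor
      · rintro ⟨x, hx⟩; exact ⟨x, z.im_pos, hx⟩
      · rintro ⟨x, -, hx⟩; exact ⟨x, hx⟩
    rw [this]
    apply countable_iUnion
    intro x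
    exact (countable_zeros (hF x) (hne x)).preimage_of_injOn
      (UpperHalfPlane.coe_injective.injOn)
  have hG : ∀ᵐ z : ℍ, ∀ g : SL(2, ℤ), (deriv F ↑(g • z) / F ↑(g • z) + S ↑(g • z))
      = (denom g z) ^ 2 * (deriv F z / F z + S z) := by
    have : ∀ᵐ z : ℍ, z ∉ {z : ℍ | ∃ x, Fx x ↑z = 0} := measure_eq_zero_iff_ae_notMem.mp hnull
    filter_upwards [this] with z hz g
    simp only [not_exists] at hz
    obtain ⟨σ, hσ⟩ := hperm g
    have h0g : ∀ x, Fx x ↑(g • z) ≠ 0 := fun x h => hz (σ x) ((hσ x z).1.mp h)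
    rw [hlog _ (g • z).im_pos h0g, hlog _ z.im_pos hz]
    show ∑ x, deriv (Fx x) ↑(g • z) / Fx x ↑(g • z) + ∑ x, Sx x ↑(g • z)
      = denom g z ^ 2 * (∑ x, deriv (Fx x) ↑z / Fx x ↑z + ∑ x, Sx x ↑z)
    rw [← Finset.sum_add_distrib, ← Finset.sum_add_distrib, Finset.mul_sum]
    rw [← Equiv.sum_comp σ (fun x => denom g z ^ 2 * (deriv (Fx x) ↑z / Fx x ↑z + Sx x ↑z))]
    exact Finset.sum_congr rfl fun x _ => (hσ x z).2 (hz (σ x))
  -- the cusp
  choose Yf hYf using fun x => hcusp x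
  have hM₀ : ∀ z : ℂ, (1 + ∑ x, |Yf x 1 one_pos|) ≤ z.im → F z ≠ 0 := by
    intro z hz
    rw [hFdef]
    simp only
    rw [Finset.prod_ne_zero_iff]
    intro x _
    apply (hYf x 1 one_pos z _).1
    calc Yf x 1 one_pos ≤ |Yf x 1 one_pos| := le_abs_self _
      _ ≤ ∑ x, |Yf x 1 one_pos| :=
        Finset.single_le_sum (f := fun x => |Yf x 1 one_pos|) (fun i _ => abs_nonneg _)
          (Finset.mem_univ x)
      _ ≤ z.im := by linarith
  have hL : ∀ ε > 0, ∃ Y : ℝ, ∀ z : ℂ, Y ≤ z.im →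
      ‖deriv F z / F z + S z - ∑ x, ℓ x‖ < ε := by
    intro ε hε
    have hc : (0 : ℝ) < Fintype.card X + 1 := by positivity
    set ε' : ℝ := ε / (Fintype.card X + 1) with hε'
    have hε'pos : 0 < ε' := div_pos hε hc
    refine ⟨1 + ∑ x, |Yf x ε' hε'pos|, fun z hz => ?_⟩
    have hYx : ∀ x, Yf x ε' hε'pos ≤ z.im := by
      intro x
      calc Yf x ε' hε'pos ≤ |Yf x ε' hε'pos| := le_abs_self _
        _ ≤ ∑ x, |Yf x ε' hε'pos| :=
          Finset.single_le_sum (f := fun x => |Yf x ε' hε'pos|) (fun i _ => abs_nonneg _)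
            (Finset.mem_univ x)
        _ ≤ z.im := by linarith
    have hzU : z ∈ UH := by
      have : 0 ≤ ∑ x, |Yf x ε' hε'pos| := Finset.sum_nonneg fun i _ => abs_nonneg _
      show 0 < z.im
      linarith
    have h0 : ∀ x, Fx x z ≠ 0 := fun x => (hYf x ε' hε'pos z (hYx x)).1
    rw [hlog z hzU h0]
    show ‖∑ x, deriv (Fx x) z / Fx x z + ∑ x, Sx x z - ∑ x, ℓ x‖ < ε
    rw [← Finset.sum_add_distrib, ← Finset.sum_sub_distrib]
    calc ‖∑ x, (deriv (Fx x) z / Fx x z + Sx x z - ℓ x)‖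
        ≤ ∑ x, ‖deriv (Fx x) z / Fx x z + Sx x z - ℓ x‖ := norm_sum_le _ _
      _ ≤ ∑ _x : X, ε' :=
          Finset.sum_le_sum fun x _ => (hYf x ε' hε'pos z (hYx x)).2.le
      _ = Fintype.card X * ε' := by simp
      _ < (Fintype.card X + 1) * ε' := by nlinarith
      _ = ε := by rw [hε']; field_simp
  -- the Petersson term
  have hWS : ∀ z, W w z * dbar2 S z = ∑ x, W w z * dbar2 (Sx x) z := by
    intro z
    by_cases hz : z ∈ UH
    · rw [hSdef, dbar2_sum fun x =>
        ((hS x).differentiableOn one_ne_zero).differentiableAt (isOpen_UH.mem_nhds hz),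
        Finset.mul_sum]
    · rw [W_eq_zero_of_notMem_UH hw hz]; simp
  have hint' : Integrable (fun z => W w z * dbar2 S z) := by
    simp only [hWS]
    exact integrable_finsetSum _ fun x _ => hint x
  have hZ' : ∀ z ∈ tsupport w, F z = 0 → z ∈ Z := by
    intro z hz h0
    rw [hFdef] at h0
    simp only at h0
    obtain ⟨x, -, hx⟩ := Finset.prod_eq_zero_iff.mp h0
    exact hZ z hz x hx
  have key := deg_core hw hw0 hF' hne' hS' hG hM₀ hL hint' Z hZ'
  have hsum : ∑ p ∈ Z, (analyticOrderNatAt F p : ℂ) * W w p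
      = ∑ p ∈ Z, (∑ x, (analyticOrderNatAt (Fx x) p : ℂ)) * W w p := by
    apply Finset.sum_congr rfl
    intro p _
    by_cases hp : p ∈ UH
    · have := analyticOrderNatAt_prod Finset.univ (hA p hp) (fun x => hne x p hp)
      rw [hFdef, this]
      push_cast
      rfl
    · rw [W_eq_zero_of_notMem_UH hw hp]; simp
  rw [hsum] at key
  rw [key]
  congr 1
  simp only [hWS]
  exact integral_finsetSum _ fun x _ => hint x

end Trace

end

end Fermat.Agent.M17.DegTrace5
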