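import Fermat.Agent.M17.DegDefs5
import Fermat.Agent.M17.DegTrace5
import Fermat.Agent.ES.KUM.CExact5

/-!
# (DEG): instantiation of the trace theorem for `F_e = θ(A - e)` on `Γ₀(N)`

`X = SL(2, ℤ) ⧸ Γ₀(N)`, `F_x = F_e ∘ x.out⁻¹`, `S_x = S ∣[2] x.out⁻¹`.
-/

set_option autoImplicit false
set_option linter.unusedSectionVars false

namespace Fermat.Agent.M17.DegInst5

open MeasureTheory Set Filter Topology UpperHalfPlane CongruenceSubgroup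
open scoped Real MatrixGroups
open Fermat.Agent.M17.CauchyPompeiu5 Fermat.Agent.M17.DegMoebius5 Fermat.Agent.M17.DegMeasure5
  Fermat.Agent.M17.DegUnfold5 Fermat.Agent.M17.DbarResidue5 Fermat.Agent.M17.DegCore5
  Fermat.Agent.M17.DegTrace5 Fermat.Agent.M17.DegDefs5
open Fermat.Agent.M17.Interfaces7 Fermat.Agent.M17.Theta1
open Fermat.Agent.X0 Fermat.Agent.X0.SurjPoint Fermat.Agent.ES.KUM

noncomputable section

variable (N : ℕ) [NeZero N] {g : ℕ} (L : LatData N g) (e : Fin g → ℂ)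

/-- the inverted coset representatives -/
def rep (x : SL(2, ℤ) ⧸ Gamma0 N) : SL(2, ℤ) := (x.out)⁻¹

/-- the coset permutation: `rep x * g = η * rep (g⁻¹ • x)` with `η ∈ Γ₀(N)`. -/
lemma exists_rep_mul (g : SL(2, ℤ)) (x : SL(2, ℤ) ⧸ Gamma0 N) :
    ∃ η : Gamma0 N, rep N x * g = (η : SL(2, ℤ)) * rep N (g⁻¹ • x) := by
  have hx : g⁻¹ • x = QuotientGroup.mk (g⁻¹ * x.out) := by
    conv_lhs => rw [← QuotientGroup.out_eq' x]
    rfl
  obtain ⟨h, hh⟩ := QuotientGroup.mk_out_eq_mul (Gamma0 N) (g⁻¹ * x.out)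
  refine ⟨h, ?_⟩
  unfold rep
  rw [hx, hh]
  group

/-- `F_x = F_e ∘ x.out⁻¹` -/
def Fx (x : SL(2, ℤ) ⧸ Gamma0 N) (z : ℂ) : ℂ := FeFun L e (rep N x • ofComplex z)

/-- `S_x = S ∣[2] x.out⁻¹` -/
def Sx (x : SL(2, ℤ) ⧸ Gamma0 N) (z : ℂ) : ℂ :=
  Sfun N L e (rep N x • ofComplex z) / denom (rep N x) (ofComplex z) ^ 2

/-- `F_e` as a function on `ℂ` -/
def F0 (z : ℂ) : ℂ := FeFun L e (ofComplex z)

lemma differentiableAt_F0 (τ : ℍ) : DifferentiableAt ℂ (F0 N L e) (τ : ℂ) := by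
  have := mdiff_FeFun L e τ
  rw [UpperHalfPlane.mdifferentiableAt_iff] at this
  exact this

lemma Fx_eq (x : SL(2, ℤ) ⧸ Gamma0 N) : Fx N L e x = F0 N L e ∘ mob (rep N x) := by
  funext z
  simp only [Fx, F0, Function.comp_apply, mob, ofComplex_apply]

lemma hasDerivAt_Fx (x : SL(2, ℤ) ⧸ Gamma0 N) (τ : ℍ) :
    HasDerivAt (Fx N L e x)
      (deriv (F0 N L e) ↑(rep N x • τ) * (1 / denom (rep N x) τ ^ 2)) (τ : ℂ) := by
  rw [Fx_eq]
  have h1 : HasDerivAt (F0 N L e) (deriv (F0 N L e) ↑(rep N x • τ)) (mob (rep N x) (τ : ℂ)) := by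
    rw [mob_coe]
    exact (differentiableAt_F0 N L e _).hasDerivAt
  exact h1.comp (τ : ℂ) (hasDerivAt_mob (rep N x) τ)

lemma differentiableOn_Fx (x : SL(2, ℤ) ⧸ Gamma0 N) : DifferentiableOn ℂ (Fx N L e x) UH := by
  intro z hz
  exact (hasDerivAt_Fx N L e x ⟨z, hz⟩).differentiableAt.differentiableWithinAt

/-- `G_x = (G ∣[2] x.out⁻¹)` pointwise on `ℍ` -/
lemma Gx_eq (x : SL(2, ℤ) ⧸ Gamma0 N) (τ : ℍ) :
    deriv (Fx N L e x) τ / Fx N L e x τ + Sx N L e x τ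
      = Gfun N L e (rep N x • τ) / denom (rep N x) τ ^ 2 := by
  rw [(hasDerivAt_Fx N L e x τ).deriv]
  unfold Gfun Sx Fx
  rw [ofComplex_apply]
  have : (fun z : ℂ => FeFun L e (ofComplex z)) = F0 N L e := rfl
  rw [this]
  ring


lemma denom_cocycle_SL (g h : SL(2, ℤ)) (z : ℍ) :
    denom (((g * h : SL(2, ℤ)) : GL (Fin 2) ℝ)) z = denom g ↑(h • z) * denom h z := by
  have := denom_cocycle_σ (g : GL (Fin 2) ℝ) (h : GL (Fin 2) ℝ) z
  have hdet : (0 : ℝ) < ((h : GL (Fin 2) ℝ)).det.val := by simp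
  rw [UpperHalfPlane.σ, if_pos hdet] at this
  simpa using this

lemma isPreconnected_UH : IsPreconnected UH :=
  (convex_halfSpace_im_gt 0).isPreconnected

/-- `F_x` is not locally zero -/
lemma analyticOrderAt_Fx_ne_top (hFe : Fe L e ≠ 0) (x : SL(2, ℤ) ⧸ Gamma0 N) (z : ℂ)
    (hz : z ∈ UH) : analyticOrderAt (Fx N L e x) z ≠ ⊤ := by
  intro htop
  rw [analyticOrderAt_eq_top] at htop
  have hAn : AnalyticOnNhd ℂ (Fx N L e x) UH := fun w hw =>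
    (differentiableOn_Fx N L e x).analyticAt (isOpen_UH.mem_nhds hw)
  have h0 : EqOn (Fx N L e x) 0 UH :=
    hAn.eqOn_zero_of_preconnected_of_eventuallyEq_zero isPreconnected_UH hz htop
  apply hFe
  apply Subtype.ext
  funext τ
  have := h0 (show (((rep N x)⁻¹ • τ : ℍ) : ℂ) ∈ UH from ((rep N x)⁻¹ • τ).im_pos)
  simp only [Fx, ofComplex_apply, smul_inv_smul, Pi.zero_apply] at this
  exact this

lemma exists_FeFun_smul (γ : Gamma0 N) (τ : ℍ) :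
    ∃ c : ℂ, c ≠ 0 ∧ FeFun L e ((γ : SL(2, ℤ)) • τ) = c * FeFun L e τ :=
  ⟨_, Complex.exp_ne_zero _, FeFun_smul L e γ τ⟩

/-- the permutation hypothesis of `deg_trace` -/
lemma hperm_Fx
    (hGs : ∀ (γ : Gamma0 N) (τ : ℍ), FeFun L e τ ≠ 0 →
      Gfun N L e ((γ : SL(2, ℤ)) • τ) = denom (γ : SL(2, ℤ)) τ ^ 2 * Gfun N L e τ)
    (g : SL(2, ℤ)) : ∃ σ : Equiv.Perm (SL(2, ℤ) ⧸ Gamma0 N), ∀ x, ∀ z : ℍ,
      (Fx N L e x ↑(g • z) = 0 ↔ Fx N L e (σ x) ↑z = 0) ∧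
      (Fx N L e (σ x) ↑z ≠ 0 →
        deriv (Fx N L e x) ↑(g • z) / Fx N L e x ↑(g • z) + Sx N L e x ↑(g • z)
          = denom g z ^ 2 * (deriv (Fx N L e (σ x)) ↑z / Fx N L e (σ x) ↑z
            + Sx N L e (σ x) ↑z)) := by
  refine ⟨MulAction.toPerm g⁻¹, fun x z => ?_⟩
  obtain ⟨η, hη⟩ := exists_rep_mul N g x
  set y : SL(2, ℤ) ⧸ Gamma0 N := g⁻¹ • x with hy
  have hσ : (MulAction.toPerm g⁻¹ : Equiv.Perm (SL(2, ℤ) ⧸ Gamma0 N)) x = y := rfl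
  rw [hσ]
  have hpt : rep N x • (g • z) = (η : SL(2, ℤ)) • (rep N y • z) := by
    rw [← mul_smul, hη, mul_smul]
  obtain ⟨c, hc0, hc⟩ := exists_FeFun_smul N L e η (rep N y • z)
  have hF : Fx N L e x ↑(g • z) = c * Fx N L e y ↑z := by
    simp only [Fx, ofComplex_apply]
    rw [hpt]
    exact hc
  constructor
  · rw [hF]
    constructor
    · intro h
      rcases mul_eq_zero.mp h with h | h
      · exact absurd h hc0
      · exact h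
    · intro h; rw [h, mul_zero]
  · intro hne
    have hne' : FeFun L e (rep N y • z) ≠ 0 := by
      simpa only [Fx, ofComplex_apply] using hne
    rw [Gx_eq, Gx_eq, hpt, hGs η _ hne']
    have hc1 := denom_cocycle_SL (rep N x) g z
    have hc2 := denom_cocycle_SL (η : SL(2, ℤ)) (rep N y) z
    rw [hη] at hc1
    rw [hc1] at hc2
    have d1 : denom (rep N x) ↑(g • z) ≠ 0 := denom_ne_zero _ _
    have d2 : denom (rep N y) ↑z ≠ 0 := denom_ne_zero _ _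
    have d3 : denom g ↑z ≠ 0 := denom_ne_zero _ _
    field_simp
    have : (denom (η : SL(2, ℤ)) ↑(rep N y • z) * denom (rep N y) ↑z) ^ 2
        = (denom (rep N x) ↑(g • z) * denom g ↑z) ^ 2 := by rw [← hc2]
    linear_combination (Gfun N L e (rep N y • z)) * this


/-! ### the smooth part -/

/-- `S` as a function on `ℂ` -/
def S0 (z : ℂ) : ℂ := Sfun N L e (ofComplex z)

/-- the holomorphic factor `1 / (c z + d)²` -/
def hh (g : SL(2, ℤ)) (z : ℂ) : ℂ := 1 / denom g z ^ 2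

lemma Sx_eq_on (x : SL(2, ℤ) ⧸ Gamma0 N) {z : ℂ} (hz : z ∈ UH) :
    Sx N L e x z = S0 N L e (mob (rep N x) z) * hh (rep N x) z := by
  have hz' : 0 < z.im := hz
  simp only [Sx, S0, hh, mob, ofComplex_apply]
  rw [ofComplex_apply_of_im_pos hz']
  ring

lemma differentiableOn_mob (g : SL(2, ℤ)) : DifferentiableOn ℂ (mob g) UH := fun z hz =>
  (hasDerivAt_mob g ⟨z, hz⟩).differentiableAt.differentiableWithinAt

lemma mapsTo_mob (g : SL(2, ℤ)) : MapsTo (mob g) UH UH := by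
  intro z hz
  show 0 < (mob g z).im
  unfold mob
  exact (g • ofComplex z).im_pos

lemma denom_ne_zero_on (g : SL(2, ℤ)) {z : ℂ} (hz : z ∈ UH) : denom g z ≠ 0 :=
  denom_ne_zero g ⟨z, hz⟩

lemma differentiableOn_hh (g : SL(2, ℤ)) : DifferentiableOn ℂ (hh g) UH := by
  intro z hz
  have hd : DifferentiableAt ℂ (fun z : ℂ => denom g z) z := by
    unfold denom
    fun_prop
  have : DifferentiableAt ℂ (hh g) z := by
    unfold hh
    exact (differentiableAt_const _).div (hd.pow 2) (pow_ne_zero 2 (denom_ne_zero_on g hz))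
  exact this.differentiableWithinAt

lemma contDiffOn_Sx (hSc : ContDiffOn ℝ 1 (S0 N L e) UH) (x : SL(2, ℤ) ⧸ Gamma0 N) :
    ContDiffOn ℝ 1 (Sx N L e x) UH := by
  have h1 : ContDiffOn ℝ 1 (mob (rep N x)) UH :=
    ((differentiableOn_mob (rep N x)).contDiffOn isOpen_UH).restrict_scalars ℝ |>.of_le le_top
  have h2 : ContDiffOn ℝ 1 (hh (rep N x)) UH :=
    ((differentiableOn_hh (rep N x)).contDiffOn isOpen_UH).restrict_scalars ℝ |>.of_le le_top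
  have h3 : ContDiffOn ℝ 1 (fun z => S0 N L e (mob (rep N x) z) * hh (rep N x) z) UH :=
    (hSc.comp h1 (mapsTo_mob (rep N x))).mul h2
  exact h3.congr fun z hz => Sx_eq_on N L e x hz

/-- `2∂̄ S_x` at a point of `ℍ` -/
lemma dbar2_Sx (hSc : ContDiffOn ℝ 1 (S0 N L e) UH) (x : SL(2, ℤ) ⧸ Gamma0 N) (τ : ℍ) :
    dbar2 (Sx N L e x) (τ : ℂ)
      = dbar2 (S0 N L e) ↑(rep N x • τ) * (starRingEnd ℂ) (1 / denom (rep N x) τ ^ 2)
        * (1 / denom (rep N x) τ ^ 2) := by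
  have hτ : (τ : ℂ) ∈ UH := τ.im_pos
  have hev : Sx N L e x =ᶠ[𝓝 (τ : ℂ)]
      fun z => S0 N L e (mob (rep N x) z) * hh (rep N x) z := by
    filter_upwards [isOpen_UH.mem_nhds hτ] with z hz
    exact Sx_eq_on N L e x hz
  have h0 : dbar2 (Sx N L e x) (τ : ℂ)
      = dbar2 (fun z => S0 N L e (mob (rep N x) z) * hh (rep N x) z) (τ : ℂ) := by
    unfold dbar2
    rw [hev.fderiv_eq]
  rw [h0]
  have hmτ : mob (rep N x) (τ : ℂ) ∈ UH := mapsTo_mob (rep N x) hτ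
  have hS0d : DifferentiableAt ℝ (S0 N L e) (mob (rep N x) (τ : ℂ)) :=
    (hSc.differentiableOn one_ne_zero).differentiableAt (isOpen_UH.mem_nhds hmτ)
  have hm := hasDerivAt_mob (rep N x) τ
  have hcomp : DifferentiableAt ℝ (fun z => S0 N L e (mob (rep N x) z)) (τ : ℂ) :=
    hS0d.comp (τ : ℂ) (hm.differentiableAt.restrictScalars ℝ)
  have hhd : DifferentiableAt ℂ (hh (rep N x)) (τ : ℂ) :=
    (differentiableOn_hh (rep N x)).differentiableAt (isOpen_UH.mem_nhds hτ)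
  rw [dbar2_mul hcomp (hhd.restrictScalars ℝ), dbar2_eq_zero_of_differentiableAt hhd, mul_zero,
    add_zero]
  have hc := dbar2_comp hS0d hm
  have : (fun z => S0 N L e (mob (rep N x) z)) = S0 N L e ∘ mob (rep N x) := rfl
  rw [this, hc, mob_coe]
  rfl


/-! ### the cusps -/

lemma hcusp_Fx (n : SL(2, ℤ) ⧸ Gamma0 N → ℤ)
    (hlog : ∀ x : SL(2, ℤ) ⧸ Gamma0 N, ∀ ε > 0, ∃ Y : ℝ, ∀ τ : ℍ, Y ≤ τ.im →
      FeFun L e (rep N x • τ) ≠ 0 ∧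
      ‖deriv (fun z : ℂ => FeFun L e (rep N x • ofComplex z)) τ / FeFun L e (rep N x • τ)
        - 2 * π * Complex.I * n x / N‖ < ε)
    (hScusp : ∀ x : SL(2, ℤ) ⧸ Gamma0 N, ∀ ε > 0, ∃ Y : ℝ, ∀ τ : ℍ, Y ≤ τ.im →
      ‖Sfun N L e (rep N x • τ) / denom (rep N x) τ ^ 2‖ < ε)
    (x : SL(2, ℤ) ⧸ Gamma0 N) : ∀ ε > 0, ∃ Y : ℝ, ∀ z : ℂ, Y ≤ z.im → Fx N L e x z ≠ 0 ∧
      ‖deriv (Fx N L e x) z / Fx N L e x z + Sx N L e x z - 2 * π * Complex.I * n x / N‖ < ε := by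
  intro ε hε
  obtain ⟨Y1, hY1⟩ := hlog x (ε / 2) (half_pos hε)
  obtain ⟨Y2, hY2⟩ := hScusp x (ε / 2) (half_pos hε)
  refine ⟨max (max Y1 Y2) 1, fun z hz => ?_⟩
  have hz1 : (1 : ℝ) ≤ z.im := le_trans (le_max_right _ _) hz
  have hzpos : 0 < z.im := by linarith
  set τ : ℍ := ⟨z, hzpos⟩ with hτ
  have hzτ : z = (τ : ℂ) := rfl
  have h1 := hY1 τ (le_trans (le_trans (le_max_left _ _) (le_max_left _ _)) hz)
  have h2 := hY2 τ (le_trans (le_trans (le_max_right _ _) (le_max_left _ _)) hz)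
  have hFx : Fx N L e x z = FeFun L e (rep N x • τ) := by
    rw [hzτ]; simp only [Fx, ofComplex_apply]
  have hSx : Sx N L e x z = Sfun N L e (rep N x • τ) / denom (rep N x) τ ^ 2 := by
    rw [hzτ]; simp only [Sx, ofComplex_apply]
  refine ⟨by rw [hFx]; exact h1.1, ?_⟩
  rw [hFx, hSx]
  have hd : deriv (Fx N L e x) z
      = deriv (fun z : ℂ => FeFun L e (rep N x • ofComplex z)) (τ : ℂ) := rfl
  rw [hd]
  calc ‖deriv (fun z : ℂ => FeFun L e (rep N x • ofComplex z)) ↑τ / FeFun L e (rep N x • τ)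
        + Sfun N L e (rep N x • τ) / denom (rep N x) τ ^ 2 - 2 * π * Complex.I * n x / N‖
      = ‖(deriv (fun z : ℂ => FeFun L e (rep N x • ofComplex z)) ↑τ / FeFun L e (rep N x • τ)
        - 2 * π * Complex.I * n x / N) + Sfun N L e (rep N x • τ) / denom (rep N x) τ ^ 2‖ := by
        congr 1; ring
    _ ≤ _ + _ := norm_add_le _ _
    _ < ε / 2 + ε / 2 := add_lt_add h1.2 h2
    _ = ε := by ring


/-! ### the Petersson term -/

open scoped ModularForm in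
lemma W_mul_dbar2_Sx {w : ℂ → ℝ} (hw : SLPartition w) (hSc : ContDiffOn ℝ 1 (S0 N L e) UH)
    (hSd : ∀ τ : ℍ, dbar2 (S0 N L e) (τ : ℂ) = -(2 * π) * ∑ j, ∑ k,
      (((Ymat N L)⁻¹ j k : ℝ) : ℂ) * (L.w j τ) * (starRingEnd ℂ) (L.w k τ))
    (x : SL(2, ℤ) ⧸ Gamma0 N) (z : ℂ) :
    W w z * dbar2 (Sx N L e x) z = -(2 * π) * ∑ j, ∑ k, (((Ymat N L)⁻¹ j k : ℝ) : ℂ) *
      (W w z * ((⇑(L.w j)) ∣[(2 : ℤ)] (rep N x)) (ofComplex z) *
        (starRingEnd ℂ) (((⇑(L.w k)) ∣[(2 : ℤ)] (rep N x)) (ofComplex z))) := by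
  by_cases hz : z ∈ UH
  · have hzpos : 0 < z.im := hz
    set τ : ℍ := ⟨z, hzpos⟩ with hτ
    have hzτ : z = (τ : ℂ) := rfl
    rw [hzτ, dbar2_Sx N L e hSc x τ, hSd, ofComplex_apply]
    simp only [ModularForm.SL_slash_apply, Finset.mul_sum, Finset.sum_mul]
    apply Finset.sum_congr rfl
    intro j _
    apply Finset.sum_congr rfl
    intro k _
    have hd : denom (rep N x) (τ : ℂ) ≠ 0 := denom_ne_zero _ _
    simp only [map_mul, map_div₀, map_one, map_pow, zpow_neg, map_inv₀, zpow_ofNat]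
    ring
  · rw [W_eq_zero_of_notMem_UH hw hz]
    simp


lemma Ymat_posDef : (Ymat N L).PosDef := L.om_pos

lemma Ymat_symm (j k : Fin g) : Ymat N L j k = Ymat N L k j := by
  unfold Ymat
  simp only [Matrix.of_apply]
  have := L.om_symm j k
  show (L.Om j k).im = (L.Om k j).im
  unfold LatData.Om
  simp only [Matrix.of_apply]
  rw [this]

lemma sum_Yinv_Y : ∑ j, ∑ k, (Ymat N L)⁻¹ j k * (L.Om j k).im = (g : ℝ) := by
  have hdet : IsUnit (Ymat N L).det := (Ymat_posDef N L).det_pos.ne'.isUnit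
  have h1 : (Ymat N L)⁻¹ * Ymat N L = 1 := Matrix.nonsing_inv_mul _ hdet
  have h2 : ∀ j, ∑ k, (Ymat N L)⁻¹ j k * (L.Om j k).im = ((Ymat N L)⁻¹ * Ymat N L) j j := by
    intro j
    rw [Matrix.mul_apply]
    apply Finset.sum_congr rfl
    intro k _
    rw [← Ymat_symm N L j k]
    rfl
  simp only [h2, h1, Matrix.one_apply_eq]
  simp


/-- the `Fintype` structure on the cosets -/
local instance fintypeQuot : Fintype (SL(2, ℤ) ⧸ Gamma0 N) := Fintype.ofFinite _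

open scoped ModularForm in
/-- `∑_x ∫ w · 2∂̄S_x = -π g` -/
lemma sum_integral_dbar2_Sx {w : ℂ → ℝ} (hw : SLPartition w)
    (hSc : ContDiffOn ℝ 1 (S0 N L e) UH)
    (hSd : ∀ τ : ℍ, dbar2 (S0 N L e) (τ : ℂ) = -(2 * π) * ∑ j, ∑ k,
      (((Ymat N L)⁻¹ j k : ℝ) : ℂ) * (L.w j τ) * (starRingEnd ℂ) (L.w k τ))
    (hpet : ∀ j k : Fin g,
      (∀ x : SL(2, ℤ) ⧸ Gamma0 N, Integrable (fun z : ℂ => (w z : ℂ) *
        ((⇑(L.w j)) ∣[(2 : ℤ)] (x.out⁻¹ : SL(2, ℤ))) (ofComplex z) *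
        (starRingEnd ℂ) (((⇑(L.w k)) ∣[(2 : ℤ)] (x.out⁻¹ : SL(2, ℤ))) (ofComplex z)))) ∧
      ∑ x : SL(2, ℤ) ⧸ Gamma0 N, ∫ z : ℂ, (w z : ℂ) *
        ((⇑(L.w j)) ∣[(2 : ℤ)] (x.out⁻¹ : SL(2, ℤ))) (ofComplex z) *
        (starRingEnd ℂ) (((⇑(L.w k)) ∣[(2 : ℤ)] (x.out⁻¹ : SL(2, ℤ))) (ofComplex z))
        = (1 / 2 : ℂ) * (((L.Om j k).im : ℝ) : ℂ)) :
    (∀ x : SL(2, ℤ) ⧸ Gamma0 N, Integrable (fun z => W w z * dbar2 (Sx N L e x) z)) ∧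
    ∑ x : SL(2, ℤ) ⧸ Gamma0 N, ∫ z, W w z * dbar2 (Sx N L e x) z = -(π * g) := by
  set I : Fin g → Fin g → (SL(2, ℤ) ⧸ Gamma0 N) → ℂ → ℂ := fun j k x z => (w z : ℂ) *
        ((⇑(L.w j)) ∣[(2 : ℤ)] (x.out⁻¹ : SL(2, ℤ))) (ofComplex z) *
        (starRingEnd ℂ) (((⇑(L.w k)) ∣[(2 : ℤ)] (x.out⁻¹ : SL(2, ℤ))) (ofComplex z)) with hI
  have hfun : ∀ x, (fun z => W w z * dbar2 (Sx N L e x) z)
      = fun z => -(2 * π) * ∑ j, ∑ k, (((Ymat N L)⁻¹ j k : ℝ) : ℂ) * I j k x z := by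
    intro x
    funext z
    exact W_mul_dbar2_Sx N L e hw hSc hSd x z
  have hIint : ∀ j k x, Integrable (I j k x) := fun j k x => (hpet j k).1 x
  have hint2 : ∀ x, Integrable (fun z => ∑ j, ∑ k, (((Ymat N L)⁻¹ j k : ℝ) : ℂ) * I j k x z) :=
    fun x => integrable_finsetSum _ fun j _ => integrable_finsetSum _ fun k _ =>
      (hIint j k x).const_mul _
  refine ⟨fun x => ?_, ?_⟩
  · rw [hfun x]
    exact (hint2 x).const_mul _
  · have hx : ∀ x, ∫ z, W w z * dbar2 (Sx N L e x) z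
        = -(2 * π) * ∑ j, ∑ k, (((Ymat N L)⁻¹ j k : ℝ) : ℂ) * ∫ z, I j k x z := by
      intro x
      rw [hfun x, integral_const_mul]
      congr 1
      rw [integral_finsetSum _ fun j _ => integrable_finsetSum _ fun k _ =>
        (hIint j k x).const_mul _]
      apply Finset.sum_congr rfl
      intro j _
      rw [integral_finsetSum _ fun k _ => (hIint j k x).const_mul _]
      apply Finset.sum_congr rfl
      intro k _
      rw [integral_const_mul]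
    simp only [hx]
    rw [← Finset.mul_sum, Finset.sum_comm]
    have h3 : ∀ j, ∑ x : SL(2, ℤ) ⧸ Gamma0 N, ∑ k, (((Ymat N L)⁻¹ j k : ℝ) : ℂ) * ∫ z, I j k x z
        = ∑ k, (((Ymat N L)⁻¹ j k : ℝ) : ℂ) * ((1 / 2 : ℂ) * (((L.Om j k).im : ℝ) : ℂ)) := by
      intro j
      rw [Finset.sum_comm]
      apply Finset.sum_congr rfl
      intro k _
      rw [← Finset.mul_sum]
      congr 1
      exact (hpet j k).2
    simp only [h3]
    have h4 := sum_Yinv_Y N L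
    have h5 : ∑ j, ∑ k, (((Ymat N L)⁻¹ j k : ℝ) : ℂ) * ((1 / 2 : ℂ) * (((L.Om j k).im : ℝ) : ℂ))
        = (1 / 2 : ℂ) * ((∑ j, ∑ k, (Ymat N L)⁻¹ j k * (L.Om j k).im : ℝ) : ℂ) := by
      push_cast
      rw [Finset.mul_sum]
      apply Finset.sum_congr rfl
      intro j _
      rw [Finset.mul_sum]
      apply Finset.sum_congr rfl
      intro k _
      ring
    rw [h5, h4]
    push_cast
    ring


open scoped ModularForm in
/-- **(DEG), analytic form** for `F_e` on `Γ₀(N)`. -/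
theorem deg_analytic (hFe : Fe L e ≠ 0)
    (hGs : ∀ (γ : Gamma0 N) (τ : ℍ), FeFun L e τ ≠ 0 →
      Gfun N L e ((γ : SL(2, ℤ)) • τ) = denom (γ : SL(2, ℤ)) τ ^ 2 * Gfun N L e τ)
    (hSc : ContDiffOn ℝ 1 (S0 N L e) UH)
    (hSd : ∀ τ : ℍ, dbar2 (S0 N L e) (τ : ℂ) = -(2 * π) * ∑ j, ∑ k,
      (((Ymat N L)⁻¹ j k : ℝ) : ℂ) * (L.w j τ) * (starRingEnd ℂ) (L.w k τ))
    (n : SL(2, ℤ) ⧸ Gamma0 N → ℤ)
    (hlog : ∀ x : SL(2, ℤ) ⧸ Gamma0 N, ∀ ε > 0, ∃ Y : ℝ, ∀ τ : ℍ, Y ≤ τ.im →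
      FeFun L e (rep N x • τ) ≠ 0 ∧
      ‖deriv (fun z : ℂ => FeFun L e (rep N x • ofComplex z)) τ / FeFun L e (rep N x • τ)
        - 2 * π * Complex.I * n x / N‖ < ε)
    (hScusp : ∀ x : SL(2, ℤ) ⧸ Gamma0 N, ∀ ε > 0, ∃ Y : ℝ, ∀ τ : ℍ, Y ≤ τ.im →
      ‖Sfun N L e (rep N x • τ) / denom (rep N x) τ ^ 2‖ < ε)
    {w : ℂ → ℝ} (hw : SLPartition w) (hw0 : ∀ z, 0 ≤ w z)
    (hpet : ∀ j k : Fin g,
      (∀ x : SL(2, ℤ) ⧸ Gamma0 N, Integrable (fun z : ℂ => (w z : ℂ) *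
        ((⇑(L.w j)) ∣[(2 : ℤ)] (x.out⁻¹ : SL(2, ℤ))) (ofComplex z) *
        (starRingEnd ℂ) (((⇑(L.w k)) ∣[(2 : ℤ)] (x.out⁻¹ : SL(2, ℤ))) (ofComplex z)))) ∧
      ∑ x : SL(2, ℤ) ⧸ Gamma0 N, ∫ z : ℂ, (w z : ℂ) *
        ((⇑(L.w j)) ∣[(2 : ℤ)] (x.out⁻¹ : SL(2, ℤ))) (ofComplex z) *
        (starRingEnd ℂ) (((⇑(L.w k)) ∣[(2 : ℤ)] (x.out⁻¹ : SL(2, ℤ))) (ofComplex z))
        = (1 / 2 : ℂ) * (((L.Om j k).im : ℝ) : ℂ))
    (Z : Finset ℂ) (hZ : ∀ z ∈ tsupport w, ∀ x, Fx N L e x z = 0 → z ∈ Z) :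
    2 * π * ∑ p ∈ Z, (∑ x, (analyticOrderNatAt (Fx N L e x) p : ℂ)) * W w p
      = (Complex.I / 2) * ∑ x : SL(2, ℤ) ⧸ Gamma0 N, 2 * π * Complex.I * n x / N + π * g := by
  obtain ⟨hint, hsum⟩ := sum_integral_dbar2_Sx N L e hw hSc hSd hpet
  have key := deg_trace hw hw0 (Fx := Fx N L e) (Sx := Sx N L e)
    (differentiableOn_Fx N L e) (analyticOrderAt_Fx_ne_top N L e hFe)
    (contDiffOn_Sx N L e hSc) (hperm_Fx N L e hGs)
    (fun x => 2 * π * Complex.I * n x / N) (hcusp_Fx N L e n hlog hScusp) hint Z hZ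
  rw [key, hsum]
  ring


/-- the analytic order of `F_x` is the order of `F_e` at the translated point -/
lemma analyticOrderNatAt_Fx (hFe : Fe L e ≠ 0) (x : SL(2, ℤ) ⧸ Gamma0 N) (p : ℍ) :
    (analyticOrderNatAt (Fx N L e x) (p : ℂ) : ℤ)
      = ordMer (rep N x • p) (algebraMap HolH MerH (Fe L e)) := by
  rw [ordMer_algebraMap _ hFe]
  have h1 : Fx N L e x = (compSL (Fe L e : ℍ → ℂ) (rep N x)) ∘ ofComplex := rfl
  have h2 := ordH_compSL (Fe L e).2 (rep N x) p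
  unfold ordH at h2
  unfold analyticOrderNatAt
  rw [h1, h2]
  rfl

open scoped ModularForm in
/-- **(DEG), analytic form, real version** (the left-hand side of `deg_count`). -/
theorem deg_analytic_real (hFe : Fe L e ≠ 0)
    (hGs : ∀ (γ : Gamma0 N) (τ : ℍ), FeFun L e τ ≠ 0 →
      Gfun N L e ((γ : SL(2, ℤ)) • τ) = denom (γ : SL(2, ℤ)) τ ^ 2 * Gfun N L e τ)
    (hSc : ContDiffOn ℝ 1 (S0 N L e) UH)
    (hSd : ∀ τ : ℍ, dbar2 (S0 N L e) (τ : ℂ) = -(2 * π) * ∑ j, ∑ k,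
      (((Ymat N L)⁻¹ j k : ℝ) : ℂ) * (L.w j τ) * (starRingEnd ℂ) (L.w k τ))
    (n : SL(2, ℤ) ⧸ Gamma0 N → ℤ)
    (hlog : ∀ x : SL(2, ℤ) ⧸ Gamma0 N, ∀ ε > 0, ∃ Y : ℝ, ∀ τ : ℍ, Y ≤ τ.im →
      FeFun L e (rep N x • τ) ≠ 0 ∧
      ‖deriv (fun z : ℂ => FeFun L e (rep N x • ofComplex z)) τ / FeFun L e (rep N x • τ)
        - 2 * π * Complex.I * n x / N‖ < ε)
    (hScusp : ∀ x : SL(2, ℤ) ⧸ Gamma0 N, ∀ ε > 0, ∃ Y : ℝ, ∀ τ : ℍ, Y ≤ τ.im →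
      ‖Sfun N L e (rep N x • τ) / denom (rep N x) τ ^ 2‖ < ε)
    {w : ℂ → ℝ} (hw : SLPartition w) (hw0 : ∀ z, 0 ≤ w z)
    (hpet : ∀ j k : Fin g,
      (∀ x : SL(2, ℤ) ⧸ Gamma0 N, Integrable (fun z : ℂ => (w z : ℂ) *
        ((⇑(L.w j)) ∣[(2 : ℤ)] (x.out⁻¹ : SL(2, ℤ))) (ofComplex z) *
        (starRingEnd ℂ) (((⇑(L.w k)) ∣[(2 : ℤ)] (x.out⁻¹ : SL(2, ℤ))) (ofComplex z)))) ∧
      ∑ x : SL(2, ℤ) ⧸ Gamma0 N, ∫ z : ℂ, (w z : ℂ) *
        ((⇑(L.w j)) ∣[(2 : ℤ)] (x.out⁻¹ : SL(2, ℤ))) (ofComplex z) *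
        (starRingEnd ℂ) (((⇑(L.w k)) ∣[(2 : ℤ)] (x.out⁻¹ : SL(2, ℤ))) (ofComplex z))
        = (1 / 2 : ℂ) * (((L.Om j k).im : ℝ) : ℂ))
    (Zf : Finset ℍ)
    (hZf : ∀ p : ℍ, (p : ℂ) ∈ tsupport w →
      (∃ x : SL(2, ℤ) ⧸ Gamma0 N, FeFun L e (rep N x • p) = 0) → p ∈ Zf) :
    2 * ∑ p ∈ Zf, (∑ x : SL(2, ℤ) ⧸ Gamma0 N,
        (ordMer (rep N x • p) (algebraMap HolH MerH (Fe L e)) : ℝ)) * w p
      + ∑ x : SL(2, ℤ) ⧸ Gamma0 N, (n x : ℝ) / N = (g : ℝ) := by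
  classical
  set Z : Finset ℂ := Zf.image UpperHalfPlane.coe with hZdef
  have hZ : ∀ z ∈ tsupport w, ∀ x, Fx N L e x z = 0 → z ∈ Z := by
    intro z hz x hx
    have hzU : z ∈ UH := tsupport_w_subset_UH hw hz
    have hzpos : 0 < z.im := hzU
    rw [hZdef, Finset.mem_image]
    refine ⟨⟨z, hzpos⟩, hZf ⟨z, hzpos⟩ hz ⟨x, ?_⟩, rfl⟩
    have : Fx N L e x z = FeFun L e (rep N x • (⟨z, hzpos⟩ : ℍ)) := by
      simp only [Fx]
      rw [ofComplex_apply_of_im_pos hzpos]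
    rw [← this]; exact hx
  have key := deg_analytic N L e hFe hGs hSc hSd n hlog hScusp hw hw0 hpet Z hZ
  rw [hZdef, Finset.sum_image (fun a _ b _ h => UpperHalfPlane.ext h)] at key
  have hπ : (π : ℂ) ≠ 0 := by exact_mod_cast Real.pi_ne_zero
  have hterm : ∀ p : ℍ, (∑ x, (analyticOrderNatAt (Fx N L e x) (p : ℂ) : ℂ)) * W w p
      = (((∑ x : SL(2, ℤ) ⧸ Gamma0 N,
        (ordMer (rep N x • p) (algebraMap HolH MerH (Fe L e)) : ℝ)) * w p : ℝ) : ℂ) := by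
    intro p
    unfold W
    push_cast
    congr 1
    apply Finset.sum_congr rfl
    intro x _
    have := analyticOrderNatAt_Fx N L e hFe x p
    have h2 : ((analyticOrderNatAt (Fx N L e x) (p : ℂ) : ℤ) : ℂ)
        = ((ordMer (rep N x • p) (algebraMap HolH MerH (Fe L e)) : ℤ) : ℂ) := by rw [this]
    simpa using h2
  simp only [hterm] at key
  have hI : (Complex.I / 2) * ∑ x : SL(2, ℤ) ⧸ Gamma0 N, 2 * π * Complex.I * n x / N
      = -(π : ℂ) * ((∑ x : SL(2, ℤ) ⧸ Gamma0 N, (n x : ℝ) / N : ℝ) : ℂ) := by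
    push_cast
    rw [Finset.mul_sum, Finset.mul_sum]
    apply Finset.sum_congr rfl
    intro x _
    have : Complex.I * Complex.I = -1 := Complex.I_mul_I
    linear_combination (π * n x / N : ℂ) * this
  rw [hI] at key
  have key2 : (((2 * ∑ p ∈ Zf, (∑ x : SL(2, ℤ) ⧸ Gamma0 N,
        (ordMer (rep N x • p) (algebraMap HolH MerH (Fe L e)) : ℝ)) * w p
      + ∑ x : SL(2, ℤ) ⧸ Gamma0 N, (n x : ℝ) / N : ℝ)) : ℂ) = ((g : ℝ) : ℂ) := by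
    push_cast
    push_cast at key
    have : (π : ℂ) * (2 * ∑ p ∈ Zf, (∑ x : SL(2, ℤ) ⧸ Gamma0 N,
        ((ordMer (rep N x • p) (algebraMap HolH MerH (Fe L e)) : ℤ) : ℂ)) * (w p : ℂ)
      + ∑ x : SL(2, ℤ) ⧸ Gamma0 N, ((n x : ℤ) : ℂ) / N) = π * g := by
      linear_combination key
    exact mul_left_cancel₀ hπ this
  exact_mod_cast key2

end

end Fermat.Agent.M17.DegInst5
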