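import Fermat.Agent.M17.DbarLogDeriv5

/-!
# The local identity behind the degree count (DEG)

For `φ` of class `C¹` with compact support in an open set `U`, `F` holomorphic on `U` (not locally
zero) and `S` of class `C¹` on `U`:
`∫ 2∂̄φ · (F'/F + S) = - 2π ∑_p ord_p(F) φ(p) - ∫ φ · 2∂̄S`.
Mathlib only.
-/

namespace Fermat.Agent.M17.DegLocal5

open MeasureTheory Set Filter Topology
open scoped Real
open Fermat.Agent.M17.CauchyPompeiu5 Fermat.Agent.M17.DbarResidue5 Fermat.Agent.M17.DbarLogDeriv5

noncomputable section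

variable {φ : ℂ → ℂ}

/-- (SMOOTH) integration by parts against a `C¹` function. -/
theorem integral_dbar2_mul_smooth (hφ : ContDiff ℝ 1 φ) (hc : HasCompactSupport φ)
    {U : Set ℂ} (hU : IsOpen U) (hsub : tsupport φ ⊆ U) {S : ℂ → ℂ}
    (hS : ContDiffOn ℝ 1 S U) :
    ∫ z, dbar2 φ z * S z = - ∫ z, φ z * dbar2 S z := by
  have hK : IsCompact (tsupport φ) := hc
  have hSc : ContinuousOn S (tsupport φ) := hS.continuousOn.mono hsub
  have hfd : ContinuousOn (fderiv ℝ S) U := hS.continuousOn_fderiv_of_isOpen hU le_rfl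
  have hdiff : ∀ x ∈ tsupport φ, DifferentiableAt ℝ S x := fun x hx =>
    (hS.differentiableOn one_ne_zero).differentiableAt (hU.mem_nhds (hsub hx))
  have hφd : ∀ x ∈ tsupport S, DifferentiableAt ℝ φ x := fun x _ =>
    hφ.differentiable one_ne_zero x
  have hI1 : ∀ v : ℂ, Integrable (fun z => S z * fderiv ℝ φ z v) := by
    intro v
    apply integrable_of_continuousOn_of_support hK
    · exact hSc.mul ((hφ.continuous_fderiv one_ne_zero).clm_apply continuous_const).continuousOn
    · intro z hz; simp [fderiv_eq_zero_of_notMem_tsupport z hz]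
  have hI2 : ∀ v : ℂ, Integrable (fun z => fderiv ℝ S z v * φ z) := by
    intro v
    apply integrable_of_continuousOn_of_support hK
    · exact ((hfd.mono hsub).clm_apply continuousOn_const).mul hφ.continuous.continuousOn
    · intro z hz; simp [eq_zero_of_notMem_tsupport z hz]
  have hI3 : Integrable (fun z => S z * φ z) := by
    apply integrable_of_continuousOn_of_support hK
    · exact hSc.mul hφ.continuous.continuousOn
    · intro z hz; simp [eq_zero_of_notMem_tsupport z hz]
  have key : ∀ v : ℂ, ∫ z, S z * fderiv ℝ φ z v = - ∫ z, fderiv ℝ S z v * φ z := fun v =>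
    integral_mul_fderiv_eq_neg_fderiv_mul_of_integrable (hI2 v) (hI1 v) hI3 hdiff hφd
  have e1 : ∀ z, dbar2 φ z * S z
      = S z * fderiv ℝ φ z 1 + Complex.I * (S z * fderiv ℝ φ z Complex.I) := by
    intro z; unfold dbar2; ring
  have e2 : ∀ z, φ z * dbar2 S z
      = fderiv ℝ S z 1 * φ z + Complex.I * (fderiv ℝ S z Complex.I * φ z) := by
    intro z; unfold dbar2; ring
  simp only [e1, e2]
  rw [integral_add (hI1 1) ((hI1 Complex.I).const_mul _), integral_const_mul, key, key,
    integral_add (hI2 1) ((hI2 Complex.I).const_mul _), integral_const_mul]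
  ring

/-- the local identity (★) -/
theorem integral_dbar2_mul_logDeriv_add (hφ : ContDiff ℝ 1 φ) (hc : HasCompactSupport φ)
    {U : Set ℂ} (hU : IsOpen U) (hsub : tsupport φ ⊆ U) {F S : ℂ → ℂ}
    (hF : DifferentiableOn ℂ F U) (hne : ∀ z ∈ U, analyticOrderAt F z ≠ ⊤)
    (hS : ContDiffOn ℝ 1 S U)
    (Z : Finset ℂ) (hZ : ∀ z ∈ tsupport φ, F z = 0 → z ∈ Z) :
    ∫ z, dbar2 φ z * (deriv F z / F z + S z)
      = -(2 * π) * ∑ p ∈ Z, (analyticOrderNatAt F p : ℂ) * φ p - ∫ z, φ z * dbar2 S z := by
  have hK : IsCompact (tsupport φ) := hc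
  have hI2 : Integrable (fun z => dbar2 φ z * S z) := by
    apply integrable_of_continuousOn_of_support hK
    · exact (continuous_dbar2 hφ).continuousOn.mul (hS.continuousOn.mono hsub)
    · intro z hz; simp [dbar2_eq_zero_of_notMem z hz]
  -- integrability of the logarithmic-derivative term: from the residue decomposition
  have hI1 : Integrable (fun z => dbar2 φ z * (deriv F z / F z)) :=
    integrable_dbar2_mul_logDeriv hφ hc hU hsub hF hne
  simp only [mul_add]
  rw [integral_add hI1 hI2, integral_dbar2_mul_logDeriv hφ hc hU hsub hF hne Z hZ,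
    integral_dbar2_mul_smooth hφ hc hU hsub hS]
  ring

end

end Fermat.Agent.M17.DegLocal5
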