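/-
M17 (helper6), programme M17 (target S17); imported by no statement.

**The descent step in "halving" form** and **the literal interface of S17 on the group side**.

* `fg_of_halving` : an abelian group `G` with `G / 2 G` finite and a Northcott function `B : G → ℝ`
  such that `B x' ≤ θ * B (2 • x' + r) + c r` for all `x' r` (some `θ < 1`) is finitely generated.
  (Mathlib's `AddCommGroup.fg_of_descent` wants the translation bound and the lower bound for the
  duplication SEPARATELY; the halving form is what the level `(2, 4)` theta relations give directly: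
  report 128, section 0.)
* `s17_of_height` : S17 from such a function on `J₀(N)(ℚ)` (weak Mordell-Weil: `WeakMW6.weakMW`).
-/
import Mathlib
import Fermat.Agent.M17.WeakMW6

set_option autoImplicit false
set_option linter.style.haveILetI false

namespace Fermat.Agent.M17.Descent6

open scoped Pointwise

/-- descent, set form: `s` finite, `s + 2 G = G`, `h y ≤ θ * h (g + 2 • y) + c` for `g ∈ s`. -/
theorem fg_of_halving_set {G : Type*} [AddCommGroup G] {s : Set G} {h : G → ℝ} {θ c : ℝ}
    (hθ : θ < 1) (hs : s.Finite)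
    (H₁ : ∀ x : G, ∃ g ∈ s, ∃ y : G, x = g + 2 • y)
    (H₂ : ∀ g ∈ s, ∀ y, h y ≤ θ * h (g + 2 • y) + c) [Northcott h] :
    AddGroup.FG G := by
  classical
  let S : Set G := s ∪ {x : G | h x ≤ c / (1 - θ)}
  let U := AddSubgroup.closure S
  suffices U = ⊤ from AddGroup.fg_iff.mpr ⟨S, this, hs.union <| Northcott.finite_le _⟩
  by_contra! H
  rw [← SetLike.coe_ne_coe, AddSubgroup.coe_top, ← Set.nonempty_compl] at H
  obtain ⟨x, hx₁, hx₂⟩ := Northcott.exists_min_image h (U : Set G)ᶜ H
  obtain ⟨g, hg, y, rfl⟩ := H₁ x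
  have hpos : 0 < 1 - θ := sub_pos.mpr hθ
  by_cases hy : y ∈ U
  · exact hx₁ <| U.add_mem (AddSubgroup.subset_closure <| .inl hg) (U.nsmul_mem hy 2)
  · have h1 : h (g + 2 • y) ≤ h y := hx₂ y hy
    have h2 : h y ≤ θ * h (g + 2 • y) + c := H₂ g hg y
    have h3 : h (g + 2 • y) ≤ c / (1 - θ) := by
      rw [le_div_iff₀ hpos]
      nlinarith
    exact hx₁ <| AddSubgroup.subset_closure <| .inr h3

/-- **descent in halving form.** -/
theorem fg_of_halving {G : Type*} [AddCommGroup G] {B : G → ℝ} {θ : ℝ} {c : G → ℝ} (hθ : θ < 1)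
    (H₁ : (nsmulAddMonoidHom (α := G) 2).range.FiniteIndex)
    (H₂ : ∀ r x', B x' ≤ θ * B (2 • x' + r) + c r) [Northcott B] :
    AddGroup.FG G := by
  classical
  let f : G →+ G := nsmulAddMonoidHom 2
  haveI : Finite (G ⧸ f.range) := AddSubgroup.finite_quotient_of_finiteIndex
  let qi : G ⧸ f.range → G := Function.surjInv QuotientAddGroup.mk_surjective
  let s : Set G := Set.range qi
  have hsfin : s.Finite := Set.finite_range qi
  obtain ⟨g, hg₁, hg₂⟩ := s.exists_max_image c hsfin (Set.range_nonempty qi)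
  refine fg_of_halving_set (h := B) (θ := θ) (c := c g) hθ hsfin (fun x => ?_) (fun g' hg' y => ?_)
  · refine ⟨qi (QuotientAddGroup.mk x), ⟨_, rfl⟩, ?_⟩
    have h1 : (QuotientAddGroup.mk (qi (QuotientAddGroup.mk x)) : G ⧸ f.range) =
        QuotientAddGroup.mk x := Function.surjInv_eq QuotientAddGroup.mk_surjective _
    rw [QuotientAddGroup.eq] at h1
    obtain ⟨y, hy⟩ := h1
    refine ⟨y, ?_⟩
    have hy' : 2 • y = -qi (QuotientAddGroup.mk x) + x := hy
    rw [hy']
    abel
  · have := H₂ g' y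
    rw [add_comm (2 • y) g'] at this
    linarith [hg₂ g' hg']

open Fermat.Agent.M17.WeakMW6 in
/-- **S17 from a height in halving form**: the literal interface the height side has to deliver. -/
theorem s17_of_height (N : ℕ) [NeZero N]
    (B : ↥(FixedPoints.addSubgroup (AlgebraicClosure ℚ ≃ₐ[ℚ] AlgebraicClosure ℚ)
      (ModularCurve.JZero N)) → ℝ) [Northcott B] (θ : ℝ) (hθ : θ < 1)
    (c : ↥(FixedPoints.addSubgroup (AlgebraicClosure ℚ ≃ₐ[ℚ] AlgebraicClosure ℚ)
      (ModularCurve.JZero N)) → ℝ)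
    (H : ∀ r x', B x' ≤ θ * B (2 • x' + r) + c r) :
    AddGroup.FG ↥(FixedPoints.addSubgroup (AlgebraicClosure ℚ ≃ₐ[ℚ] AlgebraicClosure ℚ)
      (ModularCurve.JZero N)) :=
  fg_of_halving hθ (weakMW N) H

end Fermat.Agent.M17.Descent6
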