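/-
Programme M17 (target S17), leaf [FIN-0] (lead): **the genus-zero case**.

If `S₂(Γ₀(N)) = 0` (for prime `N ≥ 5`: `N = 5, 7, 13`), then the function field of `X₀(N)` over
`ℚ̄` has genus zero (S20 + S24 + `RR.Final.genus_eq_genusFF`), so by the Euler characteristic
formula every divisor of degree zero is principal: `JZero N` is trivial, and the group of
Galois-fixed points is (trivially) finitely generated.
Imported by no statement.
-/
import Mathlib
import Fermat.Agent.S20
import Fermat.Agent.S24
import Fermat.Agent.RR.InstPrep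
import Fermat.Agent.RR.ResidueGlob
import Fermat.Agent.X0.HasCanDivInst

set_option autoImplicit false

open AlgebraicCurve ModularCurve Module

namespace Fermat.Agent.M17.GenusZero0

open Fermat.Agent.X0 Fermat.Agent.RR.LSpace

variable (N : ℕ) [NeZero N]

/-- `S₂(Γ₀(N)) = 0` forces the function field of `X₀(N)` over `ℚ̄` to have `genusFF = 0`. -/
theorem genusFF_eq_zero
    (hg : finrank ℂ (CuspForm (CongruenceSubgroup.Gamma0 N) 2) = 0) :
    genusFF Kbar (FF N) = 0 := by
  have : HasCanonicalDivisor (K := Kbar) (F := FF N) := HasCanDivInst.hasCanonicalDivisor N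
  have hx : FF.IsGen Kbar (jF N) := Degree.isGen_jF N (realizeData N) (cuspData N)
  have h1 := Fermat.Agent.S24.result N
  have h2 := Fermat.Agent.S20.result N
  have h3 := Fermat.Agent.RR.Final.genus_eq_genusFF
    (Fermat.Agent.RR.InstPrep.rrData hx (Fermat.Agent.RR.ResidueGlob.residueData hx))
    (FFGenus.exists_differential_ne_zero hx)
  rw [hg] at h2
  have h4 : (genus Kbar (FF N) : ℚ) = 0 := by
    rw [h1, ← h2]; simp
  have h5 : genus Kbar (FF N) = 0 := by exact_mod_cast h4
  rw [← h3]; exact h5

/-- In genus zero every divisor of degree zero is principal. -/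
theorem isPrincipal_of_degree_eq_zero
    (hg : finrank ℂ (CuspForm (CongruenceSubgroup.Gamma0 N) 2) = 0)
    (D : Divisor Kbar (FF N)) (hD : Divisor.degree D = 0) : Divisor.IsPrincipal D := by
  have : HasCanonicalDivisor (K := Kbar) (F := FF N) := HasCanDivInst.hasCanonicalDivisor N
  have hx : FF.IsGen Kbar (jF N) := Degree.isGen_jF N (realizeData N) (cuspData N)
  set X := Fermat.Agent.RR.InstPrep.rrData hx (Fermat.Agent.RR.ResidueGlob.residueData hx) with hX
  have H : LHyp Kbar (FF N) := X.HL
  have he := X.heuler D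
  rw [hD, genusFF_eq_zero N hg] at he
  have hpos : 0 < finrank Kbar (riemannRochSpace D) := by
    have : (0 : ℤ) ≤ (finrank Kbar (H1 D) : ℤ) := Int.natCast_nonneg _
    have h' : (0 : ℤ) < (finrank Kbar (riemannRochSpace D) : ℤ) := by
      simp only [Nat.cast_zero, sub_zero] at he; linarith
    exact_mod_cast h'
  -- a nonzero element of `L(D)`
  have : FiniteDimensional Kbar (riemannRochSpace D) := finiteDimensional_L H D
  obtain ⟨f, hf0⟩ : ∃ f : riemannRochSpace D, f ≠ 0 := by
    by_contra hcon
    push Not at hcon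
    have : Subsingleton (riemannRochSpace D) := ⟨fun a b => by rw [hcon a, hcon b]⟩
    have := finrank_zero_of_subsingleton (R := Kbar) (M := riemannRochSpace D)
    omega
  have hfF : (f : FF N) ≠ 0 := fun h => hf0 (Subtype.ext h)
  have hmem := (mem_L_iff (D := D) hfF).mp f.2
  -- `div f + D` is effective of degree zero, hence zero
  have hE : 0 ≤ divOf H hfF + D := by
    intro v
    have := hmem v
    simp only [Finsupp.coe_zero, Pi.zero_apply, Finsupp.coe_add, Pi.add_apply, divOf_apply]
    linarith
  have hdegE : Divisor.degree (divOf H hfF + D) = 0 := by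
    rw [map_add, degree_divOf, hD, add_zero]
  have hzero := eq_zero_of_degree_eq_zero H hE hdegE
  refine ⟨(f : FF N)⁻¹, inv_ne_zero hfF, fun v => ?_⟩
  have hv := DFunLike.congr_fun hzero v
  simp only [Finsupp.coe_add, Pi.add_apply, divOf_apply, Finsupp.coe_zero, Pi.zero_apply] at hv
  rw [Place.ord_inv]
  linarith

/-- In genus zero `JZero N` is trivial. -/
theorem subsingleton_jzero
    (hg : finrank ℂ (CuspForm (CongruenceSubgroup.Gamma0 N) 2) = 0) :
    Subsingleton (JZero N) := by
  refine ⟨fun a b => ?_⟩
  have key : ∀ x : JZero N, x = 0 := by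
    intro x
    obtain ⟨D, rfl⟩ := Pic0.mk_surjective x
    show Pic0.mk D = 0
    rw [Pic0.mk, QuotientAddGroup.eq_zero_iff]
    show (D : Divisor Kbar (FF N)) ∈ Divisor.principal
    rw [Divisor.mem_principal]
    exact isPrincipal_of_degree_eq_zero N hg D (Divisor.mem_degZero.mp D.2)
  rw [key a, key b]

/-- **[FIN-0]** the genus-zero case of S17. -/
theorem fg_of_genus_zero
    (hg : finrank ℂ (CuspForm (CongruenceSubgroup.Gamma0 N) 2) = 0) :
    AddGroup.FG ↥(FixedPoints.addSubgroup (AlgebraicClosure ℚ ≃ₐ[ℚ] AlgebraicClosure ℚ)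
      (ModularCurve.JZero N)) := by
  have := subsingleton_jzero N hg
  have : Finite ↥(FixedPoints.addSubgroup (AlgebraicClosure ℚ ≃ₐ[ℚ] AlgebraicClosure ℚ)
      (ModularCurve.JZero N)) := Finite.of_subsingleton
  exact AddGroup.fg_of_finite

end Fermat.Agent.M17.GenusZero0
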