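/-
M17 (target S17), leaf (P1) for (RL) (lead): **smooth logarithms**.  A nonvanishing `C²` function
`G : E → ℂ` on a convex open subset `U` of a real normed space has a logarithm `b` on `U`:
`exp (b z) = G z`, `db = G⁻¹ dG`, and `b` is as smooth as `G`.  Mathlib only.  Imported by no
statement.

Proof: the `1`-form `ω = G⁻¹ dG` is closed (locally it is `d (log (G / G a))`, and second derivatives
of `C²` functions are symmetric), so by the Poincaré lemma
(`Convex.exists_forall_hasFDerivAt_of_fderiv_symmetric`) it has a primitive `f`; then `exp (-f) G`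
has zero derivative on the connected set `U`, hence is a constant `exp c`, and `b = f + c`.
-/
import Mathlib

set_option autoImplicit false

namespace Fermat.Agent.M17.SmoothLog0

open scoped Topology ContDiff

variable {E : Type*} [NormedAddCommGroup E] [NormedSpace ℝ E]

/-- the logarithmic derivative `G⁻¹ dG` as a `1`-form. -/
noncomputable def dlog (G : E → ℂ) (z : E) : E →L[ℝ] ℂ := (G z)⁻¹ • fderiv ℝ G z

/-- derivative of `log ∘ f` for a real-differentiable `f` with values in the slit plane. -/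
theorem hasFDerivAt_clog {f : E → ℂ} {f' : E →L[ℝ] ℂ} {x : E} (hf : HasFDerivAt f f' x)
    (hx : f x ∈ Complex.slitPlane) :
    HasFDerivAt (fun t => Complex.log (f t)) ((f x)⁻¹ • f') x := by
  have h1 : HasFDerivAt Complex.log
      ((ContinuousLinearMap.smulRight (1 : ℂ →L[ℂ] ℂ) (f x)⁻¹).restrictScalars ℝ) (f x) :=
    ((Complex.hasStrictDerivAt_log hx).hasDerivAt.hasFDerivAt).restrictScalars ℝ
  have h2 := h1.comp x hf
  have heq : (f x)⁻¹ • f' =
      ((ContinuousLinearMap.smulRight (1 : ℂ →L[ℂ] ℂ) (f x)⁻¹).restrictScalars ℝ).comp f' := by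
    ext v
    simp [mul_comm]
  rw [heq]
  exact h2

/-- the local logarithm `log (G / G a)` near `a`. -/
theorem eventually_hasFDerivAt_localLog {U : Set E} (hU : IsOpen U) {G : E → ℂ}
    (hG : ContDiffOn ℝ 2 G U) (h0 : ∀ z ∈ U, G z ≠ 0) {a : E} (ha : a ∈ U) :
    ∀ᶠ z in 𝓝 a, HasFDerivAt (fun t => Complex.log (G t / G a)) (dlog G z) z := by
  have hcont : ContinuousAt (fun t => G t / G a) a :=
    ((hG.continuousOn.continuousAt (hU.mem_nhds ha))).div_const _
  have h1 : (fun t => G t / G a) a ∈ Complex.slitPlane := by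
    show G a / G a ∈ Complex.slitPlane
    rw [div_self (h0 a ha)]
    exact Complex.one_mem_slitPlane
  have hslit : ∀ᶠ z in 𝓝 a, G z / G a ∈ Complex.slitPlane :=
    hcont.eventually (Complex.isOpen_slitPlane.mem_nhds h1)
  filter_upwards [hslit, hU.mem_nhds ha] with z hz hzU
  have hdiff : DifferentiableAt ℝ G z :=
    (hG.differentiableOn (by norm_num)).differentiableAt (hU.mem_nhds hzU)
  have h2 : HasFDerivAt (fun t => G t / G a) ((G a)⁻¹ • fderiv ℝ G z) z := by
    have := hdiff.hasFDerivAt.const_smul (G a)⁻¹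
    refine this.congr_of_eventuallyEq (Filter.Eventually.of_forall fun t => ?_)
    simp [div_eq_inv_mul]
  have h3 := hasFDerivAt_clog h2 hz
  have heq : dlog G z = (G z / G a)⁻¹ • (G a)⁻¹ • fderiv ℝ G z := by
    unfold dlog
    rw [smul_smul]
    congr 1
    have := h0 z hzU
    have := h0 a ha
    field_simp
  rw [heq]
  exact h3

theorem contDiffAt_localLog {U : Set E} (hU : IsOpen U) {G : E → ℂ}
    (hG : ContDiffOn ℝ 2 G U) (h0 : ∀ z ∈ U, G z ≠ 0) {a : E} (ha : a ∈ U) :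
    ContDiffAt ℝ 2 (fun t => Complex.log (G t / G a)) a := by
  have h1 : G a / G a ∈ Complex.slitPlane := by
    rw [div_self (h0 a ha)]
    exact Complex.one_mem_slitPlane
  have hlog : ContDiffAt ℝ 2 Complex.log (G a / G a) :=
    (Complex.contDiffAt_log h1 (n := 2)).restrict_scalars ℝ
  have hGa : ContDiffAt ℝ 2 (fun t => G t / G a) a :=
    (hG.contDiffAt (hU.mem_nhds ha)).div_const _
  exact hlog.comp a hGa

theorem dlog_eventuallyEq {U : Set E} (hU : IsOpen U) {G : E → ℂ}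
    (hG : ContDiffOn ℝ 2 G U) (h0 : ∀ z ∈ U, G z ≠ 0) {a : E} (ha : a ∈ U) :
    dlog G =ᶠ[𝓝 a] fderiv ℝ (fun t => Complex.log (G t / G a)) := by
  filter_upwards [eventually_hasFDerivAt_localLog hU hG h0 ha] with z hz
  exact hz.fderiv.symm

theorem differentiableAt_dlog {U : Set E} (hU : IsOpen U) {G : E → ℂ}
    (hG : ContDiffOn ℝ 2 G U) (h0 : ∀ z ∈ U, G z ≠ 0) {a : E} (ha : a ∈ U) :
    DifferentiableAt ℝ (dlog G) a := by
  have h1 : ContDiffAt ℝ 1 (fderiv ℝ (fun t => Complex.log (G t / G a))) a :=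
    (contDiffAt_localLog hU hG h0 ha).fderiv_right (by norm_num)
  have h2 : DifferentiableAt ℝ (fderiv ℝ (fun t => Complex.log (G t / G a))) a :=
    h1.differentiableAt (by norm_num)
  exact h2.congr_of_eventuallyEq (dlog_eventuallyEq hU hG h0 ha)

/-- the form `G⁻¹ dG` is closed. -/
theorem fderiv_dlog_symm {U : Set E} (hU : IsOpen U) {G : E → ℂ}
    (hG : ContDiffOn ℝ 2 G U) (h0 : ∀ z ∈ U, G z ≠ 0) {a : E} (ha : a ∈ U) (x y : E) :
    fderiv ℝ (dlog G) a x y = fderiv ℝ (dlog G) a y x := by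
  rw [(dlog_eventuallyEq hU hG h0 ha).fderiv_eq]
  have h := (contDiffAt_localLog hU hG h0 ha).isSymmSndFDerivAt
    (by rw [minSmoothness_of_isRCLikeNormedField])
  exact h x y

/-- a primitive of `G⁻¹ dG` on a convex open set (Poincaré lemma). -/
theorem exists_primitive_dlog {U : Set E} (hU : IsOpen U) (hconv : Convex ℝ U) {G : E → ℂ}
    (hG : ContDiffOn ℝ 2 G U) (h0 : ∀ z ∈ U, G z ≠ 0) :
    ∃ f : E → ℂ, ∀ a ∈ U, HasFDerivAt f (dlog G a) a :=
  hconv.exists_forall_hasFDerivAt_of_fderiv_symmetric (𝕜 := ℝ) hU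
    (fun _ ha => (differentiableAt_dlog hU hG h0 ha).differentiableWithinAt)
    (fun _ ha x y => fderiv_dlog_symm hU hG h0 ha x y)

/-- derivative of `exp ∘ f` for a real-differentiable `f`. -/
theorem hasFDerivAt_cexp {f : E → ℂ} {f' : E →L[ℝ] ℂ} {x : E} (hf : HasFDerivAt f f' x) :
    HasFDerivAt (fun t => Complex.exp (f t)) (Complex.exp (f x) • f') x := by
  have h1 : HasFDerivAt Complex.exp
      ((ContinuousLinearMap.smulRight (1 : ℂ →L[ℂ] ℂ) (Complex.exp (f x))).restrictScalars ℝ)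
      (f x) :=
    ((Complex.hasDerivAt_exp (f x)).hasFDerivAt).restrictScalars ℝ
  have h2 := h1.comp x hf
  have heq : Complex.exp (f x) • f' =
      ((ContinuousLinearMap.smulRight (1 : ℂ →L[ℂ] ℂ)
        (Complex.exp (f x))).restrictScalars ℝ).comp f' := by
    ext v
    simp [mul_comm]
  rw [heq]
  exact h2

/-- **(P1) smooth logarithm**: a nonvanishing `C²` function on a convex open set has a logarithm
with `db = G⁻¹ dG`. -/
theorem exists_log {U : Set E} (hU : IsOpen U) (hconv : Convex ℝ U) {G : E → ℂ}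
    (hG : ContDiffOn ℝ 2 G U) (h0 : ∀ z ∈ U, G z ≠ 0) :
    ∃ b : E → ℂ, (∀ z ∈ U, HasFDerivAt b (dlog G z) z) ∧ ∀ z ∈ U, Complex.exp (b z) = G z := by
  obtain ⟨f, hf⟩ := exists_primitive_dlog hU hconv hG h0
  rcases U.eq_empty_or_nonempty with rfl | ⟨a₀, ha₀⟩
  · exact ⟨0, fun z hz => absurd hz (Set.notMem_empty z), fun z hz => absurd hz (Set.notMem_empty z)⟩
  set H : E → ℂ := fun z => Complex.exp (-f z) * G z with hH
  have hHd : ∀ z ∈ U, HasFDerivAt H (0 : E →L[ℝ] ℂ) z := by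
    intro z hz
    have hGd : HasFDerivAt G (fderiv ℝ G z) z :=
      ((hG.differentiableOn (by norm_num)).differentiableAt (hU.mem_nhds hz)).hasFDerivAt
    have h1 := hasFDerivAt_cexp (hf z hz).neg
    have h2 := h1.mul hGd
    have heq : Complex.exp (-f z) • fderiv ℝ G z + G z • Complex.exp (-f z) • -dlog G z = 0 := by
      unfold dlog
      rw [smul_neg, smul_neg, smul_smul, smul_smul]
      have : G z * Complex.exp (-f z) * (G z)⁻¹ = Complex.exp (-f z) := by
        have := h0 z hz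
        field_simp
      rw [this, add_neg_cancel]
    have h3 : HasFDerivAt H
        (Complex.exp (-f z) • fderiv ℝ G z + G z • Complex.exp (-f z) • -dlog G z) z := h2
    rw [heq] at h3
    exact h3
  have hconst : ∀ z ∈ U, H z = H a₀ := fun z hz =>
    hU.is_const_of_fderiv_eq_zero (𝕜 := ℝ) hconv.isPreconnected
      (fun w hw => (hHd w hw).differentiableAt.differentiableWithinAt)
      (fun w hw => (hHd w hw).fderiv) hz ha₀
  have hC : H a₀ ≠ 0 := mul_ne_zero (Complex.exp_ne_zero _) (h0 a₀ ha₀)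
  refine ⟨fun z => f z + Complex.log (H a₀), fun z hz => ?_, fun z hz => ?_⟩
  · exact (hf z hz).add_const _
  · show Complex.exp (f z + Complex.log (H a₀)) = G z
    rw [Complex.exp_add, Complex.exp_log hC, ← hconst z hz, hH]
    show Complex.exp (f z) * (Complex.exp (-f z) * G z) = G z
    rw [← mul_assoc, ← Complex.exp_add, add_neg_cancel, Complex.exp_zero, one_mul]

/-- a function with `db = G⁻¹ dG` is as smooth as `G`. -/
theorem contDiffOn_of_hasFDerivAt_dlog {U : Set E} (hU : IsOpen U) {G b : E → ℂ}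
    (h0 : ∀ z ∈ U, G z ≠ 0) (hb : ∀ z ∈ U, HasFDerivAt b (dlog G z) z) (m : ℕ)
    (hG : ContDiffOn ℝ ((m + 1 : ℕ) : WithTop ℕ∞) G U) :
    ContDiffOn ℝ ((m + 1 : ℕ) : WithTop ℕ∞) b U := by
  have hcast : ((m + 1 : ℕ) : WithTop ℕ∞) = (m : WithTop ℕ∞) + 1 := by norm_cast
  rw [hcast] at hG ⊢
  rw [contDiffOn_succ_iff_fderiv_of_isOpen hU]
  refine ⟨fun z hz => (hb z hz).differentiableAt.differentiableWithinAt, ?_, ?_⟩
  · intro h
    exact absurd h (by exact_mod_cast WithTop.coe_ne_top)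
  · have h1 : ContDiffOn ℝ (m : WithTop ℕ∞) (fun z => (G z)⁻¹) U :=
      (hG.of_le (by norm_num)).inv h0
    have h2 : ContDiffOn ℝ (m : WithTop ℕ∞) (fderiv ℝ G) U :=
      hG.fderiv_of_isOpen hU le_rfl
    have h3 : ContDiffOn ℝ (m : WithTop ℕ∞) (dlog G) U := h1.smul h2
    exact h3.congr fun z hz => (hb z hz).fderiv

theorem contDiffOn_infty_of_hasFDerivAt_dlog {U : Set E} (hU : IsOpen U) {G b : E → ℂ}
    (h0 : ∀ z ∈ U, G z ≠ 0) (hb : ∀ z ∈ U, HasFDerivAt b (dlog G z) z)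
    (hG : ContDiffOn ℝ ∞ G U) : ContDiffOn ℝ ∞ b U := by
  rw [contDiffOn_infty]
  intro n
  have h1 := contDiffOn_of_hasFDerivAt_dlog hU h0 hb n (hG.of_le (by exact_mod_cast le_top))
  exact h1.of_le (by exact_mod_cast Nat.le_succ n)

/-- **(P1), packaged**: `b` is `C²` (and `C^∞` if `G` is), `db = G⁻¹ dG`, `exp b = G` on `U`. -/
theorem exists_log_contDiffOn {U : Set E} (hU : IsOpen U) (hconv : Convex ℝ U) {G : E → ℂ}
    (hG : ContDiffOn ℝ 2 G U) (h0 : ∀ z ∈ U, G z ≠ 0) :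
    ∃ b : E → ℂ, ContDiffOn ℝ 2 b U ∧ (∀ z ∈ U, HasFDerivAt b ((G z)⁻¹ • fderiv ℝ G z) z) ∧
      (∀ z ∈ U, Complex.exp (b z) = G z) ∧ (ContDiffOn ℝ ∞ G U → ContDiffOn ℝ ∞ b U) := by
  obtain ⟨b, hb, hexp⟩ := exists_log hU hconv hG h0
  refine ⟨b, ?_, hb, hexp, contDiffOn_infty_of_hasFDerivAt_dlog hU h0 hb⟩
  have h2 : ((1 + 1 : ℕ) : WithTop ℕ∞) = 2 := by norm_cast
  have := contDiffOn_of_hasFDerivAt_dlog hU h0 hb 1 (by rw [h2]; exact hG)
  rwa [h2] at this

end Fermat.Agent.M17.SmoothLog0
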