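import Fermat.Agent.M17.ModelFam8
import Fermat.Agent.M17.SmoothLog0
import Fermat.Agent.M17.DegMeasure5
import Fermat.Agent.M17.DegMoebius5
import Fermat.Agent.M17.LocalModel8

/-!
# Programme M17, block (RL): the smooth logarithm `b̃` of `G = F / ∏_q T_q` (abstract family)

For a `ModelFam8.Family` and an adapted `F`: `Gc = GH F ∘ ofComplex` is `C^∞` and nowhere zero on
the upper half plane; any smooth logarithm `b` (`IsLog`, exists by `SmoothLog0`) satisfies
`2∂̄ b (z₀) = ∑_{q ∈ Qs z₀} 2∂̄ (l q ∘ ofComplex) (z₀)` and `b ∘ δ = b + ψ̃ δ` with an additive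
`ψ̃ = psiHom`, `exp (ψ̃ δ) = c` when `F ∘ δ = c · F`.

Imported by no statement.
-/

set_option autoImplicit false
set_option linter.unusedSectionVars false

open UpperHalfPlane Filter Topology Set
open scoped Manifold MatrixGroups ContDiff

noncomputable section

namespace Fermat.Agent.M17.GlobalLog8

open Fermat.Agent.X0 Fermat.Agent.X0.SurjPoint Fermat.Agent.ES.KUM Fermat.Agent.M15.DivLogMer1
  Fermat.Agent.M15.DivLogPrim1 Fermat.Agent.M15.DivDlog1 Fermat.Agent.M17.MerEval8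
  Fermat.Agent.M17.LocalModel8 Fermat.Agent.M17.ModelFam8
  Fermat.Agent.M17.CauchyPompeiu5 Fermat.Agent.M17.DegMoebius5
  Fermat.Agent.M17.DegMeasure5 Fermat.Agent.M17.DbarResidue5

local notation "ι" => algebraMap HolH MerH

/-! ### General lemmas -/

theorem tendsto_ofComplex (z₀ : ℍ) : Tendsto ofComplex (𝓝 (z₀ : ℂ)) (𝓝 z₀) := by
  have h : ContinuousAt ofComplex (z₀ : ℂ) :=
    ofComplex.continuousAt (by simp [ofComplex, z₀.im_pos])
  rw [ContinuousAt, ofComplex_apply] at h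
  exact h

theorem UH_mem_nhds (z₀ : ℍ) : UH ∈ 𝓝 (z₀ : ℂ) := isOpen_UH.mem_nhds z₀.im_pos

theorem differentiableOn_mob (g : SL(2, ℤ)) : DifferentiableOn ℂ (mob g) UH := by
  intro w hw
  have h := hasDerivAt_mob g ⟨w, hw⟩
  exact h.differentiableAt.differentiableWithinAt

theorem contDiffAt_mob (g : SL(2, ℤ)) (z₀ : ℍ) : ContDiffAt ℝ ∞ (mob g) (z₀ : ℂ) := by
  have h : AnalyticAt ℂ (mob g) (z₀ : ℂ) :=
    (differentiableOn_mob g).analyticAt (UH_mem_nhds z₀)
  exact (h.contDiffAt (n := ∞)).restrict_scalars ℝ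

theorem contDiffAt_toC (a : HolH) (z₀ : ℍ) : ContDiffAt ℝ ∞ (toC a) (z₀ : ℂ) :=
  ((analyticAt_toC a z₀.im_pos).contDiffAt (n := ∞)).restrict_scalars ℝ

theorem dbar2_add' {u v : ℂ → ℂ} {z : ℂ} (hu : DifferentiableAt ℝ u z)
    (hv : DifferentiableAt ℝ v z) : dbar2 (fun w => u w + v w) z = dbar2 u z + dbar2 v z := by
  unfold dbar2
  rw [fderiv_fun_add hu hv]
  simp only [add_apply]
  ring

theorem dbar2_sum' {α : Type*} (s : Finset α) {u : α → ℂ → ℂ} {z : ℂ}
    (hu : ∀ i ∈ s, DifferentiableAt ℝ (u i) z) :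
    dbar2 (fun w => ∑ i ∈ s, u i w) z = ∑ i ∈ s, dbar2 (u i) z := by
  unfold dbar2
  rw [fderiv_fun_sum hu]
  simp only [sum_apply, Finset.mul_sum, Finset.sum_add_distrib]

/-- a real-differentiable logarithm of a holomorphic function is holomorphic. -/
theorem dbar2_eq_zero_of_exp_eq {h H : ℂ → ℂ} {z : ℂ} (hh : DifferentiableAt ℝ h z)
    (hH : DifferentiableAt ℂ H z) (heq : (fun w => Complex.exp (h w)) =ᶠ[𝓝 z] H) :
    dbar2 h z = 0 := by
  have h1 := SmoothLog0.hasFDerivAt_cexp hh.hasFDerivAt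
  have h2 : dbar2 (fun w => Complex.exp (h w)) z = Complex.exp (h z) * dbar2 h z := by
    unfold dbar2
    rw [h1.fderiv]
    simp only [smul_apply, smul_eq_mul]
    ring
  have h3 : dbar2 (fun w => Complex.exp (h w)) z = 0 := by
    rw [dbar2_congr heq]
    exact dbar2_eq_zero_of_differentiableAt hH
  rw [h2] at h3
  exact (mul_eq_zero.1 h3).resolve_left (Complex.exp_ne_zero _)

/-! ### The function `G` on `ℂ` -/

variable {Γ : Subgroup SL(2, ℤ)} {Q : Type} (fam : Family Γ Q) {F : MerH}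

/-- `G = F / ∏_q T_q` as a function on `ℂ`. -/
def Gc (F : MerH) (w : ℂ) : ℂ := fam.GH F (ofComplex w)

theorem Gc_coe (z : ℍ) : Gc fam F (z : ℂ) = fam.GH F z := by
  unfold Gc; rw [ofComplex_apply]

/-- the local model of `G` near `z₀`. -/
def Gloc (a b : HolH) (z₀ : ℍ) (w : ℂ) : ℂ :=
  toC a w / toC b w * Complex.exp (∑ q ∈ fam.Qs z₀, fam.l q (ofComplex w))

variable {fam}

theorem eventually_Gc_eq (hF : fam.Adapted F) (z₀ : ℍ) {a b : HolH}
    (hb : (b : ℍ → ℂ) z₀ ≠ 0) (hab : fam.X F (fam.Qs z₀) = ι a / ι b) :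
    Gc fam F =ᶠ[𝓝 (z₀ : ℂ)] Gloc fam a b z₀ :=
  (tendsto_ofComplex z₀).eventually (Family.eventually_GH_eq hF z₀ hb hab)

theorem contDiffAt_sum_l (s : Finset Q) (z₀ : ℍ) :
    ContDiffAt ℝ ∞ (fun w => ∑ q ∈ s, fam.l q (ofComplex w)) (z₀ : ℂ) :=
  ContDiffAt.sum fun q _ => fam.smooth q z₀

theorem contDiffAt_Gloc {a b : HolH} (z₀ : ℍ) (hb : (b : ℍ → ℂ) z₀ ≠ 0) :
    ContDiffAt ℝ ∞ (Gloc fam a b z₀) (z₀ : ℂ) := by
  unfold Gloc
  have hb' : toC b (z₀ : ℂ) ≠ 0 := by rw [toC_apply]; exact hb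
  have hdiv : ContDiffAt ℝ ∞ (fun w => toC a w / toC b w) (z₀ : ℂ) := by
    simp only [div_eq_mul_inv]
    exact (contDiffAt_toC a z₀).mul ((contDiffAt_toC b z₀).inv hb')
  exact hdiv.mul
    ((Complex.contDiff_exp (𝕜 := ℝ)).contDiffAt.comp _ (contDiffAt_sum_l _ z₀))

theorem contDiffAt_Gc (hF : fam.Adapted F) (z₀ : ℍ) : ContDiffAt ℝ ∞ (Gc fam F) (z₀ : ℂ) := by
  obtain ⟨a, b, -, hb, hab⟩ := Family.exists_local_rep_X hF z₀
  exact (contDiffAt_Gloc z₀ hb).congr_of_eventuallyEq (eventually_Gc_eq hF z₀ hb hab)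

theorem contDiffOn_Gc (hF : fam.Adapted F) : ContDiffOn ℝ ∞ (Gc fam F) UH := fun w hw =>
  (contDiffAt_Gc hF ⟨w, hw⟩).contDiffWithinAt

theorem Gc_ne_zero (hF : fam.Adapted F) (w : ℂ) : Gc fam F w ≠ 0 := Family.GH_ne_zero hF _

theorem convex_UH : Convex ℝ UH := by
  intro x hx y hy a b ha hb hab
  have hx' : 0 < x.im := hx
  have hy' : 0 < y.im := hy
  show 0 < (a • x + b • y).im
  simp only [Complex.add_im, Complex.real_smul, Complex.mul_im, Complex.ofReal_re,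
    Complex.ofReal_im, zero_mul, add_zero]
  rcases ha.lt_or_eq with ha' | ha'
  · have h1 : 0 < a * x.im := mul_pos ha' hx'
    have h2 : 0 ≤ b * y.im := mul_nonneg hb hy'.le
    linarith
  · have hb1 : b = 1 := by linarith
    rw [← ha', hb1]
    linarith

variable (fam)

/-- the logarithm `b̃` (any smooth one), with its characteristic properties. -/
structure IsLog (F : MerH) (b : ℂ → ℂ) : Prop where
  smooth : ContDiffOn ℝ ∞ b UH
  exp_eq : ∀ z : ℍ, Complex.exp (b (z : ℂ)) = fam.GH F z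

variable {fam}

theorem exists_isLog (hF : fam.Adapted F) : ∃ b : ℂ → ℂ, IsLog fam F b := by
  obtain ⟨b, -, -, hexp, hsm⟩ := SmoothLog0.exists_log_contDiffOn isOpen_UH convex_UH
    ((contDiffOn_Gc hF).of_le (by decide))
    (fun w _ => Gc_ne_zero hF w)
  exact ⟨b, hsm (contDiffOn_Gc hF), fun z => by rw [hexp _ z.im_pos, Gc_coe]⟩

theorem IsLog.differentiableAt {b : ℂ → ℂ} (hb : IsLog fam F b) (z : ℍ) :
    DifferentiableAt ℝ b (z : ℂ) :=
  ((hb.smooth.contDiffAt (UH_mem_nhds z)).differentiableAt (by simp))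

/-- **`2∂̄ b̃`** at `z₀` is the finite sum of the `2∂̄ (l q)`, `q ∈ Qs z₀`. -/
theorem IsLog.dbar2_eq {b : ℂ → ℂ} (hb : IsLog fam F b) (hF : fam.Adapted F) (z₀ : ℍ) :
    dbar2 b (z₀ : ℂ) = ∑ q ∈ fam.Qs z₀, dbar2 (fun w => fam.l q (ofComplex w)) (z₀ : ℂ) := by
  obtain ⟨a₀, b₀, ha₀, hb₀, hab⟩ := Family.exists_local_rep_X hF z₀
  set S : ℂ → ℂ := fun w => ∑ q ∈ fam.Qs z₀, fam.l q (ofComplex w) with hSdef
  have hSd : DifferentiableAt ℝ S (z₀ : ℂ) :=
    (contDiffAt_sum_l _ z₀).differentiableAt (by simp)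
  have hbd := hb.differentiableAt z₀
  -- `h = b - S` is a logarithm of the holomorphic function `a₀ / b₀`
  have hh : DifferentiableAt ℝ (fun w => b w - S w) (z₀ : ℂ) := hbd.sub hSd
  have hH : DifferentiableAt ℂ (fun w => toC a₀ w / toC b₀ w) (z₀ : ℂ) :=
    (differentiableAt_toC a₀ z₀.im_pos).div (differentiableAt_toC b₀ z₀.im_pos)
      (by rw [toC_apply]; exact hb₀)
  have heq : (fun w => Complex.exp (b w - S w)) =ᶠ[𝓝 (z₀ : ℂ)]
      fun w => toC a₀ w / toC b₀ w := by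
    filter_upwards [eventually_Gc_eq hF z₀ hb₀ hab, UH_mem_nhds z₀] with w hw hwU
    have h1 : Complex.exp (b w) = Gc fam F w := by
      have := hb.exp_eq ⟨w, hwU⟩
      rw [← Gc_coe] at this
      exact this
    rw [Complex.exp_sub, h1, hw]
    unfold Gloc
    rw [mul_div_assoc, div_self (Complex.exp_ne_zero _), mul_one]
  have h0 := dbar2_eq_zero_of_exp_eq hh hH heq
  have hsplit : b = fun w => (b w - S w) + S w := by
    funext w; ring
  conv_lhs => rw [hsplit]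
  rw [dbar2_add' hh hSd, h0, zero_add, hSdef,
    dbar2_sum' _ (fun q _ => (fam.smooth q z₀).differentiableAt (by simp))]

/-! ### Quasi-invariance of the logarithm -/

/-- a continuous function on `ℍ` whose exponential is constant is constant. -/
theorem eq_of_exp_const {f : ℂ → ℂ} (hf : ContinuousOn f UH) {c : ℂ}
    (hc : ∀ w ∈ UH, Complex.exp (f w) = c) {w₀ w : ℂ} (hw₀ : w₀ ∈ UH) (hw : w ∈ UH) :
    f w = f w₀ := by
  have hpre : IsPreconnected UH := convex_UH.isPreconnected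
  -- values differ by integer multiples of `2πi`
  have hint : ∀ v ∈ UH, ∃ n : ℤ, f v - f w₀ = n * (2 * Real.pi * Complex.I) := by
    intro v hv
    rw [← Complex.exp_eq_one_iff, Complex.exp_sub, hc v hv, hc w₀ hw₀]
    exact div_self (by rw [← hc w₀ hw₀]; exact Complex.exp_ne_zero _)
  have hdich : ∀ v ∈ UH, f v = f w₀ ∨ Real.pi < ‖f v - f w₀‖ := by
    intro v hv
    obtain ⟨n, hn⟩ := hint v hv
    by_cases h0 : n = 0
    · left
      rw [h0, Int.cast_zero, zero_mul] at hn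
      exact sub_eq_zero.1 hn
    · right
      rw [hn, norm_mul, norm_mul, norm_mul, Complex.norm_I, mul_one, Complex.norm_intCast]
      have h1 : (1 : ℝ) ≤ |(n : ℝ)| := by
        have := Int.one_le_abs h0
        exact_mod_cast this
      have hpi := Real.pi_pos
      simp only [Complex.norm_ofNat, Complex.norm_real, Real.norm_eq_abs, abs_of_pos hpi]
      nlinarith
  set u : Set ℂ := UH ∩ f ⁻¹' (Metric.ball (f w₀) Real.pi) with hu
  set v : Set ℂ := UH ∩ f ⁻¹' {y | Real.pi < ‖y - f w₀‖} with hv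
  have hu_open : IsOpen u := hf.isOpen_inter_preimage isOpen_UH Metric.isOpen_ball
  have hv_open : IsOpen v := hf.isOpen_inter_preimage isOpen_UH
    (isOpen_lt continuous_const (continuous_norm.comp (continuous_id.sub continuous_const)))
  have hcover : UH ⊆ u ∪ v := by
    intro y hy
    rcases hdich y hy with h | h
    · left
      refine ⟨hy, ?_⟩
      show f y ∈ Metric.ball (f w₀) Real.pi
      rw [h]
      exact Metric.mem_ball_self Real.pi_pos
    · right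
      exact ⟨hy, h⟩
  have hw₀u : (UH ∩ u).Nonempty :=
    ⟨w₀, hw₀, hw₀, by show f w₀ ∈ Metric.ball (f w₀) Real.pi; exact Metric.mem_ball_self Real.pi_pos⟩
  rcases hdich w hw with h | h
  · exact h
  · exfalso
    have hwv : (UH ∩ v).Nonempty := ⟨w, hw, hw, h⟩
    obtain ⟨y, -, ⟨-, hy1⟩, ⟨-, hy2⟩⟩ := hpre u v hu_open hv_open hcover hw₀u hwv
    have h1 : ‖f y - f w₀‖ < Real.pi := by
      have : f y ∈ Metric.ball (f w₀) Real.pi := hy1
      rwa [Metric.mem_ball, dist_eq_norm] at this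
    have h2 : Real.pi < ‖f y - f w₀‖ := hy2
    linarith

theorem mob_mem_UH (g : SL(2, ℤ)) (w : ℂ) : mob g w ∈ UH := (g • ofComplex w).im_pos

theorem continuousOn_mob (g : SL(2, ℤ)) : ContinuousOn (mob g) UH :=
  (differentiableOn_mob g).continuousOn

/-- the increment of `b̃` along `δ`, read at the base point `i`. -/
def psiFun (b : ℂ → ℂ) (δ : SL(2, ℤ)) : ℂ := b (mob δ Complex.I) - b Complex.I

theorem I_mem_UH : Complex.I ∈ UH := by
  show 0 < Complex.I.im
  simp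

theorem IsLog.continuousOn {b : ℂ → ℂ} (hb : IsLog fam F b) : ContinuousOn b UH :=
  hb.smooth.continuousOn

theorem IsLog.exp_eq' {b : ℂ → ℂ} (hb : IsLog fam F b) {w : ℂ} (hw : w ∈ UH) :
    Complex.exp (b w) = fam.GH F (ofComplex w) := by
  have := hb.exp_eq ⟨w, hw⟩
  rw [ofComplex_apply_of_im_pos hw]
  exact this

theorem IsLog.smul_eq {b : ℂ → ℂ} (hb : IsLog fam F b)
    (hF : fam.Adapted F) {δ : Γ} {c : ℂ} (hc : slMer (δ : SL(2, ℤ)) F = cst c * F) :
    (∀ z : ℍ, b (((δ : SL(2, ℤ)) • z : ℍ) : ℂ) = b (z : ℂ) + psiFun b δ) ∧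
      Complex.exp (psiFun b δ) = c := by
  set f : ℂ → ℂ := fun w => b (mob (δ : SL(2, ℤ)) w) - b w with hf
  have hfc : ContinuousOn f UH :=
    (hb.continuousOn.comp (continuousOn_mob _) (fun w _ => mob_mem_UH _ w)).sub hb.continuousOn
  have hexp : ∀ w ∈ UH, Complex.exp (f w) = c := by
    intro w hw
    rw [hf]
    show Complex.exp (b (mob (δ : SL(2, ℤ)) w) - b w) = c
    rw [Complex.exp_sub, hb.exp_eq' (mob_mem_UH _ w), hb.exp_eq' hw]
    have h1 : ofComplex (mob (δ : SL(2, ℤ)) w) = (δ : SL(2, ℤ)) • ofComplex w := by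
      unfold mob
      rw [ofComplex_apply]
    rw [h1, Family.GH_smul hF hc, mul_div_assoc, div_self (Family.GH_ne_zero hF _), mul_one]
  refine ⟨fun z => ?_, ?_⟩
  · have h1 := eq_of_exp_const hfc hexp I_mem_UH z.im_pos
    rw [hf] at h1
    have h2 : b (mob (δ : SL(2, ℤ)) (z : ℂ)) - b (z : ℂ) = psiFun b δ := h1
    rw [mob_coe] at h2
    linear_combination h2
  · exact hexp _ I_mem_UH

/-- **the additive character `ψ̃`** of `b̃`. -/
def psiHom {b : ℂ → ℂ} (hb : IsLog fam F b) (hF : fam.Adapted F)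
    (hchi : ∀ δ : Γ, ∃ c : ℂ, slMer (δ : SL(2, ℤ)) F = cst c * F) : Additive Γ →+ ℂ where
  toFun δ := psiFun b ((Additive.toMul δ : Γ) : SL(2, ℤ))
  map_zero' := by
    show psiFun b ((1 : Γ) : SL(2, ℤ)) = 0
    unfold psiFun mob
    rw [Subgroup.coe_one, one_smul, ofComplex_apply_of_im_pos I_mem_UH]
    exact sub_self _
  map_add' δ δ' := by
    show psiFun b (((Additive.toMul δ * Additive.toMul δ' : Γ)) : SL(2, ℤ)) =
      psiFun b ((Additive.toMul δ : Γ) : SL(2, ℤ)) + psiFun b ((Additive.toMul δ' : Γ) : SL(2, ℤ))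
    set γ : Γ := Additive.toMul δ
    set γ' : Γ := Additive.toMul δ'
    obtain ⟨c, hc⟩ := hchi γ
    obtain ⟨c', hc'⟩ := hchi γ'
    have h1 := (hb.smul_eq hF hc).1
    have h2 := (hb.smul_eq hF hc').1
    set zI : ℍ := ⟨Complex.I, I_mem_UH⟩
    have e1 : psiFun b ((γ * γ' : Γ) : SL(2, ℤ)) =
        b ((((γ : SL(2, ℤ)) * (γ' : SL(2, ℤ))) • zI : ℍ) : ℂ) - b (zI : ℂ) := by
      unfold psiFun mob
      rw [ofComplex_apply_of_im_pos I_mem_UH]
      rfl
    rw [e1, mul_smul, h1, h2]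
    ring

theorem psiHom_apply {b : ℂ → ℂ} (hb : IsLog fam F b)
    (hF : fam.Adapted F) (hchi : ∀ δ : Γ, ∃ c : ℂ, slMer (δ : SL(2, ℤ)) F = cst c * F)
    (δ : Γ) : psiHom hb hF hchi (Additive.ofMul δ) = psiFun b (δ : SL(2, ℤ)) := rfl

end Fermat.Agent.M17.GlobalLog8
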