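/-
M17 (helper6), programme M17 (target S17); imported by no statement.

**The height endgame of S17** (leaf `Theta6` of report 128): from two projective coordinate systems
`Phi : G → ι → K₀` ("level 4") and `kap : G → κ → K₀` ("Kummer, level 2") over a number field `K₀`,
related by the two LINEAR identities

* `Phi(x)² = c • T kap(2 x)`                      (coordinatewise square),
* `kap(X+Y) ⊗ kap(X−Y) = c • S (Phi(X) ∗ Phi(Y))` (coordinatewise product),

and the finiteness of the fibres of `x ↦ [Phi x]`, to the finite generation of `G` (`G / 2 G` finite).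
No lower bound for a height is used: only `Height.logHeight_pow` (exact), the Segre equality
`Height.logHeight_fun_mul_eq`, `Height.logHeight_linearMap_apply_le`, `Height.logHeight_mul_le`,
and the Northcott property of number fields.
-/
import Mathlib
import Fermat.Agent.M17.Descent6

set_option autoImplicit false
set_option linter.style.haveILetI false
set_option linter.unusedSectionVars false
set_option linter.unusedVariables false

namespace Fermat.Agent.M17.HeightEnd6

open Height

/-! ### Northcott for tuples up to scaling -/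

section Northcott

variable {K₀ : Type*} [Field K₀] [AdmissibleAbsValues K₀] [Northcott (mulHeight₁ (K := K₀))]
  {ι : Type*} [Finite ι]

/-- every coordinate ratio of a tuple has height at most the height of the tuple. -/
theorem mulHeight₁_div_le (x : ι → K₀) (i j : ι) : mulHeight₁ (x i / x j) ≤ mulHeight x := by
  rw [mulHeight₁_div_eq_mulHeight]
  have h : ![x i, x j] = x ∘ ![i, j] := by
    funext k
    fin_cases k <;> rfl
  rw [h]
  exact mulHeight_comp_le _ _

/-- **Northcott for projective points**: up to scaling there are only finitely many tuples of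
bounded height. -/
theorem finite_normalized (b : ℝ) :
    ∃ F : Set (ι → K₀), F.Finite ∧ ∀ x : ι → K₀, x ≠ 0 → mulHeight x ≤ b →
      ∃ v ∈ F, ∃ c : K₀, c ≠ 0 ∧ x = c • v := by
  classical
  have hfin : {a : K₀ | mulHeight₁ a ≤ b}.Finite := Northcott.finite_le b
  refine ⟨{f : ι → K₀ | ∀ i, f i ∈ {a : K₀ | mulHeight₁ a ≤ b}}, Set.Finite.pi' fun _ => hfin,
    fun x hx hb => ?_⟩
  obtain ⟨j, hj⟩ := Function.ne_iff.mp hx
  refine ⟨fun i => x i / x j, ?_, x j, hj, ?_⟩
  · intro i
    exact (mulHeight₁_div_le x i j).trans hb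
  · funext i
    show x i = x j * (x i / x j)
    rw [mul_div_cancel₀ _ hj]

/-- a function to tuples with finite fibres up to scaling has a Northcott height. -/
theorem northcott_logHeight_comp {G : Type*} (Phi : G → ι → K₀) (hne : ∀ x, Phi x ≠ 0)
    (hfib : ∀ v : ι → K₀, {x : G | ∃ c : K₀, c ≠ 0 ∧ Phi x = c • v}.Finite) :
    Northcott (fun x : G => logHeight (Phi x)) := by
  refine ⟨fun b => ?_⟩
  obtain ⟨F, hF, H⟩ := finite_normalized (K₀ := K₀) (ι := ι) (Real.exp b)
  refine Set.Finite.subset (hF.biUnion fun v _ => hfib v) ?_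
  intro x hx
  have hx' : logHeight (Phi x) ≤ b := hx
  have h1 : mulHeight (Phi x) ≤ Real.exp b := by
    rw [logHeight_eq_log_mulHeight] at hx'
    exact (Real.log_le_iff_le_exp (mulHeight_pos _)).mp hx'
  obtain ⟨v, hv, c, hc, hxc⟩ := H (Phi x) (hne x) h1
  exact Set.mem_biUnion hv ⟨c, hc, hxc⟩

end Northcott

/-! ### the halving inequality -/

section Halving

variable {G : Type*} [AddCommGroup G] {K₀ : Type*} [Field K₀] [AdmissibleAbsValues K₀]
  {ι κ : Type*} [Fintype ι] [Fintype κ]
  (Phi : G → ι → K₀) (kap : G → κ → K₀) (T : ι × κ → K₀) (S : (κ × κ) × ι → K₀)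

/-- the constant of the halving inequality. -/
noncomputable def halvingConst : ℝ :=
  (totalWeight K₀ * Real.log (Nat.card κ) + logHeight T) +
    (totalWeight K₀ * Real.log (Nat.card ι) + logHeight S)

include T S in
/-- **the halving inequality** `B(x') ≤ B(2x' + r)/2 + (B(r) + C)/2` for `B = logHeight ∘ Phi`. -/
theorem halving (hPhi : ∀ x, Phi x ≠ 0) (hkap : ∀ x, kap x ≠ 0)
    (hsq : ∀ x, ∃ c : K₀, c ≠ 0 ∧
      (fun i => Phi x i ^ 2) = c • fun i => ∑ a, T (i, a) * kap (2 • x) a)
    (hadd : ∀ X Y, ∃ c : K₀, c ≠ 0 ∧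
      (fun ab : κ × κ => kap (X + Y) ab.1 * kap (X - Y) ab.2) =
        c • fun ab => ∑ i, S (ab, i) * (Phi X i * Phi Y i))
    (r x' : G) :
    logHeight (Phi x') ≤ (1 / 2 : ℝ) * logHeight (Phi (2 • x' + r)) +
      (logHeight (Phi r) + halvingConst (K₀ := K₀) T S) / 2 := by
  set x := 2 • x' + r with hx
  -- first identity at `x'`
  obtain ⟨c, hc, h1⟩ := hsq x'
  have e1 : (2 : ℝ) * logHeight (Phi x') = logHeight (fun i => ∑ a, T (i, a) * kap (2 • x') a) := by
    have : logHeight ((Phi x') ^ 2) = (2 : ℕ) * logHeight (Phi x') := logHeight_pow (Phi x') 2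
    have h2 : ((Phi x') ^ 2 : ι → K₀) = fun i => Phi x' i ^ 2 := rfl
    rw [h2, h1, logHeight_smul_eq_logHeight _ hc] at this
    rw [this]; norm_num
  have e2 := logHeight_linearMap_apply_le T (kap (2 • x'))
  -- second identity at `(x, r)`
  have hxr : x - r = 2 • x' := by rw [hx]; abel
  obtain ⟨c', hc', h3⟩ := hadd x r
  have e3 : logHeight (kap (x + r)) + logHeight (kap (x - r)) =
      logHeight (fun ab : κ × κ => ∑ i, S (ab, i) * (Phi x i * Phi r i)) := by
    rw [← logHeight_fun_mul_eq (hkap (x + r)) (hkap (x - r)), h3,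
      logHeight_smul_eq_logHeight _ hc']
  have e4 := logHeight_linearMap_apply_le S (Phi x * Phi r)
  have e4' : logHeight (fun ab : κ × κ => ∑ i, S (ab, i) * (Phi x i * Phi r i)) ≤
      totalWeight K₀ * Real.log (Nat.card ι) + logHeight S + logHeight (Phi x * Phi r) := e4
  have e5 := logHeight_mul_le (Phi x) (Phi r)
  have e6 : 0 ≤ logHeight (kap (x + r)) := logHeight_nonneg _
  rw [hxr] at e3
  unfold halvingConst
  linarith

end Halving

/-! ### the endgame -/

section End

variable {G : Type*} [AddCommGroup G] {K₀ : Type*} [Field K₀] [AdmissibleAbsValues K₀]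
  [Northcott (mulHeight₁ (K := K₀))] {ι κ : Type*} [Fintype ι] [Fintype κ]

/-- **finite generation from level `(2, 4)` coordinates** (abstract group). -/
theorem fg_of_coordinates (H₁ : (nsmulAddMonoidHom (α := G) 2).range.FiniteIndex)
    (Phi : G → ι → K₀) (kap : G → κ → K₀) (T : ι × κ → K₀) (S : (κ × κ) × ι → K₀)
    (hPhi : ∀ x, Phi x ≠ 0) (hkap : ∀ x, kap x ≠ 0)
    (hsq : ∀ x, ∃ c : K₀, c ≠ 0 ∧
      (fun i => Phi x i ^ 2) = c • fun i => ∑ a, T (i, a) * kap (2 • x) a)
    (hadd : ∀ X Y, ∃ c : K₀, c ≠ 0 ∧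
      (fun ab : κ × κ => kap (X + Y) ab.1 * kap (X - Y) ab.2) =
        c • fun ab => ∑ i, S (ab, i) * (Phi X i * Phi Y i))
    (hfib : ∀ v : ι → K₀, {x : G | ∃ c : K₀, c ≠ 0 ∧ Phi x = c • v}.Finite) :
    AddGroup.FG G := by
  haveI : Northcott (fun x : G => logHeight (Phi x)) := northcott_logHeight_comp Phi hPhi hfib
  exact Fermat.Agent.M17.Descent6.fg_of_halving (B := fun x : G => logHeight (Phi x))
    (θ := 1 / 2) (c := fun r => (logHeight (Phi r) + halvingConst (K₀ := K₀) T S) / 2)
    (by norm_num) H₁ (fun r x' => halving Phi kap T S hPhi hkap hsq hadd r x')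

end End

/-- **S17 from level `(2, 4)` coordinates on `J₀(N)(ℚ)`** over a number field: the literal interface
of the theta side (report 128, section 1). -/
theorem s17_of_coordinates (N : ℕ) [NeZero N] {K₀ : Type*} [Field K₀] [NumberField K₀]
    {ι κ : Type*} [Fintype ι] [Fintype κ]
    (Phi : ↥(FixedPoints.addSubgroup (AlgebraicClosure ℚ ≃ₐ[ℚ] AlgebraicClosure ℚ)
      (ModularCurve.JZero N)) → ι → K₀)
    (kap : ↥(FixedPoints.addSubgroup (AlgebraicClosure ℚ ≃ₐ[ℚ] AlgebraicClosure ℚ)
      (ModularCurve.JZero N)) → κ → K₀)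
    (T : ι × κ → K₀) (S : (κ × κ) × ι → K₀)
    (hPhi : ∀ x, Phi x ≠ 0) (hkap : ∀ x, kap x ≠ 0)
    (hsq : ∀ x, ∃ c : K₀, c ≠ 0 ∧
      (fun i => Phi x i ^ 2) = c • fun i => ∑ a, T (i, a) * kap (2 • x) a)
    (hadd : ∀ X Y, ∃ c : K₀, c ≠ 0 ∧
      (fun ab : κ × κ => kap (X + Y) ab.1 * kap (X - Y) ab.2) =
        c • fun ab => ∑ i, S (ab, i) * (Phi X i * Phi Y i))
    (hfib : ∀ v : ι → K₀, {x | ∃ c : K₀, c ≠ 0 ∧ Phi x = c • v}.Finite) :
    AddGroup.FG ↥(FixedPoints.addSubgroup (AlgebraicClosure ℚ ≃ₐ[ℚ] AlgebraicClosure ℚ)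
      (ModularCurve.JZero N)) :=
  fg_of_coordinates (Fermat.Agent.M17.WeakMW6.weakMW N) Phi kap T S hPhi hkap hsq hadd hfib

end Fermat.Agent.M17.HeightEnd6
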