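/-
Programme M17 (S17), block [LAT] CLOSED, helper3: the lattice data `Interfaces7.LatData N g`
exist unconditionally: helper6's producer `PeriodMatrix6.exists_latData` with (UNI-2)
(`UniTwo6.uni2`, helper6) and (RB2) (`RB2Inst3.rb2`, from (dR) + PET=CUP) discharged.
-/
import Mathlib
import Fermat.Agent.M17.RB2Inst3
import Fermat.Agent.M17.UniTwo6

set_option autoImplicit false

namespace Fermat.Agent.M17.LatFinal3

/-- **I-LAT, unconditional.** -/
theorem exists_latData (N : ℕ) [NeZero N] :
    ∃ g : ℕ, Nonempty (Fermat.Agent.M17.Interfaces7.LatData N g) :=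
  Fermat.Agent.M17.UniTwo6.exists_latData_of_RB2 N (Fermat.Agent.M17.RB2Inst3.rb2 N)

end Fermat.Agent.M17.LatFinal3
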