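import Fermat.Agent.M15.DivDlog1

/-!
# Programme M17, block (RL): evaluation of meromorphic functions at regular points

`evM z x` is the value at `z : ℍ` of `x : MerH` when `x` is regular at `z` (`x ∈ valAt z`):
`evM z (ι a / ι b) = a z / b z` for `b z ≠ 0`.  It is multiplicative on the local ring `valAt z`,
compatible with `slMer`, and nonzero when `ordMer z x = 0`.

Imported by no statement.
-/

set_option autoImplicit false
set_option linter.unusedSectionVars false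

open UpperHalfPlane Filter Topology Set
open scoped Manifold MatrixGroups

noncomputable section

namespace Fermat.Agent.M17.MerEval8

open Fermat.Agent.X0 Fermat.Agent.X0.SurjPoint Fermat.Agent.ES.KUM Fermat.Agent.M15.DivLogMer1
  Fermat.Agent.M15.DivLogPrim1 Fermat.Agent.M15.DivDlog1

local notation "ι" => algebraMap HolH MerH

/-- `x` is regular at `z`: representable with a denominator which does not vanish at `z`. -/
def RegAt (z : ℍ) (x : MerH) : Prop := ∃ a b : HolH, (b : ℍ → ℂ) z ≠ 0 ∧ x = ι a / ι b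

theorem regAt_iff {z : ℍ} {x : MerH} : RegAt z x ↔ x ∈ valAt z := by
  constructor
  · rintro ⟨a, b, hb, rfl⟩
    exact div_mem_valAt a hb
  · intro h
    exact exists_rep_of_mem_valAt h

open Classical in
/-- the value of `x` at `z` (junk value `0` if `x` is not regular at `z`). -/
def evM (z : ℍ) (x : MerH) : ℂ :=
  if h : RegAt z x then (h.choose : ℍ → ℂ) z / (h.choose_spec.choose : ℍ → ℂ) z else 0

theorem evM_div (a : HolH) {b : HolH} {z : ℍ} (hb : (b : ℍ → ℂ) z ≠ 0) :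
    evM z (ι a / ι b) = (a : ℍ → ℂ) z / (b : ℍ → ℂ) z := by
  have h : RegAt z (ι a / ι b) := ⟨a, b, hb, rfl⟩
  unfold evM
  rw [dif_pos h]
  obtain ⟨hb', heq⟩ := h.choose_spec.choose_spec
  set a' := h.choose
  set b' := h.choose_spec.choose
  have hb0 : ι b ≠ 0 := iota_ne_zero (ne_zero_of_apply_ne hb)
  have hb0' : ι b' ≠ 0 := iota_ne_zero (ne_zero_of_apply_ne hb')
  rw [div_eq_div_iff hb0 hb0', ← map_mul, ← map_mul] at heq
  have h2 := iota_injective heq
  have h3 : (a : ℍ → ℂ) z * (b' : ℍ → ℂ) z = (a' : ℍ → ℂ) z * (b : ℍ → ℂ) z :=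
    congrArg (fun f : HolH => (f : ℍ → ℂ) z) h2
  rw [div_eq_div_iff hb' hb]
  exact h3.symm

theorem evM_iota (a : HolH) (z : ℍ) : evM z (ι a) = (a : ℍ → ℂ) z := by
  have h := evM_div a (b := 1) (z := z) (by show (1 : ℂ) ≠ 0; exact one_ne_zero)
  rw [map_one, div_one] at h
  rw [h]
  show (a : ℍ → ℂ) z / 1 = _
  rw [div_one]

theorem evM_one (z : ℍ) : evM z 1 = 1 := by
  rw [← map_one ι, evM_iota]
  rfl

theorem evM_cst (c : ℂ) (z : ℍ) : evM z (cst c) = c := by
  unfold cst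
  rw [evM_iota]
  rfl

theorem evM_mul {z : ℍ} {x y : MerH} (hx : x ∈ valAt z) (hy : y ∈ valAt z) :
    evM z (x * y) = evM z x * evM z y := by
  obtain ⟨a, b, hb, rfl⟩ := exists_rep_of_mem_valAt hx
  obtain ⟨c, d, hd, rfl⟩ := exists_rep_of_mem_valAt hy
  have e : ι a / ι b * (ι c / ι d) = ι (a * c) / ι (b * d) := by
    rw [map_mul, map_mul, div_mul_div_comm]
  have hbd : ((b * d : HolH) : ℍ → ℂ) z ≠ 0 := mul_ne_zero hb hd
  rw [e, evM_div _ hbd, evM_div _ hb, evM_div _ hd, div_mul_div_comm]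
  rfl

theorem evM_prod {α : Type*} (s : Finset α) (f : α → MerH) {z : ℍ}
    (h : ∀ i ∈ s, f i ∈ valAt z) : evM z (∏ i ∈ s, f i) = ∏ i ∈ s, evM z (f i) := by
  classical
  induction s using Finset.induction_on with
  | empty => simp [evM_one]
  | insert i s hi ih =>
    have h1 : ∀ j ∈ s, f j ∈ valAt z := fun j hj => h j (Finset.mem_insert_of_mem hj)
    rw [Finset.prod_insert hi, Finset.prod_insert hi,
      evM_mul (h i (Finset.mem_insert_self i s)) (prod_mem h1), ih h1]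

/-- a function of order `0` at `z₀` is a quotient of two functions not vanishing at `z₀`. -/
theorem exists_local_rep {x : MerH} (hx : x ≠ 0) {z₀ : ℍ} (h0 : ordMer z₀ x = 0) :
    ∃ a b : HolH, (a : ℍ → ℂ) z₀ ≠ 0 ∧ (b : ℍ → ℂ) z₀ ≠ 0 ∧ x = ι a / ι b := by
  obtain ⟨a, b, ha, hb, h⟩ := exists_normal_form hx z₀
  rw [h0, zpow_zero, one_mul] at h
  exact ⟨a, b, ha, hb, h⟩

theorem evM_ne_zero {x : MerH} (hx : x ≠ 0) {z₀ : ℍ} (h0 : ordMer z₀ x = 0) : evM z₀ x ≠ 0 := by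
  obtain ⟨a, b, ha, hb, rfl⟩ := exists_local_rep hx h0
  rw [evM_div a hb]
  exact div_ne_zero ha hb

theorem evM_inv {x : MerH} (hx : x ≠ 0) {z₀ : ℍ} (h0 : ordMer z₀ x = 0) :
    evM z₀ x⁻¹ = (evM z₀ x)⁻¹ := by
  obtain ⟨a, b, ha, hb, rfl⟩ := exists_local_rep hx h0
  rw [inv_div, evM_div a hb, evM_div b ha, inv_div]

theorem mem_valAt_of_ordMer_eq_zero {x : MerH} {z₀ : ℍ} (h0 : ordMer z₀ x = 0) : x ∈ valAt z₀ := by
  rcases eq_or_ne x 0 with rfl | hx
  · exact zero_mem _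
  · rw [mem_valAt_iff z₀ hx, h0]

theorem evM_slMer (γ : SL(2, ℤ)) {z : ℍ} {x : MerH} (hx : x ∈ valAt (γ • z)) :
    evM z (slMer γ x) = evM (γ • z) x := by
  obtain ⟨a, b, hb, rfl⟩ := exists_rep_of_mem_valAt hx
  rw [slMer_div, evM_div a hb]
  have hb' : ((compSLHom γ b : HolH) : ℍ → ℂ) z ≠ 0 := hb
  rw [evM_div _ hb']
  rfl

/-- local holomorphic representation: near `z₀`, `evM · x` is `a / b`. -/
theorem eventually_evM_eq (a : HolH) {b : HolH} {z₀ : ℍ} (hb : (b : ℍ → ℂ) z₀ ≠ 0) :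
    ∀ᶠ w : ℍ in 𝓝 z₀, evM w (ι a / ι b) = (a : ℍ → ℂ) w / (b : ℍ → ℂ) w := by
  have hcont : ContinuousAt (b : ℍ → ℂ) z₀ := (mem_HolH.1 b.2).continuous.continuousAt
  filter_upwards [hcont.eventually_ne hb] with w hw
  exact evM_div a hw

end Fermat.Agent.M17.MerEval8
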