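import Fermat.Agent.M17.MerEval8

/-!
# Programme M17, block (RL): the regularised quotient `G = F / ∏_q T_q` for an abstract family

A `Family Γ Q` is a family `(R q, l q)_{q : Q}` of meromorphic functions `R q : MerH` and functions
`l q : ℍ → ℂ`, thought of as the factors `T_q = R_q · exp (-l_q)` of a locally finite product:
`T_q ≡ 1` at `z` unless `q` is *relevant* at `z` (`z ∈ Brel q`), i.e. off `Brel q` the function
`R q` is regular, nonvanishing, with value `exp (l q z)`.  The group `Γ` permutes the family.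

For `F : MerH` whose orders are those of `∏_q R_q` (`Adapted`), the function
`GH F z = evM z (F / ∏_{q ∈ Qs z} R q) · exp (∑_{q ∈ Qs z} l q z)` (`Qs z` = the relevant indices)
is locally `(a / b) · exp (∑_{q ∈ Qs z₀} l q)` with `a b` holomorphic, nonvanishing at `z₀`
(`eventually_GH_eq`), never vanishes, and `GH F (δ z) = c · GH F z` when `F ∘ δ = c · F`.

Instances: `ModelProd8` (two points of `ℍ`), and the cusp model.

Imported by no statement.
-/

set_option autoImplicit false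
set_option linter.unusedSectionVars false

open UpperHalfPlane Filter Topology Set
open scoped Manifold MatrixGroups ContDiff

noncomputable section

namespace Fermat.Agent.M17.ModelFam8

open Fermat.Agent.X0 Fermat.Agent.X0.SurjPoint Fermat.Agent.ES.KUM Fermat.Agent.M15.DivLogMer1
  Fermat.Agent.M15.DivLogPrim1 Fermat.Agent.M15.DivDlog1 Fermat.Agent.M17.MerEval8

local notation "ι" => algebraMap HolH MerH

theorem ordMer_prod {α : Type*} (s : Finset α) (f : α → MerH) (hf : ∀ i ∈ s, f i ≠ 0) (z : ℍ) :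
    ordMer z (∏ i ∈ s, f i) = ∑ i ∈ s, ordMer z (f i) := by
  classical
  induction s using Finset.induction_on with
  | empty => simp [ordMer_one]
  | insert i s hi ih =>
    have h1 : ∀ j ∈ s, f j ≠ 0 := fun j hj => hf j (Finset.mem_insert_of_mem hj)
    rw [Finset.prod_insert hi, Finset.sum_insert hi,
      ordMer_mul z (hf i (Finset.mem_insert_self i s)) (Finset.prod_ne_zero_iff.2 h1), ih h1]

/-- an abstract locally finite family of factors `T_q = R_q · exp (-l_q)`, permuted by `Γ`. -/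
structure Family (Γ : Subgroup SL(2, ℤ)) (Q : Type) where
  /-- the meromorphic parts -/
  R : Q → MerH
  /-- the smooth logarithmic corrections -/
  l : Q → ℍ → ℂ
  /-- `z ∈ Brel q`: the index `q` is relevant at `z` -/
  Brel : Q → Set ℍ
  R_ne : ∀ q, R q ≠ 0
  finite_rel : ∀ z : ℍ, {q : Q | z ∈ Brel q}.Finite
  loc_const : ∀ z₀ : ℍ, ∀ᶠ z in 𝓝 z₀, ∀ q : Q, z ∈ Brel q → z₀ ∈ Brel q
  ord_off : ∀ (q : Q) (z : ℍ), z ∉ Brel q → ordMer z (R q) = 0
  ev_off : ∀ (q : Q) (z : ℍ), z ∉ Brel q → evM z (R q) = Complex.exp (l q z)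
  smooth : ∀ (q : Q) (z₀ : ℍ), ContDiffAt ℝ ∞ (fun w : ℂ => l q (ofComplex w)) (z₀ : ℂ)
  /-- the permutation of the indices induced by `δ ∈ Γ` -/
  e : Γ → Q ≃ Q
  e_rel : ∀ (δ : Γ) (q : Q) (z : ℍ), (δ : SL(2, ℤ)) • z ∈ Brel (e δ q) ↔ z ∈ Brel q
  e_R : ∀ (δ : Γ) (q : Q), slMer (δ : SL(2, ℤ)) (R (e δ q)) = R q
  e_l : ∀ (δ : Γ) (q : Q) (z : ℍ), l (e δ q) ((δ : SL(2, ℤ)) • z) = l q z

variable {Γ : Subgroup SL(2, ℤ)} {Q : Type} (fam : Family Γ Q)

namespace Family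

/-- the finitely many indices relevant at `z`. -/
def Qs (z : ℍ) : Finset Q := (fam.finite_rel z).toFinset

theorem mem_Qs {z : ℍ} {q : Q} : q ∈ fam.Qs z ↔ z ∈ fam.Brel q := by
  unfold Qs
  rw [Set.Finite.mem_toFinset]
  rfl

/-- **local constancy of the relevant set.** -/
theorem eventually_Qs_subset (z₀ : ℍ) : ∀ᶠ z in 𝓝 z₀, fam.Qs z ⊆ fam.Qs z₀ := by
  filter_upwards [fam.loc_const z₀] with z hz q hq
  rw [mem_Qs] at hq ⊢
  exact hz q hq

/-- `F / ∏_{q ∈ S} R_q`. -/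
def X (F : MerH) (S : Finset Q) : MerH := F * (∏ q ∈ S, fam.R q)⁻¹

/-- the value of `F / ∏_{q ∈ S} T_q` at `z` (when `S` contains all relevant indices). -/
def Gpart (F : MerH) (S : Finset Q) (z : ℍ) : ℂ :=
  evM z (fam.X F S) * Complex.exp (∑ q ∈ S, fam.l q z)

/-- **the regularised quotient** `F / ∏_q T_q` on `ℍ`. -/
def GH (F : MerH) (z : ℍ) : ℂ := fam.Gpart F (fam.Qs z) z

/-- the orders of `F` are those of `∏_q R_q`. -/
structure Adapted (F : MerH) : Prop where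
  ne : F ≠ 0
  ord : ∀ (z : ℍ) (S : Finset Q), fam.Qs z ⊆ S → ordMer z F = ∑ q ∈ S, ordMer z (fam.R q)

variable {fam} {F : MerH}

theorem prod_R_ne_zero (S : Finset Q) : (∏ q ∈ S, fam.R q) ≠ 0 :=
  Finset.prod_ne_zero_iff.2 (fun q _ => fam.R_ne q)

theorem X_ne_zero (hF : fam.Adapted F) (S : Finset Q) : fam.X F S ≠ 0 :=
  mul_ne_zero hF.ne (inv_ne_zero (prod_R_ne_zero S))

theorem ordMer_X (hF : fam.Adapted F) {z : ℍ} {S : Finset Q} (hS : fam.Qs z ⊆ S) :
    ordMer z (fam.X F S) = 0 := by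
  unfold X
  rw [ordMer_mul z hF.ne (inv_ne_zero (prod_R_ne_zero S)), ordMer_inv,
    ordMer_prod _ _ (fun q _ => fam.R_ne q), hF.ord z S hS, add_neg_cancel]

/-- **independence of the finite set.** -/
theorem Gpart_mono (hF : fam.Adapted F) {z : ℍ} {S S' : Finset Q}
    (hSS' : S ⊆ S') (hS : fam.Qs z ⊆ S) : fam.Gpart F S' z = fam.Gpart F S z := by
  classical
  set D := S' \ S with hD
  have hout : ∀ q ∈ D, z ∉ fam.Brel q := fun q hq hz =>
    (Finset.mem_sdiff.1 hq).2 (hS (fam.mem_Qs.2 hz))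
  have hprod : (∏ q ∈ S', fam.R q) = (∏ q ∈ D, fam.R q) * ∏ q ∈ S, fam.R q :=
    (Finset.prod_sdiff hSS').symm
  have hsum : (∑ q ∈ S', fam.l q z) = (∑ q ∈ D, fam.l q z) + ∑ q ∈ S, fam.l q z :=
    (Finset.sum_sdiff hSS').symm
  have hXX : fam.X F S' = fam.X F S * (∏ q ∈ D, fam.R q)⁻¹ := by
    unfold X
    rw [hprod, mul_inv]
    ring
  have hord0 : ∀ q ∈ D, ordMer z (fam.R q) = 0 := fun q hq => fam.ord_off q z (hout q hq)
  have hPD : (∏ q ∈ D, fam.R q) ≠ 0 := prod_R_ne_zero D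
  have hordPD : ordMer z (∏ q ∈ D, fam.R q) = 0 := by
    rw [ordMer_prod _ _ (fun q _ => fam.R_ne q)]
    exact Finset.sum_eq_zero hord0
  have hval : ∀ q ∈ D, evM z (fam.R q) = Complex.exp (fam.l q z) := fun q hq =>
    fam.ev_off q z (hout q hq)
  unfold Gpart
  rw [hXX, evM_mul (mem_valAt_of_ordMer_eq_zero (ordMer_X hF hS))
      (mem_valAt_of_ordMer_eq_zero (by rw [ordMer_inv, hordPD, neg_zero])),
    evM_inv hPD hordPD,
    evM_prod _ _ (fun q hq => mem_valAt_of_ordMer_eq_zero (hord0 q hq)),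
    Finset.prod_congr rfl hval, hsum, Complex.exp_add, Complex.exp_sum]
  have hP : (∏ q ∈ D, Complex.exp (fam.l q z)) ≠ 0 :=
    Finset.prod_ne_zero_iff.2 (fun q _ => Complex.exp_ne_zero _)
  field_simp

/-! ### The local formula -/

theorem exists_local_rep_X (hF : fam.Adapted F) (z₀ : ℍ) :
    ∃ a b : HolH, (a : ℍ → ℂ) z₀ ≠ 0 ∧ (b : ℍ → ℂ) z₀ ≠ 0 ∧ fam.X F (fam.Qs z₀) = ι a / ι b :=
  exists_local_rep (X_ne_zero hF _) (ordMer_X hF (Finset.Subset.refl _))

/-- **the local formula**: near `z₀`, `GH F = (a / b) · exp (∑_{q ∈ Qs z₀} l q)`. -/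
theorem eventually_GH_eq (hF : fam.Adapted F) (z₀ : ℍ) {a b : HolH}
    (hb : (b : ℍ → ℂ) z₀ ≠ 0) (hab : fam.X F (fam.Qs z₀) = ι a / ι b) :
    ∀ᶠ w in 𝓝 z₀, fam.GH F w = (a : ℍ → ℂ) w / (b : ℍ → ℂ) w *
      Complex.exp (∑ q ∈ fam.Qs z₀, fam.l q w) := by
  filter_upwards [fam.eventually_Qs_subset z₀, eventually_evM_eq a hb] with w hw1 hw2
  unfold GH
  rw [← Gpart_mono hF hw1 (Finset.Subset.refl _)]
  unfold Gpart
  rw [hab, hw2]

theorem GH_ne_zero (hF : fam.Adapted F) (z : ℍ) : fam.GH F z ≠ 0 := by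
  unfold GH Gpart
  exact mul_ne_zero (evM_ne_zero (X_ne_zero hF _) (ordMer_X hF (Finset.Subset.refl _)))
    (Complex.exp_ne_zero _)

/-! ### Quasi-invariance -/

theorem Qs_smul (δ : Γ) (z : ℍ) :
    fam.Qs ((δ : SL(2, ℤ)) • z) = (fam.Qs z).map (fam.e δ).toEmbedding := by
  ext q
  rw [mem_Qs, Finset.mem_map]
  constructor
  · intro h
    refine ⟨(fam.e δ).symm q, ?_, (fam.e δ).apply_symm_apply q⟩
    rw [mem_Qs, ← fam.e_rel δ, Equiv.apply_symm_apply]
    exact h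
  · rintro ⟨q', hq', rfl⟩
    rw [mem_Qs] at hq'
    exact (fam.e_rel δ q' z).2 hq'

theorem GH_smul (hF : fam.Adapted F) {δ : Γ} {c : ℂ}
    (hc : slMer (δ : SL(2, ℤ)) F = cst c * F) (z : ℍ) :
    fam.GH F ((δ : SL(2, ℤ)) • z) = c * fam.GH F z := by
  unfold GH Gpart
  rw [Qs_smul δ z, Finset.sum_map]
  have hsum : ∀ q' : Q, fam.l ((fam.e δ).toEmbedding q') ((δ : SL(2, ℤ)) • z) = fam.l q' z :=
    fun q' => fam.e_l δ q' z
  rw [Finset.sum_congr rfl (fun q' _ => hsum q')]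
  have hX : slMer (δ : SL(2, ℤ)) (fam.X F ((fam.Qs z).map (fam.e δ).toEmbedding))
      = cst c * fam.X F (fam.Qs z) := by
    unfold X
    rw [map_mul, map_inv₀, map_prod, Finset.prod_map, hc, mul_assoc]
    congr 2
    refine congrArg _ (Finset.prod_congr rfl fun q' _ => ?_)
    exact fam.e_R δ q'
  have hreg : fam.X F ((fam.Qs z).map (fam.e δ).toEmbedding) ∈ valAt ((δ : SL(2, ℤ)) • z) := by
    rw [← Qs_smul δ z]
    exact mem_valAt_of_ordMer_eq_zero (ordMer_X hF (Finset.Subset.refl _))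
  rw [← evM_slMer _ hreg, hX, evM_mul (cst_mem_valAt c z)
    (mem_valAt_of_ordMer_eq_zero (ordMer_X hF (Finset.Subset.refl _))), evM_cst, mul_assoc]

end Family

end Fermat.Agent.M17.ModelFam8
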