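/-
Programme M17 (S17), helper3: (RL-FINAL) - from the additive EC-form of the reciprocity law
(helper8's (RL) core: a parabolic `ψ` with `exp ψ = χ` and
`EC (perC (w k)) ψ = -4πi v_k`) to the pair form `Interfaces7`/`AJAssembly7.RLPair`:
`χ = chiOf α β` with `α β` real and `v = α + Ω β`.
-/
import Mathlib
import Fermat.Agent.M17.AJAssembly7
import Fermat.Agent.M17.PetInt3
import Fermat.Agent.M17.PeriodMatrix6

set_option autoImplicit false
set_option linter.unusedSectionVars false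

open UpperHalfPlane hiding I
open Complex CongruenceSubgroup AlgebraicCurve
open scoped MatrixGroups Real

namespace Fermat.Agent.M17.RLFinal3

open ModularCurve ModularCurve.Period
open Fermat.Agent.X0 Fermat.Agent.ES.KUM Fermat.Agent.X0.SurjPoint Fermat.Agent.ES.KUM.CCusp16
open Fermat.Agent.M17.Interfaces7 Fermat.Agent.M17.MultAJ4 Fermat.Agent.M17.AJAssembly7
open Fermat.Agent.M17.RiemannSymmetric2 Fermat.Agent.ES.HEQ.ParLattice11
open Fermat.Agent.ES.I2.DegAdj3

variable {N : ℕ} [NeZero N] {g : ℕ} (L : LatData N g)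

/-- evaluation of a complex parabolic hom. -/
def ev (ψ : ↥(parabolicHoms ℂ (Gamma0 N) ℂ)) (γ : Gamma0 N) : ℂ :=
  (ψ : Additive (Gamma0 N) →+ ℂ) (Additive.ofMul γ)

/-- **expansion of a complex parabolic hom in the dual basis `(n, m)` of `(a, b)`.** -/
theorem expand (ψ : ↥(parabolicHoms ℂ (Gamma0 N) ℂ)) :
    ψ = ∑ j, ev ψ (L.a j) • castPar (Gamma0 N) ℂ (L.n j)
      + ∑ j, ev ψ (L.b j) • castPar (Gamma0 N) ℂ (L.m j) := by
  have hmem : ψ ∈ Submodule.span ℂ (Set.range (castPar (Gamma0 N) ℂ)) := by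
    rw [span_range_castPar_complex N]
    exact Submodule.mem_top
  induction hmem using Submodule.span_induction with
  | mem φ h =>
    obtain ⟨x, rfl⟩ := h
    conv_lhs => rw [L.span x]
    rw [map_add, map_sum, map_sum]
    congr 1
    · refine Finset.sum_congr rfl fun j _ => ?_
      rw [map_zsmul]
      unfold ev
      rw [castPar_apply]
      exact (Int.cast_smul_eq_zsmul ℂ _ _).symm
    · refine Finset.sum_congr rfl fun j _ => ?_
      rw [map_zsmul]
      unfold ev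
      rw [castPar_apply]
      exact (Int.cast_smul_eq_zsmul ℂ _ _).symm
  | zero => simp [ev]
  | add φ ψ _ _ hφ hψ =>
    conv_lhs => rw [hφ, hψ]
    unfold ev
    simp only [Submodule.coe_add, AddMonoidHom.add_apply, add_smul, Finset.sum_add_distrib]
    abel
  | smul c φ _ hφ =>
    conv_lhs => rw [hφ]
    unfold ev
    simp only [Submodule.coe_smul, AddMonoidHom.smul_apply, smul_eq_mul, smul_add,
      Finset.smul_sum, smul_smul]

/-- the value of a complex parabolic hom at `γ` in the dual basis. -/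
theorem ev_expand (ψ : ↥(parabolicHoms ℂ (Gamma0 N) ℂ)) (γ : Gamma0 N) :
    ev ψ γ = ∑ j, ev ψ (L.a j) * (((L.n j : Additive (Gamma0 N) →+ ℤ) (Additive.ofMul γ) : ℤ) : ℂ)
      + ∑ j, ev ψ (L.b j) * (((L.m j : Additive (Gamma0 N) →+ ℤ) (Additive.ofMul γ) : ℤ) : ℂ) := by
  conv_lhs => rw [expand L ψ]
  unfold ev
  simp only [Submodule.coe_add, Submodule.coe_sum, Submodule.coe_smul, AddMonoidHom.add_apply,
    AddMonoidHom.finsetSum_apply, AddMonoidHom.smul_apply, castPar_apply, smul_eq_mul]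


open Fermat.Agent.ES.I2.EDef25 in
/-- **the pairing of `perC (w k)` with a parabolic hom** in terms of its `a`- and `b`-periods. -/
theorem EC_perC_w (ψ : ↥(parabolicHoms ℂ (Gamma0 N) ℂ)) (k : Fin g) :
    EC (Gamma0 N) (perC N (L.w k)) ψ = -2 * (ev ψ (L.b k) - ∑ j, L.Om j k * ev ψ (L.a j)) := by
  classical
  have hnm : ∀ j k, EE N (L.n j) (L.m k) = if j = k then -2 else 0 := by
    intro j k
    rw [EE_skew, L.cup_mn]
    by_cases h : j = k
    · simp [h]
    · simp [h, Ne.symm h]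
  have c1 : ∀ j k, EC (Gamma0 N) (castPar (Gamma0 N) ℂ (L.n j)) (castPar (Gamma0 N) ℂ (L.n k)) = 0 := by
    intro j k
    rw [EC_castPar]
    have := L.cup_nn j k
    unfold EE at this
    rw [this]; simp
  have c2 : ∀ j k, EC (Gamma0 N) (castPar (Gamma0 N) ℂ (L.m j)) (castPar (Gamma0 N) ℂ (L.m k)) = 0 := by
    intro j k
    rw [EC_castPar]
    have := L.cup_mm j k
    unfold EE at this
    rw [this]; simp
  have c3 : ∀ j k, EC (Gamma0 N) (castPar (Gamma0 N) ℂ (L.m j)) (castPar (Gamma0 N) ℂ (L.n k))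
      = if j = k then (2 : ℂ) else 0 := by
    intro j k
    rw [EC_castPar]
    have := L.cup_mn j k
    unfold EE at this
    rw [this]
    split_ifs <;> simp
  have c4 : ∀ j k, EC (Gamma0 N) (castPar (Gamma0 N) ℂ (L.n j)) (castPar (Gamma0 N) ℂ (L.m k))
      = if j = k then -(2 : ℂ) else 0 := by
    intro j k
    rw [EC_castPar]
    have := hnm j k
    unfold EE at this
    rw [this]
    split_ifs <;> simp
  conv_lhs => rw [expand L ψ, Fermat.Agent.M17.PetInt3.perC_eq L k]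
  simp only [map_add, LinearMap.add_apply, map_sum, LinearMap.sum_apply, map_smul,
    LinearMap.smul_apply, smul_eq_mul, c1, c2, c3, c4, mul_zero, Finset.sum_const_zero, add_zero,
    zero_add, mul_ite, Finset.sum_ite_eq, Finset.sum_ite_eq', Finset.mem_univ, if_true]
  rw [mul_sub, Finset.mul_sum]
  have h1 : ∑ x, ev ψ (L.a x) * (L.Om x k * 2) = -(∑ j, -2 * (L.Om j k * ev ψ (L.a j))) := by
    rw [← Finset.sum_neg_distrib]
    refine Finset.sum_congr rfl fun j _ => ?_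
    ring
  rw [h1]
  ring


/-- a complex number whose exponential has norm `1` is purely imaginary. -/
theorem eq_I_mul_im_of_norm_exp {z : ℂ} (h : ‖Complex.exp z‖ = 1) : z = I * (z.im : ℂ) := by
  rw [Complex.norm_exp, Real.exp_eq_one_iff] at h
  apply Complex.ext
  · simp [h]
  · simp

/-- **(RL-FINAL)**: from the additive form of the reciprocity law to the pair form.  If `(F, χ)` is
an automorphic pair of `Δ`, `ψ` a parabolic logarithm of `χ`, and
`EC (perC (w k)) ψ = -4πi v_k` for all `k`, then `χ = chiOf α β` with `α β` real and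
`v = α + Ω β`. -/
theorem rl_final {F : MerH} {χ : ↥(Gamma0 N) → ℂ} {Δ : Divisor ℂ (FC N)}
    (hF : IsAutPair N F χ Δ) (ψ : ↥(parabolicHoms ℂ (Gamma0 N) ℂ))
    (hexp : ∀ γ : ↥(Gamma0 N), Complex.exp (ev ψ γ) = χ γ)
    (v : Fin g → ℂ)
    (hEC : ∀ k, EC (Gamma0 N) (perC N (L.w k)) ψ = -(4 * π * I) * v k) :
    ∃ α β : Fin g → ℝ, IsAutPair N F (chiOf N L α β) Δ ∧ v = colVec L α β := by
  have him : ∀ γ : ↥(Gamma0 N), ev ψ γ = I * ((ev ψ γ).im : ℂ) := fun γ =>
    eq_I_mul_im_of_norm_exp (by rw [hexp γ]; exact hF.2.1 γ)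
  have hpi : (π : ℂ) ≠ 0 := by exact_mod_cast Real.pi_ne_zero
  have hpiR : (π : ℝ) ≠ 0 := Real.pi_ne_zero
  set α : Fin g → ℝ := fun j => (ev ψ (L.b j)).im / (2 * π) with hα
  set β : Fin g → ℝ := fun j => -(ev ψ (L.a j)).im / (2 * π) with hβ
  have hb : ∀ j, ev ψ (L.b j) = 2 * π * I * (α j : ℂ) := by
    intro j
    rw [him (L.b j), hα]
    push_cast
    field_simp
  have ha : ∀ j, ev ψ (L.a j) = -(2 * π * I * (β j : ℂ)) := by
    intro j
    rw [him (L.a j), hβ]
    push_cast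
    field_simp
  refine ⟨α, β, ?_, ?_⟩
  · have hχ : χ = chiOf N L α β := by
      funext γ
      rw [← hexp γ, ev_expand L ψ γ]
      unfold chiOf
      congr 1
      simp only [ha, hb]
      rw [Finset.mul_sum, ← Finset.sum_add_distrib]
      refine Finset.sum_congr rfl fun j _ => ?_
      ring
    rw [← hχ]
    exact hF
  · funext k
    have h1 := hEC k
    rw [EC_perC_w L ψ k] at h1
    simp only [ha, hb] at h1
    unfold colVec
    have hI : (I : ℂ) ≠ 0 := I_ne_zero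
    have h2 : ∑ j, L.Om j k * -(2 * π * I * (β j : ℂ)) = -(2 * π * I) * ∑ j, L.Om j k * (β j : ℂ) := by
      rw [Finset.mul_sum]
      refine Finset.sum_congr rfl fun j _ => ?_
      ring
    rw [h2] at h1
    have h3 : (4 * π * I : ℂ) ≠ 0 := by
      simp [hpi, hI]
    have h4 : (4 * π * I : ℂ) * v k = (4 * π * I) * ((α k : ℂ) + ∑ j, L.Om j k * (β j : ℂ)) := by
      linear_combination h1
    exact mul_left_cancel₀ h3 h4


/-! ### from local to global: the chain argument -/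

open Filter Topology

/-- the pair form of the reciprocity law for two points of `ℍ`. -/
def PP (z z' : ℍ) : Prop :=
  ∃ (F : MerH) (α β : Fin g → ℝ),
    IsAutPair N F (chiOf N L α β)
      (Finsupp.single (ptPlaceC N 1 z) 1 - Finsupp.single (ptPlaceC N 1 z') 1) ∧
    L.A z - L.A z' - colVec L α β ∈ L.lattice

/-- the pair form of the reciprocity law for a point of `ℍ` and a cusp. -/
def PC (Ac : SL(2, ℤ) → Fin g → ℂ) (z : ℍ) (δ : SL(2, ℤ)) : Prop :=
  ∃ (F : MerH) (α β : Fin g → ℝ),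
    IsAutPair N F (chiOf N L α β)
      (Finsupp.single (ptPlaceC N 1 z) 1 - Finsupp.single (cuspPlaceC N δ) 1) ∧
    L.A z - Ac δ - colVec L α β ∈ L.lattice

theorem chiOf_zero_fun : chiOf N L 0 0 = fun _ => (1 : ℂ) := funext fun γ => chiOf_zero L γ

theorem chiOf_add_fun (α β α' β' : Fin g → ℝ) :
    chiOf N L (α + α') (β + β') = fun γ => chiOf N L α β γ * chiOf N L α' β' γ :=
  funext fun γ => chiOf_add L α β α' β' γ

theorem chiOf_neg_fun (α β : Fin g → ℝ) :
    chiOf N L (-α) (-β) = fun γ => (chiOf N L α β γ)⁻¹ :=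
  funext fun γ => chiOf_neg L α β γ

/-- equal places. -/
theorem PP_of_eq {z z' : ℍ} (h : ptPlaceC N 1 z = ptPlaceC N 1 z') : PP L z z' := by
  obtain ⟨γ, hγ, rfl⟩ := (Fermat.Agent.M17.Dict4.ptPlaceC_eq_iff N z z').mp h
  refine ⟨1, 0, 0, ?_, ?_⟩
  · rw [chiOf_zero_fun, ← h, sub_self]
    exact isAutPair_one N
  · rw [colVec_zero, sub_zero]
    have hlat := Fermat.Agent.M17.Theta1.A_smul_sub_mem L ⟨γ, hγ⟩ z
    have e : L.A z - L.A (γ • z) = -(L.A (((⟨γ, hγ⟩ : Gamma0 N) : SL(2, ℤ)) • z) - L.A z) := by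
      show L.A z - L.A (γ • z) = -(L.A (γ • z) - L.A z)
      abel
    rw [e]
    exact L.lattice.neg_mem hlat

theorem PP_refl (z : ℍ) : PP L z z := PP_of_eq L rfl

theorem PP_symm {z z' : ℍ} (h : PP L z z') : PP L z' z := by
  obtain ⟨F, α, β, hF, hJ⟩ := h
  refine ⟨F⁻¹, -α, -β, ?_, ?_⟩
  · rw [chiOf_neg_fun]
    have := isAutPair_inv N hF
    rwa [neg_sub] at this
  · rw [colVec_neg]
    have := L.lattice.neg_mem hJ
    have e : -(L.A z - L.A z' - colVec L α β) = L.A z' - L.A z - -colVec L α β := by abel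
    rwa [e] at this

theorem PP_trans {z z' z'' : ℍ} (h : PP L z z') (h' : PP L z' z'') : PP L z z'' := by
  obtain ⟨F, α, β, hF, hJ⟩ := h
  obtain ⟨F', α', β', hF', hJ'⟩ := h'
  refine ⟨F * F', α + α', β + β', ?_, ?_⟩
  · rw [chiOf_add_fun]
    have := isAutPair_mul N hF hF'
    rwa [sub_add_sub_cancel] at this
  · rw [colVec_add]
    have := L.lattice.add_mem hJ hJ'
    have e : L.A z - L.A z' - colVec L α β + (L.A z' - L.A z'' - colVec L α' β') =
        L.A z - L.A z'' - (colVec L α β + colVec L α' β') := by abel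
    rwa [e] at this

theorem PC_of_PP {Ac : SL(2, ℤ) → Fin g → ℂ} {z z' : ℍ} {δ : SL(2, ℤ)} (h : PP L z z')
    (h' : PC L Ac z' δ) : PC L Ac z δ := by
  obtain ⟨F, α, β, hF, hJ⟩ := h
  obtain ⟨F', α', β', hF', hJ'⟩ := h'
  refine ⟨F * F', α + α', β + β', ?_, ?_⟩
  · rw [chiOf_add_fun]
    have := isAutPair_mul N hF hF'
    rwa [sub_add_sub_cancel] at this
  · rw [colVec_add]
    have := L.lattice.add_mem hJ hJ'
    have e : L.A z - L.A z' - colVec L α β + (L.A z' - Ac δ - colVec L α' β') =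
        L.A z - Ac δ - (colVec L α β + colVec L α' β') := by abel
    rwa [e] at this

/-- **local ⇒ global** for pairs of points: `ℍ` is connected and `PP` is an equivalence relation. -/
theorem PP_of_local (hloc : ∀ z₀ : ℍ, ∀ᶠ z in 𝓝 z₀, PP L z₀ z) (z z' : ℍ) : PP L z z' := by
  have hopen : IsOpen {w : ℍ | PP L z w} := by
    rw [isOpen_iff_mem_nhds]
    intro w hw
    filter_upwards [hloc w] with w' hw'
    exact PP_trans L hw hw'
  have hclosed : IsClosed {w : ℍ | PP L z w} := by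
    rw [← isOpen_compl_iff, isOpen_iff_mem_nhds]
    intro w hw
    filter_upwards [hloc w] with w' hw' hcon
    exact hw (PP_trans L hcon (PP_symm L hw'))
  have huniv := IsClopen.eq_univ ⟨hclosed, hopen⟩ ⟨z, PP_refl L z⟩
  have : z' ∈ {w : ℍ | PP L z w} := by rw [huniv]; exact Set.mem_univ _
  exact this

/-- **(RL-FINAL), chain form**: the pair form of the reciprocity law for nearby points and for ONE
point per cusp gives `AJAssembly7.RLPair`. -/
theorem rlPair_of_local (Ac : SL(2, ℤ) → Fin g → ℂ)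
    (hloc : ∀ z₀ : ℍ, ∀ᶠ z in 𝓝 z₀, PP L z₀ z) (hcusp : ∀ δ : SL(2, ℤ), ∃ z₁ : ℍ, PC L Ac z₁ δ) :
    RLPair L Ac := by
  refine ⟨fun z z' _ => PP_of_local L hloc z z', fun z δ => ?_⟩
  obtain ⟨z₁, h₁⟩ := hcusp δ
  exact PC_of_PP L (PP_of_local L hloc z z₁) h₁


/-! ### the additive forms (the shape produced by the analytic core) -/

/-- the additive form of the reciprocity law for a divisor `Δ` with Abel-Jacobi vector `v`:
an automorphic pair `(F, χ)` of `Δ`, a parabolic logarithm `ψ` of `χ`, and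
`EC (perC (w k)) ψ = -4πi v_k`. -/
def AddRL (Δ : Divisor ℂ (FC N)) (v : Fin g → ℂ) : Prop :=
  ∃ (F : MerH) (χ : ↥(Gamma0 N) → ℂ) (ψ : ↥(parabolicHoms ℂ (Gamma0 N) ℂ)),
    IsAutPair N F χ Δ ∧ (∀ γ : ↥(Gamma0 N), Complex.exp (ev ψ γ) = χ γ) ∧
    ∀ k, EC (Gamma0 N) (perC N (L.w k)) ψ = -(4 * π * I) * v k

theorem exists_of_addRL {Δ : Divisor ℂ (FC N)} {v : Fin g → ℂ} (h : AddRL L Δ v) :
    ∃ (F : MerH) (α β : Fin g → ℝ), IsAutPair N F (chiOf N L α β) Δ ∧
      v - colVec L α β ∈ L.lattice := by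
  obtain ⟨F, χ, ψ, hF, hexp, hEC⟩ := h
  obtain ⟨α, β, hF', hv⟩ := rl_final L hF ψ hexp v hEC
  refine ⟨F, α, β, hF', ?_⟩
  rw [hv, sub_self]
  exact L.lattice.zero_mem

theorem PP_of_addRL {z z' : ℍ}
    (h : AddRL L (Finsupp.single (ptPlaceC N 1 z) 1 - Finsupp.single (ptPlaceC N 1 z') 1)
      (L.A z - L.A z')) : PP L z z' :=
  exists_of_addRL L h

theorem PC_of_addRL {Ac : SL(2, ℤ) → Fin g → ℂ} {z : ℍ} {δ : SL(2, ℤ)}
    (h : AddRL L (Finsupp.single (ptPlaceC N 1 z) 1 - Finsupp.single (cuspPlaceC N δ) 1)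
      (L.A z - Ac δ)) : PC L Ac z δ :=
  exists_of_addRL L h

/-- **(RL-FINAL)**: `AJAssembly7.RLPair` from the additive form of the reciprocity law for NEARBY
points with different places and for ONE point per cusp. -/
theorem rlPair_of_additive (Ac : SL(2, ℤ) → Fin g → ℂ)
    (hloc : ∀ z₀ : ℍ, ∀ᶠ z in 𝓝 z₀, ptPlaceC N 1 z₀ ≠ ptPlaceC N 1 z →
      AddRL L (Finsupp.single (ptPlaceC N 1 z₀) 1 - Finsupp.single (ptPlaceC N 1 z) 1)
        (L.A z₀ - L.A z))
    (hcusp : ∀ δ : SL(2, ℤ), ∃ z₁ : ℍ,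
      AddRL L (Finsupp.single (ptPlaceC N 1 z₁) 1 - Finsupp.single (cuspPlaceC N δ) 1)
        (L.A z₁ - Ac δ)) :
    RLPair L Ac := by
  refine rlPair_of_local L Ac (fun z₀ => ?_) (fun δ => ?_)
  · filter_upwards [hloc z₀] with z hz
    by_cases hne : ptPlaceC N 1 z₀ = ptPlaceC N 1 z
    · exact PP_of_eq L hne
    · exact PP_of_addRL L (hz hne)
  · obtain ⟨z₁, h₁⟩ := hcusp δ
    exact ⟨z₁, PC_of_addRL L h₁⟩

/-- `L.A` in terms of the primitive `prim` of `S21`. -/
theorem A_eq_prim (τ : ℍ) (k : Fin g) :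
    L.A τ k = Fermat.Agent.S21.Primitive.prim (L.w k) τ := by
  unfold LatData.A Fermat.Agent.S21.Primitive.prim
  rw [← Fermat.Agent.S21.PeriodPrim.eichF_zero_eq (⇑(L.w k)) τ 1 0,
    Fermat.Agent.S21.Primitive.eichF_zero_eq]


/-! ### helper7's shape (board 1208) and the bridge to `PeriodMatrix6.EC` -/

/-- the two complex cup products of the tree agree. -/
theorem EC6_eq (x y : ↥(parabolicHoms ℂ (Gamma0 N) ℂ)) :
    Fermat.Agent.M17.PeriodMatrix6.EC N x y = EC (Gamma0 N) x y := rfl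

/-- the two period maps of the tree agree. -/
theorem perC6_eq (f : CuspForm (Gamma0 N) 2) :
    Fermat.Agent.M17.PeriodMatrix6.perC N f = perC N f := rfl

/-- **`rlPair_of_close`** (helper7's literal request, board 1208): the additive form for `close`
pairs of points (`close` holding near the diagonal) and for one point per cusp gives `RLPair`. -/
theorem rlPair_of_close (Ac : SL(2, ℤ) → Fin g → ℂ) (close : ℍ → ℍ → Prop)
    (hopen : ∀ z : ℍ, ∀ᶠ z' in 𝓝 z, close z z')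
    (hpp : ∀ z z' : ℍ, close z z' → ptPlaceC N 1 z ≠ ptPlaceC N 1 z' →
      ∃ (F : MerH) (χ : ↥(Gamma0 N) → ℂ) (ψ : ↥(parabolicHoms ℂ (Gamma0 N) ℂ)),
        IsAutPair N F χ (Finsupp.single (ptPlaceC N 1 z) 1 - Finsupp.single (ptPlaceC N 1 z') 1) ∧
        (∀ γ : ↥(Gamma0 N),
          Complex.exp ((ψ : Additive (Gamma0 N) →+ ℂ) (Additive.ofMul γ)) = χ γ) ∧
        ∀ k, EC (Gamma0 N) (perC N (L.w k)) ψ = -(4 * π * I) * (L.A z k - L.A z' k))
    (hpc : ∀ δ : SL(2, ℤ), ∃ z₁ : ℍ,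
      ∃ (F : MerH) (χ : ↥(Gamma0 N) → ℂ) (ψ : ↥(parabolicHoms ℂ (Gamma0 N) ℂ)),
        IsAutPair N F χ (Finsupp.single (ptPlaceC N 1 z₁) 1 - Finsupp.single (cuspPlaceC N δ) 1) ∧
        (∀ γ : ↥(Gamma0 N),
          Complex.exp ((ψ : Additive (Gamma0 N) →+ ℂ) (Additive.ofMul γ)) = χ γ) ∧
        ∀ k, EC (Gamma0 N) (perC N (L.w k)) ψ = -(4 * π * I) * (L.A z₁ k - Ac δ k)) :
    RLPair L Ac := by
  refine rlPair_of_additive L Ac (fun z₀ => ?_) (fun δ => ?_)
  · filter_upwards [hopen z₀] with z hz hne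
    exact hpp z₀ z hz hne
  · obtain ⟨z₁, h⟩ := hpc δ
    exact ⟨z₁, h⟩

end Fermat.Agent.M17.RLFinal3
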