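/-
M17 (target S17), block (RL), the last glue (lead).  Imported by no statement.

`AJAssembly7.RLPair L (AcOf L)` - hence S17 - from the two additive statements of the analytic
side, in the shapes in which they are produced:

* (pp) `AddRL` for two points `z₀ z` with different places and `sball z₀ z 25 ⊆ ℍ` (close points);
* (pc) `AddRL` for ONE point per cusp.
-/
import Mathlib
import Fermat.Agent.M17.RLFinal3
import Fermat.Agent.M17.LocalModel8
import Fermat.Agent.M17.ChainClosed5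

set_option autoImplicit false

open UpperHalfPlane hiding I
open Complex CongruenceSubgroup AlgebraicCurve Filter Topology
open scoped MatrixGroups Real

namespace Fermat.Agent.M17.RLClose0

open ModularCurve
open Fermat.Agent.X0 Fermat.Agent.ES.KUM Fermat.Agent.X0.SurjPoint Fermat.Agent.ES.KUM.CCusp16
open Fermat.Agent.M17.Interfaces7 Fermat.Agent.M17.AJAssembly7 Fermat.Agent.M17.RLFinal3
open Fermat.Agent.M17.LocalModel8

/-- the ball `sball t₁ t₂ 25` lies in the upper half plane as soon as `5 |t₁ - t₂| < im t₂`. -/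
theorem sball_subset_of_lt {t₁ t₂ : ℂ} (hne : t₁ ≠ t₂) (h : 5 * ‖t₁ - t₂‖ < t₂.im) :
    sball t₁ t₂ 25 ⊆ {w : ℂ | 0 < w.im} := by
  intro w hw
  have hD : 0 < normSq (t₁ - t₂) := normSq_pos.2 (sub_ne_zero.2 hne)
  have h1 : normSq (w - t₂) ≤ 25 * normSq (t₁ - t₂) := by
    have : sfun t₁ t₂ w ≤ 25 := hw
    unfold sfun at this
    rwa [div_le_iff₀ hD] at this
  have h2 : ‖w - t₂‖ ≤ 5 * ‖t₁ - t₂‖ := by
    rw [Complex.normSq_eq_norm_sq, Complex.normSq_eq_norm_sq] at h1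
    have h3 : ‖w - t₂‖ ^ 2 ≤ (5 * ‖t₁ - t₂‖) ^ 2 := by nlinarith
    exact abs_le_of_sq_le_sq' h3 (by positivity) |>.2
  have h4 : |(w - t₂).im| ≤ ‖w - t₂‖ := Complex.abs_im_le_norm _
  have h5 : (w - t₂).im = w.im - t₂.im := Complex.sub_im _ _
  have h6 := abs_le.1 h4
  show 0 < w.im
  linarith [h6.1]

/-- **close points**: near `z₀`, the ball `sball z₀ z 25` lies in the upper half plane. -/
theorem eventually_sball_subset (z₀ : ℍ) :
    ∀ᶠ z in 𝓝 z₀, z ≠ z₀ → sball (z₀ : ℂ) (z : ℂ) 25 ⊆ {w : ℂ | 0 < w.im} := by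
  have hc : Continuous fun z : ℍ => 5 * ‖(z₀ : ℂ) - (z : ℂ)‖ - (z : ℂ).im := by
    have h1 : Continuous fun z : ℍ => (z : ℂ) := UpperHalfPlane.continuous_coe
    fun_prop
  have h0 : 5 * ‖(z₀ : ℂ) - (z₀ : ℂ)‖ - (z₀ : ℂ).im < 0 := by
    rw [sub_self, norm_zero, mul_zero, zero_sub, neg_lt_zero]
    exact z₀.im_pos
  filter_upwards [hc.continuousAt.eventually_lt continuousAt_const h0] with z hz hne
  refine sball_subset_of_lt (fun h => hne (UpperHalfPlane.ext h.symm)) ?_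
  linarith

variable {N : ℕ} [NeZero N] {g : ℕ} (L : LatData N g)

/-- **(RL) from the two additive statements.** -/
theorem rlPair_of_addRL
    (hpp : ∀ z₀ z : ℍ, sball (z₀ : ℂ) (z : ℂ) 25 ⊆ {w : ℂ | 0 < w.im} →
      ptPlaceC N 1 z₀ ≠ ptPlaceC N 1 z →
      AddRL L (Finsupp.single (ptPlaceC N 1 z₀) 1 - Finsupp.single (ptPlaceC N 1 z) 1)
        (L.A z₀ - L.A z))
    (hpc : ∀ δ : SL(2, ℤ), ∃ z₁ : ℍ,
      AddRL L (Finsupp.single (ptPlaceC N 1 z₁) 1 - Finsupp.single (cuspPlaceC N δ) 1)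
        (L.A z₁ - AcOf L δ)) :
    RLPair L (AcOf L) := by
  refine rlPair_of_additive L (AcOf L) (fun z₀ => ?_) hpc
  filter_upwards [eventually_sball_subset z₀] with z hz hne
  refine hpp z₀ z (hz ?_) hne
  rintro rfl
  exact hne rfl

/-- **S17 from the two additive statements.** -/
theorem s17_of_addRL (N : ℕ) [NeZero N]
    (hpp : ∀ (g : ℕ) (L : LatData N g) (z₀ z : ℍ),
      sball (z₀ : ℂ) (z : ℂ) 25 ⊆ {w : ℂ | 0 < w.im} →
      ptPlaceC N 1 z₀ ≠ ptPlaceC N 1 z →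
      AddRL L (Finsupp.single (ptPlaceC N 1 z₀) 1 - Finsupp.single (ptPlaceC N 1 z) 1)
        (L.A z₀ - L.A z))
    (hpc : ∀ (g : ℕ) (L : LatData N g) (δ : SL(2, ℤ)), ∃ z₁ : ℍ,
      AddRL L (Finsupp.single (ptPlaceC N 1 z₁) 1 - Finsupp.single (cuspPlaceC N δ) 1)
        (L.A z₁ - AcOf L δ)) :
    AddGroup.FG ↥(FixedPoints.addSubgroup (AlgebraicClosure ℚ ≃ₐ[ℚ] AlgebraicClosure ℚ)
      (JZero N)) :=
  Fermat.Agent.M17.ChainClosed5.s17_of_RL N fun g L =>
    rlPair_of_addRL L (hpp g L) (hpc g L)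

end Fermat.Agent.M17.RLClose0
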