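/-
M17 (target S17), block [AJ], (RL-FINAL) (helper7): **from the additive form of the reciprocity law
to the character form consumed by `AJAssembly7`**.

Input (what the analytic side proves for an automorphic pair `(F, χ)` of a divisor `Δ`): an additive
parabolic `ψ : Γ → ℂ` with `exp ψ = χ` and, for all `k`,
`EC (perC (w k)) ψ = -(4 π i) v k` for a vector `v ∈ ℂ^g` (`v = A x - A y` for `Δ = (x) - (y)`).
Output: real `α β` with `χ = chiOf α β` and `v = α + Om β`.  (If the analytic constant comes out as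
`+4 π i`, apply the statement to `-v`.)
Imported by no statement.
-/
import Mathlib
import Fermat.Agent.M17.PeriodMatrix6
import Fermat.Agent.M17.AJAssembly7

set_option autoImplicit false
set_option linter.unusedSectionVars false

open UpperHalfPlane AlgebraicCurve
open scoped MatrixGroups
open CongruenceSubgroup

noncomputable section

namespace Fermat.Agent.M17.RLFinal7

open ModularCurve ModularCurve.Period
open Fermat.Agent.ES.I2 Fermat.Agent.ES.HEQ.ParLattice11
open Fermat.Agent.M17.Interfaces7 Fermat.Agent.M17.PeriodMatrix6 Fermat.Agent.M17.EEven6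
open Fermat.Agent.M17.AJAssembly7 Fermat.Agent.M17.MultAJ4
open Fermat.Agent.X0 Fermat.Agent.ES.KUM Fermat.Agent.X0.SurjPoint Fermat.Agent.ES.KUM.CCusp16

variable {N : ℕ} [NeZero N] {g : ℕ} (L : LatData N g)

/-! ### the basis of `H¹` attached to `LatData` -/

/-- coordinates of `φ ∈ H¹`: `inl j ↦ φ (b j)`, `inr j ↦ φ (a j)`. -/
def latEquiv : ↥(parabolicHoms ℤ (Gamma0 N) ℤ) ≃ₗ[ℤ] (Fin g ⊕ Fin g → ℤ) where
  toFun φ := Sum.elim (fun j => (φ : Additive (Gamma0 N) →+ ℤ) (Additive.ofMul (L.b j)))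
    (fun j => (φ : Additive (Gamma0 N) →+ ℤ) (Additive.ofMul (L.a j)))
  map_add' φ ψ := by
    funext k
    rcases k with j | j <;> simp
  map_smul' r φ := by
    funext k
    rcases k with j | j <;> simp
  invFun c := ∑ j, c (.inl j) • L.m j + ∑ j, c (.inr j) • L.n j
  left_inv φ := by
    have h := L.span φ
    simp only [Sum.elim_inl, Sum.elim_inr]
    rw [add_comm]
    exact h.symm
  right_inv c := by
    funext k
    rcases k with k | k
    · simp only [Sum.elim_inl, Submodule.coe_add, Submodule.coe_sum, Submodule.coe_smul,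
        AddMonoidHom.add_apply, AddMonoidHom.finsetSum_apply, AddMonoidHom.smul_apply,
        L.m_b, L.n_b]
      simp
    · simp only [Sum.elim_inr, Submodule.coe_add, Submodule.coe_sum, Submodule.coe_smul,
        AddMonoidHom.add_apply, AddMonoidHom.finsetSum_apply, AddMonoidHom.smul_apply,
        L.m_a, L.n_a]
      simp

/-- the basis `(m, n)` of `H¹`. -/
def latBasis : Module.Basis (Fin g ⊕ Fin g) ℤ ↥(parabolicHoms ℤ (Gamma0 N) ℤ) :=
  Module.Basis.ofEquivFun (latEquiv L)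

theorem latBasis_inl (j : Fin g) : latBasis L (.inl j) = L.m j := by
  unfold latBasis
  rw [Module.Basis.coe_ofEquivFun]
  show (latEquiv L).symm (Function.update 0 (Sum.inl j) 1) = _
  show ∑ j', (Function.update (0 : Fin g ⊕ Fin g → ℤ) (Sum.inl j) 1) (.inl j') • L.m j' +
    ∑ j', (Function.update (0 : Fin g ⊕ Fin g → ℤ) (Sum.inl j) 1) (.inr j') • L.n j' = _
  simp [Function.update_apply]

theorem latBasis_inr (j : Fin g) : latBasis L (.inr j) = L.n j := by
  unfold latBasis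
  rw [Module.Basis.coe_ofEquivFun]
  show ∑ j', (Function.update (0 : Fin g ⊕ Fin g → ℤ) (Sum.inr j) 1) (.inl j') • L.m j' +
    ∑ j', (Function.update (0 : Fin g ⊕ Fin g → ℤ) (Sum.inr j) 1) (.inr j') • L.n j' = _
  simp [Function.update_apply]

/-- the dual elements: `inl j ↦ b j`, `inr j ↦ a j`. -/
def latDual : Fin g ⊕ Fin g → Gamma0 N := Sum.elim L.b L.a

theorem latDual_spec (k : Fin g ⊕ Fin g) (x : ↥(parabolicHoms ℤ (Gamma0 N) ℤ)) :
    (x : Additive (Gamma0 N) →+ ℤ) (Additive.ofMul (latDual L k)) = (latBasis L).repr x k := by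
  unfold latBasis
  rw [Module.Basis.ofEquivFun_repr_apply]
  rcases k with j | j <;> rfl

theorem cupP_eq_zero_of_EE {x y : ↥(parabolicHoms ℤ (Gamma0 N) ℤ)} (h : EDef25.EE N x y = 0) :
    cupP N x y = 0 := by
  have := two_mul_cupP N x y
  omega

theorem lat_h11 (i j : Fin g) : cupP N (latBasis L (.inl i)) (latBasis L (.inl j)) = 0 := by
  rw [latBasis_inl, latBasis_inl]
  exact cupP_eq_zero_of_EE (L.cup_mm i j)

theorem lat_h22 (i j : Fin g) : cupP N (latBasis L (.inr i)) (latBasis L (.inr j)) = 0 := by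
  rw [latBasis_inr, latBasis_inr]
  exact cupP_eq_zero_of_EE (L.cup_nn i j)

theorem lat_h12 (i j : Fin g) :
    cupP N (latBasis L (.inl i)) (latBasis L (.inr j)) = if i = j then 1 else 0 := by
  rw [latBasis_inl, latBasis_inr]
  have h1 := two_mul_cupP N (L.m i) (L.n j)
  have h2 := L.cup_mn i j
  split_ifs with h
  · rw [if_pos h] at h2; omega
  · rw [if_neg h] at h2; omega

/-- **`EC` in the symplectic basis of `LatData`**. -/
theorem EC_lat (φ ψ : ↥(parabolicHoms ℂ (Gamma0 N) ℂ)) :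
    EC N φ ψ = 2 * ∑ j, ((φ : Additive (Gamma0 N) →+ ℂ) (Additive.ofMul (L.b j)) *
        (ψ : Additive (Gamma0 N) →+ ℂ) (Additive.ofMul (L.a j)) -
      (φ : Additive (Gamma0 N) →+ ℂ) (Additive.ofMul (L.a j)) *
        (ψ : Additive (Gamma0 N) →+ ℂ) (Additive.ofMul (L.b j))) :=
  EC_symplectic N (lat_h11 L) (lat_h22 L) (lat_h12 L) (latDual_spec L) φ ψ

/-- **expansion of a complex parabolic hom** in the coordinates of `LatData`. -/
theorem expand_lat (ψ : ↥(parabolicHoms ℂ (Gamma0 N) ℂ)) (γ : Gamma0 N) :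
    (ψ : Additive (Gamma0 N) →+ ℂ) (Additive.ofMul γ) =
      ∑ j, ((ψ : Additive (Gamma0 N) →+ ℂ) (Additive.ofMul (L.b j)) *
          (((L.m j : Additive (Gamma0 N) →+ ℤ) (Additive.ofMul γ) : ℤ) : ℂ) +
        (ψ : Additive (Gamma0 N) →+ ℂ) (Additive.ofMul (L.a j)) *
          (((L.n j : Additive (Gamma0 N) →+ ℤ) (Additive.ofMul γ) : ℤ) : ℂ)) := by
  rw [expand_complex_apply N (latDual_spec L) ψ γ, Fintype.sum_sum_type, Finset.sum_add_distrib]
  congr 1
  · refine Finset.sum_congr rfl fun j _ => ?_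
    rw [latBasis_inl]; rfl
  · refine Finset.sum_congr rfl fun j _ => ?_
    rw [latBasis_inr]; rfl


/-! ### (RL-FINAL) -/

/-- a unitary exponential has a purely imaginary exponent. -/
theorem re_eq_zero_of_norm_exp {x : ℂ} (h : ‖Complex.exp x‖ = 1) : x.re = 0 := by
  rw [Complex.norm_exp] at h
  exact (Real.exp_eq_one_iff _).mp h

theorem eq_I_mul_im {x : ℂ} (h : x.re = 0) : x = Complex.I * (x.im : ℂ) := by
  apply Complex.ext <;> simp [h]

/-- **(RL-FINAL)**: from the additive form of the reciprocity law to the character form. -/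
theorem chiOf_of_additive (F : MerH) (χ : ↥(Gamma0 N) → ℂ) (Δ : Divisor ℂ (FC N))
    (hF : IsAutPair N F χ Δ) (ψ : ↥(parabolicHoms ℂ (Gamma0 N) ℂ))
    (hψ : ∀ γ : Gamma0 N,
      Complex.exp ((ψ : Additive (Gamma0 N) →+ ℂ) (Additive.ofMul γ)) = χ γ)
    (v : Fin g → ℂ)
    (hEC : ∀ k, EC N (perC N (L.w k)) ψ = -(4 * Real.pi * Complex.I) * v k) :
    ∃ α β : Fin g → ℝ, IsAutPair N F (chiOf N L α β) Δ ∧ v = colVec L α β := by
  have hre : ∀ γ : Gamma0 N, ((ψ : Additive (Gamma0 N) →+ ℂ) (Additive.ofMul γ)).re = 0 := by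
    intro γ
    apply re_eq_zero_of_norm_exp
    rw [hψ γ]
    exact hF.2.1 γ
  set α : Fin g → ℝ := fun k =>
    ((ψ : Additive (Gamma0 N) →+ ℂ) (Additive.ofMul (L.b k))).im / (2 * Real.pi) with hα
  set β : Fin g → ℝ := fun j =>
    -((ψ : Additive (Gamma0 N) →+ ℂ) (Additive.ofMul (L.a j))).im / (2 * Real.pi) with hβ
  have hpi : (2 * (Real.pi : ℂ)) ≠ 0 := by
    have := Real.pi_ne_zero
    simp [this]
  have hb : ∀ k, (ψ : Additive (Gamma0 N) →+ ℂ) (Additive.ofMul (L.b k)) =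
      2 * Real.pi * Complex.I * (α k : ℂ) := by
    intro k
    rw [eq_I_mul_im (hre (L.b k)), hα]
    simp only [Complex.ofReal_div, Complex.ofReal_mul, Complex.ofReal_ofNat]
    set t := (ψ : Additive (Gamma0 N) →+ ℂ) (Additive.ofMul (L.b k)) with ht
    field_simp
  have ha : ∀ j, (ψ : Additive (Gamma0 N) →+ ℂ) (Additive.ofMul (L.a j)) =
      -(2 * Real.pi * Complex.I * (β j : ℂ)) := by
    intro j
    rw [eq_I_mul_im (hre (L.a j)), hβ]
    simp only [Complex.ofReal_div, Complex.ofReal_mul, Complex.ofReal_ofNat, Complex.ofReal_neg]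
    field_simp
  have hχ : χ = chiOf N L α β := by
    funext γ
    rw [← hψ γ, expand_lat L ψ γ]
    unfold chiOf
    congr 1
    rw [Finset.mul_sum]
    refine Finset.sum_congr rfl fun j _ => ?_
    rw [hb j, ha j]
    ring
  refine ⟨α, β, hχ ▸ hF, ?_⟩
  funext k
  have h1 := hEC k
  rw [EC_lat L] at h1
  have h2 : ∀ j, ((perC N (L.w k) : ↥(parabolicHoms ℂ (Gamma0 N) ℂ)) : Additive (Gamma0 N) →+ ℂ)
      (Additive.ofMul (L.b j)) = L.Om j k := fun j => rfl
  have h3 : ∀ j, ((perC N (L.w k) : ↥(parabolicHoms ℂ (Gamma0 N) ℂ)) : Additive (Gamma0 N) →+ ℂ)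
      (Additive.ofMul (L.a j)) = if j = k then 1 else 0 := fun j => L.per_a j k
  simp only [h2, h3, ha, hb] at h1
  have h4 : (∑ j, (L.Om j k * -(2 * Real.pi * Complex.I * (β j : ℂ)) -
      (if j = k then (1 : ℂ) else 0) * (2 * Real.pi * Complex.I * (α j : ℂ)))) =
      -(2 * Real.pi * Complex.I) * ((α k : ℂ) + ∑ j, L.Om j k * (β j : ℂ)) := by
    rw [Finset.sum_sub_distrib]
    simp only [ite_mul, one_mul, zero_mul, Finset.sum_ite_eq', Finset.mem_univ, if_true]
    rw [mul_add, Finset.mul_sum]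
    have : ∀ j, L.Om j k * -(2 * Real.pi * Complex.I * (β j : ℂ)) =
        -(2 * Real.pi * Complex.I) * (L.Om j k * (β j : ℂ)) := fun j => by ring
    simp only [this]
    ring
  rw [h4] at h1
  have h5 : (4 * Real.pi * Complex.I : ℂ) ≠ 0 := by
    have := Real.pi_ne_zero
    simp [this]
  have h6 : -(4 * Real.pi * Complex.I) * ((α k : ℂ) + ∑ j, L.Om j k * (β j : ℂ)) =
      -(4 * Real.pi * Complex.I) * v k := by
    rw [← h1]; ring
  have h7 := mul_left_cancel₀ (neg_ne_zero.mpr h5) h6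
  exact h7.symm


/-- **the pair form `RLPair` from the additive form** (for point-point and point-cusp pairs): what
the analytic side has to deliver is, for each pair, an automorphic pair `(F, χ)` of the divisor, an
additive parabolic logarithm `ψ` of `χ`, and the cup product identity with constant `-(4 π i)`. -/
theorem rlPair_of_additive (Ac : SL(2, ℤ) → Fin g → ℂ)
    (hpp : ∀ z z' : ℍ, ptPlaceC N 1 z ≠ ptPlaceC N 1 z' →
      ∃ (F : MerH) (χ : ↥(Gamma0 N) → ℂ) (ψ : ↥(parabolicHoms ℂ (Gamma0 N) ℂ)),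
        IsAutPair N F χ (Finsupp.single (ptPlaceC N 1 z) 1 - Finsupp.single (ptPlaceC N 1 z') 1) ∧
        (∀ γ : Gamma0 N,
          Complex.exp ((ψ : Additive (Gamma0 N) →+ ℂ) (Additive.ofMul γ)) = χ γ) ∧
        ∀ k, EC N (perC N (L.w k)) ψ = -(4 * Real.pi * Complex.I) * (L.A z k - L.A z' k))
    (hpc : ∀ (z : ℍ) (δ : SL(2, ℤ)),
      ∃ (F : MerH) (χ : ↥(Gamma0 N) → ℂ) (ψ : ↥(parabolicHoms ℂ (Gamma0 N) ℂ)),
        IsAutPair N F χ (Finsupp.single (ptPlaceC N 1 z) 1 - Finsupp.single (cuspPlaceC N δ) 1) ∧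
        (∀ γ : Gamma0 N,
          Complex.exp ((ψ : Additive (Gamma0 N) →+ ℂ) (Additive.ofMul γ)) = χ γ) ∧
        ∀ k, EC N (perC N (L.w k)) ψ = -(4 * Real.pi * Complex.I) * (L.A z k - Ac δ k)) :
    RLPair L Ac := by
  constructor
  · intro z z' hne
    obtain ⟨F, χ, ψ, hF, hψ, hEC⟩ := hpp z z' hne
    obtain ⟨α, β, hF', hv⟩ := chiOf_of_additive L F χ _ hF ψ hψ (L.A z - L.A z') hEC
    refine ⟨F, α, β, hF', ?_⟩
    rw [hv, sub_self]
    exact L.lattice.zero_mem
  · intro z δ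
    obtain ⟨F, χ, ψ, hF, hψ, hEC⟩ := hpc z δ
    obtain ⟨α, β, hF', hv⟩ := chiOf_of_additive L F χ _ hF ψ hψ (L.A z - Ac δ) hEC
    refine ⟨F, α, β, hF', ?_⟩
    rw [hv, sub_self]
    exact L.lattice.zero_mem

end Fermat.Agent.M17.RLFinal7
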