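/-
Programme M17 (S17), helper3: two leaves for helper8's (RL) core.
(UNF)  unfolding against a partition function: `Ipart μ w J = ∫ Ψ` when `J` is the orbit sum of `Ψ`.
(LOCFIN) local finiteness of the action of `SL(2, ℤ)` on `ℍ`, from Mathlib's
`ProperlyDiscontinuousSMul 𝒮ℒ ℍ`.
-/
import Mathlib
import Fermat.Agent.M17.UnfoldZero5

set_option autoImplicit false
set_option linter.unusedSectionVars false

open MeasureTheory ENNReal Filter Set
open scoped ENNReal MatrixGroups Topology UpperHalfPlane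

noncomputable section

namespace Fermat.Agent.M17.UnfoldLoc3

open Fermat.Agent.ES.PET.Unfold12 Fermat.Agent.M17.UnfoldZero5

section Unfold

variable {G X : Type*} [Group G] [MeasurableSpace X] [MulAction G X]
variable [Countable G] [MeasurableConstSMul G X] {μ : Measure X} [SMulInvariantMeasure G X μ]

/-- **(UNF) Unfolding.** If `J` is (a.e.) the orbit sum of the integrable function `Ψ`, then the
integral of `J` against any partition function is the integral of `Ψ`. -/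
theorem ipart_orbit_sum {w : X → ℝ≥0∞} (hw : IsPartition G μ w) {Ψ J : X → ℂ}
    (hΨ : Integrable Ψ μ) (hJ : ∀ᵐ x ∂μ, HasSum (fun g : G => Ψ (g • x)) (J x)) :
    Ipart μ w J = ∫ x, Ψ x ∂μ := by
  have hfin : ∫⁻ x, ‖Ψ x‖ₑ ∂μ ≠ ∞ := hΨ.2.ne
  -- step 1: insert the partition
  have hmeas1 : ∀ g : G, AEStronglyMeasurable (fun x => wc w (g • x) * Ψ x) μ := fun g =>
    (((measurable_wc hw.1).comp (measurable_const_smul g)).aestronglyMeasurable).mul hΨ.1
  have hb1 : ∑' g : G, ∫⁻ x, ‖wc w (g • x) * Ψ x‖ₑ ∂μ ≠ ∞ :=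
    ne_top_of_le_ne_top hfin (tsum_lintegral_enorm_le hw hΨ.1)
  have e1 : ∫ x, Ψ x ∂μ = ∑' g : G, ∫ x, wc w (g • x) * Ψ x ∂μ := by
    rw [← integral_tsum hmeas1 hb1]
    refine integral_congr_ae ?_
    filter_upwards [hw.tsum_wc] with x hx
    rw [tsum_mul_right, hx, one_mul]
  -- step 2: change variables in each term
  have e2 : ∀ g : G, ∫ x, wc w (g • x) * Ψ x ∂μ = ∫ x, wc w x * Ψ (g⁻¹ • x) ∂μ := by
    intro g
    rw [← integral_smul_eq_self (μ := μ) (fun x => wc w (g • x) * Ψ x) (g := g⁻¹)]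
    refine integral_congr_ae (Filter.Eventually.of_forall fun x => ?_)
    show wc w (g • g⁻¹ • x) * Ψ (g⁻¹ • x) = _
    rw [smul_inv_smul]
  -- step 3: interchange back
  have hmeas3 : ∀ g : G, AEStronglyMeasurable (fun x => wc w x * Ψ (g⁻¹ • x)) μ := fun g =>
    ((measurable_wc hw.1).aestronglyMeasurable).mul
      (hΨ.1.comp_measurePreserving (measurePreserving_smul g⁻¹ μ))
  have hb3 : ∑' g : G, ∫⁻ x, ‖wc w x * Ψ (g⁻¹ • x)‖ₑ ∂μ ≠ ∞ := by
    have : ∀ g : G, ∫⁻ x, ‖wc w x * Ψ (g⁻¹ • x)‖ₑ ∂μ = ∫⁻ x, ‖wc w (g • x) * Ψ x‖ₑ ∂μ := by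
      intro g
      have hmp := measurePreserving_smul g μ
      have := hmp.lintegral_comp_emb (measurableEmbedding_const_smul g)
        (fun x => ‖wc w x * Ψ (g⁻¹ • x)‖ₑ)
      rw [← this]
      refine lintegral_congr fun x => ?_
      rw [inv_smul_smul]
    rw [tsum_congr this]
    exact hb1
  rw [e1, tsum_congr e2, ← integral_tsum hmeas3 hb3]
  unfold Ipart
  refine integral_congr_ae ?_
  have hJ' : ∀ᵐ x ∂μ, HasSum (fun g : G => Ψ (g⁻¹ • x)) (J x) := by
    filter_upwards [hJ] with x hx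
    exact (Equiv.inv G).hasSum_iff.mpr hx
  filter_upwards [hJ'] with x hx
  rw [tsum_mul_left, hx.tsum_eq]

end Unfold

section LocFin

open Matrix.SpecialLinearGroup

/-- **(LOCFIN)**: only finitely many `g ∈ SL(2, ℤ)` move a compact set to meet another one. -/
theorem finite_smul_inter {K L : Set ℍ} (hK : IsCompact K) (hL : IsCompact L) :
    {g : SL(2, ℤ) | ∃ z ∈ K, g • z ∈ L}.Finite := by
  have h := ProperlyDiscontinuousSMul.finite_disjoint_inter_image (Γ := 𝒮ℒ) hK hL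
  let φ : SL(2, ℤ) → 𝒮ℒ := fun g => ⟨mapGL ℝ g, ⟨g, rfl⟩⟩
  have hφ : Function.Injective φ := by
    intro g g' hgg'
    have : (mapGL ℝ g : GL (Fin 2) ℝ) = mapGL ℝ g' := congrArg Subtype.val hgg'
    exact mapGL_injective this
  refine (h.preimage hφ.injOn).subset ?_
  rintro g ⟨z, hz, hgz⟩
  exact ⟨g • z, ⟨z, hz, rfl⟩, hgz⟩

/-- **(LOCFIN)**, neighbourhood form. -/
theorem exists_nhds_finite_smul {L : Set ℍ} (hL : IsCompact L) (z₀ : ℍ) :
    ∃ V ∈ 𝓝 z₀, {g : SL(2, ℤ) | ∃ z ∈ V, g • z ∈ L}.Finite := by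
  obtain ⟨K, hK, hKn⟩ := exists_compact_mem_nhds z₀
  exact ⟨K, hKn, finite_smul_inter hK hL⟩

end LocFin

end Fermat.Agent.M17.UnfoldLoc3
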