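/-
M17 (helper1): **(RL-4), generic integral assembly for the point-point step of (RL).**

For `f` a weight 2 cusp form of `Γ₀(N)`, `b : ℍ → ℂ` with periods `y` (parabolic), `C²` in every
tile, small derivative at all cusps, and such that `2∂̄ b` is (half) the `Γ₀(N)`-orbit sum of
`2∂̄ ℓ`, `ℓ = LocalModel8.ell p₁ p₂`:

  `EC (per f) y = -4πi (prim f p₁ - prim f p₂)`.

Pieces: `prim_eq_Fp` (the two primitives of the tree agree), `integral_hyp_local` (the local integral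
on `ℍ` with the hyperbolic measure), `Psi_smul` (weight 2 bookkeeping of the orbit sum),
`im_smul_le_max` / `normSq_le_of_mem_fd` (the support condition of `EC_eq_ipart_limit`).
-/
import Mathlib
import Fermat.Agent.M17.TopArcGen3
import Fermat.Agent.M17.PetInt3
import Fermat.Agent.M17.UnfoldLoc3
import Fermat.Agent.M17.LocalModel8
import Fermat.Agent.M17.DegMeasure5
import Fermat.Agent.M17.DegMoebius5
import Fermat.Agent.M17.PeriodMatrix6

set_option autoImplicit false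
set_option linter.unusedSectionVars false

open UpperHalfPlane hiding I
open Complex CongruenceSubgroup Filter Set MeasureTheory MulAction Subgroup Function
open scoped MatrixGroups ModularForm Topology ComplexConjugate Interval Modular

namespace Fermat.Agent.M17.RLFour1

open Fermat.Agent.M17.Green3 Fermat.Agent.M17.Tile3 Fermat.Agent.M17.DR3 Fermat.Agent.M17.PrimSmooth3
  Fermat.Agent.M17.TopArcGen3 Fermat.Agent.M17.TileStd3
  Fermat.Agent.M17.TileHyp3 Fermat.Agent.M17.TileGamma3 Fermat.Agent.M17.RiemannSymmetric2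
open Fermat.Agent.S21.Primitive Fermat.Agent.ES.I2.DegAdj3
open Fermat.Agent.M17.CauchyPompeiu5 Fermat.Agent.M17.LocalModel8
open Fermat.Agent.ES.PET.PartitionGamma5 Fermat.Agent.ES.PET.Unfold12
open ModularCurve ModularCurve.Period

variable {N : ℕ} [NeZero N]

/-- the two primitives of the tree agree. -/
theorem prim_eq_Fp (f : CuspForm (Gamma0 N) 2) :
    prim f = Fermat.Agent.S21.PeriodPrim.Fp (⇑f) := by
  funext z
  unfold prim Fermat.Agent.S21.PeriodPrim.Fp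
  exact (Fermat.Agent.S21.Primitive.eichF_zero_eq _ _ _ _).symm

/-! ### the kernel `κ = 2∂̄ℓ` -/

section kernel

variable (t₁ t₂ : ℂ)

/-- `κ = 2∂̄ ℓ`. -/
noncomputable def kap : ℂ → ℂ := dbar2 (ell t₁ t₂)

theorem continuous_kap : Continuous (kap t₁ t₂) :=
  Fermat.Agent.M17.DbarResidue5.continuous_dbar2 ((ell_contDiff (t₁ := t₁) (t₂ := t₂)).of_le (by decide))

theorem kap_eq_zero {t : ℂ} (ht : t ∉ annulus t₁ t₂) : kap t₁ t₂ t = 0 := by
  unfold kap
  rw [dbar2_ell, dbar2_phi_eq_zero_of_notMem ht]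
  ring

theorem annulus_subset_sball : annulus t₁ t₂ ⊆ sball t₁ t₂ 25 := by
  intro t ht
  show sfun t₁ t₂ t ≤ 25
  linarith [ht.2]

end kernel

/-! ### the local integral for the hyperbolic measure -/

section local_int

variable (f : CuspForm (Gamma0 N) 2) (p₁ p₂ : ℍ)

theorem continuousOn_comp_ofComplex : ContinuousOn (fun w : ℂ => f (ofComplex w)) {w | 0 < w.im} :=
  (UpperHalfPlane.mdifferentiable_iff.mp (Fermat.Agent.S21.PeriodPrim.cusp_mdiff f)).continuousOn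

theorem integrable_kap_mul (hne : (p₁ : ℂ) ≠ p₂) (hsub : sball (p₁ : ℂ) p₂ 25 ⊆ {w | 0 < w.im}) :
    Integrable (fun w : ℂ => kap p₁ p₂ w * f (ofComplex w)) := by
  have hK : IsCompact (annulus (p₁ : ℂ) p₂) := isCompact_annulus hne
  have hKU : annulus (p₁ : ℂ) p₂ ⊆ {w | 0 < w.im} :=
    (annulus_subset_sball _ _).trans hsub
  have hc : ContinuousOn (fun w : ℂ => kap p₁ p₂ w * f (ofComplex w)) (annulus (p₁ : ℂ) p₂) :=
    (continuous_kap _ _).continuousOn.mul ((continuousOn_comp_ofComplex f).mono hKU)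
  have h1 : IntegrableOn (fun w : ℂ => kap p₁ p₂ w * f (ofComplex w)) (annulus (p₁ : ℂ) p₂) :=
    hc.integrableOn_compact hK
  have h2 : (annulus (p₁ : ℂ) p₂).indicator (fun w : ℂ => kap p₁ p₂ w * f (ofComplex w)) =
      fun w : ℂ => kap p₁ p₂ w * f (ofComplex w) := by
    funext w
    by_cases hw : w ∈ annulus (p₁ : ℂ) p₂
    · rw [indicator_of_mem hw]
    · rw [indicator_of_notMem hw, kap_eq_zero _ _ hw, zero_mul]
  rw [← h2]
  exact (integrable_indicator_iff hK.measurableSet).mpr h1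

/-- **the local integral on `ℍ`**: `∫_ℍ y² κ f dμ_hyp = -2π (prim f p₁ - prim f p₂)`. -/
theorem integral_hyp_local (hne : (p₁ : ℂ) ≠ p₂) (hsub : sball (p₁ : ℂ) p₂ 25 ⊆ {w | 0 < w.im}) :
    Integrable (fun z : ℍ => ((z.im : ℂ)) ^ 2 * (kap p₁ p₂ z * f z)) ∧
    ∫ z : ℍ, ((z.im : ℂ)) ^ 2 * (kap p₁ p₂ z * f z) = -(2 * Real.pi) * (prim f p₁ - prim f p₂) := by
  have hint := integrable_kap_mul f p₁ p₂ hne hsub
  have hcoe : ∀ z : ℍ, ((z.im : ℂ)) ^ 2 * (kap p₁ p₂ z * f z) =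
      ((z.im : ℂ)) ^ 2 * (fun w : ℂ => kap p₁ p₂ w * f (ofComplex w)) z := by
    intro z
    simp only [ofComplex_apply]
  constructor
  · have := Fermat.Agent.M17.DegMeasure5.integrable_UHP
      (h := fun w : ℂ => kap p₁ p₂ w * f (ofComplex w)) hint.integrableOn
    exact this.congr (Eventually.of_forall fun z => (hcoe z).symm)
  · rw [integral_congr_ae (Eventually.of_forall hcoe),
      Fermat.Agent.M17.DegMeasure5.integral_UHP (fun w : ℂ => kap p₁ p₂ w * f (ofComplex w))]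
    set A : ℂ → ℂ := fun w => prim f (ofComplex w) with hA
    have hAd : ∀ w : ℂ, 0 < w.im → HasDerivAt A (f (ofComplex w)) w := by
      intro w hw
      have := prim_hasDerivAt f ⟨w, hw⟩
      rw [ofComplex_apply_of_im_pos hw]
      exact this
    have hAdiff : DifferentiableOn ℂ A {w | 0 < w.im} := fun w hw =>
      (hAd w hw).differentiableAt.differentiableWithinAt
    have hloc := integral_dbar2_ell_mul_deriv (t₁ := (p₁ : ℂ)) (t₂ := (p₂ : ℂ)) hne
      isOpen_upperHalfPlaneSet hsub hAdiff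
    have e1 : ∫ z in Fermat.Agent.M17.DegMeasure5.UH, kap p₁ p₂ z * f (ofComplex z) =
        ∫ z in Fermat.Agent.M17.DegMeasure5.UH, dbar2 (ell (p₁ : ℂ) p₂) z * deriv A z := by
      refine setIntegral_congr_fun Fermat.Agent.M17.DegMeasure5.isOpen_UH.measurableSet ?_
      intro w hw
      show kap p₁ p₂ w * f (ofComplex w) = dbar2 (ell (p₁ : ℂ) p₂) w * deriv A w
      rw [(hAd w hw).deriv]
      rfl
    have e2 : ∫ z in Fermat.Agent.M17.DegMeasure5.UH, dbar2 (ell (p₁ : ℂ) p₂) z * deriv A z =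
        ∫ z, dbar2 (ell (p₁ : ℂ) p₂) z * deriv A z := by
      refine setIntegral_eq_integral_of_forall_compl_eq_zero ?_
      intro w hw
      have hw' : w ∉ annulus (p₁ : ℂ) p₂ := fun h =>
        hw (hsub (annulus_subset_sball _ _ h))
      have := kap_eq_zero (p₁ : ℂ) p₂ hw'
      unfold kap at this
      rw [this, zero_mul]
    rw [e1, e2, hloc, hA]
    simp only [ofComplex_apply]

end local_int

/-! ### heights of `SL(2, ℤ)`-translates -/

theorem im_smul_le_max (σ : SL(2, ℤ)) (w : ℍ) : (σ • w).im ≤ max w.im (1 / w.im) := by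
  rw [ModularGroup.im_smul_eq_div_normSq]
  have hw := w.im_pos
  have hd : denom σ w = (σ 1 0 : ℂ) * w + σ 1 1 := ModularGroup.denom_apply σ w
  have hns : Complex.normSq (denom σ w) =
      ((σ 1 0 : ℝ) * w.re + (σ 1 1 : ℝ)) ^ 2 + ((σ 1 0 : ℝ) * w.im) ^ 2 := by
    rw [hd, Complex.normSq_apply]
    simp
    ring
  by_cases hc : σ 1 0 = 0
  · have hdet := Matrix.SpecialLinearGroup.det_coe σ
    rw [Matrix.det_fin_two, hc, mul_zero, sub_zero] at hdet
    have hd1 : (σ 1 1 : ℤ) ^ 2 = 1 := by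
      have h1 : IsUnit (σ 1 1 : ℤ) := IsUnit.of_mul_eq_one (σ 0 0) (by rw [mul_comm]; exact hdet)
      rcases Int.isUnit_iff.mp h1 with h | h <;> rw [h] <;> norm_num
    have : Complex.normSq (denom σ w) = 1 := by
      rw [hns, hc]
      have : ((σ 1 1 : ℤ) : ℝ) ^ 2 = 1 := by exact_mod_cast hd1
      simp [this]
    rw [this, div_one]
    exact le_max_left _ _
  · have hc1 : (1 : ℝ) ≤ ((σ 1 0 : ℤ) : ℝ) ^ 2 := by
      have : (1 : ℤ) ≤ (σ 1 0) ^ 2 := by
        have := Int.one_le_abs hc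
        nlinarith [abs_mul_abs_self (σ 1 0), sq_abs (σ 1 0)]
      exact_mod_cast this
    have h1 : w.im ^ 2 ≤ Complex.normSq (denom σ w) := by
      rw [hns]
      nlinarith [sq_nonneg ((σ 1 0 : ℝ) * w.re + (σ 1 1 : ℝ)), sq_nonneg w.im]
    have h2 : w.im / Complex.normSq (denom σ w) ≤ 1 / w.im := by
      rw [div_le_div_iff₀ (lt_of_lt_of_le (by positivity) h1) hw]
      nlinarith
    exact le_trans h2 (le_max_right _ _)

/-! ### the orbit sum -/

section orbit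

variable (f : CuspForm (Gamma0 N) 2) (p₁ p₂ : ℍ)

/-- the function to unfold: `Ψ = -(i/2) y² κ f`. -/
noncomputable def Psi (z : ℍ) : ℂ := -(I / 2) * (((z.im : ℂ)) ^ 2 * (kap p₁ p₂ z * f z))

theorem cusp_smul (γ : Gamma0 N) (z : ℍ) :
    f ((γ : SL(2, ℤ)) • z) = denom (γ : SL(2, ℤ)) z ^ 2 * f z := by
  have h1 := congrFun (Fermat.Agent.S21.PeriodPrim.cusp_slash_eq f γ) z
  have h2 : ((f : ℍ → ℂ) ∣[(2 : ℤ)] (Matrix.SpecialLinearGroup.mapGL ℝ (γ : SL(2, ℤ)))) z =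
      f ((γ : SL(2, ℤ)) • z) * denom (γ : SL(2, ℤ)) z ^ (-(2 : ℤ)) :=
    ModularForm.SL_slash_apply (f : ℍ → ℂ) (γ : SL(2, ℤ)) z
  rw [h2] at h1
  have hd : denom (γ : SL(2, ℤ)) z ≠ 0 := denom_ne_zero _ z
  rw [← h1, zpow_neg, zpow_ofNat]
  field_simp

theorem Psi_smul (γ : Gamma0 N) (z : ℍ) :
    Psi f p₁ p₂ ((γ : SL(2, ℤ)) • z) = -(I / 2) * ((z.im : ℂ)) ^ 2 * f z *
      (kap p₁ p₂ ↑((γ : SL(2, ℤ)) • z) * conj (1 / denom (γ : SL(2, ℤ)) z ^ 2)) := by
  unfold Psi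
  rw [cusp_smul, ModularGroup.im_smul_eq_div_normSq]
  have hd : denom (γ : SL(2, ℤ)) z ≠ 0 := denom_ne_zero _ z
  have hd' : conj (denom (γ : SL(2, ℤ)) z) ≠ 0 := by
    rw [Ne, map_eq_zero]; exact hd
  have hns : ((Complex.normSq (denom (γ : SL(2, ℤ)) z) : ℝ) : ℂ) =
      denom (γ : SL(2, ℤ)) z * conj (denom (γ : SL(2, ℤ)) z) := (Complex.mul_conj _).symm
  rw [Complex.ofReal_div, hns, map_div₀, map_one, map_pow]
  field_simp

end orbit

/-! ### the main statement -/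

/-- **(RL-4), point-point step, generic form.** -/
theorem EC_eq_of_orbit_dbar2 (f : CuspForm (Gamma0 N) 2) (y : ↥(parabolicHoms ℂ (Gamma0 N) ℂ))
    (b : ℍ → ℂ)
    (hb : ∀ (γ : Gamma0 N) (z : ℍ),
      b ((γ : SL(2, ℤ)) • z) = b z + fn (y : Additive (Gamma0 N) →+ ℂ) γ)
    (hb2 : ∀ g : SL(2, ℤ), ContDiffOn ℝ 2 (al b g) UH)
    (hcb : ∀ g : SL(2, ℤ), SmallDerivAtCusp b g)
    (p₁ p₂ : ℍ) (hne : (p₁ : ℂ) ≠ p₂) (hsub : sball (p₁ : ℂ) p₂ 25 ⊆ {w | 0 < w.im})
    (hdbar : ∀ z : ℍ, HasSum (fun γ : Gamma0 N =>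
        kap p₁ p₂ ↑((γ : SL(2, ℤ)) • z) * conj (1 / denom (γ : SL(2, ℤ)) z ^ 2))
      (2 * dbar2 (fun w => b (ofComplex w)) z)) :
    EC (Gamma0 N) (perC N f) y = -(4 * Real.pi * I) * (prim f p₁ - prim f p₂) := by
  have hft : Fintype (SL(2, ℤ) ⧸ Gamma0 N) := Fintype.ofFinite _
  have ha : ∀ (γ : Gamma0 N) (z : ℍ), prim f ((γ : SL(2, ℤ)) • z) =
      prim f z + fn ((perC N f : ↥(parabolicHoms ℂ (Gamma0 N) ℂ)) : Additive (Gamma0 N) →+ ℂ) γ := by
    intro γ z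
    have := periodMap_apply_prim f γ z
    show _ = _ + periodMap N f (Additive.ofMul γ)
    rw [this]
    ring
  have hs : Smooth (prim f) b := ⟨fun g => contDiffOn_al f g 1, hb2⟩
  -- the orbit sum
  have hJ : ∀ z : ℍ, HasSum (fun γ : Gamma0 N => Psi f p₁ p₂ (γ • z)) (jacH (prim f) b z) := by
    intro z
    have h1 := (hdbar z).mul_left (-(I / 2) * ((z.im : ℂ)) ^ 2 * f z)
    have e : jacH (prim f) b z = -(I / 2) * ((z.im : ℂ)) ^ 2 * f z *
        (2 * dbar2 (fun w => b (ofComplex w)) z) := by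
      rw [jacH_prim]; ring
    rw [e]
    have e2 : (fun γ : Gamma0 N => Psi f p₁ p₂ (γ • z)) = fun γ : Gamma0 N =>
        -(I / 2) * ((z.im : ℂ)) ^ 2 * f z *
          (kap p₁ p₂ ↑((γ : SL(2, ℤ)) • z) * conj (1 / denom (γ : SL(2, ℤ)) z ^ 2)) :=
      funext fun γ => Psi_smul f p₁ p₂ γ z
    rw [e2]
    exact h1
  -- integrability and the value of the integral
  obtain ⟨hint, hval⟩ := integral_hyp_local f p₁ p₂ hne hsub
  have hΨint : Integrable (Psi f p₁ p₂) := hint.const_mul _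
  have hΨval : ∫ z : ℍ, Psi f p₁ p₂ z = -(I / 2) * (-(2 * Real.pi) * (prim f p₁ - prim f p₂)) := by
    unfold Psi
    rw [integral_const_mul, hval]
  -- the support condition
  have hK : IsCompact (annulus (p₁ : ℂ) p₂) := isCompact_annulus hne
  have hKU : annulus (p₁ : ℂ) p₂ ⊆ {w | 0 < w.im} := (annulus_subset_sball _ _).trans hsub
  obtain ⟨c, hc0, hc⟩ : ∃ c > 0, ∀ w ∈ annulus (p₁ : ℂ) p₂, c ≤ w.im := by
    rcases (annulus (p₁ : ℂ) p₂).eq_empty_or_nonempty with h | h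
    · exact ⟨1, one_pos, by simp [h]⟩
    · obtain ⟨w0, hw0, hmin⟩ := hK.exists_isMinOn h Complex.continuous_im.continuousOn
      exact ⟨w0.im, hKU hw0, fun w hw => hmin hw⟩
  obtain ⟨C, hC⟩ : ∃ C, ∀ w ∈ annulus (p₁ : ℂ) p₂, w.im ≤ C := by
    obtain ⟨C, hC⟩ := (hK.image Complex.continuous_im).bddAbove
    exact ⟨C, fun w hw => hC ⟨w, hw, rfl⟩⟩
  set Y : ℝ := max C (1 / c) with hY
  have hsupp : ∀ z : ℍ, jacH (prim f) b z ≠ 0 → ∀ g : SL(2, ℤ), g • z ∈ (𝒟 : Set ℍ) →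
      Complex.normSq ((g • z : ℍ) : ℂ) ≤ max 1 (1 / 4 + Y ^ 2) := by
    intro z hz g hg
    -- some translate of `z` lies in the annulus
    obtain ⟨γ, hγ⟩ : ∃ γ : Gamma0 N, ((((γ : SL(2, ℤ)) • z : ℍ)) : ℂ) ∈ annulus (p₁ : ℂ) p₂ := by
      by_contra hcon
      rw [not_exists] at hcon
      apply hz
      have h0 : (fun γ : Gamma0 N => Psi f p₁ p₂ (γ • z)) = fun _ => 0 := by
        funext γ
        show Psi f p₁ p₂ ((γ : SL(2, ℤ)) • z) = 0
        unfold Psi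
        rw [kap_eq_zero _ _ (hcon γ)]
        ring
      have := hJ z
      rw [h0] at this
      exact this.unique hasSum_zero
    set w : ℍ := (γ : SL(2, ℤ)) • z with hw
    have hgw : g • z = (g * (γ : SL(2, ℤ))⁻¹) • w := by
      rw [hw, ← mul_smul, inv_mul_cancel_right]
    have him : (g • z).im ≤ Y := by
      rw [hgw]
      refine le_trans (im_smul_le_max _ w) (max_le_max (hC _ hγ) ?_)
      exact one_div_le_one_div_of_le hc0 (hc _ hγ)
    have hre : |(g • z).re| ≤ 1 / 2 := hg.2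
    have him0 : 0 < (g • z).im := (g • z).im_pos
    have hns : Complex.normSq ((g • z : ℍ) : ℂ) = (g • z).re ^ 2 + (g • z).im ^ 2 := by
      rw [Complex.normSq_apply]
      simp [sq]
    rw [hns]
    refine le_trans ?_ (le_max_right _ _)
    have h1 : (g • z).re ^ 2 ≤ 1 / 4 := by
      have := abs_le.mp hre
      nlinarith
    have h2 : (g • z).im ^ 2 ≤ Y ^ 2 := by nlinarith
    linarith
  -- assembly
  have hEC := EC_eq_ipart_limit (Gamma0 N) (perC N f) y ha hb hs (le_max_left 1 (1 / 4 + Y ^ 2))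
    hsupp (fun g => boundedAtCusp_prim f g) hcb
  have hunf := Fermat.Agent.M17.UnfoldLoc3.ipart_orbit_sum (isPartition_wΓ (Gamma0 N)) hΨint
    (Eventually.of_forall hJ)
  rw [hEC, hunf, hΨval]
  ring

/-- the same for all the coordinates of the Abel-Jacobi map of `L : LatData N g`, in the vocabulary of
`RLFinal7.rlPair_of_additive` (`PeriodMatrix6.EC`, `PeriodMatrix6.perC`). -/
theorem EC_lat_eq_of_orbit_dbar2 {g : ℕ} (L : Fermat.Agent.M17.Interfaces7.LatData N g)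
    (y : ↥(parabolicHoms ℂ (Gamma0 N) ℂ)) (b : ℍ → ℂ)
    (hb : ∀ (γ : Gamma0 N) (z : ℍ),
      b ((γ : SL(2, ℤ)) • z) = b z + fn (y : Additive (Gamma0 N) →+ ℂ) γ)
    (hb2 : ∀ g : SL(2, ℤ), ContDiffOn ℝ 2 (al b g) UH)
    (hcb : ∀ g : SL(2, ℤ), SmallDerivAtCusp b g)
    (p₁ p₂ : ℍ) (hne : (p₁ : ℂ) ≠ p₂) (hsub : sball (p₁ : ℂ) p₂ 25 ⊆ {w | 0 < w.im})
    (hdbar : ∀ z : ℍ, HasSum (fun γ : Gamma0 N =>
        kap p₁ p₂ ↑((γ : SL(2, ℤ)) • z) * conj (1 / denom (γ : SL(2, ℤ)) z ^ 2))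
      (2 * dbar2 (fun w => b (ofComplex w)) z)) (k : Fin g) :
    Fermat.Agent.M17.PeriodMatrix6.EC N (Fermat.Agent.M17.PeriodMatrix6.perC N (L.w k)) y =
      -(4 * Real.pi * I) * (L.A p₁ k - L.A p₂ k) := by
  have h := EC_eq_of_orbit_dbar2 (L.w k) y b hb hb2 hcb p₁ p₂ hne hsub hdbar
  have e1 : Fermat.Agent.M17.PeriodMatrix6.perC N (L.w k) = perC N (L.w k) := by
    apply Subtype.ext
    rfl
  have e2 : ∀ p : ℍ, L.A p k = prim (L.w k) p := by
    intro p
    rw [prim_eq_Fp]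
    rfl
  rw [e1, e2, e2]
  exact h

end Fermat.Agent.M17.RLFour1
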