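/-
Programme M17 (S17), helper3: the integral assembly (RL-4) of the reciprocity law in GENERIC form:
`b` smooth with periods `ψ`, small derivative at the cusps, and the density
`jacH (prim f) b = -i y² f · 2∂̄b` an orbit sum of an integrable function `Ψ`
⇒ `EC (perC f) ψ = -4 ∫_ℍ Ψ dμ`.
-/
import Mathlib
import Fermat.Agent.M17.TopArcGen3
import Fermat.Agent.M17.PetInt3
import Fermat.Agent.M17.UnfoldLoc3
import Fermat.Agent.M17.DegMoebius5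
import Fermat.Agent.M17.DegMeasure5
import Fermat.Agent.M17.LocalModel8

set_option autoImplicit false

open UpperHalfPlane hiding I
open Complex CongruenceSubgroup Filter Set MeasureTheory MulAction Subgroup Function
open scoped MatrixGroups ModularForm Topology ComplexConjugate Interval Modular

namespace Fermat.Agent.M17.RLFour3

open Fermat.Agent.M17.Green3 Fermat.Agent.M17.Tile3 Fermat.Agent.M17.DR3
  Fermat.Agent.M17.PathFun3 Fermat.Agent.M17.Paths3 Fermat.Agent.M17.PrimSmooth3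
  Fermat.Agent.M17.TopArc3 Fermat.Agent.M17.TopArcGen3 Fermat.Agent.M17.TileStd3
  Fermat.Agent.M17.TileHyp3 Fermat.Agent.M17.TileGamma3 Fermat.Agent.M17.RiemannSymmetric2
open Fermat.Agent.S21.Primitive Fermat.Agent.ES.I2.DegAdj3
open ModularCurve ModularCurve.Period
open Fermat.Agent.ES.PET.PartitionGamma5 Fermat.Agent.ES.PET.Unfold12
  Fermat.Agent.ES.PET.SLMeasure12

variable {N : ℕ} [NeZero N]

/-- the periods of `prim f`. -/
theorem prim_smul (f : CuspForm (Gamma0 N) 2) (γ : Gamma0 N) (z : ℍ) :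
    prim f ((γ : SL(2, ℤ)) • z) =
      prim f z + fn ((perC N f : ↥(parabolicHoms ℂ (Gamma0 N) ℂ)) : Additive (Gamma0 N) →+ ℂ) γ := by
  have := periodMap_apply_prim f γ z
  show _ = _ + periodMap N f (Additive.ofMul γ)
  rw [this]
  ring

/-- **(RL-4), generic form.** -/
theorem EC_eq_integral_of_orbit_sum (f : CuspForm (Gamma0 N) 2) {b : ℍ → ℂ}
    (ψ : ↥(parabolicHoms ℂ (Gamma0 N) ℂ))
    (hb : ∀ (γ : Gamma0 N) (z : ℍ),
      b ((γ : SL(2, ℤ)) • z) = b z + fn (ψ : Additive (Gamma0 N) →+ ℂ) γ)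
    (hs : Smooth (prim f) b) {M₀ : ℝ} (hM₀ : 1 ≤ M₀)
    (hsupp : ∀ z : ℍ, jacH (prim f) b z ≠ 0 → ∀ g : SL(2, ℤ), g • z ∈ (𝒟 : Set ℍ) →
      normSq ((g • z : ℍ) : ℂ) ≤ M₀)
    (hcb : ∀ g : SL(2, ℤ), SmallDerivAtCusp b g)
    {Ψ : ℍ → ℂ} (hΨ : Integrable Ψ (volume : Measure ℍ))
    (hsum : ∀ᵐ z ∂(volume : Measure ℍ),
      HasSum (fun γ : Gamma0 N => Ψ (γ • z)) (jacH (prim f) b z)) :
    EC (Gamma0 N) (perC N f) ψ = -4 * ∫ z, Ψ z := by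
  haveI : Fintype (SL(2, ℤ) ⧸ Gamma0 N) := Fintype.ofFinite _
  rw [EC_eq_ipart_limit (Gamma0 N) (perC N f) ψ (prim_smul f) hb hs hM₀ hsupp
    (fun g => boundedAtCusp_prim f g) hcb,
    Fermat.Agent.M17.UnfoldLoc3.ipart_orbit_sum (isPartition_wΓ (Gamma0 N)) hΨ hsum]


open Fermat.Agent.M17.CauchyPompeiu5 Fermat.Agent.M17.DegMoebius5

/-- weight two. -/
theorem cuspForm_smul (f : CuspForm (Gamma0 N) 2) (γ : Gamma0 N) (τ : ℍ) :
    f ((γ : SL(2, ℤ)) • τ) = denom (γ : SL(2, ℤ)) τ ^ 2 * f τ := by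
  have := SlashInvariantForm.slash_action_eqn'' f (Subgroup.mem_map_of_mem _ γ.2) τ
  exact_mod_cast this

/-- **invariance of the density** `y² f · 2∂̄u` under `Γ₀(N)`: the term of `γ` in the orbit sum. -/
theorem density_mob (f : CuspForm (Gamma0 N) 2) (γ : Gamma0 N) {u : ℂ → ℂ} (z : ℍ)
    (hu : DifferentiableAt ℝ u (((γ : SL(2, ℤ)) • z : ℍ) : ℂ)) :
    (z.im : ℂ) ^ 2 * f z * dbar2 (u ∘ mob (γ : SL(2, ℤ))) (z : ℂ) =
      ((((γ : SL(2, ℤ)) • z : ℍ).im : ℝ) : ℂ) ^ 2 * f ((γ : SL(2, ℤ)) • z) *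
        dbar2 u (((γ : SL(2, ℤ)) • z : ℍ) : ℂ) := by
  have hm := hasDerivAt_mob (γ : SL(2, ℤ)) z
  have hu' : DifferentiableAt ℝ u (mob (γ : SL(2, ℤ)) (z : ℂ)) := by rwa [mob_coe]
  rw [dbar2_comp hu' hm, mob_coe, cuspForm_smul f γ z]
  have hd : denom (γ : SL(2, ℤ)) z ≠ 0 := denom_ne_zero _ z
  have hdc : (starRingEnd ℂ) (denom (γ : SL(2, ℤ)) z) ≠ 0 := by
    rwa [Ne, map_eq_zero]
  have him : ((((γ : SL(2, ℤ)) • z : ℍ).im : ℝ) : ℂ) =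
      (z.im : ℂ) / (denom (γ : SL(2, ℤ)) z * (starRingEnd ℂ) (denom (γ : SL(2, ℤ)) z)) := by
    have h1 : ((γ : SL(2, ℤ)) • z : ℍ).im = z.im / normSq (denom (γ : SL(2, ℤ)) z) :=
      ModularGroup.im_smul_eq_div_normSq (γ : SL(2, ℤ)) z
    rw [h1, Complex.mul_conj]
    push_cast
    rfl
  rw [him, map_div₀, map_one, map_pow]
  field_simp


/-- **unfolding of an orbit-sum density**: if `D z = c ∑_{γ ∈ Γ₀(N)} 2∂̄(u ∘ γ)(z)` pointwise on `ℍ`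
(a locally finite sum), then the integral of `-i y² f D` against the partition function of `Γ₀(N)`
is `-i c ∫_{Im > 0} f · 2∂̄u dA`. -/
theorem ipart_of_dbar2_orbit (f : CuspForm (Gamma0 N) 2)
    {u : ℂ → ℂ} (hu : ∀ z : ℍ, DifferentiableAt ℝ u (z : ℂ)) (c : ℂ) {D : ℍ → ℂ}
    (hD : ∀ z : ℍ, HasSum (fun γ : Gamma0 N => c * dbar2 (u ∘ mob (γ : SL(2, ℤ))) (z : ℂ)) (D z))
    (hint : IntegrableOn (fun w : ℂ => f (ofComplex w) * dbar2 u w)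
      Fermat.Agent.M17.DegMeasure5.UH) :
    Ipart volume (wΓ (Gamma0 N)) (fun z : ℍ => -I * (z.im : ℂ) ^ 2 * f z * D z) =
      -I * c * ∫ w in Fermat.Agent.M17.DegMeasure5.UH, f (ofComplex w) * dbar2 u w := by
  haveI : Fintype (SL(2, ℤ) ⧸ Gamma0 N) := Fintype.ofFinite _
  set h : ℂ → ℂ := fun w => -I * c * (f (ofComplex w) * dbar2 u w) with hh
  set Ψ : ℍ → ℂ := fun z => (z.im : ℂ) ^ 2 * h z with hΨdef
  have hΨ : Integrable Ψ (volume : Measure ℍ) :=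
    Fermat.Agent.M17.DegMeasure5.integrable_UHP (hint.const_mul (-I * c))
  have hsum : ∀ᵐ z ∂(volume : Measure ℍ),
      HasSum (fun γ : Gamma0 N => Ψ (γ • z)) (-I * (z.im : ℂ) ^ 2 * f z * D z) := by
    refine Eventually.of_forall (fun z => ?_)
    have h1 := (hD z).mul_left (-I * (z.im : ℂ) ^ 2 * f z)
    refine h1.congr_fun (fun γ => ?_)
    have h2 := density_mob f γ (u := u) z (hu _)
    show Ψ ((γ : SL(2, ℤ)) • z) = _
    rw [hΨdef, hh]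
    simp only [ofComplex_apply]
    linear_combination (-I * c) * h2.symm
  rw [Fermat.Agent.M17.UnfoldLoc3.ipart_orbit_sum (isPartition_wΓ (Gamma0 N)) hΨ hsum, hΨdef,
    Fermat.Agent.M17.DegMeasure5.integral_UHP h, hh, integral_const_mul]

/-- **(RL-4), orbit-sum form**: if `2∂̄b = c ∑_{γ ∈ Γ₀(N)} 2∂̄(u ∘ γ)` pointwise on `ℍ` (a locally
finite sum, e.g. `c = 1/2` and `u` the local model `ell`), then
`EC (perC f) ψ = 4 i c ∫_{Im > 0} f · 2∂̄u dA`. -/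
theorem EC_eq_of_dbar2_orbit (f : CuspForm (Gamma0 N) 2) {b : ℍ → ℂ}
    (ψ : ↥(parabolicHoms ℂ (Gamma0 N) ℂ))
    (hb : ∀ (γ : Gamma0 N) (z : ℍ),
      b ((γ : SL(2, ℤ)) • z) = b z + fn (ψ : Additive (Gamma0 N) →+ ℂ) γ)
    (hs : Smooth (prim f) b) {M₀ : ℝ} (hM₀ : 1 ≤ M₀)
    (hsupp : ∀ z : ℍ, jacH (prim f) b z ≠ 0 → ∀ g : SL(2, ℤ), g • z ∈ (𝒟 : Set ℍ) →
      normSq ((g • z : ℍ) : ℂ) ≤ M₀)
    (hcb : ∀ g : SL(2, ℤ), SmallDerivAtCusp b g)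
    {u : ℂ → ℂ} (hu : ∀ z : ℍ, DifferentiableAt ℝ u (z : ℂ)) (c : ℂ)
    (hdb : ∀ z : ℍ, HasSum (fun γ : Gamma0 N => c * dbar2 (u ∘ mob (γ : SL(2, ℤ))) (z : ℂ))
      (dbar2 (fun w : ℂ => b (ofComplex w)) (z : ℂ)))
    (hint : IntegrableOn (fun w : ℂ => f (ofComplex w) * dbar2 u w)
      Fermat.Agent.M17.DegMeasure5.UH) :
    EC (Gamma0 N) (perC N f) ψ =
      4 * I * c * ∫ w in Fermat.Agent.M17.DegMeasure5.UH, f (ofComplex w) * dbar2 u w := by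
  haveI : Fintype (SL(2, ℤ) ⧸ Gamma0 N) := Fintype.ofFinite _
  rw [EC_eq_ipart_limit (Gamma0 N) (perC N f) ψ (prim_smul f) hb hs hM₀ hsupp
    (fun g => boundedAtCusp_prim f g) hcb]
  have e : (fun z : ℍ => jacH (prim f) b z) = fun z : ℍ => -I * (z.im : ℂ) ^ 2 * f z *
      dbar2 (fun w : ℂ => b (ofComplex w)) (z : ℂ) := by
    funext z
    rw [jacH_prim]
  have e' : jacH (prim f) b = fun z : ℍ => jacH (prim f) b z := rfl
  rw [e', e, ipart_of_dbar2_orbit f hu c hdb hint]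
  ring


/-! ### the point-point case: the local model of `LocalModel8` -/

open Fermat.Agent.M17.LocalModel8 in
/-- **the local integral**: `∫_{Im > 0} f · 2∂̄ℓ dA = -2π (A_f p₁ - A_f p₂)`, with integrability. -/
theorem integral_pp (f : CuspForm (Gamma0 N) 2) (p₁ p₂ : ℍ) (hne : (p₁ : ℂ) ≠ (p₂ : ℂ))
    (hball : sball (p₁ : ℂ) (p₂ : ℂ) 25 ⊆ Fermat.Agent.M17.DegMeasure5.UH) :
    IntegrableOn (fun w : ℂ => f (ofComplex w) * dbar2 (ell (p₁ : ℂ) (p₂ : ℂ)) w)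
        Fermat.Agent.M17.DegMeasure5.UH ∧
      ∫ w in Fermat.Agent.M17.DegMeasure5.UH,
        f (ofComplex w) * dbar2 (ell (p₁ : ℂ) (p₂ : ℂ)) w =
          -(2 * Real.pi) * (prim f p₁ - prim f p₂) := by
  have hell : ContDiff ℝ 1 (ell (p₁ : ℂ) (p₂ : ℂ)) :=
    (ell_contDiff (t₁ := (p₁ : ℂ)) (t₂ := (p₂ : ℂ))).of_le (by decide)
  have hUo : IsOpen Fermat.Agent.M17.DegMeasure5.UH := Fermat.Agent.M17.DegMeasure5.isOpen_UH
  -- the primitive on `ℂ`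
  set A : ℂ → ℂ := fun w => prim f (ofComplex w) with hA
  have hAd : ∀ w ∈ Fermat.Agent.M17.DegMeasure5.UH, HasDerivAt A (f (ofComplex w)) w := by
    intro w hw
    have := prim_hasDerivAt f ⟨w, hw⟩
    have e : ofComplex w = ⟨w, hw⟩ := ofComplex_apply_of_im_pos hw
    rw [e]
    exact this
  have hAdiff : DifferentiableOn ℂ A Fermat.Agent.M17.DegMeasure5.UH := fun w hw =>
    (hAd w hw).differentiableAt.differentiableWithinAt
  -- vanishing of `2∂̄ℓ` off the annulus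
  have hsupp2 : ∀ w, w ∉ annulus (p₁ : ℂ) (p₂ : ℂ) → dbar2 (ell (p₁ : ℂ) (p₂ : ℂ)) w = 0 := by
    intro w hw
    rw [dbar2_ell, dbar2_phi_eq_zero_of_notMem hw, neg_zero, zero_mul]
  have hann : annulus (p₁ : ℂ) (p₂ : ℂ) ⊆ Fermat.Agent.M17.DegMeasure5.UH := fun w hw =>
    hball (by show sfun (p₁ : ℂ) (p₂ : ℂ) w ≤ 25; linarith [hw.2])
  have hzero : ∀ w, w ∉ Fermat.Agent.M17.DegMeasure5.UH →
      dbar2 (ell (p₁ : ℂ) (p₂ : ℂ)) w = 0 := fun w hw => hsupp2 w (fun hmem => hw (hann hmem))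
  -- the integrand
  have heq : ∀ w, dbar2 (ell (p₁ : ℂ) (p₂ : ℂ)) w * deriv A w =
      (Fermat.Agent.M17.DegMeasure5.UH).indicator
        (fun w => f (ofComplex w) * dbar2 (ell (p₁ : ℂ) (p₂ : ℂ)) w) w := by
    intro w
    by_cases hw : w ∈ Fermat.Agent.M17.DegMeasure5.UH
    · rw [indicator_of_mem hw, (hAd w hw).deriv, mul_comm]
    · rw [indicator_of_notMem hw, hzero w hw, zero_mul]
  have hloc := integral_dbar2_ell_mul_deriv (t₁ := (p₁ : ℂ)) (t₂ := (p₂ : ℂ)) hne hUo hball hAdiff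
  simp only [heq] at hloc
  rw [integral_indicator hUo.measurableSet] at hloc
  refine ⟨?_, by rw [hloc, hA]; simp only [ofComplex_apply]⟩
  -- integrability
  rw [← integrable_indicator_iff hUo.measurableSet]
  have hfun : (Fermat.Agent.M17.DegMeasure5.UH).indicator
      (fun w => f (ofComplex w) * dbar2 (ell (p₁ : ℂ) (p₂ : ℂ)) w) =
      fun w => dbar2 (ell (p₁ : ℂ) (p₂ : ℂ)) w * deriv A w := by
    funext w
    exact (heq w).symm
  rw [hfun]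
  have hc1 : Continuous (dbar2 (ell (p₁ : ℂ) (p₂ : ℂ))) :=
    Fermat.Agent.M17.DbarResidue5.continuous_dbar2 hell
  have hcK := isCompact_annulus (t₁ := (p₁ : ℂ)) (t₂ := (p₂ : ℂ)) hne
  have hion : IntegrableOn (fun w => dbar2 (ell (p₁ : ℂ) (p₂ : ℂ)) w * deriv A w)
      (annulus (p₁ : ℂ) (p₂ : ℂ)) := by
    have hcont : ContinuousOn (fun w => dbar2 (ell (p₁ : ℂ) (p₂ : ℂ)) w * deriv A w)
        (annulus (p₁ : ℂ) (p₂ : ℂ)) := by
      refine hc1.continuousOn.mul ?_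
      have hfc : ContinuousOn (fun w => f (ofComplex w)) Fermat.Agent.M17.DegMeasure5.UH := by
        intro w hw
        have h1 : ContinuousAt (fun w => f (ofComplex w)) w :=
          ((Fermat.Agent.ES.PET.PetForm10.cuspForm_continuous N 2 f).continuousAt).comp
            (UpperHalfPlane.contMDiffAt_ofComplex (n := 0) hw).continuousAt
        exact h1.continuousWithinAt
      refine (hfc.mono hann).congr (fun w hw => ?_)
      exact (hAd w (hann hw)).deriv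
    exact hcont.integrableOn_compact hcK
  refine (integrableOn_iff_integrable_of_support_subset ?_).mp hion
  intro w hw
  by_contra hnot
  apply hw
  show dbar2 (ell (p₁ : ℂ) (p₂ : ℂ)) w * deriv A w = 0
  rw [hsupp2 w hnot, zero_mul]

open Fermat.Agent.M17.LocalModel8 in
/-- **the unfolding integral for a pair of points** (generic density): if
`D z = ½ ∑_{γ ∈ Γ₀(N)} 2∂̄(ell p₁ p₂ ∘ γ)(z)` (the sum over the group counts `±γ`, hence the `½`),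
then `Ipart (-i y² f D) = π i (A_f p₁ - A_f p₂)`. -/
theorem ipart_pp_of_hasSum (f : CuspForm (Gamma0 N) 2) (p₁ p₂ : ℍ) (hne : (p₁ : ℂ) ≠ (p₂ : ℂ))
    (hball : sball (p₁ : ℂ) (p₂ : ℂ) 25 ⊆ Fermat.Agent.M17.DegMeasure5.UH) {D : ℍ → ℂ}
    (hD : ∀ z : ℍ, HasSum (fun γ : Gamma0 N =>
        (1 / 2 : ℂ) * dbar2 (ell (p₁ : ℂ) (p₂ : ℂ) ∘ mob (γ : SL(2, ℤ))) (z : ℂ)) (D z)) :
    Ipart volume (wΓ (Gamma0 N)) (fun z : ℍ => -I * (z.im : ℂ) ^ 2 * f z * D z) =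
      Real.pi * I * (prim f p₁ - prim f p₂) := by
  have hell : ContDiff ℝ 1 (ell (p₁ : ℂ) (p₂ : ℂ)) :=
    (ell_contDiff (t₁ := (p₁ : ℂ)) (t₂ := (p₂ : ℂ))).of_le (by decide)
  obtain ⟨hint, hval⟩ := integral_pp f p₁ p₂ hne hball
  rw [ipart_of_dbar2_orbit f
    (fun z => (hell.differentiable (by norm_num)).differentiableAt) (1 / 2) hD hint, hval]
  ring

open Fermat.Agent.M17.LocalModel8 in
/-- **(RL-4) for a close pair of points**: if `2∂̄b = ½ ∑_{γ ∈ Γ₀(N)} 2∂̄(ell p₁ p₂ ∘ γ)` (the sum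
over the group counts `±γ`, hence the `½`), then `EC (perC f) ψ = -4πi (A_f p₁ - A_f p₂)`. -/
theorem EC_eq_pp (f : CuspForm (Gamma0 N) 2) (p₁ p₂ : ℍ) (hne : (p₁ : ℂ) ≠ (p₂ : ℂ))
    (hball : sball (p₁ : ℂ) (p₂ : ℂ) 25 ⊆ Fermat.Agent.M17.DegMeasure5.UH) {b : ℍ → ℂ}
    (ψ : ↥(parabolicHoms ℂ (Gamma0 N) ℂ))
    (hb : ∀ (γ : Gamma0 N) (z : ℍ),
      b ((γ : SL(2, ℤ)) • z) = b z + fn (ψ : Additive (Gamma0 N) →+ ℂ) γ)
    (hs : Smooth (prim f) b) {M₀ : ℝ} (hM₀ : 1 ≤ M₀)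
    (hsupp : ∀ z : ℍ, jacH (prim f) b z ≠ 0 → ∀ g : SL(2, ℤ), g • z ∈ (𝒟 : Set ℍ) →
      normSq ((g • z : ℍ) : ℂ) ≤ M₀)
    (hcb : ∀ g : SL(2, ℤ), SmallDerivAtCusp b g)
    (hdb : ∀ z : ℍ, HasSum (fun γ : Gamma0 N =>
        (1 / 2 : ℂ) * dbar2 (ell (p₁ : ℂ) (p₂ : ℂ) ∘ mob (γ : SL(2, ℤ))) (z : ℂ))
      (dbar2 (fun w : ℂ => b (ofComplex w)) (z : ℂ))) :
    EC (Gamma0 N) (perC N f) ψ = -(4 * Real.pi * I) * (prim f p₁ - prim f p₂) := by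
  have hell : ContDiff ℝ 1 (ell (p₁ : ℂ) (p₂ : ℂ)) :=
    (ell_contDiff (t₁ := (p₁ : ℂ)) (t₂ := (p₂ : ℂ))).of_le (by decide)
  obtain ⟨hint, hval⟩ := integral_pp f p₁ p₂ hne hball
  rw [EC_eq_of_dbar2_orbit f ψ hb hs hM₀ hsupp hcb
    (fun z => (hell.differentiable (by norm_num)).differentiableAt) (1 / 2) hdb hint, hval]
  ring

/-! ### closeness of two points of `ℍ` -/

open Fermat.Agent.M17.LocalModel8 in
/-- `sball z z' 25` is the closed disc of radius `5 |z - z'|` around `z'`. -/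
theorem sball_subset_UH {z z' : ℍ} (hne : (z : ℂ) ≠ (z' : ℂ))
    (hclose : 6 * ‖(z' : ℂ) - (z : ℂ)‖ < z.im) :
    sball (z : ℂ) (z' : ℂ) 25 ⊆ Fermat.Agent.M17.DegMeasure5.UH := by
  intro t ht
  have hD : 0 < normSq ((z : ℂ) - (z' : ℂ)) := normSq_pos.2 (sub_ne_zero.2 hne)
  have h1 : normSq (t - (z' : ℂ)) ≤ 25 * normSq ((z : ℂ) - (z' : ℂ)) := by
    have : sfun (z : ℂ) (z' : ℂ) t ≤ 25 := ht
    unfold sfun at this
    rwa [div_le_iff₀ hD] at this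
  have h2 : ‖t - (z' : ℂ)‖ ≤ 5 * ‖(z : ℂ) - (z' : ℂ)‖ := by
    rw [normSq_eq_norm_sq, normSq_eq_norm_sq] at h1
    have h3 : ‖t - (z' : ℂ)‖ ^ 2 ≤ (5 * ‖(z : ℂ) - (z' : ℂ)‖) ^ 2 := by nlinarith
    exact (sq_le_sq₀ (norm_nonneg _) (by positivity)).mp h3
  have h4 : |(t - (z' : ℂ)).im| ≤ ‖t - (z' : ℂ)‖ := Complex.abs_im_le_norm _
  have h5 : |((z' : ℂ) - (z : ℂ)).im| ≤ ‖(z' : ℂ) - (z : ℂ)‖ := Complex.abs_im_le_norm _
  have h6 : ‖(z : ℂ) - (z' : ℂ)‖ = ‖(z' : ℂ) - (z : ℂ)‖ := norm_sub_rev _ _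
  show 0 < t.im
  have e1 : t.im = (t - (z' : ℂ)).im + ((z' : ℂ) - (z : ℂ)).im + z.im := by
    simp only [Complex.sub_im, UpperHalfPlane.coe_im]
    ring
  have := neg_abs_le (t - (z' : ℂ)).im
  have := neg_abs_le ((z' : ℂ) - (z : ℂ)).im
  rw [e1]
  linarith

/-- the closeness condition is open. -/
theorem eventually_close (z : ℍ) : ∀ᶠ z' : ℍ in 𝓝 z, 6 * ‖(z' : ℂ) - (z : ℂ)‖ < z.im := by
  have hc : Continuous fun z' : ℍ => 6 * ‖(z' : ℂ) - (z : ℂ)‖ :=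
    continuous_const.mul (continuous_norm.comp (UpperHalfPlane.continuous_coe.sub continuous_const))
  have h0 : (fun z' : ℍ => 6 * ‖(z' : ℂ) - (z : ℂ)‖) z < z.im := by
    simp only [sub_self, norm_zero, mul_zero]
    exact z.im_pos
  exact (hc.tendsto z).eventually (gt_mem_nhds h0)

end Fermat.Agent.M17.RLFour3
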