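/-
M17 (target S17), block (RL), generic glue (helper7): **`EC (per f) y = -4 · Ipart (-i y² f · 2∂̄b)`**
for any `b` with parabolic periods `y`, `C²` in every tile chart, small derivative at the cusps, and
whose `2∂̄b` is supported on the `SL(2,ℤ)`-translates of a set of bounded height
(`c ≤ im ≤ C`).  This is `TopArcGen3.EC_eq_ipart_limit` at `a = prim f` with the support condition
made checkable; it serves the point-to-cusp step (band in the cusp chart) exactly as the
point-to-point step (compact annulus).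
Imported by no statement.
-/
import Mathlib
import Fermat.Agent.M17.RLFour1

set_option autoImplicit false
set_option linter.unusedSectionVars false

open UpperHalfPlane hiding I
open Complex CongruenceSubgroup Filter Set MeasureTheory MulAction Subgroup Function
open scoped MatrixGroups ModularForm Topology ComplexConjugate Interval Modular

namespace Fermat.Agent.M17.RLGen7

open Fermat.Agent.M17.Green3 Fermat.Agent.M17.Tile3 Fermat.Agent.M17.DR3 Fermat.Agent.M17.PrimSmooth3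
  Fermat.Agent.M17.TopArcGen3 Fermat.Agent.M17.TileStd3
  Fermat.Agent.M17.TileHyp3 Fermat.Agent.M17.TileGamma3 Fermat.Agent.M17.RiemannSymmetric2
open Fermat.Agent.S21.Primitive Fermat.Agent.ES.I2.DegAdj3
open Fermat.Agent.M17.CauchyPompeiu5 Fermat.Agent.M17.RLFour1
open Fermat.Agent.ES.PET.PartitionGamma5 Fermat.Agent.ES.PET.Unfold12
open ModularCurve ModularCurve.Period

variable {N : ℕ} [NeZero N]

/-- a point with an `SL(2,ℤ)`-translate of height in `[c, C]` has bounded `normSq` in the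
fundamental domain. -/
theorem normSq_le_of_translate_im {c C : ℝ} (hc : 0 < c) (z : ℍ) (σ : SL(2, ℤ))
    (h1 : c ≤ (σ • z).im) (h2 : (σ • z).im ≤ C) (g : SL(2, ℤ)) (hg : g • z ∈ (𝒟 : Set ℍ)) :
    Complex.normSq ((g • z : ℍ) : ℂ) ≤ max 1 (1 / 4 + (max C (1 / c)) ^ 2) := by
  set w : ℍ := σ • z with hw
  have hgw : g • z = (g * σ⁻¹) • w := by
    rw [hw, ← mul_smul, inv_mul_cancel_right]
  have him : (g • z).im ≤ max C (1 / c) := by
    rw [hgw]
    refine le_trans (im_smul_le_max _ w) (max_le_max h2 ?_)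
    exact one_div_le_one_div_of_le hc h1
  have hre : |(g • z).re| ≤ 1 / 2 := hg.2
  have him0 : 0 < (g • z).im := (g • z).im_pos
  have hns : Complex.normSq ((g • z : ℍ) : ℂ) = (g • z).re ^ 2 + (g • z).im ^ 2 := by
    rw [Complex.normSq_apply]
    simp [sq]
  rw [hns]
  refine le_trans ?_ (le_max_right _ _)
  have h1' : (g • z).re ^ 2 ≤ 1 / 4 := by
    have := abs_le.mp hre
    nlinarith
  have h2' : (g • z).im ^ 2 ≤ (max C (1 / c)) ^ 2 := by nlinarith
  linarith

/-- **`EC (per f) y = -4 · Ipart (-i y² f · 2∂̄b)`**, support condition in the checkable form. -/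
theorem EC_eq_ipart_prim (f : CuspForm (Gamma0 N) 2) (y : ↥(parabolicHoms ℂ (Gamma0 N) ℂ))
    (b : ℍ → ℂ)
    (hb : ∀ (γ : Gamma0 N) (z : ℍ),
      b ((γ : SL(2, ℤ)) • z) = b z + fn (y : Additive (Gamma0 N) →+ ℂ) γ)
    (hb2 : ∀ g : SL(2, ℤ), ContDiffOn ℝ 2 (al b g) UH)
    (hcb : ∀ g : SL(2, ℤ), SmallDerivAtCusp b g)
    {c C : ℝ} (hc : 0 < c)
    (hsupp : ∀ z : ℍ, dbar2 (fun w => b (ofComplex w)) (z : ℂ) ≠ 0 →
      ∃ σ : SL(2, ℤ), c ≤ (σ • z).im ∧ (σ • z).im ≤ C) :
    EC (Gamma0 N) (perC N f) y = -4 * Ipart volume (wΓ (Gamma0 N))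
      (fun z : ℍ => -I * ((z.im : ℂ)) ^ 2 * f z * dbar2 (fun w => b (ofComplex w)) (z : ℂ)) := by
  have hft : Fintype (SL(2, ℤ) ⧸ Gamma0 N) := Fintype.ofFinite _
  have ha : ∀ (γ : Gamma0 N) (z : ℍ), prim f ((γ : SL(2, ℤ)) • z) =
      prim f z + fn ((perC N f : ↥(parabolicHoms ℂ (Gamma0 N) ℂ)) : Additive (Gamma0 N) →+ ℂ) γ := by
    intro γ z
    have := periodMap_apply_prim f γ z
    show _ = _ + periodMap N f (Additive.ofMul γ)
    rw [this]
    ring
  have hs : Smooth (prim f) b := ⟨fun g => contDiffOn_al f g 1, hb2⟩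
  have hsupp' : ∀ z : ℍ, jacH (prim f) b z ≠ 0 → ∀ g : SL(2, ℤ), g • z ∈ (𝒟 : Set ℍ) →
      Complex.normSq ((g • z : ℍ) : ℂ) ≤ max 1 (1 / 4 + (max C (1 / c)) ^ 2) := by
    intro z hz g hg
    have hd : dbar2 (fun w => b (ofComplex w)) (z : ℂ) ≠ 0 := by
      intro h0
      apply hz
      rw [jacH_prim, h0, mul_zero]
    obtain ⟨σ, h1, h2⟩ := hsupp z hd
    exact normSq_le_of_translate_im hc z σ h1 h2 g hg
  have hEC := EC_eq_ipart_limit (Gamma0 N) (perC N f) y ha hb hs
    (le_max_left 1 (1 / 4 + (max C (1 / c)) ^ 2)) hsupp' (fun g => boundedAtCusp_prim f g) hcb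
  rw [hEC]
  congr 2
  funext z
  exact jacH_prim f b z

end Fermat.Agent.M17.RLGen7
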