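/-
M17 (helper1): **the `RTData` literal with (DEG) as its only hypothesis.**

`rtData L AJ hdeg : RTData N L AJ (thetaA (siegelOfLat L) 0)` for
`hdeg : ∀ e, Fe L e ≠ 0 → Divisor.degree (Zdiv L e) = g`:
`Fe := Theta1.Fe L`, `Z := Theta1.Zdiv L` (ThetaDiv1), `Z_ratio`/`Z_balanced` from FreeOne4,
Riemann's constant `kappa L AJ` := a lift of `iota [Z e₀ - g ∞] - e₀` and `Z_sum` from
AbelSum4.z_sum_diff.
-/
import Mathlib
import Fermat.Agent.M17.ThetaDiv1
import Fermat.Agent.M17.ThetaFacts1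
import Fermat.Agent.M17.FreeOne4
import Fermat.Agent.M17.AbelSum4

set_option autoImplicit false
set_option linter.unusedSectionVars false

namespace Fermat.Agent.M17.RTAssembly1

open Complex Matrix UpperHalfPlane AlgebraicCurve
open Fermat.Agent.M17.Interfaces7 Fermat.Agent.M17.Theta1
open Fermat.Agent.X0 Fermat.Agent.X0.SurjPoint Fermat.Agent.ES.KUM Fermat.Agent.ES.KUM.CCusp16
open scoped MatrixGroups

variable {N : ℕ} [NeZero N] {g : ℕ} (L : LatData N g) (AJ : AJData N L)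

/-- some `F_e` is not identically `0`. -/
theorem exists_Fe_ne_zero : ∃ e : Fin g → ℂ, Fe L e ≠ 0 := by
  obtain ⟨z, hz⟩ := th0_ne L
  refine ⟨L.A UpperHalfPlane.I - z, fun h0 => hz ?_⟩
  have := congrArg (fun a : HolH => (a : ℍ → ℂ) UpperHalfPlane.I) h0
  simp only [Fe_apply] at this
  rw [sub_sub_cancel] at this
  exact this

/-- the base parameter. -/
noncomputable def e0 : Fin g → ℂ := (exists_Fe_ne_zero L).choose

theorem Fe_e0_ne_zero : Fe L (e0 L) ≠ 0 := (exists_Fe_ne_zero L).choose_spec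

open Classical in
/-- **Riemann's constant**: a lift of `iota [Z e₀ - g ∞] - e₀`. -/
noncomputable def kappa : Fin g → ℂ :=
  if h : Zdiv L (e0 L) - Finsupp.single (cuspPlaceC N 1) (g : ℤ) ∈
      Divisor.degZero (K := ℂ) (F := FC N) then
    (QuotientAddGroup.mk_surjective (AJ.iota (Pic0.mk ⟨_, h⟩))).choose - e0 L
  else 0

theorem mk_kappa (h : Zdiv L (e0 L) - Finsupp.single (cuspPlaceC N 1) (g : ℤ) ∈
    Divisor.degZero (K := ℂ) (F := FC N)) :
    (QuotientAddGroup.mk (kappa L AJ + e0 L) : (Fin g → ℂ) ⧸ L.lattice) =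
      AJ.iota (Pic0.mk ⟨_, h⟩) := by
  unfold kappa
  rw [dif_pos h, sub_add_cancel]
  exact (QuotientAddGroup.mk_surjective (AJ.iota (Pic0.mk ⟨_, h⟩))).choose_spec

/-- **the Abel sum** `iota [Z e - g ∞] = e + κ`. -/
theorem z_sum (hdeg : ∀ e, Fe L e ≠ 0 → Divisor.degree (Zdiv L e) = g) (e : Fin g → ℂ)
    (he : Fe L e ≠ 0)
    (h : Zdiv L e - Finsupp.single (cuspPlaceC N 1) (g : ℤ) ∈
      Divisor.degZero (K := ℂ) (F := FC N)) :
    AJ.iota (Pic0.mk ⟨_, h⟩) = QuotientAddGroup.mk (e + kappa L AJ) := by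
  have hd : Zdiv L e - Zdiv L (e0 L) ∈ Divisor.degZero (K := ℂ) (F := FC N) := by
    rw [Divisor.mem_degZero, map_sub, hdeg e he, hdeg _ (Fe_e0_ne_zero L), sub_self]
  have h0 : Zdiv L (e0 L) - Finsupp.single (cuspPlaceC N 1) (g : ℤ) ∈
      Divisor.degZero (K := ℂ) (F := FC N) := by
    have := sub_mem h hd
    have e1 : Zdiv L e - Finsupp.single (cuspPlaceC N 1) (g : ℤ) - (Zdiv L e - Zdiv L (e0 L)) =
        Zdiv L (e0 L) - Finsupp.single (cuspPlaceC N 1) (g : ℤ) := by abel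
    rwa [e1] at this
  have hsplit : (⟨_, h⟩ : Divisor.degZero (K := ℂ) (F := FC N)) = ⟨_, hd⟩ + ⟨_, h0⟩ := by
    apply Subtype.ext
    show Zdiv L e - Finsupp.single (cuspPlaceC N 1) (g : ℤ) =
      (Zdiv L e - Zdiv L (e0 L)) + (Zdiv L (e0 L) - Finsupp.single (cuspPlaceC N 1) (g : ℤ))
    abel
  rw [hsplit, Pic0.mk_add, map_add,
    Fermat.Agent.M17.AbelSum4.z_sum_diff L AJ (Zdiv L) (Zdiv_spec L) e (e0 L) he
      (Fe_e0_ne_zero L) hd, ← mk_kappa L AJ h0, ← QuotientAddGroup.mk_add]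
  congr 1
  abel

/-- **the `RTData` literal**, (DEG) being the only hypothesis. -/
noncomputable def rtData (hdeg : ∀ e, Fe L e ≠ 0 → Divisor.degree (Zdiv L e) = g) :
    RTData N L AJ (thetaA (siegelOfLat L) 0) where
  k := kappa L AJ
  Fe := Fe L
  Fe_apply := fun _ _ => rfl
  Z := Zdiv L
  Z_spec := Zdiv_spec L
  Z_nonneg := Zdiv_nonneg L
  Z_ratio := Fermat.Agent.M17.FreeOne4.z_ratio L (Zdiv L) (Zdiv_spec L)
  Z_balanced := Fermat.Agent.M17.FreeOne4.z_balanced L (Zdiv L) (Zdiv_spec L)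
  Z_degree := hdeg
  Z_sum := z_sum L AJ hdeg

@[simp] theorem rtData_Fe (hdeg : ∀ e, Fe L e ≠ 0 → Divisor.degree (Zdiv L e) = g) :
    (rtData L AJ hdeg).Fe = Fe L := rfl

@[simp] theorem rtData_Z (hdeg : ∀ e, Fe L e ≠ 0 → Divisor.degree (Zdiv L e) = g) :
    (rtData L AJ hdeg).Z = Zdiv L := rfl

@[simp] theorem rtData_k (hdeg : ∀ e, Fe L e ≠ 0 → Divisor.degree (Zdiv L e) = g) :
    (rtData L AJ hdeg).k = kappa L AJ := rfl

end Fermat.Agent.M17.RTAssembly1
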