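/-
M17 (helper1): **I-RT closed**: the unconditional `RTData` for `th0 = thetaA (siegelOfLat L) 0`
(`RTAssembly1.rtData` + helper5's `DegFinal5.z_degree`).
-/
import Mathlib
import Fermat.Agent.M17.RTAssembly1
import Fermat.Agent.M17.DegFinal5

set_option autoImplicit false

namespace Fermat.Agent.M17.RTFinal1

open Fermat.Agent.M17.Interfaces7 Fermat.Agent.M17.Theta1 Fermat.Agent.M17.RTAssembly1

variable {N : ℕ} [NeZero N] {g : ℕ} (L : LatData N g) (AJ : AJData N L)

/-- **I-RT**: the weak Riemann theorem data, unconditionally (given `L` and `AJ`). -/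
noncomputable def rt : RTData N L AJ (thetaA (siegelOfLat L) 0) :=
  rtData L AJ fun e he => Fermat.Agent.M17.DegFinal5.z_degree N L e he

@[simp] theorem rt_Fe : (rt L AJ).Fe = Fe L := rfl

@[simp] theorem rt_Z : (rt L AJ).Z = Zdiv L := rfl

@[simp] theorem rt_k : (rt L AJ).k = kappa L AJ := rfl

end Fermat.Agent.M17.RTFinal1
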