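/-
M17 (target S17), block (RL), leaf "Adapted for the point-point family" (lead).
Imported by no statement.

For an automorphic function `F` on `Γ₀(N)\ℍ*` with divisor `(p1) - (p2)` (`IsAutDiv`), the orders of
`F` on `ℍ` are those of the product `∏_{q ∈ Γ̄} R₀ ∘ q`, `R₀ = (z - p1)/(z - p2)`:
`ModelProd8.ppFamily (Gamma0 N) hS` is `Adapted` to `F`.

Route: `ordMer z (R_q) = [q z = p1] - [q z = p2]`; the number of classes `q ∈ Γ̄ = Γ/±1` with
`q z = p` is half the number of `γ ∈ Γ₀(N)` with `γ z = p`, i.e. `[pt z = pt p] · ptIdx z`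
(`StabCount4.card_transporter`); `IsAutDiv` gives `ordMer z F = Δ(pt z) · ptIdx z`.
-/
import Mathlib
import Fermat.Agent.M17.ModelProd8
import Fermat.Agent.M17.StabCount4
import Fermat.Agent.M17.Interfaces7

set_option autoImplicit false

open UpperHalfPlane Filter Topology Set
open scoped MatrixGroups
open CongruenceSubgroup

namespace Fermat.Agent.M17.RecipAdapted0

open Fermat.Agent.X0 Fermat.Agent.X0.SurjPoint Fermat.Agent.ES.KUM Fermat.Agent.M15.DivLogMer1
  Fermat.Agent.M15.DivLogPrim1 Fermat.Agent.M17.MerEval8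
  Fermat.Agent.M17.GammaBar8 Fermat.Agent.M17.ModelFam8 Fermat.Agent.M17.ModelProd8
  Fermat.Agent.M17.Interfaces7 Fermat.Agent.M17.StabCount4 Fermat.Agent.ES.KUM.CCusp16

variable (N : ℕ) [NeZero N]

/-- the element `sgn b • rep q` of `Γ₀(N)`. -/
noncomputable def twist (b : Bool) (q : Gbar (Gamma0 N)) : ↥(Gamma0 N) :=
  ⟨sgn b * rep q, mul_mem (sgn_mem N b) (rep_mem q)⟩

theorem cls_twist (b : Bool) (q : Gbar (Gamma0 N)) : cls (twist N b q) = q := by
  have h : cls (twist N b q) = cls (Quotient.out q : ↥(Gamma0 N)) := by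
    rw [cls_eq_iff]
    cases b
    · left
      show ((Quotient.out q : ↥(Gamma0 N)) : SL(2, ℤ)) = sgn false * rep q
      simp [sgn, rep]
    · right
      show ((Quotient.out q : ↥(Gamma0 N)) : SL(2, ℤ)) = -(sgn true * rep q)
      simp [sgn, rep]
  rw [h, cls_out]

theorem twist_smul (b : Bool) (q : Gbar (Gamma0 N)) (z : ℍ) :
    ((twist N b q : ↥(Gamma0 N)) : SL(2, ℤ)) • z = rep q • z := by
  show (sgn b * rep q) • z = rep q • z
  rw [mul_smul, sgn_smul]

/-- **the classes of `Γ̄` moving `z` to `p` are half of the elements of `Γ₀(N)` doing so.** -/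
theorem card_transporter_bar (z p : ℍ) :
    Nat.card {γ : ↥(Gamma0 N) // (γ : SL(2, ℤ)) • z = p} =
      2 * Nat.card {q : Gbar (Gamma0 N) // rep q • z = p} := by
  have e : ({q : Gbar (Gamma0 N) // rep q • z = p} × Bool) ≃
      {γ : ↥(Gamma0 N) // (γ : SL(2, ℤ)) • z = p} := by
    refine Equiv.ofBijective (fun x => ⟨twist N x.2 x.1.1, by rw [twist_smul]; exact x.1.2⟩)
      ⟨?_, ?_⟩
    · rintro ⟨⟨q, hq⟩, b⟩ ⟨⟨q', hq'⟩, b'⟩ h
      have h1 : twist N b q = twist N b' q' := congrArg Subtype.val h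
      have h2 : q = q' := by
        rw [← cls_twist N b q, ← cls_twist N b' q', h1]
      subst h2
      have h3 : sgn b * rep q = sgn b' * rep q := congrArg Subtype.val h1
      have h4 : sgn b = sgn b' := mul_right_cancel h3
      rw [sgn_injective h4]
    · rintro ⟨γ, hγ⟩
      rcases rep_cls γ with h | h
      · refine ⟨⟨⟨cls γ, by rw [h]; exact hγ⟩, false⟩, ?_⟩
        apply Subtype.ext
        apply Subtype.ext
        show sgn false * rep (cls γ) = γ
        rw [h]
        simp [sgn]
      · refine ⟨⟨⟨cls γ, by rw [h, ModularGroup.SL_neg_smul]; exact hγ⟩, true⟩, ?_⟩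
        apply Subtype.ext
        apply Subtype.ext
        show sgn true * rep (cls γ) = γ
        rw [h]
        simp [sgn]
  rw [← Nat.card_congr e, Nat.card_prod, Nat.card_eq_fintype_card (α := Bool), Fintype.card_bool,
    mul_comm]

open Classical in
/-- the number of classes of `Γ̄` moving `z` to `p`. -/
theorem card_bar (z p : ℍ) :
    Nat.card {q : Gbar (Gamma0 N) // rep q • z = p} =
      if ptPlaceC N 1 z = ptPlaceC N 1 p then ptIdx N 1 z else 0 := by
  have h1 := card_transporter_bar N z p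
  have h2 := card_transporter N z p
  rw [h2] at h1
  split_ifs at h1 ⊢ with h
  · omega
  · omega

variable {N}

open Classical in
/-- the count inside a finite set containing the relevant classes. -/
theorem card_filter {p1 p2 : ℍ} (hS : Setup p1 p2) (z p : ℍ) (hp : p = p1 ∨ p = p2)
    (S : Finset (Gbar (Gamma0 N))) (hQ : (ppFamily (Gamma0 N) hS).Qs z ⊆ S) :
    (S.filter fun q => rep q • z = p).card =
      if ptPlaceC N 1 z = ptPlaceC N 1 p then ptIdx N 1 z else 0 := by
  rw [← card_bar N z p]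
  symm
  apply Nat.subtype_card
  intro q
  rw [Finset.mem_filter]
  constructor
  · exact fun h => h.2
  · intro h
    refine ⟨hQ ?_, h⟩
    rw [mem_ppFamily_Qs, h]
    rcases hp with rfl | rfl
    · exact p1_mem_BH hS
    · exact p2_mem_BH

/-- **(Adapted, pp)**: an automorphic function with divisor `(p1) - (p2)` has the orders of the
point-point family. -/
theorem adapted_pp {p1 p2 : ℍ} (hS : Setup p1 p2) {F : MerH}
    (hF : IsAutDiv N F
      (Finsupp.single (ptPlaceC N 1 p1) 1 - Finsupp.single (ptPlaceC N 1 p2) 1)) :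
    (ppFamily (Gamma0 N) hS).Adapted F := by
  classical
  refine ⟨hF.1, fun z S hQ => ?_⟩
  rw [hF.2.1 z]
  have hsum : ∑ q ∈ S, ordMer z ((ppFamily (Gamma0 N) hS).R q) =
      ((S.filter fun q => rep q • z = p1).card : ℤ) -
        ((S.filter fun q => rep q • z = p2).card : ℤ) := by
    rw [Finset.card_filter, Finset.card_filter, Nat.cast_sum, Nat.cast_sum, ← Finset.sum_sub_distrib]
    refine Finset.sum_congr rfl fun q _ => ?_
    rw [ppFamily_R, ordMer_Rq, ordMer_R0]
    split_ifs <;> simp
  rw [hsum, card_filter hS z p1 (Or.inl rfl) S hQ, card_filter hS z p2 (Or.inr rfl) S hQ]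
  rw [Finsupp.sub_apply, Finsupp.single_apply, Finsupp.single_apply]
  by_cases h1 : ptPlaceC N 1 z = ptPlaceC N 1 p1 <;> by_cases h2 : ptPlaceC N 1 z = ptPlaceC N 1 p2
  · rw [if_pos h1, if_pos h2, if_pos h1.symm, if_pos h2.symm]; ring
  · rw [if_pos h1, if_neg h2, if_pos h1.symm, if_neg (fun h => h2 h.symm)]; simp
  · rw [if_neg h1, if_pos h2, if_neg (fun h => h1 h.symm), if_pos h2.symm]; simp
  · rw [if_neg h1, if_neg h2, if_neg (fun h => h1 h.symm), if_neg (fun h => h2 h.symm)]; simp

end Fermat.Agent.M17.RecipAdapted0
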