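/-
Leaf (P1) of the S17 design (reports 132/134): a smooth, locally finite partition of unity for the
action of `SL(2, ℤ)` on the upper half plane.  Mathlib only.

Main statements (all in `Fermat.Agent.M17.SmoothPartition8`):
* `rho : ℂ → ℝ` smooth bump, `= 1` on the standard fundamental domain, supported in
  `{|Re z| < 5/8, |z|² > 3/4}` (so `Im z > 1/2` there): `rho_contDiff`, `rho_eq_one`,
  `of_rho_ne_zero`, `half_lt_im_of_rho_ne_zero`.
* `finite_rho_smul_ne_zero`: local finiteness, box form (all four entries of `g` are bounded: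
  `exists_entries_bound`); `finite_box`, `finite_box_wt`: neighbourhood form.
* `Ssum z = ∑ᶠ g, rho (g • z)`, `one_le_Ssum`, `Ssum_smul`; `wt z = rho z / Ssum z`,
  `wt_nonneg`, `wt_le_one`, `wt_ne_zero_iff`, `finsum_wt_smul` / `hasSum_wt_smul`
  (`∑_{g ∈ SL(2,ℤ)} wt (g • z) = 1`, both `±g` counted, as for the measurable partition
  `½·1_{𝒟ᵒ}`).
* `contDiffAt_wt`, `contDiffOn_wt`, `contDiffAt_wt_smul`: smoothness (as functions on `ℂ` through
  `ofComplex`); `continuous_wt`, `measurable_wt`.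
* (F1) `c_eq_zero_of_rho_smul_ne_zero` (for `Im z ≥ 2` only `±T^n` contribute),
  `finsum_wt_vadd` (`∑_{n ∈ ℤ} wt (z + n) = 1/2` for `Im z ≥ 2`),
  `forall_im_smul_le_iff` (on the support of `rho` the invariant truncation
  `{∀ g, Im (g z) ≤ M}` is `{Im z ≤ M}` for `M ≥ 2`).
-/
import Mathlib

open UpperHalfPlane Matrix MatrixGroups Complex Set Filter Topology
open scoped ContDiff

namespace Fermat.Agent.M17.SmoothPartition8

noncomputable section

/-- The cut-off in the real part: `1` on `[-1/2, 1/2]`, `0` outside `(-5/8, 5/8)`. -/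
def chi1 (x : ℝ) : ℝ := Real.smoothTransition (5 - 8 * x) * Real.smoothTransition (5 + 8 * x)

/-- The cut-off in `|z|²`: `1` on `[1, ∞)`, `0` on `(-∞, 3/4]`. -/
def chi2 (s : ℝ) : ℝ := Real.smoothTransition (4 * s - 3)

theorem chi1_contDiff : ContDiff ℝ ∞ chi1 := by
  unfold chi1
  exact (Real.smoothTransition.contDiff.comp (by fun_prop)).mul
    (Real.smoothTransition.contDiff.comp (by fun_prop))

theorem chi2_contDiff : ContDiff ℝ ∞ chi2 := by
  unfold chi2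
  exact Real.smoothTransition.contDiff.comp (by fun_prop)

theorem chi1_nonneg (x : ℝ) : 0 ≤ chi1 x :=
  mul_nonneg (Real.smoothTransition.nonneg _) (Real.smoothTransition.nonneg _)

theorem chi1_le_one (x : ℝ) : chi1 x ≤ 1 :=
  mul_le_one₀ (Real.smoothTransition.le_one _) (Real.smoothTransition.nonneg _)
    (Real.smoothTransition.le_one _)

theorem chi2_nonneg (s : ℝ) : 0 ≤ chi2 s := Real.smoothTransition.nonneg _

theorem chi2_le_one (s : ℝ) : chi2 s ≤ 1 := Real.smoothTransition.le_one _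

theorem chi1_eq_one {x : ℝ} (hx : |x| ≤ 1 / 2) : chi1 x = 1 := by
  have h := abs_le.1 hx
  unfold chi1
  rw [Real.smoothTransition.one_of_one_le (by linarith),
    Real.smoothTransition.one_of_one_le (by linarith), one_mul]

theorem chi2_eq_one {s : ℝ} (hs : 1 ≤ s) : chi2 s = 1 :=
  Real.smoothTransition.one_of_one_le (by linarith)

theorem abs_lt_of_chi1_ne_zero {x : ℝ} (h : chi1 x ≠ 0) : |x| < 5 / 8 := by
  unfold chi1 at h
  by_contra hc
  rw [not_lt, le_abs'] at hc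
  rcases hc with hc | hc
  · exact h (by rw [Real.smoothTransition.zero_of_nonpos (x := 5 + 8 * x) (by linarith), mul_zero])
  · exact h (by rw [Real.smoothTransition.zero_of_nonpos (x := 5 - 8 * x) (by linarith), zero_mul])

theorem lt_of_chi2_ne_zero {s : ℝ} (h : chi2 s ≠ 0) : 3 / 4 < s := by
  by_contra hc
  exact h (Real.smoothTransition.zero_of_nonpos (by linarith))

/-- The bump function: `1` on the standard fundamental domain, supported in
`{|Re z| < 5/8, |z|² > 3/4}`. -/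
def rho (z : ℂ) : ℝ := chi1 z.re * chi2 (normSq z)

theorem rho_contDiff : ContDiff ℝ ∞ rho := by
  unfold rho
  refine (chi1_contDiff.comp ?_).mul (chi2_contDiff.comp ?_)
  · exact Complex.reCLM.contDiff
  · have : (normSq : ℂ → ℝ) = fun z : ℂ => z.re * z.re + z.im * z.im := by
      ext z; exact normSq_apply z
    rw [this]
    exact (Complex.reCLM.contDiff.mul Complex.reCLM.contDiff).add
      (Complex.imCLM.contDiff.mul Complex.imCLM.contDiff)

theorem rho_nonneg (z : ℂ) : 0 ≤ rho z := mul_nonneg (chi1_nonneg _) (chi2_nonneg _)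

theorem rho_le_one (z : ℂ) : rho z ≤ 1 :=
  mul_le_one₀ (chi1_le_one _) (chi2_nonneg _) (chi2_le_one _)

theorem rho_eq_one {z : ℂ} (h1 : |z.re| ≤ 1 / 2) (h2 : 1 ≤ normSq z) : rho z = 1 := by
  unfold rho; rw [chi1_eq_one h1, chi2_eq_one h2, one_mul]

theorem of_rho_ne_zero {z : ℂ} (h : rho z ≠ 0) : |z.re| < 5 / 8 ∧ 3 / 4 < normSq z := by
  unfold rho at h
  exact ⟨abs_lt_of_chi1_ne_zero (left_ne_zero_of_mul h), lt_of_chi2_ne_zero (right_ne_zero_of_mul h)⟩

/-- On the support of `rho`, inside the upper half plane, the imaginary part is `> 1/2`. -/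
theorem half_lt_im_of_rho_ne_zero {z : ℂ} (hz : 0 < z.im) (h : rho z ≠ 0) : 1 / 2 < z.im := by
  obtain ⟨h1, h2⟩ := of_rho_ne_zero h
  rw [normSq_apply] at h2
  have h3 : z.re * z.re < (5 / 8) ^ 2 := by
    have := abs_lt.1 h1
    nlinarith
  nlinarith

/-! ### The Möbius action in coordinates -/

theorem normSq_denom_eq (g : SL(2,ℤ)) (z : ℍ) :
    Complex.normSq (denom g z) = ((g 1 0 : ℝ) * z.re + g 1 1) ^ 2 + ((g 1 0 : ℝ) * z.im) ^ 2 := by
  rw [ModularGroup.denom_apply, normSq_apply]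
  simp
  ring

theorem coe_smul_eq (g : SL(2,ℤ)) (z : ℍ) :
    (↑(g • z) : ℂ) = ((g 0 0 : ℂ) * z + g 0 1) / ((g 1 0 : ℂ) * z + g 1 1) := by
  rw [coe_specialLinearGroup_apply]
  simp

theorem det_eq_one' (g : SL(2,ℤ)) : (g 0 0) * (g 1 1) - (g 0 1) * (g 1 0) = 1 := by
  have := g.det_coe
  rw [Matrix.det_fin_two] at this
  exact this

/-- `|cz+d|² ≥ min(1, y²)` for the bottom row of an integral unimodular matrix. -/
theorem min_le_normSq_denom (g : SL(2,ℤ)) (z : ℍ) :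
    min 1 (z.im ^ 2) ≤ Complex.normSq (denom g z) := by
  rw [normSq_denom_eq]
  by_cases hc : g 1 0 = 0
  · have hd : (g 1 1) ^ 2 = 1 := by
      have := det_eq_one' g
      rw [hc, mul_zero, sub_zero] at this
      have h2 : g 1 1 ∣ 1 := ⟨g 0 0, by rw [mul_comm]; exact this.symm⟩
      rcases Int.isUnit_iff.1 (isUnit_of_dvd_one h2) with h | h <;> rw [h] <;> norm_num
    have hd' : ((g 1 1 : ℤ) : ℝ) ^ 2 = 1 := by exact_mod_cast hd
    rw [hc]
    simp only [Int.cast_zero, zero_mul, zero_add]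
    rw [hd']
    exact le_trans (min_le_left _ _) (by norm_num)
  · have h1 : (1 : ℝ) ≤ ((g 1 0 : ℤ) : ℝ) ^ 2 := by
      have : (1 : ℤ) ≤ (g 1 0) ^ 2 := by
        have := Int.one_le_abs hc
        calc (1 : ℤ) ≤ |g 1 0| ^ 2 := by nlinarith
          _ = (g 1 0) ^ 2 := sq_abs _
      exact_mod_cast this
    refine le_trans (min_le_right _ _) ?_
    have : z.im ^ 2 ≤ ((g 1 0 : ℤ) : ℝ) ^ 2 * z.im ^ 2 := by
      nlinarith [sq_nonneg z.im]
    nlinarith [sq_nonneg ((g 1 0 : ℝ) * z.re + g 1 1)]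

theorem abs_le_sq_add_one (t : ℝ) : |t| ≤ t ^ 2 + 1 := by
  rcases abs_cases t with ⟨h, _⟩ | ⟨h, _⟩ <;> rw [h] <;> nlinarith [sq_nonneg (t - 1), sq_nonneg (t + 1)]

/-- numerator identity: `|az+b|² = |gz|² |cz+d|²`. -/
theorem normSq_num_eq (g : SL(2,ℤ)) (z : ℍ) :
    ((g 0 0 : ℝ) * z.re + g 0 1) ^ 2 + ((g 0 0 : ℝ) * z.im) ^ 2 =
      Complex.normSq (↑(g • z) : ℂ) * Complex.normSq (denom g z) := by
  have hne : Complex.normSq (denom g z) ≠ 0 := (normSq_denom_pos g z.im_ne_zero).ne'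
  have h1 : (↑(g • z) : ℂ) * denom g z = (g 0 0 : ℂ) * z + g 0 1 := by
    rw [coe_smul_eq, ModularGroup.denom_apply]
    have : ((g 1 0 : ℂ) * z + g 1 1) ≠ 0 := by
      have := denom_ne_zero g z
      rwa [ModularGroup.denom_apply] at this
    rw [div_mul_cancel₀ _ this]
  rw [← map_mul, h1, normSq_apply]
  simp
  ring


/-! ### Local finiteness -/

/-- The purely real part of the entry bound. -/
theorem real_entries_bound {y1 y2 X m A Lc La x y a b c d N G r : ℝ} (hy1 : 0 < y1)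
    (hm : m = min 1 (y1 ^ 2)) (hA : A = (25 / 64 + (y2 / m) ^ 2) * (2 * y2))
    (hLc : Lc = 2 * y2 / y1 ^ 2 + 1) (hLa : La = A / y1 ^ 2 + 1)
    (h1 : y1 ≤ y) (h2 : y ≤ y2) (hX : |x| ≤ X)
    (hNeq : N = (c * x + d) ^ 2 + (c * y) ^ 2) (hNpos : 0 < N)
    (hhalf : 1 / 2 < y / N) (hmN : min 1 (y ^ 2) ≤ N)
    (hnum : (a * x + b) ^ 2 + (a * y) ^ 2 = G * N) (hG : G = r * r + (y / N) * (y / N))
    (hr : |r| < 5 / 8) :
    |a| ≤ La ∧ |b| ≤ A + 1 + La * X ∧ |c| ≤ Lc ∧ |d| ≤ 2 * y2 + 1 + Lc * X := by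
  have hm0 : 0 < m := by rw [hm]; exact lt_min one_pos (by positivity)
  have hy0 : 0 < y := lt_of_lt_of_le hy1 h1
  have hy2 : 0 < y2 := lt_of_lt_of_le hy0 h2
  have hX0 : 0 ≤ X := le_trans (abs_nonneg _) hX
  have hN2 : N < 2 * y2 := by
    rw [lt_div_iff₀ hNpos] at hhalf
    linarith
  have hmN' : m ≤ N := by
    refine le_trans ?_ hmN
    rw [hm]
    exact min_le_min le_rfl (pow_le_pow_left₀ hy1.le h1 2)
  have hy1sq : 0 < y1 ^ 2 := by positivity
  have hysq : y1 ^ 2 ≤ y ^ 2 := pow_le_pow_left₀ hy1.le h1 2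
  -- the bottom row
  have hc2 : c ^ 2 ≤ 2 * y2 / y1 ^ 2 := by
    rw [le_div_iff₀ hy1sq]
    have : c ^ 2 * y1 ^ 2 ≤ c ^ 2 * y ^ 2 := mul_le_mul_of_nonneg_left hysq (sq_nonneg _)
    have e : (c * y) ^ 2 = c ^ 2 * y ^ 2 := by ring
    linarith [sq_nonneg (c * x + d)]
  have hcL : |c| ≤ Lc := le_trans (abs_le_sq_add_one c) (by rw [hLc]; linarith)
  have hLc0 : 0 ≤ Lc := le_trans (abs_nonneg _) hcL
  have hcd : |c * x + d| ≤ 2 * y2 + 1 := by
    refine le_trans (abs_le_sq_add_one _) ?_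
    linarith [sq_nonneg (c * y)]
  have hdL : |d| ≤ 2 * y2 + 1 + Lc * X := by
    have : d = (c * x + d) - c * x := by ring
    rw [this]
    refine le_trans (abs_sub _ _) ?_
    rw [abs_mul]
    have : |c| * |x| ≤ Lc * X := mul_le_mul hcL hX (abs_nonneg _) hLc0
    linarith
  -- the top row
  have hG' : G ≤ 25 / 64 + (y2 / m) ^ 2 := by
    have h3 : r * r ≤ 25 / 64 := by
      have := abs_lt.1 hr
      nlinarith
    have h5 : y / N ≤ y2 / m := div_le_div₀ hy2.le h2 hm0 hmN'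
    have h6 : 0 ≤ y / N := by positivity
    rw [hG]
    nlinarith
  have hG0 : 0 ≤ G := by rw [hG]; exact add_nonneg (mul_self_nonneg _) (mul_self_nonneg _)
  have hnumA : (a * x + b) ^ 2 + (a * y) ^ 2 ≤ A := by
    rw [hnum, hA]
    exact mul_le_mul hG' hN2.le hNpos.le (le_trans hG0 hG')
  have ha2 : a ^ 2 ≤ A / y1 ^ 2 := by
    rw [le_div_iff₀ hy1sq]
    have : a ^ 2 * y1 ^ 2 ≤ a ^ 2 * y ^ 2 := mul_le_mul_of_nonneg_left hysq (sq_nonneg _)
    have e : (a * y) ^ 2 = a ^ 2 * y ^ 2 := by ring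
    linarith [sq_nonneg (a * x + b)]
  have haL : |a| ≤ La := le_trans (abs_le_sq_add_one a) (by rw [hLa]; linarith)
  have hLa0 : 0 ≤ La := le_trans (abs_nonneg _) haL
  have hab : |a * x + b| ≤ A + 1 := by
    refine le_trans (abs_le_sq_add_one _) ?_
    linarith [sq_nonneg (a * y)]
  have hbL : |b| ≤ A + 1 + La * X := by
    have : b = (a * x + b) - a * x := by ring
    rw [this]
    refine le_trans (abs_sub _ _) ?_
    rw [abs_mul]
    have : |a| * |x| ≤ La * X := mul_le_mul haL hX (abs_nonneg _) hLa0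
    linarith
  exact ⟨haL, hbL, hcL, hdL⟩

/-- **Uniform bound on the entries.** If `z` ranges over a box `y₁ ≤ Im z ≤ y₂`, `|Re z| ≤ X`
and `rho (g • z) ≠ 0`, then the entries of `g` are bounded. -/
theorem exists_entries_bound {y1 y2 X : ℝ} (hy1 : 0 < y1) :
    ∃ L : ℝ, ∀ (g : SL(2,ℤ)) (z : ℍ), y1 ≤ z.im → z.im ≤ y2 → |z.re| ≤ X →
      rho (↑(g • z) : ℂ) ≠ 0 → ∀ i j, |(g i j : ℝ)| ≤ L := by
  obtain ⟨m, hm⟩ : ∃ m : ℝ, m = min 1 (y1 ^ 2) := ⟨_, rfl⟩
  obtain ⟨A, hA⟩ : ∃ A : ℝ, A = (25 / 64 + (y2 / m) ^ 2) * (2 * y2) := ⟨_, rfl⟩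
  obtain ⟨Lc, hLc⟩ : ∃ Lc : ℝ, Lc = 2 * y2 / y1 ^ 2 + 1 := ⟨_, rfl⟩
  obtain ⟨La, hLa⟩ : ∃ La : ℝ, La = A / y1 ^ 2 + 1 := ⟨_, rfl⟩
  refine ⟨La + (A + 1 + La * X) + Lc + (2 * y2 + 1 + Lc * X), fun g z h1 h2 hX hρ => ?_⟩
  have him : (g • z).im = z.im / Complex.normSq (denom g z) :=
    ModularGroup.im_smul_eq_div_normSq g z
  have hhalf : 1 / 2 < z.im / Complex.normSq (denom g z) := by
    rw [← him]
    exact half_lt_im_of_rho_ne_zero (g • z).im_pos hρ
  have hG : Complex.normSq (↑(g • z) : ℂ) = (↑(g • z) : ℂ).re * (↑(g • z) : ℂ).re +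
      (z.im / Complex.normSq (denom g z)) * (z.im / Complex.normSq (denom g z)) := by
    rw [normSq_apply, ← him]; rfl
  obtain ⟨h1', h2', h3', h4'⟩ := real_entries_bound hy1 hm hA hLc hLa h1 h2 hX
    (normSq_denom_eq g z) (normSq_denom_pos g z.im_ne_zero) hhalf (min_le_normSq_denom g z)
    (normSq_num_eq g z) hG (of_rho_ne_zero hρ).1
  have e1 := le_trans (abs_nonneg _) h1'
  have e2 := le_trans (abs_nonneg _) h2'
  have e3 := le_trans (abs_nonneg _) h3'
  have e4 := le_trans (abs_nonneg _) h4'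
  intro i j
  fin_cases i <;> fin_cases j <;> simp only [Fin.zero_eta, Fin.mk_one, Fin.isValue] <;> linarith

theorem finite_bounded_entries (n : ℤ) : {g : SL(2,ℤ) | ∀ i j, |g i j| ≤ n}.Finite := by
  have h1 : (Set.Icc (fun _ _ => -n : Matrix (Fin 2) (Fin 2) ℤ) (fun _ _ => n)).Finite :=
    Set.finite_Icc _ _
  refine (h1.preimage (Subtype.val_injective.injOn)).subset fun g hg => ?_
  simp only [Set.mem_preimage, Set.mem_Icc]
  exact ⟨fun i j => (abs_le.1 (hg i j)).1, fun i j => (abs_le.1 (hg i j)).2⟩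

/-- **Local finiteness**, box form. -/
theorem finite_rho_smul_ne_zero {y1 y2 X : ℝ} (hy1 : 0 < y1) :
    {g : SL(2,ℤ) | ∃ z : ℍ, y1 ≤ z.im ∧ z.im ≤ y2 ∧ |z.re| ≤ X ∧ rho (↑(g • z) : ℂ) ≠ 0}.Finite := by
  obtain ⟨L, hL⟩ := exists_entries_bound (y2 := y2) (X := X) hy1
  refine (finite_bounded_entries ⌈L⌉).subset ?_
  rintro g ⟨z, h1, h2, h3, h4⟩ i j
  have := hL g z h1 h2 h3 h4 i j
  have h5 : ((|g i j| : ℤ) : ℝ) ≤ (⌈L⌉ : ℝ) := by
    rw [Int.cast_abs]
    exact le_trans this (Int.le_ceil L)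
  exact_mod_cast h5

/-! ### The partition function -/

/-- pointwise finiteness of the support. -/
theorem finite_support_rho_smul (z : ℍ) :
    (Function.support fun g : SL(2,ℤ) => rho (↑(g • z) : ℂ)).Finite := by
  refine (finite_rho_smul_ne_zero (y1 := z.im) (y2 := z.im) (X := |z.re|) z.im_pos).subset ?_
  intro g hg
  exact ⟨z, le_rfl, le_rfl, le_rfl, hg⟩

/-- The locally finite sum `∑_g ρ(g z)`. -/
def Ssum (z : ℍ) : ℝ := ∑ᶠ g : SL(2,ℤ), rho (↑(g • z) : ℂ)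

theorem one_le_Ssum (z : ℍ) : 1 ≤ Ssum z := by
  obtain ⟨g₀, hg₀⟩ := ModularGroup.exists_smul_mem_fd z
  have h1 : rho (↑(g₀ • z) : ℂ) = 1 := by
    refine rho_eq_one hg₀.2 ?_
    exact hg₀.1
  unfold Ssum
  rw [finsum_eq_sum_of_support_subset _ (s := (finite_support_rho_smul z).toFinset) (by simp)]
  rw [← h1]
  refine Finset.single_le_sum (f := fun g : SL(2,ℤ) => rho (↑(g • z) : ℂ))
    (fun g _ => rho_nonneg _) ?_
  rw [Set.Finite.mem_toFinset, Function.mem_support, h1]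
  exact one_ne_zero

theorem Ssum_pos (z : ℍ) : 0 < Ssum z := lt_of_lt_of_le one_pos (one_le_Ssum z)

theorem Ssum_smul (h : SL(2,ℤ)) (z : ℍ) : Ssum (h • z) = Ssum z := by
  unfold Ssum
  rw [← finsum_comp_equiv (Equiv.mulRight h) (f := fun g : SL(2,ℤ) => rho (↑(g • z) : ℂ))]
  refine finsum_congr fun g => ?_
  simp only [Equiv.coe_mulRight, mul_smul]

/-- The smooth partition function. -/
def wt (z : ℍ) : ℝ := rho (z : ℂ) / Ssum z

theorem wt_nonneg (z : ℍ) : 0 ≤ wt z := div_nonneg (rho_nonneg _) (Ssum_pos z).le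

theorem wt_le_one (z : ℍ) : wt z ≤ 1 := by
  unfold wt
  rw [div_le_one (Ssum_pos z)]
  exact le_trans (rho_le_one _) (one_le_Ssum z)

theorem wt_ne_zero_iff (z : ℍ) : wt z ≠ 0 ↔ rho (z : ℂ) ≠ 0 := by
  unfold wt
  rw [Ne, div_eq_zero_iff, not_or]
  exact ⟨fun h => h.1, fun h => ⟨h, (Ssum_pos z).ne'⟩⟩

theorem finite_support_wt_smul (z : ℍ) :
    (Function.support fun g : SL(2,ℤ) => wt (g • z)).Finite := by
  refine (finite_support_rho_smul z).subset fun g hg => ?_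
  exact (wt_ne_zero_iff _).1 hg

/-- **Partition of unity.** -/
theorem finsum_wt_smul (z : ℍ) : ∑ᶠ g : SL(2,ℤ), wt (g • z) = 1 := by
  have h1 : ∀ g : SL(2,ℤ), wt (g • z) = rho (↑(g • z) : ℂ) * (Ssum z)⁻¹ := fun g => by
    unfold wt; rw [Ssum_smul, div_eq_mul_inv]
  rw [finsum_congr h1, ← finsum_mul]
  exact mul_inv_cancel₀ (Ssum_pos z).ne'

theorem hasSum_wt_smul (z : ℍ) : HasSum (fun g : SL(2,ℤ) => wt (g • z)) 1 := by
  have : HasSum (fun g : SL(2,ℤ) => wt (g • z))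
      (∑ g ∈ (finite_support_wt_smul z).toFinset, wt (g • z)) :=
    hasSum_sum_of_ne_finset_zero (fun g hg => by
      rw [Set.Finite.mem_toFinset, Function.mem_support, not_not] at hg; exact hg)
  rw [← finsum_eq_sum_of_support_subset _ (by simp), finsum_wt_smul] at this
  exact this

/-! ### Smoothness -/

/-- The Möbius map as a map `ℂ → ℂ`. -/
def mob (g : SL(2,ℤ)) (z : ℂ) : ℂ := ((g 0 0 : ℂ) * z + g 0 1) / ((g 1 0 : ℂ) * z + g 1 1)

theorem coe_smul_eq_mob (g : SL(2,ℤ)) (z : ℍ) : (↑(g • z) : ℂ) = mob g z := coe_smul_eq g z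

theorem mob_denom_ne_zero (g : SL(2,ℤ)) {z : ℂ} (hz : 0 < z.im) :
    (g 1 0 : ℂ) * z + g 1 1 ≠ 0 := by
  have := denom_ne_zero_of_im (g : GL (Fin 2) ℝ) hz.ne'
  simpa [denom] using this

theorem contDiffAt_mob (g : SL(2,ℤ)) {z : ℂ} (hz : 0 < z.im) : ContDiffAt ℝ ∞ (mob g) z := by
  have h : ContDiffAt ℂ ∞ (mob g) z := by
    unfold mob
    refine ContDiffAt.div ?_ ?_ (mob_denom_ne_zero g hz)
    · exact (contDiffAt_const.mul contDiffAt_id).add contDiffAt_const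
    · exact (contDiffAt_const.mul contDiffAt_id).add contDiffAt_const
  exact h.restrict_scalars ℝ

/-- the box neighbourhood of a point of the upper half plane. -/
def box (z₀ : ℂ) : Set ℂ :=
  {z : ℂ | z₀.im / 2 < z.im ∧ z.im < 2 * z₀.im ∧ |z.re| < |z₀.re| + 1}

theorem isOpen_box (z₀ : ℂ) : IsOpen (box z₀) := by
  unfold box
  refine (isOpen_lt continuous_const Complex.continuous_im).inter
    ((isOpen_lt Complex.continuous_im continuous_const).inter
      (isOpen_lt (continuous_abs.comp Complex.continuous_re) continuous_const))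

theorem mem_box {z₀ : ℂ} (hz₀ : 0 < z₀.im) : z₀ ∈ box z₀ :=
  ⟨by linarith, by linarith, by linarith⟩

theorem im_pos_of_mem_box {z₀ z : ℂ} (hz₀ : 0 < z₀.im) (hz : z ∈ box z₀) : 0 < z.im :=
  lt_trans (by linarith) hz.1

/-- the finitely many `g` that matter on the box around `z₀`. -/
theorem finite_box (z₀ : ℂ) (hz₀ : 0 < z₀.im) :
    {g : SL(2,ℤ) | ∃ z : ℍ, (z : ℂ) ∈ box z₀ ∧ rho (↑(g • z) : ℂ) ≠ 0}.Finite := by
  refine (finite_rho_smul_ne_zero (y1 := z₀.im / 2) (y2 := 2 * z₀.im) (X := |z₀.re| + 1)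
    (by linarith)).subset ?_
  rintro g ⟨z, hz, hρ⟩
  exact ⟨z, hz.1.le, hz.2.1.le, hz.2.2.le, hρ⟩

theorem Ssum_eq_sum_of_mem_box {z₀ : ℂ} (hz₀ : 0 < z₀.im) {z : ℂ} (hz : z ∈ box z₀) :
    Ssum (ofComplex z) = ∑ g ∈ (finite_box z₀ hz₀).toFinset, rho (mob g z) := by
  have hzpos := im_pos_of_mem_box hz₀ hz
  have hof : ((ofComplex z : ℍ) : ℂ) = z := by
    rw [ofComplex_apply_of_im_pos hzpos]
  unfold Ssum
  rw [finsum_eq_sum_of_support_subset _ (s := (finite_box z₀ hz₀).toFinset)]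
  · refine Finset.sum_congr rfl fun g _ => ?_
    rw [coe_smul_eq_mob, hof]
  · intro g hg
    rw [Set.Finite.coe_toFinset]
    exact ⟨ofComplex z, by rw [hof]; exact hz, hg⟩

/-- **Smoothness of the locally finite sum.** -/
theorem contDiffAt_Ssum {z₀ : ℂ} (hz₀ : 0 < z₀.im) :
    ContDiffAt ℝ ∞ (fun z : ℂ => Ssum (ofComplex z)) z₀ := by
  have h1 : ContDiffAt ℝ ∞ (fun z : ℂ => ∑ g ∈ (finite_box z₀ hz₀).toFinset, rho (mob g z)) z₀ :=
    ContDiffAt.sum fun g _ => rho_contDiff.contDiffAt.comp z₀ (contDiffAt_mob g hz₀)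
  refine h1.congr_of_eventuallyEq ?_
  filter_upwards [(isOpen_box z₀).mem_nhds (mem_box hz₀)] with z hz
  exact Ssum_eq_sum_of_mem_box hz₀ hz

/-- **Smoothness of the partition function.** -/
theorem contDiffAt_wt {z₀ : ℂ} (hz₀ : 0 < z₀.im) :
    ContDiffAt ℝ ∞ (fun z : ℂ => wt (ofComplex z)) z₀ := by
  have h1 : ContDiffAt ℝ ∞ (fun z : ℂ => rho z / Ssum (ofComplex z)) z₀ :=
    rho_contDiff.contDiffAt.div (contDiffAt_Ssum hz₀) (Ssum_pos _).ne'
  refine h1.congr_of_eventuallyEq ?_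
  filter_upwards [(isOpen_box z₀).mem_nhds (mem_box hz₀)] with z hz
  unfold wt
  rw [ofComplex_apply_of_im_pos (im_pos_of_mem_box hz₀ hz)]

theorem contDiffOn_wt : ContDiffOn ℝ ∞ (fun z : ℂ => wt (ofComplex z)) {z : ℂ | 0 < z.im} :=
  fun _ hz => (contDiffAt_wt hz).contDiffWithinAt

/-! ### (F1): high up only the translations contribute -/

/-- **(F1)** High up, only the translations contribute. -/
theorem c_eq_zero_of_rho_smul_ne_zero {g : SL(2,ℤ)} {z : ℍ} (hz : 2 ≤ z.im)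
    (h : rho (↑(g • z) : ℂ) ≠ 0) : g 1 0 = 0 := by
  by_contra hc
  have h1 : (1 : ℝ) ≤ ((g 1 0 : ℤ) : ℝ) ^ 2 := by
    have : (1 : ℤ) ≤ (g 1 0) ^ 2 := by
      have := Int.one_le_abs hc
      calc (1 : ℤ) ≤ |g 1 0| ^ 2 := by nlinarith
        _ = (g 1 0) ^ 2 := sq_abs _
    exact_mod_cast this
  have hN : z.im ^ 2 ≤ Complex.normSq (denom g z) := by
    rw [normSq_denom_eq]
    have : z.im ^ 2 ≤ ((g 1 0 : ℤ) : ℝ) ^ 2 * z.im ^ 2 := by nlinarith [sq_nonneg z.im]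
    nlinarith [sq_nonneg ((g 1 0 : ℝ) * z.re + g 1 1)]
  have h2 : 1 / 2 < (g • z).im := half_lt_im_of_rho_ne_zero (g • z).im_pos h
  rw [ModularGroup.im_smul_eq_div_normSq] at h2
  have hNpos : 0 < Complex.normSq (denom g z) := normSq_denom_pos g z.im_ne_zero
  rw [lt_div_iff₀ hNpos] at h2
  nlinarith [z.im_pos]

/-- `±T^n`. -/
def psi (p : ℤ × Bool) : SL(2,ℤ) := if p.2 then -ModularGroup.T ^ p.1 else ModularGroup.T ^ p.1

theorem psi_smul (p : ℤ × Bool) (z : ℍ) : psi p • z = (p.1 : ℝ) +ᵥ z := by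
  unfold psi
  split_ifs
  · rw [ModularGroup.SL_neg_smul, modular_T_zpow_smul]
  · rw [modular_T_zpow_smul]

theorem psi_apply_00 (p : ℤ × Bool) : psi p 0 0 = if p.2 then -1 else 1 := by
  unfold psi
  split_ifs <;> simp [ModularGroup.coe_T_zpow]

theorem psi_apply_01 (p : ℤ × Bool) : psi p 0 1 = if p.2 then -p.1 else p.1 := by
  unfold psi
  split_ifs <;> simp [ModularGroup.coe_T_zpow]

theorem psi_injective : Function.Injective psi := by
  rintro ⟨n, b⟩ ⟨n', b'⟩ h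
  have h0 := congrArg (fun g : SL(2,ℤ) => g 0 0) h
  have h1 := congrArg (fun g : SL(2,ℤ) => g 0 1) h
  simp only [psi_apply_00, psi_apply_01] at h0 h1
  cases b <;> cases b' <;> simp_all

theorem mem_range_psi {g : SL(2,ℤ)} (hc : g 1 0 = 0) : g ∈ Set.range psi := by
  have had := g.det_coe
  replace had : g 0 0 * g 1 1 = 1 := by rw [det_fin_two, hc] at had; lia
  rcases Int.eq_one_or_neg_one_of_mul_eq_one' had with (⟨ha, hd⟩ | ⟨ha, hd⟩)
  · refine ⟨(g 0 1, false), ?_⟩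
    unfold psi
    simp only [Bool.false_eq_true, if_false]
    ext i j; fin_cases i <;> fin_cases j <;>
      simp [ha, hc, hd, ModularGroup.coe_T_zpow, show (1 : Fin (0 + 2)) = (1 : Fin 2) from rfl]
  · refine ⟨(-(g 0 1), true), ?_⟩
    unfold psi
    simp only [if_true]
    ext i j; fin_cases i <;> fin_cases j <;>
      simp [ha, hc, hd, ModularGroup.coe_T_zpow, show (1 : Fin (0 + 2)) = (1 : Fin 2) from rfl]

/-- **(F1), sum form.** For `Im z ≥ 2` the translates of `wt` alone sum to `1/2`. -/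
theorem finsum_wt_vadd {z : ℍ} (hz : 2 ≤ z.im) : ∑ᶠ n : ℤ, wt ((n : ℝ) +ᵥ z) = 1 / 2 := by
  have h1 : ∑ᶠ g : SL(2,ℤ), wt (g • z) = ∑ᶠ p : ℤ × Bool, wt (psi p • z) := by
    rw [← finsum_mem_univ,
      ← finsum_mem_range (f := fun g : SL(2,ℤ) => wt (g • z)) psi_injective]
    refine finsum_mem_inter_support_eq' _ _ _ fun g hg => ?_
    simp only [Set.mem_univ, true_iff]
    exact mem_range_psi (c_eq_zero_of_rho_smul_ne_zero hz ((wt_ne_zero_iff _).1 hg))
  have hfin : Function.HasFiniteSupport fun p : ℤ × Bool => wt (psi p • z) :=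
    (finite_support_wt_smul z).preimage psi_injective.injOn
  rw [finsum_wt_smul, finsum_curry _ hfin] at h1
  have h2 : ∀ n : ℤ, ∑ᶠ b : Bool, wt (psi (n, b) • z) = 2 * wt ((n : ℝ) +ᵥ z) := fun n => by
    rw [finsum_eq_sum_of_fintype]
    simp only [psi_smul, Fintype.sum_bool]
    ring
  rw [finsum_congr h2, ← mul_finsum] at h1
  · linarith

/-! ### Invariant truncation, translates, continuity -/

/-- On the support of `rho`, the non-translations move the point below height `2`. -/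
theorem im_smul_lt_two_of_rho_ne_zero {z : ℍ} (h : rho (z : ℂ) ≠ 0) {g : SL(2,ℤ)}
    (hc : g 1 0 ≠ 0) : (g • z).im < 2 := by
  have hy : 1 / 2 < z.im := half_lt_im_of_rho_ne_zero z.im_pos h
  have h1 : (1 : ℝ) ≤ ((g 1 0 : ℤ) : ℝ) ^ 2 := by
    have : (1 : ℤ) ≤ (g 1 0) ^ 2 := by
      have := Int.one_le_abs hc
      calc (1 : ℤ) ≤ |g 1 0| ^ 2 := by nlinarith
        _ = (g 1 0) ^ 2 := sq_abs _
    exact_mod_cast this
  have hN : z.im ^ 2 ≤ Complex.normSq (denom g z) := by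
    rw [normSq_denom_eq]
    have : z.im ^ 2 ≤ ((g 1 0 : ℤ) : ℝ) ^ 2 * z.im ^ 2 := by nlinarith [sq_nonneg z.im]
    nlinarith [sq_nonneg ((g 1 0 : ℝ) * z.re + g 1 1)]
  have hNpos : 0 < Complex.normSq (denom g z) := normSq_denom_pos g z.im_ne_zero
  rw [ModularGroup.im_smul_eq_div_normSq, div_lt_iff₀ hNpos]
  nlinarith [z.im_pos]

/-- On the support of `rho`, the invariant truncation `{z | ∀ g, Im (g z) ≤ M}` is the naive one
`{Im z ≤ M}` (for `M ≥ 2`). -/
theorem forall_im_smul_le_iff {z : ℍ} (h : rho (z : ℂ) ≠ 0) {M : ℝ} (hM : 2 ≤ M) :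
    (∀ g : SL(2,ℤ), (g • z).im ≤ M) ↔ z.im ≤ M := by
  constructor
  · intro hg
    simpa using hg 1
  · intro hz g
    by_cases hc : g 1 0 = 0
    · obtain ⟨p, rfl⟩ := mem_range_psi hc
      rw [psi_smul]
      simpa using hz
    · exact (lt_of_lt_of_le (im_smul_lt_two_of_rho_ne_zero h hc) hM).le

/-- local finiteness for `wt`, neighbourhood form. -/
theorem finite_box_wt (z₀ : ℂ) (hz₀ : 0 < z₀.im) :
    {g : SL(2,ℤ) | ∃ z : ℍ, (z : ℂ) ∈ box z₀ ∧ wt (g • z) ≠ 0}.Finite := by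
  refine (finite_box z₀ hz₀).subset ?_
  rintro g ⟨z, hz, hw⟩
  exact ⟨z, hz, (wt_ne_zero_iff _).1 hw⟩

theorem im_mob_pos (g : SL(2,ℤ)) {z : ℂ} (hz : 0 < z.im) : 0 < (mob g z).im := by
  have := (g • (⟨z, hz⟩ : ℍ)).im_pos
  rw [← UpperHalfPlane.coe_im, coe_smul_eq_mob] at this
  exact this

theorem smul_ofComplex (g : SL(2,ℤ)) {z : ℂ} (hz : 0 < z.im) :
    g • ofComplex z = ofComplex (mob g z) := by
  apply UpperHalfPlane.ext
  rw [coe_smul_eq_mob, ofComplex_apply_of_im_pos hz, ofComplex_apply_of_im_pos (im_mob_pos g hz)]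

/-- smoothness of the translates of the partition function. -/
theorem contDiffAt_wt_smul (g : SL(2,ℤ)) {z₀ : ℂ} (hz₀ : 0 < z₀.im) :
    ContDiffAt ℝ ∞ (fun z : ℂ => wt (g • ofComplex z)) z₀ := by
  have h1 : ContDiffAt ℝ ∞ ((fun z : ℂ => wt (ofComplex z)) ∘ mob g) z₀ :=
    (contDiffAt_wt (im_mob_pos g hz₀)).comp z₀ (contDiffAt_mob g hz₀)
  refine h1.congr_of_eventuallyEq ?_
  filter_upwards [(isOpen_box z₀).mem_nhds (mem_box hz₀)] with z hz
  simp only [Function.comp_apply]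
  rw [smul_ofComplex g (im_pos_of_mem_box hz₀ hz)]

theorem continuous_wt : Continuous wt := by
  rw [continuous_iff_continuousAt]
  intro z
  have h1 : ContinuousAt (fun w : ℂ => wt (ofComplex w)) (z : ℂ) :=
    (contDiffAt_wt z.im_pos).continuousAt
  have h2 : wt = (fun w : ℂ => wt (ofComplex w)) ∘ ((↑) : ℍ → ℂ) := by
    ext w; simp
  rw [h2]
  exact h1.comp UpperHalfPlane.continuous_coe.continuousAt

theorem measurable_wt : Measurable wt := continuous_wt.measurable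

end

end Fermat.Agent.M17.SmoothPartition8
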