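import Mathlib
import Fermat.Agent.M17.ModelProd8
import Fermat.Agent.M17.ModelFam8
import Fermat.Agent.M17.MerEval8
import Fermat.Agent.M17.AutDiv4
import Fermat.Agent.M17.SmoothPartition8

/-!
# Programme M17, block (RL), leaves (B) + (C): the point-point family near the cusps

For the point-point family `ppFamily Γ hS` of `ModelProd8` (factors `T ∘ q`, `q ∈ Γ̄`, relevant at
`z` iff `q z ∈ BH`, `BH` compact in `ℍ`):

* `im_smul_le_max` : `Im (γ z) ≤ max (Im z) (1 / Im z)` for `γ ∈ SL(2, ℤ)`;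
* `exists_im_bounds_BH` : `c ≤ Im ≤ C` on `BH`, hence `exists_im_smul_le`: every `SL(2, ℤ)`
  translate of a point of `BH` has imaginary part `≤ Y`;
* (B1) `exists_Qs_eq_empty` : high enough in any cusp coordinate `g⁻¹ τ` no index is relevant;
* `GH_of_Qs_empty` : there `GH F = evM · F`;
* (B2) `tendsto_GH` : if `F` has order `0` at the cusp `g`, `GH F (g⁻¹ τ)` has a nonzero limit;
* (C) `exists_normSq_le` : the points of the standard fundamental domain at which some index is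
  relevant are bounded.

Imported by no statement.
-/

set_option autoImplicit false
set_option linter.unusedSectionVars false

open UpperHalfPlane Filter Topology Set
open scoped Manifold MatrixGroups ContDiff Modular

noncomputable section

namespace Fermat.Agent.M17.RecipCusp9

open Fermat.Agent.X0 Fermat.Agent.X0.SurjPoint Fermat.Agent.ES.KUM Fermat.Agent.M15.DivLogMer1
  Fermat.Agent.M15.DivLogPrim1 Fermat.Agent.M15.DivDlog1 Fermat.Agent.M17.MerEval8
  Fermat.Agent.M17.GammaBar8 Fermat.Agent.M17.ModelFam8 Fermat.Agent.M17.ModelProd8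
  Fermat.Agent.M17.Interfaces7 CongruenceSubgroup

local notation "ι" => algebraMap HolH MerH

/-! ### The height of the translates of a compact set -/

/-- `Im (γ z) ≤ max (Im z) (1 / Im z)` for `γ ∈ SL(2, ℤ)`. -/
theorem im_smul_le_max (γ : SL(2, ℤ)) (z : ℍ) : (γ • z).im ≤ max z.im (1 / z.im) := by
  have h := Fermat.Agent.M17.SmoothPartition8.min_le_normSq_denom γ z
  have hpos : 0 < Complex.normSq (denom γ z) := normSq_denom_pos γ z.im_ne_zero
  rw [ModularGroup.im_smul_eq_div_normSq]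
  rcases le_total 1 (z.im ^ 2) with h1 | h1
  · rw [min_eq_left h1] at h
    exact le_trans (div_le_self z.im_pos.le h) (le_max_left _ _)
  · rw [min_eq_right h1] at h
    refine le_trans ?_ (le_max_right _ _)
    rw [div_le_div_iff₀ hpos z.im_pos]
    nlinarith [z.im_pos]

variable (Γ : Subgroup SL(2, ℤ)) {p1 p2 : ℍ}

/-- `Im` is bounded above and away from `0` on the compact `BH`. -/
theorem exists_im_bounds_BH (hS : Setup p1 p2) :
    ∃ c C : ℝ, 0 < c ∧ ∀ w ∈ BH p1 p2, c ≤ w.im ∧ w.im ≤ C := by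
  have hne : (BH p1 p2).Nonempty := ⟨p1, p1_mem_BH hS⟩
  have hcont : ContinuousOn (fun w : ℍ => w.im) (BH p1 p2) :=
    UpperHalfPlane.continuous_im.continuousOn
  obtain ⟨w₀, -, hw₀⟩ := (isCompact_BH hS).exists_isMinOn hne hcont
  obtain ⟨w₁, -, hw₁⟩ := (isCompact_BH hS).exists_isMaxOn hne hcont
  exact ⟨w₀.im, w₁.im, w₀.im_pos, fun w hw => ⟨hw₀ hw, hw₁ hw⟩⟩

/-- every `SL(2, ℤ)`-translate of a point of `BH` has height `≤ Y`. -/
theorem exists_im_smul_le (hS : Setup p1 p2) :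
    ∃ Y : ℝ, 0 < Y ∧ ∀ w ∈ BH p1 p2, ∀ γ : SL(2, ℤ), (γ • w).im ≤ Y := by
  obtain ⟨c, C, hc, hcC⟩ := exists_im_bounds_BH hS
  refine ⟨max C (1 / c), lt_max_of_lt_right (one_div_pos.2 hc), fun w hw γ => ?_⟩
  obtain ⟨h1, h2⟩ := hcC w hw
  refine le_trans (im_smul_le_max γ w) (max_le_max h2 ?_)
  exact one_div_le_one_div_of_le hc h1

/-- the relevant indices at `z` give a point of `BH` in the `SL(2, ℤ)`-orbit of `z`: every
translate of `z` is a translate of a point of `BH`. -/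
theorem exists_mem_BH_of_Qs_ne_empty (hS : Setup p1 p2) {z : ℍ}
    (h : (ppFamily Γ hS).Qs z ≠ ∅) (g : SL(2, ℤ)) :
    ∃ w ∈ BH p1 p2, ∃ γ : SL(2, ℤ), g • z = γ • w := by
  obtain ⟨q, hq⟩ := Finset.nonempty_iff_ne_empty.2 h
  rw [mem_ppFamily_Qs] at hq
  refine ⟨rep q • z, hq, g * (rep q)⁻¹, ?_⟩
  rw [← mul_smul, inv_mul_cancel_right]

/-! ### (B1) no relevant index high in a cusp -/

/-- **(B1)** high enough in the cusp coordinate `τ = g z` no index is relevant. -/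
theorem exists_Qs_eq_empty (hS : Setup p1 p2) (g : SL(2, ℤ)) :
    ∃ Y₀ : ℝ, ∀ τ : ℍ, Y₀ < τ.im → (ppFamily Γ hS).Qs (g⁻¹ • τ) = ∅ := by
  obtain ⟨Y, -, hY⟩ := exists_im_smul_le hS
  refine ⟨Y, fun τ hτ => ?_⟩
  by_contra hne
  obtain ⟨w, hw, γ, hγ⟩ := exists_mem_BH_of_Qs_ne_empty Γ hS hne g
  rw [smul_inv_smul] at hγ
  have := hY w hw γ
  rw [← hγ] at this
  exact absurd hτ (not_lt.2 this)

/-! ### (B2) the limit of `GH F` at a cusp where `F` has order `0` -/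

/-- where no index is relevant, `GH F` is the value of `F`. -/
theorem GH_of_Qs_empty {Q : Type} (fam : Family Γ Q) (F : MerH) {z : ℍ} (h : fam.Qs z = ∅) :
    fam.GH F z = evM z F := by
  unfold Family.GH Family.Gpart Family.X
  rw [h, Finset.prod_empty, Finset.sum_empty, inv_one, mul_one, Complex.exp_zero, mul_one]

/-- **(B2)** if `F` has order `0` at the cusp of `g`, `GH F (g⁻¹ τ)` has a nonzero limit as
`Im τ → ∞`. -/
theorem tendsto_GH (N : ℕ) [NeZero N] (hS : Setup p1 p2) {F : MerH} (g : SL(2, ℤ))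
    (hg : CuspOrdIs N F g 0) :
    ∃ ℓ : ℂ, ℓ ≠ 0 ∧
      Tendsto (fun τ : ℍ => (ppFamily (Gamma0 N) hS).GH F (g⁻¹ • τ)) atImInfty (𝓝 ℓ) := by
  obtain ⟨a, b, ℓ, hb, hℓ, hF, hlim⟩ := hg
  refine ⟨ℓ, hℓ, ?_⟩
  have hlim' : Tendsto (fun τ : ℍ => (a : ℍ → ℂ) (g⁻¹ • τ) / (b : ℍ → ℂ) (g⁻¹ • τ))
      atImInfty (𝓝 ℓ) := by
    refine hlim.congr fun τ => ?_
    simp
  obtain ⟨Y₀, hY₀⟩ := exists_Qs_eq_empty (Gamma0 N) hS g
  have hιb : ι b ≠ 0 := iota_ne_zero hb
  have hFab : F = ι a / ι b := by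
    rw [eq_div_iff hιb]
    exact hF
  have hev1 : ∀ᶠ τ : ℍ in atImInfty, Y₀ < τ.im := by
    rw [Filter.Eventually, atImInfty_mem]
    exact ⟨Y₀ + 1, fun τ hτ => by show Y₀ < τ.im; linarith⟩
  have hev2 : ∀ᶠ τ : ℍ in atImInfty,
      (a : ℍ → ℂ) (g⁻¹ • τ) / (b : ℍ → ℂ) (g⁻¹ • τ) ≠ 0 :=
    hlim'.eventually_ne hℓ
  refine hlim'.congr' ?_
  filter_upwards [hev1, hev2] with τ h1 h2
  have hbz : (b : ℍ → ℂ) (g⁻¹ • τ) ≠ 0 := fun h0 => h2 (by rw [h0, div_zero])
  rw [GH_of_Qs_empty _ _ _ (hY₀ τ h1), hFab, evM_div a hbz]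

/-! ### (C) the relevant part of the standard fundamental domain is bounded -/

/-- **(C)** the points of the fundamental domain `𝒟` in the orbit of a point at which some index
is relevant are uniformly bounded. -/
theorem exists_normSq_le (hS : Setup p1 p2) :
    ∃ M₀ : ℝ, 1 ≤ M₀ ∧ ∀ z : ℍ, (ppFamily Γ hS).Qs z ≠ ∅ → ∀ g : SL(2, ℤ),
      g • z ∈ (𝒟 : Set ℍ) → Complex.normSq ((g • z : ℍ) : ℂ) ≤ M₀ := by
  obtain ⟨Y, hYpos, hY⟩ := exists_im_smul_le hS
  refine ⟨1 + Y ^ 2, by nlinarith, fun z hz g hg => ?_⟩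
  obtain ⟨w, hw, γ, hγ⟩ := exists_mem_BH_of_Qs_ne_empty Γ hS hz g
  have him : (g • z).im ≤ Y := by
    rw [hγ]
    exact hY w hw γ
  have hre : |(g • z).re| ≤ 1 / 2 := hg.2
  have himpos : 0 < (g • z).im := (g • z).im_pos
  rw [Complex.normSq_apply]
  have h1 : ((g • z : ℍ) : ℂ).re = (g • z).re := rfl
  have h2 : ((g • z : ℍ) : ℂ).im = (g • z).im := rfl
  rw [h1, h2]
  have h3 : (g • z).re * (g • z).re ≤ 1 / 4 := by
    have := abs_le.1 hre
    nlinarith
  nlinarith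

end Fermat.Agent.M17.RecipCusp9
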