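import Fermat.Agent.M17.GlobalLog8
import Fermat.Agent.M17.TopArcGen3
import Fermat.Agent.M17.CuspLim3
import Fermat.Agent.M17.PetInt3
import Fermat.Agent.ES.KUM.ParConj14

/-!
# Programme M17, block (RL): the generic reciprocity assembly for a family

For a `ModelFam8.Family` on `Γ₀(N)`, an adapted quasi-invariant `F` and a smooth logarithm `b̃`
of `G = F / ∏ T_q`, under the cusp hypotheses `CuspHyp` (the density `dens = 2∂̄ b̃` vanishes high
in every cusp chart and `G` has a nonzero limit there): the additive character `ψ̃` is parabolic and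
`EC (per f) ψ̃ = -4 · Ipart (wΓ) (-i y² f · dens)`.

Imported by no statement.
-/

set_option autoImplicit false
set_option linter.unusedSectionVars false

open UpperHalfPlane hiding I
open Complex CongruenceSubgroup Filter Set MeasureTheory
open scoped MatrixGroups ModularForm Topology ContDiff Modular

noncomputable section

namespace Fermat.Agent.M17.RecipFam8

open Fermat.Agent.X0 Fermat.Agent.X0.SurjPoint Fermat.Agent.ES.KUM Fermat.Agent.M15.DivLogMer1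
  Fermat.Agent.M15.DivLogPrim1 Fermat.Agent.M17.MerEval8 Fermat.Agent.M17.ModelFam8 Fermat.Agent.M17.GlobalLog8
  Fermat.Agent.M17.CauchyPompeiu5 Fermat.Agent.M17.DegMoebius5 Fermat.Agent.M17.DegMeasure5
open Fermat.Agent.M17.DR3 Fermat.Agent.M17.TopArcGen3 Fermat.Agent.M17.TileGamma3
  Fermat.Agent.M17.TileHyp3
  Fermat.Agent.M17.RiemannSymmetric2 Fermat.Agent.M17.PrimSmooth3
open Fermat.Agent.S21.Primitive Fermat.Agent.ES.I2.DegAdj3
open ModularCurve ModularCurve.Period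

local notation "T" => (ModularGroup.T : SL(2, ℤ))

/-! ### Cauchy–Riemann -/

/-- a real-differentiable function with `2∂̄ = 0` at a point is complex differentiable there. -/
theorem differentiableAt_of_dbar2_eq_zero {u : ℂ → ℂ} {z : ℂ} (hu : DifferentiableAt ℝ u z)
    (h0 : dbar2 u z = 0) : DifferentiableAt ℂ u z := by
  rw [differentiableAt_complex_iff_differentiableAt_real]
  refine ⟨hu, ?_⟩
  unfold dbar2 at h0
  rw [smul_eq_mul]
  have : fderiv ℝ u z 1 = -(Complex.I * fderiv ℝ u z Complex.I) := eq_neg_of_add_eq_zero_left h0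
  rw [this, ← neg_mul_eq_mul_neg, ← mul_assoc, Complex.I_mul_I]
  ring

/-! ### The density and the cusp hypotheses -/

variable {N : ℕ} [NeZero N] {Q : Type} (fam : Family (Gamma0 N) Q) {F : MerH}

/-- the density `2∂̄ b̃`, computed from the family. -/
def dens (z : ℍ) : ℂ := ∑ q ∈ fam.Qs z, dbar2 (fun w => fam.l q (ofComplex w)) (z : ℂ)

theorem dbar2_eq_dens {fam : Family (Gamma0 N) Q} {b : ℂ → ℂ} (hb : IsLog fam F b)
    (hF : fam.Adapted F) (z : ℍ) : dbar2 b (z : ℂ) = dens fam z := hb.dbar2_eq hF z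

/-- the behaviour at the cusps. -/
structure CuspHyp (F : MerH) : Prop where
  hol : ∀ g : SL(2, ℤ), ∃ Y₀ : ℝ, ∀ τ : ℍ, Y₀ < τ.im → dens fam (g⁻¹ • τ) = 0
  lim : ∀ g : SL(2, ℤ), ∃ ℓ : ℂ, ℓ ≠ 0 ∧
    Tendsto (fun τ : ℍ => fam.GH F (g⁻¹ • τ)) atImInfty (𝓝 ℓ)

/-- when no index is relevant, `G = F`. -/
theorem GH_of_Qs_empty {z : ℍ} (h : fam.Qs z = ∅) : fam.GH F z = evM z F := by
  unfold Family.GH Family.Gpart Family.X
  rw [h]
  simp

variable {fam}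

/-- `b̃` as a function on `ℍ`. -/
def bH (b : ℂ → ℂ) (z : ℍ) : ℂ := b (z : ℂ)

theorem al_bH (b : ℂ → ℂ) (g : SL(2, ℤ)) : al (bH b) g = fun w => b (mob g⁻¹ w) := rfl


/-! ### Holomorphy high in the cusp charts, limits at the cusps -/

theorem exists_differentiableOn_al_bH {b : ℂ → ℂ} (hb : IsLog fam F b) (hF : fam.Adapted F)
    (hc : CuspHyp fam F) (g : SL(2, ℤ)) :
    ∃ Y₀ : ℝ, DifferentiableOn ℂ (al (bH b) g) {w : ℂ | Y₀ < w.im} := by
  obtain ⟨Y₀, hY⟩ := hc.hol g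
  refine ⟨max Y₀ 0, fun w hw => ?_⟩
  have hw0 : 0 < w.im := lt_of_le_of_lt (le_max_right _ _) hw
  have hwY : Y₀ < w.im := lt_of_le_of_lt (le_max_left _ _) hw
  set τ : ℍ := ⟨w, hw0⟩ with hτ
  have h0 : dens fam (g⁻¹ • τ) = 0 := hY τ hwY
  have hd : DifferentiableAt ℂ b (((g⁻¹ • τ : ℍ)) : ℂ) :=
    differentiableAt_of_dbar2_eq_zero (hb.differentiableAt _)
      (by rw [dbar2_eq_dens hb hF]; exact h0)
  have hm : DifferentiableAt ℂ (mob g⁻¹) w := (hasDerivAt_mob g⁻¹ τ).differentiableAt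
  have e : mob g⁻¹ w = (((g⁻¹ • τ : ℍ)) : ℂ) := mob_coe g⁻¹ τ
  rw [al_bH]
  have hd' : DifferentiableAt ℂ b (mob g⁻¹ w) := by rw [e]; exact hd
  exact (hd'.comp w hm).differentiableWithinAt

theorem cusp_facts {b : ℂ → ℂ} (hb : IsLog fam F b) (hF : fam.Adapted F)
    (hc : CuspHyp fam F) (g : SL(2, ℤ)) :
    SmallDerivAtCusp (bH b) g ∧
      ∃ c : ℂ, Tendsto (fun τ : ℍ => bH b (g⁻¹ • τ)) atImInfty (𝓝 c) := by
  obtain ⟨Y₀, hhol⟩ := exists_differentiableOn_al_bH hb hF hc g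
  obtain ⟨ℓ, hℓ, hlim⟩ := hc.lim g
  refine Fermat.Agent.M17.CuspLim3.smallDeriv_of_exp_tendsto hhol hℓ ?_
  have : (fun τ : ℍ => Complex.exp (bH b (g⁻¹ • τ))) = fun τ : ℍ => fam.GH F (g⁻¹ • τ) := by
    funext τ
    exact hb.exp_eq _
  rw [this]
  exact hlim

/-! ### The character is parabolic -/

theorem tendsto_T_zpow_smul (m : ℤ) : Tendsto (fun τ : ℍ => T ^ m • τ) atImInfty atImInfty := by
  unfold atImInfty
  rw [tendsto_comap_iff]
  have : (UpperHalfPlane.im ∘ fun τ : ℍ => T ^ m • τ) = UpperHalfPlane.im := by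
    funext τ
    exact ModularGroup.im_T_zpow_smul τ m
  rw [this]
  exact tendsto_comap

theorem psiFun_eq_zero_of_trace {b : ℂ → ℂ} (hb : IsLog fam F b) (hF : fam.Adapted F)
    (hchi : ∀ δ : Gamma0 N, ∃ c : ℂ, slMer (δ : SL(2, ℤ)) F = cst c * F)
    (hc : CuspHyp fam F) (γ : Gamma0 N)
    (htr : ((γ : SL(2, ℤ)) : Matrix (Fin 2) (Fin 2) ℤ).trace ^ 2 = 4) :
    psiFun b (γ : SL(2, ℤ)) = 0 := by
  obtain ⟨c, hcγ⟩ := hchi γ
  have h1 := (hb.smul_eq hF hcγ).1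
  have htr' : (((γ : SL(2, ℤ)) 0 0 : ℤ) + (γ : SL(2, ℤ)) 1 1) ^ 2 = 4 := by
    rw [Matrix.trace_fin_two] at htr
    exact htr
  obtain ⟨σ, m, hσ⟩ := ParConj14.exists_conj_of_trace_sq (γ : SL(2, ℤ)) htr'
  have hact : ∀ τ : ℍ, (γ : SL(2, ℤ)) • (σ • τ) = σ • (T ^ m • τ) := by
    intro τ
    rcases hσ with h | h
    · rw [h, ← mul_smul, ← mul_smul, inv_mul_cancel_right]
    · rw [h, ModularGroup.SL_neg_smul, ← mul_smul, ← mul_smul, inv_mul_cancel_right]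
  obtain ⟨-, l, hl⟩ := cusp_facts hb hF hc σ⁻¹
  rw [inv_inv] at hl
  have hl2 : Tendsto (fun τ : ℍ => bH b (σ • (T ^ m • τ))) atImInfty (𝓝 l) :=
    hl.comp (tendsto_T_zpow_smul m)
  have hconst : ∀ τ : ℍ, bH b (σ • (T ^ m • τ)) - bH b (σ • τ) = psiFun b (γ : SL(2, ℤ)) := by
    intro τ
    have := h1 (σ • τ)
    rw [hact τ] at this
    unfold bH
    rw [this]
    ring
  have hlim : Tendsto (fun _ : ℍ => psiFun b (γ : SL(2, ℤ))) atImInfty (𝓝 (l - l)) := by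
    refine (hl2.sub hl).congr ?_
    intro τ
    exact hconst τ
  rw [sub_self] at hlim
  exact tendsto_nhds_unique tendsto_const_nhds hlim

/-- **`ψ̃` as a parabolic hom.** -/
def psiPar {b : ℂ → ℂ} (hb : IsLog fam F b) (hF : fam.Adapted F)
    (hchi : ∀ δ : Gamma0 N, ∃ c : ℂ, slMer (δ : SL(2, ℤ)) F = cst c * F)
    (hc : CuspHyp fam F) : ↥(parabolicHoms ℂ (Gamma0 N) ℂ) :=
  ⟨psiHom hb hF hchi, fun γ htr => psiFun_eq_zero_of_trace hb hF hchi hc γ htr⟩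

theorem psiPar_apply {b : ℂ → ℂ} (hb : IsLog fam F b) (hF : fam.Adapted F)
    (hchi : ∀ δ : Gamma0 N, ∃ c : ℂ, slMer (δ : SL(2, ℤ)) F = cst c * F)
    (hc : CuspHyp fam F) (γ : Gamma0 N) :
    ((psiPar hb hF hchi hc : ↥(parabolicHoms ℂ (Gamma0 N) ℂ)) : Additive (Gamma0 N) →+ ℂ)
      (Additive.ofMul γ) = psiFun b (γ : SL(2, ℤ)) := rfl

theorem exp_psiPar {b : ℂ → ℂ} (hb : IsLog fam F b) (hF : fam.Adapted F)
    (hchi : ∀ δ : Gamma0 N, ∃ c : ℂ, slMer (δ : SL(2, ℤ)) F = cst c * F)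
    (hc : CuspHyp fam F) {γ : Gamma0 N} {c : ℂ} (hcγ : slMer (γ : SL(2, ℤ)) F = cst c * F) :
    Complex.exp (((psiPar hb hF hchi hc : ↥(parabolicHoms ℂ (Gamma0 N) ℂ)) :
      Additive (Gamma0 N) →+ ℂ) (Additive.ofMul γ)) = c := by
  rw [psiPar_apply]
  exact (hb.smul_eq hF hcγ).2


/-! ### Regularity, periods, density -/

theorem contDiffOn_mob_real (g : SL(2, ℤ)) (n : WithTop ℕ∞) : ContDiffOn ℝ n (mob g) UH :=
  ((differentiableOn_mob g).contDiffOn isOpen_UH).restrict_scalars ℝ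

theorem contDiffOn_al_bH {b : ℂ → ℂ} (hb : IsLog fam F b) (g : SL(2, ℤ)) :
    ContDiffOn ℝ 2 (al (bH b) g) UH := by
  rw [al_bH]
  exact (hb.smooth.of_le (by decide)).comp (contDiffOn_mob_real g⁻¹ 2) (fun w _ => mob_mem_UH _ w)

theorem smooth_prim_bH {b : ℂ → ℂ} (hb : IsLog fam F b) (f : CuspForm (Gamma0 N) 2) :
    Smooth (prim f) (bH b) :=
  ⟨fun g => contDiffOn_al f g 1, fun g => contDiffOn_al_bH hb g⟩

theorem eventuallyEq_bH (b : ℂ → ℂ) (z : ℍ) :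
    (fun w : ℂ => bH b (ofComplex w)) =ᶠ[𝓝 (z : ℂ)] b := by
  filter_upwards [UH_mem_nhds z] with w hw
  unfold bH
  rw [ofComplex_apply_of_im_pos hw]

theorem jacH_prim_bH {b : ℂ → ℂ} (hb : IsLog fam F b) (hF : fam.Adapted F)
    (f : CuspForm (Gamma0 N) 2) (z : ℍ) :
    jacH (prim f) (bH b) z = -I * ((z.im : ℂ)) ^ 2 * f z * dens fam z := by
  rw [jacH_prim, Fermat.Agent.M17.LocalModel8.dbar2_congr (eventuallyEq_bH b z),
    dbar2_eq_dens hb hF]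

/-- **the generic reciprocity formula.** -/
theorem EC_eq_ipart {b : ℂ → ℂ} (hb : IsLog fam F b) (hF : fam.Adapted F)
    (hchi : ∀ δ : Gamma0 N, ∃ c : ℂ, slMer (δ : SL(2, ℤ)) F = cst c * F)
    (hc : CuspHyp fam F) {M₀ : ℝ} (hM₀ : 1 ≤ M₀)
    (hsupp : ∀ z : ℍ, dens fam z ≠ 0 → ∀ g : SL(2, ℤ), g • z ∈ (𝒟 : Set ℍ) →
      normSq ((g • z : ℍ) : ℂ) ≤ M₀)
    (f : CuspForm (Gamma0 N) 2) :
    EC (Gamma0 N) (perC N f) (psiPar hb hF hchi hc) =
      -4 * Fermat.Agent.ES.PET.Unfold12.Ipart volume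
        (Fermat.Agent.ES.PET.PartitionGamma5.wΓ (Gamma0 N))
        (fun z : ℍ => -I * ((z.im : ℂ)) ^ 2 * f z * dens fam z) := by
  have hft : Fintype (SL(2, ℤ) ⧸ Gamma0 N) := Fintype.ofFinite _
  have ha : ∀ (γ : Gamma0 N) (z : ℍ), prim f ((γ : SL(2, ℤ)) • z) =
      prim f z + fn ((perC N f : ↥(parabolicHoms ℂ (Gamma0 N) ℂ)) : Additive (Gamma0 N) →+ ℂ) γ := by
    intro γ z
    have := periodMap_apply_prim f γ z
    show _ = _ + periodMap N f (Additive.ofMul γ)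
    rw [this]
    ring
  have hb' : ∀ (γ : Gamma0 N) (z : ℍ), bH b ((γ : SL(2, ℤ)) • z) =
      bH b z + fn ((psiPar hb hF hchi hc : ↥(parabolicHoms ℂ (Gamma0 N) ℂ)) :
        Additive (Gamma0 N) →+ ℂ) γ := by
    intro γ z
    obtain ⟨c, hcγ⟩ := hchi γ
    exact (hb.smul_eq hF hcγ).1 z
  have hJ : jacH (prim f) (bH b) = fun z : ℍ => -I * ((z.im : ℂ)) ^ 2 * f z * dens fam z :=
    funext (jacH_prim_bH hb hF f)
  have h := EC_eq_ipart_limit (Gamma0 N) (perC N f) (psiPar hb hF hchi hc) ha hb'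
    (smooth_prim_bH hb f) hM₀
    (fun z hz g hg => hsupp z (fun h0 => hz (by rw [hJ]; simp [h0])) g hg)
    (fun g => boundedAtCusp_prim f g) (fun g => (cusp_facts hb hF hc g).1)
  rw [h, hJ]


/-- **consumer form**: the parabolic logarithm `ψ̃` of the character of an adapted
quasi-invariant `F`, with the reciprocity formula for all cusp forms. -/
theorem exists_psi {χ : ↥(Gamma0 N) → ℂ} (hF : fam.Adapted F)
    (hχ : ∀ γ : Gamma0 N, slMer (γ : SL(2, ℤ)) F = cst (χ γ) * F)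
    (hc : CuspHyp fam F) {M₀ : ℝ} (hM₀ : 1 ≤ M₀)
    (hsupp : ∀ z : ℍ, dens fam z ≠ 0 → ∀ g : SL(2, ℤ), g • z ∈ (𝒟 : Set ℍ) →
      normSq ((g • z : ℍ) : ℂ) ≤ M₀) :
    ∃ ψ : ↥(parabolicHoms ℂ (Gamma0 N) ℂ),
      (∀ γ : Gamma0 N,
        Complex.exp ((ψ : Additive (Gamma0 N) →+ ℂ) (Additive.ofMul γ)) = χ γ) ∧
      ∀ f : CuspForm (Gamma0 N) 2, EC (Gamma0 N) (perC N f) ψ =
        -4 * Fermat.Agent.ES.PET.Unfold12.Ipart volume
          (Fermat.Agent.ES.PET.PartitionGamma5.wΓ (Gamma0 N))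
          (fun z : ℍ => -I * ((z.im : ℂ)) ^ 2 * f z * dens fam z) := by
  obtain ⟨b, hb⟩ := exists_isLog hF
  have hchi : ∀ δ : Gamma0 N, ∃ c : ℂ, slMer (δ : SL(2, ℤ)) F = cst c * F :=
    fun δ => ⟨χ δ, hχ δ⟩
  exact ⟨psiPar hb hF hchi hc, fun γ => exp_psiPar hb hF hchi hc (hχ γ),
    fun f => EC_eq_ipart hb hF hchi hc hM₀ hsupp f⟩

end Fermat.Agent.M17.RecipFam8
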