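/-
M17 (helper1): **(PC-C) of (RL-pc)**: the density of helper4's cusp family
`CuspFam4.cuspFamily N δ q₂ hS` (a `ModelFam8.Family (Gamma0 N)`), i.e.
`RecipFam8.dens (cuspFamily ..) z = ∑_{q ∈ Qs z} 2∂̄(l q)`:

* `dbar2_l_mkQ` : `2∂̄ (l (mkQ γ)) z = 2∂̄ℓ_c (δγz) · conj (1 / denom (δγ) z ^ 2)`;
* `dens_eq_of_one_lt_im` : the value of the density in the chart `δγ` above height `1`
  (= the hypothesis `H1` of `RecipCuspInt5.ipart_cusp` with `s = 1`);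
* `dens_eq_zero_of_forall_le` : the density vanishes off the orbit of the horoball (`H2`);
* `exists_im_of_dens_ne_zero` : where the density is nonzero, some `δγz` has height in `(1, C]`;
* **`exists_normSq_le`** : the support hypothesis `hsupp` of `RecipFam8.exists_psi`.
-/
import Mathlib
import Fermat.Agent.M17.CuspFam4
import Fermat.Agent.M17.RecipFam8
import Fermat.Agent.M17.RLGen7

set_option autoImplicit false
set_option linter.unusedSectionVars false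

open UpperHalfPlane hiding I
open Complex CongruenceSubgroup Filter Set MeasureTheory
open scoped MatrixGroups ModularForm Topology ComplexConjugate Modular Real

namespace Fermat.Agent.M17.RecipCuspSupp1

open Fermat.Agent.M17.CuspFam4 Fermat.Agent.M17.ModelFam8 Fermat.Agent.M17.RecipFam8
  Fermat.Agent.M17.LocalModel8 Fermat.Agent.M17.CuspModel4 Fermat.Agent.M17.CuspNbhd4
  Fermat.Agent.M17.DegMoebius5 Fermat.Agent.M17.CauchyPompeiu5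
open Fermat.Agent.X0 Fermat.Agent.X0.SurjPoint Fermat.Agent.ES.KUM Fermat.Agent.M15.DivLogMer1

variable {N : ℕ} [NeZero N] {δ : SL(2, ℤ)} {q₂ : ℂ}

/-- `2∂̄` of `l (mkQ γ)`: the chain rule in the chart `δγ`. -/
theorem dbar2_l_mkQ (hS : Setup N δ q₂) (γ : ↥(Gamma0 N)) (z : ℍ) :
    dbar2 (fun w => (cuspFamily N δ q₂ hS).l (mkQ N δ γ) (ofComplex w)) (z : ℂ) =
      dbar2 (ellc (hw N δ) q₂) ↑((δ * (γ : SL(2, ℤ))) • z) *
        conj (1 / denom ((δ * (γ : SL(2, ℤ)) : SL(2, ℤ)) : GL (Fin 2) ℝ) z ^ 2) := by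
  have h1 : (fun w => (cuspFamily N δ q₂ hS).l (mkQ N δ γ) (ofComplex w)) =
      (ellc (hw N δ) q₂) ∘ (mob (δ * (γ : SL(2, ℤ)))) := rfl
  rw [h1, dbar2_comp ((ellc_contDiff (h := hw N δ) (q₂ := q₂)).differentiable (by simp) _)
    (hasDerivAt_mob (δ * (γ : SL(2, ℤ))) z), mob_coe]

/-- `2∂̄ℓ_c` vanishes where the parameter is irrelevant. -/
theorem dbar2_ellc_eq_zero_of_lt {h : ℝ} {τ : ℂ} (hτ : 16 < sfun 0 q₂ (qh h τ)) :
    dbar2 (ellc h q₂) τ = 0 := by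
  rw [dbar2_ellc, dbar2_ell]
  have : qh h τ ∉ annulus 0 q₂ := fun hh => absurd hh.2 (not_le.mpr hτ)
  rw [dbar2_phi_eq_zero_of_notMem this]
  ring

theorem mkQ_apply (γ : ↥(Gamma0 N)) (z : ℍ) :
    (((mkQ N δ γ).1 : HolH) : ℍ → ℂ) z = qh (hw N δ) ↑((δ * (γ : SL(2, ℤ))) • z) := rfl

theorem mkQ_mem_Qs (hS : Setup N δ q₂) (γ : ↥(Gamma0 N)) (z : ℍ) :
    mkQ N δ γ ∈ (cuspFamily N δ q₂ hS).Qs z ↔
      sfun 0 q₂ (qh (hw N δ) ↑((δ * (γ : SL(2, ℤ))) • z)) ≤ 16 :=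
  mem_cuspFamily_Qs hS

/-- the density where `mkQ γ` is relevant. -/
theorem dens_of_mem (hS : Setup N δ q₂) {γ : ↥(Gamma0 N)} {z : ℍ}
    (h : mkQ N δ γ ∈ (cuspFamily N δ q₂ hS).Qs z) :
    dens (cuspFamily N δ q₂ hS) z =
      dbar2 (ellc (hw N δ) q₂) ↑((δ * (γ : SL(2, ℤ))) • z) *
        conj (1 / denom ((δ * (γ : SL(2, ℤ)) : SL(2, ℤ)) : GL (Fin 2) ℝ) z ^ 2) := by
  unfold dens
  rw [Qs_subset_singleton hS h, Finset.sum_singleton, dbar2_l_mkQ]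

theorem dens_of_Qs_empty (hS : Setup N δ q₂) {z : ℍ} (h : (cuspFamily N δ q₂ hS).Qs z = ∅) :
    dens (cuspFamily N δ q₂ hS) z = 0 := by
  unfold dens
  rw [h, Finset.sum_empty]

/-- **(H1)** the density in the chart `δγ`, above height `1`. -/
theorem dens_eq_of_one_lt_im (hS : Setup N δ q₂) (γ : ↥(Gamma0 N)) (z : ℍ)
    (h : 1 < ((δ * (γ : SL(2, ℤ))) • z).im) :
    dens (cuspFamily N δ q₂ hS) z =
      dbar2 (ellc (hw N δ) q₂) ↑((δ * (γ : SL(2, ℤ))) • z) *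
        conj (1 / denom ((δ * (γ : SL(2, ℤ)) : SL(2, ℤ)) : GL (Fin 2) ℝ) z ^ 2) := by
  by_cases hmem : mkQ N δ γ ∈ (cuspFamily N δ q₂ hS).Qs z
  · exact dens_of_mem hS hmem
  · have hmem' := hmem
    rw [mkQ_mem_Qs, not_le] at hmem'
    rw [dbar2_ellc_eq_zero_of_lt hmem', zero_mul]
    apply dens_of_Qs_empty
    rw [Finset.eq_empty_iff_forall_notMem]
    intro q hq
    obtain ⟨γ', rfl⟩ := q.exists_eq
    have h' := one_lt_im_of_mem_Brel hS ((Family.mem_Qs _).1 hq)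
    rw [mkQ_eq_of_one_lt_im h h'] at hq
    exact hmem hq

/-- (H1) in the literal shape of `RecipCuspInt5.ipart_cusp` (`s = 1`, any `Y ≥ 1`). -/
theorem dens_H1 (hS : Setup N δ q₂) {Y : ℝ} (hY : 1 ≤ Y) (z : ℍ) (γ : ↥(Gamma0 N))
    (h : Y < (δ • (γ : SL(2, ℤ)) • z).im) :
    dens (cuspFamily N δ q₂ hS) z =
      1 * dbar2 (ellc (hw N δ) q₂) ↑(δ • (γ : SL(2, ℤ)) • z) *
        conj (1 / denom ((δ * (γ : SL(2, ℤ)) : SL(2, ℤ)) : GL (Fin 2) ℝ) z ^ 2) := by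
  rw [one_mul, ← mul_smul]
  apply dens_eq_of_one_lt_im hS γ z
  rw [mul_smul]
  linarith

/-- a relevant parameter lies above any height `Y` with `6 |q₂| < exp (-2πY/h)`. -/
theorem lt_im_of_mem_Qs (hS : Setup N δ q₂) {Y : ℝ}
    (hsmall : 6 * ‖q₂‖ < Real.exp (-(2 * π * Y / hw N δ))) {γ : ↥(Gamma0 N)} {z : ℍ}
    (h : mkQ N δ γ ∈ (cuspFamily N δ q₂ hS).Qs z) : Y < ((δ * (γ : SL(2, ℤ))) • z).im := by
  have h1 : ‖((uH N δ (γ : SL(2, ℤ)) : HolH) : ℍ → ℂ) z‖ ≤ 5 * ‖q₂‖ :=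
    norm_le_of_sfun_le hS.ne ((Family.mem_Qs _).1 h)
  have h2 : ‖((uH N δ (γ : SL(2, ℤ)) : HolH) : ℍ → ℂ) z‖ < Real.exp (-(2 * π * Y / hw N δ)) := by
    have h0 : 0 ≤ ‖q₂‖ := norm_nonneg _
    linarith
  rw [norm_uH, Real.exp_lt_exp, neg_lt_neg_iff] at h2
  have hh := hw_pos N δ
  rw [div_lt_div_iff_of_pos_right hh] at h2
  have hpi := Real.pi_pos
  nlinarith

/-- **(H2)** the density vanishes at points none of whose translates is high. -/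
theorem dens_H2 (hS : Setup N δ q₂) {Y : ℝ}
    (hsmall : 6 * ‖q₂‖ < Real.exp (-(2 * π * Y / hw N δ))) (z : ℍ)
    (h : ∀ γ : ↥(Gamma0 N), (δ • (γ : SL(2, ℤ)) • z).im ≤ Y) :
    dens (cuspFamily N δ q₂ hS) z = 0 := by
  apply dens_of_Qs_empty
  rw [Finset.eq_empty_iff_forall_notMem]
  intro q hq
  obtain ⟨γ, rfl⟩ := q.exists_eq
  have h1 := lt_im_of_mem_Qs hS hsmall hq
  rw [mul_smul] at h1
  exact absurd (h γ) (not_le.mpr h1)

/-- where the density is nonzero, some translate `δγz` has height in `(1, C]`. -/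
theorem exists_im_of_dens_ne_zero (hS : Setup N δ q₂) {z : ℍ}
    (h : dens (cuspFamily N δ q₂ hS) z ≠ 0) :
    ∃ γ : ↥(Gamma0 N), 1 < ((δ * (γ : SL(2, ℤ))) • z).im ∧
      ((δ * (γ : SL(2, ℤ))) • z).im ≤ -(hw N δ / (2 * π)) * Real.log ‖q₂‖ := by
  have hne : (cuspFamily N δ q₂ hS).Qs z ≠ ∅ := fun h0 => h (dens_of_Qs_empty hS h0)
  obtain ⟨q, hq⟩ := Finset.nonempty_iff_ne_empty.2 hne
  obtain ⟨γ, rfl⟩ := q.exists_eq
  refine ⟨γ, one_lt_im_of_mem_Brel hS ((Family.mem_Qs _).1 hq), ?_⟩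
  rw [dens_of_mem hS hq] at h
  have h1 : dbar2 (ellc (hw N δ) q₂) ↑((δ * (γ : SL(2, ℤ))) • z) ≠ 0 := left_ne_zero_of_mul h
  have h2 : ‖q₂‖ ≤ ‖qh (hw N δ) ↑((δ * (γ : SL(2, ℤ))) • z)‖ := by
    by_contra hc
    rw [not_le] at hc
    exact h1 (dbar2_ellc_eq_zero hS.ne (Or.inl hc))
  rw [norm_qh] at h2
  have h0 : 0 < ‖q₂‖ := norm_pos_iff.mpr hS.ne
  have h3 : Real.log ‖q₂‖ ≤ -(2 * π * (((δ * (γ : SL(2, ℤ))) • z : ℍ) : ℂ).im / hw N δ) := by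
    rw [Real.log_le_iff_le_exp h0]
    exact h2
  have hh := hw_pos N δ
  have hpi := Real.pi_pos
  have h4 : 0 < hw N δ / (2 * π) := by positivity
  have h5 : hw N δ / (2 * π) * (2 * π * (((δ * (γ : SL(2, ℤ))) • z : ℍ) : ℂ).im / hw N δ) =
      ((δ * (γ : SL(2, ℤ))) • z).im := by
    rw [UpperHalfPlane.coe_im]
    field_simp
  nlinarith

/-- **(PC-C)** the support hypothesis `hsupp` of `RecipFam8.exists_psi` for the cusp family. -/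
theorem exists_normSq_le (hS : Setup N δ q₂) :
    ∃ M₀ : ℝ, 1 ≤ M₀ ∧ ∀ z : ℍ, dens (cuspFamily N δ q₂ hS) z ≠ 0 → ∀ g : SL(2, ℤ),
      g • z ∈ (𝒟 : Set ℍ) → Complex.normSq ((g • z : ℍ) : ℂ) ≤ M₀ := by
  refine ⟨max 1 (1 / 4 + (max (-(hw N δ / (2 * π)) * Real.log ‖q₂‖) (1 / 1)) ^ 2),
    le_max_left _ _, fun z hz g hg => ?_⟩
  obtain ⟨γ, h1, h2⟩ := exists_im_of_dens_ne_zero hS hz
  exact Fermat.Agent.M17.RLGen7.normSq_le_of_translate_im one_pos z (δ * (γ : SL(2, ℤ)))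
    h1.le h2 g hg

end Fermat.Agent.M17.RecipCuspSupp1
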