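import Mathlib
import Fermat.Agent.M17.CuspFam4
import Fermat.Agent.M17.RecipFam8
import Fermat.Agent.M17.RecipCuspSupp1
import Fermat.Agent.M17.Interfaces7

/-!
# Programme M17, block (RL), point-to-cusp half: the cusp hypotheses for the cusp family

For `fam = CuspFam4.cuspFamily N δ q₂ hS`:

* `tendsto_GH_of_empty` (any family): where no index is relevant high in the chart of `g` and `F`
  has order `0` at the cusp of `g`, `GH F (g⁻¹ τ)` has a nonzero limit;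
* `eq_T_zpow_mul_of_mem_Qs`, `Qs_eq_empty_of_not_equiv` : a parameter relevant at `g⁻¹ τ`, `1 < Im τ`,
  forces `g = T ^ k * δ * γ` with `γ ∈ Γ₀(N)`;
* (PC-L2) `tendsto_GH_of_not_equiv` : the limit of `GH F` at the cusps not equivalent to `δ`;
* (PC-H) `hol_pc` : the density vanishes high in EVERY cusp chart;
* `cuspHyp` : the packaging `RecipFam8.CuspHyp fam F` from the limits.

Imported by no statement.
-/

set_option autoImplicit false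
set_option linter.unusedSectionVars false

open UpperHalfPlane Filter Topology Set
open scoped Manifold MatrixGroups ContDiff Real
open CongruenceSubgroup

noncomputable section

namespace Fermat.Agent.M17.RecipCuspHyp9

open Fermat.Agent.X0 Fermat.Agent.X0.SurjPoint Fermat.Agent.ES.KUM Fermat.Agent.M15.DivLogMer1
  Fermat.Agent.M15.DivLogPrim1 Fermat.Agent.M15.DivDlog1 Fermat.Agent.M17.MerEval8
  Fermat.Agent.M17.ModelFam8 Fermat.Agent.M17.CuspNbhd4 Fermat.Agent.M17.CuspFam4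
  Fermat.Agent.M17.RecipFam8 Fermat.Agent.M17.RecipCuspSupp1 Fermat.Agent.M17.Interfaces7

local notation "ι" => algebraMap HolH MerH
local notation "T" => (ModularGroup.T : SL(2, ℤ))

variable {N : ℕ} [NeZero N]

/-! ### The generic limit where no index is relevant -/

/-- **(PC-B2), generic**: if no index is relevant high in the chart of `g` and `F` has order `0` at
the cusp of `g`, then `GH F (g⁻¹ τ)` has a nonzero limit as `Im τ → ∞`. -/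
theorem tendsto_GH_of_empty {Q : Type} (fam : Family (Gamma0 N) Q) {F : MerH} (g : SL(2, ℤ))
    (hg : CuspOrdIs N F g 0)
    (hempty : ∃ Y₀ : ℝ, ∀ τ : ℍ, Y₀ < τ.im → fam.Qs (g⁻¹ • τ) = ∅) :
    ∃ ℓ : ℂ, ℓ ≠ 0 ∧ Tendsto (fun τ : ℍ => fam.GH F (g⁻¹ • τ)) atImInfty (𝓝 ℓ) := by
  obtain ⟨a, b, ℓ, hb, hℓ, hF, hlim⟩ := hg
  refine ⟨ℓ, hℓ, ?_⟩
  have hlim' : Tendsto (fun τ : ℍ => (a : ℍ → ℂ) (g⁻¹ • τ) / (b : ℍ → ℂ) (g⁻¹ • τ))
      atImInfty (𝓝 ℓ) := by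
    refine hlim.congr fun τ => ?_
    simp
  obtain ⟨Y₀, hY₀⟩ := hempty
  have hιb : ι b ≠ 0 := iota_ne_zero hb
  have hFab : F = ι a / ι b := by
    rw [eq_div_iff hιb]
    exact hF
  have hev1 : ∀ᶠ τ : ℍ in atImInfty, Y₀ < τ.im := by
    rw [Filter.Eventually, atImInfty_mem]
    exact ⟨Y₀ + 1, fun τ hτ => by show Y₀ < τ.im; linarith⟩
  have hev2 : ∀ᶠ τ : ℍ in atImInfty,
      (a : ℍ → ℂ) (g⁻¹ • τ) / (b : ℍ → ℂ) (g⁻¹ • τ) ≠ 0 :=
    hlim'.eventually_ne hℓ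
  refine hlim'.congr' ?_
  filter_upwards [hev1, hev2] with τ h1 h2
  have hbz : (b : ℍ → ℂ) (g⁻¹ • τ) ≠ 0 := fun h0 => h2 (by rw [h0, div_zero])
  rw [RecipFam8.GH_of_Qs_empty fam (hY₀ τ h1), hFab, evM_div a hbz]

/-! ### Relevant parameters high in a chart -/

variable {δ : SL(2, ℤ)} {q₂ : ℂ}

/-- a translate `δ γ g⁻¹ τ` of a high point `τ` which is high itself: `g = T ^ k * δ * γ'`. -/
theorem exists_eq_T_zpow_mul {g : SL(2, ℤ)} {γ : ↥(Gamma0 N)} {τ : ℍ} (h1 : 1 < τ.im)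
    (h2 : 1 < ((δ * (γ : SL(2, ℤ))) • (g⁻¹ • τ)).im) :
    ∃ (γ' : ↥(Gamma0 N)) (k : ℤ), g = T ^ k * δ * (γ' : SL(2, ℤ)) ∧
      ((δ * (γ : SL(2, ℤ))) • (g⁻¹ • τ)).im = τ.im := by
  have h2' : 1 < ((δ * (γ : SL(2, ℤ)) * g⁻¹) • τ).im := by
    rw [mul_smul]
    exact h2
  obtain ⟨k, hk⟩ := exists_T_zpow_of_one_lt_im h1 h2'
  have him : ((δ * (γ : SL(2, ℤ))) • (g⁻¹ • τ)).im = τ.im := by
    rw [← mul_smul]
    rcases hk with hk | hk
    · rw [hk, T_zpow_smul, UpperHalfPlane.vadd_im]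
    · rw [hk, neg_T_zpow_smul, UpperHalfPlane.vadd_im]
  rcases hk with hk | hk
  · refine ⟨γ, -k, ?_, him⟩
    have : g = (T ^ k)⁻¹ * (δ * (γ : SL(2, ℤ))) := by
      rw [← hk]
      group
    rw [this, zpow_neg, mul_assoc]
  · refine ⟨⟨-(γ : SL(2, ℤ)), (neg_mem_Gamma0_iff N _).2 γ.2⟩, -k, ?_, him⟩
    have e1 : δ * (γ : SL(2, ℤ)) = -(T ^ k) * g := by
      rw [← hk]
      group
    have e2 : T ^ k * g = δ * (-(γ : SL(2, ℤ))) := by
      rw [mul_neg, e1, neg_mul, neg_neg]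
    have : g = (T ^ k)⁻¹ * (δ * (-(γ : SL(2, ℤ)))) := by
      rw [← e2, inv_mul_cancel_left]
    rw [this, zpow_neg, mul_assoc]

/-- a parameter relevant at `g⁻¹ τ`, `1 < Im τ`, forces `g = T ^ k * δ * γ'`. -/
theorem eq_T_zpow_mul_of_mem_Qs (hS : Setup N δ q₂) {g : SL(2, ℤ)} {τ : ℍ} (h1 : 1 < τ.im)
    {q : Q N δ} (hq : q ∈ (cuspFamily N δ q₂ hS).Qs (g⁻¹ • τ)) :
    ∃ (γ' : ↥(Gamma0 N)) (k : ℤ), g = T ^ k * δ * (γ' : SL(2, ℤ)) := by
  obtain ⟨γ, rfl⟩ := q.exists_eq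
  have h2 := one_lt_im_of_mem_Brel hS ((Family.mem_Qs _).1 hq)
  obtain ⟨γ', k, hg, -⟩ := exists_eq_T_zpow_mul h1 h2
  exact ⟨γ', k, hg⟩

/-- high in the chart of a cusp which is not equivalent to `δ`, no parameter is relevant. -/
theorem Qs_eq_empty_of_not_equiv (hS : Setup N δ q₂) (g : SL(2, ℤ))
    (hg : ¬ ∃ (γ : ↥(Gamma0 N)) (k : ℤ), g = T ^ k * δ * (γ : SL(2, ℤ)))
    (τ : ℍ) (h1 : 1 < τ.im) : (cuspFamily N δ q₂ hS).Qs (g⁻¹ • τ) = ∅ := by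
  rw [Finset.eq_empty_iff_forall_notMem]
  intro q hq
  exact hg (eq_T_zpow_mul_of_mem_Qs hS h1 hq)

/-- **(PC-L2)** the limit of `GH F` at the cusps which are not equivalent to `δ`. -/
theorem tendsto_GH_of_not_equiv (hS : Setup N δ q₂) {F : MerH} (g : SL(2, ℤ))
    (hg : ¬ ∃ (γ : ↥(Gamma0 N)) (k : ℤ), g = T ^ k * δ * (γ : SL(2, ℤ)))
    (hord : CuspOrdIs N F g 0) :
    ∃ ℓ : ℂ, ℓ ≠ 0 ∧
      Tendsto (fun τ : ℍ => (cuspFamily N δ q₂ hS).GH F (g⁻¹ • τ)) atImInfty (𝓝 ℓ) :=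
  tendsto_GH_of_empty _ g hord ⟨1, Qs_eq_empty_of_not_equiv hS g hg⟩

/-! ### (PC-H) the density vanishes high in every chart -/

/-- **(PC-H), `hol`**: the density of the cusp family vanishes high in every cusp chart. -/
theorem hol_pc (hS : Setup N δ q₂) (g : SL(2, ℤ)) :
    ∃ Y₀ : ℝ, ∀ τ : ℍ, Y₀ < τ.im → dens (cuspFamily N δ q₂ hS) (g⁻¹ • τ) = 0 := by
  refine ⟨max 1 (-(hw N δ / (2 * π)) * Real.log ‖q₂‖), fun τ hτ => ?_⟩
  have h1 : 1 < τ.im := lt_of_le_of_lt (le_max_left _ _) hτ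
  have h2 : -(hw N δ / (2 * π)) * Real.log ‖q₂‖ < τ.im := lt_of_le_of_lt (le_max_right _ _) hτ
  by_contra hne
  obtain ⟨γ, hγ1, hγ2⟩ := exists_im_of_dens_ne_zero hS hne
  obtain ⟨-, -, -, him⟩ := exists_eq_T_zpow_mul h1 hγ1
  rw [him] at hγ2
  exact absurd hγ2 (not_le.2 h2)

/-- **(PC-B)** the cusp hypotheses of `RecipFam8` for the cusp family, from the limits. -/
theorem cuspHyp (hS : Setup N δ q₂) {F : MerH}
    (hlim : ∀ g : SL(2, ℤ), ∃ ℓ : ℂ, ℓ ≠ 0 ∧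
      Tendsto (fun τ : ℍ => (cuspFamily N δ q₂ hS).GH F (g⁻¹ • τ)) atImInfty (𝓝 ℓ)) :
    CuspHyp (cuspFamily N δ q₂ hS) F :=
  ⟨hol_pc hS, hlim⟩

end Fermat.Agent.M17.RecipCuspHyp9
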