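/-
Programme M17 (target S17), block (RL), leaf (PC-1) (helper9).  Mathlib + CuspModel4 only;
imported by no statement.

**Strip unfolding.**  For an `h`-periodic `Ψ`, integrable on the half strip
`strip h Y = {-h/2 < Re ≤ h/2, Im > Y}`, and a bounded measurable `u : ℝ → ℝ` with bounded support
and `∑_n u (x + n h) = 1`:
  `∫_{Im > Y} Ψ(z) u(Re z) = ∫_{strip h Y} Ψ`.
Instances: `u = 1_{(-h/2, h/2]}` (tautological) and a smooth compactly supported `u ≥ 0`.
-/
import Mathlib
import Fermat.Agent.M17.CuspModel4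

set_option autoImplicit false

namespace Fermat.Agent.M17.StripUnfold9

open MeasureTheory Set Complex Fermat.Agent.M17.CuspModel4

noncomputable section

variable {h Y : ℝ}

/-- the upper half plane above height `Y`. -/
def above (Y : ℝ) : Set ℂ := {z | Y < z.im}

theorem measurableSet_above : MeasurableSet (above Y) :=
  measurableSet_lt measurable_const Complex.measurable_im

/-- the translate of the strip by `n h`. -/
def stripN (h Y : ℝ) (n : ℤ) : Set ℂ := {z | z - ((n : ℂ) * (h : ℂ)) ∈ strip h Y}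

theorem measurableSet_stripN (n : ℤ) : MeasurableSet (stripN h Y n) :=
  (measurable_id.sub_const _) measurableSet_strip

theorem add_mem_stripN_iff (n : ℤ) (z : ℂ) : z + (n : ℂ) * (h : ℂ) ∈ stripN h Y n ↔ z ∈ strip h Y := by
  unfold stripN
  rw [Set.mem_ofPred_eq, add_sub_cancel_right]

theorem mem_strip_iff (z : ℂ) : z ∈ strip h Y ↔ z.re ∈ Ioc (-h / 2) (h / 2) ∧ Y < z.im := by
  unfold strip
  simp only [Set.mem_ofPred_eq, Set.mem_Ioc]
  tauto

theorem sub_re (z : ℂ) (n : ℤ) : (z - (n : ℂ) * (h : ℂ)).re = z.re - n * h := by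
  simp

theorem sub_im (z : ℂ) (n : ℤ) : (z - (n : ℂ) * (h : ℂ)).im = z.im := by
  simp

/-- every point above height `Y` lies in exactly one translate of the strip. -/
theorem mem_stripN_iff (hh : 0 < h) (z : ℂ) (n : ℤ) :
    z ∈ stripN h Y n ↔ Y < z.im ∧ toIocDiv hh (-h / 2) z.re = n := by
  unfold stripN
  rw [Set.mem_ofPred_eq, mem_strip_iff, sub_re, sub_im]
  have e : -h / 2 + h = h / 2 := by ring
  constructor
  · rintro ⟨h1, h2⟩
    refine ⟨h2, toIocDiv_eq_of_sub_zsmul_mem_Ioc hh ?_⟩
    rw [e, zsmul_eq_mul]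
    exact h1
  · rintro ⟨h2, rfl⟩
    refine ⟨?_, h2⟩
    have := sub_toIocDiv_zsmul_mem_Ioc hh (-h / 2) z.re
    rwa [e, zsmul_eq_mul] at this

theorem stripN_subset_above (n : ℤ) : stripN h Y n ⊆ above Y := by
  intro z hz
  unfold stripN at hz
  rw [Set.mem_ofPred_eq, mem_strip_iff, sub_im] at hz
  exact hz.2

/-- **(PC-1) strip unfolding.** -/
theorem integral_mul_partition_eq_strip (hh : 0 < h) {Ψ : ℂ → ℂ} (hper : ∀ z, Ψ (z + h) = Ψ z)
    (hint : IntegrableOn Ψ (strip h Y)) {u : ℝ → ℝ} (hum : Measurable u)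
    (hub : ∃ C, ∀ x, |u x| ≤ C) (hus : ∃ B, ∀ x, u x ≠ 0 → |x| ≤ B)
    (hsum : ∀ x, ∑ᶠ n : ℤ, u (x + n * h) = 1) :
    IntegrableOn (fun z => Ψ z * (u z.re : ℂ)) (above Y) ∧
      ∫ z in above Y, Ψ z * (u z.re : ℂ) = ∫ z in strip h Y, Ψ z := by
  classical
  obtain ⟨C, hC⟩ := hub
  obtain ⟨B, hB⟩ := hus
  set g : ℂ → ℂ := fun z => Ψ z * (u z.re : ℂ) with hg
  -- periodicity for integer multiples
  have hperN : ∀ (n : ℤ) (z : ℂ), Ψ (z + (n : ℂ) * (h : ℂ)) = Ψ z := by
    intro n z
    have hp : Function.Periodic Ψ (h : ℂ) := hper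
    exact hp.int_mul n z
  -- the finite set of relevant translates
  obtain ⟨M, hM⟩ := exists_nat_ge ((B + h / 2) / h)
  let F : Finset ℤ := Finset.Icc (-(M : ℤ)) M
  have hF : ∀ n : ℤ, n ∉ F → ∀ x ∈ Ioc (-h / 2) (h / 2), u (x + n * h) = 0 := by
    intro n hn x hx
    by_contra hne
    apply hn
    have hb := hB _ hne
    rw [abs_le] at hb
    have hM' : B + h / 2 ≤ M * h := by
      have := (div_le_iff₀ hh).mp hM
      exact this
    rw [Finset.mem_Icc]
    constructor
    · have : -(M : ℝ) * h ≤ n * h := by nlinarith [hx.1, hx.2, hb.1, hb.2]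
      have h2 : (-(M : ℝ)) ≤ n := le_of_mul_le_mul_right this hh
      exact_mod_cast h2
    · have : (n : ℝ) * h ≤ M * h := by nlinarith [hx.1, hx.2, hb.1, hb.2]
      have h2 : (n : ℝ) ≤ M := le_of_mul_le_mul_right this hh
      exact_mod_cast h2
  -- the sum over `F` is `1` on the strip
  have hsumF : ∀ x ∈ Ioc (-h / 2) (h / 2), ∑ n ∈ F, u (x + n * h) = 1 := by
    intro x hx
    rw [← hsum x]
    symm
    apply finsum_eq_sum_of_support_subset
    intro n hn
    by_contra hnF
    exact hn (hF n hnF x hx)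
  -- the translated pieces on the strip
  have hmeas : ∀ n : ℤ, Measurable fun z : ℂ => ((u (z.re + n * h) : ℝ) : ℂ) := fun n =>
    Complex.measurable_ofReal.comp (hum.comp (Complex.measurable_re.add_const _))
  have hA : ∀ n : ℤ, IntegrableOn (fun z => Ψ z * (u (z.re + n * h) : ℂ)) (strip h Y) := by
    intro n
    refine Integrable.mul_bdd (c := C) hint (hmeas n).aestronglyMeasurable ?_
    refine Filter.Eventually.of_forall fun z => ?_
    rw [Complex.norm_real, Real.norm_eq_abs]
    exact hC _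
  -- `g` on the translate `stripN n`, moved back to the strip
  have hshift : ∀ (n : ℤ) (z : ℂ), (stripN h Y n).indicator g (z + (n : ℂ) * (h : ℂ)) =
      (strip h Y).indicator (fun z => Ψ z * (u (z.re + n * h) : ℂ)) z := by
    intro n z
    by_cases hz : z ∈ strip h Y
    · rw [Set.indicator_of_mem ((add_mem_stripN_iff n z).mpr hz), Set.indicator_of_mem hz, hg]
      simp only
      rw [hperN]
      congr 3
      simp
    · rw [Set.indicator_of_notMem (fun hc => hz ((add_mem_stripN_iff n z).mp hc)),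
        Set.indicator_of_notMem hz]
  have hIntN : ∀ n : ℤ, Integrable ((stripN h Y n).indicator g) := by
    intro n
    have h1 : Integrable ((strip h Y).indicator fun z => Ψ z * (u (z.re + n * h) : ℂ)) :=
      (integrable_indicator_iff measurableSet_strip).mpr (hA n)
    have h2 : Integrable (fun z => (stripN h Y n).indicator g (z + (n : ℂ) * (h : ℂ))) := by
      simp_rw [hshift]
      exact h1
    have h3 := h2.comp_add_right (-((n : ℂ) * (h : ℂ)))
    simpa using h3
  have hintN : ∀ n : ℤ, ∫ z, (stripN h Y n).indicator g z =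
      ∫ z in strip h Y, Ψ z * (u (z.re + n * h) : ℂ) := by
    intro n
    rw [← integral_add_right_eq_self _ ((n : ℂ) * (h : ℂ))]
    simp_rw [hshift]
    exact integral_indicator measurableSet_strip
  -- the decomposition of `g` above height `Y`
  have hdecomp : (above Y).indicator g = fun z => ∑ n ∈ F, (stripN h Y n).indicator g z := by
    funext z
    by_cases hz : z ∈ above Y
    · rw [Set.indicator_of_mem hz]
      set n₀ := toIocDiv hh (-h / 2) z.re with hn₀
      have hmem : ∀ n : ℤ, z ∈ stripN h Y n ↔ n₀ = n := fun n => by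
        rw [mem_stripN_iff hh]
        exact ⟨fun h => h.2, fun h => ⟨hz, h⟩⟩
      by_cases hF₀ : n₀ ∈ F
      · rw [Finset.sum_eq_single n₀ (fun n _ hne => Set.indicator_of_notMem
          (fun hc => hne ((hmem n).mp hc).symm) _) (fun hc => absurd hF₀ hc),
          Set.indicator_of_mem ((hmem n₀).mpr rfl)]
      · rw [Finset.sum_eq_zero fun n hn => Set.indicator_of_notMem
          (fun hc => hF₀ (((hmem n).mp hc) ▸ hn)) _]
        -- `g z = 0`
        have hx : z.re - n₀ * h ∈ Ioc (-h / 2) (h / 2) := by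
          have := sub_toIocDiv_zsmul_mem_Ioc hh (-h / 2) z.re
          have e : -h / 2 + h = h / 2 := by ring
          rwa [e, zsmul_eq_mul] at this
        have := hF n₀ hF₀ _ hx
        rw [sub_add_cancel] at this
        rw [hg]
        simp only
        rw [this, Complex.ofReal_zero, mul_zero]
    · rw [Set.indicator_of_notMem hz]
      symm
      exact Finset.sum_eq_zero fun n _ => Set.indicator_of_notMem
        (fun hc => hz (stripN_subset_above n hc)) _
  constructor
  · rw [← integrable_indicator_iff measurableSet_above, hdecomp]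
    exact integrable_finsetSum _ fun n _ => hIntN n
  · rw [← integral_indicator measurableSet_above, hdecomp,
      integral_finsetSum _ fun n _ => hIntN n]
    simp_rw [hintN]
    rw [← integral_finsetSum _ fun n _ => hA n]
    refine setIntegral_congr_fun measurableSet_strip fun z hz => ?_
    show ∑ n ∈ F, Ψ z * (u (z.re + n * h) : ℂ) = Ψ z
    rw [← Finset.mul_sum]
    have hx : z.re ∈ Ioc (-h / 2) (h / 2) := ((mem_strip_iff z).mp hz).1
    have := hsumF z.re hx
    rw [← Complex.ofReal_sum, this, Complex.ofReal_one, mul_one]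

/-- variant for `Ψ` vanishing below height `Y`: the integral over the whole plane. -/
theorem integral_mul_partition_eq_strip' (hh : 0 < h) {Ψ : ℂ → ℂ} (hper : ∀ z, Ψ (z + h) = Ψ z)
    (hint : IntegrableOn Ψ (strip h Y)) (hΨ0 : ∀ z, z.im ≤ Y → Ψ z = 0) {u : ℝ → ℝ}
    (hum : Measurable u) (hub : ∃ C, ∀ x, |u x| ≤ C) (hus : ∃ B, ∀ x, u x ≠ 0 → |x| ≤ B)
    (hsum : ∀ x, ∑ᶠ n : ℤ, u (x + n * h) = 1) :
    Integrable (fun z => Ψ z * (u z.re : ℂ)) ∧
      ∫ z, Ψ z * (u z.re : ℂ) = ∫ z in strip h Y, Ψ z := by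
  obtain ⟨h1, h2⟩ := integral_mul_partition_eq_strip hh hper hint hum hub hus hsum
  have hind : (above Y).indicator (fun z => Ψ z * (u z.re : ℂ)) = fun z => Ψ z * (u z.re : ℂ) := by
    funext z
    by_cases hz : z ∈ above Y
    · rw [Set.indicator_of_mem hz]
    · rw [Set.indicator_of_notMem hz, hΨ0 z (not_lt.mp hz), zero_mul]
  constructor
  · rw [← hind]
    exact (integrable_indicator_iff measurableSet_above).mpr h1
  · rw [← h2, ← integral_indicator measurableSet_above, hind]

/-! ### instance (i): the indicator of the fundamental interval -/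

theorem finsum_indicator_Ioc (hh : 0 < h) (x : ℝ) :
    ∑ᶠ n : ℤ, (Ioc (-h / 2) (h / 2)).indicator (fun _ => (1 : ℝ)) (x + n * h) = 1 := by
  have e : -h / 2 + h = h / 2 := by ring
  have key : ∀ n : ℤ, x + n * h ∈ Ioc (-h / 2) (h / 2) ↔ n = -toIocDiv hh (-h / 2) x := by
    intro n
    constructor
    · intro hn
      have : toIocDiv hh (-h / 2) x = -n := by
        apply toIocDiv_eq_of_sub_zsmul_mem_Ioc
        rw [e, zsmul_eq_mul]
        push_cast
        rwa [neg_mul, sub_neg_eq_add]
      rw [this, neg_neg]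
    · rintro rfl
      have := sub_toIocDiv_zsmul_mem_Ioc hh (-h / 2) x
      rw [e, zsmul_eq_mul] at this
      push_cast
      rwa [neg_mul, ← sub_eq_add_neg]
  rw [finsum_eq_single _ (-toIocDiv hh (-h / 2) x) fun n hn =>
    Set.indicator_of_notMem (fun hc => hn ((key n).mp hc)) _]
  exact Set.indicator_of_mem ((key _).mpr rfl) _

/-- the indicator of the fundamental interval as a partition. -/
def uInd (h : ℝ) : ℝ → ℝ := (Ioc (-h / 2) (h / 2)).indicator fun _ => (1 : ℝ)

theorem measurable_uInd : Measurable (uInd h) :=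
  measurable_const.indicator measurableSet_Ioc

theorem abs_uInd_le (x : ℝ) : |uInd h x| ≤ 1 := by
  unfold uInd
  by_cases hx : x ∈ Ioc (-h / 2) (h / 2)
  · rw [Set.indicator_of_mem hx]; simp
  · rw [Set.indicator_of_notMem hx]; simp

theorem abs_le_of_uInd_ne_zero (x : ℝ) (hx : uInd h x ≠ 0) : |x| ≤ h / 2 := by
  unfold uInd at hx
  have hmem : x ∈ Ioc (-h / 2) (h / 2) := by
    by_contra hc
    exact hx (Set.indicator_of_notMem hc _)
  rw [abs_le]
  constructor <;> linarith [hmem.1, hmem.2]

theorem uInd_mul_eq_indicator (Ψ : ℂ → ℂ) (z : ℂ) (hz : z ∈ above Y) :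
    Ψ z * (uInd h z.re : ℂ) = (strip h Y).indicator Ψ z := by
  unfold uInd
  by_cases hx : z.re ∈ Ioc (-h / 2) (h / 2)
  · rw [Set.indicator_of_mem hx, Set.indicator_of_mem ((mem_strip_iff z).mpr ⟨hx, hz⟩)]
    simp
  · rw [Set.indicator_of_notMem hx,
      Set.indicator_of_notMem fun hc => hx ((mem_strip_iff z).mp hc).1]
    simp

/-- **instance (i)** (no periodicity needed: it is a tautology). -/
theorem integral_uInd_eq_strip {Ψ : ℂ → ℂ} (hint : IntegrableOn Ψ (strip h Y)) :
    IntegrableOn (fun z => Ψ z * (uInd h z.re : ℂ)) (above Y) ∧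
      ∫ z in above Y, Ψ z * (uInd h z.re : ℂ) = ∫ z in strip h Y, Ψ z := by
  have hsub : strip h Y ⊆ above Y := fun z hz => ((mem_strip_iff z).mp hz).2
  have h1 : IntegrableOn ((strip h Y).indicator Ψ) (above Y) :=
    ((integrable_indicator_iff measurableSet_strip).mpr hint).integrableOn
  constructor
  · exact h1.congr_fun (fun z hz => (uInd_mul_eq_indicator Ψ z hz).symm) measurableSet_above
  · rw [setIntegral_congr_fun measurableSet_above fun z hz => uInd_mul_eq_indicator Ψ z hz,
      setIntegral_indicator measurableSet_strip, Set.inter_eq_self_of_subset_right hsub]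

/-! ### instance (ii): a smooth partition -/

/-- the smooth partition `u₀(x) = s(x/h + 1) - s(x/h)`, `s = Real.smoothTransition`. -/
def uSmooth (h : ℝ) (x : ℝ) : ℝ := Real.smoothTransition (x / h + 1) - Real.smoothTransition (x / h)

theorem contDiff_uSmooth : ContDiff ℝ (⊤ : ℕ∞) (uSmooth h) := by
  unfold uSmooth
  have h1 : ContDiff ℝ (⊤ : ℕ∞) fun x : ℝ => x / h := contDiff_id.div_const h
  exact (Real.smoothTransition.contDiff.comp (h1.add contDiff_const)).sub
    (Real.smoothTransition.contDiff.comp h1)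

theorem continuous_uSmooth : Continuous (uSmooth h) := contDiff_uSmooth.continuous

theorem measurable_uSmooth : Measurable (uSmooth h) := continuous_uSmooth.measurable

theorem abs_uSmooth_le (x : ℝ) : |uSmooth h x| ≤ 1 := by
  unfold uSmooth
  rw [abs_le]
  constructor <;>
    linarith [Real.smoothTransition.nonneg (x / h + 1), Real.smoothTransition.le_one (x / h + 1),
      Real.smoothTransition.nonneg (x / h), Real.smoothTransition.le_one (x / h)]

theorem abs_le_of_uSmooth_ne_zero (hh : 0 < h) (x : ℝ) (hx : uSmooth h x ≠ 0) : |x| ≤ h := by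
  by_contra hc
  rw [not_le, lt_abs] at hc
  apply hx
  unfold uSmooth
  rcases hc with hc | hc
  · have h1 : 1 ≤ x / h := by rw [le_div_iff₀ hh]; linarith
    rw [Real.smoothTransition.one_of_one_le h1,
      Real.smoothTransition.one_of_one_le (by linarith), sub_self]
  · have h1 : x / h + 1 ≤ 0 := by
      have : x / h ≤ -1 := by rw [div_le_iff₀ hh]; linarith
      linarith
    rw [Real.smoothTransition.zero_of_nonpos h1,
      Real.smoothTransition.zero_of_nonpos (by linarith), sub_self]

/-- telescoping over `ℤ`. -/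
theorem finsum_telescope (a : ℤ → ℝ) (K : ℕ) (h0 : ∀ n : ℤ, n ≤ -(K : ℤ) → a n = 0)
    (h1 : ∀ n : ℤ, (K : ℤ) ≤ n → a n = 1) : ∑ᶠ n : ℤ, (a (n + 1) - a n) = 1 := by
  classical
  let emb : ℕ ↪ ℤ := ⟨fun m => (m : ℤ) - K, fun m m' hmm => by
    have : (m : ℤ) = m' := by linarith [show (m : ℤ) - K = (m' : ℤ) - K from hmm]
    exact_mod_cast this⟩
  have hsupp : Function.support (fun n : ℤ => a (n + 1) - a n) ⊆
      ↑((Finset.range (2 * K)).map emb) := by
    intro n hn
    rw [Function.mem_support] at hn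
    rw [Finset.coe_map, Set.mem_image]
    by_contra hc
    apply hn
    have hcase : n < -(K : ℤ) ∨ (K : ℤ) ≤ n := by
      by_contra hcc
      push Not at hcc
      apply hc
      refine ⟨(n + K).toNat, ?_, ?_⟩
      · rw [Finset.coe_range, Set.mem_Iio]
        omega
      · show ((n + K).toNat : ℤ) - K = n
        omega
    rcases hcase with hlt | hge
    · rw [h0 (n + 1) (by omega), h0 n (by omega), sub_self]
    · rw [h1 (n + 1) (by omega), h1 n hge, sub_self]
  rw [finsum_eq_sum_of_support_subset _ hsupp, Finset.sum_map]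
  have e : ∀ m : ℕ, a (emb m + 1) - a (emb m) =
      (fun m : ℕ => a ((m : ℤ) - K)) (m + 1) - (fun m : ℕ => a ((m : ℤ) - K)) m := by
    intro m
    show a ((m : ℤ) - K + 1) - a ((m : ℤ) - K) = a (((m + 1 : ℕ) : ℤ) - K) - a ((m : ℤ) - K)
    congr 2
    push_cast
    ring
  rw [Finset.sum_congr rfl fun m _ => e m]
  refine (Finset.sum_range_sub (fun m : ℕ => a ((m : ℤ) - K)) (2 * K)).trans ?_
  show a (((2 * K : ℕ) : ℤ) - K) - a (((0 : ℕ) : ℤ) - K) = 1
  rw [h1 _ (by push_cast; omega), h0 _ (by push_cast; omega), sub_zero]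

theorem finsum_uSmooth (hh : 0 < h) (x : ℝ) : ∑ᶠ n : ℤ, uSmooth h (x + n * h) = 1 := by
  obtain ⟨K, hK⟩ := exists_nat_ge (|x / h| + 1)
  have e : ∀ n : ℤ, uSmooth h (x + n * h) =
      (fun n : ℤ => Real.smoothTransition (x / h + n)) (n + 1) -
        (fun n : ℤ => Real.smoothTransition (x / h + n)) n := by
    intro n
    unfold uSmooth
    have : (x + n * h) / h = x / h + n := by field_simp
    rw [this]
    show _ = Real.smoothTransition (x / h + ((n + 1 : ℤ) : ℝ)) - _
    push_cast
    rw [add_assoc]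
  rw [finsum_congr e]
  have hab := abs_le.mp (le_refl |x / h|)
  refine finsum_telescope (fun n : ℤ => Real.smoothTransition (x / h + n)) K
    (fun n hn => ?_) (fun n hn => ?_)
  · apply Real.smoothTransition.zero_of_nonpos
    have : (n : ℝ) ≤ -(K : ℝ) := by exact_mod_cast hn
    linarith [hab.2]
  · apply Real.smoothTransition.one_of_one_le
    have : (K : ℝ) ≤ n := by exact_mod_cast hn
    linarith [hab.1]

/-- **instance (ii)**: strip unfolding against the smooth partition `uSmooth h`. -/
theorem integral_uSmooth_eq_strip (hh : 0 < h) {Ψ : ℂ → ℂ} (hper : ∀ z, Ψ (z + h) = Ψ z)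
    (hint : IntegrableOn Ψ (strip h Y)) :
    IntegrableOn (fun z => Ψ z * (uSmooth h z.re : ℂ)) (above Y) ∧
      ∫ z in above Y, Ψ z * (uSmooth h z.re : ℂ) = ∫ z in strip h Y, Ψ z :=
  integral_mul_partition_eq_strip hh hper hint measurable_uSmooth ⟨1, abs_uSmooth_le⟩
    ⟨h, abs_le_of_uSmooth_ne_zero hh⟩ (finsum_uSmooth hh)

end

end Fermat.Agent.M17.StripUnfold9
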