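import Fermat.Agent.M17.CuspModel4
import Fermat.Agent.M17.CuspNbhd4
import Fermat.Agent.M17.CuspPrim0
import Fermat.Agent.M17.StripUnfold9
import Fermat.Agent.M17.UnfoldLoc3
import Fermat.Agent.M17.DegMeasure5
import Fermat.Agent.M17.DegMoebius5
import Fermat.Agent.M17.DbarResidue5
import Fermat.Agent.ES.PET.PartitionGamma5

/-!
# (RL-pc), leaf (PC-4): the unfolding integral at a cusp

For a density `dens` on `ℍ` which, in the coordinate `τ = δ γ z` above height `Y`, is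
`s · 2∂̄(ℓ_c ∘ δγ)` and vanishes off the `Γ₀(N)`-orbit of the horoball:
`Ipart (wΓ Γ₀(N)) (-i y² f dens) = s π i (Â 0 - Â q₁)`, `Â` the cusp function of the primitive of `f`.
-/

set_option autoImplicit false
set_option linter.unusedSectionVars false

namespace Fermat.Agent.M17.RecipCuspInt5

open MeasureTheory Set Filter Topology UpperHalfPlane CongruenceSubgroup
open scoped Real MatrixGroups ComplexConjugate
open Fermat.Agent.M17.CauchyPompeiu5 Fermat.Agent.M17.DegMoebius5 Fermat.Agent.M17.DegMeasure5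
  Fermat.Agent.M17.CuspModel4 Fermat.Agent.M17.CuspNbhd4 Fermat.Agent.M17.CuspPrim0
  Fermat.Agent.M17.StripUnfold9 Fermat.Agent.M17.LocalModel8
open Fermat.Agent.ES.PET.Unfold12 Fermat.Agent.ES.PET.PartitionGamma5

noncomputable section

local notation "T" => (ModularGroup.T : SL(2, ℤ))

variable (N : ℕ) [NeZero N] (δ : SL(2, ℤ))

/-- the width as a real number -/
def hw : ℝ := (width N δ : ℝ)

lemma hw_pos : 0 < hw N δ := by
  unfold hw
  exact_mod_cast width_pos N δ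

/-- the points whose `δ`-coordinate lies in the strip -/
def Sset (Y : ℝ) : Set ℍ := {w | ((δ • w : ℍ) : ℂ) ∈ strip (hw N δ) Y}

/-- `-γ` in `Γ₀(N)` -/
def negG (γ : Gamma0 N) : Gamma0 N := ⟨-(γ : SL(2, ℤ)), (neg_mem_Gamma0_iff N _).2 γ.2⟩

lemma negG_smul (γ : Gamma0 N) (z : ℍ) : ((negG N γ : Gamma0 N) : SL(2, ℤ)) • z = (γ : SL(2, ℤ)) • z := by
  show (-(γ : SL(2, ℤ))) • z = _
  rw [ModularGroup.SL_neg_smul]

lemma negG_ne (γ : Gamma0 N) : negG N γ ≠ γ := by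
  intro h
  have h1 : (-(γ : SL(2, ℤ))) = (γ : SL(2, ℤ)) := congrArg Subtype.val h
  have h2 : (-(γ : SL(2, ℤ))) 0 0 = (γ : SL(2, ℤ)) 0 0 := by rw [h1]
  have h3 : (-(γ : SL(2, ℤ))) 1 0 = (γ : SL(2, ℤ)) 1 0 := by rw [h1]
  have h4 : (-(γ : SL(2, ℤ))) 0 1 = (γ : SL(2, ℤ)) 0 1 := by rw [h1]
  have h5 : (-(γ : SL(2, ℤ))) 1 1 = (γ : SL(2, ℤ)) 1 1 := by rw [h1]
  simp only [Matrix.SpecialLinearGroup.coe_neg, Matrix.neg_apply] at h2 h3 h4 h5
  have hdet := Matrix.SpecialLinearGroup.det_coe (γ : SL(2, ℤ))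
  rw [Matrix.det_fin_two] at hdet
  have e00 : ((γ : SL(2, ℤ)) : Matrix (Fin 2) (Fin 2) ℤ) 0 0 = 0 := by omega
  have e01 : ((γ : SL(2, ℤ)) : Matrix (Fin 2) (Fin 2) ℤ) 0 1 = 0 := by omega
  rw [e00, e01] at hdet
  simp at hdet

lemma mem_Sset_iff (Y : ℝ) (w : ℍ) :
    w ∈ Sset N δ Y ↔ (δ • w).re ∈ Ioc (-(hw N δ) / 2) ((hw N δ) / 2) ∧ Y < (δ • w).im := by
  unfold Sset
  rw [Set.mem_ofPred_eq, mem_strip_iff]
  rfl

/-- **the orbit meets the strip in exactly `±γ₂`.** -/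
lemma exists_pm {Y : ℝ} (hY : 1 ≤ Y) (z : ℍ) (γ₁ : Gamma0 N)
    (h1 : Y < (δ • (γ₁ : SL(2, ℤ)) • z).im) :
    ∃ γ₂ : Gamma0 N, ∀ γ : Gamma0 N,
      (γ : SL(2, ℤ)) • z ∈ Sset N δ Y ↔ (γ = γ₂ ∨ γ = negG N γ₂) := by
  have hp := hw_pos N δ
  set τ : ℍ := δ • (γ₁ : SL(2, ℤ)) • z with hτ
  set m₀ : ℤ := -toIocDiv hp (-(hw N δ) / 2) τ.re with hm₀
  obtain ⟨γm, hγm, hγm'⟩ := exists_mem_Gamma0_of_dvd N δ m₀
  set γ₂ : Gamma0 N := ⟨γm, hγm⟩ * γ₁ with hγ₂
  have e : -(hw N δ) / 2 + hw N δ = hw N δ / 2 := by ring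
  have hcast : (((width N δ : ℤ) * m₀ : ℤ) : ℝ) = m₀ * hw N δ := by
    unfold hw
    push_cast
    ring
  have h2 : (γ₂ : SL(2, ℤ)) • z ∈ Sset N δ Y := by
    rw [mem_Sset_iff]
    have : δ • (γ₂ : SL(2, ℤ)) • z = (((width N δ : ℤ) * m₀ : ℤ) : ℝ) +ᵥ τ := by
      rw [hγ₂, Subgroup.coe_mul, mul_smul]
      exact hγm' _
    rw [this, UpperHalfPlane.vadd_re, UpperHalfPlane.vadd_im, hcast]
    refine ⟨?_, h1⟩
    have := sub_toIocDiv_zsmul_mem_Ioc hp (-(hw N δ) / 2) τ.re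
    rw [e, zsmul_eq_mul] at this
    rw [hm₀]
    push_cast
    have e2 : -(toIocDiv hp (-(hw N δ) / 2) τ.re : ℝ) * hw N δ + τ.re
        = τ.re - (toIocDiv hp (-(hw N δ) / 2) τ.re : ℝ) * hw N δ := by ring
    rw [e2]
    exact this
  refine ⟨γ₂, fun γ => ⟨fun hγ => ?_, ?_⟩⟩
  · -- uniqueness
    rw [mem_Sset_iff] at hγ h2
    have hz1 : 1 < (δ • (γ₂ : SL(2, ℤ)) • z).im := lt_of_le_of_lt hY h2.2
    set γ' : SL(2, ℤ) := (γ : SL(2, ℤ)) * (γ₂ : SL(2, ℤ))⁻¹ with hγ'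
    have hγ'mem : γ' ∈ Gamma0 N := (Gamma0 N).mul_mem γ.2 ((Gamma0 N).inv_mem γ₂.2)
    have hz2 : 1 < (δ • γ' • ((γ₂ : SL(2, ℤ)) • z)).im := by
      rw [hγ', mul_smul, inv_smul_smul]
      exact lt_of_le_of_lt hY hγ.2
    obtain ⟨m, hm⟩ := exists_conj_eq_of_one_lt_im N hγ'mem δ hz1 hz2
    have hpt : δ • (γ : SL(2, ℤ)) • z =
        (((width N δ : ℤ) * m : ℤ) : ℝ) +ᵥ (δ • (γ₂ : SL(2, ℤ)) • z) := by
      have : δ • (γ : SL(2, ℤ)) • z = (δ * γ' * δ⁻¹) • (δ • (γ₂ : SL(2, ℤ)) • z) := by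
        rw [mul_smul, mul_smul, inv_smul_smul, hγ', mul_smul, inv_smul_smul]
      rw [this]
      rcases hm with hm | hm
      · rw [hm, T_zpow_smul]
      · rw [hm, neg_T_zpow_smul]
    have hcastm : (((width N δ : ℤ) * m : ℤ) : ℝ) = m * hw N δ := by
      unfold hw
      push_cast
      ring
    have hre := hγ.1
    rw [hpt, UpperHalfPlane.vadd_re, hcastm] at hre
    have hre2 := h2.1
    -- `m = 0`
    have hm0 : m = 0 := by
      by_contra hne
      have habs : (1 : ℝ) ≤ |(m : ℝ)| := by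
        have : (1 : ℤ) ≤ |m| := Int.one_le_abs hne
        exact_mod_cast this
      rcases le_abs'.mp habs with hneg | hpos'
      · have : (m : ℝ) * hw N δ ≤ -hw N δ := by nlinarith
        have h3 := hre.1
        have h4 := hre2.2
        linarith
      · have : hw N δ ≤ (m : ℝ) * hw N δ := by nlinarith
        have h3 := hre.2
        have h4 := hre2.1
        linarith
    rw [hm0, mul_zero, zpow_zero] at hm
    rcases hm with hm | hm
    · left
      have h5 : γ' = 1 := by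
        have : δ⁻¹ * (δ * γ' * δ⁻¹) * δ = γ' := by group
        rw [← this, hm]
        group
      apply Subtype.ext
      have : (γ : SL(2, ℤ)) = γ' * (γ₂ : SL(2, ℤ)) := by rw [hγ']; group
      rw [this, h5, one_mul]
    · right
      have h5 : γ' = -1 := by
        have : δ⁻¹ * (δ * γ' * δ⁻¹) * δ = γ' := by group
        rw [← this, hm]
        rw [mul_neg, neg_mul]
        congr 1
        group
      apply Subtype.ext
      have : (γ : SL(2, ℤ)) = γ' * (γ₂ : SL(2, ℤ)) := by rw [hγ']; group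
      show (γ : SL(2, ℤ)) = -(γ₂ : SL(2, ℤ))
      rw [this, h5, neg_mul, one_mul]
  · rintro (rfl | rfl)
    · exact h2
    · have : ((negG N γ₂ : Gamma0 N) : SL(2, ℤ)) • z = (γ₂ : SL(2, ℤ)) • z := negG_smul N γ₂ z
      rw [this]
      exact h2

/-! ### the invariant integrand -/

lemma denom_cocycle_SL (g h : SL(2, ℤ)) (z : ℍ) :
    denom (((g * h : SL(2, ℤ)) : GL (Fin 2) ℝ)) z = denom g ↑(h • z) * denom h z := by
  have := denom_cocycle_σ (g : GL (Fin 2) ℝ) (h : GL (Fin 2) ℝ) z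
  have hdet : (0 : ℝ) < ((h : GL (Fin 2) ℝ)).det.val := by simp
  rw [UpperHalfPlane.σ, if_pos hdet] at this
  simpa using this

lemma cusp_smul (f : CuspForm (Gamma0 N) 2) (γ : Gamma0 N) (τ : ℍ) :
    f ((γ : SL(2, ℤ)) • τ) = denom (γ : SL(2, ℤ)) τ ^ 2 * f τ := by
  have := SlashInvariantForm.slash_action_eqn'' f (Subgroup.mem_map_of_mem _ γ.2) τ
  exact_mod_cast this

variable {Y : ℝ} {q₁ : ℂ} (f : CuspForm (Gamma0 N) 2) (s : ℂ) (dens : ℍ → ℂ)

/-- the integrand `J = -i y² f dens` -/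
def Jfun (z : ℍ) : ℂ := -Complex.I * (z.im : ℂ) ^ 2 * f z * dens z

/-- the unfolded integrand -/
def Psi (Y : ℝ) (w : ℍ) : ℂ := (1 / 2 : ℂ) * (Sset N δ Y).indicator (Jfun N f dens) w

variable
  (H1 : ∀ (z : ℍ) (γ : Gamma0 N), Y < (δ • (γ : SL(2, ℤ)) • z).im →
    dens z = s * dbar2 (ellc (hw N δ) q₁) ↑(δ • (γ : SL(2, ℤ)) • z) *
      conj (1 / denom ((δ * (γ : SL(2, ℤ)) : SL(2, ℤ)) : GL (Fin 2) ℝ) z ^ 2))
  (H2 : ∀ z : ℍ, (∀ γ : Gamma0 N, (δ • (γ : SL(2, ℤ)) • z).im ≤ Y) → dens z = 0)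

include H1 H2 in
/-- `J` is `Γ₀(N)`-invariant -/
lemma Jfun_smul (γ₀ : Gamma0 N) (z : ℍ) :
    Jfun N f dens ((γ₀ : SL(2, ℤ)) • z) = Jfun N f dens z := by
  by_cases hex : ∃ γ : Gamma0 N, Y < (δ • (γ : SL(2, ℤ)) • ((γ₀ : SL(2, ℤ)) • z)).im
  · obtain ⟨γ, hγ⟩ := hex
    have e1 := H1 ((γ₀ : SL(2, ℤ)) • z) γ hγ
    have hγ' : Y < (δ • ((γ * γ₀ : Gamma0 N) : SL(2, ℤ)) • z).im := by
      rw [Subgroup.coe_mul, mul_smul]
      exact hγ
    have e2 := H1 z (γ * γ₀) hγ'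
    have hpt : δ • ((γ * γ₀ : Gamma0 N) : SL(2, ℤ)) • z
        = δ • (γ : SL(2, ℤ)) • ((γ₀ : SL(2, ℤ)) • z) := by
      rw [Subgroup.coe_mul, mul_smul]
    rw [hpt] at e2
    set d : ℂ := denom (γ₀ : SL(2, ℤ)) z with hd
    set a : ℂ := denom ((δ * (γ : SL(2, ℤ)) : SL(2, ℤ)) : GL (Fin 2) ℝ) (((γ₀ : SL(2, ℤ)) • z : ℍ) : ℂ) with ha
    have hd0 : d ≠ 0 := denom_ne_zero _ z
    have ha0 : a ≠ 0 := denom_ne_zero _ _
    have hcoc : denom ((δ * ((γ * γ₀ : Gamma0 N) : SL(2, ℤ)) : SL(2, ℤ)) : GL (Fin 2) ℝ) z = a * d := by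
      rw [Subgroup.coe_mul, ← mul_assoc]
      exact denom_cocycle_SL (δ * (γ : SL(2, ℤ))) (γ₀ : SL(2, ℤ)) z
    rw [hcoc] at e2
    have hf : f ((γ₀ : SL(2, ℤ)) • z) = d ^ 2 * f z := cusp_smul N f γ₀ z
    have him : (((γ₀ : SL(2, ℤ)) • z).im : ℝ) = z.im / Complex.normSq d :=
      ModularGroup.im_smul_eq_div_normSq _ z
    unfold Jfun
    rw [e1, e2, hf, him]
    have hn : ((Complex.normSq d : ℝ) : ℂ) = d * conj d := (Complex.mul_conj d).symm
    have hcd : conj d ≠ 0 := by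
      rwa [Ne, map_eq_zero]
    have hca : conj a ≠ 0 := by
      rwa [Ne, map_eq_zero]
    push_cast
    rw [hn]
    simp only [map_div₀, map_one, map_pow, map_mul]
    field_simp
  · push Not at hex
    have h0 : dens ((γ₀ : SL(2, ℤ)) • z) = 0 := H2 _ hex
    have h0' : dens z = 0 := by
      apply H2
      intro γ
      have := hex (γ * γ₀⁻¹)
      rw [Subgroup.coe_mul, mul_smul, Subgroup.coe_inv, inv_smul_smul] at this
      exact this
    unfold Jfun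
    rw [h0, h0']
    simp

include H1 H2 in
/-- **the orbit sum** of the unfolded integrand is the invariant integrand -/
lemma hasSum_Psi (hY : 1 ≤ Y) (z : ℍ) :
    HasSum (fun γ : Gamma0 N => Psi N δ f dens Y (γ • z)) (Jfun N f dens z) := by
  classical
  by_cases hex : ∃ γ₁ : Gamma0 N, Y < (δ • (γ₁ : SL(2, ℤ)) • z).im
  · obtain ⟨γ₁, hγ₁⟩ := hex
    obtain ⟨γ₂, hγ₂⟩ := exists_pm N δ hY z γ₁ hγ₁
    have hne : γ₂ ≠ negG N γ₂ := (negG_ne N γ₂).symm
    have hzero : ∀ γ ∉ ({γ₂, negG N γ₂} : Finset (Gamma0 N)),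
        Psi N δ f dens Y (γ • z) = 0 := by
      intro γ hγ
      rw [Finset.mem_insert, Finset.mem_singleton] at hγ
      have : (γ : SL(2, ℤ)) • z ∉ Sset N δ Y := fun h => hγ ((hγ₂ γ).mp h)
      unfold Psi
      rw [show γ • z = (γ : SL(2, ℤ)) • z from rfl, Set.indicator_of_notMem this, mul_zero]
    have hsum : HasSum (fun γ : Gamma0 N => Psi N δ f dens Y (γ • z))
        (∑ γ ∈ ({γ₂, negG N γ₂} : Finset (Gamma0 N)), Psi N δ f dens Y (γ • z)) :=
      hasSum_sum_of_ne_finset_zero hzero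
    have hval : ∑ γ ∈ ({γ₂, negG N γ₂} : Finset (Gamma0 N)), Psi N δ f dens Y (γ • z)
        = Jfun N f dens z := by
      rw [Finset.sum_pair hne]
      have m1 : (γ₂ : SL(2, ℤ)) • z ∈ Sset N δ Y := (hγ₂ γ₂).mpr (Or.inl rfl)
      have m2 : ((negG N γ₂ : Gamma0 N) : SL(2, ℤ)) • z ∈ Sset N δ Y :=
        (hγ₂ (negG N γ₂)).mpr (Or.inr rfl)
      unfold Psi
      rw [show γ₂ • z = (γ₂ : SL(2, ℤ)) • z from rfl,
        show negG N γ₂ • z = ((negG N γ₂ : Gamma0 N) : SL(2, ℤ)) • z from rfl,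
        Set.indicator_of_mem m1, Set.indicator_of_mem m2,
        Jfun_smul N δ f s dens H1 H2 γ₂ z, Jfun_smul N δ f s dens H1 H2 (negG N γ₂) z]
      ring
    rw [hval] at hsum
    exact hsum
  · push Not at hex
    have h0 : Jfun N f dens z = 0 := by
      unfold Jfun
      rw [H2 z hex, mul_zero]
    rw [h0]
    have : (fun γ : Gamma0 N => Psi N δ f dens Y (γ • z)) = fun _ => 0 := by
      funext γ
      have hn : (γ : SL(2, ℤ)) • z ∉ Sset N δ Y := by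
        intro hmem
        rw [mem_Sset_iff] at hmem
        exact absurd hmem.2 (not_lt.mpr (hex γ))
      unfold Psi
      rw [show γ • z = (γ : SL(2, ℤ)) • z from rfl, Set.indicator_of_notMem hn, mul_zero]
    rw [this]
    exact hasSum_zero

/-! ### the unfolded integral -/

/-- the integrand on the strip, as a function on `ℂ` -/
def Hfun (Y : ℝ) (q₁ : ℂ) (τ : ℂ) : ℂ :=
  (1 / 2 : ℂ) * (strip (hw N δ) Y).indicator
    (fun τ => (-Complex.I * s) * (dbar2 (ellc (hw N δ) q₁) τ * deriv (Ad f δ) τ)) τ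

/-- the unfolded integrand in the coordinate `τ = δ w` -/
def Kfun (Y : ℝ) (q₁ : ℂ) (τ : ℍ) : ℂ := (τ.im : ℂ) ^ 2 * Hfun N δ f s Y q₁ (τ : ℂ)

lemma differentiableOn_Ad : DifferentiableOn ℂ (Ad f δ) UH := fun _ hz =>
  (differentiableAt_Ad f δ hz).differentiableWithinAt

lemma continuousOn_deriv_Ad : ContinuousOn (deriv (Ad f δ)) UH :=
  ((differentiableOn_Ad N δ f).deriv isOpen_UH).continuousOn

lemma continuous_D (q₁ : ℂ) : Continuous (dbar2 (ellc (hw N δ) q₁)) :=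
  Fermat.Agent.M17.DbarResidue5.continuous_dbar2
    ((ellc_contDiff (h := hw N δ) (q₂ := q₁)).of_le (by exact_mod_cast le_top))

/-- integrability on the strip -/
lemma integrableOn_strip (hY : 1 ≤ Y) (hq₁ : q₁ ≠ 0)
    (hsmall : 6 * ‖q₁‖ < Real.exp (-(2 * π * Y / hw N δ))) :
    IntegrableOn (fun τ => dbar2 (ellc (hw N δ) q₁) τ * deriv (Ad f δ) τ)
      (strip (hw N δ) Y) := by
  have hp := hw_pos N δ
  have hq0 : 0 < ‖q₁‖ := norm_pos_iff.mpr hq₁
  set Ya : ℝ := -(hw N δ * Real.log (5 * ‖q₁‖)) / (2 * π) with hYa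
  set Yb : ℝ := -(hw N δ * Real.log ‖q₁‖) / (2 * π) with hYb
  have hπ : 0 < 2 * π := by positivity
  have hYaY : Y < Ya := by
    have h1 : 5 * ‖q₁‖ < Real.exp (-(2 * π * Y / hw N δ)) := by linarith
    have h2 : Real.log (5 * ‖q₁‖) < -(2 * π * Y / hw N δ) := by
      rw [Real.log_lt_iff_lt_exp (by positivity)]
      exact h1
    rw [hYa, lt_div_iff₀ hπ]
    have h3 : hw N δ * Real.log (5 * ‖q₁‖) < hw N δ * -(2 * π * Y / hw N δ) :=
      mul_lt_mul_of_pos_left h2 hp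
    have h4 : hw N δ * -(2 * π * Y / hw N δ) = -(2 * π * Y) := by
      field_simp
    rw [h4] at h3
    linarith
  set K : Set ℂ := Icc (-(hw N δ) / 2) (hw N δ / 2) ×ℂ Icc Ya Yb with hK
  have hKc : IsCompact K := isCompact_Icc.reProdIm isCompact_Icc
  have hKU : K ⊆ UH := by
    intro z hz
    rw [hK, Complex.mem_reProdIm] at hz
    show 0 < z.im
    linarith [hz.2.1]
  have hcont : ContinuousOn (fun τ => dbar2 (ellc (hw N δ) q₁) τ * deriv (Ad f δ) τ) K :=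
    (continuous_D N δ q₁).continuousOn.mul ((continuousOn_deriv_Ad N δ f).mono hKU)
  have hint : IntegrableOn (fun τ => dbar2 (ellc (hw N δ) q₁) τ * deriv (Ad f δ) τ) K :=
    hcont.integrableOn_compact hKc
  refine hint.of_forall_sdiff_eq_zero measurableSet_strip ?_
  rintro τ ⟨hτs, hτK⟩
  rw [mem_strip_iff] at hτs
  have hD : dbar2 (ellc (hw N δ) q₁) τ = 0 := by
    apply dbar2_ellc_eq_zero (h := hw N δ) (q₂ := q₁) hq₁
    rw [norm_qh]
    by_contra hcon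
    push Not at hcon
    apply hτK
    rw [hK, Complex.mem_reProdIm]
    refine ⟨⟨hτs.1.1.le, hτs.1.2⟩, ?_, ?_⟩
    · -- `Ya ≤ im τ`
      have h1 := hcon.2
      have h2 : -(2 * π * τ.im / hw N δ) ≤ Real.log (5 * ‖q₁‖) := by
        rw [Real.le_log_iff_exp_le (by positivity)]
        exact h1
      rw [hYa, div_le_iff₀ hπ]
      have h3 : hw N δ * -(2 * π * τ.im / hw N δ) ≤ hw N δ * Real.log (5 * ‖q₁‖) :=
        mul_le_mul_of_nonneg_left h2 hp.le
      have h4 : hw N δ * -(2 * π * τ.im / hw N δ) = -(2 * π * τ.im) := by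
        field_simp
      rw [h4] at h3
      linarith
    · -- `im τ ≤ Yb`
      have h1 := hcon.1
      have h2 : Real.log ‖q₁‖ ≤ -(2 * π * τ.im / hw N δ) := by
        rw [Real.log_le_iff_le_exp hq0]
        exact h1
      rw [hYb, le_div_iff₀ hπ]
      have h3 : hw N δ * Real.log ‖q₁‖ ≤ hw N δ * -(2 * π * τ.im / hw N δ) :=
        mul_le_mul_of_nonneg_left h2 hp.le
      have h4 : hw N δ * -(2 * π * τ.im / hw N δ) = -(2 * π * τ.im) := by
        field_simp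
      rw [h4] at h3
      linarith
  rw [hD, zero_mul]

lemma strip_subset_UH (hY : 1 ≤ Y) : strip (hw N δ) Y ⊆ UH := by
  intro z hz
  rw [mem_strip_iff] at hz
  show 0 < z.im
  linarith [hz.2]

lemma integrableOn_Hfun (hY : 1 ≤ Y) (hq₁ : q₁ ≠ 0)
    (hsmall : 6 * ‖q₁‖ < Real.exp (-(2 * π * Y / hw N δ))) :
    IntegrableOn (Hfun N δ f s Y q₁) UH := by
  unfold Hfun
  apply Integrable.integrableOn
  apply Integrable.const_mul
  rw [integrable_indicator_iff measurableSet_strip]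
  exact (integrableOn_strip N δ f hY hq₁ hsmall).const_mul _

lemma integral_Hfun (hY : 1 ≤ Y) :
    ∫ τ in UH, Hfun N δ f s Y q₁ τ = (1 / 2 : ℂ) * ((-Complex.I * s) *
      ∫ τ in strip (hw N δ) Y, dbar2 (ellc (hw N δ) q₁) τ * deriv (Ad f δ) τ) := by
  unfold Hfun
  rw [integral_const_mul]
  congr 1
  rw [setIntegral_indicator measurableSet_strip,
    Set.inter_eq_self_of_subset_right (strip_subset_UH N δ hY), integral_const_mul]

lemma integrable_Kfun (hY : 1 ≤ Y) (hq₁ : q₁ ≠ 0)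
    (hsmall : 6 * ‖q₁‖ < Real.exp (-(2 * π * Y / hw N δ))) :
    Integrable (Kfun N δ f s Y q₁) :=
  integrable_UHP (integrableOn_Hfun N δ f s hY hq₁ hsmall)

lemma integral_Kfun : ∫ τ : ℍ, Kfun N δ f s Y q₁ τ = ∫ τ in UH, Hfun N δ f s Y q₁ τ :=
  integral_UHP (Hfun N δ f s Y q₁)

include H1 in
/-- the unfolded integrand in the coordinate `τ = δ w` -/
lemma Psi_eq_Kfun (w : ℍ) : Psi N δ f dens Y w = Kfun N δ f s Y q₁ (δ • w) := by
  unfold Psi Kfun Hfun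
  by_cases hw' : w ∈ Sset N δ Y
  · have hmem : ((δ • w : ℍ) : ℂ) ∈ strip (hw N δ) Y := hw'
    rw [Set.indicator_of_mem hw', Set.indicator_of_mem hmem]
    set τ : ℍ := δ • w with hτ
    have hwτ : δ⁻¹ • τ = w := by rw [hτ, inv_smul_smul]
    have hτY : Y < τ.im := ((mem_Sset_iff N δ Y w).mp hw').2
    have hder : deriv (Ad f δ) (τ : ℂ) = f w * (1 / denom (δ⁻¹ : SL(2, ℤ)) τ ^ 2) := by
      have := (hasDerivAt_Ad f δ τ).deriv
      rw [hwτ] at this
      exact this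
    have hdens : dens w = s * dbar2 (ellc (hw N δ) q₁) (τ : ℂ) *
        conj (1 / denom (δ : SL(2, ℤ)) w ^ 2) := by
      have h := H1 w 1
      simp only [Subgroup.coe_one, one_smul, mul_one] at h
      exact h hτY
    set c : ℂ := denom (δ⁻¹ : SL(2, ℤ)) τ with hc
    set b : ℂ := denom δ w with hb
    have hc0 : c ≠ 0 := denom_ne_zero _ τ
    have hbc : b * c = 1 := by
      have h1 := denom_cocycle_SL δ δ⁻¹ τ
      rw [hwτ, mul_inv_cancel] at h1
      rw [← h1]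
      simp [denom]
    have hb' : b = c⁻¹ := eq_inv_of_mul_eq_one_left hbc
    have him : (w.im : ℝ) = τ.im / Complex.normSq c := by
      have := ModularGroup.im_smul_eq_div_normSq δ⁻¹ τ
      rwa [hwτ] at this
    have hn : ((Complex.normSq c : ℝ) : ℂ) = c * conj c := (Complex.mul_conj c).symm
    have hcc : conj c ≠ 0 := by rwa [Ne, map_eq_zero]
    unfold Jfun
    rw [hder, hdens, him, hb']
    push_cast
    rw [hn]
    simp only [map_div₀, map_one, map_pow, map_inv₀]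
    field_simp
  · have hmem : ((δ • w : ℍ) : ℂ) ∉ strip (hw N δ) Y := hw'
    rw [Set.indicator_of_notMem hw', Set.indicator_of_notMem hmem]
    simp

include H1 in
lemma integrable_Psi (hY : 1 ≤ Y) (hq₁ : q₁ ≠ 0)
    (hsmall : 6 * ‖q₁‖ < Real.exp (-(2 * π * Y / hw N δ))) :
    Integrable (Psi N δ f dens Y) := by
  have h1 : Psi N δ f dens Y = fun w => Kfun N δ f s Y q₁ (δ • w) :=
    funext (Psi_eq_Kfun N δ f s dens H1)
  rw [h1]
  have hmp : MeasurePreserving (fun w : ℍ => δ • w) volume volume :=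
    measurePreserving_smul δ (volume : Measure ℍ)
  have hme : MeasurableEmbedding (fun w : ℍ => δ • w) := measurableEmbedding_const_smul δ
  exact (hmp.integrable_comp_emb hme (g := Kfun N δ f s Y q₁)).mpr
    (integrable_Kfun N δ f s hY hq₁ hsmall)

include H1 in
lemma integral_Psi : ∫ w : ℍ, Psi N δ f dens Y w = ∫ τ : ℍ, Kfun N δ f s Y q₁ τ := by
  have h1 : Psi N δ f dens Y = fun w => Kfun N δ f s Y q₁ (δ • w) :=
    funext (Psi_eq_Kfun N δ f s dens H1)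
  rw [h1]
  exact integral_smul_eq_self (Kfun N δ f s Y q₁) (g := δ)

lemma conj_T_width_mem : δ⁻¹ * T ^ (width N δ) * δ ∈ Gamma0 N := by
  have := (conj_T_zpow_mem_iff N δ (width N δ : ℤ)).mpr dvd_rfl
  rwa [zpow_natCast] at this

include H1 H2 in
/-- **(PC-4), the unfolding integral at a cusp.** -/
theorem ipart_cusp (hY : 1 ≤ Y) (hq₁ : q₁ ≠ 0)
    (hsmall : 6 * ‖q₁‖ < Real.exp (-(2 * π * Y / hw N δ))) :
    Ipart volume (wΓ (Gamma0 N)) (Jfun N f dens) =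
      s * (π * Complex.I) * (Ahat f δ (width N δ) 0 - Ahat f δ (width N δ) q₁) := by
  have hp := hw_pos N δ
  have hmem := conj_T_width_mem N δ
  have hwpos := width_pos N δ
  rw [Fermat.Agent.M17.UnfoldLoc3.ipart_orbit_sum (isPartition_wΓ (Gamma0 N))
    (integrable_Psi N δ f s dens H1 hY hq₁ hsmall)
    (Filter.Eventually.of_forall (hasSum_Psi N δ f s dens H1 H2 hY)),
    integral_Psi N δ f s dens H1, integral_Kfun, integral_Hfun N δ f s hY]
  have hÂ : DifferentiableOn ℂ (Ahat f δ (width N δ))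
      (Metric.ball 0 (Real.exp (-(2 * π * Y / hw N δ)))) := by
    refine (differentiableOn_Ahat f δ (width N δ) hwpos hmem).mono (Metric.ball_subset_ball ?_)
    rw [Real.exp_le_one_iff, neg_nonpos]
    have : 0 ≤ Y := by linarith
    positivity
  have hA : ∀ τ : ℂ, Y < τ.im → Ad f δ τ = Ahat f δ (width N δ) (qh (hw N δ) τ) := by
    intro τ _
    exact (Ahat_qParam f δ (width N δ) hwpos hmem τ).symm
  rw [integral_strip_dbar2_ellc_mul_deriv (h := hw N δ) (Y := Y) hp hq₁ hsmall hÂ hA]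
  ring

omit H1 H2 in
/-- **(PC-4)** for the normalised basis of a `LatData`: the value is `s π i (Ac_k - A_k(δ⁻¹ τ₁))`,
`q₁ = q_h(τ₁)`. -/
theorem ipart_cusp_lat {g : ℕ} (L : Fermat.Agent.M17.Interfaces7.LatData N g) (k : Fin g)
    {Ac : Fin g → ℂ} (hAc : Tendsto (fun τ : ℍ => L.A (δ⁻¹ • τ)) atImInfty (𝓝 Ac))
    (τ₁ : ℍ) (s : ℂ) (dens : ℍ → ℂ)
    (H1 : ∀ (z : ℍ) (γ : Gamma0 N), Y < (δ • (γ : SL(2, ℤ)) • z).im →
      dens z = s * dbar2 (ellc (hw N δ) (qh (hw N δ) τ₁)) ↑(δ • (γ : SL(2, ℤ)) • z) *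
        conj (1 / denom ((δ * (γ : SL(2, ℤ)) : SL(2, ℤ)) : GL (Fin 2) ℝ) z ^ 2))
    (H2 : ∀ z : ℍ, (∀ γ : Gamma0 N, (δ • (γ : SL(2, ℤ)) • z).im ≤ Y) → dens z = 0)
    (hY : 1 ≤ Y)
    (hsmall : 6 * ‖qh (hw N δ) τ₁‖ < Real.exp (-(2 * π * Y / hw N δ))) :
    Ipart volume (wΓ (Gamma0 N)) (Jfun N (L.w k) dens) =
      s * (π * Complex.I) * (Ac k - L.A (δ⁻¹ • τ₁) k) := by
  have hmem := conj_T_width_mem N δ
  have hwpos := width_pos N δ
  obtain ⟨-, h2, -, h4⟩ := cusp_data L δ (width N δ) hwpos hmem hAc k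
  rw [ipart_cusp N δ (L.w k) s dens H1 H2 hY (qh_ne_zero _) hsmall, h4]
  have : qh (hw N δ) (τ₁ : ℂ) = Complex.exp (2 * π * Complex.I * (τ₁ : ℂ) / ((width N δ : ℕ) : ℝ)) :=
    rfl
  rw [this, h2 τ₁]

end

end Fermat.Agent.M17.RecipCuspInt5
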