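import Fermat.Agent.M17.RecipFam8
import Fermat.Agent.M17.RecipCuspInt5
import Fermat.Agent.M17.CuspFam4
import Fermat.Agent.M17.RLClose0

/-!
# Programme M17, block (RL), point-to-cusp half: the final assembly from the leaves

`addRL_pc_of_leaves`: the additive reciprocity law for `pt z₁ - cusp δ` (`z₁ = δ⁻¹ τ₁`) from the
leaves (PC-A) Adapted, (PC-B) CuspHyp, (PC-C) the support bound, (PC-D) the local formulas for the
density of the cusp family, on top of `RecipFam8.exists_psi` and `RecipCuspInt5.ipart_cusp_lat`.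

Imported by no statement.
-/

set_option autoImplicit false
set_option linter.unusedSectionVars false

open UpperHalfPlane hiding I
open Complex CongruenceSubgroup Filter Set MeasureTheory AlgebraicCurve
open scoped MatrixGroups ModularForm Topology ContDiff Modular Real

noncomputable section

namespace Fermat.Agent.M17.RecipCuspDry7

open ModularCurve ModularCurve.Period
open Fermat.Agent.X0 Fermat.Agent.ES.KUM Fermat.Agent.X0.SurjPoint Fermat.Agent.ES.KUM.CCusp16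
open Fermat.Agent.M15.DivLogMer1
open Fermat.Agent.M17.Interfaces7 Fermat.Agent.M17.MultAJ4 Fermat.Agent.M17.AJAssembly7
open Fermat.Agent.M17.RiemannSymmetric2 Fermat.Agent.M17.RLFinal3
open Fermat.Agent.M17.ModelFam8 Fermat.Agent.M17.RecipFam8 Fermat.Agent.M17.CuspFam4
open Fermat.Agent.M17.CuspModel4 Fermat.Agent.M17.CauchyPompeiu5

variable {N : ℕ} [NeZero N] {g : ℕ} (L : LatData N g)

/-- the additive reciprocity law is stable under `Δ ↦ -Δ`. -/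
theorem addRL_neg {Δ : Divisor ℂ (FC N)} {v : Fin g → ℂ} (h : AddRL L Δ v) :
    AddRL L (-Δ) (-v) := by
  obtain ⟨F, χ, ψ, hF, hexp, hEC⟩ := h
  refine ⟨F⁻¹, fun γ => (χ γ)⁻¹, -ψ, isAutPair_inv N hF, fun γ => ?_, fun k => ?_⟩
  · have : ev (-ψ) γ = -ev ψ γ := by
      unfold ev
      simp
    rw [this, Complex.exp_neg, hexp γ]
  · rw [map_neg, hEC k, Pi.neg_apply]
    ring

/-- the divisor `cusp δ - pt z₁` has degree zero. -/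
theorem mem_degZero_cusp_sub_pt (δ : SL(2, ℤ)) (z₁ : ℍ) :
    (Finsupp.single (cuspPlaceC N δ) (1 : ℤ) - Finsupp.single (ptPlaceC N 1 z₁) 1 :
      Divisor ℂ (FC N)) ∈ Divisor.degZero (K := ℂ) (F := FC N) := by
  rw [Divisor.mem_degZero, map_sub, Divisor.degree_single, Divisor.degree_single,
    Fermat.Agent.ES.KUM.FieldL25.deg_eq_one_L ℂ N, Fermat.Agent.ES.KUM.FieldL25.deg_eq_one_L ℂ N,
    sub_self]

/-- a point `τ₁` high enough for `CuspFam4.Setup`. -/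
theorem exists_setup (δ : SL(2, ℤ)) : ∃ τ₁ : ℍ, Setup N δ (qh (hw N δ) (τ₁ : ℂ)) := by
  have hh := hw_pos N δ
  have ht : 0 < 1 + hw N δ := by linarith
  refine ⟨⟨⟨0, 1 + hw N δ⟩, ht⟩, qh_ne_zero _, ?_⟩
  rw [norm_qh]
  have him : ((⟨⟨0, 1 + hw N δ⟩, ht⟩ : ℍ) : ℂ).im = 1 + hw N δ := rfl
  rw [him]
  have e : -(2 * π * (1 + hw N δ) / hw N δ) = -(2 * π * 1 / hw N δ) + -(2 * π) := by
    field_simp
    ring
  rw [e, Real.exp_add]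
  have h1 : 6 * Real.exp (-(2 * π)) < 1 := by
    have h2 : Real.exp (-(2 * π)) = (Real.exp (2 * π))⁻¹ := Real.exp_neg _
    rw [h2]
    have h3 : (6 : ℝ) < Real.exp (2 * π) := by
      have h4 : 2 * π + 1 ≤ Real.exp (2 * π) := Real.add_one_le_exp _
      have := Real.pi_gt_three
      linarith
    have h5 : 0 < Real.exp (2 * π) := Real.exp_pos _
    rw [← div_eq_mul_inv, div_lt_one h5]
    exact h3
  have h6 : 0 < Real.exp (-(2 * π * 1 / hw N δ)) := Real.exp_pos _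
  nlinarith

/-- **(PC-E)**: the additive reciprocity law for `pt z₁ - cusp δ`, `z₁ = δ⁻¹ τ₁`, from the leaves. -/
theorem addRL_pc_of_leaves (δ : SL(2, ℤ)) (τ₁ : ℍ) (hS : Setup N δ (qh (hw N δ) (τ₁ : ℂ)))
    (hA : ∀ F : MerH, IsAutDiv N F (Finsupp.single (cuspPlaceC N δ) 1 -
        Finsupp.single (ptPlaceC N 1 (δ⁻¹ • τ₁)) 1) →
      (cuspFamily N δ (qh (hw N δ) (τ₁ : ℂ)) hS).Adapted F)
    (hB : ∀ F : MerH, IsAutDiv N F (Finsupp.single (cuspPlaceC N δ) 1 -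
        Finsupp.single (ptPlaceC N 1 (δ⁻¹ • τ₁)) 1) →
      CuspHyp (cuspFamily N δ (qh (hw N δ) (τ₁ : ℂ)) hS) F)
    (hC : ∃ M₀ : ℝ, 1 ≤ M₀ ∧ ∀ z : ℍ, dens (cuspFamily N δ (qh (hw N δ) (τ₁ : ℂ)) hS) z ≠ 0 →
      ∀ g : SL(2, ℤ), g • z ∈ (𝒟 : Set ℍ) → normSq ((g • z : ℍ) : ℂ) ≤ M₀)
    (H1 : ∀ (z : ℍ) (γ : Gamma0 N), 1 < (δ • (γ : SL(2, ℤ)) • z).im →
      dens (cuspFamily N δ (qh (hw N δ) (τ₁ : ℂ)) hS) z =
        1 * dbar2 (ellc (hw N δ) (qh (hw N δ) (τ₁ : ℂ))) ↑(δ • (γ : SL(2, ℤ)) • z) *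
          (starRingEnd ℂ) (1 / denom ((δ * (γ : SL(2, ℤ)) : SL(2, ℤ)) : GL (Fin 2) ℝ) z ^ 2))
    (H2 : ∀ z : ℍ, (∀ γ : Gamma0 N, (δ • (γ : SL(2, ℤ)) • z).im ≤ 1) →
      dens (cuspFamily N δ (qh (hw N δ) (τ₁ : ℂ)) hS) z = 0) :
    AddRL L (Finsupp.single (ptPlaceC N 1 (δ⁻¹ • τ₁)) 1 - Finsupp.single (cuspPlaceC N δ) 1)
      (L.A (δ⁻¹ • τ₁) - AcOf L δ) := by
  obtain ⟨F, χ, hpair⟩ := exists_isAutPair N _ (mem_degZero_cusp_sub_pt (N := N) δ (δ⁻¹ • τ₁))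
  obtain ⟨M₀, hM₀, hsupp⟩ := hC
  obtain ⟨ψ, hexp, hEC⟩ := exists_psi (hA F hpair.1) hpair.2.2 (hB F hpair.1) hM₀ hsupp
  have key : AddRL L (Finsupp.single (cuspPlaceC N δ) 1 -
      Finsupp.single (ptPlaceC N 1 (δ⁻¹ • τ₁)) 1) (AcOf L δ - L.A (δ⁻¹ • τ₁)) := by
    refine ⟨F, χ, ψ, hpair, hexp, fun k => ?_⟩
    rw [hEC (L.w k)]
    have hI := Fermat.Agent.M17.RecipCuspInt5.ipart_cusp_lat N δ L k (AcOf_spec L δ) τ₁ 1
      (dens (cuspFamily N δ (qh (hw N δ) (τ₁ : ℂ)) hS)) H1 H2 le_rfl hS.small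
    unfold Fermat.Agent.M17.RecipCuspInt5.Jfun at hI
    rw [hI, Pi.sub_apply]
    ring
  have := addRL_neg L key
  rwa [neg_sub, neg_sub] at this

/-- **`addRL_pc`** in the literal shape of `RLClose0.s17_of_addRL`, from the leaves. -/
theorem addRL_pc_of (δ : SL(2, ℤ))
    (hleaves : ∀ (τ₁ : ℍ) (hS : Setup N δ (qh (hw N δ) (τ₁ : ℂ))),
      (∀ F : MerH, IsAutDiv N F (Finsupp.single (cuspPlaceC N δ) 1 -
          Finsupp.single (ptPlaceC N 1 (δ⁻¹ • τ₁)) 1) →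
        (cuspFamily N δ (qh (hw N δ) (τ₁ : ℂ)) hS).Adapted F ∧
          CuspHyp (cuspFamily N δ (qh (hw N δ) (τ₁ : ℂ)) hS) F) ∧
      (∃ M₀ : ℝ, 1 ≤ M₀ ∧ ∀ z : ℍ, dens (cuspFamily N δ (qh (hw N δ) (τ₁ : ℂ)) hS) z ≠ 0 →
        ∀ g : SL(2, ℤ), g • z ∈ (𝒟 : Set ℍ) → normSq ((g • z : ℍ) : ℂ) ≤ M₀) ∧
      (∀ (z : ℍ) (γ : Gamma0 N), 1 < (δ • (γ : SL(2, ℤ)) • z).im →
        dens (cuspFamily N δ (qh (hw N δ) (τ₁ : ℂ)) hS) z =
          1 * dbar2 (ellc (hw N δ) (qh (hw N δ) (τ₁ : ℂ))) ↑(δ • (γ : SL(2, ℤ)) • z) *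
            (starRingEnd ℂ) (1 / denom ((δ * (γ : SL(2, ℤ)) : SL(2, ℤ)) : GL (Fin 2) ℝ) z ^ 2)) ∧
      (∀ z : ℍ, (∀ γ : Gamma0 N, (δ • (γ : SL(2, ℤ)) • z).im ≤ 1) →
        dens (cuspFamily N δ (qh (hw N δ) (τ₁ : ℂ)) hS) z = 0)) :
    ∃ z₁ : ℍ, AddRL L (Finsupp.single (ptPlaceC N 1 z₁) 1 - Finsupp.single (cuspPlaceC N δ) 1)
      (L.A z₁ - AcOf L δ) := by
  obtain ⟨τ₁, hS⟩ := exists_setup (N := N) δ
  obtain ⟨hAB, hC, H1, H2⟩ := hleaves τ₁ hS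
  exact ⟨δ⁻¹ • τ₁, addRL_pc_of_leaves L δ τ₁ hS (fun F hF => (hAB F hF).1)
    (fun F hF => (hAB F hF).2) hC H1 H2⟩

end Fermat.Agent.M17.RecipCuspDry7
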