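/-
M17 (helper1): (RL-pc), the `hol` half of `RecipFam8.CuspHyp` for helper4's cusp family
`CuspFam4.cuspFamily N δ q₂ hS`: the density vanishes high in EVERY cusp chart `g⁻¹ • τ`
(equivalent or not to the cusp `δ`).  From `RecipCuspSupp1.exists_im_of_dens_ne_zero` and the
precise invariance `CuspNbhd4.exists_T_zpow_of_one_lt_im`.
-/
import Mathlib
import Fermat.Agent.M17.RecipCuspSupp1

set_option autoImplicit false
set_option linter.unusedSectionVars false

open UpperHalfPlane hiding I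
open Complex CongruenceSubgroup Filter Set MeasureTheory
open scoped MatrixGroups ModularForm Topology ComplexConjugate Modular Real

namespace Fermat.Agent.M17.RecipCuspHol1

open Fermat.Agent.M17.CuspFam4 Fermat.Agent.M17.ModelFam8 Fermat.Agent.M17.RecipFam8
  Fermat.Agent.M17.CuspNbhd4 Fermat.Agent.M17.RecipCuspSupp1

variable {N : ℕ} [NeZero N] {δ : SL(2, ℤ)} {q₂ : ℂ}

/-- **`CuspHyp.hol` for the cusp family**: the density vanishes high in every cusp chart. -/
theorem hol (hS : Setup N δ q₂) (g : SL(2, ℤ)) :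
    ∃ Y₀ : ℝ, ∀ τ : ℍ, Y₀ < τ.im → dens (cuspFamily N δ q₂ hS) (g⁻¹ • τ) = 0 := by
  refine ⟨max 1 (-(hw N δ / (2 * π)) * Real.log ‖q₂‖), fun τ hτ => ?_⟩
  by_contra hne
  obtain ⟨γ, h1, h2⟩ := exists_im_of_dens_ne_zero hS hne
  rw [← mul_smul] at h1 h2
  have hτ1 : 1 < τ.im := lt_of_le_of_lt (le_max_left _ _) hτ
  have hτ2 : -(hw N δ / (2 * π)) * Real.log ‖q₂‖ < τ.im := lt_of_le_of_lt (le_max_right _ _) hτ
  obtain ⟨k, hk | hk⟩ := exists_T_zpow_of_one_lt_im hτ1 h1
  · rw [hk, T_zpow_smul, UpperHalfPlane.vadd_im] at h2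
    linarith
  · rw [hk, ModularGroup.SL_neg_smul, T_zpow_smul, UpperHalfPlane.vadd_im] at h2
    linarith

end Fermat.Agent.M17.RecipCuspHol1
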