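/-
M17 (target S17), block (RL), point-to-cusp half, leaf (PC-L) (lead): **the cusp limits of the
regularised quotient `GH F` of the cusp family, at EVERY cusp**, from the two cases

* (L1) cusps equivalent to `δ` (`g = T ^ k * δ * γ`, `γ ∈ Γ₀(N)`): `F` has order `cuspIdx N g` there;
* (L2) cusps not equivalent to `δ`: `F` has order `0` there,

taken as hypotheses in helper4's literal shapes (board 1236), and the dichotomy
`cuspPlaceC N g = cuspPlaceC N δ ↔ ∃ γ k, g = T ^ k * δ * γ`.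

Imported by no statement.
-/
import Mathlib
import Fermat.Agent.M17.CuspFam4
import Fermat.Agent.M17.Interfaces7
import Fermat.Agent.ES.KUM.CCuspExact16
import Fermat.Agent.ES.KUM.CSurj25

set_option autoImplicit false

open UpperHalfPlane Filter Topology Set
open scoped MatrixGroups
open CongruenceSubgroup

namespace Fermat.Agent.M17.RecipCuspLim0

open Fermat.Agent.X0 Fermat.Agent.X0.SurjPoint Fermat.Agent.ES.KUM Fermat.Agent.ES.KUM.CCusp16
  Fermat.Agent.M17.ModelFam8 Fermat.Agent.M17.CuspFam4 Fermat.Agent.M17.Interfaces7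
  ModularCurve AlgebraicCurve

local notation "T" => (ModularGroup.T : SL(2, ℤ))

variable (N : ℕ) [NeZero N] (δ : SL(2, ℤ))

/-- **the dichotomy**: two elements of `SL(2, ℤ)` give the same cusp place iff they differ by a power
of `T` on the left and an element of `Γ₀(N)` on the right. -/
theorem cuspPlaceC_eq_iff (g : SL(2, ℤ)) :
    cuspPlaceC N g = cuspPlaceC N δ ↔
      ∃ (γ : ↥(Gamma0 N)) (k : ℤ), g = T ^ k * δ * (γ : SL(2, ℤ)) := by
  constructor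
  · intro h
    have h1 : cuspPlaceXC N (QuotientGroup.mk g) = cuspPlaceXC N (QuotientGroup.mk δ) := h
    rw [cuspPlaceXC_eq_iff] at h1
    obtain ⟨⟨t, ht⟩, hte⟩ := h1
    obtain ⟨k, rfl⟩ := Subgroup.mem_zpowers_iff.1 ht
    have h2 : (QuotientGroup.mk (T ^ k * δ) : SL(2, ℤ) ⧸ Gamma0 N) = QuotientGroup.mk g := hte
    rw [QuotientGroup.eq] at h2
    refine ⟨⟨(T ^ k * δ)⁻¹ * g, h2⟩, k, ?_⟩
    show g = T ^ k * δ * ((T ^ k * δ)⁻¹ * g)
    rw [mul_inv_cancel_left]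
  · rintro ⟨γ, k, rfl⟩
    rw [cuspPlaceC_mul_right N _ _ γ.2, cuspPlaceC_T_zpow_mul]

variable {N δ} {q₂ : ℂ}

/-- **(PC-L)**: the cusp limits of `GH F` for an automorphic function with divisor
`(cusp δ) - (z₁)`, at every cusp, from the two cases (L1), (L2). -/
theorem tendsto_GH_cusp_of (hS : Setup N δ q₂) {F : MerH} {z₁ : ℍ}
    (hF : IsAutDiv N F
      (Finsupp.single (cuspPlaceC N δ) 1 - Finsupp.single (ptPlaceC N 1 z₁) 1))
    (L1 : ∀ (g : SL(2, ℤ)) (γ : ↥(Gamma0 N)) (k : ℤ), g = T ^ k * δ * (γ : SL(2, ℤ)) →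
      CuspOrdIs N F g (cuspIdx N g) → ∃ ℓ : ℂ, ℓ ≠ 0 ∧
        Tendsto (fun τ : ℍ => (cuspFamily N δ q₂ hS).GH F (g⁻¹ • τ)) atImInfty (𝓝 ℓ))
    (L2 : ∀ g : SL(2, ℤ), (¬ ∃ (γ : ↥(Gamma0 N)) (k : ℤ), g = T ^ k * δ * (γ : SL(2, ℤ))) →
      CuspOrdIs N F g 0 → ∃ ℓ : ℂ, ℓ ≠ 0 ∧
        Tendsto (fun τ : ℍ => (cuspFamily N δ q₂ hS).GH F (g⁻¹ • τ)) atImInfty (𝓝 ℓ))
    (g : SL(2, ℤ)) :
    ∃ ℓ : ℂ, ℓ ≠ 0 ∧
      Tendsto (fun τ : ℍ => (cuspFamily N δ q₂ hS).GH F (g⁻¹ • τ)) atImInfty (𝓝 ℓ) := by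
  classical
  have hord := hF.2.2 g
  have hpt : (Finsupp.single (ptPlaceC N 1 z₁) (1 : ℤ)) (cuspPlaceC N g) = 0 := by
    rw [Finsupp.single_apply, if_neg (CSurj25.ptPlaceC_ne_cuspPlaceC N 1 g z₁)]
  by_cases he : cuspPlaceC N g = cuspPlaceC N δ
  · obtain ⟨γ, k, hg⟩ := (cuspPlaceC_eq_iff N δ g).1 he
    refine L1 g γ k hg ?_
    have h1 : (Finsupp.single (cuspPlaceC N δ) 1 - Finsupp.single (ptPlaceC N 1 z₁) 1 :
        Divisor ℂ (FC N)) (cuspPlaceC N g) = 1 := by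
      rw [Finsupp.sub_apply, hpt, he, Finsupp.single_eq_same, sub_zero]
    rw [h1, one_mul] at hord
    exact hord
  · refine L2 g (fun h => he ((cuspPlaceC_eq_iff N δ g).2 h)) ?_
    have h1 : (Finsupp.single (cuspPlaceC N δ) 1 - Finsupp.single (ptPlaceC N 1 z₁) 1 :
        Divisor ℂ (FC N)) (cuspPlaceC N g) = 0 := by
      rw [Finsupp.sub_apply, hpt, Finsupp.single_apply, if_neg (fun h => he h.symm), sub_zero]
    rw [h1, zero_mul] at hord
    exact hord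

end Fermat.Agent.M17.RecipCuspLim0
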