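/-
Programme M17 (S17), helper3: (RL-pc), leaf (PC-B3) - the limit of the regularised quotient
`GH F` of the cusp family `CuspFam4.cuspFamily N δ q₂` at the cusps EQUIVALENT to `δ`.

For `g = T^k δ γ₀` (`γ₀ ∈ Γ₀(N)`) and `z = g⁻¹ τ`, `im τ` large: the only relevant parameter at `z`
is `u₀ = q_h ∘ (δ γ₀)`, `u₀ z = q_h (τ - k)` is small, the logarithmic correction vanishes and
`GH F z = F(z) · (u₀ z - q₂) / u₀ z`; as `F` has order `1` in `q_h` at this cusp, the limit is a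
nonzero multiple of `-q₂`.

Imported by no statement.
-/
import Mathlib
import Fermat.Agent.M17.CuspFam4
import Fermat.Agent.M17.Interfaces7
import Fermat.Agent.ES.KUM.CSurj25

set_option autoImplicit false

open UpperHalfPlane hiding I
open Complex CongruenceSubgroup Filter Set MulAction Subgroup
open scoped MatrixGroups Topology Real

noncomputable section

namespace Fermat.Agent.M17.RecipCuspLim3

open Fermat.Agent.X0 Fermat.Agent.X0.SurjPoint Fermat.Agent.ES.KUM Fermat.Agent.M15.DivLogMer1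
  Fermat.Agent.M15.DivLogPrim1 Fermat.Agent.M15.DivDlog1 Fermat.Agent.M17.MerEval8
  Fermat.Agent.M17.LocalModel8 Fermat.Agent.M17.ModelFam8 Fermat.Agent.M17.CuspNbhd4
  Fermat.Agent.M17.CuspModel4 Fermat.Agent.M17.CuspFam4 Fermat.Agent.M17.Interfaces7
  Fermat.Agent.ES.KUM.CCusp16

local notation "ι" => algebraMap HolH MerH
local notation "T" => (ModularGroup.T : SL(2, ℤ))

variable {N : ℕ} [NeZero N]

/-! ### equivalence of cusps -/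

/-- two elements of `SL(2, ℤ)` define the same cusp place iff they lie in the same double coset
`⟨T⟩ \ SL(2, ℤ) / Γ₀(N)`. -/
theorem cuspPlaceC_eq_iff (g δ : SL(2, ℤ)) :
    cuspPlaceC N g = cuspPlaceC N δ ↔ ∃ (k : ℤ) (γ : ↥(Gamma0 N)), g = T ^ k * δ * (γ : SL(2, ℤ)) := by
  rw [← cuspPlaceXC_mk N g, ← cuspPlaceXC_mk N δ, cuspPlaceXC_eq_iff]
  constructor
  · rintro ⟨⟨t, k, rfl⟩, ht⟩
    have h1 : ((T ^ k * δ : SL(2, ℤ)) : SL(2, ℤ) ⧸ Gamma0 N) = (g : SL(2, ℤ) ⧸ Gamma0 N) := ht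
    rw [QuotientGroup.eq] at h1
    refine ⟨k, ⟨_, h1⟩, ?_⟩
    show g = T ^ k * δ * ((T ^ k * δ)⁻¹ * g)
    rw [mul_inv_cancel_left]
  · rintro ⟨k, γ, rfl⟩
    refine ⟨⟨T ^ k, k, rfl⟩, ?_⟩
    show ((T ^ k * δ : SL(2, ℤ)) : SL(2, ℤ) ⧸ Gamma0 N) = ((T ^ k * δ * (γ : SL(2, ℤ)) : SL(2, ℤ)) :
      SL(2, ℤ) ⧸ Gamma0 N)
    rw [QuotientGroup.eq, inv_mul_cancel_left]
    exact γ.2

/-! ### the relevant parameter high in the cusp -/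

variable {δ : SL(2, ℤ)} {q₂ : ℂ}

/-- the chart: `(δ γ₀) • (g⁻¹ • τ) = τ - k` for `g = T^k δ γ₀`. -/
theorem chart_smul {g : SL(2, ℤ)} {k : ℤ} {γ₀ : ↥(Gamma0 N)}
    (hg : g = T ^ k * δ * (γ₀ : SL(2, ℤ))) (τ : ℍ) :
    (δ * (γ₀ : SL(2, ℤ))) • (g⁻¹ • τ) = ((-k : ℤ) : ℝ) +ᵥ τ := by
  rw [← mul_smul, hg, ← T_zpow_smul]
  congr 1
  rw [zpow_neg]
  group

/-- the value of the parameter `u₀ = q_h ∘ (δ γ₀)` at `g⁻¹ • τ`. -/
theorem mkQ_apply_chart {g : SL(2, ℤ)} {k : ℤ} {γ₀ : ↥(Gamma0 N)}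
    (hg : g = T ^ k * δ * (γ₀ : SL(2, ℤ))) (τ : ℍ) :
    ((mkQ N δ γ₀).1 : ℍ → ℂ) (g⁻¹ • τ) =
      qh (hw N δ) (τ : ℂ) * Complex.exp (-(2 * π * I * k / hw N δ)) := by
  show ((uH N δ (γ₀ : SL(2, ℤ)) : HolH) : ℍ → ℂ) (g⁻¹ • τ) = _
  rw [uH_apply, chart_smul hg τ, UpperHalfPlane.coe_vadd]
  unfold Fermat.Agent.M17.CuspModel4.qh
  rw [← Complex.exp_add]
  congr 1
  push_cast
  ring

theorem norm_mkQ_apply_chart {g : SL(2, ℤ)} {k : ℤ} {γ₀ : ↥(Gamma0 N)}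
    (hg : g = T ^ k * δ * (γ₀ : SL(2, ℤ))) (τ : ℍ) :
    ‖((mkQ N δ γ₀).1 : ℍ → ℂ) (g⁻¹ • τ)‖ = Real.exp (-(2 * π * τ.im / hw N δ)) := by
  show ‖((uH N δ (γ₀ : SL(2, ℤ)) : HolH) : ℍ → ℂ) (g⁻¹ • τ)‖ = _
  rw [norm_uH, chart_smul hg τ, UpperHalfPlane.vadd_im]

/-- the parameter tends to `0` at the cusp. -/
theorem tendsto_mkQ_chart {g : SL(2, ℤ)} {k : ℤ} {γ₀ : ↥(Gamma0 N)}
    (hg : g = T ^ k * δ * (γ₀ : SL(2, ℤ))) :
    Tendsto (fun τ : ℍ => ((mkQ N δ γ₀).1 : ℍ → ℂ) (g⁻¹ • τ)) atImInfty (𝓝 0) := by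
  rw [tendsto_zero_iff_norm_tendsto_zero]
  simp only [norm_mkQ_apply_chart hg]
  have hh := hw_pos N δ
  have h1 : Tendsto (fun τ : ℍ => τ.im) atImInfty atTop := tendsto_comap
  have h2 : Tendsto (fun y : ℝ => -(2 * π * y / hw N δ)) atTop atBot := by
    apply tendsto_neg_atTop_atBot.comp
    have : (fun y : ℝ => 2 * π * y / hw N δ) = fun y : ℝ => (2 * π / hw N δ) * y := by
      funext y; ring
    rw [this]
    exact tendsto_id.const_mul_atTop (by positivity)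
  exact Real.tendsto_exp_atBot.comp (h2.comp h1)

/-- high in the cusp, `u₀` is the only relevant parameter and the correction `ell` vanishes. -/
theorem eventually_Qs_eq (hS : Setup N δ q₂) {g : SL(2, ℤ)} {k : ℤ} {γ₀ : ↥(Gamma0 N)}
    (hg : g = T ^ k * δ * (γ₀ : SL(2, ℤ))) :
    ∀ᶠ τ : ℍ in atImInfty, (cuspFamily N δ q₂ hS).Qs (g⁻¹ • τ) = {mkQ N δ γ₀} ∧
      (cuspFamily N δ q₂ hS).l (mkQ N δ γ₀) (g⁻¹ • τ) = 0 := by
  have h0 : 0 < ‖q₂‖ := norm_pos_iff.mpr hS.ne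
  have h1 : ∀ᶠ τ : ℍ in atImInfty, ‖((mkQ N δ γ₀).1 : ℍ → ℂ) (g⁻¹ • τ)‖ < ‖q₂‖ := by
    have := (tendsto_mkQ_chart (N := N) hg).norm
    rw [norm_zero] at this
    exact this.eventually (gt_mem_nhds h0)
  filter_upwards [h1] with τ hτ
  have hs : sfun 0 q₂ (((mkQ N δ γ₀).1 : ℍ → ℂ) (g⁻¹ • τ)) ≤ 4 :=
    sfun_le_four_of_norm_le hS.ne hτ.le
  constructor
  · refine Qs_subset_singleton hS ?_
    rw [mem_cuspFamily_Qs]
    linarith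
  · rw [cuspFamily_l]
    unfold ell
    rw [phi_eq_one hs, sub_self, zero_mul]

/-! ### the limit -/

/-- **(PC-B3), concrete form.** -/
theorem tendsto_GH_cusp (hS : Setup N δ q₂) {F : MerH} (g : SL(2, ℤ)) (k : ℤ) (γ₀ : ↥(Gamma0 N))
    (hg : g = T ^ k * δ * (γ₀ : SL(2, ℤ))) (hord : CuspOrdIs N F g (cuspIdx N g)) :
    ∃ ℓ : ℂ, ℓ ≠ 0 ∧
      Tendsto (fun τ : ℍ => (cuspFamily N δ q₂ hS).GH F (g⁻¹ • τ)) atImInfty (𝓝 ℓ) := by
  obtain ⟨a, b, ℓ₀, hb, hℓ₀, hF, hlim⟩ := hord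
  set q₀ : Q N δ := mkQ N δ γ₀ with hq₀
  set c : ℂ := Complex.exp (-(2 * π * I * k / hw N δ)) with hc
  have hc0 : c ≠ 0 := Complex.exp_ne_zero _
  have hh := hw_pos N δ
  -- `cuspIdx N g * h = N`
  have hidx : (cuspIdx N g : ℂ) * (hw N δ : ℂ) = (N : ℂ) := by
    have h1 : cuspIdx N g = cuspIdx N δ := by
      rw [hg, cuspIdx_mul_right N _ _ γ₀.2, cuspIdx_T_zpow_mul]
    have h2 := cuspIdx_mul_width N δ
    rw [h1]
    unfold hw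
    exact_mod_cast h2
  have hNne : (N : ℂ) ≠ 0 := by exact_mod_cast NeZero.ne N
  have hhne : (hw N δ : ℂ) ≠ 0 := by exact_mod_cast hh.ne'
  -- the exponential factor of `CuspOrdIs` is `1 / q_h`
  have hexp : ∀ τ : ℍ, Complex.exp (-(2 * π * I * ((cuspIdx N g : ℕ) : ℤ) * (τ : ℂ)) / N) =
      (qh (hw N δ) (τ : ℂ))⁻¹ := by
    intro τ
    unfold Fermat.Agent.M17.CuspModel4.qh
    rw [← Complex.exp_neg]
    congr 1
    have : ((cuspIdx N g : ℕ) : ℂ) = (N : ℂ) / (hw N δ : ℂ) := by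
      rw [eq_div_iff hhne]
      exact hidx
    push_cast
    rw [this]
    field_simp
  -- `F = a / b`
  have hbι : ι b ≠ 0 := iota_ne_zero hb
  have hFab : F = ι a / ι b := by
    rw [eq_div_iff hbι]
    exact hF
  -- eventually `b ≠ 0`
  have hbz : ∀ᶠ τ : ℍ in atImInfty, (b : ℍ → ℂ) (g⁻¹ • τ) ≠ 0 := by
    have h1 := hlim.eventually_ne hℓ₀
    filter_upwards [h1] with τ hτ hb0
    apply hτ
    rw [hb0, div_zero, zero_mul]
  -- the value of `GH`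
  have hval : ∀ᶠ τ : ℍ in atImInfty, (cuspFamily N δ q₂ hS).GH F (g⁻¹ • τ) =
      ((a : ℍ → ℂ) (g⁻¹ • τ) / (b : ℍ → ℂ) (g⁻¹ • τ) *
        Complex.exp (-(2 * π * I * ((cuspIdx N g : ℕ) : ℤ) * (τ : ℂ)) / N)) *
        (((q₀.1 : ℍ → ℂ) (g⁻¹ • τ) - q₂) * c⁻¹) := by
    filter_upwards [eventually_Qs_eq hS hg, hbz] with τ hτ hbτ
    obtain ⟨hQs, hl⟩ := hτ
    set z : ℍ := g⁻¹ • τ with hz
    have hu : (q₀.1 : ℍ → ℂ) z = qh (hw N δ) (τ : ℂ) * c := mkQ_apply_chart hg τ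
    have hu0 : (q₀.1 : ℍ → ℂ) z ≠ 0 := q₀.apply_ne_zero z
    have hX : (cuspFamily N δ q₂ hS).X F {q₀} =
        ι (a * (q₀.1 - algebraMap ℂ HolH q₂)) / ι (b * q₀.1) := by
      unfold Family.X
      rw [Finset.prod_singleton, cuspFamily_R, hFab]
      unfold Rq
      rw [map_mul, map_mul, inv_div]
      rw [div_mul_div_comm]
    have hden : ((b * q₀.1 : HolH) : ℍ → ℂ) z ≠ 0 := mul_ne_zero hbτ hu0
    unfold Family.GH Family.Gpart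
    rw [hQs, hX, evM_div _ hden, Finset.sum_singleton, hl, Complex.exp_zero, mul_one, hexp τ]
    show (a : ℍ → ℂ) z * ((q₀.1 : ℍ → ℂ) z - q₂) / ((b : ℍ → ℂ) z * (q₀.1 : ℍ → ℂ) z) = _
    rw [hu]
    have hq : qh (hw N δ) (τ : ℂ) ≠ 0 := qh_ne_zero _
    field_simp
  refine ⟨ℓ₀ * ((0 - q₂) * c⁻¹), ?_, ?_⟩
  · exact mul_ne_zero hℓ₀ (mul_ne_zero (by rw [zero_sub]; exact neg_ne_zero.2 hS.ne)
      (inv_ne_zero hc0))
  · refine Tendsto.congr' (EventuallyEq.symm hval) ?_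
    exact hlim.mul (((tendsto_mkQ_chart (N := N) hg).sub_const q₂).mul_const c⁻¹)

/-- (PC-L1), helper4's literal shape (board 1236). -/
theorem tendsto_GH_of_equiv (hS : Setup N δ q₂) {F : MerH} (g : SL(2, ℤ)) (γ : ↥(Gamma0 N))
    (k : ℤ) (hg : g = T ^ k * δ * (γ : SL(2, ℤ))) (hord : CuspOrdIs N F g (cuspIdx N g)) :
    ∃ ℓ : ℂ, ℓ ≠ 0 ∧
      Tendsto (fun τ : ℍ => (cuspFamily N δ q₂ hS).GH F (g⁻¹ • τ)) atImInfty (𝓝 ℓ) :=
  tendsto_GH_cusp hS g k γ hg hord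

/-- **(PC-B3)**: the limit of `GH F` at the cusps equivalent to `δ`, for `F` with divisor
`(cusp δ) - (pt z₁)`. -/
theorem lim_pc_eq (hS : Setup N δ q₂) {F : MerH} {z₁ : ℍ}
    (hF : IsAutDiv N F (Finsupp.single (cuspPlaceC N δ) 1 - Finsupp.single (ptPlaceC N 1 z₁) 1))
    (g : SL(2, ℤ)) (he : cuspPlaceC N g = cuspPlaceC N δ) :
    ∃ ℓ : ℂ, ℓ ≠ 0 ∧
      Tendsto (fun τ : ℍ => (cuspFamily N δ q₂ hS).GH F (g⁻¹ • τ)) atImInfty (𝓝 ℓ) := by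
  obtain ⟨k, γ₀, hg⟩ := (cuspPlaceC_eq_iff g δ).1 he
  have hord := hF.2.2 g
  have hval : (Finsupp.single (cuspPlaceC N δ) (1 : ℤ) - Finsupp.single (ptPlaceC N 1 z₁) 1 :
      AlgebraicCurve.Divisor ℂ (FC N)) (cuspPlaceC N g) = 1 := by
    rw [he, Finsupp.sub_apply, Finsupp.single_eq_same,
      Finsupp.single_eq_of_ne (Fermat.Agent.ES.KUM.CSurj25.ptPlaceC_ne_cuspPlaceC N 1 δ z₁).symm,
      sub_zero]
  rw [hval, one_mul] at hord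
  exact tendsto_GH_cusp hS g k γ₀ hg hord

end Fermat.Agent.M17.RecipCuspLim3
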