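/-
M17 (helper1): (RL-pc), **plug test of the final assembly**: helper7's skeleton
`RecipCuspDry7.addRL_pc_of` with ALL landed leaves plugged in
((PC-A) `CuspAdapted4.adapted_pc`, `hol` = `RecipCuspHol1.hol`, (PC-B3) `RecipCuspLim3.tendsto_GH_cusp`,
(PC-L) `RecipCuspLim0.tendsto_GH_cusp_of`, (PC-C) `RecipCuspSupp1.exists_normSq_le`,
(PC-D) `RecipCuspSupp1.dens_H1 / dens_H2`); the ONLY remaining hypothesis is (PC-L2), the limit of
`GH F` at the cusps NOT equivalent to `δ`, in helper4's literal shape (board 1236).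
Imported by no statement.
-/
import Fermat.Agent.M17.RecipCuspDry7
import Fermat.Agent.M17.RecipCuspHol1
import Fermat.Agent.M17.CuspAdapted4
import Fermat.Agent.M17.RecipCuspLim0
import Fermat.Agent.M17.RecipCuspLim3

set_option autoImplicit false
set_option linter.unusedSectionVars false

open UpperHalfPlane hiding I
open Complex CongruenceSubgroup Filter Set MeasureTheory AlgebraicCurve
open scoped MatrixGroups ModularForm Topology ContDiff Modular Real

noncomputable section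

namespace Fermat.Agent.M17.RecipCuspPlug1

open ModularCurve ModularCurve.Period
open Fermat.Agent.X0 Fermat.Agent.ES.KUM Fermat.Agent.X0.SurjPoint Fermat.Agent.ES.KUM.CCusp16
open Fermat.Agent.M15.DivLogMer1
open Fermat.Agent.M17.Interfaces7 Fermat.Agent.M17.MultAJ4 Fermat.Agent.M17.AJAssembly7
open Fermat.Agent.M17.RiemannSymmetric2 Fermat.Agent.M17.RLFinal3
open Fermat.Agent.M17.ModelFam8 Fermat.Agent.M17.RecipFam8 Fermat.Agent.M17.CuspFam4
open Fermat.Agent.M17.CuspModel4 Fermat.Agent.M17.CauchyPompeiu5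

local notation "T" => (ModularGroup.T : SL(2, ℤ))

variable {N : ℕ} [NeZero N] {g : ℕ} (L : LatData N g)

theorem addRL_pc_of_L2 (δ : SL(2, ℤ))
    (L2 : ∀ (τ₁ : ℍ) (hS : Setup N δ (qh (hw N δ) (τ₁ : ℂ))) (F : MerH) (g : SL(2, ℤ)),
      (¬ ∃ (γ : ↥(Gamma0 N)) (k : ℤ), g = T ^ k * δ * (γ : SL(2, ℤ))) →
      CuspOrdIs N F g 0 → ∃ ℓ : ℂ, ℓ ≠ 0 ∧
        Tendsto (fun τ : ℍ => (cuspFamily N δ (qh (hw N δ) (τ₁ : ℂ)) hS).GH F (g⁻¹ • τ))
          atImInfty (𝓝 ℓ)) :
    ∃ z₁ : ℍ, AddRL L (Finsupp.single (ptPlaceC N 1 z₁) 1 - Finsupp.single (cuspPlaceC N δ) 1)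
      (L.A z₁ - AcOf L δ) := by
  apply Fermat.Agent.M17.RecipCuspDry7.addRL_pc_of L δ
  intro τ₁ hS
  refine ⟨fun F hF => ⟨?_, ?_⟩, Fermat.Agent.M17.RecipCuspSupp1.exists_normSq_le hS,
    fun z γ h => Fermat.Agent.M17.RecipCuspSupp1.dens_H1 hS le_rfl z γ h,
    fun z h => Fermat.Agent.M17.RecipCuspSupp1.dens_H2 hS hS.small z h⟩
  · exact Fermat.Agent.M17.CuspAdapted4.adapted_pc hS (by rw [smul_inv_smul]) hF
  · exact ⟨Fermat.Agent.M17.RecipCuspHol1.hol hS, fun g' =>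
      Fermat.Agent.M17.RecipCuspLim0.tendsto_GH_cusp_of hS hF
        (fun g'' γ k hg hord => Fermat.Agent.M17.RecipCuspLim3.tendsto_GH_cusp hS g'' k γ hg hord)
        (fun g'' hne hord => L2 τ₁ hS F g'' hne hord) g'⟩

end Fermat.Agent.M17.RecipCuspPlug1
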