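/-
M17 (helper1): **`addRL_pc`**, the point-to-cusp half of the reciprocity law (RL), UNCONDITIONAL, in
the literal shape of `RLClose0.s17_of_addRL` (hypothesis `hpc`): `RecipCuspPlug1.addRL_pc_of_L2`
(all leaves plugged) + helper9's (PC-L2) `RecipCuspHyp9.tendsto_GH_of_not_equiv`.
Imported by no statement.
-/
import Fermat.Agent.M17.RecipCuspPlug1
import Fermat.Agent.M17.RecipCuspHyp9

set_option autoImplicit false
set_option linter.unusedSectionVars false

open UpperHalfPlane hiding I
open Complex CongruenceSubgroup Filter Set MeasureTheory AlgebraicCurve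
open scoped MatrixGroups ModularForm Topology ContDiff Modular Real

namespace Fermat.Agent.M17.RecipCuspDone1

open ModularCurve ModularCurve.Period
open Fermat.Agent.X0 Fermat.Agent.ES.KUM Fermat.Agent.X0.SurjPoint Fermat.Agent.ES.KUM.CCusp16
open Fermat.Agent.M17.Interfaces7 Fermat.Agent.M17.AJAssembly7 Fermat.Agent.M17.RLFinal3

variable {N : ℕ} [NeZero N] {g : ℕ}

/-- **(RL-pc)**: for every cusp `δ` there is a point `z₁` with the additive reciprocity law for
`(z₁) - (cusp δ)`. -/
theorem addRL_pc (L : LatData N g) (δ : SL(2, ℤ)) :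
    ∃ z₁ : ℍ, AddRL L (Finsupp.single (ptPlaceC N 1 z₁) 1 - Finsupp.single (cuspPlaceC N δ) 1)
      (L.A z₁ - AcOf L δ) :=
  Fermat.Agent.M17.RecipCuspPlug1.addRL_pc_of_L2 L δ fun _τ₁ hS _F g' hne hord =>
    Fermat.Agent.M17.RecipCuspHyp9.tendsto_GH_of_not_equiv hS g' hne hord

end Fermat.Agent.M17.RecipCuspDone1
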