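import Fermat.Agent.M17.RecipCuspInt5
import Fermat.Agent.M17.CuspFam4
import Fermat.Agent.M17.RecipFam8

/-!
# (RL-pc), leaf (PC-D): the unfolding integral for the cusp family

`RecipCuspInt5.ipart_cusp` applied to the density `RecipFam8.dens (cuspFamily N δ q₂ hS)`:
`Ipart (wΓ Γ₀(N)) (-i y² f · dens) = π i (Â 0 - Â q₂)`.
-/

set_option autoImplicit false
set_option linter.unusedSectionVars false

namespace Fermat.Agent.M17.RecipCuspFam5

open MeasureTheory Set Filter Topology UpperHalfPlane CongruenceSubgroup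
open scoped Real MatrixGroups ComplexConjugate
open Fermat.Agent.M17.CauchyPompeiu5 Fermat.Agent.M17.DegMoebius5
  Fermat.Agent.M17.CuspModel4 Fermat.Agent.M17.CuspNbhd4 Fermat.Agent.M17.CuspPrim0
  Fermat.Agent.M17.LocalModel8 Fermat.Agent.M17.ModelFam8 Fermat.Agent.M17.CuspFam4
open Fermat.Agent.ES.PET.Unfold12 Fermat.Agent.ES.PET.PartitionGamma5

noncomputable section

variable {N : ℕ} [NeZero N] {δ : SL(2, ℤ)} {q₂ : ℂ}

/-- `2∂̄ℓ_c` vanishes where the parameter is irrelevant. -/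
lemma dbar2_ellc_eq_zero_of_lt {h : ℝ} {τ : ℂ} (hs : 16 < sfun 0 q₂ (qh h τ)) :
    dbar2 (ellc h q₂) τ = 0 := by
  rw [dbar2_ellc, dbar2_ell, dbar2_phi_eq_zero (Or.inr hs)]
  ring

/-- the density of the cusp family above height `1` in a chart `δ γ`. -/
lemma dens_of_high (hS : Setup N δ q₂) (z : ℍ) (γ : Gamma0 N)
    (h : 1 < (δ • (γ : SL(2, ℤ)) • z).im) :
    Fermat.Agent.M17.RecipFam8.dens (cuspFamily N δ q₂ hS) z =
      1 * dbar2 (ellc (Fermat.Agent.M17.RecipCuspInt5.hw N δ) q₂) ↑(δ • (γ : SL(2, ℤ)) • z) *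
        conj (1 / denom ((δ * (γ : SL(2, ℤ)) : SL(2, ℤ)) : GL (Fin 2) ℝ) z ^ 2) := by
  have hsm : (δ * (γ : SL(2, ℤ))) • z = δ • (γ : SL(2, ℤ)) • z := mul_smul _ _ _
  have h' : 1 < ((δ * (γ : SL(2, ℤ))) • z).im := by rwa [hsm]
  unfold Fermat.Agent.M17.RecipFam8.dens
  by_cases hq : mkQ N δ γ ∈ (cuspFamily N δ q₂ hS).Qs z
  · rw [Qs_subset_singleton hS hq, Finset.sum_singleton, one_mul]
    have hfun : (fun w : ℂ => (cuspFamily N δ q₂ hS).l (mkQ N δ γ) (ofComplex w))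
        = ellc (CuspFam4.hw N δ) q₂ ∘ mob (δ * (γ : SL(2, ℤ))) := rfl
    rw [hfun]
    have hu : DifferentiableAt ℝ (ellc (CuspFam4.hw N δ) q₂)
        (mob (δ * (γ : SL(2, ℤ))) (z : ℂ)) :=
      (ellc_contDiff (h := CuspFam4.hw N δ) (q₂ := q₂)).differentiable (by simp) _
    rw [dbar2_comp hu (hasDerivAt_mob (δ * (γ : SL(2, ℤ))) z), mob_coe, hsm]
    rfl
  · -- no parameter is relevant
    have hempty : (cuspFamily N δ q₂ hS).Qs z = ∅ := by
      rw [Finset.eq_empty_iff_forall_notMem]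
      intro q' hq'
      obtain ⟨γ', rfl⟩ := q'.exists_eq
      have h1 := one_lt_im_of_mem_Brel hS ((Family.mem_Qs _).1 hq')
      have := mkQ_eq_of_one_lt_im (N := N) (δ := δ) h' h1
      rw [this] at hq'
      exact hq hq'
    rw [hempty, Finset.sum_empty]
    have hs : 16 < sfun 0 q₂ (qh (CuspFam4.hw N δ) ((δ • (γ : SL(2, ℤ)) • z : ℍ) : ℂ)) := by
      rw [mem_cuspFamily_Qs, not_le] at hq
      rw [← hsm]
      exact hq
    have : dbar2 (ellc (Fermat.Agent.M17.RecipCuspInt5.hw N δ) q₂)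
        ((δ • (γ : SL(2, ℤ)) • z : ℍ) : ℂ) = 0 := dbar2_ellc_eq_zero_of_lt hs
    rw [this]
    ring

/-- the density of the cusp family vanishes off the orbit of the horoball. -/
lemma dens_of_low (hS : Setup N δ q₂) (z : ℍ)
    (h : ∀ γ : Gamma0 N, (δ • (γ : SL(2, ℤ)) • z).im ≤ 1) :
    Fermat.Agent.M17.RecipFam8.dens (cuspFamily N δ q₂ hS) z = 0 := by
  unfold Fermat.Agent.M17.RecipFam8.dens
  rw [Qs_eq_empty_of_forall_le hS (fun γ => by rw [mul_smul]; exact h γ), Finset.sum_empty]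

/-- **(PC-D)**: the unfolding integral for the cusp family. -/
theorem ipart_cuspFamily (hS : Setup N δ q₂) (f : CuspForm (Gamma0 N) 2) :
    Ipart volume (wΓ (Gamma0 N)) (fun z : ℍ => -Complex.I * (z.im : ℂ) ^ 2 * f z *
        Fermat.Agent.M17.RecipFam8.dens (cuspFamily N δ q₂ hS) z) =
      π * Complex.I * (Ahat f δ (width N δ) 0 - Ahat f δ (width N δ) q₂) := by
  have := Fermat.Agent.M17.RecipCuspInt5.ipart_cusp N δ (Y := 1) (q₁ := q₂) f 1
    (Fermat.Agent.M17.RecipFam8.dens (cuspFamily N δ q₂ hS)) (dens_of_high hS) (dens_of_low hS)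
    le_rfl hS.ne hS.small
  rw [one_mul] at this
  exact this

/-- **(PC-D)** for the normalised basis of a `LatData`, `q₂ = q_h(τ₁)`. -/
theorem ipart_cuspFamily_lat {g : ℕ} (L : Fermat.Agent.M17.Interfaces7.LatData N g) (k : Fin g)
    {Ac : Fin g → ℂ} (hAc : Tendsto (fun τ : ℍ => L.A (δ⁻¹ • τ)) atImInfty (𝓝 Ac))
    (τ₁ : ℍ) (hS : Setup N δ (qh (CuspFam4.hw N δ) τ₁)) :
    Ipart volume (wΓ (Gamma0 N)) (fun z : ℍ => -Complex.I * (z.im : ℂ) ^ 2 * L.w k z *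
        Fermat.Agent.M17.RecipFam8.dens (cuspFamily N δ (qh (CuspFam4.hw N δ) τ₁) hS) z) =
      π * Complex.I * (Ac k - L.A (δ⁻¹ • τ₁) k) := by
  have hmem := Fermat.Agent.M17.RecipCuspInt5.conj_T_width_mem N δ
  have hwpos := width_pos N δ
  obtain ⟨-, h2, -, h4⟩ := cusp_data L δ (width N δ) hwpos hmem hAc k
  rw [ipart_cuspFamily hS (L.w k), h4]
  have : qh (CuspFam4.hw N δ) (τ₁ : ℂ)
      = Complex.exp (2 * π * Complex.I * (τ₁ : ℂ) / ((width N δ : ℕ) : ℝ)) := rfl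
  rw [this, h2 τ₁]

end

end Fermat.Agent.M17.RecipCuspFam5
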