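/-
M17 (target S17), block [RL], point-to-cusp half, leaf (PC-E) (helper4): **the final assembly of the
point-to-cusp reciprocity law.**

* `addRL_neg`   : `AddRL L Δ v → AddRL L (-Δ) (-v)` (`F⁻¹`, `χ⁻¹`, `-ψ`);
* `exists_setup`: a point `τ₁` so high that `q₂ = q_h(τ₁)` satisfies `CuspFam4.Setup`;
* `addRL_cp_of_cuspHyp` / `addRL_pc_of_cuspHyp` : the additive reciprocity law for
  `pt(z₁) − cusp(δ)`, `z₁ = δ⁻¹ τ₁`, from the cusp hypotheses `RecipFam8.CuspHyp` of the cusp family;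
* `Qs_eq_empty_of_ne`, `tendsto_GH_of_ne` : the cusps not equivalent to `δ`;
* `cuspHyp_pc` : `RecipFam8.CuspHyp` for the cusp family;
* **`addRL_pc`** : the point-to-cusp additive reciprocity law (lead's literal `hpc` of
  `RLClose0.s17_of_addRL`).

Imported by no statement.
-/
import Fermat.Agent.M17.RecipFam8
import Fermat.Agent.M17.CuspAdapted4
import Fermat.Agent.M17.RecipCuspFam5
import Fermat.Agent.M17.RecipCuspSupp1
import Fermat.Agent.M17.RecipCuspHol1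
import Fermat.Agent.M17.RecipCuspLim3
import Fermat.Agent.M17.RLFinal3
import Fermat.Agent.M17.DegCount4

set_option autoImplicit false
set_option linter.unusedSectionVars false

open UpperHalfPlane hiding I
open Complex CongruenceSubgroup Filter Set MeasureTheory AlgebraicCurve
open scoped MatrixGroups ModularForm Topology ContDiff Modular Real

noncomputable section

namespace Fermat.Agent.M17.RecipCuspFinal4

open ModularCurve ModularCurve.Period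
open Fermat.Agent.X0 Fermat.Agent.X0.SurjPoint Fermat.Agent.ES.KUM Fermat.Agent.ES.KUM.CCusp16
open Fermat.Agent.M15.DivLogMer1 Fermat.Agent.M17.MerEval8
open Fermat.Agent.M17.Interfaces7 Fermat.Agent.M17.MultAJ4 Fermat.Agent.M17.AJAssembly7
open Fermat.Agent.M17.RiemannSymmetric2 Fermat.Agent.ES.HEQ.ParLattice11
open Fermat.Agent.ES.I2.DegAdj3
open Fermat.Agent.M17.ModelFam8 Fermat.Agent.M17.CuspNbhd4 Fermat.Agent.M17.CuspModel4
open Fermat.Agent.M17.CuspFam4 Fermat.Agent.M17.RLFinal3 Fermat.Agent.M17.RecipFam8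

variable {N : ℕ} [NeZero N] {g : ℕ} (L : LatData N g)

/-! ### inversion -/

/-- **the additive reciprocity law for `-Δ`.** -/
theorem addRL_neg {Δ : Divisor ℂ (FC N)} {v : Fin g → ℂ} (h : AddRL L Δ v) :
    AddRL L (-Δ) (-v) := by
  obtain ⟨F, χ, ψ, hF, hexp, hEC⟩ := h
  refine ⟨F⁻¹, fun γ => (χ γ)⁻¹, -ψ, isAutPair_inv N hF, fun γ => ?_, fun k => ?_⟩
  · have : ev (-ψ) γ = -ev ψ γ := by
      unfold ev
      rw [Submodule.coe_neg, AddMonoidHom.neg_apply]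
    rw [this, Complex.exp_neg, hexp γ]
  · rw [map_neg, hEC k, Pi.neg_apply]
    ring

/-! ### the choice of the point -/

theorem six_lt_exp : (6 : ℝ) < Real.exp (2 * π) := by
  have h1 : 2 * π + 1 ≤ Real.exp (2 * π) := Real.add_one_le_exp _
  have h2 : (3 : ℝ) < π := Real.pi_gt_three
  linarith

/-- a point so high that `q_h(τ₁)` is small. -/
theorem exists_setup (N : ℕ) [NeZero N] (δ : SL(2, ℤ)) :
    ∃ τ₁ : ℍ, Setup N δ (qh (hw N δ) (τ₁ : ℂ)) := by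
  have hh := hw_pos N δ
  refine ⟨⟨⟨0, 1 + hw N δ⟩, by show 0 < 1 + hw N δ; linarith⟩, qh_ne_zero _, ?_⟩
  rw [norm_qh]
  have him : ((⟨⟨0, 1 + hw N δ⟩, by show 0 < 1 + hw N δ; linarith⟩ : ℍ) : ℂ).im = 1 + hw N δ := rfl
  rw [him]
  have h1 : -(2 * π * (1 + hw N δ) / hw N δ) = -(2 * π * 1 / hw N δ) + -(2 * π) := by
    field_simp
    ring
  rw [h1, Real.exp_add]
  have h2 : 6 * Real.exp (-(2 * π)) < 1 := by
    rw [Real.exp_neg]
    have h3 := six_lt_exp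
    have h4 : 0 < Real.exp (2 * π) := Real.exp_pos _
    rw [← div_eq_mul_inv, div_lt_one h4]
    exact h3
  have h5 : 0 < Real.exp (-(2 * π * 1 / hw N δ)) := Real.exp_pos _
  nlinarith

/-! ### the divisor -/

theorem degree_single_one (v : Place ℂ (FC N)) :
    Divisor.degree (Finsupp.single v (1 : ℤ)) = 1 := by
  rw [Divisor.degree_single, FF.deg_eq_one (Fermat.Agent.ES.KUM.isGen_jC N) v]
  norm_num

theorem sub_mem_degZero (v w : Place ℂ (FC N)) :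
    (Finsupp.single v (1 : ℤ) - Finsupp.single w (1 : ℤ) : Divisor ℂ (FC N)) ∈
      Divisor.degZero (K := ℂ) (F := FC N) := by
  rw [Divisor.mem_degZero, map_sub, degree_single_one, degree_single_one, sub_self]

/-! ### the assembly -/

/-- **the additive reciprocity law for `cusp(δ) − pt(z₁)`**, `z₁ = δ⁻¹ τ₁`, from the cusp
hypotheses of the cusp family. -/
theorem addRL_cp_of_cuspHyp (δ : SL(2, ℤ)) (τ₁ : ℍ) (hS : Setup N δ (qh (hw N δ) (τ₁ : ℂ)))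
    (hCH : ∀ F : MerH, IsAutDiv N F (Finsupp.single (cuspPlaceC N δ) 1 -
        Finsupp.single (ptPlaceC N 1 (δ⁻¹ • τ₁)) 1) →
      CuspHyp (cuspFamily N δ (qh (hw N δ) (τ₁ : ℂ)) hS) F) :
    AddRL L (Finsupp.single (cuspPlaceC N δ) 1 - Finsupp.single (ptPlaceC N 1 (δ⁻¹ • τ₁)) 1)
      (AcOf L δ - L.A (δ⁻¹ • τ₁)) := by
  obtain ⟨F, χ, hpair⟩ := exists_isAutPair N _
    (sub_mem_degZero (cuspPlaceC N δ) (ptPlaceC N 1 (δ⁻¹ • τ₁)))
  have hz₁ : qh (hw N δ) ((δ • (δ⁻¹ • τ₁) : ℍ) : ℂ) = qh (hw N δ) (τ₁ : ℂ) := by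
    rw [smul_inv_smul]
  have hAd := Fermat.Agent.M17.CuspAdapted4.adapted_pc hS hz₁ hpair.1
  obtain ⟨M₀, hM₀, hsupp⟩ := Fermat.Agent.M17.RecipCuspSupp1.exists_normSq_le hS
  obtain ⟨ψ, hexp, hEC⟩ := exists_psi hAd hpair.2.2 (hCH F hpair.1) hM₀ hsupp
  refine ⟨F, χ, ψ, hpair, hexp, fun k => ?_⟩
  rw [hEC, Fermat.Agent.M17.RecipCuspFam5.ipart_cuspFamily_lat L k (AcOf_spec L δ) τ₁ hS]
  simp only [Pi.sub_apply]
  ring

/-- **(pc) from the cusp hypotheses.** -/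
theorem addRL_pc_of_cuspHyp (δ : SL(2, ℤ))
    (hCH : ∀ (q₂ : ℂ) (hS : Setup N δ q₂) (F : MerH) (z₁ : ℍ),
      IsAutDiv N F (Finsupp.single (cuspPlaceC N δ) 1 - Finsupp.single (ptPlaceC N 1 z₁) 1) →
      CuspHyp (cuspFamily N δ q₂ hS) F) :
    ∃ z₁ : ℍ, AddRL L (Finsupp.single (ptPlaceC N 1 z₁) 1 - Finsupp.single (cuspPlaceC N δ) 1)
      (L.A z₁ - AcOf L δ) := by
  obtain ⟨τ₁, hS⟩ := exists_setup N δ
  refine ⟨δ⁻¹ • τ₁, ?_⟩
  have h := addRL_neg L (addRL_cp_of_cuspHyp L δ τ₁ hS (fun F hF => hCH _ hS F _ hF))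
  rwa [neg_sub, neg_sub] at h

/-! ### the cusps not equivalent to `δ` -/

local notation "T" => (ModularGroup.T : SL(2, ℤ))

variable {δ : SL(2, ℤ)} {q₂ : ℂ}

/-- high in the chart of a cusp not equivalent to `δ`, no parameter is relevant. -/
theorem Qs_eq_empty_of_ne (hS : Setup N δ q₂) (g : SL(2, ℤ))
    (hne : cuspPlaceC N g ≠ cuspPlaceC N δ) (τ : ℍ) (hτ : 1 < τ.im) :
    (cuspFamily N δ q₂ hS).Qs (g⁻¹ • τ) = ∅ := by
  apply Qs_eq_empty_of_forall_le hS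
  intro γ
  by_contra hc
  rw [not_le] at hc
  have h2 : 1 < ((δ * (γ : SL(2, ℤ)) * g⁻¹) • τ).im := by
    rw [mul_smul]
    exact hc
  obtain ⟨k, hk⟩ := exists_T_zpow_of_one_lt_im hτ h2
  apply hne
  rw [Fermat.Agent.M17.RecipCuspLim3.cuspPlaceC_eq_iff]
  rcases hk with hk | hk
  · refine ⟨-k, γ, ?_⟩
    have e : δ * (γ : SL(2, ℤ)) = T ^ k * g := by
      rw [← hk]
      group
    rw [mul_assoc, e, ← mul_assoc, ← zpow_add, neg_add_cancel, zpow_zero, one_mul]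
  · refine ⟨-k, ⟨-(γ : SL(2, ℤ)), (neg_mem_Gamma0_iff N _).2 γ.2⟩, ?_⟩
    have e : δ * (γ : SL(2, ℤ)) = -(T ^ k) * g := by
      rw [← hk]
      group
    show g = T ^ (-k) * δ * -(γ : SL(2, ℤ))
    rw [mul_assoc, mul_neg, e, neg_mul, neg_neg, ← mul_assoc, ← zpow_add, neg_add_cancel, zpow_zero,
      one_mul]

/-- the limit of `GH F` at a cusp not equivalent to `δ`. -/
theorem tendsto_GH_of_ne (hS : Setup N δ q₂) {F : MerH} (g : SL(2, ℤ))
    (hne : cuspPlaceC N g ≠ cuspPlaceC N δ) (hord : CuspOrdIs N F g 0) :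
    ∃ ℓ : ℂ, ℓ ≠ 0 ∧
      Tendsto (fun τ : ℍ => (cuspFamily N δ q₂ hS).GH F (g⁻¹ • τ)) atImInfty (𝓝 ℓ) := by
  obtain ⟨a, b, ℓ, hb, hℓ, hF, hlim⟩ := hord
  refine ⟨ℓ, hℓ, ?_⟩
  have hlim' : Tendsto (fun τ : ℍ => (a : ℍ → ℂ) (g⁻¹ • τ) / (b : ℍ → ℂ) (g⁻¹ • τ))
      atImInfty (𝓝 ℓ) := by
    refine hlim.congr fun τ => ?_
    simp
  have hιb : algebraMap HolH MerH b ≠ 0 := iota_ne_zero hb
  have hFab : F = algebraMap HolH MerH a / algebraMap HolH MerH b := by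
    rw [eq_div_iff hιb]
    exact hF
  have hev1 : ∀ᶠ τ : ℍ in atImInfty, 1 < τ.im := by
    rw [Filter.Eventually, atImInfty_mem]
    exact ⟨2, fun τ hτ => by show 1 < τ.im; linarith⟩
  have hev2 : ∀ᶠ τ : ℍ in atImInfty,
      (a : ℍ → ℂ) (g⁻¹ • τ) / (b : ℍ → ℂ) (g⁻¹ • τ) ≠ 0 :=
    hlim'.eventually_ne hℓ
  refine hlim'.congr' ?_
  filter_upwards [hev1, hev2] with τ h1 h2
  have hbz : (b : ℍ → ℂ) (g⁻¹ • τ) ≠ 0 := fun h0 => h2 (by rw [h0, div_zero])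
  rw [GH_of_Qs_empty (cuspFamily N δ q₂ hS) (Qs_eq_empty_of_ne hS g hne τ h1), hFab, evM_div a hbz]

/-- **`RecipFam8.CuspHyp` for the cusp family.** -/
theorem cuspHyp_pc (hS : Setup N δ q₂) {F : MerH} {z₁ : ℍ}
    (hF : IsAutDiv N F
      (Finsupp.single (cuspPlaceC N δ) 1 - Finsupp.single (ptPlaceC N 1 z₁) 1)) :
    CuspHyp (cuspFamily N δ q₂ hS) F where
  hol := Fermat.Agent.M17.RecipCuspHol1.hol hS
  lim g := by
    by_cases he : cuspPlaceC N g = cuspPlaceC N δ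
    · exact Fermat.Agent.M17.RecipCuspLim3.lim_pc_eq hS hF g he
    · apply tendsto_GH_of_ne hS g he
      have hord := hF.2.2 g
      have hval : (Finsupp.single (cuspPlaceC N δ) (1 : ℤ) - Finsupp.single (ptPlaceC N 1 z₁) 1 :
          Divisor ℂ (FC N)) (cuspPlaceC N g) = 0 := by
        rw [Finsupp.sub_apply, Finsupp.single_eq_of_ne he,
          Finsupp.single_eq_of_ne
            (Fermat.Agent.ES.KUM.CSurj25.ptPlaceC_ne_cuspPlaceC N 1 g z₁).symm, sub_zero]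
      rw [hval, zero_mul] at hord
      exact hord

/-! ### the point-to-cusp reciprocity law -/

/-- **(pc)**: for every cusp `δ` there is a point `z₁` with the additive reciprocity law for
`pt(z₁) − cusp(δ)` (lead's literal `hpc` of `RLClose0.s17_of_addRL`). -/
theorem addRL_pc (δ : SL(2, ℤ)) :
    ∃ z₁ : ℍ, AddRL L (Finsupp.single (ptPlaceC N 1 z₁) 1 - Finsupp.single (cuspPlaceC N δ) 1)
      (L.A z₁ - AcOf L δ) :=
  addRL_pc_of_cuspHyp L δ (fun _ hS _ _ hF => cuspHyp_pc hS hF)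

end Fermat.Agent.M17.RecipCuspFinal4
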