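import Fermat.Agent.M17.RecipCuspDry7
import Fermat.Agent.M17.CuspAdapted4
import Fermat.Agent.M17.RecipCuspHol1
import Fermat.Agent.M17.RecipCuspLim0
import Fermat.Agent.M17.RecipCuspLim3
import Fermat.Agent.M17.RecipCuspSupp1
import Fermat.Agent.M17.RecipCuspFam5

/-!
# Programme M17, block (RL), point-to-cusp half: the leaves plugged in

`addRL_pc_of_L2`: lead's literal `addRL_pc` with the limit of `GH F` at the cusps that are NOT
equivalent to `δ` (leaf (PC-L2)) as the only hypothesis; (PC-A) `CuspAdapted4.adapted_pc`,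
`hol` `RecipCuspHol1.hol`, (PC-B3) `RecipCuspLim3.tendsto_GH_cusp`, the packaging
`RecipCuspLim0.tendsto_GH_cusp_of`, (PC-C) `RecipCuspSupp1.exists_normSq_le`, (PC-D)
`RecipCuspFam5.dens_of_high/dens_of_low` are plugged into `RecipCuspDry7.addRL_pc_of`.

Imported by no statement.
-/

set_option autoImplicit false
set_option linter.unusedSectionVars false

open UpperHalfPlane hiding I
open Complex CongruenceSubgroup Filter Set MeasureTheory AlgebraicCurve
open scoped MatrixGroups ModularForm Topology ContDiff Modular Real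

noncomputable section

namespace Fermat.Agent.M17.RecipCuspFinal7

open ModularCurve ModularCurve.Period
open Fermat.Agent.X0 Fermat.Agent.ES.KUM Fermat.Agent.X0.SurjPoint Fermat.Agent.ES.KUM.CCusp16
open Fermat.Agent.M15.DivLogMer1
open Fermat.Agent.M17.Interfaces7 Fermat.Agent.M17.MultAJ4 Fermat.Agent.M17.AJAssembly7
open Fermat.Agent.M17.RiemannSymmetric2 Fermat.Agent.M17.RLFinal3
open Fermat.Agent.M17.ModelFam8 Fermat.Agent.M17.RecipFam8 Fermat.Agent.M17.CuspFam4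
open Fermat.Agent.M17.CuspModel4 Fermat.Agent.M17.CauchyPompeiu5

local notation "T" => (ModularGroup.T : SL(2, ℤ))

variable {N : ℕ} [NeZero N] {g : ℕ} (L : LatData N g)

/-- **(PC-E)** with (PC-L2) as the only hypothesis. -/
theorem addRL_pc_of_L2 (δ : SL(2, ℤ))
    (L2 : ∀ (q₂ : ℂ) (hS : Setup N δ q₂) (F : MerH) (g' : SL(2, ℤ)),
      (¬ ∃ (γ : ↥(Gamma0 N)) (k : ℤ), g' = T ^ k * δ * (γ : SL(2, ℤ))) →
      CuspOrdIs N F g' 0 → ∃ ℓ : ℂ, ℓ ≠ 0 ∧
        Tendsto (fun τ : ℍ => (cuspFamily N δ q₂ hS).GH F (g'⁻¹ • τ)) atImInfty (𝓝 ℓ)) :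
    ∃ z₁ : ℍ, AddRL L (Finsupp.single (ptPlaceC N 1 z₁) 1 - Finsupp.single (cuspPlaceC N δ) 1)
      (L.A z₁ - AcOf L δ) := by
  refine Fermat.Agent.M17.RecipCuspDry7.addRL_pc_of L δ (fun τ₁ hS => ⟨fun F hF => ⟨?_, ?_⟩,
    Fermat.Agent.M17.RecipCuspSupp1.exists_normSq_le hS,
    Fermat.Agent.M17.RecipCuspFam5.dens_of_high hS,
    Fermat.Agent.M17.RecipCuspFam5.dens_of_low hS⟩)
  · refine Fermat.Agent.M17.CuspAdapted4.adapted_pc hS ?_ hF
    rw [smul_inv_smul]
  · refine ⟨Fermat.Agent.M17.RecipCuspHol1.hol hS, fun g' => ?_⟩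
    exact Fermat.Agent.M17.RecipCuspLim0.tendsto_GH_cusp_of hS hF
      (fun g' γ k hg hord => Fermat.Agent.M17.RecipCuspLim3.tendsto_GH_cusp hS g' k γ hg hord)
      (fun g' hg hord => L2 _ hS F g' hg hord) g'

end Fermat.Agent.M17.RecipCuspFinal7
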