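/-
Programme M17 (S17), helper3: the GENERIC-`G` assembly of the reciprocity law (RL).

Input: a function `G : ℍ → ℂ`, smooth, nowhere zero, `χ`-automorphic for `Γ₀(N)`, with
`2∂̄G = G · dens`, the density `dens` vanishing near every cusp and `G` having a nonzero limit at
every cusp.  Output: an additive parabolic character `ψ` of `Γ₀(N)` with `exp ψ = χ` and
`EC (perC f) ψ = -4 · Ipart (-i y² f · dens)` for every weight two cusp form `f`.

No family, no cosets: the point-point model (`G = F / ∏ T ∘ q`) and the cusp model (`glue`) both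
plug in.  Imported by no statement.
-/
import Mathlib
import Fermat.Agent.M17.RLFour3
import Fermat.Agent.M17.CuspLim3
import Fermat.Agent.M17.SmoothLog0
import Fermat.Agent.M17.GlobalLog8
import Fermat.Agent.ES.KUM.ParConj14

set_option autoImplicit false

open UpperHalfPlane hiding I
open Complex CongruenceSubgroup Filter Set MeasureTheory MulAction Subgroup Function
open scoped MatrixGroups ModularForm Topology ComplexConjugate Interval Modular ContDiff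

namespace Fermat.Agent.M17.RecipG3

open Fermat.Agent.M17.Green3 Fermat.Agent.M17.Tile3 Fermat.Agent.M17.DR3
  Fermat.Agent.M17.PathFun3 Fermat.Agent.M17.Paths3 Fermat.Agent.M17.PrimSmooth3
  Fermat.Agent.M17.TopArc3 Fermat.Agent.M17.TopArcGen3 Fermat.Agent.M17.TileStd3
  Fermat.Agent.M17.TileHyp3 Fermat.Agent.M17.TileGamma3 Fermat.Agent.M17.RiemannSymmetric2
open Fermat.Agent.S21.Primitive Fermat.Agent.ES.I2.DegAdj3
open ModularCurve ModularCurve.Period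
open Fermat.Agent.ES.PET.PartitionGamma5 Fermat.Agent.ES.PET.Unfold12
  Fermat.Agent.ES.PET.SLMeasure12
open Fermat.Agent.M17.CauchyPompeiu5 Fermat.Agent.M17.DegMoebius5

/-! ### Cauchy-Riemann -/

/-- a real-differentiable function with `2∂̄ = 0` at a point is complex-differentiable there. -/
theorem differentiableAt_of_dbar2_eq_zero {h : ℂ → ℂ} {z : ℂ} (hd : DifferentiableAt ℝ h z)
    (h0 : dbar2 h z = 0) : DifferentiableAt ℂ h z := by
  rw [differentiableAt_complex_iff_differentiableAt_real]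
  refine ⟨hd, ?_⟩
  unfold dbar2 at h0
  rw [smul_eq_mul]
  linear_combination (-I) * h0 + (fderiv ℝ h z I) * I_mul_I

/-- `2∂̄` of a function with real derivative `c • L`. -/
theorem dbar2_of_hasFDerivAt_smul {h H : ℂ → ℂ} {z c : ℂ}
    (hh : HasFDerivAt h (c • fderiv ℝ H z) z) : dbar2 h z = c * dbar2 H z := by
  unfold dbar2
  rw [hh.fderiv]
  simp only [ContinuousLinearMap.smul_apply, smul_eq_mul]
  ring

/-! ### The logarithm -/

/-- `bc` is a smooth logarithm of `G` on the upper half plane. -/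
structure IsLogOf (G : ℍ → ℂ) (bc : ℂ → ℂ) : Prop where
  smooth : ContDiffOn ℝ ∞ bc Fermat.Agent.M17.DegMeasure5.UH
  exp_eq : ∀ z : ℍ, Complex.exp (bc (z : ℂ)) = G z

variable {G : ℍ → ℂ} {bc : ℂ → ℂ}

theorem exists_isLogOf
    (hsm : ContDiffOn ℝ ∞ (fun w : ℂ => G (ofComplex w)) Fermat.Agent.M17.DegMeasure5.UH)
    (hne : ∀ z : ℍ, G z ≠ 0) : ∃ bc : ℂ → ℂ, IsLogOf G bc := by
  obtain ⟨b, -, -, hexp, hs⟩ := Fermat.Agent.M17.SmoothLog0.exists_log_contDiffOn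
    Fermat.Agent.M17.DegMeasure5.isOpen_UH Fermat.Agent.M17.GlobalLog8.convex_UH
    (hsm.of_le (by decide)) (fun w _ => hne _)
  refine ⟨b, hs hsm, fun z => ?_⟩
  rw [hexp _ z.im_pos, ofComplex_apply]

theorem UH_mem_nhds (z : ℍ) : Fermat.Agent.M17.DegMeasure5.UH ∈ 𝓝 (z : ℂ) :=
  Fermat.Agent.M17.DegMeasure5.isOpen_UH.mem_nhds z.im_pos

theorem IsLogOf.contDiffAt (hb : IsLogOf G bc) (z : ℍ) : ContDiffAt ℝ ∞ bc (z : ℂ) :=
  hb.smooth.contDiffAt (UH_mem_nhds z)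

theorem IsLogOf.differentiableAt (hb : IsLogOf G bc) (z : ℍ) : DifferentiableAt ℝ bc (z : ℂ) :=
  (hb.contDiffAt z).differentiableAt (by simp)

theorem IsLogOf.exp_eq' (hb : IsLogOf G bc) {w : ℂ} (hw : w ∈ Fermat.Agent.M17.DegMeasure5.UH) :
    Complex.exp (bc w) = G (ofComplex w) := by
  have := hb.exp_eq ⟨w, hw⟩
  rw [ofComplex_apply_of_im_pos hw]
  exact this

/-- the real derivative of the logarithm. -/
theorem IsLogOf.hasFDerivAt (hb : IsLogOf G bc) (hne : ∀ z : ℍ, G z ≠ 0) (z : ℍ) :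
    HasFDerivAt bc ((G z)⁻¹ • fderiv ℝ (fun w : ℂ => G (ofComplex w)) (z : ℂ)) (z : ℂ) := by
  have h1 := Fermat.Agent.M17.SmoothLog0.hasFDerivAt_cexp (hb.differentiableAt z).hasFDerivAt
  have heq : (fun w : ℂ => G (ofComplex w)) =ᶠ[𝓝 (z : ℂ)] fun w => Complex.exp (bc w) := by
    filter_upwards [UH_mem_nhds z] with w hw
    exact (hb.exp_eq' hw).symm
  have h2 : fderiv ℝ (fun w : ℂ => G (ofComplex w)) (z : ℂ) =
      Complex.exp (bc (z : ℂ)) • fderiv ℝ bc (z : ℂ) := by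
    rw [heq.fderiv_eq]
    exact h1.fderiv
  rw [h2, hb.exp_eq z, smul_smul, inv_mul_cancel₀ (hne z), one_smul]
  exact (hb.differentiableAt z).hasFDerivAt

/-- `2∂̄ b = dens` when `2∂̄ G = G · dens`. -/
theorem IsLogOf.dbar2_eq (hb : IsLogOf G bc) (hne : ∀ z : ℍ, G z ≠ 0) {dens : ℍ → ℂ}
    (hdens : ∀ z : ℍ, dbar2 (fun w : ℂ => G (ofComplex w)) (z : ℂ) = G z * dens z) (z : ℍ) :
    dbar2 bc (z : ℂ) = dens z := by
  rw [dbar2_of_hasFDerivAt_smul (hb.hasFDerivAt hne z), hdens z, ← mul_assoc,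
    inv_mul_cancel₀ (hne z), one_mul]

/-- the logarithm is holomorphic where the density vanishes. -/
theorem IsLogOf.differentiableAt_complex (hb : IsLogOf G bc) (hne : ∀ z : ℍ, G z ≠ 0)
    {dens : ℍ → ℂ}
    (hdens : ∀ z : ℍ, dbar2 (fun w : ℂ => G (ofComplex w)) (z : ℂ) = G z * dens z) {z : ℍ}
    (hz : dens z = 0) : DifferentiableAt ℂ bc (z : ℂ) :=
  differentiableAt_of_dbar2_eq_zero (hb.differentiableAt z) (by rw [hb.dbar2_eq hne hdens z, hz])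

/-! ### Periods -/

variable {N : ℕ} [NeZero N] {χ : Gamma0 N → ℂ}

/-- the function on `ℍ`. -/
def bH (bc : ℂ → ℂ) (z : ℍ) : ℂ := bc (z : ℂ)

theorem IsLogOf.sub_const (hb : IsLogOf G bc)
    (hne : ∀ z : ℍ, G z ≠ 0)
    (haut : ∀ (γ : Gamma0 N) (z : ℍ), G ((γ : SL(2, ℤ)) • z) = χ γ * G z) (γ : Gamma0 N) :
    (∀ z : ℍ, bH bc ((γ : SL(2, ℤ)) • z) - bH bc z =
        bc (mob (γ : SL(2, ℤ)) Complex.I) - bc Complex.I) ∧
      Complex.exp (bc (mob (γ : SL(2, ℤ)) Complex.I) - bc Complex.I) = χ γ := by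
  set f : ℂ → ℂ := fun w => bc (mob (γ : SL(2, ℤ)) w) - bc w with hf
  have hfc : ContinuousOn f Fermat.Agent.M17.DegMeasure5.UH :=
    (hb.smooth.continuousOn.comp (Fermat.Agent.M17.GlobalLog8.continuousOn_mob _)
      (fun w _ => Fermat.Agent.M17.GlobalLog8.mob_mem_UH _ w)).sub hb.smooth.continuousOn
  have hexp : ∀ w ∈ Fermat.Agent.M17.DegMeasure5.UH, Complex.exp (f w) = χ γ := by
    intro w hw
    show Complex.exp (bc (mob (γ : SL(2, ℤ)) w) - bc w) = χ γ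
    rw [Complex.exp_sub, hb.exp_eq' (Fermat.Agent.M17.GlobalLog8.mob_mem_UH _ w), hb.exp_eq' hw]
    have h1 : ofComplex (mob (γ : SL(2, ℤ)) w) = (γ : SL(2, ℤ)) • ofComplex w := by
      unfold mob
      rw [ofComplex_apply]
    rw [h1, haut, mul_div_assoc, div_self (hne _), mul_one]
  refine ⟨fun z => ?_, hexp _ Fermat.Agent.M17.GlobalLog8.I_mem_UH⟩
  have h1 := Fermat.Agent.M17.GlobalLog8.eq_of_exp_const hfc hexp
    Fermat.Agent.M17.GlobalLog8.I_mem_UH z.im_pos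
  have h2 : bc (mob (γ : SL(2, ℤ)) (z : ℂ)) - bc (z : ℂ) =
      bc (mob (γ : SL(2, ℤ)) Complex.I) - bc Complex.I := h1
  rw [mob_coe] at h2
  exact h2

theorem IsLogOf.isEquivariantPrimitive (hb : IsLogOf G bc)
    (hne : ∀ z : ℍ, G z ≠ 0)
    (haut : ∀ (γ : Gamma0 N) (z : ℍ), G ((γ : SL(2, ℤ)) • z) = χ γ * G z) :
    IsEquivariantPrimitive (Gamma0 N) (bH bc) := fun γ =>
  ⟨_, (hb.sub_const hne haut γ).1⟩

/-- the additive character of the logarithm. -/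
noncomputable def psi (hb : IsLogOf G bc) (hne : ∀ z : ℍ, G z ≠ 0)
    (haut : ∀ (γ : Gamma0 N) (z : ℍ), G ((γ : SL(2, ℤ)) • z) = χ γ * G z) :
    Additive (Gamma0 N) →+ ℂ :=
  (hb.isEquivariantPrimitive hne haut).periodHom

theorem smul_eq (hb : IsLogOf G bc) (hne : ∀ z : ℍ, G z ≠ 0)
    (haut : ∀ (γ : Gamma0 N) (z : ℍ), G ((γ : SL(2, ℤ)) • z) = χ γ * G z) (γ : Gamma0 N)
    (z : ℍ) : bH bc ((γ : SL(2, ℤ)) • z) = bH bc z + fn (psi hb hne haut) γ := by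
  have h := (hb.isEquivariantPrimitive hne haut).sub_eq_period γ z
  show _ = _ + (hb.isEquivariantPrimitive hne haut).period γ
  rw [← h]
  ring

theorem exp_psi (hb : IsLogOf G bc) (hne : ∀ z : ℍ, G z ≠ 0)
    (haut : ∀ (γ : Gamma0 N) (z : ℍ), G ((γ : SL(2, ℤ)) • z) = χ γ * G z) (γ : Gamma0 N) :
    Complex.exp (psi hb hne haut (Additive.ofMul γ)) = χ γ := by
  have h1 := hb.sub_const hne haut γ
  have h2 := (hb.isEquivariantPrimitive hne haut).sub_eq_period γ UpperHalfPlane.I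
  show Complex.exp ((hb.isEquivariantPrimitive hne haut).period γ) = χ γ
  rw [← h2, h1.1]
  exact h1.2

/-! ### The cusps -/

theorem al_bH (g : SL(2, ℤ)) (w : ℂ) : al (bH bc) g w = bc (mob g⁻¹ w) := rfl

/-- `b` is smooth in every tile chart. -/
theorem IsLogOf.contDiffOn_al (hb : IsLogOf G bc) (g : SL(2, ℤ)) :
    ContDiffOn ℝ 2 (al (bH bc) g) Fermat.Agent.M17.Tile3.UH := by
  intro w hw
  have hw' : 0 < w.im := hw
  have h1 : ContDiffAt ℝ ∞ (mob g⁻¹) w :=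
    Fermat.Agent.M17.GlobalLog8.contDiffAt_mob g⁻¹ ⟨w, hw'⟩
  have h2 : ContDiffAt ℝ ∞ bc (mob g⁻¹ w) := by
    have := hb.contDiffAt (g⁻¹ • ⟨w, hw'⟩)
    rwa [← mob_coe] at this
  have h3 : ContDiffAt ℝ ∞ (al (bH bc) g) w := h2.comp w h1
  exact (h3.of_le (by decide)).contDiffWithinAt

/-- `b` is holomorphic in the tile chart of `g` above the support of the density. -/
theorem IsLogOf.differentiableOn_al (hb : IsLogOf G bc) (hne : ∀ z : ℍ, G z ≠ 0)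
    {dens : ℍ → ℂ}
    (hdens : ∀ z : ℍ, dbar2 (fun w : ℂ => G (ofComplex w)) (z : ℂ) = G z * dens z)
    (g : SL(2, ℤ)) {Y₀ : ℝ} (hY₀ : ∀ τ : ℍ, Y₀ < τ.im → dens (g⁻¹ • τ) = 0) :
    DifferentiableOn ℂ (al (bH bc) g) {w : ℂ | max Y₀ 0 < w.im} := by
  intro w hw
  have hw0 : 0 < w.im := lt_of_le_of_lt (le_max_right _ _) hw
  have hwY : Y₀ < w.im := lt_of_le_of_lt (le_max_left _ _) hw
  set τ : ℍ := ⟨w, hw0⟩ with hτ
  have h1 : DifferentiableAt ℂ (mob g⁻¹) w := (hasDerivAt_mob g⁻¹ τ).differentiableAt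
  have h2 : DifferentiableAt ℂ bc (mob g⁻¹ w) := by
    have := hb.differentiableAt_complex hne hdens (hY₀ τ hwY)
    rwa [← mob_coe] at this
  have h3 : DifferentiableAt ℂ (al (bH bc) g) w := h2.comp w h1
  exact h3.differentiableWithinAt

/-- **cusp behaviour of the logarithm.** -/
theorem IsLogOf.cusp (hb : IsLogOf G bc) (hne : ∀ z : ℍ, G z ≠ 0)
    {dens : ℍ → ℂ}
    (hdens : ∀ z : ℍ, dbar2 (fun w : ℂ => G (ofComplex w)) (z : ℂ) = G z * dens z)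
    (g : SL(2, ℤ)) (hhol : ∃ Y₀ : ℝ, ∀ τ : ℍ, Y₀ < τ.im → dens (g⁻¹ • τ) = 0)
    (hlim : ∃ ℓ : ℂ, ℓ ≠ 0 ∧ Tendsto (fun τ : ℍ => G (g⁻¹ • τ)) atImInfty (𝓝 ℓ)) :
    SmallDerivAtCusp (bH bc) g ∧
      ∃ c : ℂ, Tendsto (fun τ : ℍ => bH bc (g⁻¹ • τ)) atImInfty (𝓝 c) := by
  obtain ⟨Y₀, hY₀⟩ := hhol
  obtain ⟨ℓ, hℓ, hl⟩ := hlim
  refine Fermat.Agent.M17.CuspLim3.smallDeriv_of_exp_tendsto (Y₀ := max Y₀ 0)
    (hb.differentiableOn_al hne hdens g hY₀) hℓ ?_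
  refine hl.congr (fun τ => ?_)
  exact (hb.exp_eq _).symm

theorem tendsto_T_zpow_smul (m : ℤ) :
    Tendsto (fun τ : ℍ => ModularGroup.T ^ m • τ) atImInfty atImInfty := by
  rw [atImInfty, tendsto_comap_iff]
  have : (UpperHalfPlane.im ∘ fun τ : ℍ => ModularGroup.T ^ m • τ) = UpperHalfPlane.im := by
    funext τ
    exact ModularGroup.im_T_zpow_smul τ m
  rw [this]
  exact tendsto_comap

/-- **parabolic vanishing.** -/
theorem psi_mem_parabolicHoms (hb : IsLogOf G bc) (hne : ∀ z : ℍ, G z ≠ 0)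
    (haut : ∀ (γ : Gamma0 N) (z : ℍ), G ((γ : SL(2, ℤ)) • z) = χ γ * G z)
    (hlimb : ∀ g : SL(2, ℤ), ∃ c : ℂ, Tendsto (fun τ : ℍ => bH bc (g⁻¹ • τ)) atImInfty (𝓝 c)) :
    psi hb hne haut ∈ parabolicHoms ℂ (Gamma0 N) ℂ := by
  intro γ hγ
  have htr : (((γ : SL(2, ℤ)) 0 0 : ℤ) + (γ : SL(2, ℤ)) 1 1) ^ 2 = 4 := by
    rw [Matrix.trace_fin_two] at hγ
    exact hγ
  obtain ⟨σ, m, hσ⟩ := Fermat.Agent.ES.KUM.ParConj14.exists_conj_of_trace_sq (γ : SL(2, ℤ)) htr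
  obtain ⟨c, hc⟩ := hlimb σ⁻¹
  rw [inv_inv] at hc
  -- the action of `γ` on `σ • τ`
  have hact : ∀ τ : ℍ, (γ : SL(2, ℤ)) • σ • τ = σ • (ModularGroup.T ^ m • τ) := by
    intro τ
    rcases hσ with h | h
    · rw [h, mul_smul, mul_smul, inv_smul_smul]
    · rw [h, ModularGroup.SL_neg_smul, mul_smul, mul_smul, inv_smul_smul]
  have h1 : Tendsto (fun τ : ℍ => bH bc ((γ : SL(2, ℤ)) • σ • τ)) atImInfty (𝓝 c) := by
    simp only [hact]
    exact hc.comp (tendsto_T_zpow_smul m)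
  have h2 : Tendsto (fun τ : ℍ => bH bc ((γ : SL(2, ℤ)) • σ • τ)) atImInfty
      (𝓝 (c + fn (psi hb hne haut) γ)) := by
    simp only [smul_eq hb hne haut γ]
    exact hc.add_const _
  have h3 := tendsto_nhds_unique h1 h2
  have h4 : fn (psi hb hne haut) γ = 0 := by linear_combination -h3
  exact h4

/-! ### The reciprocity law for `G` -/

/-- **(RL), generic `G`.** -/
theorem exists_psi_EC
    (hsm : ContDiffOn ℝ ∞ (fun w : ℂ => G (ofComplex w)) Fermat.Agent.M17.DegMeasure5.UH)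
    (hne : ∀ z : ℍ, G z ≠ 0)
    (haut : ∀ (γ : Gamma0 N) (z : ℍ), G ((γ : SL(2, ℤ)) • z) = χ γ * G z)
    {dens : ℍ → ℂ}
    (hdens : ∀ z : ℍ, dbar2 (fun w : ℂ => G (ofComplex w)) (z : ℂ) = G z * dens z)
    (hhol : ∀ g : SL(2, ℤ), ∃ Y₀ : ℝ, ∀ τ : ℍ, Y₀ < τ.im → dens (g⁻¹ • τ) = 0)
    (hlim : ∀ g : SL(2, ℤ), ∃ ℓ : ℂ, ℓ ≠ 0 ∧
      Tendsto (fun τ : ℍ => G (g⁻¹ • τ)) atImInfty (𝓝 ℓ))
    {M₀ : ℝ} (hM₀ : 1 ≤ M₀)
    (hsupp : ∀ z : ℍ, dens z ≠ 0 → ∀ g : SL(2, ℤ), g • z ∈ (𝒟 : Set ℍ) →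
      normSq ((g • z : ℍ) : ℂ) ≤ M₀) :
    ∃ ψ : ↥(parabolicHoms ℂ (Gamma0 N) ℂ),
      (∀ γ : Gamma0 N,
        Complex.exp ((ψ : Additive (Gamma0 N) →+ ℂ) (Additive.ofMul γ)) = χ γ) ∧
      ∀ f : CuspForm (Gamma0 N) 2, EC (Gamma0 N) (perC N f) ψ =
        -4 * Ipart volume (wΓ (Gamma0 N))
          (fun z : ℍ => -I * (z.im : ℂ) ^ 2 * f z * dens z) := by
  haveI : Fintype (SL(2, ℤ) ⧸ Gamma0 N) := Fintype.ofFinite _
  obtain ⟨bc, hb⟩ := exists_isLogOf hsm hne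
  have hcusp := fun g : SL(2, ℤ) => hb.cusp hne hdens g (hhol g) (hlim g)
  have hpar := psi_mem_parabolicHoms hb hne haut (fun g => (hcusp g).2)
  refine ⟨⟨psi hb hne haut, hpar⟩, exp_psi hb hne haut, fun f => ?_⟩
  have hs : Smooth (prim f) (bH bc) :=
    ⟨fun g => Fermat.Agent.M17.PrimSmooth3.contDiffOn_al f g 1, fun g => hb.contDiffOn_al g⟩
  have hjac : ∀ z : ℍ, jacH (prim f) (bH bc) z = -I * (z.im : ℂ) ^ 2 * f z * dens z := by
    intro z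
    rw [jacH_prim]
    congr 1
    rw [← hb.dbar2_eq hne hdens z]
    refine Fermat.Agent.M17.LocalModel8.dbar2_congr ?_
    filter_upwards [UH_mem_nhds z] with w hw
    show bc ((ofComplex w : ℍ) : ℂ) = bc w
    rw [ofComplex_apply_of_im_pos hw]
  have hsupp' : ∀ z : ℍ, jacH (prim f) (bH bc) z ≠ 0 → ∀ g : SL(2, ℤ), g • z ∈ (𝒟 : Set ℍ) →
      normSq ((g • z : ℍ) : ℂ) ≤ M₀ := by
    intro z hz
    refine hsupp z (fun h0 => hz ?_)
    rw [hjac, h0, mul_zero]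
  rw [EC_eq_ipart_limit (Gamma0 N) (perC N f) ⟨psi hb hne haut, hpar⟩
    (Fermat.Agent.M17.RLFour3.prim_smul f) (smul_eq hb hne haut) hs hM₀ hsupp'
    (fun g => boundedAtCusp_prim f g) (fun g => (hcusp g).1)]
  have e : jacH (prim f) (bH bc) = fun z : ℍ => -I * (z.im : ℂ) ^ 2 * f z * dens z :=
    funext hjac
  rw [e]

end Fermat.Agent.M17.RecipG3
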