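/-
M17 (helper1): **leaf (D) of (RL), the point-point unfolding integral** (helper8's literal statement,
board 1213), for the family `ModelProd8.ppFamily (Gamma0 N) hS`:

  `Ipart volume (wΓ (Gamma0 N)) (-i y² f · ∑_{q ∈ Qs z} 2∂̄(l q)) = π i (prim f p1 - prim f p2)`.

Built on `RLFour1` (`Psi`, `Psi_smul`, `integral_hyp_local`).
-/
import Mathlib
import Fermat.Agent.M17.RLFour1
import Fermat.Agent.M17.ModelProd8

set_option autoImplicit false
set_option linter.unusedSectionVars false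

open UpperHalfPlane hiding I
open Complex CongruenceSubgroup Filter Set MeasureTheory MulAction Subgroup Function
open scoped MatrixGroups ModularForm Topology ComplexConjugate Interval Modular

namespace Fermat.Agent.M17.RecipInt1

open Fermat.Agent.M17.RLFour1 Fermat.Agent.M17.ModelProd8 Fermat.Agent.M17.ModelFam8
  Fermat.Agent.M17.GammaBar8 Fermat.Agent.M17.LocFin8 Fermat.Agent.M17.LocalModel8
  Fermat.Agent.M17.DegMoebius5 Fermat.Agent.M17.CauchyPompeiu5
open Fermat.Agent.S21.Primitive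
open Fermat.Agent.ES.PET.PartitionGamma5 Fermat.Agent.ES.PET.Unfold12

variable (N : ℕ) [NeZero N]

theorem neg_one_mem : (-1 : SL(2, ℤ)) ∈ Gamma0 N := by
  rw [Gamma0_mem]
  simp

/-- the even term of the orbit sum. -/
noncomputable def tterm (p1 p2 : ℍ) (z : ℍ) (γ : SL(2, ℤ)) : ℂ :=
  kap p1 p2 ↑(γ • z) * conj (1 / denom γ z ^ 2)

theorem tterm_neg (p1 p2 z : ℍ) (γ : SL(2, ℤ)) : tterm p1 p2 z (-γ) = tterm p1 p2 z γ := by
  unfold tterm
  rw [ModularGroup.SL_neg_smul]
  have hd : denom ((-γ : SL(2, ℤ))) z = -denom γ z := by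
    rw [ModularGroup.denom_apply, ModularGroup.denom_apply]
    simp [Matrix.SpecialLinearGroup.coe_neg]
    ring
  rw [hd, neg_sq]

/-- `2∂̄` of `l q`. -/
theorem dbar2_l {p1 p2 : ℍ} (hS : Setup p1 p2) (q : Gbar (Gamma0 N)) (z : ℍ) :
    dbar2 (fun w => (ppFamily (Gamma0 N) hS).l q (ofComplex w)) (z : ℂ) =
      tterm p1 p2 z (rep q) := by
  have h1 : (fun w => (ppFamily (Gamma0 N) hS).l q (ofComplex w)) =
      (ell (p1 : ℂ) (p2 : ℂ)) ∘ (mob (rep q)) := rfl
  rw [h1, dbar2_comp (((ell_contDiff (t₁ := (p1 : ℂ)) (t₂ := (p2 : ℂ))).differentiable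
    (by simp)) _) (hasDerivAt_mob (rep q) z), mob_coe]
  rfl

/-- **leaf (D)**. -/
theorem ipart_pp {p1 p2 : ℍ} (hS : Setup p1 p2)
    (h25 : sball (p1 : ℂ) (p2 : ℂ) 25 ⊆ {z : ℂ | 0 < z.im}) (f : CuspForm (Gamma0 N) 2) :
    Ipart volume (wΓ (Gamma0 N)) (fun z : ℍ => -I * (z.im : ℂ) ^ 2 * f z *
      ∑ q ∈ (ppFamily (Gamma0 N) hS).Qs z,
        dbar2 (fun w => (ppFamily (Gamma0 N) hS).l q (ofComplex w)) (z : ℂ)) =
      Real.pi * I * (prim f p1 - prim f p2) := by
  classical
  set J : ℍ → ℂ := fun z : ℍ => -I * (z.im : ℂ) ^ 2 * f z *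
      ∑ q ∈ (ppFamily (Gamma0 N) hS).Qs z,
        dbar2 (fun w => (ppFamily (Gamma0 N) hS).l q (ofComplex w)) (z : ℂ) with hJdef
  have hneg := neg_one_mem N
  -- the orbit sum
  have hJ : ∀ z : ℍ, HasSum (fun γ : Gamma0 N => Psi f p1 p2 (γ • z)) (J z) := by
    intro z
    -- the finite support
    have hfin : {γ : Gamma0 N | (γ : SL(2, ℤ)) • z ∈ BH p1 p2}.Finite := by
      have h := finite_smul_inter (K := {z}) isCompact_singleton (isCompact_BH hS)
      exact (h.preimage Subtype.val_injective.injOn).subset (fun γ hγ => ⟨z, rfl, hγ⟩)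
    set S : Finset (Gamma0 N) := hfin.toFinset with hSdef
    have hmemS : ∀ γ : Gamma0 N, γ ∈ S ↔ (γ : SL(2, ℤ)) • z ∈ BH p1 p2 := by
      intro γ
      rw [hSdef, Set.Finite.mem_toFinset]
      rfl
    have hoff : ∀ γ : Gamma0 N, γ ∉ S → Psi f p1 p2 (γ • z) = 0 := by
      intro γ hγ
      rw [hmemS] at hγ
      show Psi f p1 p2 ((γ : SL(2, ℤ)) • z) = 0
      unfold Psi
      have : ((((γ : SL(2, ℤ)) • z : ℍ)) : ℂ) ∉ annulus (p1 : ℂ) p2 := fun h =>
        hγ (show sfun (p1 : ℂ) p2 _ ≤ 16 from h.2)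
      rw [kap_eq_zero _ _ this]
      ring
    have hsum : HasSum (fun γ : Gamma0 N => Psi f p1 p2 (γ • z))
        (∑ γ ∈ S, Psi f p1 p2 (γ • z)) :=
      hasSum_sum_of_ne_finset_zero (fun γ hγ => hoff γ hγ)
    have hval : ∑ γ ∈ S, Psi f p1 p2 (γ • z) = J z := by
      have h1 : ∀ γ ∈ S, Psi f p1 p2 (γ • z) =
          -(I / 2) * ((z.im : ℂ)) ^ 2 * f z * tterm p1 p2 z (γ : SL(2, ℤ)) := fun γ _ =>
        Psi_smul f p1 p2 γ z
      rw [Finset.sum_congr rfl h1, ← Finset.mul_sum]
      -- fibrewise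
      have hmaps : ∀ γ ∈ S, cls γ ∈ (ppFamily (Gamma0 N) hS).Qs z := by
        intro γ hγ
        rw [mem_ppFamily_Qs]
        have := even_rep_cls (fun g : SL(2, ℤ) => g • z ∈ BH p1 p2) (smul_mem_BH_even z) γ
        rw [this]
        exact (hmemS γ).mp hγ
      rw [← Finset.sum_fiberwise_of_maps_to hmaps]
      have hfib : ∀ q ∈ (ppFamily (Gamma0 N) hS).Qs z,
          ∑ γ ∈ S with cls γ = q, tterm p1 p2 z (γ : SL(2, ℤ)) = 2 * tterm p1 p2 z (rep q) := by
        intro q hq
        rw [mem_ppFamily_Qs] at hq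
        set γq : Gamma0 N := Quotient.out q with hγq
        have hcq : cls γq = q := cls_out q
        have hrep : rep q = (γq : SL(2, ℤ)) := rfl
        set γq' : Gamma0 N := ⟨-1, hneg⟩ * γq with hγq'
        have hne : γq ≠ γq' := by
          intro h
          have h2 : (γq : SL(2, ℤ)) = -1 * (γq : SL(2, ℤ)) := congrArg Subtype.val h
          have h3 : (1 : SL(2, ℤ)) = -1 := by
            have := congrArg (fun g => g * (γq : SL(2, ℤ))⁻¹) h2
            simpa [mul_assoc] using this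
          exact absurd h3 (by decide)
        have hfilter : (S.filter fun γ => cls γ = q) = {γq, γq'} := by
          ext γ
          rw [Finset.mem_filter, Finset.mem_insert, Finset.mem_singleton, ← hcq,
            cls_eq_cls_iff' hneg]
          constructor
          · exact fun h => h.2
          · intro h
            refine ⟨?_, h⟩
            rw [hmemS]
            rcases h with h | h
            · rw [h]; exact hq
            · rw [h]
              show ((-1 : SL(2, ℤ)) * (γq : SL(2, ℤ))) • z ∈ BH p1 p2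
              rw [neg_mul, one_mul, ModularGroup.SL_neg_smul]
              exact hq
        rw [hfilter, Finset.sum_pair hne]
        have e1 : ((γq' : Gamma0 N) : SL(2, ℤ)) = -(γq : SL(2, ℤ)) := by
          show (-1 : SL(2, ℤ)) * (γq : SL(2, ℤ)) = _
          rw [neg_mul, one_mul]
        rw [e1, tterm_neg, hrep]
        ring
      rw [Finset.sum_congr rfl hfib, ← Finset.mul_sum]
      rw [hJdef]
      simp only
      rw [Finset.sum_congr rfl (fun q _ => dbar2_l N hS q z)]
      ring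
    rw [← hval]
    exact hsum
  obtain ⟨hint, hval⟩ := integral_hyp_local f p1 p2 hS.ne' h25
  have hΨint : Integrable (Psi f p1 p2) := hint.const_mul _
  have hΨval : ∫ z : ℍ, Psi f p1 p2 z = -(I / 2) * (-(2 * Real.pi) * (prim f p1 - prim f p2)) := by
    unfold Psi
    rw [integral_const_mul, hval]
  have hunf := Fermat.Agent.M17.UnfoldLoc3.ipart_orbit_sum (isPartition_wΓ (Gamma0 N)) hΨint
    (Eventually.of_forall hJ)
  rw [hunf, hΨval]
  ring

end Fermat.Agent.M17.RecipInt1
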