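/-
M17 (helper6), programme M17 (target S17); imported by no statement.

**(RVT): the hard inclusion of Riemann's vanishing theorem**, against `RTData` as a hypothesis:
`th0 z = 0  ⇒  z + k = iota [E - (g-1)·∞]` for an EFFECTIVE divisor `E` of degree `g - 1`.

Proof (Mumford / Farkas-Kra "`s`-argument").  Put `f_s(P;Q) = th0 (z + ∑_{i<s} (A P_i - A Q_i))`
on `ℍ^s × ℍ^s`.  `f_0 = th0 z = 0`, `f_g ≢ 0` (`AbelOpen6.exists_sum_ne_zero`); let `s` be such that
`f_s ≡ 0`, `f_{s+1} ≢ 0`, say `f_{s+1}(P;Q) ≠ 0`, and move `Q` (open condition; the complement of a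
countable set is dense) so that the `Q_j` are pairwise inequivalent under `Γ₀(N)`.  For
`e = A Q_{s+1} - z - ∑_{i≤s} (A P_i - A Q_i)` the function `F_e = th0 (A · - e)` is not `0` at
`P_{s+1}` and vanishes at all `Q_j` (`f_s ≡ 0`), so `Z e = ∑ (Q_j) + R` with `R ≥ 0`, and
`Z_sum` + `iota_mk` give `k - z = iota [R + ∑_{i≤s} (P_i) - (g-1)·∞]`.  Evenness turns `-z` into `z`.
-/
import Mathlib
import Fermat.Agent.M17.AbelOpen6
import Fermat.Agent.M17.Dict4
import Fermat.Agent.ES.KUM.FieldL25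

set_option autoImplicit false
set_option linter.unusedSectionVars false
set_option linter.unusedVariables false

namespace Fermat.Agent.M17.Rvt6

open ModularCurve ModularCurve.Period CongruenceSubgroup UpperHalfPlane AlgebraicCurve
open Fermat.Agent.M17.Interfaces7 Fermat.Agent.M17.AbelOpen6
open Fermat.Agent.ES.KUM Fermat.Agent.ES.KUM.CCusp16 Fermat.Agent.X0.SurjPoint
open Fermat.Agent.X0
open Filter Topology
open scoped MatrixGroups

/-! ### generic tuples -/

/-- a tuple in a product of uncountable sets avoiding a relation with countable classes. -/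
theorem exists_generic_tuple {X : Type*} (R : X → X → Prop) (hR : ∀ x, {y | R x y}.Countable) :
    ∀ (n : ℕ) (B : Fin n → Set X), (∀ j, ¬ (B j).Countable) →
      ∃ Q : Fin n → X, (∀ j, Q j ∈ B j) ∧ ∀ i j, i < j → ¬ R (Q i) (Q j) := by
  intro n
  induction n with
  | zero => exact fun B _ => ⟨fun i => i.elim0, fun i => i.elim0, fun i => i.elim0⟩
  | succ n ih =>
    intro B hB
    obtain ⟨Q', hQ', hR'⟩ := ih (fun j => B j.castSucc) (fun j => hB _)
    have hc : (⋃ i : Fin n, {y | R (Q' i) y}).Countable := Set.countable_iUnion fun i => hR _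
    have hex : ∃ y, y ∈ B (Fin.last n) ∧ y ∉ ⋃ i : Fin n, {y | R (Q' i) y} := by
      by_contra hcon
      refine hB (Fin.last n) (hc.mono fun y hy => ?_)
      by_contra hy'
      exact hcon ⟨y, hy, hy'⟩
    obtain ⟨y, hyB, hy⟩ := hex
    refine ⟨Fin.snoc Q' y, fun j => ?_, fun i j hij => ?_⟩
    · refine Fin.lastCases ?_ (fun j' => ?_) j
      · simpa using hyB
      · simpa using hQ' j'
    · revert hij
      refine Fin.lastCases ?_ (fun j' => ?_) j
      · refine Fin.lastCases ?_ (fun i' => ?_) i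
        · intro h; exact absurd h (lt_irrefl _)
        · intro _
          simp only [Fin.snoc_castSucc, Fin.snoc_last]
          intro hr
          exact hy (Set.mem_iUnion.2 ⟨i', hr⟩)
      · refine Fin.lastCases ?_ (fun i' => ?_) i
        · intro h
          exact absurd h (not_lt.2 (Fin.le_last _))
        · intro h
          simp only [Fin.snoc_castSucc]
          exact hR' i' j' (by simpa using h)

/-- nonempty open subsets of `ℍ` are uncountable. -/
theorem not_countable_of_isOpen {B : Set ℍ} (hB : IsOpen B) (hne : B.Nonempty) :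
    ¬ B.Countable := by
  intro hc
  have h1 : IsOpen ((fun τ : ℍ => (τ : ℂ)) '' B) :=
    UpperHalfPlane.isOpenEmbedding_coe.isOpenMap _ hB
  have h2 : ((fun τ : ℍ => (τ : ℂ)) '' B).Countable := hc.image _
  have h3 : ((fun τ : ℍ => (τ : ℂ)) '' B).Nonempty := hne.image _
  obtain ⟨x, hx1, hx2⟩ := (h2.dense_compl ℝ).inter_open_nonempty _ h1 h3
  exact hx2 hx1

variable {N : ℕ} [NeZero N]

/-- the `Γ₀(N)`-equivalence classes of points of `ℍ` (same point place) are countable. -/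
theorem countable_ptPlaceC_eq (x : ℍ) :
    {y : ℍ | ptPlaceC N 1 x = ptPlaceC N 1 y}.Countable := by
  have h : {y : ℍ | ptPlaceC N 1 x = ptPlaceC N 1 y} ⊆ Set.range fun γ : SL(2, ℤ) => γ • x := by
    intro y hy
    obtain ⟨γ, -, rfl⟩ := (Fermat.Agent.M17.Dict4.ptPlaceC_eq_iff N x y).1 hy
    exact ⟨γ, rfl⟩
  have : Countable (Fin 2 → Fin 2 → ℤ) := inferInstance
  have hinj : Function.Injective
      (fun γ : SL(2, ℤ) => (fun i j => γ.1 i j : Fin 2 → Fin 2 → ℤ)) := by
    intro γ γ' hγ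
    apply Subtype.ext
    ext i j
    exact congrFun (congrFun hγ i) j
  have : Countable SL(2, ℤ) := hinj.countable
  exact (Set.countable_range _).mono h

/-! ### the `s`-argument -/

section Main

variable {g : ℕ} {L : LatData N g} {AJ : AJData N L} {th0 : (Fin g → ℂ) → ℂ}
  (RT : RTData N L AJ th0)

/-- `A(i∞) = 0`. -/
theorem tendsto_A_infty (L : LatData N g) : Tendsto L.A atImInfty (𝓝 0) := by
  refine tendsto_pi_nhds.mpr fun k => ?_
  obtain ⟨a, ha, hfd⟩ := Fermat.Agent.S21.PeriodPrim.cusp_decay (L.w k)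
  exact Fermat.Agent.S21.PeriodPrim.tendsto_Fp ha
    (Fermat.Agent.S21.PeriodPrim.cusp_mdiff (L.w k)) hfd

theorem Acusp_one (AJ : AJData N L) : AJ.Acusp 1 = 0 := by
  have h1 := AJ.Acusp_spec 1
  simp only [inv_one, one_smul] at h1
  exact tendsto_nhds_unique h1 (tendsto_A_infty L)

/-- the additive map `m ↦ ∑ m_x • A x`. -/
noncomputable def ptSum (L : LatData N g) : (ℍ →₀ ℤ) →+ (Fin g → ℂ) :=
  Finsupp.liftAddHom fun x => (zmultiplesHom (Fin g → ℂ)) (L.A x)

theorem ptSum_apply (m : ℍ →₀ ℤ) : ptSum L m = m.sum fun x k => k • L.A x := by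
  simp only [ptSum, Finsupp.liftAddHom_apply]
  rfl

theorem ptSum_single (x : ℍ) : ptSum L (Finsupp.single x 1) = L.A x := by
  rw [ptSum_apply, Finsupp.sum_single_index (by simp), one_smul]

/-- a zero of `F_e` at a point of `ℍ` lies in `Z e`. -/
theorem one_le_Z_pt {e : Fin g → ℂ} (hne : RT.Fe e ≠ 0) {x : ℍ}
    (hx : (RT.Fe e : ℍ → ℂ) x = 0) : 1 ≤ RT.Z e (ptPlaceC N 1 x) := by
  have hspec := (RT.Z_spec e hne).2.1 x
  rw [ordMer_algebraMap x hne] at hspec
  have hne' : (RT.Fe e : ℍ → ℂ) ≠ 0 := fun h => hne (Subtype.ext h)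
  have h1 : ordH (RT.Fe e : ℍ → ℂ) x ≠ 0 := fun h =>
    ((ordH_eq_zero_iff (RT.Fe e).2 x).1 h) hx
  have h2 : ordH (RT.Fe e : ℍ → ℂ) x ≠ ⊤ := ordH_ne_top (RT.Fe e).2 hne' x
  have h3 : 1 ≤ (ordH (RT.Fe e : ℍ → ℂ) x).toNat := by
    rcases Nat.eq_zero_or_pos (ordH (RT.Fe e : ℍ → ℂ) x).toNat with h | h
    · rcases (ENat.toNat_eq_zero).1 h with h' | h'
      · exact absurd h' h1
      · exact absurd h' h2
    · exact h
  have hidx : 0 < (ptIdx N 1 x : ℤ) := by exact_mod_cast ptIdx_pos N 1 x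
  have h4 : (1 : ℤ) ≤ RT.Z e (ptPlaceC N 1 x) * (ptIdx N 1 x : ℤ) := by
    rw [← hspec]
    exact_mod_cast h3
  by_contra hcon
  have h5 : RT.Z e (ptPlaceC N 1 x) ≤ 0 := by omega
  nlinarith

theorem degree_single_one (v : Place ℂ (FC N)) :
    Divisor.degree (Finsupp.single v (1 : ℤ)) = 1 := by
  rw [Divisor.degree_single, FieldL25.deg_eq_one_L ℂ N v]
  simp

/-- the core of the `s`-argument. -/
theorem core (z : Fin g → ℂ) (s : ℕ)
    (hs : ∀ P Q : Fin s → ℍ, th0 (z + ∑ i, (L.A (P i) - L.A (Q i))) = 0)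
    (P Q : Fin (s + 1) → ℍ) (hPQ : th0 (z + ∑ i, (L.A (P i) - L.A (Q i))) ≠ 0)
    (hdist : ∀ i j, i ≠ j → ptPlaceC N 1 (Q i) ≠ ptPlaceC N 1 (Q j)) :
    ∃ (E : Divisor ℂ (FC N))
      (h : E - Finsupp.single (cuspPlaceC N 1) ((g : ℤ) - 1) ∈
        Divisor.degZero (K := ℂ) (F := FC N)),
      0 ≤ E ∧ AJ.iota (Pic0.mk ⟨_, h⟩) = QuotientAddGroup.mk (RT.k - z) := by
  classical
  set c : Fin g → ℂ := ∑ i : Fin s, (L.A (P i.castSucc) - L.A (Q i.castSucc)) with hc
  set e : Fin g → ℂ := L.A (Q (Fin.last s)) - z - c with he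
  have hFe : ∀ τ : ℍ, (RT.Fe e : ℍ → ℂ) τ
      = th0 (z + c + (L.A τ - L.A (Q (Fin.last s)))) := by
    intro τ
    rw [RT.Fe_apply]
    congr 1
    rw [he]
    abel
  have hPlast : (RT.Fe e : ℍ → ℂ) (P (Fin.last s)) ≠ 0 := by
    rw [hFe]
    rw [Fin.sum_univ_castSucc] at hPQ
    rwa [add_assoc]
  have hne : RT.Fe e ≠ 0 := fun h => hPlast (by rw [h]; rfl)
  have hzero : ∀ j, (RT.Fe e : ℍ → ℂ) (Q j) = 0 := by
    intro j
    rw [hFe]
    refine Fin.lastCases ?_ (fun j' => ?_) j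
    · rw [sub_self, add_zero]
      exact hs (fun i => P i.castSucc) (fun i => Q i.castSucc)
    · have h := hs (fun i => P i.castSucc)
        (Function.update (fun i => Q i.castSucc) j' (Q (Fin.last s)))
      rw [← h, add_assoc]
      congr 2
      have hterm : ∀ i : Fin s, L.A (P i.castSucc)
          - L.A (Function.update (fun i => Q i.castSucc) j' (Q (Fin.last s)) i)
          = (L.A (P i.castSucc) - L.A (Q i.castSucc))
            + (if i = j' then L.A (Q j'.castSucc) - L.A (Q (Fin.last s)) else 0) := by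
        intro i
        by_cases hij : i = j'
        · subst hij
          rw [Function.update_self, if_pos rfl]
          abel
        · rw [Function.update_of_ne hij, if_neg hij, add_zero]
      rw [Finset.sum_congr rfl (fun i _ => hterm i), Finset.sum_add_distrib,
        Finset.sum_ite_eq' Finset.univ j' (fun _ => L.A (Q j'.castSucc) - L.A (Q (Fin.last s))),
        if_pos (Finset.mem_univ _)]
  have hZQ : ∀ j, 1 ≤ RT.Z e (ptPlaceC N 1 (Q j)) := fun j => one_le_Z_pt RT hne (hzero j)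
  set Dq : Divisor ℂ (FC N) := ∑ j, Finsupp.single (ptPlaceC N 1 (Q j)) 1 with hDq
  set Dp : Divisor ℂ (FC N) := ∑ i : Fin s, Finsupp.single (ptPlaceC N 1 (P i.castSucc)) 1
    with hDp
  have hDq_le : ∀ v, Dq v ≤ RT.Z e v := by
    intro v
    rw [hDq, Finsupp.finsetSum_apply]
    by_cases hv : ∃ j, ptPlaceC N 1 (Q j) = v
    · obtain ⟨j, rfl⟩ := hv
      rw [Finset.sum_eq_single j]
      · simpa using hZQ j
      · intro i _ hij
        rw [Finsupp.single_apply, if_neg (hdist i j hij)]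
      · intro h
        exact absurd (Finset.mem_univ j) h
    · rw [Finset.sum_eq_zero]
      · exact RT.Z_nonneg e v
      · intro i _
        rw [Finsupp.single_apply, if_neg (fun h => hv ⟨i, h⟩)]
  have hDp_nonneg : ∀ v, 0 ≤ Dp v := by
    intro v
    rw [hDp, Finsupp.finsetSum_apply]
    refine Finset.sum_nonneg fun i _ => ?_
    rw [Finsupp.single_apply]
    split_ifs <;> norm_num
  set E : Divisor ℂ (FC N) := RT.Z e - Dq + Dp with hE
  have hE0 : 0 ≤ E := by
    rw [Finsupp.le_def]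
    intro v
    rw [hE, Finsupp.add_apply, Finsupp.sub_apply, Finsupp.zero_apply]
    have h1 := hDq_le v
    have h2 := hDp_nonneg v
    omega
  have hdegDq : Divisor.degree Dq = (s : ℤ) + 1 := by
    rw [hDq, map_sum, Finset.sum_congr rfl (fun j _ => degree_single_one _)]
    simp
  have hdegDp : Divisor.degree Dp = (s : ℤ) := by
    rw [hDp, map_sum, Finset.sum_congr rfl (fun j _ => degree_single_one _)]
    simp
  have hdegZ : Divisor.degree (RT.Z e) = g := RT.Z_degree e hne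
  have hZmem : RT.Z e - Finsupp.single (cuspPlaceC N 1) (g : ℤ) ∈
      Divisor.degZero (K := ℂ) (F := FC N) := by
    rw [Divisor.mem_degZero, map_sub, hdegZ, Divisor.degree_single,
      FieldL25.deg_eq_one_L ℂ N]
    simp
  set m : ℍ →₀ ℤ := (∑ i : Fin s, Finsupp.single (P i.castSucc) 1)
    - ∑ j, Finsupp.single (Q j) 1 with hm
  have hpd : pointDivisor N m = Dp - Dq := by
    have h0 : pointDivisor N m = Finsupp.mapDomain.addMonoidHom (ptPlaceC N 1) m := rfl
    rw [h0, hm, map_sub, map_sum, map_sum, hDp, hDq]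
    simp only [Finsupp.mapDomain.addMonoidHom_apply, Finsupp.mapDomain_single]
  have hcd : cuspDivisor N (Finsupp.single (1 : SL(2, ℤ)) 1)
      = Finsupp.single (cuspPlaceC N 1) 1 := Finsupp.mapDomain_single
  have hD1 : pointDivisor N m + cuspDivisor N (Finsupp.single (1 : SL(2, ℤ)) 1) ∈
      Divisor.degZero (K := ℂ) (F := FC N) := by
    rw [Divisor.mem_degZero, hpd, hcd, map_add, map_sub, hdegDp, hdegDq, degree_single_one]
    ring
  have hiota1 := AJ.iota_mk m (Finsupp.single 1 1) hD1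
  have hsum1 : (m.sum fun x k => k • L.A x)
      = ∑ i : Fin s, L.A (P i.castSucc) - ∑ j, L.A (Q j) := by
    rw [← ptSum_apply, hm, map_sub, map_sum, map_sum]
    simp only [ptSum_single]
  have hsum2 : ((Finsupp.single (1 : SL(2, ℤ)) (1 : ℤ)).sum fun δ k => k • AJ.Acusp δ) = 0 := by
    rw [Finsupp.sum_single_index (by simp), one_smul, Acusp_one]
  have hEeq : E - Finsupp.single (cuspPlaceC N 1) ((g : ℤ) - 1)
      = (RT.Z e - Finsupp.single (cuspPlaceC N 1) (g : ℤ))
        + (pointDivisor N m + cuspDivisor N (Finsupp.single (1 : SL(2, ℤ)) 1)) := by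
    rw [hpd, hcd, hE, sub_eq_add_neg (g : ℤ) 1, Finsupp.single_add, Finsupp.single_neg]
    abel
  have hmem : E - Finsupp.single (cuspPlaceC N 1) ((g : ℤ) - 1) ∈
      Divisor.degZero (K := ℂ) (F := FC N) := by
    rw [hEeq]
    exact AddSubgroup.add_mem _ hZmem hD1
  refine ⟨E, hmem, hE0, ?_⟩
  have hsplit : (⟨_, hmem⟩ : Divisor.degZero (K := ℂ) (F := FC N))
      = ⟨_, hZmem⟩ + ⟨_, hD1⟩ := Subtype.ext hEeq
  rw [hsplit, Pic0.mk_add, map_add, RT.Z_sum e hne hZmem, hiota1, hsum1, hsum2, add_zero,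
    ← QuotientAddGroup.mk_add]
  congr 1
  rw [Fin.sum_univ_castSucc (fun j => L.A (Q j)), he, hc, Finset.sum_sub_distrib]
  abel

/-- **(RVT)**, un-evened form: `th0 z = 0 ⇒ k - z ∈ W_{g-1}`. -/
theorem rvt_sub (hth : Differentiable ℂ th0) (hne : ∃ z, th0 z ≠ 0) (z : Fin g → ℂ)
    (hz : th0 z = 0) :
    ∃ (E : Divisor ℂ (FC N))
      (h : E - Finsupp.single (cuspPlaceC N 1) ((g : ℤ) - 1) ∈
        Divisor.degZero (K := ℂ) (F := FC N)),
      0 ≤ E ∧ AJ.iota (Pic0.mk ⟨_, h⟩) = QuotientAddGroup.mk (RT.k - z) := by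
  classical
  have hex : ∃ t : ℕ, ∃ P Q : Fin t → ℍ, th0 (z + ∑ i, (L.A (P i) - L.A (Q i))) ≠ 0 :=
    ⟨g, exists_sum_ne_zero L th0 hth hne z⟩
  obtain ⟨t, ⟨P, Q, hPQ⟩, hmin⟩ : ∃ t, (∃ P Q : Fin t → ℍ,
      th0 (z + ∑ i, (L.A (P i) - L.A (Q i))) ≠ 0) ∧ ∀ t' < t, ¬ ∃ P Q : Fin t' → ℍ,
      th0 (z + ∑ i, (L.A (P i) - L.A (Q i))) ≠ 0 :=
    ⟨Nat.find hex, Nat.find_spec hex, fun t' h => Nat.find_min hex h⟩
  cases t with
  | zero =>
    exfalso
    apply hPQ
    simpa using hz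
  | succ s =>
    have hs : ∀ P Q : Fin s → ℍ, th0 (z + ∑ i, (L.A (P i) - L.A (Q i))) = 0 := by
      intro P' Q'
      by_contra h
      exact hmin s (Nat.lt_succ_self s) ⟨P', Q', h⟩
    have hW : IsOpen {Q' : Fin (s + 1) → ℍ |
        th0 (z + ∑ i, (L.A (P i) - L.A (Q' i))) ≠ 0} := by
      have hcont : Continuous fun Q' : Fin (s + 1) → ℍ =>
          th0 (z + ∑ i, (L.A (P i) - L.A (Q' i))) :=
        hth.continuous.comp (continuous_const.add (continuous_finsetSum _ fun i _ =>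
          continuous_const.sub ((continuous_A L).comp (continuous_apply i))))
      exact isOpen_ne_fun hcont continuous_const
    obtain ⟨u, hu, hsub⟩ := isOpen_pi_iff'.1 hW Q hPQ
    obtain ⟨Q', hQ'u, hQ'R⟩ := exists_generic_tuple
      (fun x y : ℍ => ptPlaceC N 1 x = ptPlaceC N 1 y) countable_ptPlaceC_eq (s + 1) u
      (fun j => not_countable_of_isOpen (hu j).1 ⟨Q j, (hu j).2⟩)
    have hQ'W : th0 (z + ∑ i, (L.A (P i) - L.A (Q' i))) ≠ 0 := hsub (fun j _ => hQ'u j)
    have hdist : ∀ i j, i ≠ j → ptPlaceC N 1 (Q' i) ≠ ptPlaceC N 1 (Q' j) := by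
      intro i j hij
      rcases lt_or_gt_of_ne hij with h | h
      · exact hQ'R i j h
      · exact fun h' => hQ'R j i h h'.symm
    exact core RT z s hs P Q' hQ'W hdist

/-- **(RVT)**, helper2's shape (board 1156): `th0 z = 0 ⇒ z + k = iota [E - (g-1)·∞]`, `E ≥ 0`. -/
theorem rvt (hth : Differentiable ℂ th0) (heven : ∀ z, th0 (-z) = th0 z)
    (hne : ∃ z, th0 z ≠ 0) (z : Fin g → ℂ) (hz : th0 z = 0) :
    ∃ (E : Divisor ℂ (FC N))
      (h : E - Finsupp.single (cuspPlaceC N 1) ((g : ℤ) - 1) ∈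
        Divisor.degZero (K := ℂ) (F := FC N)),
      0 ≤ E ∧ AJ.iota (Pic0.mk ⟨_, h⟩) = QuotientAddGroup.mk (z + RT.k) := by
  obtain ⟨E, h, hE, hi⟩ := rvt_sub RT hth hne (-z) (by rw [heven]; exact hz)
  refine ⟨E, h, hE, ?_⟩
  rw [hi, sub_neg_eq_add, add_comm]

/-- **(RVT)**, the shape announced on the board (1154). -/
theorem rvt' (hth : Differentiable ℂ th0) (heven : ∀ z, th0 (-z) = th0 z)
    (hne : ∃ z, th0 z ≠ 0) (z : Fin g → ℂ) (hz : th0 z = 0) :
    ∃ E : Divisor ℂ (FC N), 0 ≤ E ∧ Divisor.degree E = (g : ℤ) - 1 ∧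
      ∀ h : E - Finsupp.single (cuspPlaceC N 1) ((g : ℤ) - 1) ∈
        Divisor.degZero (K := ℂ) (F := FC N),
        AJ.iota (Pic0.mk ⟨_, h⟩) = QuotientAddGroup.mk (z + RT.k) := by
  obtain ⟨E, h, hE, hi⟩ := rvt RT hth heven hne z hz
  refine ⟨E, hE, ?_, fun _ => hi⟩
  have h1 := Divisor.mem_degZero.1 h
  rw [map_sub, Divisor.degree_single, FieldL25.deg_eq_one_L ℂ N] at h1
  simp only [Nat.cast_one, mul_one] at h1
  linarith

end Main

end Fermat.Agent.M17.Rvt6
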