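import Fermat.Agent.M17.RecipFam8
import Fermat.Agent.M17.RecipAdapted0
import Fermat.Agent.M17.RecipCusp9
import Fermat.Agent.M17.RecipInt1
import Fermat.Agent.M17.RLFinal3
import Fermat.Agent.M17.MultAJ4
import Fermat.Agent.M17.Rvt6
import Fermat.Agent.ES.KUM.CSurj25

/-!
# Programme M17, block (RL): the point-point reciprocity law in additive form

`addRL_pp`: for `z₀, z ∈ ℍ` with different places and `sball z₀ z 25 ⊆ ℍ`
(the disc of radius `5 |z₀ - z|` about `z`), an automorphic pair `(F, χ)` of divisor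
`(z₀) - (z)` has a parabolic logarithm `ψ` of `χ` with
`EC (per (w k)) ψ = -4πi (A z₀ - A z)_k` (`RLFinal3.AddRL`).

Imported by no statement.
-/

set_option autoImplicit false
set_option linter.unusedSectionVars false

open UpperHalfPlane hiding I
open Complex CongruenceSubgroup AlgebraicCurve Filter Set MeasureTheory
open scoped MatrixGroups ModularForm Topology Real Modular

noncomputable section

namespace Fermat.Agent.M17.RecipPoint8

open ModularCurve ModularCurve.Period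
open Fermat.Agent.X0 Fermat.Agent.ES.KUM Fermat.Agent.X0.SurjPoint Fermat.Agent.ES.KUM.CCusp16
open Fermat.Agent.M15.DivLogMer1 Fermat.Agent.M15.DivLogPrim1
open Fermat.Agent.M17.Interfaces7 Fermat.Agent.M17.MultAJ4 Fermat.Agent.M17.RLFinal3
  Fermat.Agent.M17.RiemannSymmetric2 Fermat.Agent.M17.LocalModel8
  Fermat.Agent.M17.ModelFam8 Fermat.Agent.M17.ModelProd8 Fermat.Agent.M17.RecipFam8
open Fermat.Agent.S21.Primitive

variable {N : ℕ} [NeZero N] {g : ℕ}

theorem sball_mono (t₁ t₂ : ℂ) {c c' : ℝ} (h : c ≤ c') : sball t₁ t₂ c ⊆ sball t₁ t₂ c' :=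
  fun _ ht => le_trans ht h

theorem pair_mem_degZero (v v' : Place ℂ (FC N)) :
    Finsupp.single v (1 : ℤ) - Finsupp.single v' 1 ∈ Divisor.degZero (K := ℂ) (F := FC N) := by
  rw [Divisor.mem_degZero, map_sub, Fermat.Agent.M17.Rvt6.degree_single_one,
    Fermat.Agent.M17.Rvt6.degree_single_one, sub_self]

/-- **(RL), point-point, additive form.** -/
theorem addRL_pp (L : LatData N g) {z₀ z : ℍ}
    (h25 : sball (z₀ : ℂ) (z : ℂ) 25 ⊆ {w : ℂ | 0 < w.im})
    (hne : ptPlaceC N 1 z₀ ≠ ptPlaceC N 1 z) :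
    AddRL L (Finsupp.single (ptPlaceC N 1 z₀) 1 - Finsupp.single (ptPlaceC N 1 z) 1)
      (L.A z₀ - L.A z) := by
  have hne' : z₀ ≠ z := fun h => hne (by rw [h])
  have hS : Setup z₀ z := ⟨hne', (sball_mono _ _ (by norm_num)).trans h25⟩
  obtain ⟨F, χ, hpair⟩ := exists_isAutPair N _ (pair_mem_degZero (ptPlaceC N 1 z₀) (ptPlaceC N 1 z))
  set fam := ppFamily (Gamma0 N) hS with hfam
  have hF : fam.Adapted F := Fermat.Agent.M17.RecipAdapted0.adapted_pp hS hpair.1
  -- the cusp hypotheses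
  have hcusp : CuspHyp fam F := by
    refine ⟨fun σ => ?_, fun σ => ?_⟩
    · obtain ⟨Y₀, hY⟩ := Fermat.Agent.M17.RecipCusp9.exists_Qs_eq_empty (Gamma0 N) hS σ
      refine ⟨Y₀, fun τ hτ => ?_⟩
      unfold dens
      rw [hY τ hτ, Finset.sum_empty]
    · refine Fermat.Agent.M17.RecipCusp9.tendsto_GH N hS σ ?_
      have h0 := hpair.1.2.2 σ
      have e : ((Finsupp.single (ptPlaceC N 1 z₀) (1 : ℤ) - Finsupp.single (ptPlaceC N 1 z) 1 :
          Divisor ℂ (FC N))) (cuspPlaceC N σ) = 0 := by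
        rw [Finsupp.sub_apply,
          Finsupp.single_eq_of_ne (CSurj25.ptPlaceC_ne_cuspPlaceC N 1 σ z₀).symm,
          Finsupp.single_eq_of_ne (CSurj25.ptPlaceC_ne_cuspPlaceC N 1 σ z).symm, sub_zero]
      rw [e, zero_mul] at h0
      exact h0
  obtain ⟨M₀, hM₀, hM⟩ := Fermat.Agent.M17.RecipCusp9.exists_normSq_le (Gamma0 N) hS
  have hsupp : ∀ w : ℍ, dens fam w ≠ 0 → ∀ σ : SL(2, ℤ), σ • w ∈ (𝒟 : Set ℍ) →
      normSq ((σ • w : ℍ) : ℂ) ≤ M₀ := by
    intro w hw σ hσ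
    refine hM w (fun h => hw ?_) σ hσ
    unfold dens
    rw [h, Finset.sum_empty]
  obtain ⟨ψ, hexp, hEC⟩ := exists_psi hF hpair.2.2 hcusp hM₀ hsupp
  refine ⟨F, χ, ψ, hpair, hexp, fun k => ?_⟩
  rw [hEC (L.w k)]
  have h1 := Fermat.Agent.M17.RecipInt1.ipart_pp N hS h25 (L.w k)
  unfold dens
  rw [h1, Pi.sub_apply, A_eq_prim, A_eq_prim]
  ring

end Fermat.Agent.M17.RecipPoint8
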