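/-
Programme M17 (target S17), helper9.  The period lattice `ℤ^g + Ω ℤ^g` of a point of helper1's
Siegel space: real coordinates, cocompactness, density of torsion points.  Imported by no
statement.
-/
import Fermat.Agent.M17.ThetaPeriod1
import Fermat.Agent.M17.ThetaGlue9

set_option autoImplicit false

namespace Fermat.Agent.M17.SiegelLattice9

open Fermat.Agent.M17.Theta1 Fermat.Agent.M17.Theta1.Siegel Complex Matrix

variable {g : ℕ}

/-- the map `(x, y) ↦ x + Ω y` on real vectors. -/
noncomputable def realCoord (τ : Siegel g) (x y : Fin g → ℝ) : Fin g → ℂ :=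
  ofRealVec x + τ.Ω *ᵥ ofRealVec y

theorem realCoord_apply (τ : Siegel g) (x y : Fin g → ℝ) (i : Fin g) :
    realCoord τ x y i = ((x i + (τ.X *ᵥ y) i : ℝ) : ℂ) + ((τ.Y *ᵥ y) i : ℝ) * I := by
  simp only [realCoord, Pi.add_apply, ofRealVec, Matrix.mulVec, dotProduct, Siegel.X, Siegel.Y,
    Matrix.map_apply]
  push_cast
  rw [Finset.sum_mul, add_assoc, ← Finset.sum_add_distrib]
  congr 1
  refine Finset.sum_congr rfl fun j _ => ?_
  conv_lhs => rw [← Complex.re_add_im (τ.Ω i j)]
  ring

/-- `Y = Im Ω` is injective, hence surjective, on real vectors. -/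
theorem Y_mulVec_surjective (τ : Siegel g) : Function.Surjective fun y : Fin g → ℝ => τ.Y *ᵥ y := by
  have hinj : Function.Injective (Matrix.toLin' τ.Y) := by
    rw [← LinearMap.ker_eq_bot, LinearMap.ker_eq_bot']
    intro v hv
    by_contra hne
    have := τ.pos v hne
    rw [Matrix.toLin'_apply] at hv
    change 0 < v ⬝ᵥ (τ.Y *ᵥ v) at this
    rw [hv, dotProduct_zero] at this
    exact lt_irrefl _ this
  have hsurj := LinearMap.injective_iff_surjective.mp hinj
  intro b
  obtain ⟨y, hy⟩ := hsurj b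
  exact ⟨y, by rw [← hy, Matrix.toLin'_apply]⟩

/-- **real coordinates**: every `z ∈ ℂ^g` is `x + Ω y` with `x y` real. -/
theorem exists_realCoord (τ : Siegel g) (z : Fin g → ℂ) :
    ∃ x y : Fin g → ℝ, z = realCoord τ x y := by
  obtain ⟨y, hy⟩ := Y_mulVec_surjective τ (fun i => (z i).im)
  refine ⟨fun i => (z i).re - (τ.X *ᵥ y) i, y, ?_⟩
  funext i
  rw [realCoord_apply]
  have h1 : (τ.Y *ᵥ y) i = (z i).im := congrFun hy i
  rw [h1]
  simp only [sub_add_cancel]
  exact (Complex.re_add_im (z i)).symm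

/-- the period lattice as an additive subgroup. -/
noncomputable def lattice (τ : Siegel g) : AddSubgroup (Fin g → ℂ) where
  carrier := {l | ∃ p q : Fin g → ℤ, l = realCoord τ (intVec p) (intVec q)}
  zero_mem' := ⟨0, 0, by simp [realCoord, intVec_zero, ofRealVec_zero]⟩
  add_mem' := by
    rintro _ _ ⟨p, q, rfl⟩ ⟨p', q', rfl⟩
    refine ⟨p + p', q + q', ?_⟩
    simp only [realCoord, intVec_add, ofRealVec_add, Matrix.mulVec_add]
    abel
  neg_mem' := by
    rintro _ ⟨p, q, rfl⟩
    refine ⟨-p, -q, ?_⟩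
    simp only [realCoord, intVec_neg, ofRealVec_neg, Matrix.mulVec_neg]
    abel

theorem mem_lattice {τ : Siegel g} {l : Fin g → ℂ} :
    l ∈ lattice τ ↔ ∃ p q : Fin g → ℤ, l = realCoord τ (intVec p) (intVec q) := Iff.rfl

theorem realCoord_add (τ : Siegel g) (x y x' y' : Fin g → ℝ) :
    realCoord τ (x + x') (y + y') = realCoord τ x y + realCoord τ x' y' := by
  simp only [realCoord, ofRealVec_add, Matrix.mulVec_add]; abel

theorem continuous_realCoord (τ : Siegel g) :
    Continuous fun w : (Fin g → ℝ) × (Fin g → ℝ) => realCoord τ w.1 w.2 := by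
  unfold realCoord
  have h1 : Continuous fun v : Fin g → ℝ => ofRealVec v := by
    unfold ofRealVec
    exact continuous_pi fun i => Complex.continuous_ofReal.comp (continuous_apply i)
  exact (h1.comp continuous_fst).add
    (Continuous.matrix_mulVec continuous_const (h1.comp continuous_snd))

/-- **cocompactness**: a bounded set meeting every coset of the lattice. -/
theorem exists_bounded_fundamental (τ : Siegel g) :
    ∃ B : Set (Fin g → ℂ), Bornology.IsBounded B ∧ ∀ z, ∃ l ∈ lattice τ, z + l ∈ B := by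
  let K : Set ((Fin g → ℝ) × (Fin g → ℝ)) := Set.Icc 0 1 ×ˢ Set.Icc 0 1
  have hK : IsCompact K := isCompact_Icc.prod isCompact_Icc
  refine ⟨(fun w : (Fin g → ℝ) × (Fin g → ℝ) => realCoord τ w.1 w.2) '' K,
    (hK.image (continuous_realCoord τ)).isBounded, fun z => ?_⟩
  obtain ⟨x, y, rfl⟩ := exists_realCoord τ z
  refine ⟨realCoord τ (intVec fun i => -⌊x i⌋) (intVec fun i => -⌊y i⌋), ⟨_, _, rfl⟩, ?_⟩
  rw [← realCoord_add]
  refine ⟨(x + intVec fun i => -⌊x i⌋, y + intVec fun i => -⌊y i⌋), ⟨⟨?_, ?_⟩, ⟨?_, ?_⟩⟩, rfl⟩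
  all_goals
    intro i
    simp only [Pi.zero_apply, Pi.one_apply, Pi.add_apply, intVec, Int.cast_neg]
    first
      | linarith [Int.floor_le (x i)]
      | linarith [Int.lt_floor_add_one (x i)]
      | linarith [Int.floor_le (y i)]
      | linarith [Int.lt_floor_add_one (y i)]

/-- **(DENS)** for the Siegel lattice: torsion points outside a closed set with empty interior
are dense. -/
theorem dense_torsion_diff (τ : Siegel g) {W : Set (Fin g → ℂ)} (hW : IsClosed W)
    (hW0 : interior W = ∅) : Dense (ThetaGlue9.torsionSet (lattice τ) \ W) := by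
  classical
  -- the spanning family: `e_j` and `Ω e_j`
  let b : Fin (g + g) → (Fin g → ℂ) := fun k =>
    Fin.addCases (fun j => realCoord τ (intVec (Pi.single j 1)) 0)
      (fun j => realCoord τ 0 (intVec (Pi.single j 1))) k
  have hb : ∀ k, b k ∈ lattice τ := by
    intro k
    refine Fin.addCases (fun j => ?_) (fun j => ?_) k
    · simp only [b, Fin.addCases_left]
      exact ⟨Pi.single j 1, 0, by rw [intVec_zero]⟩
    · simp only [b, Fin.addCases_right]
      exact ⟨0, Pi.single j 1, by rw [intVec_zero]⟩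
  have hsingle : ∀ v : Fin g → ℝ, v = ∑ j, v j • intVec (Pi.single j (1 : ℤ)) := by
    intro v
    funext i
    simp only [Finset.sum_apply, Pi.smul_apply, smul_eq_mul, intVec]
    rw [Finset.sum_eq_single i (fun j _ hj => by simp [Ne.symm hj]) (by simp)]
    simp
  have hlin1 : ∀ (x : Fin g → ℝ), realCoord τ x 0 =
      ∑ j, x j • realCoord τ (intVec (Pi.single j 1)) 0 := by
    intro x
    conv_lhs => rw [hsingle x]
    simp only [realCoord, ofRealVec_zero, Matrix.mulVec_zero, add_zero]
    funext i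
    simp only [ofRealVec, Finset.sum_apply, Pi.smul_apply, smul_eq_mul, Complex.real_smul]
    push_cast
    rfl
  have hlin2 : ∀ (y : Fin g → ℝ), realCoord τ 0 y =
      ∑ j, y j • realCoord τ 0 (intVec (Pi.single j 1)) := by
    intro y
    conv_lhs => rw [hsingle y]
    simp only [realCoord, ofRealVec_zero, zero_add]
    have : ofRealVec (∑ j, y j • intVec (Pi.single j (1 : ℤ))) =
        ∑ j, (y j : ℂ) • ofRealVec (intVec (Pi.single j (1 : ℤ))) := by
      funext i
      simp only [ofRealVec, Finset.sum_apply, Pi.smul_apply, smul_eq_mul]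
      push_cast
      rfl
    rw [this, Matrix.mulVec_sum]
    refine Finset.sum_congr rfl fun j _ => ?_
    rw [Matrix.mulVec_smul]
    funext i
    simp [Complex.real_smul]
  refine ThetaGlue9.dense_torsionSet_diff (lattice τ) b hb (fun z => ?_) hW hW0
  obtain ⟨x, y, rfl⟩ := exists_realCoord τ z
  refine ⟨fun k => Fin.addCases x y k, ?_⟩
  rw [Fin.sum_univ_add]
  simp only [b, Fin.addCases_left, Fin.addCases_right]
  rw [← hlin1, ← hlin2, ← realCoord_add, add_zero, zero_add]

end Fermat.Agent.M17.SiegelLattice9
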